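/-
S26, wall (E), piece E-RR (helper79), part A: **the Riemann–Roch space calculus for places of
ANY finite degree** (constant field `K` arbitrary, no characteristic hypothesis).

`ES/RiemannGeneric.lean` (helper, ES-R1) treats the case "all residue fields equal to `K`".  Here:

* `s26err_deg_pos`            : `1 ≤ deg v` if the residue field of `v` is finite over `K`;
* `s26errRes`                 : the `K`-linear map `L(D + v) → κ(v)`, `f ↦ (f π ^ (D v + 1)) mod 𝔪_v`;
* `s26err_finite_add_single`  : `L(D)` finite-dimensional ⇒ `L(D + v)` finite-dimensional;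
* `s26err_finrank_add_single_le` : `dim L(D + v) ≤ dim L(D) + deg v`;
* `s26err_rr_finite`          : `L(D)` is finite-dimensional;
* `s26err_finrank_le`         : `A ≤ B → dim L(B) ≤ dim L(A) + (deg B − deg A)`;
* `s26err_finrank_le_degree_add_one` : `dim L(D) ≤ deg D + 1` for `0 ≤ D`... (for `deg D ≥ 0`);
* `s26err_riemann_transfer`   : Riemann's inequality for ALL divisors from divisors of large degree.

(Stichtenoth, *Algebraic function fields and codes*, 1.4.8, 1.4.9, 1.4.14.)
-/
import Fermat.Agent.ES.RiemannGeneric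

set_option autoImplicit false
set_option linter.unusedSectionVars false
set_option linter.unusedVariables false
set_option linter.style.haveILetI false

open AlgebraicCurve Module

namespace Fermat.Agent.S26

open Fermat.Agent.S24 Fermat.Agent.ES.R

variable {K F : Type*} [Field K] [Field F] [Algebra K F]

/-! ### Degrees -/

/-- a place with finite residue field has positive degree -/
theorem s26err_deg_pos (v : Place K F) (hfin : Module.Finite K v.ResidueField) : 1 ≤ v.deg := by
  unfold Place.deg
  haveI := hfin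
  exact Module.finrank_pos

/-! ### The residue map `L(D + v) → κ(v)` -/

/-- a uniformizer of `v` as an element of `F` -/
theorem s26err_exists_unif (v : Place K F) : ∃ π : F, π ≠ 0 ∧ v.ord π = 1 := by
  obtain ⟨π, hπ⟩ := IsDiscreteValuationRing.exists_irreducible v.toValuationSubring
  refine ⟨(π : F), fun h => hπ.ne_zero (Subtype.ext h), v.ord_coe_irreducible hπ⟩

/-- `f π ^ (D v + 1)` is integral at `v` for `f ∈ L(D + v)` -/
theorem s26err_mul_mem (D : Divisor K F) (v : Place K F) {π : F} (hπ0 : π ≠ 0)
    (hπ : v.ord π = 1) {f : F} (hf : f ∈ riemannRochSpace (D + Finsupp.single v 1)) :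
    f * π ^ (D v + 1) ∈ v.toValuationSubring := by
  rcases eq_or_ne f 0 with rfl | hf0
  · rw [zero_mul]; exact zero_mem _
  apply PlaceAux.mem_of_ord_nonneg
  rw [mem_riemannRochSpace_iff] at hf
  have h := (hf v).resolve_left hf0
  simp only [Finsupp.coe_add, Pi.add_apply, Finsupp.single_eq_same] at h
  rw [v.ord_mul hf0 (zpow_ne_zero _ hπ0), v.ord_zpow, hπ]
  linarith

/-- **the residue map** `L(D + v) → κ(v)` -/
noncomputable def s26errRes (D : Divisor K F) (v : Place K F) {π : F} (hπ0 : π ≠ 0)
    (hπ : v.ord π = 1) : ↥(riemannRochSpace (D + Finsupp.single v 1)) →ₗ[K] v.ResidueField where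
  toFun f := IsLocalRing.residue v.toValuationSubring
    ⟨(f : F) * π ^ (D v + 1), s26err_mul_mem D v hπ0 hπ f.2⟩
  map_add' f g := by
    rw [← map_add]
    congr 1
    apply Subtype.ext
    show ((f + g : ↥(riemannRochSpace (D + Finsupp.single v 1))) : F) * π ^ (D v + 1) =
      (f : F) * π ^ (D v + 1) + (g : F) * π ^ (D v + 1)
    rw [Submodule.coe_add, add_mul]
  map_smul' c f := by
    rw [RingHom.id_apply, Algebra.smul_def, ← IsLocalRing.ResidueField.algebraMap_eq,
      IsScalarTower.algebraMap_apply K v.toValuationSubring v.ResidueField,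
      IsLocalRing.ResidueField.algebraMap_eq, ← map_mul]
    congr 1
    apply Subtype.ext
    show ((c • f : ↥(riemannRochSpace (D + Finsupp.single v 1))) : F) * π ^ (D v + 1) =
      algebraMap K F c * ((f : F) * π ^ (D v + 1))
    rw [Submodule.coe_smul, Algebra.smul_def, mul_assoc]

/-- the kernel of the residue map is `L(D)` -/
theorem s26errRes_eq_zero_iff (D : Divisor K F) (v : Place K F) {π : F} (hπ0 : π ≠ 0)
    (hπ : v.ord π = 1) (f : ↥(riemannRochSpace (D + Finsupp.single v 1))) :
    s26errRes D v hπ0 hπ f = 0 ↔ (f : F) ∈ riemannRochSpace D := by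
  have hf := f.2
  rw [mem_riemannRochSpace_iff] at hf
  show IsLocalRing.residue v.toValuationSubring
    ⟨(f : F) * π ^ (D v + 1), s26err_mul_mem D v hπ0 hπ f.2⟩ = 0 ↔ _
  rw [IsLocalRing.residue_eq_zero_iff, mem_riemannRochSpace_iff]
  rcases eq_or_ne (f : F) 0 with h0 | h0
  · constructor
    · intro _ w
      exact Or.inl h0
    · intro _
      have e : (⟨(f : F) * π ^ (D v + 1), s26err_mul_mem D v hπ0 hπ f.2⟩ :
          v.toValuationSubring) = 0 := by
        apply Subtype.ext
        show (f : F) * π ^ (D v + 1) = 0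
        rw [h0, zero_mul]
      rw [e]
      exact zero_mem _
  have hx0 : (f : F) * π ^ (D v + 1) ≠ 0 := mul_ne_zero h0 (zpow_ne_zero _ hπ0)
  have hord : v.ord ((f : F) * π ^ (D v + 1)) = v.ord (f : F) + (D v + 1) := by
    rw [v.ord_mul h0 (zpow_ne_zero _ hπ0), v.ord_zpow, hπ, mul_one]
  have key : (⟨(f : F) * π ^ (D v + 1), s26err_mul_mem D v hπ0 hπ f.2⟩ : v.toValuationSubring) ∈
      IsLocalRing.maximalIdeal v.toValuationSubring ↔ 0 < v.ord ((f : F) * π ^ (D v + 1)) := by
    rw [PlaceAux.ord_pos_iff_mem_nonunits v hx0,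
      ValuationSubring.mem_nonunits_iff_exists_mem_maximalIdeal]
    exact ⟨fun h => ⟨_, h⟩, fun ⟨_, h⟩ => h⟩
  rw [key, hord]
  constructor
  · intro h w
    right
    by_cases hw : w = v
    · subst hw; omega
    · have hw' := (hf w).resolve_left h0
      simp only [Finsupp.coe_add, Pi.add_apply] at hw'
      rw [Finsupp.single_eq_of_ne (Ne.symm (Ne.symm hw)), add_zero] at hw'
      exact hw'
  · intro h
    have := (h v).resolve_left h0
    omega

/-- the inclusion of the kernel of the residue map into `L(D)` -/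
noncomputable def s26errKer (D : Divisor K F) (v : Place K F) {π : F} (hπ0 : π ≠ 0)
    (hπ : v.ord π = 1) :
    ↥(LinearMap.ker (s26errRes D v hπ0 hπ)) →ₗ[K] ↥(riemannRochSpace D) where
  toFun f := ⟨((f : ↥(riemannRochSpace (D + Finsupp.single v 1))) : F),
    (s26errRes_eq_zero_iff D v hπ0 hπ f.1).mp f.2⟩
  map_add' _ _ := rfl
  map_smul' _ _ := rfl

theorem s26errKer_injective (D : Divisor K F) (v : Place K F) {π : F} (hπ0 : π ≠ 0)
    (hπ : v.ord π = 1) : Function.Injective (s26errKer D v hπ0 hπ) := by
  intro f g h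
  apply Subtype.ext
  apply Subtype.ext
  exact congrArg (fun z : ↥(riemannRochSpace D) => (z : F)) h

/-- `L(D + v)` is finite-dimensional if `L(D)` is -/
theorem s26err_finite_add_single (D : Divisor K F) (v : Place K F)
    (hfin : Module.Finite K v.ResidueField) (hD : Module.Finite K ↥(riemannRochSpace D)) :
    Module.Finite K ↥(riemannRochSpace (D + Finsupp.single v 1)) := by
  obtain ⟨π, hπ0, hπ⟩ := s26err_exists_unif v
  haveI := hfin
  haveI := hD
  haveI : Module.Finite K ↥(LinearMap.ker (s26errRes D v hπ0 hπ)) :=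
    Module.Finite.of_injective (s26errKer D v hπ0 hπ) (s26errKer_injective D v hπ0 hπ)
  refine ⟨(⊤ : Submodule K _).fg_of_fg_map_of_fg_inf_ker (s26errRes D v hπ0 hπ) ?_ ?_⟩
  · exact IsNoetherian.noetherian _
  · rw [top_inf_eq]
    exact Module.Finite.iff_fg.mp inferInstance

/-- **`dim L(D + v) ≤ dim L(D) + deg v`** -/
theorem s26err_finrank_add_single_le (D : Divisor K F) (v : Place K F)
    (hfin : Module.Finite K v.ResidueField) (hD : Module.Finite K ↥(riemannRochSpace D)) :
    finrank K ↥(riemannRochSpace (D + Finsupp.single v 1)) ≤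
      finrank K ↥(riemannRochSpace D) + v.deg := by
  obtain ⟨π, hπ0, hπ⟩ := s26err_exists_unif v
  haveI := hfin
  haveI := hD
  haveI := s26err_finite_add_single D v hfin hD
  have h1 := LinearMap.finrank_range_add_finrank_ker (s26errRes D v hπ0 hπ)
  have h2 : finrank K ↥(LinearMap.ker (s26errRes D v hπ0 hπ)) ≤
      finrank K ↥(riemannRochSpace D) :=
    LinearMap.finrank_le_finrank_of_injective (s26errKer_injective D v hπ0 hπ)
  have h3 : finrank K ↥(LinearMap.range (s26errRes D v hπ0 hπ)) ≤ v.deg :=
    Submodule.finrank_le _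
  omega

/-! ### Finite-dimensionality -/

theorem s26err_rr_finite_aux [HasPrincipalDivisors K F] (v₀ : Place K F)
    (hfin : ∀ v : Place K F, Module.Finite K v.ResidueField) :
    ∀ (n : ℕ) (D : Divisor K F), Divisor.degree D < n →
      Module.Finite K ↥(riemannRochSpace D) := by
  intro n
  induction n with
  | zero =>
    intro D hD
    rw [rr_eq_bot_of_degree_neg (by simpa using hD)]
    infer_instance
  | succ n ih =>
    intro D hD
    set D' : Divisor K F := D - Finsupp.single v₀ 1 with hD'
    have h1 := s26err_deg_pos v₀ (hfin v₀)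
    have hdeg : Divisor.degree D' < n := by
      rw [hD', map_sub, Divisor.degree_single]
      push_cast at hD ⊢
      have : (1 : ℤ) ≤ (v₀.deg : ℤ) := by exact_mod_cast h1
      linarith
    have h2 := s26err_finite_add_single D' v₀ (hfin v₀) (ih D' hdeg)
    have hDD : D' + Finsupp.single v₀ 1 = D := by rw [hD']; abel
    rwa [hDD] at h2

/-- **`L(D)` is finite-dimensional** -/
theorem s26err_rr_finite [HasPrincipalDivisors K F] (v₀ : Place K F)
    (hfin : ∀ v : Place K F, Module.Finite K v.ResidueField)
    (D : Divisor K F) : Module.Finite K ↥(riemannRochSpace D) := by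
  obtain ⟨n, hn⟩ : ∃ n : ℕ, Divisor.degree D < n :=
    ⟨(Divisor.degree D).toNat + 1, by push_cast; have := Int.self_le_toNat (Divisor.degree D); omega⟩
  exact s26err_rr_finite_aux v₀ hfin n D hn

/-! ### `dim L(B) ≤ dim L(A) + deg (B − A)` -/

theorem s26err_finrank_le_of_le [HasPrincipalDivisors K F]
    (hfin : ∀ v : Place K F, Module.Finite K v.ResidueField) :
    ∀ (n : ℕ) (A B : Divisor K F), A ≤ B → Divisor.degree B - Divisor.degree A ≤ n →
      (finrank K ↥(riemannRochSpace B) : ℤ) ≤
        finrank K ↥(riemannRochSpace A) + (Divisor.degree B - Divisor.degree A) := by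
  intro n
  induction n with
  | zero =>
    intro A B hAB hdeg
    by_cases hEq : A = B
    · subst hEq; simp
    exfalso
    obtain ⟨v, hv⟩ : ∃ v, A v < B v := by
      by_contra hcon
      exact hEq (le_antisymm hAB (Finsupp.le_def.mpr fun w =>
        not_lt.mp fun hw => hcon ⟨w, hw⟩))
    have h1 : A ≤ B - Finsupp.single v 1 := by
      rw [Finsupp.le_def]
      intro w
      by_cases hw : w = v
      · subst hw; simp; omega
      · have := Finsupp.le_def.mp hAB w
        simp [Finsupp.single_eq_of_ne (Ne.symm (Ne.symm hw)), this]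
    have h2 := degree_mono h1
    rw [map_sub, Divisor.degree_single] at h2
    have h3 : (1 : ℤ) ≤ (v.deg : ℤ) := by exact_mod_cast s26err_deg_pos v (hfin v)
    push_cast at h2 hdeg
    linarith
  | succ n ih =>
    intro A B hAB hdeg
    by_cases hEq : A = B
    · subst hEq; simp
    obtain ⟨v, hv⟩ : ∃ v, A v < B v := by
      by_contra hcon
      exact hEq (le_antisymm hAB (Finsupp.le_def.mpr fun w =>
        not_lt.mp fun hw => hcon ⟨w, hw⟩))
    set B' : Divisor K F := B - Finsupp.single v 1 with hB'
    have h1 : A ≤ B' := by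
      rw [Finsupp.le_def]
      intro w
      by_cases hw : w = v
      · subst hw; simp [hB']; omega
      · have := Finsupp.le_def.mp hAB w
        simp [hB', Finsupp.single_eq_of_ne (Ne.symm (Ne.symm hw)), this]
    have hv1 : (1 : ℤ) ≤ (v.deg : ℤ) := by exact_mod_cast s26err_deg_pos v (hfin v)
    have hdB : Divisor.degree B' = Divisor.degree B - v.deg := by
      rw [hB', map_sub, Divisor.degree_single]; simp
    have h3 := ih A B' h1 (by rw [hdB]; push_cast at hdeg; linarith)
    have h4 := s26err_finrank_add_single_le B' v (hfin v) (s26err_rr_finite v hfin B')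
    have hBB : B' + Finsupp.single v 1 = B := by rw [hB']; abel
    rw [hBB] at h4
    rw [hdB] at h3
    have h5 : (finrank K ↥(riemannRochSpace B) : ℤ) ≤
        finrank K ↥(riemannRochSpace B') + v.deg := by exact_mod_cast h4
    linarith

/-- **`A ≤ B → dim L(B) ≤ dim L(A) + (deg B − deg A)`** -/
theorem s26err_finrank_le [HasPrincipalDivisors K F]
    (hfin : ∀ v : Place K F, Module.Finite K v.ResidueField)
    {A B : Divisor K F} (hAB : A ≤ B) :
    (finrank K ↥(riemannRochSpace B) : ℤ) ≤
      finrank K ↥(riemannRochSpace A) + (Divisor.degree B - Divisor.degree A) := by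
  have h0 := degree_mono hAB
  refine s26err_finrank_le_of_le hfin (Divisor.degree B - Divisor.degree A).toNat A B hAB ?_
  exact Int.self_le_toNat _

/-- the constants lie in `L(0)` -/
theorem s26err_algebraMap_mem_rr_zero (c : K) :
    algebraMap K F c ∈ riemannRochSpace (0 : Divisor K F) := by
  rw [mem_riemannRochSpace_iff]
  intro v
  right
  rw [PlaceAux.ord_algebraMap]
  simp

/-- **`dim L(D) ≤ deg D + 1`** for `0 ≤ D`, if `L(0) = K` (the constants are the only functions
without poles). -/
theorem s26err_finrank_le_degree_add_one [HasPrincipalDivisors K F]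
    (hfin : ∀ v : Place K F, Module.Finite K v.ResidueField)
    (h0 : finrank K ↥(riemannRochSpace (0 : Divisor K F)) ≤ 1)
    {D : Divisor K F} (hD : 0 ≤ D) :
    (finrank K ↥(riemannRochSpace D) : ℤ) ≤ Divisor.degree D + 1 := by
  have h := s26err_finrank_le hfin hD
  rw [map_zero, sub_zero] at h
  have h0' : (finrank K ↥(riemannRochSpace (0 : Divisor K F)) : ℤ) ≤ 1 := by exact_mod_cast h0
  linarith

/-! ### Riemann's inequality by transfer -/

/-- **Riemann's inequality, transfer form**, places of any finite degree.  If there are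
divisors `B` of arbitrarily large degree with `deg B + 1 − g ≤ dim L(B)`, then
`deg A + 1 − g ≤ dim L(A)` for every divisor `A`. -/
theorem s26err_riemann_transfer [HasPrincipalDivisors K F]
    (hfin : ∀ v : Place K F, Module.Finite K v.ResidueField) (g : ℤ)
    (hB : ∀ m : ℤ, ∃ B : Divisor K F, m ≤ Divisor.degree B ∧
      Divisor.degree B + 1 - g ≤ (finrank K ↥(riemannRochSpace B) : ℤ))
    (A : Divisor K F) :
    Divisor.degree A + 1 - g ≤ (finrank K ↥(riemannRochSpace A) : ℤ) := by
  classical
  set A₁ : Divisor K F := A ⊔ 0 with hA₁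
  have hAA₁ : A ≤ A₁ := le_sup_left
  have h0A₁ : 0 ≤ A₁ := le_sup_right
  have h1 := s26err_finrank_le hfin hAA₁
  obtain ⟨B, hBdeg, hBdim⟩ := hB (Divisor.degree A₁ + g)
  have hBA : B - A₁ ≤ B := sub_le_self B h0A₁
  have h2 := s26err_finrank_le hfin hBA
  rw [map_sub] at h2
  have hpos : 0 < finrank K ↥(riemannRochSpace (B - A₁)) := by
    have : (0 : ℤ) < finrank K ↥(riemannRochSpace (B - A₁)) := by linarith
    exact_mod_cast this
  have := Module.nontrivial_of_finrank_pos hpos
  obtain ⟨⟨z, hzmem⟩, hz0'⟩ := exists_ne (0 : ↥(riemannRochSpace (B - A₁)))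
  have hz0 : z ≠ 0 := fun h => hz0' (Subtype.ext h)
  obtain ⟨Z, hZ, hZdeg⟩ := HasPrincipalDivisors.exists_divisor (K := K) z hz0
  set D : Divisor K F := A₁ - Z with hD
  have hDB : D ≤ B := by
    rw [Finsupp.le_def]
    intro v
    rw [mem_riemannRochSpace_iff] at hzmem
    have := (hzmem v).resolve_left hz0
    simp only [hD, Finsupp.coe_sub, Pi.sub_apply, hZ v] at this ⊢
    linarith
  have hDdeg : Divisor.degree D = Divisor.degree A₁ := by
    rw [hD, map_sub, hZdeg, sub_zero]
  have hDdim : finrank K ↥(riemannRochSpace D) = finrank K ↥(riemannRochSpace A₁) :=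
    rr_finrank_eq_of_principal hz0 (fun v => by simp [hD, hZ v])
  have h3 := s26err_finrank_le hfin hDB
  rw [hDdim, hDdeg] at h3
  linarith

end Fermat.Agent.S26
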