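/-
S26-E, piece E-RIG, step 1 (helper97): the RIGIDITY core (CONST′) of NOTES/S26-E.md §2 (c) as
PURE valuation theory (Mathlib only, no scheme, no interface).

* `s26erig_exists_dominating_not_mem` : Stacks 090P (2) WITHOUT normality: `x` not integral over
  the local subring `R` of the field `Ω` ⇒ some valuation subring dominating `R` misses `x`.
* `s26erig_isIntegral_of_forall_dominating` : `β ∈ V` for every valuation subring `V` of `Ω`
  dominating `R` ⇒ `β` is integral over `R`.
* `s26erig_mem_subfield` : if moreover `R ⊆ M`, `M` a subfield algebraically closed in `Ω`, then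
  `β ∈ M`; `s26erig_mem_of_normal` : and `β ∈ R` if `R` is integrally closed in `M`.
* hom forms (`R₀` local ring, `i : R₀ →+* M`, `j : M →+* Ω`): `s26erig_hom_integral`,
  `s26erig_hom_const`, `s26erig_hom_mem`.
* `s26erig_eq_of_sub_mem_nonunits` : `b, b₀ ∈ M ⊆ V`, `b − b₀ ∈ 𝔪_V` ⇒ `b = b₀`.
* `s26erig_exists_valuation_over` : a proper ideal of a subring lies in `𝔪_V` for some `V`.
* `s26erig_rigid` : the two steps together = (CONST′).
-/
import Mathlib

set_option autoImplicit false

namespace Fermat.Agent.S26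

open IsLocalRing Algebra Polynomial

variable {Ω : Type*} [Field Ω]

set_option backward.isDefEq.respectTransparency.types false in
/-- Stacks 090P (2) without normality: an element which is not integral over a local subring
`R` of a field is missed by some valuation subring dominating `R`. -/
theorem s26erig_exists_dominating_not_mem {x : Ω} {R : LocalSubring Ω}
    (hx : ¬ IsIntegral R.toSubring x) :
    ∃ V : ValuationSubring Ω, R ≤ V.toLocalSubring ∧ x ∉ V := by
  obtain rfl | hx0 := eq_or_ne x 0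
  · exact (hx isIntegral_zero).elim
  let := invertibleOfNonzero hx0
  let B := R.toSubring[x⁻¹]
  let xinv : B.toSubring := ⟨x⁻¹, subset_adjoin rfl⟩
  have : (maximalIdeal R.toSubring).map (algebraMap _ B) + .span {xinv} ≠ ⊤ := fun eq ↦ hx <|
    have ⟨p, hp, hpx⟩ := exists_aeval_invOf_eq_zero_of_idealMap_adjoin_sup_span_eq_top _ _
      (maximalIdeal.isMaximal R.toSubring).ne_top eq
    have H : IsUnit p.leadingCoeff := of_not_not fun h ↦ by simpa using sub_mem h hp
    ⟨.C H.unit⁻¹.1 * p, by simp [Polynomial.Monic], by simpa using .inr hpx⟩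
  have ⟨V, hV⟩ := Ideal.image_subset_nonunits_valuationSubring (A := B.toSubring) _ this
  refine ⟨V, ⟨fun r hr ↦ hV.1 (B.algebraMap_mem ⟨r, hr⟩),
    ((local_hom_TFAE _).out 3 0).mp fun r hr ↦ ?_⟩, (V.inv_mem_nonunits_iff.mp <|
      hV.2 ⟨_, le_add_self (α := Ideal B) (Ideal.subset_span rfl), rfl⟩).resolve_left hx0⟩
  rw [← V.image_maximalIdeal] at hV
  obtain ⟨⟨r, _⟩, hr, rfl⟩ := hV.2 ⟨_, le_self_add (α := Ideal B) (Ideal.mem_map_of_mem _ hr), rfl⟩
  exact hr

/-- **Rigidity, step 1.**  An element lying in every valuation subring that dominates the local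
subring `R` is integral over `R`. -/
theorem s26erig_isIntegral_of_forall_dominating (R : LocalSubring Ω) (β : Ω)
    (h : ∀ V : ValuationSubring Ω, R ≤ V.toLocalSubring → β ∈ V) :
    IsIntegral R.toSubring β := by
  by_contra hβ
  obtain ⟨V, hV, hβV⟩ := s26erig_exists_dominating_not_mem hβ
  exact hβV (h V hV)

/-- The range of a local ring in a field, as a local subring (with `toSubring = e.range`
definitionally). -/
def s26erigRange {R₀ : Type*} [CommRing R₀] [IsLocalRing R₀] (e : R₀ →+* Ω) : LocalSubring Ω :=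
  @LocalSubring.mk _ _ e.range (.of_surjective' e.rangeRestrict e.rangeRestrict_surjective)

/-- Domination of the range of a local ring by a valuation subring, in elementary terms. -/
theorem s26erig_range_le_iff {R₀ : Type*} [CommRing R₀] [IsLocalRing R₀] (e : R₀ →+* Ω)
    (V : ValuationSubring Ω) :
    s26erigRange e ≤ V.toLocalSubring ↔
      (∀ r, e r ∈ V) ∧ ∀ r ∈ maximalIdeal R₀, e r ∈ V.nonunits := by
  constructor
  · rintro ⟨h1, h2⟩
    have hmem : ∀ r, e r ∈ V := fun r => h1 (show e r ∈ e.range from ⟨r, rfl⟩)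
    refine ⟨hmem, fun r hr => ?_⟩
    rw [ValuationSubring.mem_nonunits_iff_exists_mem_maximalIdeal]
    refine ⟨hmem r, ?_⟩
    rw [IsLocalRing.mem_maximalIdeal, mem_nonunits_iff] at hr ⊢
    intro hu
    apply hr
    have hloc : IsLocalHom ((Subring.inclusion h1).comp e.rangeRestrict) :=
      @RingHom.isLocalHom_comp _ _ _ _ _ _ _ _ h2
        (.of_surjective _ e.rangeRestrict_surjective)
    exact hloc.1 r hu
  · rintro ⟨h1, h2⟩
    have hle : (s26erigRange e).toSubring ≤ V.toLocalSubring.toSubring := by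
      rintro _ ⟨r, rfl⟩
      exact h1 r
    refine ⟨hle, ⟨?_⟩⟩
    rintro ⟨_, r, rfl⟩ hu
    by_contra hnu
    have hr : r ∈ maximalIdeal R₀ := by
      rw [IsLocalRing.mem_maximalIdeal, mem_nonunits_iff]
      intro hru
      exact hnu (hru.map e.rangeRestrict)
    have h3 := h2 r hr
    rw [ValuationSubring.mem_nonunits_iff_exists_mem_maximalIdeal] at h3
    obtain ⟨h4, h5⟩ := h3
    rw [IsLocalRing.mem_maximalIdeal, mem_nonunits_iff] at h5
    exact h5 hu

/-- **Rigidity, step 1, hom form.**  `R₀` a local ring, `e : R₀ →+* Ω`.  If `β` lies in every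
valuation subring `V` of `Ω` with `e R₀ ⊆ V`, `e 𝔪 ⊆ 𝔪_V`, then `β` is integral over `R₀`. -/
theorem s26erig_hom_integral {R₀ : Type*} [CommRing R₀] [IsLocalRing R₀] (e : R₀ →+* Ω) (β : Ω)
    (h : ∀ V : ValuationSubring Ω, (∀ r, e r ∈ V) →
      (∀ r ∈ maximalIdeal R₀, e r ∈ V.nonunits) → β ∈ V) :
    e.IsIntegralElem β := by
  have hR : IsIntegral e.range β :=
      s26erig_isIntegral_of_forall_dominating (s26erigRange e) β (fun V hV => by
    obtain ⟨h1, h2⟩ := (s26erig_range_le_iff e V).1 hV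
    exact h V h1 h2)
  obtain ⟨p, hp, hpβ⟩ := hR
  have hsurj : Function.Surjective e.rangeRestrict := e.rangeRestrict_surjective
  have hlift : p ∈ Polynomial.lifts e.rangeRestrict := by
    rw [Polynomial.lifts_iff_coeff_lifts]
    intro n
    exact hsurj _
  obtain ⟨q, hq, -, hqm⟩ := Polynomial.lifts_and_degree_eq_and_monic hlift hp
  refine ⟨q, hqm, ?_⟩
  have h1 : Polynomial.eval₂ (e.range.subtype) β (q.map e.rangeRestrict) = 0 := by
    rw [hq]
    exact hpβ
  rw [Polynomial.eval₂_map] at h1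
  exact h1

/-- **Rigidity, step 1 + constants.**  `i : R₀ →+* M`, `j : M →+* Ω` with `M` a field which is
algebraically closed in `Ω`.  If `β` lies in every valuation subring dominating the image of `R₀`,
then `β = j b` with `b ∈ M` integral over `R₀`. -/
theorem s26erig_hom_const {R₀ M : Type*} [CommRing R₀] [IsLocalRing R₀] [Field M]
    (i : R₀ →+* M) (j : M →+* Ω)
    (hM : ∀ x : Ω, j.IsIntegralElem x → x ∈ j.range) (β : Ω)
    (h : ∀ V : ValuationSubring Ω, (∀ r, j (i r) ∈ V) →
      (∀ r ∈ maximalIdeal R₀, j (i r) ∈ V.nonunits) → β ∈ V) :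
    ∃ b : M, j b = β ∧ i.IsIntegralElem b := by
  obtain ⟨p, hp, hpβ⟩ := s26erig_hom_integral (j.comp i) β h
  have hβ : j.IsIntegralElem β := by
    refine ⟨p.map i, hp.map i, ?_⟩
    rw [Polynomial.eval₂_map]
    exact hpβ
  obtain ⟨b, rfl⟩ := hM β hβ
  refine ⟨b, rfl, p, hp, ?_⟩
  apply j.injective
  rw [map_zero, Polynomial.hom_eval₂]
  exact hpβ

/-- **Rigidity, step 1, normal case.**  If moreover `R₀` is an integrally closed domain with
fraction field `M`, then `β = j (r)` with `r ∈ R₀`. -/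
theorem s26erig_hom_mem {R₀ M : Type*} [CommRing R₀] [IsLocalRing R₀] [IsDomain R₀]
    [IsIntegrallyClosed R₀] [Field M] [Algebra R₀ M] [IsFractionRing R₀ M] (j : M →+* Ω)
    (hM : ∀ x : Ω, j.IsIntegralElem x → x ∈ j.range) (β : Ω)
    (h : ∀ V : ValuationSubring Ω, (∀ r, j (algebraMap R₀ M r) ∈ V) →
      (∀ r ∈ maximalIdeal R₀, j (algebraMap R₀ M r) ∈ V.nonunits) → β ∈ V) :
    ∃ r : R₀, j (algebraMap R₀ M r) = β := by
  obtain ⟨b, rfl, hb⟩ := s26erig_hom_const (algebraMap R₀ M) j hM β h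
  obtain ⟨r, rfl⟩ := IsIntegrallyClosed.algebraMap_eq_of_integral (R := R₀) (K := M) hb
  exact ⟨r, rfl⟩

/-- "`M` is algebraically closed in `Ω`" in `Algebra` language gives the hypothesis `hM`. -/
theorem s26erig_hM_of_algebra {M : Type*} [Field M] [Algebra M Ω]
    (hM : ∀ x : Ω, IsAlgebraic M x → x ∈ (algebraMap M Ω).range) :
    ∀ x : Ω, (algebraMap M Ω).IsIntegralElem x → x ∈ (algebraMap M Ω).range :=
  fun x hx => hM x (IsIntegral.isAlgebraic hx)

/-- **(R3) core.**  `j : M →+* Ω`, `M` algebraically closed in `Ω`: an element of `Ω` lying in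
every valuation subring that contains `j M` comes from `M`. -/
theorem s26erig_descent {M : Type*} [Field M] (j : M →+* Ω)
    (hM : ∀ x : Ω, j.IsIntegralElem x → x ∈ j.range) (β : Ω)
    (h : ∀ V : ValuationSubring Ω, (∀ m, j m ∈ V) → β ∈ V) : β ∈ j.range := by
  obtain ⟨b, rfl, -⟩ := s26erig_hom_const (RingHom.id M) j hM β (fun V h1 _ => h V h1)
  exact ⟨b, rfl⟩

/-- **Rigidity, step 2.**  Two elements of `M ⊆ V` which are congruent modulo `𝔪_V` are equal. -/
theorem s26erig_eq_of_sub_mem_nonunits {M : Type*} [Field M] (j : M →+* Ω)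
    (V : ValuationSubring Ω) (hV : ∀ m, j m ∈ V) (b b₀ : M) (h : j b - j b₀ ∈ V.nonunits) :
    b = b₀ := by
  by_contra hne
  have hsub : b - b₀ ≠ 0 := sub_ne_zero.2 hne
  rw [ValuationSubring.mem_nonunits_iff_exists_mem_maximalIdeal] at h
  obtain ⟨h1, h2⟩ := h
  rw [IsLocalRing.mem_maximalIdeal, mem_nonunits_iff] at h2
  apply h2
  refine IsUnit.of_mul_eq_one (⟨j (b - b₀)⁻¹, hV _⟩ : V) ?_
  apply Subtype.ext
  show (j b - j b₀) * j (b - b₀)⁻¹ = 1
  rw [← map_sub, ← map_mul, mul_inv_cancel₀ hsub, map_one]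

/-- **Existence of centres.**  `τ : T →+* Ω`, `I` a proper ideal of `T` containing `ker τ`: some
valuation subring of `Ω` contains `τ T` and has `τ I` in its maximal ideal. -/
theorem s26erig_exists_valuation_over {T : Type*} [CommRing T] (τ : T →+* Ω) (I : Ideal T)
    (hI : I ≠ ⊤) (hker : RingHom.ker τ ≤ I) :
    ∃ V : ValuationSubring Ω, (∀ t, τ t ∈ V) ∧ ∀ t ∈ I, τ t ∈ V.nonunits := by
  have hJ : I.map τ.rangeRestrict ≠ ⊤ := by
    intro htop
    apply hI
    rw [Ideal.eq_top_iff_one]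
    have h1 : (1 : τ.range) ∈ I.map τ.rangeRestrict := by rw [htop]; trivial
    rw [Ideal.mem_map_iff_of_surjective _ τ.rangeRestrict_surjective] at h1
    obtain ⟨t, ht, h1t⟩ := h1
    have h2 : τ (1 - t) = 0 := by
      have := congrArg Subtype.val h1t
      simp only [RingHom.coe_rangeRestrict, OneMemClass.coe_one] at this
      rw [map_sub, map_one, this, sub_self]
    have h3 : 1 - t ∈ I := hker h2
    have : (1 : T) = (1 - t) + t := by ring
    rw [this]
    exact I.add_mem h3 ht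
  obtain ⟨V, hV1, hV2⟩ := Ideal.image_subset_nonunits_valuationSubring _ hJ
  refine ⟨V, fun t => hV1 (show τ t ∈ τ.range from ⟨t, rfl⟩), fun t ht => ?_⟩
  exact hV2 ⟨τ.rangeRestrict t, Ideal.mem_map_of_mem _ ht, rfl⟩

/-- **(CONST′)** of NOTES/S26-E.md §2 (c).  `j : M →+* Ω` (`M = K(z)`), `M` algebraically closed
in `Ω`; `i : R₀ →+* M` a local ring (`O_{A,0}` in the variable `z`); `β₀ ∈ M` (a constant).
If `β − β₀ ∈ 𝔪_V` for every valuation subring `V` of `Ω` centred at `z = 0` (dominating `R₀`),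
and for at least one valuation subring `V ⊇ M`, then `β = β₀`. -/
theorem s26erig_rigid {R₀ M : Type*} [CommRing R₀] [IsLocalRing R₀] [Field M]
    (i : R₀ →+* M) (j : M →+* Ω)
    (hM : ∀ x : Ω, j.IsIntegralElem x → x ∈ j.range) (β : Ω) (β₀ : M)
    (h1 : ∀ V : ValuationSubring Ω, (∀ r, j (i r) ∈ V) →
      (∀ r ∈ maximalIdeal R₀, j (i r) ∈ V.nonunits) → β - j β₀ ∈ V.nonunits)
    (h2 : ∃ V : ValuationSubring Ω, (∀ m, j m ∈ V) ∧ β - j β₀ ∈ V.nonunits) :
    β = j β₀ := by
  obtain ⟨b, hb, -⟩ := s26erig_hom_const i j hM (β - j β₀) (fun V hV1 hV2 =>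
    (ValuationSubring.mem_nonunits_iff_exists_mem_maximalIdeal.1 (h1 V hV1 hV2)).1)
  obtain ⟨V, hV, hβ⟩ := h2
  have hb0 : b = 0 := by
    apply s26erig_eq_of_sub_mem_nonunits j V hV
    rw [map_zero, sub_zero, hb]
    exact hβ
  rw [hb0, map_zero] at hb
  exact (sub_eq_zero.1 hb.symm)

end Fermat.Agent.S26
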