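/-
S26, wall (E), piece E-RR (helper79), part B1: **valuation rings of a function field of one
variable are places, with finite residue fields** — constant field `K` ARBITRARY, any
characteristic (no separability, no integral closure).

Setting: `K ⊆ F` fields, `x ∈ F` transcendental over `K`, `[F : K(x)] < ∞`.

* `s26err_card_le_finrank` (L1): a finite family in a `K[y]`-stable `K`-subspace `W ⊆ F` which is
  `K`-independent modulo `y W` is independent over `K(y)`; so its size is `≤ [F : K(y)]`;
* `s26err_flag` : triangular families along a flag of subspaces are independent modulo the bottom;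
* `s26err_isPrincipalIdealRing` : a valuation subring `V ≠ ⊤` of `F` containing `K` is a PID;
* `s26errPlaceOf` : the place of such a `V`;
* `s26err_residue_finite`, `s26err_deg_le` : `κ(v)` is finite over `K`, `deg v ≤ [F : K(y)]` for
  `0 ≠ y ∈ 𝔪_v`;
* `s26err_exists_place_pos`, `s26err_exists_place_neg` : a transcendental `f` has a zero and a pole.

(Stichtenoth, *Algebraic function fields and codes*, 1.1.6, 1.1.15, 1.1.19, 1.1.20.)
-/
import Fermat.Agent.S26.ERR1
import Fermat.Agent.S26.ERigCore
import Fermat.Agent.S24.PrincipalDegree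
import Fermat.Agent.S36.WeakApproxN

set_option autoImplicit false
set_option linter.unusedSectionVars false
set_option linter.unusedVariables false
set_option linter.style.haveILetI false

open AlgebraicCurve Module Polynomial IntermediateField

namespace Fermat.Agent.S26

open Fermat.Agent.S24 Fermat.Agent.ES.R Fermat.Agent.STB

variable {K F : Type*} [Field K] [Field F] [Algebra K F]

/-! ### L1: independence modulo `y W` gives independence over `K(y)` -/

theorem s26err_aeval_mul_mem (x : F) (W : Submodule K F) (hxW : ∀ w ∈ W, x * w ∈ W)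
    (q : K[X]) : ∀ w ∈ W, aeval x q * w ∈ W := by
  induction q using Polynomial.induction_on' with
  | add p q hp hq =>
    intro w hw
    rw [map_add, add_mul]
    exact W.add_mem (hp w hw) (hq w hw)
  | monomial n a =>
    intro w hw
    rw [aeval_monomial, mul_assoc, ← Algebra.smul_def]
    apply W.smul_mem
    induction n with
    | zero => simpa using hw
    | succ n ih =>
      rw [pow_succ', mul_assoc]
      exact hxW _ ih

theorem s26err_poly_step {ι : Type*} (s : Finset ι) (z : ι → F) (x : F) (hx0 : x ≠ 0)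
    (W : Submodule K F) (hxW : ∀ w ∈ W, x * w ∈ W) (hz : ∀ i ∈ s, z i ∈ W)
    (hind : ∀ a : ι → K, (∃ w ∈ W, ∑ i ∈ s, a i • z i = x * w) → ∀ i ∈ s, a i = 0)
    (p : ι → K[X]) (h : ∑ i ∈ s, aeval x (p i) * z i = 0) :
    (∀ i ∈ s, (p i).coeff 0 = 0) ∧ ∑ i ∈ s, aeval x (p i).divX * z i = 0 := by
  have hsplit : ∀ i, aeval x (p i) =
      aeval x (p i).divX * x + algebraMap K F ((p i).coeff 0) := by
    intro i
    conv_lhs => rw [← divX_mul_X_add (p i)]
    simp
  have hsum : ∑ i ∈ s, aeval x (p i) * z i =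
      x * (∑ i ∈ s, aeval x (p i).divX * z i) + ∑ i ∈ s, (p i).coeff 0 • z i := by
    rw [Finset.mul_sum, ← Finset.sum_add_distrib]
    refine Finset.sum_congr rfl fun i _ => ?_
    rw [hsplit i, Algebra.smul_def]
    ring
  rw [h] at hsum
  have h1 : ∑ i ∈ s, (p i).coeff 0 • z i = x * (-∑ i ∈ s, aeval x (p i).divX * z i) := by
    rw [mul_neg]
    linear_combination -hsum
  have hw : -∑ i ∈ s, aeval x (p i).divX * z i ∈ W :=
    W.neg_mem (W.sum_mem fun i hi => s26err_aeval_mul_mem x W hxW _ _ (hz i hi))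
  have ha := hind (fun i => (p i).coeff 0) ⟨_, hw, h1⟩
  refine ⟨ha, ?_⟩
  have e : ∑ i ∈ s, (p i).coeff 0 • z i = 0 :=
    Finset.sum_eq_zero fun i hi => by rw [ha i hi, zero_smul]
  rw [e, add_zero] at hsum
  exact (mul_eq_zero.mp hsum.symm).resolve_left hx0

theorem s26err_poly_indep {ι : Type*} (s : Finset ι) (z : ι → F) (x : F) (hx0 : x ≠ 0)
    (W : Submodule K F) (hxW : ∀ w ∈ W, x * w ∈ W) (hz : ∀ i ∈ s, z i ∈ W)
    (hind : ∀ a : ι → K, (∃ w ∈ W, ∑ i ∈ s, a i • z i = x * w) → ∀ i ∈ s, a i = 0) :
    ∀ (d : ℕ) (p : ι → K[X]), (∀ i ∈ s, (p i).natDegree ≤ d) →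
      ∑ i ∈ s, aeval x (p i) * z i = 0 → ∀ i ∈ s, p i = 0 := by
  intro d
  induction d with
  | zero =>
    intro p hd h i hi
    obtain ⟨h0, -⟩ := s26err_poly_step s z x hx0 W hxW hz hind p h
    rw [Polynomial.eq_C_of_natDegree_le_zero (hd i hi), h0 i hi, C_0]
  | succ d ih =>
    intro p hd h i hi
    obtain ⟨h0, h1⟩ := s26err_poly_step s z x hx0 W hxW hz hind p h
    have h2 := ih (fun i => (p i).divX) (fun i hi => by
      rw [natDegree_divX_eq_natDegree_tsub_one]
      have := hd i hi
      omega) h1 i hi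
    have h3 := divX_mul_X_add (p i)
    rw [h2, h0 i hi] at h3
    rw [← h3]
    simp

open IntermediateField.algebraAdjoinAdjoin in
/-- **L1.**  A finite family in a `K[x]`-stable `K`-subspace `W` of `F`, `K`-independent modulo
`x W`, has at most `[F : K(x)]` members. -/
theorem s26err_card_le_finrank {ι : Type*} (s : Finset ι) (z : ι → F) (x : F) (hx0 : x ≠ 0)
    [FiniteDimensional K⟮x⟯ F]
    (W : Submodule K F) (hxW : ∀ w ∈ W, x * w ∈ W) (hz : ∀ i ∈ s, z i ∈ W)
    (hind : ∀ a : ι → K, (∃ w ∈ W, ∑ i ∈ s, a i • z i = x * w) → ∀ i ∈ s, a i = 0) :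
    s.card ≤ finrank K⟮x⟯ F := by
  classical
  have hli : LinearIndependent (Algebra.adjoin K {x}) (fun i : s => z i) := by
    rw [Fintype.linearIndependent_iff]
    intro g hg
    have hgp : ∀ i : s, ∃ p : K[X], aeval x p = ((g i : Algebra.adjoin K {x}) : F) := by
      intro i
      have h1 : ((g i : Algebra.adjoin K {x}) : F) ∈ (Polynomial.aeval x : K[X] →ₐ[K] F).range := by
        rw [← Algebra.adjoin_singleton_eq_range_aeval]
        exact (g i).2
      exact h1
    choose p hp using hgp
    let p' : ι → K[X] := fun j => if h : j ∈ s then p ⟨j, h⟩ else 0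
    have hp' : ∀ i : s, p' i = p i := fun i => by simp [p', i.2]
    have hsum : ∑ j ∈ s, aeval x (p' j) * z j = 0 := by
      rw [← Finset.sum_coe_sort s (fun j => aeval x (p' j) * z j)]
      rw [← hg]
      refine Finset.sum_congr rfl fun i _ => ?_
      rw [hp' i, hp i]
      rfl
    have h0 := s26err_poly_indep s z x hx0 W hxW hz hind (s.sup fun j => (p' j).natDegree) p'
      (fun i hi => Finset.le_sup (f := fun j => (p' j).natDegree) hi) hsum
    intro i
    apply Subtype.ext
    rw [← hp i, ← hp' i, h0 i i.2]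
    simp
  have hli' : LinearIndependent K⟮x⟯ (fun i : s => z i) :=
    (LinearIndependent.iff_fractionRing (R := Algebra.adjoin K {x}) (K := K⟮x⟯)).mp hli
  have := hli'.fintype_card_le_finrank
  simpa using this

/-! ### Flags -/

theorem s26err_flag (N : ℕ → Submodule K F) (hN : ∀ i, N i ≤ N (i + 1)) (z : ℕ → F)
    (hz : ∀ i, z i ∈ N (i + 1)) (hz' : ∀ i, z i ∉ N i) :
    ∀ (m : ℕ) (c : ℕ → K), ∑ i ∈ Finset.range m, c i • z i ∈ N 0 →
      ∀ i ∈ Finset.range m, c i = 0 := by
  have hmono : ∀ i j, i ≤ j → N i ≤ N j := fun i j hij => monotone_nat_of_le_succ hN hij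
  intro m
  induction m with
  | zero =>
    intro c _ i hi
    simp at hi
  | succ m ih =>
    intro c h i hi
    rw [Finset.sum_range_succ] at h
    have h1 : ∑ i ∈ Finset.range m, c i • z i ∈ N m :=
      Submodule.sum_mem _ fun i hi =>
        (N m).smul_mem _ (hmono (i + 1) m (Finset.mem_range.mp hi) (hz i))
    have h2 : c m • z m ∈ N m := by
      have := (N m).sub_mem (hmono 0 m (Nat.zero_le _) h) h1
      simpa using this
    have hcm : c m = 0 := by
      by_contra hne
      apply hz' m
      have := (N m).smul_mem (c m)⁻¹ h2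
      rwa [smul_smul, inv_mul_cancel₀ hne, one_smul] at this
    rw [hcm, zero_smul, add_zero] at h
    rcases (Nat.lt_succ_iff.mp (Finset.mem_range.mp hi)).lt_or_eq with hlt | heq
    · exact ih c h i (Finset.mem_range.mpr hlt)
    · rw [heq]; exact hcm

/-! ### Valuation subrings containing `K` -/

/-- a valuation subring containing `K`, as a `K`-subspace of `F` -/
def s26errValSub (V : ValuationSubring F) (hK : ∀ a : K, algebraMap K F a ∈ V) :
    Submodule K F where
  carrier := {f | f ∈ V}
  zero_mem' := V.zero_mem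
  add_mem' := fun ha hb => V.add_mem _ _ ha hb
  smul_mem' := fun c f hf => by
    show c • f ∈ V
    rw [Algebra.smul_def]
    exact V.mul_mem _ _ (hK c) hf

theorem s26err_mem_valSub (V : ValuationSubring F) (hK : ∀ a : K, algebraMap K F a ∈ V) (f : F) :
    f ∈ s26errValSub V hK ↔ f ∈ V := Iff.rfl

/-- `y 𝔪_V` as a `K`-subspace of `F` -/
def s26errNonMul (V : ValuationSubring F) (hK : ∀ a : K, algebraMap K F a ∈ V) (y : F) :
    Submodule K F where
  carrier := {f | ∃ w ∈ V.nonunits, f = y * w}
  zero_mem' := ⟨0, stb_zero_mem_nonunits V, by simp⟩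
  add_mem' := by
    rintro _ _ ⟨w₁, hw₁, rfl⟩ ⟨w₂, hw₂, rfl⟩
    exact ⟨w₁ + w₂, stb_add_mem_nonunits hw₁ hw₂, by ring⟩
  smul_mem' := by
    rintro c _ ⟨w, hw, rfl⟩
    refine ⟨algebraMap K F c * w, stb_mul_mem_nonunits (hK c) hw, ?_⟩
    rw [Algebra.smul_def]
    ring

theorem s26err_mem_nonMul (V : ValuationSubring F) (hK : ∀ a : K, algebraMap K F a ∈ V)
    (y f : F) : f ∈ s26errNonMul V hK y ↔ ∃ w ∈ V.nonunits, f = y * w := Iff.rfl

/-- `𝔪_V` as a `K`-subspace of `F` -/
def s26errNon (V : ValuationSubring F) (hK : ∀ a : K, algebraMap K F a ∈ V) :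
    Submodule K F where
  carrier := {f | f ∈ V.nonunits}
  zero_mem' := stb_zero_mem_nonunits V
  add_mem' := fun ha hb => stb_add_mem_nonunits ha hb
  smul_mem' := fun c f hf => by
    show c • f ∈ V.nonunits
    rw [Algebra.smul_def]
    exact stb_mul_mem_nonunits (hK c) hf

theorem s26err_mem_non (V : ValuationSubring F) (hK : ∀ a : K, algebraMap K F a ∈ V) (f : F) :
    f ∈ s26errNon V hK ↔ f ∈ V.nonunits := Iff.rfl

/-- polynomials in an element of `V` lie in `V` -/
theorem s26err_aeval_mem (V : ValuationSubring F) (hK : ∀ a : K, algebraMap K F a ∈ V)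
    {y : F} (hy : y ∈ V) (q : K[X]) : aeval y q ∈ V := by
  have := s26err_aeval_mul_mem y (s26errValSub V hK) (fun w hw => V.mul_mem _ _ hy hw) q 1
    V.one_mem
  rwa [mul_one] at this

/-- a nonzero element of `𝔪_V` is transcendental over `K` -/
theorem s26err_transcendental_of_mem_nonunits (V : ValuationSubring F)
    (hK : ∀ a : K, algebraMap K F a ∈ V) {y : F} (hy : y ∈ V.nonunits) (hy0 : y ≠ 0) :
    Transcendental K y := by
  intro halg
  have hint : IsIntegral K y := halg.isIntegral
  have h1 : y⁻¹ ∈ K⟮y⟯ := K⟮y⟯.inv_mem (mem_adjoin_simple_self K y)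
  have h2 : y⁻¹ ∈ (K⟮y⟯).toSubalgebra := h1
  rw [IntermediateField.adjoin_simple_toSubalgebra_of_isAlgebraic halg,
    Algebra.adjoin_singleton_eq_range_aeval] at h2
  obtain ⟨q, hq⟩ := h2
  have h3 : y⁻¹ ∈ V := by
    have := s26err_aeval_mem V hK (stb_nonunits_subset hy) q
    rw [← hq]
    exact this
  have h4 : y * y⁻¹ ∈ V.nonunits := by
    rw [mul_comm]
    exact stb_mul_mem_nonunits h3 hy
  rw [mul_inv_cancel₀ hy0] at h4
  rw [stb_mem_nonunits_iff, map_one] at h4
  exact lt_irrefl _ h4

/-- **Stichtenoth 1.1.6**: the divisibility order of a valuation ring of a function field of one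
variable is well-founded -/
theorem s26err_wfDvdMonoid (V : ValuationSubring F) (hK : ∀ a : K, algebraMap K F a ∈ V)
    (x : F) (hx : Transcendental K x) [FiniteDimensional K⟮x⟯ F] : WfDvdMonoid V := by
  constructor
  rw [wellFounded_iff_isEmpty_descending_chain]
  refine ⟨fun ⟨f, hf⟩ => ?_⟩
  -- the chain in `F`
  have ha0 : ∀ n, ((f (n + 1) : V) : F) ≠ 0 := fun n h => (hf n).1 (Subtype.ext h)
  have hc : ∀ n, ∃ c : F, c ∈ V.nonunits ∧ ((f n : V) : F) = ((f (n + 1) : V) : F) * c := by
    intro n
    obtain ⟨-, c, hcu, hc⟩ := hf n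
    refine ⟨(c : F), ?_, by rw [hc]; rfl⟩
    rw [ValuationSubring.mem_nonunits_iff_exists_mem_maximalIdeal]
    exact ⟨c.2, by rwa [IsLocalRing.mem_maximalIdeal, mem_nonunits_iff]⟩
  choose c hcn hceq using hc
  set a : ℕ → F := fun n => ((f (n + 1) : V) : F) with ha
  have haeq : ∀ n, a n = a (n + 1) * c (n + 1) := fun n => hceq (n + 1)
  have hamem : ∀ n, a n ∈ V.nonunits := fun n => by
    rw [haeq n]
    exact stb_mul_mem_nonunits (f (n + 1 + 1)).2 (hcn (n + 1))
  have hy : Transcendental K (a 0) :=
    s26err_transcendental_of_mem_nonunits V hK (hamem 0) (ha0 0)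
  haveI : FiniteDimensional K⟮a 0⟯ F :=
    pd_finiteDimensional_adjoin_of_transcendental x hx (a 0) hy
  -- the flag
  have hflag := s26err_flag (K := K) (fun i => s26errNonMul V hK (a i))
    (fun i g hg => by
      obtain ⟨w, hw, rfl⟩ := hg
      refine ⟨c (i + 1) * w, stb_mul_mem_nonunits (stb_nonunits_subset (hcn (i + 1))) hw, ?_⟩
      rw [haeq i]
      ring)
    a
    (fun i => ⟨c (i + 1), hcn (i + 1), haeq i⟩)
    (fun i hi => by
      obtain ⟨w, hw, hw'⟩ := hi
      have h1 : w = 1 := by
        have h2 : a i * w = a i * 1 := by rw [← hw', mul_one]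
        exact mul_left_cancel₀ (ha0 i) h2
      rw [h1, stb_mem_nonunits_iff, map_one] at hw
      exact lt_irrefl _ hw)
  have hcard := s26err_card_le_finrank (K := K) (Finset.range (finrank K⟮a 0⟯ F + 1)) a (a 0)
    (ha0 0) (s26errNon V hK)
    (fun w hw => stb_mul_mem_nonunits (stb_nonunits_subset (hamem 0)) hw)
    (fun i _ => hamem i)
    (fun b ⟨w, hw, hb⟩ => hflag _ b ⟨w, hw, hb⟩)
  rw [Finset.card_range] at hcard
  omega

/-- a valuation subring of a function field of one variable containing the constants is a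
principal ideal ring -/
theorem s26err_isPrincipalIdealRing (V : ValuationSubring F)
    (hK : ∀ a : K, algebraMap K F a ∈ V)
    (x : F) (hx : Transcendental K x) [FiniteDimensional K⟮x⟯ F] : IsPrincipalIdealRing V :=
  ((IsBezout.TFAE (R := V)).out 1 3).mpr (s26err_wfDvdMonoid V hK x hx)

/-- **the place of a valuation subring** `V ≠ ⊤`, `K ⊆ V` -/
def s26errPlaceOf (V : ValuationSubring F) (hK : ∀ a : K, algebraMap K F a ∈ V) (hne : V ≠ ⊤)
    (x : F) (hx : Transcendental K x) [FiniteDimensional K⟮x⟯ F] : Place K F :=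
  ⟨V, hK, hne, s26err_isPrincipalIdealRing V hK x hx⟩

@[simp]
theorem s26errPlaceOf_toValuationSubring (V : ValuationSubring F)
    (hK : ∀ a : K, algebraMap K F a ∈ V) (hne : V ≠ ⊤)
    (x : F) (hx : Transcendental K x) [FiniteDimensional K⟮x⟯ F] :
    (s26errPlaceOf V hK hne x hx).toValuationSubring = V := rfl

/-! ### Residue fields are finite over `K` -/

/-- the uniformizer of a place is transcendental -/
theorem s26err_transcendental_of_ord_pos (v : Place K F) {y : F} (hy : 0 < v.ord y) :
    Transcendental K y := by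
  have hy0 : y ≠ 0 := by
    rintro rfl
    simp at hy
  exact s26err_transcendental_of_mem_nonunits v.toValuationSubring v.algebraMap_mem'
    ((PlaceAux.ord_pos_iff_mem_nonunits v hy0).mp hy) hy0

/-- residue of a `K`-linear combination -/
theorem s26err_residue_sum (v : Place K F) {ι : Type*} (s : Finset ι) (a : ι → K)
    (l : ι → v.toValuationSubring) :
    IsLocalRing.residue v.toValuationSubring (∑ i ∈ s, a i • l i) =
      ∑ i ∈ s, a i • IsLocalRing.residue v.toValuationSubring (l i) := by
  rw [map_sum]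
  refine Finset.sum_congr rfl fun i _ => ?_
  rw [Algebra.smul_def, Algebra.smul_def, map_mul]
  rfl

/-- **Stichtenoth 1.1.15**: independent families of the residue field of `v` have at most
`[F : K(y)]` members, `0 ≠ y ∈ 𝔪_v` -/
theorem s26err_residue_card_le (v : Place K F) {y : F} (hy : 0 < v.ord y)
    [FiniteDimensional K⟮y⟯ F] (s : Finset v.ResidueField)
    (hs : LinearIndependent K (fun i : s => (i : v.ResidueField))) :
    s.card ≤ finrank K⟮y⟯ F := by
  classical
  have hy0 : y ≠ 0 := by
    rintro rfl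
    simp at hy
  have hyn : y ∈ v.toValuationSubring.nonunits := (PlaceAux.ord_pos_iff_mem_nonunits v hy0).mp hy
  have hlift : ∀ k : v.ResidueField, ∃ l : v.toValuationSubring,
      IsLocalRing.residue v.toValuationSubring l = k := fun k =>
    IsLocalRing.residue_surjective k
  choose l hl using hlift
  refine s26err_card_le_finrank (K := K) s (fun k => ((l k : v.toValuationSubring) : F)) y hy0
    (s26errValSub v.toValuationSubring v.algebraMap_mem')
    (fun w hw => v.toValuationSubring.mul_mem _ _ (stb_nonunits_subset hyn) hw)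
    (fun i _ => (l i).2) ?_
  rintro a ⟨w, hw, haw⟩
  have hV : (∑ i ∈ s, a i • l i : v.toValuationSubring) =
      (⟨y, stb_nonunits_subset hyn⟩ : v.toValuationSubring) * ⟨w, hw⟩ := by
    apply Subtype.ext
    rw [MulMemClass.coe_mul]
    show ((∑ i ∈ s, a i • l i : v.toValuationSubring) : F) = y * w
    rw [← haw]
    rw [show ((∑ i ∈ s, a i • l i : v.toValuationSubring) : F) =
      v.toValuationSubring.subtype (∑ i ∈ s, a i • l i) from rfl, map_sum]
    refine Finset.sum_congr rfl fun i _ => ?_
    rw [Algebra.smul_def, Algebra.smul_def, map_mul]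
    rfl
  have hres := congrArg (IsLocalRing.residue v.toValuationSubring) hV
  rw [s26err_residue_sum, map_mul] at hres
  have hy0' : IsLocalRing.residue v.toValuationSubring ⟨y, stb_nonunits_subset hyn⟩ = 0 := by
    rw [IsLocalRing.residue_eq_zero_iff]
    rw [ValuationSubring.mem_nonunits_iff_exists_mem_maximalIdeal] at hyn
    exact hyn.2
  rw [hy0', zero_mul] at hres
  simp only [hl] at hres
  have h2 : ∑ i : s, (a i) • ((i : v.ResidueField)) = 0 := by
    rw [← hres]
    exact Finset.sum_coe_sort s (fun k => a k • k)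
  have h3 := Fintype.linearIndependent_iff.mp hs (fun i => a i) h2
  intro i hi
  exact h3 ⟨i, hi⟩

/-- the residue field of a place is finite over `K` -/
theorem s26err_residue_finite (x : F) (hx : Transcendental K x) [FiniteDimensional K⟮x⟯ F]
    (v : Place K F) : Module.Finite K v.ResidueField := by
  obtain ⟨π, hπ0, hπ⟩ := s26err_exists_unif v
  have hπpos : 0 < v.ord π := by rw [hπ]; exact one_pos
  have hπt := s26err_transcendental_of_ord_pos v hπpos
  haveI : FiniteDimensional K⟮π⟯ F := pd_finiteDimensional_adjoin_of_transcendental x hx π hπt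
  have h := rank_le (R := K) (M := v.ResidueField) (n := finrank K⟮π⟯ F)
    (fun s hs => s26err_residue_card_le v hπpos s hs)
  rw [← Module.rank_lt_aleph0_iff]
  exact lt_of_le_of_lt h (Cardinal.natCast_lt_aleph0)

/-- `deg v ≤ [F : K(y)]` for `0 ≠ y ∈ 𝔪_v` -/
theorem s26err_deg_le (v : Place K F) {y : F} (hy : 0 < v.ord y) [FiniteDimensional K⟮y⟯ F] :
    v.deg ≤ finrank K⟮y⟯ F := by
  have h := rank_le (R := K) (M := v.ResidueField) (n := finrank K⟮y⟯ F)
    (fun s hs => s26err_residue_card_le v hy s hs)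
  exact Module.finrank_le_of_rank_le h

/-! ### Zeros and poles exist -/

/-- a transcendental function has a zero -/
theorem s26err_exists_place_pos (x : F) (hx : Transcendental K x) [FiniteDimensional K⟮x⟯ F]
    {f : F} (hf : Transcendental K f) : ∃ v : Place K F, 0 < v.ord f := by
  have hf0 : f ≠ 0 := by
    rintro rfl
    exact hf isAlgebraic_zero
  obtain ⟨V, hV1, hV2⟩ := s26erig_exists_valuation_over
    ((Polynomial.aeval f : K[X] →ₐ[K] F) : K[X] →+* F) (Ideal.span {(X : K[X])})
    (by
      rw [Ne, Ideal.span_singleton_eq_top]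
      exact Polynomial.not_isUnit_X)
    (by
      have : RingHom.ker ((Polynomial.aeval f : K[X] →ₐ[K] F) : K[X] →+* F) = ⊥ := by
        rw [RingHom.ker_eq_bot_iff_eq_zero] -- injectivity
        intro p hp
        by_contra hp0
        exact hf ⟨p, hp0, hp⟩
      rw [this]
      exact bot_le)
  have hK : ∀ a : K, algebraMap K F a ∈ V := fun a => by
    have := hV1 (C a)
    simpa using this
  have hfn : f ∈ V.nonunits := by
    have := hV2 X (Ideal.subset_span rfl)
    simpa using this
  have hne : V ≠ ⊤ := by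
    intro htop
    have h1 : f⁻¹ ∈ V := by rw [htop]; trivial
    have h2 : f * f⁻¹ ∈ V.nonunits := by
      rw [mul_comm]
      exact stb_mul_mem_nonunits h1 hfn
    rw [mul_inv_cancel₀ hf0, stb_mem_nonunits_iff, map_one] at h2
    exact lt_irrefl _ h2
  refine ⟨s26errPlaceOf V hK hne x hx, ?_⟩
  rw [PlaceAux.ord_pos_iff_mem_nonunits _ hf0]
  exact hfn

/-- a transcendental function has a pole -/
theorem s26err_exists_place_neg (x : F) (hx : Transcendental K x) [FiniteDimensional K⟮x⟯ F]
    {f : F} (hf : Transcendental K f) : ∃ v : Place K F, v.ord f < 0 := by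
  obtain ⟨v, hv⟩ := s26err_exists_place_pos x hx (pd_transcendental_inv hf)
  refine ⟨v, ?_⟩
  rw [v.ord_inv] at hv
  omega

/-- there is a place -/
theorem s26err_nonempty_place (x : F) (hx : Transcendental K x) [FiniteDimensional K⟮x⟯ F] :
    Nonempty (Place K F) :=
  let ⟨v, _⟩ := s26err_exists_place_pos x hx hx
  ⟨v⟩

/-- an algebraic element has order zero everywhere -/
theorem s26err_ord_eq_zero_of_isAlgebraic (v : Place K F) {f : F} (hf : IsAlgebraic K f) :
    v.ord f = 0 := by
  rcases eq_or_ne f 0 with rfl | hf0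
  · simp
  by_contra hne
  rcases lt_or_gt_of_ne hne with h | h
  · have h' : 0 < v.ord f⁻¹ := by rw [v.ord_inv]; omega
    exact s26err_transcendental_of_ord_pos v h' hf.inv
  · exact s26err_transcendental_of_ord_pos v h hf

end Fermat.Agent.S26
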