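/-
S26, wall (E), piece E-RR (helper79), part B2: **the zeros of a function: `Σ ord·deg ≤ [F : K(x)]`**
(Stichtenoth 1.3.3), constant field `K` ARBITRARY, any characteristic.

* `s26err_stbArch`, `s26err_not_le_of_ne` : places are archimedean and pairwise incomparable
  (hypotheses of the weak approximation theorem `aqw_weakApprox`);
* `s26errLoc S D` : functions with `ord_v ≥ −D v` at the places `v ∈ S` only;
* `s26err_indep_step` : induction step (one more point of the divisor);
* `s26err_sum_zeros_le` : `Σ_{v ∈ S} e_v · deg v ≤ [F : K(x)]` if `e_v ≤ ord_v x` on `S`;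
* `s26err_zeros_finite` : the zeros of `x` are finite in number;
* `s26err_exists_divisor` : every `f ≠ 0` has a divisor.
-/
import Fermat.Agent.S26.ERR2a

set_option autoImplicit false
set_option linter.unusedSectionVars false
set_option linter.unusedVariables false
set_option linter.style.haveILetI false

open AlgebraicCurve Module Polynomial IntermediateField

namespace Fermat.Agent.S26

open Fermat.Agent.S24 Fermat.Agent.ES.R Fermat.Agent.STB Fermat.Agent.S36

variable {K F : Type*} [Field K] [Field F] [Algebra K F]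

/-! ### Places are archimedean and pairwise incomparable -/

theorem s26err_stbArch (v : Place K F) : StbArch v.toValuationSubring := by
  intro x y hy
  rcases eq_or_ne x 0 with rfl | hx
  · exact ⟨0, by rw [zero_mul]; exact stb_zero_mem_nonunits _⟩
  rcases eq_or_ne y 0 with rfl | hy0
  · exact ⟨1, by rw [pow_one, mul_zero]; exact stb_zero_mem_nonunits _⟩
  have hy1 : 0 < v.ord y := (PlaceAux.ord_pos_iff_mem_nonunits v hy0).mpr hy
  refine ⟨(1 - v.ord x).toNat, ?_⟩
  have hne : x * y ^ (1 - v.ord x).toNat ≠ 0 := mul_ne_zero hx (pow_ne_zero _ hy0)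
  rw [← PlaceAux.ord_pos_iff_mem_nonunits v hne, v.ord_mul hx (pow_ne_zero _ hy0)]
  have e : v.ord (y ^ (1 - v.ord x).toNat) = ((1 - v.ord x).toNat : ℤ) * v.ord y := by
    rw [← zpow_natCast, v.ord_zpow]
  rw [e]
  have h1 := Int.self_le_toNat (1 - v.ord x)
  have h2 : (0 : ℤ) ≤ ((1 - v.ord x).toNat : ℤ) := Int.natCast_nonneg _
  nlinarith

theorem s26err_not_le_of_ne {v w : Place K F} (h : v ≠ w) :
    ¬ v.toValuationSubring ≤ w.toValuationSubring := by
  intro hle
  apply h
  apply Place.ext
  refine le_antisymm hle ?_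
  obtain ⟨ϖ, hϖ0, hϖ⟩ := s26err_exists_unif w
  intro x hx
  by_contra hx1
  have hx0 : x ≠ 0 := fun h => hx1 (by rw [h]; exact zero_mem _)
  have hxinv : x⁻¹ ∈ v.toValuationSubring.nonunits := by
    rw [← PlaceAux.ord_pos_iff_mem_nonunits v (inv_ne_zero hx0), v.ord_inv]
    have := mt (PlaceAux.ord_nonneg_iff v hx0).mp hx1
    omega
  obtain ⟨N, hN⟩ := s26err_stbArch v ϖ⁻¹ x⁻¹ hxinv
  have h3 : ϖ⁻¹ * x⁻¹ ^ N ∈ w.toValuationSubring := hle (stb_nonunits_subset hN)
  have h4 : ϖ⁻¹ ∈ w.toValuationSubring := by
    have e : ϖ⁻¹ = ϖ⁻¹ * x⁻¹ ^ N * x ^ N := by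
      rw [inv_pow]
      field_simp
    rw [e]
    exact w.toValuationSubring.mul_mem _ _ h3 (w.toValuationSubring.pow_mem hx N)
  have h5 : 0 ≤ w.ord ϖ⁻¹ := (PlaceAux.ord_nonneg_iff w (inv_ne_zero hϖ0)).mpr h4
  rw [w.ord_inv, hϖ] at h5
  omega

/-- `u ≡ 1 mod 𝔪_v` ⇒ `u` is a unit at `v` -/
theorem s26err_ord_of_sub_one (v : Place K F) {u : F}
    (h : u - 1 ∈ v.toValuationSubring.nonunits) : u ≠ 0 ∧ v.ord u = 0 := by
  have hu0 : u ≠ 0 := by
    rintro rfl
    have h1 : (1 : F) ∈ v.toValuationSubring.nonunits := by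
      have := stb_neg_mem_nonunits h
      simpa using this
    rw [stb_mem_nonunits_iff, map_one] at h1
    exact lt_irrefl _ h1
  refine ⟨hu0, ?_⟩
  rcases eq_or_ne (u - 1) 0 with h0 | h0
  · rw [sub_eq_zero.mp h0]; simp
  have hpos : 0 < v.ord (u - 1) := (PlaceAux.ord_pos_iff_mem_nonunits v h0).mpr h
  have := PlaceAux.ord_add_eq_of_lt v (f := (1 : F)) (g := u - 1) one_ne_zero h0
    (by rw [v.ord_one]; exact hpos)
  rw [add_sub_cancel, v.ord_one] at this
  exact this

/-! ### Local Riemann–Roch spaces -/

/-- functions with `ord_v f ≥ −D v` at the places `v ∈ S` -/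
def s26errLoc (S : Finset (Place K F)) (D : Place K F → ℤ) : Submodule K F where
  carrier := {f | ∀ v ∈ S, v.adicValuation f ≤ WithZero.exp (D v)}
  zero_mem' := by
    intro v _
    simp
  add_mem' := by
    intro f g hf hg v hv
    exact (Valuation.map_add _ _ _).trans (max_le (hf v hv) (hg v hv))
  smul_mem' := by
    intro c f hf v hv
    show v.adicValuation (c • f) ≤ WithZero.exp (D v)
    rw [Algebra.smul_def, map_mul]
    exact (mul_le_of_le_one_left' (v.adicValuation_algebraMap_le_one c)).trans (hf v hv)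

theorem s26err_mem_loc {S : Finset (Place K F)} {D : Place K F → ℤ} {f : F} :
    f ∈ s26errLoc S D ↔ ∀ v ∈ S, f = 0 ∨ -D v ≤ v.ord f := by
  show (∀ v ∈ S, v.adicValuation f ≤ WithZero.exp (D v)) ↔ _
  exact forall₂_congr fun v _ => v.adicValuation_le_exp_iff

theorem s26err_loc_mono {S : Finset (Place K F)} {D D' : Place K F → ℤ}
    (h : ∀ v ∈ S, D v ≤ D' v) : s26errLoc S D ≤ s26errLoc S D' := by
  intro f hf
  rw [s26err_mem_loc] at hf ⊢
  intro v hv
  rcases hf v hv with h0 | h1
  · exact Or.inl h0
  · right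
    have := h v hv
    omega

/-- membership in `O_v` from `f ∈ Loc S 0` -/
theorem s26err_mem_of_mem_loc {S : Finset (Place K F)} {D : Place K F → ℤ} {f : F}
    (hf : f ∈ s26errLoc S D) {v : Place K F} (hv : v ∈ S) (hD : D v ≤ 0) :
    f ∈ v.toValuationSubring := by
  rw [s26err_mem_loc] at hf
  rcases hf v hv with h0 | h1
  · rw [h0]; exact zero_mem _
  · exact PlaceAux.mem_of_ord_nonneg v (by omega)

/-! ### The induction -/

/-- there is a family of `Σ_{v ∈ S} A v · deg v` elements of `O_S`, independent modulo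
`{f : ord_v f ≥ A v on S}` -/
def S26errIndep (S : Finset (Place K F)) (A : Place K F → ℕ) : Prop :=
  ∃ (ι : Type) (_ : Fintype ι) (z : ι → F),
    Fintype.card ι = ∑ v ∈ S, A v * v.deg ∧
    (∀ i, z i ∈ s26errLoc S (fun _ => 0)) ∧
    ∀ a : ι → K, ∑ i, a i • z i ∈ s26errLoc S (fun v => -(A v : ℤ)) → ∀ i, a i = 0

theorem s26err_indep_zero (S : Finset (Place K F)) (A : Place K F → ℕ)
    (hA : ∀ v ∈ S, A v = 0) : S26errIndep S A := by
  refine ⟨PEmpty, inferInstance, fun i => i.elim, ?_, fun i => i.elim, fun a _ i => i.elim⟩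
  rw [Fintype.card_eq_zero, eq_comm]
  exact Finset.sum_eq_zero fun v hv => by rw [hA v hv, zero_mul]

/-- order of a natural power of a uniformizer -/
theorem s26err_ord_pow_unif (v : Place K F) {π : F} (hπ : v.ord π = 1) (n : ℕ) :
    v.ord (π ^ n) = n := by
  rw [← zpow_natCast, v.ord_zpow, hπ, mul_one]

open scoped Classical in
/-- **induction step**: one more point -/
theorem s26err_indep_step (S : Finset (Place K F)) (A : Place K F → ℕ) (k : Place K F)
    (hk : k ∈ S) (hfin : Module.Finite K k.ResidueField) (h : S26errIndep S A) :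
    S26errIndep S (Function.update A k (A k + 1)) := by
  obtain ⟨ι, hι, z, hcard, hz, hind⟩ := h
  letI := hι
  haveI := hfin
  -- uniformizers
  have hunif : ∀ v : Place K F, ∃ π : F, π ≠ 0 ∧ v.ord π = 1 := s26err_exists_unif
  choose t ht0 ht using hunif
  -- basis of the residue field, lifted
  let b := Module.finBasis K k.ResidueField
  have hlift : ∀ j, ∃ s : k.toValuationSubring,
      IsLocalRing.residue k.toValuationSubring s = b j := fun j =>
    IsLocalRing.residue_surjective _
  choose s hs using hlift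
  have hs0 : ∀ j, ((s j : k.toValuationSubring) : F) ≠ 0 := by
    intro j h0
    have e : s j = 0 := Subtype.ext h0
    have := hs j
    rw [e, map_zero] at this
    exact b.ne_zero j this.symm
  -- targets
  let T : Fin (finrank K k.ResidueField) → S → F := fun j c =>
    if c.1 = k then ((s j : k.toValuationSubring) : F) * t k ^ (A k) else t c.1 ^ (A c.1)
  have hT : ∀ j c, T j c ≠ 0 := by
    intro j c
    simp only [T]
    split_ifs
    · exact mul_ne_zero (hs0 j) (pow_ne_zero _ (ht0 k))
    · exact pow_ne_zero _ (ht0 _)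
  have hwa : ∀ j, ∃ H : F, H ≠ 0 ∧
      ∀ c : S, H / T j c - 1 ∈ c.1.toValuationSubring.nonunits :=
    fun j => aqw_weakApprox (fun c : S => c.1.toValuationSubring)
      (fun c c' hcc' => s26err_not_le_of_ne (fun h => hcc' (Subtype.ext h)))
      (fun c => s26err_stbArch c.1) (T j) (hT j)
  choose w hw0 hw using hwa
  -- orders of `w j` away from `k`
  have hw1 : ∀ j, ∀ c ∈ S, c ≠ k → c.ord (w j) = A c := by
    intro j c hc hck
    have h1 := hw j ⟨c, hc⟩
    simp only [T, if_neg hck] at h1
    obtain ⟨hu0, hu⟩ := s26err_ord_of_sub_one c h1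
    have e : w j = w j / t c ^ (A c) * t c ^ (A c) :=
      (div_mul_cancel₀ _ (pow_ne_zero _ (ht0 c))).symm
    rw [e, c.ord_mul hu0 (pow_ne_zero _ (ht0 c)), hu, zero_add, s26err_ord_pow_unif c (ht c)]
  -- at `k`
  have hwk : ∀ j, w j * (t k ^ (A k))⁻¹ - s j ∈ k.toValuationSubring.nonunits := by
    intro j
    have h1 := hw j ⟨k, hk⟩
    simp only [T, if_true] at h1
    have e : w j * (t k ^ (A k))⁻¹ - s j =
        (s j : F) * (w j / ((s j : F) * t k ^ (A k)) - 1) := by
      have := hs0 j
      have := pow_ne_zero (A k) (ht0 k)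
      field_simp
    rw [e]
    exact stb_mul_mem_nonunits (s j).2 h1
  have hgk : ∀ j, w j * (t k ^ (A k))⁻¹ ∈ k.toValuationSubring := by
    intro j
    have := k.toValuationSubring.add_mem _ _ (stb_nonunits_subset (hwk j)) (s j).2
    simpa using this
  have hres : ∀ j, IsLocalRing.residue k.toValuationSubring ⟨_, hgk j⟩ = b j := by
    intro j
    rw [← hs j, ← sub_eq_zero, ← map_sub, IsLocalRing.residue_eq_zero_iff]
    have := hwk j
    rw [ValuationSubring.mem_nonunits_iff_exists_mem_maximalIdeal] at this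
    obtain ⟨h1, h2⟩ := this
    exact h2
  have hwk_ord : ∀ j, (A k : ℤ) ≤ k.ord (w j) := by
    intro j
    have hg0 : w j * (t k ^ (A k))⁻¹ ≠ 0 :=
      mul_ne_zero (hw0 j) (inv_ne_zero (pow_ne_zero _ (ht0 k)))
    have h1 := (PlaceAux.ord_nonneg_iff k hg0).mpr (hgk j)
    rw [k.ord_mul (hw0 j) (inv_ne_zero (pow_ne_zero _ (ht0 k))), k.ord_inv,
      s26err_ord_pow_unif k (ht k)] at h1
    omega
  have hwmem : ∀ j, w j ∈ s26errLoc S (fun v => -(A v : ℤ)) := by
    intro j
    rw [s26err_mem_loc]
    intro c hc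
    right
    rw [neg_neg]
    by_cases hck : c = k
    · subst hck
      exact hwk_ord j
    · rw [hw1 j c hc hck]
  have hA' : s26errLoc S (fun v => -((Function.update A k (A k + 1) v : ℕ) : ℤ)) ≤
      s26errLoc S (fun v => -(A v : ℤ)) := by
    refine s26err_loc_mono fun v _ => ?_
    by_cases hvk : v = k
    · subst hvk
      rw [Function.update_self]
      push_cast
      omega
    · rw [Function.update_of_ne hvk]
  refine ⟨ι ⊕ Fin (finrank K k.ResidueField), inferInstance, Sum.elim z w, ?_, ?_, ?_⟩
  · rw [Fintype.card_sum, Fintype.card_fin, hcard,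
      ← Finset.add_sum_erase S (fun v => A v * v.deg) hk,
      ← Finset.add_sum_erase S (fun v => Function.update A k (A k + 1) v * v.deg) hk]
    rw [Function.update_self]
    have e : ∑ v ∈ S.erase k, Function.update A k (A k + 1) v * v.deg =
        ∑ v ∈ S.erase k, A v * v.deg :=
      Finset.sum_congr rfl fun v hv => by
        rw [Function.update_of_ne (Finset.ne_of_mem_erase hv)]
    rw [e]
    show _ + k.deg = _
    ring
  · rintro (i | j)
    · exact hz i
    · exact s26err_loc_mono (fun v _ => by simp) (hwmem j)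
  · intro a ha
    rw [Fintype.sum_sum_type] at ha
    simp only [Sum.elim_inl, Sum.elim_inr] at ha
    have h2 : ∑ j, a (Sum.inr j) • w j ∈ s26errLoc S (fun v => -(A v : ℤ)) :=
      Submodule.sum_mem _ fun j _ => Submodule.smul_mem _ _ (hwmem j)
    have h1 : ∑ i, a (Sum.inl i) • z i ∈ s26errLoc S (fun v => -(A v : ℤ)) := by
      have := Submodule.sub_mem _ (hA' ha) h2
      simpa using this
    have ha1 := hind (fun i => a (Sum.inl i)) h1
    have h3 : ∑ j, a (Sum.inr j) • w j ∈
        s26errLoc S (fun v => -((Function.update A k (A k + 1) v : ℕ) : ℤ)) := by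
      have e : ∑ i, a (Sum.inl i) • z i = 0 :=
        Finset.sum_eq_zero fun i _ => by rw [ha1 i, zero_smul]
      rw [e, zero_add] at ha
      exact ha
    have ha2 : ∀ j, a (Sum.inr j) = 0 := by
      rw [s26err_mem_loc] at h3
      have h4 := h3 k hk
      rw [Function.update_self] at h4
      set G : k.toValuationSubring :=
        ∑ j, a (Sum.inr j) • (⟨_, hgk j⟩ : k.toValuationSubring) with hG
      have hGcoe : (G : F) = (∑ j, a (Sum.inr j) • w j) * (t k ^ (A k))⁻¹ := by
        rw [Finset.sum_mul]
        rw [show (G : F) = k.toValuationSubring.subtype G from rfl, hG, map_sum]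
        refine Finset.sum_congr rfl fun j _ => ?_
        rw [Algebra.smul_def, map_mul, Algebra.smul_def, mul_assoc]
        rfl
      have hGm : G ∈ IsLocalRing.maximalIdeal k.toValuationSubring := by
        by_cases hsum0 : (∑ j, a (Sum.inr j) • w j) = 0
        · have : G = 0 := Subtype.ext (by rw [hGcoe, hsum0, zero_mul]; rfl)
          rw [this]
          exact zero_mem _
        · have h5 := h4.resolve_left hsum0
          rw [neg_neg] at h5
          push_cast at h5
          have hGne : (G : F) ≠ 0 := by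
            rw [hGcoe]
            exact mul_ne_zero hsum0 (inv_ne_zero (pow_ne_zero _ (ht0 k)))
          have hGord : 0 < k.ord (G : F) := by
            rw [hGcoe, k.ord_mul hsum0 (inv_ne_zero (pow_ne_zero _ (ht0 k))), k.ord_inv,
              s26err_ord_pow_unif k (ht k)]
            omega
          have := (PlaceAux.ord_pos_iff_mem_nonunits k hGne).mp hGord
          rw [ValuationSubring.mem_nonunits_iff_exists_mem_maximalIdeal] at this
          obtain ⟨h6, h7⟩ := this
          exact h7
      have hG0 : IsLocalRing.residue k.toValuationSubring G = 0 :=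
        (IsLocalRing.residue_eq_zero_iff _).mpr hGm
      rw [hG, s26err_residue_sum] at hG0
      simp only [hres] at hG0
      exact Fintype.linearIndependent_iff.mp b.linearIndependent (fun j => a (Sum.inr j)) hG0
    rintro (i | j)
    · exact ha1 i
    · exact ha2 j

open scoped Classical in
theorem s26err_indep_all (S : Finset (Place K F))
    (hfin : ∀ v ∈ S, Module.Finite K v.ResidueField) :
    ∀ (N : ℕ) (A : Place K F → ℕ), ∑ v ∈ S, A v = N → S26errIndep S A := by
  intro N
  induction N with
  | zero =>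
    intro A hA
    exact s26err_indep_zero S A (fun v hv => (Finset.sum_eq_zero_iff.mp hA) v hv)
  | succ N ih =>
    intro A hA
    obtain ⟨k, hk, hAk⟩ : ∃ k ∈ S, A k ≠ 0 := by
      by_contra hcon
      push Not at hcon
      rw [Finset.sum_eq_zero fun v hv => hcon v hv] at hA
      omega
    have hsum : ∑ v ∈ S, Function.update A k (A k - 1) v = N := by
      have h1 := Finset.add_sum_erase S A hk
      have h2 := Finset.add_sum_erase S (Function.update A k (A k - 1)) hk
      rw [Function.update_self] at h2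
      have e : ∑ v ∈ S.erase k, Function.update A k (A k - 1) v = ∑ v ∈ S.erase k, A v :=
        Finset.sum_congr rfl fun v hv => by
          rw [Function.update_of_ne (Finset.ne_of_mem_erase hv)]
      rw [e] at h2
      omega
    have h := s26err_indep_step S _ k hk (hfin k hk) (ih _ hsum)
    rw [Function.update_self, Function.update_idem] at h
    have e : Function.update A k (A k - 1 + 1) = A := by
      rw [Nat.sub_add_cancel (Nat.one_le_iff_ne_zero.mpr hAk)]
      exact Function.update_eq_self k A
    rwa [e] at h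

/-- **Stichtenoth 1.3.3**: `Σ_{v ∈ S} A v · deg v ≤ [F : K(x)]` if `A v ≤ ord_v x` on `S` -/
theorem s26err_sum_zeros_le (x : F) [FiniteDimensional K⟮x⟯ F] (hx0 : x ≠ 0)
    (S : Finset (Place K F)) (hfin : ∀ v ∈ S, Module.Finite K v.ResidueField)
    (A : Place K F → ℕ) (hA : ∀ v ∈ S, (A v : ℤ) ≤ v.ord x) :
    ∑ v ∈ S, A v * v.deg ≤ finrank K⟮x⟯ F := by
  obtain ⟨ι, hι, z, hcard, hz, hind⟩ := s26err_indep_all S hfin _ A rfl
  letI := hι
  have hxW : ∀ w ∈ s26errLoc S (fun _ => (0 : ℤ)), x * w ∈ s26errLoc S (fun _ => (0 : ℤ)) := by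
    intro w hw
    rw [s26err_mem_loc] at hw ⊢
    intro v hv
    rcases hw v hv with h0 | h1
    · left
      rw [h0, mul_zero]
    · by_cases hw0 : w = 0
      · left
        rw [hw0, mul_zero]
      right
      rw [v.ord_mul hx0 hw0]
      have := hA v hv
      simp only [neg_zero] at h1 ⊢
      have h2 : (0 : ℤ) ≤ (A v : ℤ) := Int.natCast_nonneg _
      omega
  have hind' : ∀ a : ι → K,
      (∃ w ∈ s26errLoc S (fun _ => (0 : ℤ)), ∑ i ∈ (Finset.univ : Finset ι), a i • z i = x * w) →
        ∀ i ∈ (Finset.univ : Finset ι), a i = 0 := by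
    rintro a ⟨w, hw, haw⟩ i -
    apply hind a _ i
    rw [haw, s26err_mem_loc]
    rw [s26err_mem_loc] at hw
    intro v hv
    rcases hw v hv with h0 | h1
    · left
      rw [h0, mul_zero]
    · by_cases hw0 : w = 0
      · left
        rw [hw0, mul_zero]
      right
      rw [v.ord_mul hx0 hw0, neg_neg]
      have := hA v hv
      simp only [neg_zero] at h1
      omega
  have := s26err_card_le_finrank (K := K) (Finset.univ : Finset ι) z x hx0
    (s26errLoc S (fun _ => 0)) hxW (fun i _ => hz i) hind'
  rw [Finset.card_univ, hcard] at this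
  exact this

/-- the number of zeros of a transcendental function is at most `[F : K(y)]` -/
theorem s26err_card_zeros_le (x : F) (hx : Transcendental K x) [FiniteDimensional K⟮x⟯ F]
    (y : F) [FiniteDimensional K⟮y⟯ F] (hy0 : y ≠ 0)
    (S : Finset (Place K F)) (hS : ∀ v ∈ S, 0 < v.ord y) :
    S.card ≤ finrank K⟮y⟯ F := by
  have h := s26err_sum_zeros_le (K := K) y hy0 S (fun v _ => s26err_residue_finite x hx v)
    (fun _ => 1) (fun v hv => by
      have := hS v hv
      push_cast
      omega)
  refine le_trans ?_ h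
  rw [Finset.card_eq_sum_ones]
  refine Finset.sum_le_sum fun v _ => ?_
  rw [one_mul]
  exact s26err_deg_pos v (s26err_residue_finite x hx v)

/-- **Stichtenoth 1.3.4**: a nonzero function has finitely many zeros -/
theorem s26err_zeros_finite (x : F) (hx : Transcendental K x) [FiniteDimensional K⟮x⟯ F]
    (y : F) : {v : Place K F | 0 < v.ord y}.Finite := by
  by_cases hy : Transcendental K y
  · haveI : FiniteDimensional K⟮y⟯ F := pd_finiteDimensional_adjoin_of_transcendental x hx y hy
    have hy0 : y ≠ 0 := by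
      rintro rfl
      exact hy isAlgebraic_zero
    by_contra hinf
    obtain ⟨t, ht, htc⟩ := (Set.not_finite.mp hinf).exists_subset_card_eq (finrank K⟮y⟯ F + 1)
    have := s26err_card_zeros_le x hx y hy0 t (fun v hv => ht hv)
    omega
  · have halg : IsAlgebraic K y := not_not.mp hy
    have : {v : Place K F | 0 < v.ord y} = ∅ := by
      ext v
      simp only [Set.mem_ofPred_eq, Set.mem_empty_iff_false, iff_false, not_lt]
      rw [s26err_ord_eq_zero_of_isAlgebraic v halg]
    rw [this]
    exact Set.finite_empty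

/-- a nonzero function has finitely many poles -/
theorem s26err_poles_finite (x : F) (hx : Transcendental K x) [FiniteDimensional K⟮x⟯ F]
    (y : F) : {v : Place K F | v.ord y < 0}.Finite := by
  have := s26err_zeros_finite x hx y⁻¹
  refine this.subset fun v hv => ?_
  simp only [Set.mem_ofPred_eq] at hv ⊢
  rw [v.ord_inv]
  omega

/-- **every function has a divisor** -/
theorem s26err_exists_divisor (x : F) (hx : Transcendental K x) [FiniteDimensional K⟮x⟯ F]
    (f : F) : ∃ D : Divisor K F, ∀ v : Place K F, D v = v.ord f := by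
  classical
  refine ⟨Finsupp.onFinset ((s26err_zeros_finite x hx f).toFinset ∪
    (s26err_poles_finite x hx f).toFinset) (fun v => v.ord f) ?_, fun v => rfl⟩
  intro v hv
  rw [Finset.mem_union, Set.Finite.mem_toFinset, Set.Finite.mem_toFinset]
  simp only [Set.mem_ofPred_eq]
  rcases lt_or_gt_of_ne hv with h | h
  · right; exact h
  · left; exact h

end Fermat.Agent.S26
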