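/-
S26, wall (E), piece E-RR (helper79), part B3: **`deg (x)_∞ = [F : K(x)]` and
`HasPrincipalDivisors K F`** for every function field of one variable `F/K`
(`x` transcendental over `K`, `[F : K(x)] < ∞`), constant field `K` ARBITRARY, any characteristic.

* `s26err_rr_eq_bot`          : `L(D) = 0` if `D ≤ 0`, `D ≠ 0`;
* `s26err_rr_zero_finite`     : `L(0)` is finite-dimensional;
* `s26err_finite_le`, `s26err_finrank_le'` : `A ≤ B` ⇒ `dim L(B) ≤ dim L(A) + deg B − deg A`
  (no `HasPrincipalDivisors`);
* `s26err_rr_finite'`         : `L(D)` is finite-dimensional;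
* `s26err_count`              : `(l + 1) [F : K(x)] ≤ dim L(l (x)_∞ + C)`;
* `s26err_degree_pole`        : `deg (x)_∞ = [F : K(x)]`            (Stichtenoth 1.4.11);
* `s26err_hasPrincipalDivisors` : `HasPrincipalDivisors K F`;
* `s26err_hbig`               : Riemann's inequality for divisors of large degree, with some `g₀`.
-/
import Fermat.Agent.S26.ERR2b

set_option autoImplicit false
set_option linter.unusedSectionVars false
set_option linter.unusedVariables false
set_option linter.style.haveILetI false

open AlgebraicCurve Module Polynomial IntermediateField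

namespace Fermat.Agent.S26

open Fermat.Agent.S24 Fermat.Agent.ES.R Fermat.Agent.STB Fermat.Agent.S36

variable {K F : Type*} [Field K] [Field F] [Algebra K F]

/-! ### `L(D)` for `D ≤ 0` -/

/-- a nonzero function without poles is algebraic over `K` -/
theorem s26err_isAlgebraic_of_mem_rr_zero (x : F) (hx : Transcendental K x)
    [FiniteDimensional K⟮x⟯ F] {D : Divisor K F} (hD : D ≤ 0) {f : F}
    (hf : f ∈ riemannRochSpace D) : IsAlgebraic K f := by
  by_contra hft
  have hf0 : f ≠ 0 := by
    rintro rfl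
    exact hft isAlgebraic_zero
  obtain ⟨v, hv⟩ := s26err_exists_place_neg x hx (f := f) hft
  rw [mem_riemannRochSpace_iff] at hf
  have h1 := (hf v).resolve_left hf0
  have h2 : D v ≤ 0 := by simpa using Finsupp.le_def.mp hD v
  omega

/-- `L(D) = 0` for `D ≤ 0`, `D ≠ 0` -/
theorem s26err_rr_eq_bot (x : F) (hx : Transcendental K x) [FiniteDimensional K⟮x⟯ F]
    {D : Divisor K F} (hD : D ≤ 0) (hD0 : D ≠ 0) : riemannRochSpace D = ⊥ := by
  rw [eq_bot_iff]
  intro f hf
  rw [Submodule.mem_bot]
  by_contra hf0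
  have halg := s26err_isAlgebraic_of_mem_rr_zero x hx hD hf
  obtain ⟨v, hv⟩ : ∃ v, D v ≠ 0 := by
    by_contra hcon
    apply hD0
    ext v
    by_contra h
    exact hcon ⟨v, h⟩
  have h2 : D v ≤ 0 := by simpa using Finsupp.le_def.mp hD v
  rw [mem_riemannRochSpace_iff] at hf
  have h1 := (hf v).resolve_left hf0
  rw [s26err_ord_eq_zero_of_isAlgebraic v halg] at h1
  omega

/-- `L(0)` is finite-dimensional, of dimension at most the degree of any place -/
theorem s26err_rr_zero_finite (x : F) (hx : Transcendental K x) [FiniteDimensional K⟮x⟯ F] :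
    Module.Finite K ↥(riemannRochSpace (0 : Divisor K F)) := by
  obtain ⟨v₀⟩ := s26err_nonempty_place (K := K) x hx
  have hne : (-Finsupp.single v₀ 1 : Divisor K F) ≠ 0 := by
    intro h
    have := congrArg (fun D : Divisor K F => D v₀) h
    simp at this
  have hle : (-Finsupp.single v₀ 1 : Divisor K F) ≤ 0 := by
    rw [neg_nonpos]
    rw [Finsupp.le_def]
    intro w
    by_cases hw : w = v₀
    · subst hw; simp
    · simp [Finsupp.single_eq_of_ne (Ne.symm (Ne.symm hw))]
  have hbot := s26err_rr_eq_bot x hx hle hne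
  have hfin0 : Module.Finite K ↥(riemannRochSpace (-Finsupp.single v₀ 1 : Divisor K F)) := by
    rw [hbot]
    infer_instance
  have := s26err_finite_add_single _ v₀ (s26err_residue_finite x hx v₀) hfin0
  rwa [neg_add_cancel] at this

/-! ### The upper bound without `HasPrincipalDivisors` -/

theorem s26err_finite_le_aux (hfin : ∀ v : Place K F, Module.Finite K v.ResidueField) :
    ∀ (n : ℕ) (A B : Divisor K F), A ≤ B → Divisor.degree B - Divisor.degree A ≤ n →
      Module.Finite K ↥(riemannRochSpace A) →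
      Module.Finite K ↥(riemannRochSpace B) ∧
      (finrank K ↥(riemannRochSpace B) : ℤ) ≤
        finrank K ↥(riemannRochSpace A) + (Divisor.degree B - Divisor.degree A) := by
  intro n
  induction n with
  | zero =>
    intro A B hAB hdeg hA
    by_cases hEq : A = B
    · subst hEq
      exact ⟨hA, by simp⟩
    exfalso
    obtain ⟨v, hv⟩ : ∃ v, A v < B v := by
      by_contra hcon
      exact hEq (le_antisymm hAB (Finsupp.le_def.mpr fun w =>
        not_lt.mp fun hw => hcon ⟨w, hw⟩))
    have h1 : A ≤ B - Finsupp.single v 1 := by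
      rw [Finsupp.le_def]
      intro w
      by_cases hw : w = v
      · subst hw; simp; omega
      · have := Finsupp.le_def.mp hAB w
        simp [Finsupp.single_eq_of_ne (Ne.symm (Ne.symm hw)), this]
    have h2 := degree_mono h1
    rw [map_sub, Divisor.degree_single] at h2
    have h3 : (1 : ℤ) ≤ (v.deg : ℤ) := by exact_mod_cast s26err_deg_pos v (hfin v)
    push_cast at h2 hdeg
    linarith
  | succ n ih =>
    intro A B hAB hdeg hA
    by_cases hEq : A = B
    · subst hEq
      exact ⟨hA, by simp⟩
    obtain ⟨v, hv⟩ : ∃ v, A v < B v := by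
      by_contra hcon
      exact hEq (le_antisymm hAB (Finsupp.le_def.mpr fun w =>
        not_lt.mp fun hw => hcon ⟨w, hw⟩))
    set B' : Divisor K F := B - Finsupp.single v 1 with hB'
    have h1 : A ≤ B' := by
      rw [Finsupp.le_def]
      intro w
      by_cases hw : w = v
      · subst hw; simp [hB']; omega
      · have := Finsupp.le_def.mp hAB w
        simp [hB', Finsupp.single_eq_of_ne (Ne.symm (Ne.symm hw)), this]
    have hv1 : (1 : ℤ) ≤ (v.deg : ℤ) := by exact_mod_cast s26err_deg_pos v (hfin v)
    have hdB : Divisor.degree B' = Divisor.degree B - v.deg := by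
      rw [hB', map_sub, Divisor.degree_single]; simp
    obtain ⟨hfB', h3⟩ := ih A B' h1 (by rw [hdB]; push_cast at hdeg; linarith) hA
    have h4 := s26err_finrank_add_single_le B' v (hfin v) hfB'
    have h4' := s26err_finite_add_single B' v (hfin v) hfB'
    have hBB : B' + Finsupp.single v 1 = B := by rw [hB']; abel
    rw [hBB] at h4 h4'
    rw [hdB] at h3
    have h5 : (finrank K ↥(riemannRochSpace B) : ℤ) ≤
        finrank K ↥(riemannRochSpace B') + v.deg := by exact_mod_cast h4
    exact ⟨h4', by linarith⟩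

/-- `A ≤ B`, `L(A)` finite ⇒ `L(B)` finite -/
theorem s26err_finite_le (hfin : ∀ v : Place K F, Module.Finite K v.ResidueField)
    {A B : Divisor K F} (hAB : A ≤ B) (hA : Module.Finite K ↥(riemannRochSpace A)) :
    Module.Finite K ↥(riemannRochSpace B) :=
  (s26err_finite_le_aux hfin (Divisor.degree B - Divisor.degree A).toNat A B hAB
    (Int.self_le_toNat _) hA).1

/-- `A ≤ B`, `L(A)` finite ⇒ `dim L(B) ≤ dim L(A) + deg B − deg A` -/
theorem s26err_finrank_le' (hfin : ∀ v : Place K F, Module.Finite K v.ResidueField)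
    {A B : Divisor K F} (hAB : A ≤ B) (hA : Module.Finite K ↥(riemannRochSpace A)) :
    (finrank K ↥(riemannRochSpace B) : ℤ) ≤
      finrank K ↥(riemannRochSpace A) + (Divisor.degree B - Divisor.degree A) :=
  (s26err_finite_le_aux hfin (Divisor.degree B - Divisor.degree A).toNat A B hAB
    (Int.self_le_toNat _) hA).2

/-- every divisor is bounded above by an effective divisor -/
theorem s26err_le_posPart (D : Divisor K F) :
    ∃ E : Divisor K F, 0 ≤ E ∧ D ≤ E := by
  refine ⟨D.mapRange (fun n => max 0 n) (by simp), ?_, ?_⟩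
  · rw [Finsupp.le_def]
    intro v
    simp
  · rw [Finsupp.le_def]
    intro v
    simp

/-- **`L(D)` is finite-dimensional** (no `HasPrincipalDivisors`) -/
theorem s26err_rr_finite' (x : F) (hx : Transcendental K x) [FiniteDimensional K⟮x⟯ F]
    (D : Divisor K F) : Module.Finite K ↥(riemannRochSpace D) := by
  obtain ⟨E, hE0, hDE⟩ := s26err_le_posPart D
  haveI : Module.Finite K ↥(riemannRochSpace E) :=
    s26err_finite_le (fun v => s26err_residue_finite x hx v) hE0 (s26err_rr_zero_finite x hx)
  exact Module.Finite.of_injective (Submodule.inclusion (rr_mono hDE))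
    (Submodule.inclusion_injective _)

/-! ### Pole divisors -/

/-- the negative part of a divisor (the pole divisor, for the divisor of a function) -/
noncomputable def s26errNegPart (D : Divisor K F) : Divisor K F :=
  D.mapRange (fun n => max 0 (-n)) (by simp)

theorem s26errNegPart_apply (D : Divisor K F) (v : Place K F) :
    s26errNegPart D v = max 0 (-(D v)) := by
  simp [s26errNegPart]

theorem s26errNegPart_nonneg (D : Divisor K F) : 0 ≤ s26errNegPart D := by
  rw [Finsupp.le_def]
  intro v
  rw [s26errNegPart_apply]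
  simp

/-- the powers of a transcendental element are linearly independent -/
theorem s26err_linearIndependent_pow {x : F} (hx : Transcendental K x) :
    LinearIndependent K (fun i : ℕ => x ^ i) := by
  have h1 : LinearIndependent K (fun i : ℕ => (Polynomial.monomial i (1 : K))) :=
    (Polynomial.basisMonomials K).linearIndependent
  have h2 := h1.map' (Polynomial.aeval x : K[X] →ₐ[K] F).toLinearMap
    (LinearMap.ker_eq_bot.mpr (transcendental_iff_injective.mp hx))
  have e : (⇑(Polynomial.aeval x : K[X] →ₐ[K] F).toLinearMap ∘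
      fun i : ℕ => (Polynomial.monomial i (1 : K))) = fun i : ℕ => x ^ i := by
    funext i
    simp [Polynomial.aeval_monomial]
  rwa [e] at h2

/-- **the counting** (Stichtenoth 1.4.11): there is `C ≥ 0` with
`(l + 1) [F : K(x)] ≤ dim L(l (x)_∞ + C)` for all `l` -/
theorem s26err_count (x : F) (hx : Transcendental K x) [FiniteDimensional K⟮x⟯ F]
    (Dx : Divisor K F) (hDx : ∀ v, Dx v = v.ord x) :
    ∃ C : Divisor K F, 0 ≤ C ∧ ∀ l : ℕ,
      (l + 1) * finrank K⟮x⟯ F ≤
        finrank K ↥(riemannRochSpace ((l : ℤ) • s26errNegPart Dx + C)) := by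
  classical
  have hx0 : x ≠ 0 := by
    rintro rfl
    exact hx isAlgebraic_zero
  set n := finrank K⟮x⟯ F with hn
  let b := Module.finBasis K⟮x⟯ F
  have hb0 : ∀ j, b j ≠ 0 := fun j => b.ne_zero j
  have hdiv : ∀ j, ∃ D : Divisor K F, ∀ v : Place K F, D v = v.ord (b j) := fun j =>
    s26err_exists_divisor x hx (b j)
  choose Du hDu using hdiv
  set C : Divisor K F := ∑ j, s26errNegPart (Du j) with hC
  have hC0 : 0 ≤ C := Finset.sum_nonneg fun j _ => s26errNegPart_nonneg _
  have hCv : ∀ j v, -(C v) ≤ v.ord (b j) := by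
    intro j v
    have h1 : s26errNegPart (Du j) v ≤ C v := by
      rw [hC, Finsupp.finsetSum_apply]
      exact Finset.single_le_sum (f := fun j => s26errNegPart (Du j) v)
        (fun j _ => by
          have := Finsupp.le_def.mp (s26errNegPart_nonneg (Du j)) v
          simpa using this) (Finset.mem_univ j)
    rw [s26errNegPart_apply, hDu] at h1
    have := le_max_right 0 (-(v.ord (b j)))
    omega
  refine ⟨C, hC0, fun l => ?_⟩
  haveI : Module.Finite K ↥(riemannRochSpace ((l : ℤ) • s26errNegPart Dx + C)) :=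
    s26err_rr_finite' x hx _
  -- membership
  have hmem : ∀ p : Fin (l + 1) × Fin n,
      x ^ (p.1 : ℕ) * b p.2 ∈ riemannRochSpace ((l : ℤ) • s26errNegPart Dx + C) := by
    intro p
    rw [mem_riemannRochSpace_iff]
    intro v
    right
    rw [v.ord_mul (pow_ne_zero _ hx0) (hb0 p.2), ← zpow_natCast, v.ord_zpow]
    simp only [Finsupp.coe_add, Finsupp.coe_smul, Pi.add_apply, Pi.smul_apply, smul_eq_mul]
    rw [s26errNegPart_apply, hDx]
    have h1 := hCv p.2 v
    have h2 : ((p.1 : ℕ) : ℤ) ≤ l := by exact_mod_cast Nat.lt_succ_iff.mp p.1.2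
    have h3 : (0 : ℤ) ≤ ((p.1 : ℕ) : ℤ) := Int.natCast_nonneg _
    have h4 := le_max_left 0 (-(v.ord x))
    have h5 := le_max_right 0 (-(v.ord x))
    nlinarith
  -- independence
  have hpow : LinearIndependent K (fun i : Fin (l + 1) => (AdjoinSimple.gen K x) ^ (i : ℕ)) := by
    have h1 := (s26err_linearIndependent_pow hx).comp (fun i : Fin (l + 1) => (i : ℕ))
      Fin.val_injective
    refine LinearIndependent.of_comp (K⟮x⟯.val).toLinearMap ?_
    have e : (⇑(K⟮x⟯.val).toLinearMap ∘ fun i : Fin (l + 1) => (AdjoinSimple.gen K x) ^ (i : ℕ))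
        = (fun i : ℕ => x ^ i) ∘ fun i : Fin (l + 1) => (i : ℕ) := by
      funext i
      simp
    rw [e]
    exact h1
  have hli := linearIndependent_smul hpow b.linearIndependent
  have hli' : LinearIndependent K (fun p : Fin (l + 1) × Fin n =>
      (⟨x ^ (p.1 : ℕ) * b p.2, hmem p⟩ : ↥(riemannRochSpace ((l : ℤ) • s26errNegPart Dx + C)))) := by
    refine LinearIndependent.of_comp (Submodule.subtype _) ?_
    have e : (⇑(Submodule.subtype (riemannRochSpace ((l : ℤ) • s26errNegPart Dx + C))) ∘
        fun p : Fin (l + 1) × Fin n =>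
          (⟨x ^ (p.1 : ℕ) * b p.2, hmem p⟩ :
            ↥(riemannRochSpace ((l : ℤ) • s26errNegPart Dx + C)))) =
        fun p : Fin (l + 1) × Fin n => (AdjoinSimple.gen K x) ^ (p.1 : ℕ) • b p.2 := by
      funext p
      simp [IntermediateField.smul_def]
    rw [e]
    exact hli
  have := hli'.fintype_card_le_finrank
  simpa [Fintype.card_prod, Fintype.card_fin] using this

/-! ### `deg (x)_∞ = [F : K(x)]` -/

/-- `deg (x)_∞ ≤ [F : K(x)]` (Stichtenoth 1.3.3 for `x⁻¹`) -/
theorem s26err_degree_pole_le (x : F) (hx : Transcendental K x) [FiniteDimensional K⟮x⟯ F]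
    (Dx : Divisor K F) (hDx : ∀ v, Dx v = v.ord x) :
    Divisor.degree (s26errNegPart Dx) ≤ finrank K⟮x⟯ F := by
  classical
  have hx0 : x ≠ 0 := by
    rintro rfl
    exact hx isAlgebraic_zero
  have hxi : Transcendental K x⁻¹ := pd_transcendental_inv hx
  haveI : FiniteDimensional K⟮x⁻¹⟯ F :=
    pd_finiteDimensional_adjoin_of_transcendental x hx x⁻¹ hxi
  have h := s26err_sum_zeros_le (K := K) x⁻¹ (inv_ne_zero hx0) (s26errNegPart Dx).support
    (fun v _ => s26err_residue_finite x hx v) (fun v => (s26errNegPart Dx v).toNat)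
    (fun v hv => by
      rw [Finsupp.mem_support_iff, s26errNegPart_apply, hDx] at hv
      rw [s26errNegPart_apply, hDx, v.ord_inv]
      have h1 : 0 ≤ max 0 (-(v.ord x)) := le_max_left _ _
      rw [Int.toNat_of_nonneg h1]
      rcases max_cases 0 (-(v.ord x)) with ⟨h2, h3⟩ | ⟨h2, h3⟩
      · exact absurd h2 hv
      · rw [h2])
  rw [pd_finrank_eq_of_eq (pd_adjoin_inv_eq (K := K) x)] at h
  rw [degree_eq_sum, Finsupp.sum]
  have e : ∑ v ∈ (s26errNegPart Dx).support, (s26errNegPart Dx) v * (v.deg : ℤ) =
      ((∑ v ∈ (s26errNegPart Dx).support, (s26errNegPart Dx v).toNat * v.deg : ℕ) : ℤ) := by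
    push_cast
    refine Finset.sum_congr rfl fun v _ => ?_
    have h1 : 0 ≤ s26errNegPart Dx v := by
      rw [s26errNegPart_apply]
      exact le_max_left _ _
    rw [Int.toNat_of_nonneg h1]
  rw [e]
  exact_mod_cast h

/-- `[F : K(x)] ≤ deg (x)_∞` (the counting) -/
theorem s26err_degree_pole_ge (x : F) (hx : Transcendental K x) [FiniteDimensional K⟮x⟯ F]
    (Dx : Divisor K F) (hDx : ∀ v, Dx v = v.ord x) :
    (finrank K⟮x⟯ F : ℤ) ≤ Divisor.degree (s26errNegPart Dx) := by
  obtain ⟨C, hC0, hcount⟩ := s26err_count x hx Dx hDx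
  have hfin : ∀ v : Place K F, Module.Finite K v.ResidueField := fun v =>
    s26err_residue_finite x hx v
  have hB0 := s26errNegPart_nonneg Dx
  have hdB := degree_nonneg hB0
  have hdC := degree_nonneg hC0
  by_contra hlt
  rw [not_le] at hlt
  set c₀ : ℤ := ((finrank K ↥(riemannRochSpace (0 : Divisor K F)) : ℕ) : ℤ) with hc₀
  have hc₀0 : 0 ≤ c₀ := Int.natCast_nonneg _
  set l : ℕ := (c₀ + Divisor.degree C).toNat with hl
  have hl1 : c₀ + Divisor.degree C ≤ l := Int.self_le_toNat _
  have hpos : (0 : Divisor K F) ≤ (l : ℤ) • s26errNegPart Dx + C :=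
    add_nonneg (smul_nonneg (Int.natCast_nonneg _) hB0) hC0
  have h1 := s26err_finrank_le' hfin hpos (s26err_rr_zero_finite x hx)
  rw [map_zero, sub_zero, map_add, map_zsmul, smul_eq_mul] at h1
  have h2 : (((l + 1) * finrank K⟮x⟯ F : ℕ) : ℤ) ≤
      finrank K ↥(riemannRochSpace ((l : ℤ) • s26errNegPart Dx + C)) := by
    exact_mod_cast hcount l
  push_cast at h2
  have h3 : ((l : ℤ) + 1) * (Divisor.degree (s26errNegPart Dx) + 1) ≤
      ((l : ℤ) + 1) * (finrank K⟮x⟯ F : ℤ) :=
    mul_le_mul_of_nonneg_left (by omega) (by positivity)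
  nlinarith

/-- **Stichtenoth 1.4.11**: `deg (x)_∞ = [F : K(x)]` -/
theorem s26err_degree_pole (x : F) (hx : Transcendental K x) [FiniteDimensional K⟮x⟯ F]
    (Dx : Divisor K F) (hDx : ∀ v, Dx v = v.ord x) :
    Divisor.degree (s26errNegPart Dx) = finrank K⟮x⟯ F :=
  le_antisymm (s26err_degree_pole_le x hx Dx hDx) (s26err_degree_pole_ge x hx Dx hDx)

/-! ### Principal divisors have degree zero -/

theorem s26err_sub_negPart (D : Divisor K F) : s26errNegPart (-D) - s26errNegPart D = D := by
  ext v
  rw [Finsupp.sub_apply, s26errNegPart_apply, s26errNegPart_apply, Finsupp.neg_apply, neg_neg]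
  rcases le_total 0 (D v) with h | h
  · rw [max_eq_right h, max_eq_left (by omega)]
    ring
  · rw [max_eq_left h, max_eq_right (by omega)]
    ring

/-- the degree of the divisor of a function is zero -/
theorem s26err_degree_divisor (x : F) (hx : Transcendental K x) [FiniteDimensional K⟮x⟯ F]
    (f : F) (D : Divisor K F) (hD : ∀ v, D v = v.ord f) : Divisor.degree D = 0 := by
  by_cases hf : Transcendental K f
  · haveI : FiniteDimensional K⟮f⟯ F := pd_finiteDimensional_adjoin_of_transcendental x hx f hf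
    have hfi : Transcendental K f⁻¹ := pd_transcendental_inv hf
    haveI : FiniteDimensional K⟮f⁻¹⟯ F :=
      pd_finiteDimensional_adjoin_of_transcendental x hx f⁻¹ hfi
    have h1 := s26err_degree_pole f hf D hD
    have h2 := s26err_degree_pole f⁻¹ hfi (-D) (fun v => by
      rw [Finsupp.neg_apply, hD, v.ord_inv])
    rw [pd_finrank_eq_of_eq (pd_adjoin_inv_eq (K := K) f)] at h2
    have h3 := congrArg Divisor.degree (s26err_sub_negPart D)
    rw [map_sub, h1, h2] at h3
    rw [← h3]
    ring
  · have halg : IsAlgebraic K f := not_not.mp hf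
    have : D = 0 := by
      ext v
      rw [hD, s26err_ord_eq_zero_of_isAlgebraic v halg]
      rfl
    rw [this, map_zero]

/-- **Function fields of one variable have principal divisors** — any constant field, any
characteristic. -/
theorem s26err_hasPrincipalDivisors (x : F) (hx : Transcendental K x)
    [FiniteDimensional K⟮x⟯ F] : HasPrincipalDivisors K F where
  exists_divisor f hf := by
    obtain ⟨D, hD⟩ := s26err_exists_divisor x hx f
    exact ⟨D, hD, s26err_degree_divisor x hx f D hD⟩

/-! ### Riemann's inequality for large divisors -/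

/-- there is `g₀` such that divisors `B` of arbitrarily large degree satisfy
`deg B + 1 − g₀ ≤ dim L(B)` -/
theorem s26err_hbig (x : F) (hx : Transcendental K x) [FiniteDimensional K⟮x⟯ F] :
    ∃ g₀ : ℤ, ∀ m : ℤ, ∃ B : Divisor K F, m ≤ Divisor.degree B ∧
      Divisor.degree B + 1 - g₀ ≤ finrank K ↥(riemannRochSpace B) := by
  obtain ⟨Dx, hDx⟩ := s26err_exists_divisor x hx x
  obtain ⟨C, hC0, hcount⟩ := s26err_count x hx Dx hDx
  have hdeg := s26err_degree_pole x hx Dx hDx
  have hdC := degree_nonneg hC0
  have hn : 1 ≤ finrank K⟮x⟯ F := Module.finrank_pos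
  refine ⟨Divisor.degree C - finrank K⟮x⟯ F + 1, fun m => ?_⟩
  refine ⟨(m.toNat : ℤ) • s26errNegPart Dx + C, ?_, ?_⟩
  · rw [map_add, map_zsmul, smul_eq_mul, hdeg]
    have h1 := Int.self_le_toNat m
    have h2 : (0 : ℤ) ≤ (m.toNat : ℤ) := Int.natCast_nonneg _
    have h3 : (1 : ℤ) ≤ (finrank K⟮x⟯ F : ℤ) := by exact_mod_cast hn
    nlinarith
  · rw [map_add, map_zsmul, smul_eq_mul, hdeg]
    have h2 : (((m.toNat + 1) * finrank K⟮x⟯ F : ℕ) : ℤ) ≤
        finrank K ↥(riemannRochSpace ((m.toNat : ℤ) • s26errNegPart Dx + C)) := by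
      exact_mod_cast hcount m.toNat
    push_cast at h2
    linarith

end Fermat.Agent.S26
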