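/-
S26, wall (E), piece E-RR, part F (helper42): **the genus and the consequences of Riemann's
theorem** for a function field `F / K` with places of any finite degree (constant field `K`
arbitrary, no characteristic hypothesis), on top of the calculus of `S26/ERR1.lean` (helper79).

Hypotheses (delivered by (RR-B), (RR-E)):
`[HasPrincipalDivisors K F]`, `hfin : ∀ v, Module.Finite K v.ResidueField`,
`h0 : dim L(0) = 1`, `hbig : ∃ g₀, ∀ m, ∃ B, m ≤ deg B ∧ deg B + 1 − g₀ ≤ dim L(B)`.

* `S26errfGenus K F γ`      : `0 ≤ γ`, Riemann's inequality with `γ`, and equality for one divisor;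
* `s26errf_genus`           : **(F1)** the genus exists (the least constant of Riemann's inequality);
* `s26errf_genus_unique`    : the genus is unique;
* `s26errf_large`           : **(F2)** `dim L(A) = deg A + 1 − γ` for `deg A ≥ deg A₀ + γ`;
* `s26errf_exists_bound`    : (F2) in the form `∃ c, ∀ A, c ≤ deg A → …`;
* `s26errf_exists_place`    : **(F3)** all places of degree one, infinitely many places,
    `dim L(D) > deg D + 1 − γ` ⇒ there is a place `P` outside a given finite set with
    `dim L(D + P) = dim L(D)` (no differentials);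
* `s26errf_exists_E0`       : **(F4)** `∃ E₀ ≥ 0, deg E₀ = γ, dim L(E₀) = 1`;
* `s26errf_exists_pole`     : **(F5)** for every place `Q` there is `u` with a pole at `Q` and no
    other pole.

(Stichtenoth, *Algebraic function fields and codes*, 1.4.15 – 1.4.17, 1.6.)
-/
import Fermat.Agent.S26.ERR1

set_option autoImplicit false
set_option linter.unusedSectionVars false
set_option linter.unusedVariables false
set_option linter.style.haveILetI false

open AlgebraicCurve Module

namespace Fermat.Agent.S26

open Fermat.Agent.S24 Fermat.Agent.ES.R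

variable {K F : Type*} [Field K] [Field F] [Algebra K F]

/-- `γ` is the genus of `F / K`: `γ ≥ 0`, Riemann's inequality holds with `γ`, and it is an
equality for at least one divisor (so `γ` is the least constant). -/
def S26errfGenus (K F : Type*) [Field K] [Field F] [Algebra K F] (γ : ℤ) : Prop :=
  0 ≤ γ ∧
    (∀ A : Divisor K F, Divisor.degree A + 1 - γ ≤ (finrank K ↥(riemannRochSpace A) : ℤ)) ∧
    ∃ A₀ : Divisor K F, (finrank K ↥(riemannRochSpace A₀) : ℤ) = Divisor.degree A₀ + 1 - γ

/-- there is a place, if there are divisors of positive degree -/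
theorem s26errf_nonempty_place
    (hbig : ∃ g₀ : ℤ, ∀ m : ℤ, ∃ B : Divisor K F, m ≤ Divisor.degree B ∧
      Divisor.degree B + 1 - g₀ ≤ (finrank K ↥(riemannRochSpace B) : ℤ)) :
    Nonempty (Place K F) := by
  obtain ⟨g₀, h⟩ := hbig
  obtain ⟨B, hB, -⟩ := h 1
  by_contra hne
  rw [not_nonempty_iff] at hne
  have hB0 : B = 0 := by
    ext v
    exact (hne.false v).elim
  rw [hB0, map_zero] at hB
  omega

/-- **(F1)** the genus exists -/
theorem s26errf_genus [HasPrincipalDivisors K F]
    (hfin : ∀ v : Place K F, Module.Finite K v.ResidueField)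
    (h0 : finrank K ↥(riemannRochSpace (0 : Divisor K F)) = 1)
    (hbig : ∃ g₀ : ℤ, ∀ m : ℤ, ∃ B : Divisor K F, m ≤ Divisor.degree B ∧
      Divisor.degree B + 1 - g₀ ≤ (finrank K ↥(riemannRochSpace B) : ℤ)) :
    ∃ γ : ℤ, S26errfGenus K F γ := by
  classical
  obtain ⟨g₀, hg₀⟩ := hbig
  have hR₀ := s26err_riemann_transfer hfin g₀ hg₀
  have hP0 : ∀ g : ℤ, (∀ A : Divisor K F,
      Divisor.degree A + 1 - g ≤ (finrank K ↥(riemannRochSpace A) : ℤ)) → 0 ≤ g := by
    intro g hg
    have h := hg 0
    rw [map_zero, h0] at h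
    push_cast at h
    linarith
  obtain ⟨γ, hγ, hmin⟩ := Int.exists_least_of_bdd
    (P := fun g : ℤ => ∀ A : Divisor K F,
      Divisor.degree A + 1 - g ≤ (finrank K ↥(riemannRochSpace A) : ℤ))
    ⟨0, fun g hg => hP0 g hg⟩ ⟨g₀, hR₀⟩
  refine ⟨γ, hP0 γ hγ, hγ, ?_⟩
  by_contra hcon
  push Not at hcon
  have h1 : ∀ A : Divisor K F,
      Divisor.degree A + 1 - (γ - 1) ≤ (finrank K ↥(riemannRochSpace A) : ℤ) := by
    intro A
    have h2 := hγ A
    have h3 := hcon A
    omega
  have h4 := hmin (γ - 1) h1
  omega

/-- the genus is unique -/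
theorem s26errf_genus_unique {γ γ' : ℤ} (h : S26errfGenus K F γ) (h' : S26errfGenus K F γ') :
    γ = γ' := by
  obtain ⟨-, hR, A₀, hA₀⟩ := h
  obtain ⟨-, hR', A₀', hA₀'⟩ := h'
  have h1 := hR A₀'
  have h2 := hR' A₀
  omega

/-- **(F2)** `dim L(A) = deg A + 1 − γ` for the divisors of large degree -/
theorem s26errf_large [HasPrincipalDivisors K F]
    (hfin : ∀ v : Place K F, Module.Finite K v.ResidueField) {γ : ℤ}
    (hR : ∀ A : Divisor K F, Divisor.degree A + 1 - γ ≤ (finrank K ↥(riemannRochSpace A) : ℤ))
    {A₀ : Divisor K F}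
    (hA₀ : (finrank K ↥(riemannRochSpace A₀) : ℤ) = Divisor.degree A₀ + 1 - γ)
    {A : Divisor K F} (hA : Divisor.degree A₀ + γ ≤ Divisor.degree A) :
    (finrank K ↥(riemannRochSpace A) : ℤ) = Divisor.degree A + 1 - γ := by
  refine le_antisymm ?_ (hR A)
  have h1 := hR (A - A₀)
  rw [map_sub] at h1
  have hpos : 0 < finrank K ↥(riemannRochSpace (A - A₀)) := by
    have : (0 : ℤ) < finrank K ↥(riemannRochSpace (A - A₀)) := by linarith
    exact_mod_cast this
  have := Module.nontrivial_of_finrank_pos hpos
  obtain ⟨⟨z, hzmem⟩, hz0'⟩ := exists_ne (0 : ↥(riemannRochSpace (A - A₀)))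
  have hz0 : z ≠ 0 := fun h => hz0' (Subtype.ext h)
  obtain ⟨Z, hZ, hZdeg⟩ := HasPrincipalDivisors.exists_divisor (K := K) z hz0
  set A' : Divisor K F := A + Z with hA'
  have hle : A₀ ≤ A' := by
    rw [Finsupp.le_def]
    intro v
    rw [mem_riemannRochSpace_iff] at hzmem
    have := (hzmem v).resolve_left hz0
    simp only [hA', Finsupp.coe_sub, Finsupp.coe_add, Pi.sub_apply, Pi.add_apply, hZ v] at this ⊢
    linarith
  have hdeg : Divisor.degree A' = Divisor.degree A := by
    rw [hA', map_add, hZdeg, add_zero]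
  have hdim : finrank K ↥(riemannRochSpace A') = finrank K ↥(riemannRochSpace A) :=
    rr_finrank_eq_of_principal (inv_ne_zero hz0) (fun v => by
      simp only [hA', Finsupp.coe_add, Pi.add_apply, hZ v, Place.ord_inv]
      ring)
  have h3 := s26err_finrank_le hfin hle
  rw [hdim, hdeg, hA₀] at h3
  linarith

/-- (F2), existential form -/
theorem s26errf_exists_bound [HasPrincipalDivisors K F]
    (hfin : ∀ v : Place K F, Module.Finite K v.ResidueField) {γ : ℤ}
    (hγ : S26errfGenus K F γ) :
    ∃ c : ℤ, ∀ A : Divisor K F, c ≤ Divisor.degree A →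
      (finrank K ↥(riemannRochSpace A) : ℤ) = Divisor.degree A + 1 - γ := by
  obtain ⟨-, hR, A₀, hA₀⟩ := hγ
  exact ⟨Divisor.degree A₀ + γ, fun A hA => s26errf_large hfin hR hA₀ hA⟩

/-! ### (F3): a place that does not enlarge `L(D)` -/

/-- the sum of the places of a finite set -/
noncomputable def s26errfSum (T : Finset (Place K F)) : Divisor K F :=
  ∑ P ∈ T, Finsupp.single P 1

theorem s26errfSum_nonneg (T : Finset (Place K F)) : 0 ≤ s26errfSum T := by
  unfold s26errfSum
  refine Finset.sum_nonneg fun P _ => ?_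
  rw [Finsupp.le_def]
  intro v
  by_cases hv : v = P
  · subst hv; simp
  · simp [Finsupp.single_eq_of_ne (Ne.symm (Ne.symm hv))]

theorem s26errfSum_apply_of_notMem (T : Finset (Place K F)) {P : Place K F} (hP : P ∉ T) :
    s26errfSum T P = 0 := by
  classical
  unfold s26errfSum
  rw [Finsupp.finsetSum_apply]
  refine Finset.sum_eq_zero fun Q hQ => ?_
  have hne : Q ≠ P := fun h => hP (h ▸ hQ)
  exact Finsupp.single_eq_of_ne (Ne.symm (Ne.symm (Ne.symm hne)))

theorem s26errfSum_insert [DecidableEq (Place K F)] (T : Finset (Place K F)) {P : Place K F}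
    (hP : P ∉ T) : s26errfSum (insert P T) = s26errfSum T + Finsupp.single P 1 := by
  unfold s26errfSum
  rw [Finset.sum_insert hP, add_comm]

theorem s26errf_degree_sum (hdeg : ∀ v : Place K F, v.deg = 1) (T : Finset (Place K F)) :
    Divisor.degree (s26errfSum T) = T.card := by
  unfold s26errfSum
  rw [map_sum]
  simp [Divisor.degree_single, hdeg]

/-- a function of `L(D + P)` outside `L(D)` stays outside `L(D')` for `D ≤ D'`, `D' P = D P` -/
theorem s26errf_notMem_of_notMem {D D' : Divisor K F} {P : Place K F} (hDD' : D ≤ D')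
    (hP : D' P = D P) {f : F} (hf : f ∈ riemannRochSpace (D + Finsupp.single P 1))
    (hf' : f ∉ riemannRochSpace D) :
    f ∈ riemannRochSpace (D' + Finsupp.single P 1) ∧ f ∉ riemannRochSpace D' := by
  have hf0 : f ≠ 0 := fun h => hf' (h ▸ zero_mem _)
  constructor
  · exact rr_mono (add_le_add_left hDD' _) hf
  · intro hmem
    apply hf'
    rw [mem_riemannRochSpace_iff] at hf hmem ⊢
    intro v
    right
    by_cases hv : v = P
    · subst hv
      have := (hmem v).resolve_left hf0
      rw [hP] at this
      exact this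
    · have := (hf v).resolve_left hf0
      simp only [Finsupp.coe_add, Pi.add_apply] at this
      rw [Finsupp.single_eq_of_ne (Ne.symm (Ne.symm hv)), add_zero] at this
      exact this

/-- strict growth along a finite set of "bad" places -/
theorem s26errf_growth [HasPrincipalDivisors K F]
    (hfin : ∀ v : Place K F, Module.Finite K v.ResidueField) (D : Divisor K F)
    (T : Finset (Place K F))
    (hT : ∀ P ∈ T, finrank K ↥(riemannRochSpace (D + Finsupp.single P 1)) ≠
      finrank K ↥(riemannRochSpace D)) :
    finrank K ↥(riemannRochSpace D) + T.card ≤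
      finrank K ↥(riemannRochSpace (D + s26errfSum T)) := by
  classical
  induction T using Finset.induction_on with
  | empty =>
    rw [s26errfSum, Finset.sum_empty, add_zero, Finset.card_empty, add_zero]
  | insert P T hPT ih =>
    have ih' := ih (fun Q hQ => hT Q (Finset.mem_insert_of_mem hQ))
    have hP := hT P (Finset.mem_insert_self P T)
    -- a function of `L(D + P)` outside `L(D)`
    have hnle : ¬ riemannRochSpace (D + Finsupp.single P 1) ≤ riemannRochSpace D := by
      intro hle
      apply hP
      have hle' : riemannRochSpace D ≤ riemannRochSpace (D + Finsupp.single P 1) :=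
        rr_mono (le_add_of_nonneg_right (by
          rw [Finsupp.le_def]
          intro v
          by_cases hv : v = P
          · subst hv; simp
          · simp [Finsupp.single_eq_of_ne (Ne.symm (Ne.symm hv))]))
      rw [le_antisymm hle hle']
    obtain ⟨f, hf, hf'⟩ := SetLike.not_le_iff_exists.mp hnle
    have hDD' : D ≤ D + s26errfSum T := le_add_of_nonneg_right (s26errfSum_nonneg T)
    have hPD : (D + s26errfSum T) P = D P := by
      rw [Finsupp.add_apply, s26errfSum_apply_of_notMem T hPT, add_zero]
    obtain ⟨h1, h2⟩ := s26errf_notMem_of_notMem hDD' hPD hf hf'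
    have hlt : riemannRochSpace (D + s26errfSum T) <
        riemannRochSpace (D + s26errfSum T + Finsupp.single P 1) := by
      refine lt_of_le_of_ne (rr_mono (le_add_of_nonneg_right (by
        rw [Finsupp.le_def]
        intro v
        by_cases hv : v = P
        · subst hv; simp
        · simp [Finsupp.single_eq_of_ne (Ne.symm (Ne.symm hv))]))) ?_
      intro heq
      apply h2
      rw [heq]
      exact h1
    haveI : Module.Finite K ↥(riemannRochSpace (D + s26errfSum T + Finsupp.single P 1)) :=
      s26err_rr_finite P hfin _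
    have h3 := Submodule.finrank_lt_finrank_of_lt hlt
    rw [s26errfSum_insert T hPT, Finset.card_insert_of_notMem hPT, ← add_assoc D]
    omega

/-- **(F3)** if all places have degree one and there are infinitely many places, a divisor `D`
with `dim L(D) > deg D + 1 − γ` has a place `P` (outside a given finite set) with
`dim L(D + P) = dim L(D)`. -/
theorem s26errf_exists_place [HasPrincipalDivisors K F] [Infinite (Place K F)]
    (hfin : ∀ v : Place K F, Module.Finite K v.ResidueField)
    (hdeg : ∀ v : Place K F, v.deg = 1) {γ : ℤ} (hγ : S26errfGenus K F γ)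
    (D : Divisor K F)
    (hD : Divisor.degree D + 1 - γ < (finrank K ↥(riemannRochSpace D) : ℤ))
    (S : Finset (Place K F)) :
    ∃ P : Place K F, P ∉ S ∧
      finrank K ↥(riemannRochSpace (D + Finsupp.single P 1)) =
        finrank K ↥(riemannRochSpace D) := by
  classical
  by_contra hcon
  push Not at hcon
  obtain ⟨c, hc⟩ := s26errf_exists_bound hfin hγ
  -- `N` places outside `S`
  set N : ℕ := (c - Divisor.degree D).toNat with hN
  have hinf : ((Set.univ : Set (Place K F)) \ (S : Set (Place K F))).Infinite :=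
    Set.Infinite.sdiff Set.infinite_univ S.finite_toSet
  obtain ⟨T, hTS, hTcard⟩ := hinf.exists_subset_card_eq N
  have hT : ∀ P ∈ T, finrank K ↥(riemannRochSpace (D + Finsupp.single P 1)) ≠
      finrank K ↥(riemannRochSpace D) := by
    intro P hP
    have hPS : P ∉ S := by
      have := hTS (Finset.mem_coe.mpr hP)
      exact fun h => this.2 (Finset.mem_coe.mpr h)
    exact hcon P hPS
  have h1 := s26errf_growth hfin D T hT
  have hdegT : Divisor.degree (D + s26errfSum T) = Divisor.degree D + N := by
    rw [map_add, s26errf_degree_sum hdeg T, hTcard]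
  have hge : c ≤ Divisor.degree (D + s26errfSum T) := by
    rw [hdegT, hN]
    have := Int.self_le_toNat (c - Divisor.degree D)
    linarith
  have h2 := hc _ hge
  rw [hdegT] at h2
  have h3 : ((finrank K ↥(riemannRochSpace D) + T.card : ℕ) : ℤ) ≤
      (finrank K ↥(riemannRochSpace (D + s26errfSum T)) : ℤ) := by exact_mod_cast h1
  rw [hTcard] at h3
  push_cast at h3
  linarith

/-! ### (F4): the divisor `E₀` -/

theorem s26errf_exists_E0_aux [HasPrincipalDivisors K F] [Infinite (Place K F)]
    (hfin : ∀ v : Place K F, Module.Finite K v.ResidueField)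
    (hdeg : ∀ v : Place K F, v.deg = 1)
    (h0 : finrank K ↥(riemannRochSpace (0 : Divisor K F)) = 1)
    {γ : ℤ} (hγ : S26errfGenus K F γ) :
    ∀ k : ℕ, (k : ℤ) ≤ γ → ∃ E : Divisor K F, 0 ≤ E ∧ Divisor.degree E = k ∧
      finrank K ↥(riemannRochSpace E) = 1 := by
  intro k
  induction k with
  | zero =>
    intro _
    exact ⟨0, le_refl _, by simp, h0⟩
  | succ k ih =>
    intro hk
    push_cast at hk
    obtain ⟨E, hE0, hEdeg, hEdim⟩ := ih (by linarith)
    have hD : Divisor.degree E + 1 - γ < (finrank K ↥(riemannRochSpace E) : ℤ) := by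
      rw [hEdeg, hEdim]
      push_cast
      linarith
    obtain ⟨P, -, hP⟩ := s26errf_exists_place hfin hdeg hγ E hD ∅
    refine ⟨E + Finsupp.single P 1, ?_, ?_, ?_⟩
    · refine le_add_of_le_of_nonneg hE0 ?_
      rw [Finsupp.le_def]
      intro v
      by_cases hv : v = P
      · subst hv; simp
      · simp [Finsupp.single_eq_of_ne (Ne.symm (Ne.symm hv))]
    · rw [map_add, hEdeg, Divisor.degree_single, hdeg P]
      push_cast
      ring
    · rw [hP, hEdim]

/-- **(F4)** there is `E₀ ≥ 0` of degree `γ` with `dim L(E₀) = 1`. -/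
theorem s26errf_exists_E0 [HasPrincipalDivisors K F] [Infinite (Place K F)]
    (hfin : ∀ v : Place K F, Module.Finite K v.ResidueField)
    (hdeg : ∀ v : Place K F, v.deg = 1)
    (h0 : finrank K ↥(riemannRochSpace (0 : Divisor K F)) = 1)
    {γ : ℤ} (hγ : S26errfGenus K F γ) :
    ∃ E₀ : Divisor K F, 0 ≤ E₀ ∧ Divisor.degree E₀ = γ ∧
      finrank K ↥(riemannRochSpace E₀) = 1 := by
  obtain ⟨E, hE0, hEdeg, hEdim⟩ :=
    s26errf_exists_E0_aux hfin hdeg h0 hγ γ.toNat (by rw [Int.toNat_of_nonneg hγ.1])
  exact ⟨E, hE0, by rw [hEdeg, Int.toNat_of_nonneg hγ.1], hEdim⟩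

/-! ### (F5): a function with a single pole -/

/-- **(F5)** for every place `Q` there is a function with a pole at `Q` and no other pole. -/
theorem s26errf_exists_pole [HasPrincipalDivisors K F]
    (hfin : ∀ v : Place K F, Module.Finite K v.ResidueField)
    (h0 : finrank K ↥(riemannRochSpace (0 : Divisor K F)) = 1)
    {γ : ℤ} (hγ : S26errfGenus K F γ) (Q : Place K F) :
    ∃ u : F, Q.ord u < 0 ∧ ∀ v : Place K F, v ≠ Q → 0 ≤ v.ord u := by
  classical
  obtain ⟨hγ0, hR, -⟩ := hγ
  set D : Divisor K F := Finsupp.single Q (γ + 1) with hD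
  have hD0 : 0 ≤ D := by
    rw [Finsupp.le_def]
    intro v
    by_cases hv : v = Q
    · subst hv; simp [hD]; linarith
    · simp [hD, Finsupp.single_eq_of_ne (Ne.symm (Ne.symm hv))]
  have hQ1 : (1 : ℤ) ≤ (Q.deg : ℤ) := by exact_mod_cast s26err_deg_pos Q (hfin Q)
  have hdegD : γ + 1 ≤ Divisor.degree D := by
    rw [hD, Divisor.degree_single]
    nlinarith
  have h1 := hR D
  have hlt : finrank K ↥(riemannRochSpace (0 : Divisor K F)) <
      finrank K ↥(riemannRochSpace D) := by
    rw [h0]
    have : (1 : ℤ) < (finrank K ↥(riemannRochSpace D) : ℤ) := by linarith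
    exact_mod_cast this
  have hnle : ¬ riemannRochSpace D ≤ riemannRochSpace (0 : Divisor K F) := by
    intro hle
    haveI : Module.Finite K ↥(riemannRochSpace (0 : Divisor K F)) := s26err_rr_finite Q hfin 0
    have := Submodule.finrank_mono hle
    omega
  obtain ⟨u, hu, hu'⟩ := SetLike.not_le_iff_exists.mp hnle
  have hu0 : u ≠ 0 := fun h => hu' (h ▸ zero_mem _)
  rw [mem_riemannRochSpace_iff] at hu
  have hoff : ∀ v : Place K F, v ≠ Q → 0 ≤ v.ord u := by
    intro v hv
    have := (hu v).resolve_left hu0
    rw [hD, Finsupp.single_eq_of_ne (Ne.symm (Ne.symm hv)), neg_zero] at this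
    exact this
  refine ⟨u, ?_, hoff⟩
  by_contra hcon
  push Not at hcon
  apply hu'
  rw [mem_riemannRochSpace_iff]
  intro v
  right
  by_cases hv : v = Q
  · subst hv; simpa using hcon
  · simpa using hoff v hv

end Fermat.Agent.S26
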