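/-
S26, wall (E), piece E-RR, part G (helper42): **the instance hypotheses of (RR-F) for a function
field `F / K` over an ALGEBRAICALLY CLOSED constant field `K`** (any characteristic), from the
single input "every transcendental function has a zero" (delivered by (RR-B)).

* `S26errgHasZeros K F`   : every transcendental `f ∈ F` has a zero;
* `s26errg_exists_pole`   : … and a pole;
* `s26errg_hfin`, `s26errg_hdeg` : the residue fields are `K`, all places have degree one
  (`S24/Residue.lean`, characteristic free);
* `s26errg_rr_zero`, `s26errg_h0` : `L(0) = K`, `dim L(0) = 1`;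
* `s26errg_infinite`      : `F / K` has infinitely many places;
* `s26errg_exists_E0`     : the genus `γ` and the divisor `E₀ ≥ 0`, `deg E₀ = γ`, `dim L(E₀) = 1`,
  from `HasPrincipalDivisors`, zeros and `hbig` alone.
-/
import Fermat.Agent.S26.ERRF
import Fermat.Agent.S24.Residue

set_option autoImplicit false
set_option linter.unusedSectionVars false
set_option linter.unusedVariables false
set_option linter.style.haveILetI false

open AlgebraicCurve Module

namespace Fermat.Agent.S26

open Fermat.Agent.S24 Fermat.Agent.ES.R

variable {K F : Type*} [Field K] [Field F] [Algebra K F]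

/-- every transcendental function has a zero -/
def S26errgHasZeros (K F : Type*) [Field K] [Field F] [Algebra K F] : Prop :=
  ∀ f : F, Transcendental K f → ∃ v : Place K F, 0 < v.ord f

theorem s26errg_transcendental_inv {f : F} (hf : Transcendental K f) : Transcendental K f⁻¹ := by
  intro h
  exact hf (by simpa using h.inv)

theorem s26errg_transcendental_sub {x : F} (hx : Transcendental K x) (c : K) :
    Transcendental K (x - algebraMap K F c) := by
  intro halg
  apply hx
  have := halg.add (isAlgebraic_algebraMap (R := K) (A := F) c)
  simpa using this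

/-- every transcendental function has a pole -/
theorem s26errg_exists_pole (hz : S26errgHasZeros K F) {f : F} (hf : Transcendental K f) :
    ∃ v : Place K F, v.ord f < 0 := by
  obtain ⟨v, hv⟩ := hz f⁻¹ (s26errg_transcendental_inv hf)
  refine ⟨v, ?_⟩
  rw [v.ord_inv] at hv
  omega

section AlgClosed

variable [IsAlgClosed K]

/-- the residue fields are finite over `K` -/
theorem s26errg_hfin (x : F) (hx : Transcendental K x)
    (halg : Algebra.IsAlgebraic (IntermediateField.adjoin K {x}) F) (v : Place K F) :
    Module.Finite K v.ResidueField :=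
  Module.Finite.of_surjective (Algebra.linearMap K v.ResidueField)
    (algebraMap_residueField_bijective x hx halg v).2

/-- all places have degree one -/
theorem s26errg_hdeg (x : F) (hx : Transcendental K x)
    (halg : Algebra.IsAlgebraic (IntermediateField.adjoin K {x}) F) (v : Place K F) :
    v.deg = 1 :=
  deg_eq_one x hx halg v

/-- `L(0) = K` -/
theorem s26errg_rr_zero (hz : S26errgHasZeros K F) :
    riemannRochSpace (0 : Divisor K F) = Submodule.span K {(1 : F)} := by
  apply le_antisymm
  · intro f hf
    rw [mem_riemannRochSpace_iff] at hf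
    rw [Submodule.mem_span_singleton]
    by_cases hft : Transcendental K f
    · exfalso
      obtain ⟨v, hv⟩ := s26errg_exists_pole hz hft
      have hf0 : f ≠ 0 := by
        rintro rfl
        rw [v.ord_zero] at hv
        exact lt_irrefl _ hv
      have := (hf v).resolve_left hf0
      simp only [Finsupp.coe_zero, Pi.zero_apply, neg_zero] at this
      omega
    · have halg : IsAlgebraic K f := not_not.mp hft
      have hint : IsIntegral K f := halg.isIntegral
      obtain ⟨c, hc⟩ := minpoly.mem_range_of_degree_eq_one K f
        (IsAlgClosed.degree_eq_one_of_irreducible K (minpoly.irreducible hint))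
      exact ⟨c, by rw [Algebra.smul_def, mul_one]; exact hc⟩
  · rw [Submodule.span_singleton_le_iff_mem]
    have := s26err_algebraMap_mem_rr_zero (K := K) (F := F) 1
    rwa [map_one] at this

/-- `dim L(0) = 1` -/
theorem s26errg_h0 (hz : S26errgHasZeros K F) :
    finrank K ↥(riemannRochSpace (0 : Divisor K F)) = 1 := by
  rw [s26errg_rr_zero hz]
  exact finrank_span_singleton one_ne_zero

/-- a place is a zero of at most one of the functions `x − c` -/
theorem s26errg_zero_unique (v : Place K F) (x : F) {c c' : K}
    (hc : 0 < v.ord (x - algebraMap K F c)) (hc' : 0 < v.ord (x - algebraMap K F c')) :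
    c = c' := by
  by_contra hne
  have h1 : x - algebraMap K F c ≠ 0 := by
    intro h
    rw [h, v.ord_zero] at hc
    exact lt_irrefl _ hc
  have h2 : -(x - algebraMap K F c') ≠ 0 := by
    intro h
    rw [neg_eq_zero] at h
    rw [h, v.ord_zero] at hc'
    exact lt_irrefl _ hc'
  have hsum : x - algebraMap K F c + -(x - algebraMap K F c') = algebraMap K F (c' - c) := by
    rw [map_sub]
    ring
  have h3 : algebraMap K F (c' - c) ≠ 0 := by
    rw [Ne, map_eq_zero, sub_eq_zero]
    exact fun h => hne h.symm
  have h4 := PlaceAux.le_ord_add v h1 h2 (by rw [hsum]; exact h3)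
  rw [hsum, PlaceAux.ord_algebraMap, PlaceAux.ord_neg] at h4
  rcases min_le_iff.mp h4 with h5 | h5 <;> omega

/-- `F / K` has infinitely many places -/
theorem s26errg_infinite (hz : S26errgHasZeros K F) (x : F) (hx : Transcendental K x) :
    Infinite (Place K F) := by
  classical
  have hex : ∀ c : K, ∃ v : Place K F, 0 < v.ord (x - algebraMap K F c) :=
    fun c => hz _ (s26errg_transcendental_sub hx c)
  choose φ hφ using hex
  refine Infinite.of_injective φ (fun c c' h => ?_)
  have h1 := hφ c
  have h2 := hφ c'
  rw [← h] at h2
  exact s26errg_zero_unique (φ c) x h1 h2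

/-- **the genus and `E₀`** for a function field over an algebraically closed field, from
`HasPrincipalDivisors`, the existence of zeros and Riemann's inequality for large degree. -/
theorem s26errg_exists_E0 [HasPrincipalDivisors K F] (x : F) (hx : Transcendental K x)
    (halg : Algebra.IsAlgebraic (IntermediateField.adjoin K {x}) F)
    (hz : S26errgHasZeros K F)
    (hbig : ∃ g₀ : ℤ, ∀ m : ℤ, ∃ B : Divisor K F, m ≤ Divisor.degree B ∧
      Divisor.degree B + 1 - g₀ ≤ (finrank K ↥(riemannRochSpace B) : ℤ)) :
    ∃ γ : ℤ, S26errfGenus K F γ ∧ ∃ E₀ : Divisor K F, 0 ≤ E₀ ∧ Divisor.degree E₀ = γ ∧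
      finrank K ↥(riemannRochSpace E₀) = 1 := by
  haveI := s26errg_infinite hz x hx
  have hfin := s26errg_hfin x hx halg
  have hdeg := s26errg_hdeg x hx halg
  have h0 := s26errg_h0 hz
  obtain ⟨γ, hγ⟩ := s26errf_genus hfin h0 hbig
  exact ⟨γ, hγ, s26errf_exists_E0 hfin hdeg h0 hγ⟩

end AlgClosed

end Fermat.Agent.S26
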