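/-
S26, wall (E), piece E-RR, part G (helper42): **the algebraically closed package, instantiated**
on (RR-B) (`S26/ERR2a.lean`, helper79).  `K` algebraically closed (ANY characteristic),
`x ∈ F` transcendental, `[F : K(x)] < ∞`.

* `s26errg_hasZeros`   : every transcendental function has a zero (`s26err_exists_place_pos`);
* `s26errg_deg_eq_one` : **(G1)** `deg v = 1` for every place;
* `s26errg_finite`     : the residue fields are finite over `K`;
* `s26errg_rr_zero_finrank` : **(G2)** `dim L(0) = 1`;
* `s26errg_infinite_place`  : **(G3)** infinitely many places;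
* `s26errg_package`    : **(G4)** from `HasPrincipalDivisors K F` and `hbig`: the genus `γ`,
  Riemann's equality for large degree, `E₀`, and a function with a single pole at every place.
-/
import Fermat.Agent.S26.ERRG
import Fermat.Agent.S26.ERR2a

set_option autoImplicit false
set_option linter.unusedSectionVars false
set_option linter.unusedVariables false
set_option linter.style.haveILetI false

open AlgebraicCurve Module IntermediateField

namespace Fermat.Agent.S26

open Fermat.Agent.S24 Fermat.Agent.ES.R

variable {K F : Type*} [Field K] [Field F] [Algebra K F]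

/-- every transcendental function has a zero (any constant field) -/
theorem s26errg_hasZeros (x : F) (hx : Transcendental K x) [FiniteDimensional K⟮x⟯ F] :
    S26errgHasZeros K F :=
  fun _ hf => s26err_exists_place_pos x hx hf

variable [IsAlgClosed K]

/-- **(G1)** all places have degree one -/
theorem s26errg_deg_eq_one (x : F) (hx : Transcendental K x) [FiniteDimensional K⟮x⟯ F]
    (v : Place K F) : v.deg = 1 :=
  s26errg_hdeg x hx (Algebra.IsAlgebraic.of_finite _ _) v

/-- the residue fields are finite over `K` -/
theorem s26errg_finite (x : F) (hx : Transcendental K x) [FiniteDimensional K⟮x⟯ F]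
    (v : Place K F) : Module.Finite K v.ResidueField :=
  s26errg_hfin x hx (Algebra.IsAlgebraic.of_finite _ _) v

/-- **(G2)** `dim L(0) = 1` -/
theorem s26errg_rr_zero_finrank (x : F) (hx : Transcendental K x) [FiniteDimensional K⟮x⟯ F] :
    finrank K ↥(riemannRochSpace (0 : Divisor K F)) = 1 :=
  s26errg_h0 (s26errg_hasZeros x hx)

/-- **(G3)** infinitely many places -/
theorem s26errg_infinite_place (x : F) (hx : Transcendental K x) [FiniteDimensional K⟮x⟯ F] :
    Infinite (Place K F) :=
  s26errg_infinite (s26errg_hasZeros x hx) x hx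

/-- **(G4)** the package: the genus, Riemann's equality for large degree, `E₀`, single poles. -/
theorem s26errg_package [HasPrincipalDivisors K F] (x : F) (hx : Transcendental K x)
    [FiniteDimensional K⟮x⟯ F]
    (hbig : ∃ g₀ : ℤ, ∀ m : ℤ, ∃ B : Divisor K F, m ≤ Divisor.degree B ∧
      Divisor.degree B + 1 - g₀ ≤ (finrank K ↥(riemannRochSpace B) : ℤ)) :
    ∃ γ : ℤ, S26errfGenus K F γ ∧
      (∃ c : ℤ, ∀ A : Divisor K F, c ≤ Divisor.degree A →
        (finrank K ↥(riemannRochSpace A) : ℤ) = Divisor.degree A + 1 - γ) ∧
      (∃ E₀ : Divisor K F, 0 ≤ E₀ ∧ Divisor.degree E₀ = γ ∧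
        finrank K ↥(riemannRochSpace E₀) = 1) ∧
      ∀ Q : Place K F, ∃ u : F, Q.ord u < 0 ∧ ∀ v : Place K F, v ≠ Q → 0 ≤ v.ord u := by
  haveI := s26errg_infinite_place (K := K) x hx
  have hfin := s26errg_finite (K := K) x hx
  have hdeg := s26errg_deg_eq_one (K := K) x hx
  have h0 := s26errg_rr_zero_finrank (K := K) x hx
  obtain ⟨γ, hγ⟩ := s26errf_genus hfin h0 hbig
  exact ⟨γ, hγ, s26errf_exists_bound hfin hγ, s26errf_exists_E0 hfin hdeg h0 hγ,
    fun Q => s26errf_exists_pole hfin h0 hγ Q⟩

end Fermat.Agent.S26
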