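/-
S26, wall (E), piece E-RR, part G (helper42): **the genus package, UNCONDITIONAL**, on (RR-B)
(`S26/ERR2c.lean`, helper79: `HasPrincipalDivisors` and `hbig` for any constant field).

`x ∈ F` transcendental over `K`, `[F : K(x)] < ∞`.

* `s26errg_genus_of_const` : ANY constant field `K` with `dim L(0) = 1`: the genus exists;
* `s26errg_riemann_of_const` : … and Riemann's inequality / equality for large degree;
* `s26errg_pole_of_const`  : … and every place is the only pole of some function;
* `s26errg_main`           : `K` algebraically closed (any characteristic): the genus `γ`,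
  Riemann's equality for large degree, `E₀ ≥ 0` with `deg E₀ = γ`, `dim L(E₀) = 1`, and single
  poles — no hypothesis left.
-/
import Fermat.Agent.S26.ERRGInst
import Fermat.Agent.S26.ERR2c

set_option autoImplicit false
set_option linter.unusedSectionVars false
set_option linter.unusedVariables false
set_option linter.style.haveILetI false

open AlgebraicCurve Module IntermediateField

namespace Fermat.Agent.S26

open Fermat.Agent.S24 Fermat.Agent.ES.R

variable {K F : Type*} [Field K] [Field F] [Algebra K F]

/-- the genus exists (any constant field with `dim L(0) = 1`) -/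
theorem s26errg_genus_of_const (x : F) (hx : Transcendental K x) [FiniteDimensional K⟮x⟯ F]
    (h0 : finrank K ↥(riemannRochSpace (0 : Divisor K F)) = 1) :
    ∃ γ : ℤ, S26errfGenus K F γ := by
  haveI := s26err_hasPrincipalDivisors (K := K) x hx
  exact s26errf_genus (fun v => s26err_residue_finite x hx v) h0 (s26err_hbig x hx)

/-- Riemann's equality for large degree (any constant field) -/
theorem s26errg_riemann_of_const (x : F) (hx : Transcendental K x) [FiniteDimensional K⟮x⟯ F]
    {γ : ℤ} (hγ : S26errfGenus K F γ) :
    ∃ c : ℤ, ∀ A : Divisor K F, c ≤ Divisor.degree A →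
      (finrank K ↥(riemannRochSpace A) : ℤ) = Divisor.degree A + 1 - γ := by
  haveI := s26err_hasPrincipalDivisors (K := K) x hx
  exact s26errf_exists_bound (fun v => s26err_residue_finite x hx v) hγ

/-- every place is the only pole of some function (any constant field) -/
theorem s26errg_pole_of_const (x : F) (hx : Transcendental K x) [FiniteDimensional K⟮x⟯ F]
    (h0 : finrank K ↥(riemannRochSpace (0 : Divisor K F)) = 1)
    {γ : ℤ} (hγ : S26errfGenus K F γ) (Q : Place K F) :
    ∃ u : F, Q.ord u < 0 ∧ ∀ v : Place K F, v ≠ Q → 0 ≤ v.ord u := by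
  haveI := s26err_hasPrincipalDivisors (K := K) x hx
  exact s26errf_exists_pole (fun v => s26err_residue_finite x hx v) h0 hγ Q

/-- **the genus package over an algebraically closed field, unconditional** -/
theorem s26errg_main [IsAlgClosed K] (x : F) (hx : Transcendental K x)
    [FiniteDimensional K⟮x⟯ F] :
    ∃ γ : ℤ, S26errfGenus K F γ ∧
      (∃ c : ℤ, ∀ A : Divisor K F, c ≤ Divisor.degree A →
        (finrank K ↥(riemannRochSpace A) : ℤ) = Divisor.degree A + 1 - γ) ∧
      (∃ E₀ : Divisor K F, 0 ≤ E₀ ∧ Divisor.degree E₀ = γ ∧
        finrank K ↥(riemannRochSpace E₀) = 1) ∧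
      ∀ Q : Place K F, ∃ u : F, Q.ord u < 0 ∧ ∀ v : Place K F, v ≠ Q → 0 ≤ v.ord u := by
  haveI := s26err_hasPrincipalDivisors (K := K) x hx
  exact s26errg_package x hx (s26err_hbig x hx)

end Fermat.Agent.S26
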