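/-
S26 Stage C (helper25): the GROWTH TRICK, layer 0 (numbers only).

If `h m ≍ m ^ g` and, for every `k`,
  `d ^ k * h m ≤ h (n ^ (2 k) * (m + c_k))`   and   `h (n ^ (2 k) * m) ≤ d ^ k * h (m + c'_k)`,
then `d = n ^ (2 g)`.
(Application: `h m = dim L(mD)` on an abelian variety of dimension `g`, `d = deg [n]`,
`[n^k]^* D ~ n^(2k) D`.)
-/
import Mathlib.Analysis.SpecificLimits.Basic

set_option autoImplicit false

namespace Fermat.Agent.S26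

/-- If `r ^ k ≤ B` for all `k`, then `r ≤ 1`. -/
theorem s26c_le_one_of_pow_le (r B : ℝ) (h : ∀ k : ℕ, r ^ k ≤ B) : r ≤ 1 := by
  by_contra hr
  push Not at hr
  obtain ⟨k, hk⟩ := pow_unbounded_of_one_lt B hr
  exact absurd (h k) (not_le.2 hk)

/-- **Growth trick.** -/
theorem s26c_growth (h : ℕ → ℕ) (g n d : ℕ) (hn : 1 ≤ n)
    (c₁ c₂ : ℝ) (hc₁ : 0 < c₁)
    (hlow : ∀ m : ℕ, 1 ≤ m → c₁ * (m : ℝ) ^ g ≤ h m)
    (hup : ∀ m : ℕ, 1 ≤ m → (h m : ℝ) ≤ c₂ * (m : ℝ) ^ g)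
    (hb : ∀ k : ℕ, ∃ c : ℕ, ∀ m : ℕ, 1 ≤ m → d ^ k * h m ≤ h (n ^ (2 * k) * (m + c)))
    (hc : ∀ k : ℕ, ∃ c : ℕ, ∀ m : ℕ, 1 ≤ m → h (n ^ (2 * k) * m) ≤ d ^ k * h (m + c)) :
    d = n ^ (2 * g) := by
  have hc₂ : 0 < c₂ := by
    have h1 := hlow 1 le_rfl
    have h2 := hup 1 le_rfl
    simp only [Nat.cast_one, one_pow, mul_one] at h1 h2
    linarith
  have hnR : (0 : ℝ) < (n : ℝ) := by exact_mod_cast hn
  set y : ℝ := ((n : ℝ) ^ (2 * g)) with hy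
  have hy0 : 0 < y := pow_pos hnR _
  set B : ℝ := c₂ / c₁ * 2 ^ g with hB
  -- the key elementary bound: for `m = max c 1`, `(m + c)^g ≤ 2^g * m^g`
  have hkey : ∀ c : ℕ, ∃ m : ℕ, 1 ≤ m ∧ ((m + c : ℕ) : ℝ) ^ g ≤ 2 ^ g * (m : ℝ) ^ g := by
    intro c
    refine ⟨max c 1, le_max_right _ _, ?_⟩
    rw [← mul_pow]
    apply pow_le_pow_left₀ (by positivity)
    have h1 : c ≤ max c 1 := le_max_left _ _
    have h2 : max c 1 + c ≤ 2 * max c 1 := by omega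
    exact_mod_cast h2
  have hpow : ∀ k : ℕ, ((n : ℝ) ^ (2 * k)) ^ g = y ^ k := by
    intro k
    rw [hy, ← pow_mul, ← pow_mul]
    congr 1
    ring
  -- `d ≤ n^(2g)`
  have h1 : ∀ k : ℕ, ((d : ℝ) / y) ^ k ≤ B := by
    intro k
    obtain ⟨c, hck⟩ := hb k
    obtain ⟨m, hm1, hm⟩ := hkey c
    have hmR : (0 : ℝ) < (m : ℝ) := by exact_mod_cast hm1
    have hmg : (0 : ℝ) < (m : ℝ) ^ g := pow_pos hmR _
    have e1 : ((d ^ k * h m : ℕ) : ℝ) ≤ (h (n ^ (2 * k) * (m + c)) : ℝ) := by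
      exact_mod_cast hck m hm1
    have e2 := hup (n ^ (2 * k) * (m + c))
      (Nat.one_le_iff_ne_zero.2 (Nat.mul_ne_zero (pow_ne_zero _ (by omega)) (by omega)))
    have e3 := hlow m hm1
    have e4 : (d : ℝ) ^ k * (c₁ * (m : ℝ) ^ g) ≤ c₂ * (y ^ k * (2 ^ g * (m : ℝ) ^ g)) := by
      calc (d : ℝ) ^ k * (c₁ * (m : ℝ) ^ g) ≤ (d : ℝ) ^ k * (h m : ℝ) := by
            apply mul_le_mul_of_nonneg_left e3 (by positivity)
        _ = ((d ^ k * h m : ℕ) : ℝ) := by push_cast; ring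
        _ ≤ (h (n ^ (2 * k) * (m + c)) : ℝ) := e1
        _ ≤ c₂ * ((n ^ (2 * k) * (m + c) : ℕ) : ℝ) ^ g := e2
        _ = c₂ * (y ^ k * ((m + c : ℕ) : ℝ) ^ g) := by
            push_cast
            rw [mul_pow, hpow]
        _ ≤ c₂ * (y ^ k * (2 ^ g * (m : ℝ) ^ g)) := by
            apply mul_le_mul_of_nonneg_left _ hc₂.le
            apply mul_le_mul_of_nonneg_left hm (by positivity)
    rw [div_pow, div_le_iff₀ (pow_pos hy0 k), hB]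
    have e5 : (d : ℝ) ^ k * (c₁ * (m : ℝ) ^ g) ≤ (c₂ / c₁ * 2 ^ g * y ^ k) * (c₁ * (m : ℝ) ^ g) := by
      calc (d : ℝ) ^ k * (c₁ * (m : ℝ) ^ g) ≤ c₂ * (y ^ k * (2 ^ g * (m : ℝ) ^ g)) := e4
        _ = (c₂ / c₁ * 2 ^ g * y ^ k) * (c₁ * (m : ℝ) ^ g) := by
            field_simp
    exact le_of_mul_le_mul_right e5 (by positivity)
  have hd_le : (d : ℝ) ≤ y := by
    have := s26c_le_one_of_pow_le _ _ h1
    rwa [div_le_one hy0] at this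
  -- `d ≠ 0`
  have hd0 : d ≠ 0 := by
    intro hd
    obtain ⟨c, hck⟩ := hc 1
    have := hck 1 le_rfl
    rw [hd, pow_one, zero_mul, Nat.le_zero] at this
    have e := hlow (n ^ (2 * 1) * 1)
      (Nat.one_le_iff_ne_zero.2 (Nat.mul_ne_zero (pow_ne_zero _ (by omega)) one_ne_zero))
    rw [this] at e
    have : 0 < c₁ * ((n ^ (2 * 1) * 1 : ℕ) : ℝ) ^ g := by
      apply mul_pos hc₁
      apply pow_pos
      have : 0 < n ^ (2 * 1) * 1 := by positivity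
      exact_mod_cast this
    simp only [Nat.cast_zero] at e
    linarith
  have hdR : (0 : ℝ) < (d : ℝ) := by exact_mod_cast Nat.pos_of_ne_zero hd0
  -- `n^(2g) ≤ d`
  have h2 : ∀ k : ℕ, (y / (d : ℝ)) ^ k ≤ B := by
    intro k
    obtain ⟨c, hck⟩ := hc k
    obtain ⟨m, hm1, hm⟩ := hkey c
    have hmR : (0 : ℝ) < (m : ℝ) := by exact_mod_cast hm1
    have e1 : ((h (n ^ (2 * k) * m) : ℕ) : ℝ) ≤ ((d ^ k * h (m + c) : ℕ) : ℝ) := by
      exact_mod_cast hck m hm1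
    have e2 := hlow (n ^ (2 * k) * m)
      (Nat.one_le_iff_ne_zero.2 (Nat.mul_ne_zero (pow_ne_zero _ (by omega)) (by omega)))
    have e3 := hup (m + c) (by omega)
    have e4 : c₁ * (y ^ k * (m : ℝ) ^ g) ≤ (d : ℝ) ^ k * (c₂ * (2 ^ g * (m : ℝ) ^ g)) := by
      calc c₁ * (y ^ k * (m : ℝ) ^ g) = c₁ * ((n ^ (2 * k) * m : ℕ) : ℝ) ^ g := by
            push_cast
            rw [mul_pow, hpow]
        _ ≤ (h (n ^ (2 * k) * m) : ℝ) := e2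
        _ ≤ ((d ^ k * h (m + c) : ℕ) : ℝ) := e1
        _ = (d : ℝ) ^ k * (h (m + c) : ℝ) := by push_cast; ring
        _ ≤ (d : ℝ) ^ k * (c₂ * ((m + c : ℕ) : ℝ) ^ g) := by
            apply mul_le_mul_of_nonneg_left e3 (by positivity)
        _ ≤ (d : ℝ) ^ k * (c₂ * (2 ^ g * (m : ℝ) ^ g)) := by
            apply mul_le_mul_of_nonneg_left _ (by positivity)
            apply mul_le_mul_of_nonneg_left hm hc₂.le
    rw [div_pow, div_le_iff₀ (pow_pos hdR k), hB]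
    have e5 : y ^ k * (c₁ * (m : ℝ) ^ g) ≤ (c₂ / c₁ * 2 ^ g * (d : ℝ) ^ k) * (c₁ * (m : ℝ) ^ g) := by
      calc y ^ k * (c₁ * (m : ℝ) ^ g) = c₁ * (y ^ k * (m : ℝ) ^ g) := by ring
        _ ≤ (d : ℝ) ^ k * (c₂ * (2 ^ g * (m : ℝ) ^ g)) := e4
        _ = (c₂ / c₁ * 2 ^ g * (d : ℝ) ^ k) * (c₁ * (m : ℝ) ^ g) := by
            field_simp
    have hpos : (0 : ℝ) < c₁ * (m : ℝ) ^ g := by positivity
    exact le_of_mul_le_mul_right e5 hpos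
  have hy_le : y ≤ (d : ℝ) := by
    have := s26c_le_one_of_pow_le _ _ h2
    rwa [div_le_one hdR] at this
  have : (d : ℝ) = ((n ^ (2 * g) : ℕ) : ℝ) := by
    push_cast
    exact le_antisymm hd_le hy_le
  exact_mod_cast this

end Fermat.Agent.S26
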