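/-
S26 Stage C (helper25): the GROWTH TRICK, layers 1 and 2 (linear algebra over the function field).

Setting: `𝔉` a field over `K` (the function field of `A`), `L m = L(mD)` a family of
`K`-subspaces (`D = A ∖ U` a symmetric divisor), and for every `k` the data attached to
`ψ = [n^k]^*`:  `L' m = L(m [n^k]^* D)`, a `K`-linear "trace" `T : 𝔉 → 𝔉`
(`T = ψ⁻¹ ∘ Tr_{𝔉/ψ𝔉}`) and `d^k` elements of `L' c` which are a `ψ(𝔉)`-basis of `𝔉`.

* `s26c_lower_of_basis` : `e · dim L m ≤ dim L' (m + c)`.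
* `s26c_upper_of_trace` : `dim L' m ≤ e · dim L (m + c)`.
* `s26c_core`           : `d = n ^ (2 g)`.
-/
import Mathlib.LinearAlgebra.Dimension.Constructions
import Mathlib.LinearAlgebra.Dimension.Finite
import Mathlib.LinearAlgebra.FiniteDimensional.Defs
import Mathlib.LinearAlgebra.FiniteDimensional.Lemmas
import Mathlib.Algebra.Algebra.Hom
import Fermat.Agent.S26.CGrowth

set_option autoImplicit false
set_option linter.style.haveILetI false
set_option linter.unusedVariables false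

namespace Fermat.Agent.S26

variable {K 𝔉 : Type*} [Field K] [Field 𝔉] [Algebra K 𝔉]

/-- **(b) lower bound.**  If `ψ (L m) ⊆ L' m`, `L'` is multiplicative and `θ i ∈ L' c`
are independent over `ψ(𝔉)`, then `e · dim L m ≤ dim L' (m + c)`. -/
theorem s26c_lower_of_basis {ι : Type*} [Fintype ι]
    (ψ : 𝔉 →ₐ[K] 𝔉) (L L' : ℕ → Submodule K 𝔉)
    (hfin : ∀ m, Module.Finite K (L m)) (hfin' : ∀ m, Module.Finite K (L' m))
    (hb1 : ∀ m, ∀ f ∈ L m, ψ f ∈ L' m)
    (hb2 : ∀ m c, ∀ f ∈ L' m, ∀ r ∈ L' c, f * r ∈ L' (m + c))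
    (c : ℕ) (θ : ι → 𝔉) (hθ : ∀ i, θ i ∈ L' c)
    (hind : ∀ a : ι → 𝔉, ∑ i, θ i * ψ (a i) = 0 → a = 0) (m : ℕ) :
    Fintype.card ι * Module.finrank K (L m) ≤ Module.finrank K (L' (m + c)) := by
  classical
  haveI := hfin m
  haveI := hfin' (m + c)
  have hmem : ∀ a : ι → L m, ∑ i, θ i * ψ (a i : 𝔉) ∈ L' (m + c) := by
    intro a
    refine Submodule.sum_mem _ fun i _ => ?_
    have := hb2 m c _ (hb1 m _ (a i).2) _ (hθ i)
    rwa [mul_comm] at this
  let Φ : (ι → L m) →ₗ[K] L' (m + c) :=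
    { toFun := fun a => ⟨∑ i, θ i * ψ (a i : 𝔉), hmem a⟩
      map_add' := fun a b => by
        apply Subtype.ext
        simp [mul_add, Finset.sum_add_distrib]
      map_smul' := fun t a => by
        apply Subtype.ext
        simp [Finset.smul_sum] }
  have hΦ : Function.Injective Φ := by
    rw [← LinearMap.ker_eq_bot, LinearMap.ker_eq_bot']
    intro a ha
    have h0 : ∑ i, θ i * ψ (a i : 𝔉) = 0 := congrArg Subtype.val ha
    have := hind (fun i => (a i : 𝔉)) h0
    funext i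
    exact Subtype.ext (congrFun this i)
  have h1 := LinearMap.finrank_le_finrank_of_injective hΦ
  rw [Module.finrank_pi_fintype] at h1
  simpa using h1

/-- **(c) upper bound.**  If `T (L' m) ⊆ L m`, `L'` is multiplicative, `r i ∈ L' c` and the
pairing `f ↦ (T (f * r i))_i` is nondegenerate, then `dim L' m ≤ e · dim L (m + c)`. -/
theorem s26c_upper_of_trace {ι : Type*} [Fintype ι]
    (L L' : ℕ → Submodule K 𝔉)
    (hfin : ∀ m, Module.Finite K (L m))
    (hb2 : ∀ m c, ∀ f ∈ L' m, ∀ r ∈ L' c, f * r ∈ L' (m + c))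
    (T : 𝔉 →ₗ[K] 𝔉) (hT : ∀ m, ∀ f ∈ L' m, T f ∈ L m)
    (c : ℕ) (r : ι → 𝔉) (hr : ∀ i, r i ∈ L' c)
    (hnd : ∀ f : 𝔉, (∀ i, T (f * r i) = 0) → f = 0) (m : ℕ) :
    Module.finrank K (L' m) ≤ Fintype.card ι * Module.finrank K (L (m + c)) := by
  classical
  haveI := hfin (m + c)
  let Φ : L' m →ₗ[K] (ι → L (m + c)) :=
    { toFun := fun f i => ⟨T ((f : 𝔉) * r i), hT _ _ (hb2 m c _ f.2 _ (hr i))⟩
      map_add' := fun a b => by
        funext i
        apply Subtype.ext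
        simp [add_mul]
      map_smul' := fun t a => by
        funext i
        apply Subtype.ext
        simp }
  have hΦ : Function.Injective Φ := by
    rw [← LinearMap.ker_eq_bot, LinearMap.ker_eq_bot']
    intro f hf
    apply Subtype.ext
    apply hnd
    intro i
    exact congrArg Subtype.val (congrFun hf i)
  have h1 := LinearMap.finrank_le_finrank_of_injective hΦ
  rw [Module.finrank_pi_fintype] at h1
  simpa using h1

/-- The data attached to one isogeny `ψ = [N]^*` of degree `e`, with `[N]^* D ∼ q D`. -/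
structure S26CStep (K 𝔉 : Type*) [Field K] [Field 𝔉] [Algebra K 𝔉]
    (L : ℕ → Submodule K 𝔉) (e q : ℕ) : Prop where
  exists_data : ∃ (L' : ℕ → Submodule K 𝔉) (ψ : 𝔉 →ₐ[K] 𝔉) (T : 𝔉 →ₗ[K] 𝔉) (c : ℕ)
      (θ r : Fin e → 𝔉),
      (∀ m, Module.finrank K (L' m) = Module.finrank K (L (q * m))) ∧
      (∀ m, ∀ f ∈ L m, ψ f ∈ L' m) ∧
      (∀ m c, ∀ f ∈ L' m, ∀ r ∈ L' c, f * r ∈ L' (m + c)) ∧
      (∀ i, θ i ∈ L' c) ∧
      (∀ a : Fin e → 𝔉, ∑ i, θ i * ψ (a i) = 0 → a = 0) ∧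
      (∀ m, ∀ f ∈ L' m, T f ∈ L m) ∧
      (∀ i, r i ∈ L' c) ∧
      (∀ f : 𝔉, (∀ i, T (f * r i) = 0) → f = 0)

/-- One step gives the two dimension inequalities. -/
theorem s26c_step_ineq (L : ℕ → Submodule K 𝔉) (hfin : ∀ m, Module.Finite K (L m))
    (e q : ℕ) (hq : 1 ≤ q) (H : S26CStep K 𝔉 L e q) :
    ∃ c : ℕ, ∀ m : ℕ,
      e * Module.finrank K (L m) ≤ Module.finrank K (L (q * (m + c))) ∧
      Module.finrank K (L (q * m)) ≤ e * Module.finrank K (L (m + c)) := by
  obtain ⟨L', ψ, T, c, θ, r, hE, hb1, hb2, hθ, hind, hT, hr, hnd⟩ := H.exists_data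
  have hfin' : ∀ m, Module.Finite K (L' m) := by
    intro m
    -- `L' m` embeds into a finite-dimensional space by (c)
    classical
    haveI := hfin (m + c)
    let Φ : L' m →ₗ[K] (Fin e → L (m + c)) :=
      { toFun := fun f i => ⟨T ((f : 𝔉) * r i), hT _ _ (hb2 m c _ f.2 _ (hr i))⟩
        map_add' := fun a b => by
          funext i
          apply Subtype.ext
          simp [add_mul]
        map_smul' := fun t a => by
          funext i
          apply Subtype.ext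
          simp }
    have hΦ : Function.Injective Φ := by
      rw [← LinearMap.ker_eq_bot, LinearMap.ker_eq_bot']
      intro f hf
      apply Subtype.ext
      apply hnd
      intro i
      exact congrArg Subtype.val (congrFun hf i)
    exact Module.Finite.of_injective Φ hΦ
  refine ⟨c, fun m => ⟨?_, ?_⟩⟩
  · have := s26c_lower_of_basis ψ L L' hfin hfin' hb1 hb2 c θ hθ hind m
    rw [hE, Fintype.card_fin] at this
    exact this
  · have := s26c_upper_of_trace L L' hfin hb2 T hT c r hr hnd m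
    rw [hE, Fintype.card_fin] at this
    exact this

/-- **Stage C core.**  `h m = dim L(mD) ≍ m ^ g` and a step `S26CStep L (d ^ k) (n ^ (2 k))`
for every `k` force `d = n ^ (2 g)`. -/
theorem s26c_core (L : ℕ → Submodule K 𝔉) (hfin : ∀ m, Module.Finite K (L m))
    (g n d : ℕ) (hn : 1 ≤ n) (c₁ c₂ : ℝ) (hc₁ : 0 < c₁)
    (hlow : ∀ m : ℕ, 1 ≤ m → c₁ * (m : ℝ) ^ g ≤ Module.finrank K (L m))
    (hup : ∀ m : ℕ, 1 ≤ m → (Module.finrank K (L m) : ℝ) ≤ c₂ * (m : ℝ) ^ g)
    (hstep : ∀ k : ℕ, S26CStep K 𝔉 L (d ^ k) (n ^ (2 * k))) :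
    d = n ^ (2 * g) := by
  refine s26c_growth (fun m => Module.finrank K (L m)) g n d hn c₁ c₂ hc₁ hlow hup ?_ ?_
  · intro k
    obtain ⟨c, hc⟩ := s26c_step_ineq L hfin (d ^ k) (n ^ (2 * k))
      (Nat.one_le_pow _ _ hn) (hstep k)
    exact ⟨c, fun m _ => (hc m).1⟩
  · intro k
    obtain ⟨c, hc⟩ := s26c_step_ineq L hfin (d ^ k) (n ^ (2 * k))
      (Nat.one_le_pow _ _ hn) (hstep k)
    exact ⟨c, fun m _ => (hc m).2⟩

end Fermat.Agent.S26
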