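/-
S26 Stage C (helper25): field-theoretic lemmas for the growth trick.

* `s26c_finrank_pow`   : `[F : φ^k F] = [F : φ F] ^ k` (tower law for an endomorphism).
* `s26c_exists_basis`  : a basis of `F / ψ F` inside `L' c₀` from the spanning hypothesis (b3).
* `s26c_traceInv`      : the `K`-linear map `T = ψ⁻¹ ∘ Tr_{F/ψF}`.
-/
import Mathlib.FieldTheory.Relrank
import Mathlib.RingTheory.Trace.Basic
import Mathlib.FieldTheory.IntermediateField.Adjoin.Defs
import Mathlib.LinearAlgebra.LinearIndependent.Lemmas
import Mathlib.LinearAlgebra.Basis.Cardinality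
import Mathlib.LinearAlgebra.Dimension.Free

set_option autoImplicit false
set_option linter.style.haveILetI false
set_option linter.unusedVariables false

namespace Fermat.Agent.S26

open Module

variable {K F : Type*} [Field K] [Field F] [Algebra K F]

theorem s26c_fieldRange_pow_succ (φ : F →ₐ[K] F) (k : ℕ) :
    (φ ^ (k + 1)).fieldRange = ((φ ^ k).fieldRange).map φ := by
  apply SetLike.ext
  intro x
  rw [pow_succ']
  constructor
  · rintro ⟨y, rfl⟩
    exact ⟨(φ ^ k) y, ⟨y, rfl⟩, rfl⟩
  · rintro ⟨z, ⟨y, rfl⟩, rfl⟩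
    exact ⟨y, rfl⟩

theorem s26c_fieldRange_pow_succ_le (φ : F →ₐ[K] F) (k : ℕ) :
    (φ ^ (k + 1)).fieldRange ≤ φ.fieldRange := by
  rw [pow_succ']
  rintro x ⟨y, rfl⟩
  exact ⟨(φ ^ k) y, rfl⟩

/-- **Tower law** for the iterates of a field endomorphism. -/
theorem s26c_finrank_pow (φ : F →ₐ[K] F) (k : ℕ) :
    finrank (φ ^ k).fieldRange F = (finrank φ.fieldRange F) ^ k := by
  induction k with
  | zero =>
    rw [pow_zero, pow_zero]
    have h : (1 : F →ₐ[K] F).fieldRange = ⊤ := by
      apply SetLike.ext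
      intro x
      simp only [IntermediateField.mem_top, iff_true]
      exact ⟨x, rfl⟩
    rw [h]
    exact IntermediateField.finrank_top
  | succ k ih =>
    rw [← IntermediateField.relfinrank_mul_finrank_top (s26c_fieldRange_pow_succ_le φ k),
      s26c_fieldRange_pow_succ, AlgHom.fieldRange_eq_map φ,
      IntermediateField.relfinrank_map_map, IntermediateField.relfinrank_top_right, ih,
      ← AlgHom.fieldRange_eq_map, pow_succ]

/-- **Basis from (b3).**  If the `E`-spans of an increasing family of subsets exhaust `F`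
(finite-dimensional over `E`), some member contains an `E`-basis of `F`. -/
theorem s26c_exists_basis (E : IntermediateField K F) [FiniteDimensional E F]
    (L' : ℕ → Submodule K F) (hmono : Monotone L')
    (hb3 : ∀ x : F, ∃ c, x ∈ Submodule.span E ((L' c : Submodule K F) : Set F)) :
    ∃ (c₀ : ℕ) (θ : Fin (finrank E F) → F), (∀ i, θ i ∈ L' c₀) ∧ LinearIndependent E θ ∧
      Submodule.span E (Set.range θ) = ⊤ := by
  classical
  let b := Module.finBasis E F
  choose c hc using hb3
  let c₀ : ℕ := Finset.univ.sup fun i => c (b i)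
  have htop : Submodule.span E ((L' c₀ : Submodule K F) : Set F) = ⊤ := by
    rw [eq_top_iff, ← b.span_eq, Submodule.span_le]
    rintro x ⟨i, rfl⟩
    have h1 : c (b i) ≤ c₀ := Finset.le_sup (f := fun i => c (b i)) (Finset.mem_univ i)
    have h2 : ((L' (c (b i)) : Submodule K F) : Set F) ⊆ ((L' c₀ : Submodule K F) : Set F) :=
      fun y hy => hmono h1 hy
    exact Submodule.span_mono h2 (hc (b i))
  obtain ⟨s, hs, hspan, hli⟩ := exists_linearIndependent E ((L' c₀ : Submodule K F) : Set F)
  rw [htop] at hspan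
  have hspan' : ⊤ ≤ Submodule.span E (Set.range ((↑) : s → F)) := by
    rw [Subtype.range_coe, hspan]
  let B : Basis s E F := Basis.mk hli hspan'
  let e : s ≃ Fin (finrank E F) := B.indexEquiv b
  refine ⟨c₀, fun i => ((e.symm i : s) : F), fun i => hs (e.symm i).2, ?_, ?_⟩
  · exact hli.comp _ e.symm.injective
  · have : Set.range (fun i => ((e.symm i : s) : F)) = s := by
      ext x
      constructor
      · rintro ⟨i, rfl⟩
        exact (e.symm i).2
      · intro hx
        exact ⟨e ⟨x, hx⟩, by simp⟩
    rw [this, hspan]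

/-- The `K`-linear map `T = ψ⁻¹ ∘ Tr_{F/ψF}`. -/
noncomputable def s26c_traceInv (ψ : F →ₐ[K] F) : F →ₗ[K] F :=
  (ψ.equivFieldRange.symm.toLinearMap : ψ.fieldRange →ₗ[K] F) ∘ₗ
    ((Algebra.trace ψ.fieldRange F).restrictScalars K)

theorem s26c_traceInv_spec (ψ : F →ₐ[K] F) (x : F) :
    ψ (s26c_traceInv ψ x) = ((Algebra.trace ψ.fieldRange F x : ψ.fieldRange) : F) := by
  have h : ψ.equivFieldRange (s26c_traceInv ψ x) = Algebra.trace ψ.fieldRange F x := by
    simp [s26c_traceInv]
  have := congrArg (Subtype.val) h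
  simpa using this

/-- If the trace of `x` is `ψ y`, then `T x = y`. -/
theorem s26c_traceInv_eq (ψ : F →ₐ[K] F) (x y : F)
    (h : ((Algebra.trace ψ.fieldRange F x : ψ.fieldRange) : F) = ψ y) :
    s26c_traceInv ψ x = y := by
  have h1 : ψ (s26c_traceInv ψ x) = ψ y := by rw [s26c_traceInv_spec, h]
  exact ψ.injective h1

/-- Nondegeneracy of `f ↦ (T (f * r i))_i` for a spanning family `r` (separable case). -/
theorem s26c_traceInv_nondeg (ψ : F →ₐ[K] F) [FiniteDimensional ψ.fieldRange F]
    [Algebra.IsSeparable ψ.fieldRange F] {ι : Type*} (r : ι → F)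
    (hr : Submodule.span ψ.fieldRange (Set.range r) = ⊤) (f : F)
    (h : ∀ i, s26c_traceInv ψ (f * r i) = 0) : f = 0 := by
  have h0 : ∀ i, Algebra.trace ψ.fieldRange F (f * r i) = 0 := by
    intro i
    apply Subtype.ext
    rw [← s26c_traceInv_spec, h i, map_zero]
    rfl
  have h1 : ∀ x : F, Algebra.traceForm ψ.fieldRange F f x = 0 := by
    intro x
    have hx : x ∈ Submodule.span ψ.fieldRange (Set.range r) := by rw [hr]; trivial
    induction hx using Submodule.span_induction with
    | mem y hy =>
      obtain ⟨i, rfl⟩ := hy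
      exact h0 i
    | zero => simp
    | add y z _ _ hy hz => rw [map_add, hy, hz, add_zero]
    | smul a y _ hy => rw [map_smul, hy, smul_zero]
  exact (traceForm_nondegenerate ψ.fieldRange F).1 f h1

end Fermat.Agent.S26
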