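/-
S26 (#A[n](K) = n^(2g), row 25) — INTERFACE of the captain (helper77).  Plan: NOTES/S26-pieces.md.

Route = GROWTH TRICK (helper25, helper77; no projectivity, no Hilbert polynomial, only H⁰):
`𝔉 = K(A)`, `U ∋ 0` a symmetric affine open, `D` = sum of the prime divisors outside `U`,
`L m = L(m D)`, `L' k m = L(m · [n^k]^* D)`, `φ = [n]^* : 𝔉 → 𝔉`.  Then
`[𝔉 : φ 𝔉] = #A[n](K)` (Stage A), `dim L' k m ≈ [𝔉 : φ^k 𝔉] · dim L m` (basis + trace),
`dim L' k m = dim L (n^(2k) m)` (theorem of the cube) and `dim L m ≍ m^g`, whence `d = n^(2g)`.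

This file: the frozen type `s26_Stmt`, the hypothesis bundle `S26Growth`, the two top Props
`s26_StmtCore` (pure algebra) and `s26_StmtGeom` (geometry), and the glue `s26_of`.
Definitions and statements only (plus the one-line glue).
-/
import Mathlib
import Fermat.Prelude.Def_JacJ1Iface
import Fermat.Prelude.Def_GoodReductionJacobian_RelativeGroupLawKernel

set_option autoImplicit false

noncomputable section

namespace Fermat.Agent.S26

open CategoryTheory CategoryTheory.Limits AlgebraicGeometry NeronModelInfra GoodReductionJacobian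

universe u

/-- The frozen statement S26, as a `Prop`. -/
def s26_Stmt : Prop :=
  ∀ (K : Type u) [Field K] [IsAlgClosed K] {A : Scheme.{u}} (f : A ⟶ Spec (CommRingCat.of K))
    (L : RelativeGroupLaw K f) (_ : L.IsCommutative) (_ : AbelianSchemePropertyBundle K f)
    (g : ℕ) [SmoothOfRelativeDimension g f] (n : ℕ) (_ : (n : K) ≠ 0),
    Nat.card {x : SchemeHomOver (𝟙 (Spec (CommRingCat.of K))) f //
        L.IsTorsionPoint (𝟙 (Spec (CommRingCat.of K))) n x} = n ^ (2 * g)

/-- **The growth datum.**  `F` plays `K(A)`, `φ = [n]^*`, `L m = L(mD)`,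
`L' k m = L(m [n^k]^* D)`, `d = [F : φ F]`. -/
def S26Growth (K : Type u) [Field K] (g n d : ℕ) : Prop :=
  ∃ (F : Type u) (_ : Field F) (_ : Algebra K F) (φ : F →ₐ[K] F)
    (L : ℕ → Submodule K F) (L' : ℕ → ℕ → Submodule K F),
    -- (fin) the spaces are finite-dimensional
    (∀ m, Module.Finite K (L m)) ∧ (∀ k m, Module.Finite K (L' k m)) ∧
    -- (G1) growth of order exactly `g`
    (∃ c₁ c₂ : ℕ, ∀ m, 1 ≤ m →
      m ^ g ≤ c₁ * Module.finrank K (L m) ∧ Module.finrank K (L m) ≤ c₂ * m ^ g) ∧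
    -- (mono) more poles allowed, more functions
    Monotone L ∧ (∀ k, Monotone (L' k)) ∧
    -- (E) theorem of the cube, in the weak form that the growth trick needs:
    -- `c [n^k]^* D ~ c n^(2k) D` up to a bounded error `c'`
    (∀ k, ∃ c c' : ℕ, 0 < c ∧ ∀ m,
      Module.finrank K (L' k (c * m)) ≤ Module.finrank K (L (n ^ (2 * k) * (c * m) + c')) ∧
      Module.finrank K (L (n ^ (2 * k) * (c * m))) ≤ Module.finrank K (L' k (c * m + c'))) ∧
    -- (b1) pull-backs of functions
    (∀ k m, ∀ x ∈ L m, (φ ^ k) x ∈ L' k m) ∧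
    -- (b2) products
    (∀ k a b, ∀ x ∈ L' k a, ∀ y ∈ L' k b, x * y ∈ L' k (a + b)) ∧
    -- (b3) the functions with poles along `[n^k]^* D` span `F` over `φ^k F`
    (∀ k, ∀ x : F, ∃ c, x ∈ Submodule.span (φ ^ k).fieldRange ((L' k c : Submodule K F) : Set F)) ∧
    -- (sep) `F / φ^k F` is finite separable
    (∀ k, Module.Finite (φ ^ k).fieldRange F ∧ Algebra.IsSeparable (φ ^ k).fieldRange F) ∧
    -- (c2) traces of functions with poles along `[n^k]^* D`
    (∀ k m, ∀ x ∈ L' k m, ∃ y ∈ L m,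
      ((Algebra.trace (φ ^ k).fieldRange F x : (φ ^ k).fieldRange) : F) = (φ ^ k) y) ∧
    -- (deg) the degree
    Module.finrank φ.fieldRange F = d

/-- **Stage C, pure algebra** (helper25): the growth trick. -/
def s26_StmtCore : Prop :=
  ∀ (K : Type u) [Field K] (g n d : ℕ), 0 < n → S26Growth K g n d → d = n ^ (2 * g)

/-- **The geometry**: an abelian variety of dimension `g` over `K = K̄` and `n ∈ Kˣ` give a
growth datum with `d = #A[n](K)`. -/
def s26_StmtGeom : Prop :=
  ∀ (K : Type u) [Field K] [IsAlgClosed K] {A : Scheme.{u}} (f : A ⟶ Spec (CommRingCat.of K))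
    (L : RelativeGroupLaw K f) (_ : L.IsCommutative) (_ : AbelianSchemePropertyBundle K f)
    (g : ℕ) [SmoothOfRelativeDimension g f] (n : ℕ) (_ : (n : K) ≠ 0),
    S26Growth K g n
      (Nat.card {x : SchemeHomOver (𝟙 (Spec (CommRingCat.of K))) f //
        L.IsTorsionPoint (𝟙 (Spec (CommRingCat.of K))) n x})

/-- **Glue**: S26 from the two halves. -/
theorem s26_of (hC : s26_StmtCore.{u}) (hG : s26_StmtGeom.{u}) : s26_Stmt.{u} := by
  intro K _ _ A f L hc hA g _ n hn
  have hn0 : 0 < n := Nat.pos_of_ne_zero (fun h => hn (by simp [h]))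
  exact hC K g n _ hn0 (hG K f L hc hA g n hn)

end Fermat.Agent.S26

end
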