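/-
S26 Stage C (helper25): the captain's `s26_StmtCore` (S26/Plan.lean), proved.

`s26c_stmtCore : s26_StmtCore` — a growth datum `S26Growth K g n d` with `n > 0` forces
`d = n ^ (2 g)`.
-/
import Fermat.Agent.S26.Plan
import Fermat.Agent.S26.CCore
import Fermat.Agent.S26.CTower

set_option autoImplicit false
set_option linter.style.haveILetI false
set_option linter.unusedVariables false

namespace Fermat.Agent.S26

open Module

universe u

/-- The two dimension inequalities for the `k`-th iterate. -/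
theorem s26c_step_of_data {K F : Type*} [Field K] [Field F] [Algebra K F] (ψ : F →ₐ[K] F)
    (L L' : ℕ → Submodule K F)
    (hfin : ∀ m, Module.Finite K (L m)) (hfin' : ∀ m, Module.Finite K (L' m))
    (hmono' : Monotone L')
    (hb1 : ∀ m, ∀ x ∈ L m, ψ x ∈ L' m)
    (hb2 : ∀ a b, ∀ x ∈ L' a, ∀ y ∈ L' b, x * y ∈ L' (a + b))
    (hb3 : ∀ x : F, ∃ c, x ∈ Submodule.span ψ.fieldRange ((L' c : Submodule K F) : Set F))
    (hsep : Module.Finite ψ.fieldRange F ∧ Algebra.IsSeparable ψ.fieldRange F)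
    (hc2 : ∀ m, ∀ x ∈ L' m, ∃ y ∈ L m,
      ((Algebra.trace ψ.fieldRange F x : ψ.fieldRange) : F) = ψ y) :
    ∃ c₀ : ℕ, ∀ m : ℕ,
      finrank ψ.fieldRange F * finrank K (L m) ≤ finrank K (L' (m + c₀)) ∧
      finrank K (L' m) ≤ finrank ψ.fieldRange F * finrank K (L (m + c₀)) := by
  classical
  haveI := hsep.1
  haveI := hsep.2
  obtain ⟨c₀, θ, hθ, hli, hspan⟩ := s26c_exists_basis ψ.fieldRange L' hmono' hb3
  have hind : ∀ a : Fin (finrank ψ.fieldRange F) → F, ∑ i, θ i * ψ (a i) = 0 → a = 0 := by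
    intro a ha
    have h1 := Fintype.linearIndependent_iff.1 hli
      (fun i => (⟨ψ (a i), ⟨a i, rfl⟩⟩ : ψ.fieldRange)) (by
        rw [← ha]
        refine Finset.sum_congr rfl fun i _ => ?_
        rw [mul_comm]
        rfl)
    funext i
    have h2 := congrArg Subtype.val (h1 i)
    exact ψ.injective (by simpa using h2)
  have hT : ∀ m, ∀ f ∈ L' m, s26c_traceInv ψ f ∈ L m := by
    intro m f hf
    obtain ⟨y, hy, hxy⟩ := hc2 m f hf
    rw [s26c_traceInv_eq ψ f y hxy]
    exact hy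
  have hnd : ∀ f : F, (∀ i, s26c_traceInv ψ (f * θ i) = 0) → f = 0 :=
    fun f hf => s26c_traceInv_nondeg ψ θ hspan f hf
  refine ⟨c₀, fun m => ⟨?_, ?_⟩⟩
  · have := s26c_lower_of_basis ψ L L' hfin hfin' hb1 hb2 c₀ θ hθ hind m
    rwa [Fintype.card_fin] at this
  · have := s26c_upper_of_trace L L' hfin hb2 (s26c_traceInv ψ) hT c₀ θ hθ hnd m
    rwa [Fintype.card_fin] at this

/-- **Stage C**: the captain's `s26_StmtCore`. -/
theorem s26c_stmtCore : s26_StmtCore.{u} := by
  intro K _ g n d hn hG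
  obtain ⟨F, instF, instA, φ, L, L', hfin, hfin', ⟨c₁, c₂, hG1⟩, hmono, hmono', hE, hb1, hb2,
    hb3, hsep, hc2, hdeg⟩ := hG
  -- monotonicity of the dimensions
  have hmon : ∀ a b : ℕ, a ≤ b → finrank K (L a) ≤ finrank K (L b) := by
    intro a b hab
    haveI := hfin b
    exact Submodule.finrank_mono (hmono hab)
  have hmon' : ∀ k a b : ℕ, a ≤ b → finrank K (L' k a) ≤ finrank K (L' k b) := by
    intro k a b hab
    haveI := hfin' k b
    exact Submodule.finrank_mono (hmono' k hab)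
  have hdk : ∀ k : ℕ, finrank (φ ^ k).fieldRange F = d ^ k := by
    intro k
    rw [s26c_finrank_pow, hdeg]
  -- the step inequalities
  have hstep : ∀ k : ℕ, ∃ c₀ : ℕ, ∀ m : ℕ,
      d ^ k * finrank K (L m) ≤ finrank K (L' k (m + c₀)) ∧
      finrank K (L' k m) ≤ d ^ k * finrank K (L (m + c₀)) := by
    intro k
    have := s26c_step_of_data (φ ^ k) L (L' k) hfin (hfin' k) (hmono' k) (hb1 k) (hb2 k)
      (hb3 k) (hsep k) (hc2 k)
    rwa [hdk k] at this
  -- `c₁ ≥ 1`
  have hc₁ : 1 ≤ c₁ := by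
    have := (hG1 1 le_rfl).1
    rw [one_pow] at this
    by_contra h
    have h0 : c₁ = 0 := by omega
    rw [h0, zero_mul] at this
    omega
  have hc₁R : (0 : ℝ) < (c₁ : ℝ) := by exact_mod_cast hc₁
  have hN : ∀ k : ℕ, 1 ≤ n ^ (2 * k) := fun k => Nat.one_le_pow _ _ hn
  refine s26c_growth (fun m => finrank K (L m)) g n d hn (1 / (c₁ : ℝ)) (c₂ : ℝ)
    (by positivity) ?_ ?_ ?_ ?_
  · intro m hm
    have := (hG1 m hm).1
    have h' : ((m : ℝ)) ^ g ≤ (c₁ : ℝ) * (finrank K (L m) : ℝ) := by exact_mod_cast this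
    rw [one_div, inv_mul_le_iff₀ hc₁R]
    exact h'
  · intro m hm
    have := (hG1 m hm).2
    exact_mod_cast this
  · intro k
    obtain ⟨c₀, hs⟩ := hstep k
    obtain ⟨c, c', hcpos, hE'⟩ := hE k
    refine ⟨c + c * c₀ + c', fun m hm => ?_⟩
    set m' : ℕ := (m + c - 1) / c with hm'
    have q1 : c * m' ≤ m + c - 1 := Nat.mul_div_le _ _
    have q2 : m + c - 1 < c * (m' + 1) := by
      have := Nat.lt_mul_div_succ (m + c - 1) hcpos
      simpa [hm'] using this
    have q3 : m ≤ c * m' := by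
      rw [Nat.mul_add, Nat.mul_one] at q2
      omega
    have q4 : c * m' ≤ m + c := by omega
    calc d ^ k * finrank K (L m) ≤ d ^ k * finrank K (L (c * m')) :=
          Nat.mul_le_mul_left _ (hmon _ _ q3)
      _ ≤ finrank K (L' k (c * m' + c₀)) := (hs (c * m')).1
      _ ≤ finrank K (L' k (c * (m' + c₀))) := by
          apply hmon'
          rw [Nat.mul_add]
          exact Nat.add_le_add_left (Nat.le_mul_of_pos_left _ hcpos) _
      _ ≤ finrank K (L (n ^ (2 * k) * (c * (m' + c₀)) + c')) := (hE' (m' + c₀)).1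
      _ ≤ finrank K (L (n ^ (2 * k) * (m + (c + c * c₀ + c')))) := by
          apply hmon
          have e1 : c * (m' + c₀) ≤ m + c + c * c₀ := by
            rw [Nat.mul_add]
            omega
          have e2 : n ^ (2 * k) * (c * (m' + c₀)) ≤ n ^ (2 * k) * (m + c + c * c₀) :=
            Nat.mul_le_mul_left _ e1
          have e3 : c' ≤ n ^ (2 * k) * c' := Nat.le_mul_of_pos_left _ (hN k)
          have e4 : n ^ (2 * k) * (m + (c + c * c₀ + c')) =
              n ^ (2 * k) * (m + c + c * c₀) + n ^ (2 * k) * c' := by ring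
          rw [e4]
          omega
  · intro k
    obtain ⟨c₀, hs⟩ := hstep k
    obtain ⟨c, c', hcpos, hE'⟩ := hE k
    refine ⟨c + c' + c₀, fun m hm => ?_⟩
    set m' : ℕ := (m + c - 1) / c with hm'
    have q1 : c * m' ≤ m + c - 1 := Nat.mul_div_le _ _
    have q2 : m + c - 1 < c * (m' + 1) := by
      have := Nat.lt_mul_div_succ (m + c - 1) hcpos
      simpa [hm'] using this
    have q3 : m ≤ c * m' := by
      rw [Nat.mul_add, Nat.mul_one] at q2
      omega
    have q4 : c * m' ≤ m + c := by omega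
    calc finrank K (L (n ^ (2 * k) * m)) ≤ finrank K (L (n ^ (2 * k) * (c * m'))) :=
          hmon _ _ (Nat.mul_le_mul_left _ q3)
      _ ≤ finrank K (L' k (c * m' + c')) := (hE' m').2
      _ ≤ d ^ k * finrank K (L (c * m' + c' + c₀)) := (hs (c * m' + c')).2
      _ ≤ d ^ k * finrank K (L (m + (c + c' + c₀))) := by
          apply Nat.mul_le_mul_left
          apply hmon
          omega

end Fermat.Agent.S26
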