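/-
S26-E, piece E-R (helper80): the RELATIONS CALCULUS, abstract valuation form.  Mathlib only.

`Ω` a field, `V` a valuation subring of `Ω`, `Ω'` an extension of `Ω`.
* `s26er_exists_dominating` : a local subring `R` of `Ω'` and `x` NOT integral over `R` ⇒ there is a
  valuation subring of `Ω'` dominating `R` and not containing `x`  (Chevalley, with an excluded
  element; no integrally-closedness of `R`).
* `s26er_comap_eq_of_le`   : a valuation subring `V'` of `Ω'` dominating (the image of) `V` lies over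
  `V`: `V'.comap (algebraMap Ω Ω') = V`.
* `s26er_exists_comap_eq`  : every `V` extends to `Ω'`.
* `s26er_isIntegralElem_of_forall_mem` : `x ∈ V'` for every `V'` over `V` ⇒ `x` is integral over `V`.
* `s26er_norm_val_eq_one`  : **(R4), core**: `Ω'/Ω` finite, `v'(x) = 1` for every `V'` over `V`
  ⇒ `v (N x) = 1`.
* `s26er_mem_range_of_forall_mem` : **(R3), core**: `Ω` algebraically closed in `Ω'`, `x ∈ V'` for
  every `V' ⊇ Ω` ⇒ `x ∈ Ω`.
-/
import Mathlib.RingTheory.Valuation.LocalSubring
import Mathlib.RingTheory.Norm.Transitivity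
import Mathlib.RingTheory.Algebraic.Basic

set_option autoImplicit false
set_option linter.style.haveILetI false

noncomputable section

namespace Fermat.Agent.S26

open IsLocalRing Algebra Polynomial

section Dom

variable {Ω' : Type*} [Field Ω']

set_option backward.isDefEq.respectTransparency.types false in
/-- **Chevalley with an excluded element**: if `x` is not integral over the local subring `R`,
some valuation subring dominating `R` does not contain `x`. -/
theorem s26er_exists_dominating {R : LocalSubring Ω'} {x : Ω'}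
    (hx : ¬ IsIntegral R.toSubring x) :
    ∃ V : ValuationSubring Ω', R ≤ V.toLocalSubring ∧ x ∉ V := by
  obtain rfl | hx0 := eq_or_ne x 0
  · exact (hx isIntegral_zero).elim
  let := invertibleOfNonzero hx0
  let B := R.toSubring[x⁻¹]
  let xinv : B.toSubring := ⟨x⁻¹, subset_adjoin rfl⟩
  have : (maximalIdeal R.toSubring).map (algebraMap _ B) + .span {xinv} ≠ ⊤ := fun eq ↦ hx <|
    have ⟨p, hp, hpx⟩ := exists_aeval_invOf_eq_zero_of_idealMap_adjoin_sup_span_eq_top _ _
      (maximalIdeal.isMaximal R.toSubring).ne_top eq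
    have H : IsUnit p.leadingCoeff := of_not_not fun h ↦ by simpa using sub_mem h hp
    ⟨.C H.unit⁻¹.1 * p, by simp [Polynomial.Monic], by simpa using .inr hpx⟩
  have ⟨V, hV⟩ := Ideal.image_subset_nonunits_valuationSubring (A := B.toSubring) _ this
  refine ⟨V, ⟨fun r hr ↦ hV.1 (B.algebraMap_mem ⟨r, hr⟩),
    ((local_hom_TFAE _).out 3 0).mp fun r hr ↦ ?_⟩, (V.inv_mem_nonunits_iff.mp <|
      hV.2 ⟨_, le_add_self (α := Ideal B) (Ideal.subset_span rfl), rfl⟩).resolve_left hx0⟩
  rw [← V.image_maximalIdeal] at hV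
  obtain ⟨⟨r, _⟩, hr, rfl⟩ := hV.2 ⟨_, le_self_add (α := Ideal B) (Ideal.mem_map_of_mem _ hr), rfl⟩
  exact hr

end Dom

section Range

variable {R B : Type*} [CommRing R] [CommRing B]

/-- integral over the range of `f` ⇒ integral with respect to `f` -/
theorem s26er_isIntegralElem_of_range (f : R →+* B) {x : B} (hx : IsIntegral f.range x) :
    f.IsIntegralElem x := by
  obtain ⟨p, hp, hpx⟩ := hx
  have hl : p ∈ Polynomial.lifts f.rangeRestrict :=
    Polynomial.mem_lifts_of_surjective f.rangeRestrict_surjective p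
  obtain ⟨q, hq, -, hqm⟩ := Polynomial.lifts_and_natDegree_eq_and_monic hl hp
  refine ⟨q, hqm, ?_⟩
  have e : f = (algebraMap f.range B).comp f.rangeRestrict := by
    ext a
    rfl
  rw [e, ← Polynomial.eval₂_map, hq]
  exact hpx

end Range

section Ext

variable {Ω Ω' : Type*} [Field Ω] [Field Ω'] [Algebra Ω Ω']

/-- the structure map `V → Ω'` -/
def s26erMap (V : ValuationSubring Ω) : V →+* Ω' := (algebraMap Ω Ω').comp V.subtype

theorem s26erMap_apply (V : ValuationSubring Ω) (a : V) :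
    s26erMap (Ω' := Ω') V a = algebraMap Ω Ω' (a : Ω) := rfl

/-- the image of `V` in `Ω'`, as a local subring -/
def s26erImg (V : ValuationSubring Ω) : LocalSubring Ω' :=
  LocalSubring.range (s26erMap (Ω' := Ω') V)

theorem s26erImg_toSubring (V : ValuationSubring Ω) :
    (s26erImg (Ω' := Ω') V).toSubring = (s26erMap (Ω' := Ω') V).range := rfl

/-- **a valuation subring of `Ω'` dominating `V` lies over `V`** -/
theorem s26er_comap_eq_of_le (V : ValuationSubring Ω) (V' : ValuationSubring Ω')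
    (h : s26erImg V ≤ V'.toLocalSubring) : V'.comap (algebraMap Ω Ω') = V := by
  obtain ⟨h1, h2⟩ := h
  have hmem : ∀ a : Ω, a ∈ V → algebraMap Ω Ω' a ∈ V' := fun a ha => h1 ⟨⟨a, ha⟩, rfl⟩
  ext a
  rw [ValuationSubring.mem_comap]
  refine ⟨fun ha => ?_, hmem a⟩
  by_contra hna
  have ha0 : a ≠ 0 := fun h0 => hna (h0 ▸ V.zero_mem)
  have hinv : a⁻¹ ∈ V := (V.mem_or_inv_mem a).resolve_left hna
  -- the image of `a⁻¹` is a unit of `V'`
  let y : (s26erImg (Ω' := Ω') V).toSubring := ⟨algebraMap Ω Ω' a⁻¹, ⟨⟨a⁻¹, hinv⟩, rfl⟩⟩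
  have hy : IsUnit (Subring.inclusion h1 y) := by
    refine isUnit_iff_exists_inv.mpr ⟨⟨algebraMap Ω Ω' a, ha⟩, Subtype.ext ?_⟩
    show algebraMap Ω Ω' a⁻¹ * algebraMap Ω Ω' a = 1
    rw [← map_mul, inv_mul_cancel₀ ha0, map_one]
  have hy' : IsUnit y := h2.1 y hy
  obtain ⟨⟨z, ⟨b, hb⟩⟩, hz⟩ := isUnit_iff_exists_inv.mp hy'
  have hz' : algebraMap Ω Ω' a⁻¹ * z = 1 := congrArg Subtype.val hz
  have hzb : algebraMap Ω Ω' (b : Ω) = z := hb
  rw [← hzb, ← map_mul] at hz'
  have h3 : a⁻¹ * (b : Ω) = 1 := (algebraMap Ω Ω').injective (by rw [hz', map_one])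
  have h4 : (b : Ω) = a := by
    have := congrArg (fun t => a * t) h3
    simpa [← mul_assoc, mul_inv_cancel₀ ha0] using this
  exact hna (h4 ▸ b.2)

/-- **Chevalley**: every valuation subring of `Ω` extends to `Ω'` -/
theorem s26er_exists_comap_eq (V : ValuationSubring Ω) :
    ∃ V' : ValuationSubring Ω', V'.comap (algebraMap Ω Ω') = V := by
  obtain ⟨V', hV'⟩ := (s26erImg (Ω' := Ω') V).exists_le_valuationSubring
  exact ⟨V', s26er_comap_eq_of_le V V' hV'⟩

/-- **the integral closure of `V` in `Ω'` is the intersection of the valuation subrings over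
`V`**, the useful half -/
theorem s26er_isIntegralElem_of_forall_mem (V : ValuationSubring Ω) (x : Ω')
    (h : ∀ V' : ValuationSubring Ω', V'.comap (algebraMap Ω Ω') = V → x ∈ V') :
    (s26erMap (Ω' := Ω') V).IsIntegralElem x := by
  apply s26er_isIntegralElem_of_range
  by_contra hx
  have hx' : ¬ IsIntegral (s26erImg (Ω' := Ω') V).toSubring x := hx
  obtain ⟨V', hV', hxV'⟩ := s26er_exists_dominating hx'
  exact hxV' (h V' (s26er_comap_eq_of_le V V' hV'))

/-- an element of `Ω` which is integral over `V` lies in `V` -/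
theorem s26er_mem_of_isIntegralElem (V : ValuationSubring Ω) {a : Ω}
    (h : (V.subtype : V →+* Ω).IsIntegralElem a) : a ∈ V := by
  have h' : IsIntegral V a := h
  obtain ⟨y, hy⟩ := (IsIntegrallyClosed.isIntegral_iff (R := V) (K := Ω)).1 h'
  rw [← hy]
  exact y.2

/-- **(R4), core**: if `x` is a unit at every valuation subring of `Ω'` over `V`, then the norm of
`x` is a unit of `V`. -/
theorem s26er_norm_val_eq_one (V : ValuationSubring Ω) (x : Ω')
    (h : ∀ V' : ValuationSubring Ω', V'.comap (algebraMap Ω Ω') = V → V'.valuation x = 1) :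
    V.valuation (Algebra.norm Ω x) = 1 := by
  letI : Algebra V Ω' := (s26erMap (Ω' := Ω') V).toAlgebra
  haveI : IsScalarTower V Ω Ω' := IsScalarTower.of_algebraMap_eq (fun _ => rfl)
  have hx0 : x ≠ 0 := by
    rintro rfl
    obtain ⟨V', hV'⟩ := s26er_exists_comap_eq (Ω' := Ω') V
    have := h V' hV'
    rw [map_zero] at this
    exact zero_ne_one this
  have key : ∀ y : Ω', (∀ V' : ValuationSubring Ω', V'.comap (algebraMap Ω Ω') = V → y ∈ V') →
      Algebra.norm Ω y ∈ V := by
    intro y hy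
    have h1 : IsIntegral V y := s26er_isIntegralElem_of_forall_mem V y hy
    have h2 : IsIntegral V (Algebra.norm Ω y) := Algebra.isIntegral_norm Ω h1
    exact s26er_mem_of_isIntegralElem V h2
  have h1 : Algebra.norm Ω x ∈ V := key x fun V' hV' => by
    rw [← ValuationSubring.valuation_le_one_iff, h V' hV']
  have h2 : Algebra.norm Ω x⁻¹ ∈ V := key x⁻¹ fun V' hV' => by
    rw [← ValuationSubring.valuation_le_one_iff, map_inv₀, h V' hV', inv_one]
  have hmul : Algebra.norm Ω x * Algebra.norm Ω x⁻¹ = 1 := by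
    rw [← map_mul, mul_inv_cancel₀ hx0, map_one]
  rw [← ValuationSubring.valuation_le_one_iff] at h1 h2
  have hv : V.valuation (Algebra.norm Ω x) * V.valuation (Algebra.norm Ω x⁻¹) = 1 := by
    rw [← map_mul, hmul, map_one]
  refine le_antisymm h1 ?_
  calc (1 : V.ValueGroup) = V.valuation (Algebra.norm Ω x) * V.valuation (Algebra.norm Ω x⁻¹) :=
        hv.symm
    _ ≤ V.valuation (Algebra.norm Ω x) * 1 := mul_le_mul_right h2 _
    _ = V.valuation (Algebra.norm Ω x) := mul_one _

/-- **(R3), core**: if `Ω` is algebraically closed in `Ω'` and `x` lies in every valuation subring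
of `Ω'` containing `Ω`, then `x ∈ Ω`. -/
theorem s26er_mem_range_of_forall_mem
    (halg : ∀ y : Ω', IsAlgebraic Ω y → y ∈ (algebraMap Ω Ω').range) (x : Ω')
    (h : ∀ V' : ValuationSubring Ω', (∀ a : Ω, algebraMap Ω Ω' a ∈ V') → x ∈ V') :
    x ∈ (algebraMap Ω Ω').range := by
  apply halg
  have h1 : (algebraMap Ω Ω').IsIntegralElem x := by
    apply s26er_isIntegralElem_of_range
    by_contra hx
    have hx' : ¬ IsIntegral (LocalSubring.range (algebraMap Ω Ω')).toSubring x := hx
    obtain ⟨V', hV', hxV'⟩ := s26er_exists_dominating hx'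
    exact hxV' (h V' fun a => hV'.1 ⟨a, rfl⟩)
  have h2 : IsIntegral Ω x := h1
  exact h2.isAlgebraic

end Ext

/-! ### the relations calculus -/

section Val

variable {Ω Ω' : Type*} [Field Ω] [Field Ω']

/-- `v x ≤ v y` in terms of membership -/
theorem s26er_val_le_iff (A : ValuationSubring Ω) (x y : Ω) :
    A.valuation x ≤ A.valuation y ↔ (y = 0 ∧ x = 0) ∨ (y ≠ 0 ∧ x / y ∈ A) := by
  by_cases hy : y = 0
  · subst hy
    rw [map_zero]
    constructor
    · intro h
      left
      exact ⟨rfl, (Valuation.zero_iff _).1 (le_antisymm h zero_le)⟩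
    · rintro (⟨-, rfl⟩ | ⟨h, -⟩)
      · rw [map_zero]
      · exact absurd rfl h
  · have hvy : 0 < A.valuation y := zero_lt_iff.2 ((Valuation.ne_zero_iff _).2 hy)
    constructor
    · intro h
      right
      refine ⟨hy, ?_⟩
      rw [← ValuationSubring.valuation_le_one_iff, map_div₀, div_le_one₀ hvy]
      exact h
    · rintro (⟨h, -⟩ | ⟨-, h⟩)
      · exact absurd h hy
      · rw [← ValuationSubring.valuation_le_one_iff, map_div₀, div_le_one₀ hvy] at h
        exact h

/-- comparison of values is compatible with `comap` -/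
theorem s26er_val_comap_le_iff (f : Ω →+* Ω') (A : ValuationSubring Ω') (x y : Ω) :
    (A.comap f).valuation x ≤ (A.comap f).valuation y ↔
      A.valuation (f x) ≤ A.valuation (f y) := by
  rw [s26er_val_le_iff, s26er_val_le_iff, ValuationSubring.mem_comap, map_div₀,
    map_eq_zero_iff f f.injective, map_eq_zero_iff f f.injective, Ne, Ne,
    map_eq_zero_iff f f.injective]

theorem s26er_val_comap_eq_iff (f : Ω →+* Ω') (A : ValuationSubring Ω') (x y : Ω) :
    (A.comap f).valuation x = (A.comap f).valuation y ↔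
      A.valuation (f x) = A.valuation (f y) := by
  rw [le_antisymm_iff, le_antisymm_iff, s26er_val_comap_le_iff, s26er_val_comap_le_iff]

/-- a nonzero element of a subfield contained in `A` has value one -/
theorem s26er_val_eq_one_of_field (f : Ω →+* Ω') (A : ValuationSubring Ω')
    (h : ∀ a : Ω, f a ∈ A) {u : Ω} (hu : u ≠ 0) : A.valuation (f u) = 1 := by
  have h1 : A.valuation (f u) ≤ 1 := (ValuationSubring.valuation_le_one_iff A _).2 (h u)
  have h2 : A.valuation (f u⁻¹) ≤ 1 := (ValuationSubring.valuation_le_one_iff A _).2 (h u⁻¹)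
  have h3 : A.valuation (f u) * A.valuation (f u⁻¹) = 1 := by
    rw [← map_mul, ← map_mul, mul_inv_cancel₀ hu, map_one, map_one]
  refine le_antisymm h1 ?_
  calc (1 : A.ValueGroup) = A.valuation (f u) * A.valuation (f u⁻¹) := h3.symm
    _ ≤ A.valuation (f u) * 1 := mul_le_mul_right h2 _
    _ = A.valuation (f u) := mul_one _

end Val

section Rel

variable (K : Type*) {Ω Ω' : Type*} [Field K] [Field Ω] [Field Ω'] [Algebra K Ω]
  [Algebra K Ω'] [Algebra Ω Ω'] [IsScalarTower K Ω Ω']

/-- the valuation subrings of `Ω` over `K` -/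
def S26erOver (V : ValuationSubring Ω) : Prop := ∀ a : K, algebraMap K Ω a ∈ V

/-- **relation**: `F` has the values prescribed by the generator family `𝔡` at every valuation
subring of `Ω` over `K`. -/
def S26erIsRel (𝔡 : ValuationSubring Ω → Ω) (F : Ω) : Prop :=
  ∀ V : ValuationSubring Ω, S26erOver K V → V.valuation F = V.valuation (𝔡 V)

/-- the pull-back of a generator family along `Ω → Ω'` (restriction of valuations) -/
def s26erPull (𝔡 : ValuationSubring Ω → Ω) : ValuationSubring Ω' → Ω' :=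
  fun V' => algebraMap Ω Ω' (𝔡 (V'.comap (algebraMap Ω Ω')))

variable {K}

theorem S26erOver.comap {V' : ValuationSubring Ω'} (h : S26erOver K V') :
    S26erOver K (V'.comap (algebraMap Ω Ω')) := fun a => by
  rw [ValuationSubring.mem_comap, ← IsScalarTower.algebraMap_apply]
  exact h a

theorem S26erOver.of_comap {V' : ValuationSubring Ω'}
    (h : S26erOver K (V'.comap (algebraMap Ω Ω'))) : S26erOver K V' := fun a => by
  have := h a
  rwa [ValuationSubring.mem_comap, ← IsScalarTower.algebraMap_apply] at this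

theorem s26erOver_top : S26erOver K (⊤ : ValuationSubring Ω) := fun _ => ValuationSubring.mem_top _

variable {𝔡 𝔡₁ 𝔡₂ : ValuationSubring Ω → Ω} {F F₁ F₂ : Ω}

theorem S26erIsRel.ne_zero (h : S26erIsRel K 𝔡 F) (h0 : 𝔡 ⊤ ≠ 0) : F ≠ 0 := by
  rintro rfl
  have := h ⊤ s26erOver_top
  rw [map_zero] at this
  exact h0 ((Valuation.zero_iff _).1 this.symm)

/-- (R2) -/
theorem S26erIsRel.mul (h₁ : S26erIsRel K 𝔡₁ F₁) (h₂ : S26erIsRel K 𝔡₂ F₂) :
    S26erIsRel K (fun V => 𝔡₁ V * 𝔡₂ V) (F₁ * F₂) := fun V hV => by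
  rw [map_mul, map_mul, h₁ V hV, h₂ V hV]

theorem S26erIsRel.inv (h : S26erIsRel K 𝔡 F) : S26erIsRel K (fun V => (𝔡 V)⁻¹) F⁻¹ :=
  fun V hV => by rw [map_inv₀, map_inv₀, h V hV]

theorem S26erIsRel.div (h₁ : S26erIsRel K 𝔡₁ F₁) (h₂ : S26erIsRel K 𝔡₂ F₂) :
    S26erIsRel K (fun V => 𝔡₁ V / 𝔡₂ V) (F₁ / F₂) := fun V hV => by
  rw [map_div₀, map_div₀, h₁ V hV, h₂ V hV]

theorem S26erIsRel.pow (h : S26erIsRel K 𝔡 F) (n : ℕ) :
    S26erIsRel K (fun V => 𝔡 V ^ n) (F ^ n) := fun V hV => by
  rw [map_pow, map_pow, h V hV]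

theorem S26erIsRel.zpow (h : S26erIsRel K 𝔡 F) (n : ℤ) :
    S26erIsRel K (fun V => 𝔡 V ^ n) (F ^ n) := fun V hV => by
  rw [map_zpow₀, map_zpow₀, h V hV]

theorem s26erIsRel_one : S26erIsRel K (fun _ : ValuationSubring Ω => (1 : Ω)) 1 :=
  fun _ _ => rfl

/-- a relation only depends on the values of the generators -/
theorem S26erIsRel.congr (h : S26erIsRel K 𝔡₁ F)
    (h' : ∀ V : ValuationSubring Ω, S26erOver K V → V.valuation (𝔡₁ V) = V.valuation (𝔡₂ V)) :
    S26erIsRel K 𝔡₂ F := fun V hV => (h V hV).trans (h' V hV)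

/-- **(R1)**: field embeddings transport relations -/
theorem S26erIsRel.map (h : S26erIsRel K 𝔡 F) :
    S26erIsRel K (s26erPull (Ω' := Ω') 𝔡) (algebraMap Ω Ω' F) := fun V' hV' =>
  (s26er_val_comap_eq_iff (algebraMap Ω Ω') V' F _).1 (h _ hV'.comap)

/-- the converse of (R1): a relation in `Ω'` between elements of `Ω` is a relation in `Ω` -/
theorem S26erIsRel.of_map (h : S26erIsRel K (s26erPull (Ω' := Ω') 𝔡) (algebraMap Ω Ω' F)) :
    S26erIsRel K 𝔡 F := fun V hV => by
  obtain ⟨V', rfl⟩ := s26er_exists_comap_eq (Ω' := Ω') V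
  exact (s26er_val_comap_eq_iff (algebraMap Ω Ω') V' F _).2 (h V' (S26erOver.of_comap hV))

/-- **(R3), DESCENT**: `Ω` algebraically closed in `Ω'`; a relation in `Ω'` for a family pulled
back from `Ω` comes from `Ω`. -/
theorem S26erIsRel.descend
    (halg : ∀ y : Ω', IsAlgebraic Ω y → y ∈ (algebraMap Ω Ω').range) (h0 : 𝔡 ⊤ ≠ 0) {F' : Ω'}
    (h : S26erIsRel K (s26erPull (Ω' := Ω') 𝔡) F') :
    ∃ F : Ω, algebraMap Ω Ω' F = F' ∧ S26erIsRel K 𝔡 F := by
  have hmem : F' ∈ (algebraMap Ω Ω').range := by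
    apply s26er_mem_range_of_forall_mem halg
    intro V' hV'
    have hK : S26erOver K V' := fun a => by
      rw [IsScalarTower.algebraMap_apply K Ω Ω']
      exact hV' _
    have htop : V'.comap (algebraMap Ω Ω') = ⊤ := by
      ext a
      simp only [ValuationSubring.mem_comap, ValuationSubring.mem_top, iff_true]
      exact hV' a
    have h1 := h V' hK
    have h2 : s26erPull (Ω' := Ω') 𝔡 V' = algebraMap Ω Ω' (𝔡 ⊤) := by
      unfold s26erPull
      rw [htop]
    rw [h2, s26er_val_eq_one_of_field (algebraMap Ω Ω') V' hV' h0] at h1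
    rw [← ValuationSubring.valuation_le_one_iff, h1]
  obtain ⟨F, rfl⟩ := hmem
  exact ⟨F, rfl, h.of_map⟩

/-- **(R4), NORM**: a relation in a finite extension `Ω'` for a family pulled back from `Ω` gives
`[Ω' : Ω]` times the relation in `Ω`, by the norm. -/
theorem S26erIsRel.norm (h0 : ∀ V : ValuationSubring Ω, S26erOver K V → 𝔡 V ≠ 0) {F' : Ω'}
    (h : S26erIsRel K (s26erPull (Ω' := Ω') 𝔡) F') :
    S26erIsRel K (fun V => 𝔡 V ^ Module.finrank Ω Ω') (Algebra.norm Ω F') := fun V hV => by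
  have hg := h0 V hV
  have hfg : algebraMap Ω Ω' (𝔡 V) ≠ 0 := (map_ne_zero_iff _ (algebraMap Ω Ω').injective).2 hg
  have key : V.valuation (Algebra.norm Ω (F' / algebraMap Ω Ω' (𝔡 V))) = 1 := by
    apply s26er_norm_val_eq_one
    intro V' hV'
    have h1 := h V' (S26erOver.of_comap (by rw [hV']; exact hV))
    have h2 : s26erPull (Ω' := Ω') 𝔡 V' = algebraMap Ω Ω' (𝔡 V) := by
      unfold s26erPull
      rw [hV']
    rw [h2] at h1
    rw [map_div₀, h1, div_self]
    exact (Valuation.ne_zero_iff _).2 hfg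
  have e : Algebra.norm Ω (F' / algebraMap Ω Ω' (𝔡 V)) * 𝔡 V ^ Module.finrank Ω Ω' =
      Algebra.norm Ω F' := by
    rw [← Algebra.norm_algebraMap (S := Ω') (𝔡 V), ← map_mul, div_mul_cancel₀ _ hfg]
  rw [← e, map_mul, key, one_mul]

end Rel

end Fermat.Agent.S26

end
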