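/-
S26-E, piece E-R (helper80): DISCRETE valuation subrings in field extensions.  Mathlib only.

`S26erdDisc W π` : the valuation subring `W` of `Ω` is discrete with uniformizer `π`
(`v(π) < 1`, every value is an integral power of `v(π)`).

* `s26erd_exists_eq_of_sum_eq_zero` : in a vanishing sum two terms have the same (maximal) value.
* `s26erd_exists_pow_eq` : `Ω'/Ω` finite, `y ∈ Ω'ˣ` ⇒ `v'(y)^k = v'(a)` for some `1 ≤ k ≤ [Ω':Ω]`,
  `a ∈ Ωˣ`.
* `S26erdDisc.isDVR` : `W` is a discrete valuation ring, `W ≠ ⊤`.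
* `S26erdDisc.of_finite` : **(B2)** `Ω'/Ω` finite: a valuation subring of `Ω'` over a discrete one
  is discrete.
* `S26erdDisc.comap` : **(B1)** the restriction of a discrete valuation subring to a subfield is
  trivial or discrete, with a ramification index.
-/
import Mathlib.RingTheory.Valuation.ValuationSubring
import Mathlib.RingTheory.DiscreteValuationRing.Basic
import Mathlib.FieldTheory.Minpoly.Field
import Mathlib.LinearAlgebra.FiniteDimensional.Defs
import Mathlib.RingTheory.IntegralClosure.IsIntegralClosure.Basic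
import Fermat.Agent.S26.ERAbs

set_option autoImplicit false

noncomputable section

namespace Fermat.Agent.S26

section Sum

variable {L Γ : Type*} [Field L] [LinearOrderedCommGroupWithZero Γ] (v : Valuation L Γ)

/-- in a vanishing sum with a nonzero term, two distinct terms are nonzero with the same value -/
theorem s26erd_exists_eq_of_sum_eq_zero {ι : Type*} (s : Finset ι) (f : ι → L)
    (h0 : ∑ i ∈ s, f i = 0) (hne : ∃ i ∈ s, f i ≠ 0) :
    ∃ i ∈ s, ∃ j ∈ s, i ≠ j ∧ f i ≠ 0 ∧ f j ≠ 0 ∧ v (f i) = v (f j) := by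
  classical
  obtain ⟨i₁, hi₁, hf₁⟩ := hne
  obtain ⟨i₀, hi₀, hmax⟩ := Finset.exists_max_image s (fun i => v (f i)) ⟨i₁, hi₁⟩
  have hg : v (f i₀) ≠ 0 := by
    intro h
    have := hmax i₁ hi₁
    rw [h] at this
    exact hf₁ ((Valuation.zero_iff v).1 (le_antisymm this zero_le))
  have hf₀ : f i₀ ≠ 0 := (Valuation.ne_zero_iff v).1 hg
  by_contra hcon
  have hlt : ∀ j ∈ s.erase i₀, v (f j) < v (f i₀) := by
    intro j hj
    have hjs := Finset.mem_of_mem_erase hj
    have hji : j ≠ i₀ := Finset.ne_of_mem_erase hj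
    refine lt_of_le_of_ne (hmax j hjs) fun heq => hcon ?_
    refine ⟨i₀, hi₀, j, hjs, hji.symm, hf₀, ?_, heq.symm⟩
    rw [← Valuation.ne_zero_iff v, heq]
    exact hg
  have h1 : v (∑ j ∈ s.erase i₀, f j) < v (f i₀) := Valuation.map_sum_lt v hg hlt
  have h2 : ∑ j ∈ s.erase i₀, f j = - f i₀ := by
    have := Finset.add_sum_erase s f hi₀
    rw [h0] at this
    exact (neg_eq_of_add_eq_zero_right this).symm ▸ rfl
  rw [h2, Valuation.map_neg] at h1
  exact lt_irrefl _ h1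

end Sum

section Pow

variable {Ω Ω' Γ : Type*} [Field Ω] [Field Ω'] [Algebra Ω Ω'] [LinearOrderedCommGroupWithZero Γ]
  (v : Valuation Ω' Γ)

/-- auxiliary: from two terms of the same value -/
theorem s26erd_pow_eq_aux {y : Ω'} (hy : y ≠ 0) {c d : Ω} {i j : ℕ} (hij : i < j)
    (hc : algebraMap Ω Ω' c * y ^ i ≠ 0) (hd : algebraMap Ω Ω' d * y ^ j ≠ 0)
    (h : v (algebraMap Ω Ω' c * y ^ i) = v (algebraMap Ω Ω' d * y ^ j)) :
    ∃ a : Ω, a ≠ 0 ∧ v y ^ (j - i) = v (algebraMap Ω Ω' a) := by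
  have hc0 : c ≠ 0 := by
    rintro rfl
    rw [map_zero, zero_mul] at hc
    exact hc rfl
  have hd0 : d ≠ 0 := by
    rintro rfl
    rw [map_zero, zero_mul] at hd
    exact hd rfl
  have hvy : v y ≠ 0 := (Valuation.ne_zero_iff v).2 hy
  have hvd : v (algebraMap Ω Ω' d) ≠ 0 :=
    (Valuation.ne_zero_iff v).2 ((map_ne_zero_iff _ (algebraMap Ω Ω').injective).2 hd0)
  refine ⟨c / d, div_ne_zero hc0 hd0, ?_⟩
  rw [map_div₀, map_div₀, eq_div_iff hvd]
  have e : j = (j - i) + i := by omega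
  rw [map_mul, map_mul, map_pow, map_pow] at h
  have h2 : v y ^ j = v y ^ (j - i) * v y ^ i := by
    rw [← pow_add]
    congr 1
  rw [h2] at h
  have h3 : (v (algebraMap Ω Ω' c)) * v y ^ i =
      (v y ^ (j - i) * v (algebraMap Ω Ω' d)) * v y ^ i := by
    rw [h, ← mul_assoc, mul_comm (v (algebraMap Ω Ω' d))]
  exact (mul_right_cancel₀ (pow_ne_zero i hvy) h3).symm

/-- **values in a finite extension**: a power `k ≤ deg` of the value of `y` is the value of an
element of the base field -/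
theorem s26erd_exists_pow_eq {y : Ω'} (hy : y ≠ 0) (hint : IsIntegral Ω y) :
    ∃ k : ℕ, 1 ≤ k ∧ k ≤ (minpoly Ω y).natDegree ∧
      ∃ a : Ω, a ≠ 0 ∧ v y ^ k = v (algebraMap Ω Ω' a) := by
  classical
  set p := minpoly Ω y with hp
  have hmon : p.Monic := minpoly.monic hint
  have hsum : ∑ i ∈ Finset.range (p.natDegree + 1), algebraMap Ω Ω' (p.coeff i) * y ^ i = 0 := by
    have h1 : Polynomial.aeval y p = 0 := minpoly.aeval Ω y
    rw [Polynomial.aeval_eq_sum_range] at h1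
    simpa [Algebra.smul_def] using h1
  have hne : ∃ i ∈ Finset.range (p.natDegree + 1),
      algebraMap Ω Ω' (p.coeff i) * y ^ i ≠ 0 := by
    refine ⟨p.natDegree, Finset.mem_range.2 (Nat.lt_succ_self _), ?_⟩
    rw [Polynomial.coeff_natDegree, hmon.leadingCoeff, map_one, one_mul]
    exact pow_ne_zero _ hy
  obtain ⟨i, hi, j, hj, hij, hfi, hfj, heq⟩ :=
    s26erd_exists_eq_of_sum_eq_zero v (Finset.range (p.natDegree + 1))
      (fun i => algebraMap Ω Ω' (p.coeff i) * y ^ i) hsum hne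
  rw [Finset.mem_range] at hi hj
  rcases lt_or_gt_of_ne hij with hlt | hgt
  · obtain ⟨a, ha, h⟩ := s26erd_pow_eq_aux v hy hlt hfi hfj heq
    exact ⟨j - i, by omega, by omega, a, ha, h⟩
  · obtain ⟨a, ha, h⟩ := s26erd_pow_eq_aux v hy hgt hfj hfi heq.symm
    exact ⟨i - j, by omega, by omega, a, ha, h⟩

end Pow

section Disc

variable {Ω : Type*} [Field Ω]

/-- **`W` is discrete with uniformizer `π`** -/
def S26erdDisc (W : ValuationSubring Ω) (π : Ω) : Prop :=
  π ≠ 0 ∧ W.valuation π < 1 ∧ ∀ a : Ω, a ≠ 0 → ∃ m : ℤ, W.valuation a = W.valuation π ^ m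

variable {W : ValuationSubring Ω} {π : Ω}

theorem S26erdDisc.val_pos (h : S26erdDisc W π) : 0 < W.valuation π :=
  zero_lt_iff.2 ((Valuation.ne_zero_iff _).2 h.1)

theorem S26erdDisc.val_ne_one (h : S26erdDisc W π) : W.valuation π ≠ 1 := ne_of_lt h.2.1

theorem S26erdDisc.mem (h : S26erdDisc W π) : π ∈ W :=
  (ValuationSubring.valuation_le_one_iff W π).1 (le_of_lt h.2.1)

theorem S26erdDisc.ne_top (h : S26erdDisc W π) : W ≠ ⊤ := by
  intro htop
  have h1 : π⁻¹ ∈ W := htop ▸ ValuationSubring.mem_top _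
  have h2 := (ValuationSubring.valuation_le_one_iff W _).2 h1
  rw [map_inv₀] at h2
  have h3 := (inv_le_one₀ h.val_pos).1 h2
  exact absurd h.2.1 (not_lt.2 h3)

/-- the exponent is unique -/
theorem S26erdDisc.exp_unique (h : S26erdDisc W π) {m n : ℤ}
    (e : W.valuation π ^ m = W.valuation π ^ n) : m = n :=
  (zpow_right_inj₀ h.val_pos h.val_ne_one).1 e

theorem S26erdDisc.exp_nonneg_iff (h : S26erdDisc W π) {a : Ω} {m : ℤ}
    (e : W.valuation a = W.valuation π ^ m) : a ∈ W ↔ 0 ≤ m := by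
  rw [← ValuationSubring.valuation_le_one_iff, e,
    zpow_le_one_iff_right_of_lt_one₀ h.val_pos h.2.1]

theorem S26erdDisc.exp_pos_iff (h : S26erdDisc W π) {a : Ω} {m : ℤ}
    (e : W.valuation a = W.valuation π ^ m) : W.valuation a < 1 ↔ 0 < m := by
  rw [e, zpow_lt_one_iff_right_of_lt_one₀ h.val_pos h.2.1]

/-- a discrete valuation subring has the unit-times-power factorization -/
theorem S26erdDisc.hasFactorization (h : S26erdDisc W π) :
    IsDiscreteValuationRing.HasUnitMulPowIrreducibleFactorization W := by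
  have hunit : ∀ x : W, W.valuation (x : Ω) = 1 → IsUnit x := fun x hx =>
    (ValuationSubring.valuation_eq_one_iff W x).2 hx
  -- factorization of the elements of `W`
  have hfac : ∀ x : W, x ≠ 0 → ∃ n : ℕ, ∃ u : W, IsUnit u ∧ x = (⟨π, h.mem⟩ : W) ^ n * u := by
    intro x hx
    have hx0 : (x : Ω) ≠ 0 := fun h0 => hx (Subtype.ext h0)
    obtain ⟨m, hm⟩ := h.2.2 x hx0
    have hm0 : 0 ≤ m := (h.exp_nonneg_iff hm).1 x.2
    obtain ⟨n, rfl⟩ := Int.eq_ofNat_of_zero_le hm0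
    rw [zpow_natCast] at hm
    have hu : W.valuation ((x : Ω) / π ^ n) = 1 := by
      rw [map_div₀, map_pow, hm, div_self (pow_ne_zero n (ne_of_gt h.val_pos))]
    have hmem : (x : Ω) / π ^ n ∈ W := by
      rw [← ValuationSubring.valuation_le_one_iff, hu]
    refine ⟨n, ⟨_, hmem⟩, hunit ⟨_, hmem⟩ hu, Subtype.ext ?_⟩
    show (x : Ω) = π ^ n * ((x : Ω) / π ^ n)
    rw [mul_div_cancel₀ _ (pow_ne_zero n h.1)]
  have hπnu : ¬ IsUnit (⟨π, h.mem⟩ : W) := fun hu =>
    h.val_ne_one ((ValuationSubring.valuation_eq_one_iff W ⟨π, h.mem⟩).1 hu)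
  have hπ0 : (⟨π, h.mem⟩ : W) ≠ 0 := fun h0 => h.1 (congrArg Subtype.val h0)
  refine ⟨⟨π, h.mem⟩, ⟨hπnu, ?_⟩, ?_⟩
  · intro a b hab
    by_cases ha : a = 0
    · rw [ha, zero_mul] at hab
      exact absurd hab hπ0
    by_cases hb : b = 0
    · rw [hb, mul_zero] at hab
      exact absurd hab hπ0
    obtain ⟨na, ua, hua, rfl⟩ := hfac a ha
    obtain ⟨nb, ub, hub, rfl⟩ := hfac b hb
    -- compare values
    have hv := congrArg (fun t : W => W.valuation (t : Ω)) hab
    simp only [MulMemClass.coe_mul, SubmonoidClass.coe_pow, map_mul, map_pow] at hv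
    rw [(ValuationSubring.valuation_eq_one_iff W ua).1 hua,
      (ValuationSubring.valuation_eq_one_iff W ub).1 hub, mul_one, mul_one, ← pow_add] at hv
    have hv' : W.valuation π ^ ((1 : ℕ) : ℤ) = W.valuation π ^ ((na + nb : ℕ) : ℤ) := by
      rw [zpow_natCast, zpow_natCast, pow_one]
      exact hv
    have hsum : (1 : ℤ) = ((na + nb : ℕ) : ℤ) := by
      have := h.exp_unique hv'
      simpa using this
    have hsum' : na + nb = 1 := by exact_mod_cast hsum.symm
    rcases Nat.eq_zero_or_pos na with h0 | h0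
    · left
      rw [h0, pow_zero, one_mul]
      exact hua
    · right
      have : nb = 0 := by omega
      rw [this, pow_zero, one_mul]
      exact hub
  · intro x hx
    obtain ⟨n, u, hu, rfl⟩ := hfac x hx
    exact ⟨n, ⟨hu.unit, rfl⟩⟩

/-- a discrete valuation subring is a discrete valuation ring -/
theorem S26erdDisc.isDVR (h : S26erdDisc W π) : IsDiscreteValuationRing W :=
  IsDiscreteValuationRing.ofHasUnitMulPowIrreducibleFactorization h.hasFactorization

end Disc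

section Restrict

variable {Ω Ω' : Type*} [Field Ω] [Field Ω'] (f : Ω →+* Ω') {V' : ValuationSubring Ω'}

/-- values of zpowers under `comap` -/
theorem s26erd_val_comap_zpow_iff (a b : Ω) (m : ℤ) :
    (V'.comap f).valuation a = (V'.comap f).valuation b ^ m ↔
      V'.valuation (f a) = V'.valuation (f b) ^ m := by
  rw [← map_zpow₀, ← map_zpow₀, s26er_val_comap_eq_iff, map_zpow₀]

theorem s26erd_val_comap_lt_one_iff (a : Ω) :
    (V'.comap f).valuation a < 1 ↔ V'.valuation (f a) < 1 := by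
  rw [← not_le, ← not_le, not_iff_not]
  have := s26er_val_comap_le_iff f V' 1 a
  rwa [map_one, map_one, map_one] at this

variable {f}

/-- **(B1)**: the restriction of a discrete valuation subring to a subfield is trivial or
discrete, with a ramification index `e ≥ 1`. -/
theorem S26erdDisc.comap {ϖ : Ω'} (h : S26erdDisc V' ϖ) (hne : V'.comap f ≠ ⊤) :
    ∃ (π : Ω) (e : ℕ), 0 < e ∧ S26erdDisc (V'.comap f) π ∧
      V'.valuation (f π) = V'.valuation ϖ ^ e := by
  classical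
  -- an element with positive exponent
  have hex : ∃ e : ℕ, 0 < e ∧ ∃ b : Ω, b ≠ 0 ∧ V'.valuation (f b) = V'.valuation ϖ ^ e := by
    have h1 : ∃ a : Ω, a ∉ V'.comap f := by
      by_contra hcon
      apply hne
      ext a
      simp only [ValuationSubring.mem_top, iff_true]
      by_contra ha
      exact hcon ⟨a, ha⟩
    obtain ⟨a, ha⟩ := h1
    have ha0 : a ≠ 0 := fun h0 => ha (h0 ▸ (V'.comap f).zero_mem)
    rw [ValuationSubring.mem_comap] at ha
    have hfa0 : f a⁻¹ ≠ 0 := (map_ne_zero_iff f f.injective).2 (inv_ne_zero ha0)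
    obtain ⟨m, hm⟩ := h.2.2 (f a⁻¹) hfa0
    have hlt : V'.valuation (f a⁻¹) < 1 := by
      rw [map_inv₀, map_inv₀]
      have h2 : ¬ V'.valuation (f a) ≤ 1 := fun hle =>
        ha ((ValuationSubring.valuation_le_one_iff V' _).1 hle)
      have h3 : 0 < V'.valuation (f a) :=
        zero_lt_iff.2 ((Valuation.ne_zero_iff _).2 ((map_ne_zero_iff f f.injective).2 ha0))
      exact (inv_lt_one₀ h3).2 (not_le.1 h2)
    have hmpos : 0 < m := (h.exp_pos_iff hm).1 hlt
    obtain ⟨n, rfl⟩ := Int.eq_ofNat_of_zero_le hmpos.le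
    refine ⟨n, by exact_mod_cast hmpos, a⁻¹, inv_ne_zero ha0, ?_⟩
    rw [hm, zpow_natCast]
  set e := Nat.find hex with he
  obtain ⟨hepos, π, hπ0, hπ⟩ := Nat.find_spec hex
  have hmin : ∀ r : ℕ, r < e → ¬ (0 < r ∧ ∃ b : Ω, b ≠ 0 ∧
      V'.valuation (f b) = V'.valuation ϖ ^ r) := fun r hr => Nat.find_min hex hr
  have hπlt : V'.valuation (f π) < 1 := by
    rw [hπ]
    exact pow_lt_one₀ zero_le h.2.1 hepos.ne'
  refine ⟨π, e, hepos, ⟨hπ0, (s26erd_val_comap_lt_one_iff f π).2 hπlt, fun a ha => ?_⟩, hπ⟩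
  have hfa0 : f a ≠ 0 := (map_ne_zero_iff f f.injective).2 ha
  obtain ⟨m, hm⟩ := h.2.2 (f a) hfa0
  refine ⟨m / (e : ℤ), ?_⟩
  rw [s26erd_val_comap_zpow_iff]
  have hepos' : (0 : ℤ) < (e : ℤ) := by exact_mod_cast hepos
  have hr0 : 0 ≤ m % (e : ℤ) := Int.emod_nonneg m hepos'.ne'
  have hrlt : m % (e : ℤ) < e := Int.emod_lt_of_pos m hepos'
  have hdecomp : m = (e : ℤ) * (m / (e : ℤ)) + m % (e : ℤ) := (Int.mul_ediv_add_emod m e).symm
  -- the element `b = a / π ^ q` has exponent `r`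
  have hb0 : a / π ^ (m / (e : ℤ)) ≠ 0 := div_ne_zero ha (zpow_ne_zero _ hπ0)
  have hvϖ0 : V'.valuation ϖ ≠ 0 := ne_of_gt h.val_pos
  have hb : V'.valuation (f (a / π ^ (m / (e : ℤ)))) = V'.valuation ϖ ^ (m % (e : ℤ)) := by
    rw [map_div₀, map_zpow₀, map_div₀, map_zpow₀, hm, hπ, ← zpow_natCast, ← zpow_mul,
      div_eq_iff (zpow_ne_zero _ hvϖ0), ← zpow_add₀ hvϖ0]
    congr 1
    rw [add_comm]
    exact hdecomp
  have hrzero : m % (e : ℤ) = 0 := by
    by_contra hr
    have hrpos : 0 < m % (e : ℤ) := lt_of_le_of_ne hr0 (Ne.symm hr)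
    obtain ⟨r, hr'⟩ := Int.eq_ofNat_of_zero_le hr0
    rw [hr'] at hb hrlt hrpos
    apply hmin r (by exact_mod_cast hrlt)
    refine ⟨by exact_mod_cast hrpos, a / π ^ (m / (e : ℤ)), hb0, ?_⟩
    rw [hb, zpow_natCast]
  rw [hπ, ← zpow_natCast, ← zpow_mul, hm]
  congr 1
  rw [hrzero, add_zero] at hdecomp
  exact hdecomp

/-- the ramification formula: exponents are multiplied by `e` -/
theorem s26erd_comap_exp {ϖ : Ω'} {π : Ω} {e : ℕ}
    (hπ : V'.valuation (f π) = V'.valuation ϖ ^ e) {a : Ω} {m : ℤ}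
    (hm : (V'.comap f).valuation a = (V'.comap f).valuation π ^ m) :
    V'.valuation (f a) = V'.valuation ϖ ^ ((e : ℤ) * m) := by
  rw [s26erd_val_comap_zpow_iff] at hm
  rw [hm, hπ, ← zpow_natCast, ← zpow_mul]

/-- if the restriction is trivial, the values on the subfield are `1` -/
theorem s26erd_val_eq_one_of_comap_eq_top (htop : V'.comap f = ⊤) {a : Ω} (ha : a ≠ 0) :
    V'.valuation (f a) = 1 :=
  s26er_val_eq_one_of_field f V' (fun b => by
    have : b ∈ V'.comap f := htop ▸ ValuationSubring.mem_top b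
    exact this) ha

end Restrict

section Finite

variable {Ω Ω' : Type*} [Field Ω] [Field Ω'] [Algebra Ω Ω'] [FiniteDimensional Ω Ω']
  {V' : ValuationSubring Ω'}

/-- **(B2)**: in a FINITE extension, a valuation subring lying over a discrete one is discrete
(no separability). -/
theorem S26erdDisc.of_finite {π : Ω} (h : S26erdDisc (V'.comap (algebraMap Ω Ω')) π) :
    ∃ ϖ : Ω', S26erdDisc V' ϖ := by
  classical
  set ι := algebraMap Ω Ω' with hι
  set N := (Module.finrank Ω Ω').factorial with hN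
  have hNpos : 0 < N := Nat.factorial_pos _
  have hιπ0 : ι π ≠ 0 := (map_ne_zero_iff ι ι.injective).2 h.1
  have hvπ0 : V'.valuation (ι π) ≠ 0 := (Valuation.ne_zero_iff _).2 hιπ0
  have hvπpos : 0 < V'.valuation (ι π) := zero_lt_iff.2 hvπ0
  have hvπlt : V'.valuation (ι π) < 1 := (s26erd_val_comap_lt_one_iff ι π).1 h.2.1
  -- Step A: `v'(y)^N` is a power of `v'(π)`
  have hA : ∀ y : Ω', y ≠ 0 → ∃ m : ℤ, V'.valuation y ^ N = V'.valuation (ι π) ^ m := by
    intro y hy
    have hint : IsIntegral Ω y := Algebra.IsIntegral.isIntegral y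
    obtain ⟨k, hk1, hk2, a, ha, hka⟩ := s26erd_exists_pow_eq V'.valuation hy hint
    have hkn : k ≤ Module.finrank Ω Ω' := le_trans hk2 (minpoly.natDegree_le y)
    obtain ⟨m₀, hm₀⟩ := h.2.2 a ha
    rw [s26erd_val_comap_zpow_iff] at hm₀
    have hdvd : k ∣ N := Nat.dvd_factorial hk1 hkn
    obtain ⟨c, hc⟩ := hdvd
    refine ⟨m₀ * c, ?_⟩
    rw [hc, pow_mul, hka, hm₀, ← zpow_natCast, ← zpow_mul]
  -- Step C: the least positive exponent
  have hex : ∃ d : ℕ, 0 < d ∧ ∃ y : Ω', y ≠ 0 ∧ V'.valuation y ^ N = V'.valuation (ι π) ^ d :=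
    ⟨N, hNpos, ι π, hιπ0, rfl⟩
  set d := Nat.find hex with hd
  obtain ⟨hdpos, ϖ, hϖ0, hϖ⟩ := Nat.find_spec hex
  have hmin : ∀ r : ℕ, r < d → ¬ (0 < r ∧ ∃ y : Ω', y ≠ 0 ∧
      V'.valuation y ^ N = V'.valuation (ι π) ^ r) := fun r hr => Nat.find_min hex hr
  have hdpos' : (0 : ℤ) < (d : ℤ) := by exact_mod_cast hdpos
  have hϖlt : V'.valuation ϖ < 1 := by
    rw [← pow_lt_one_iff_of_nonneg zero_le hNpos.ne', hϖ]
    exact pow_lt_one₀ zero_le hvπlt hdpos.ne'
  have hvϖ0 : V'.valuation ϖ ≠ 0 := (Valuation.ne_zero_iff _).2 hϖ0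
  refine ⟨ϖ, hϖ0, hϖlt, fun y hy => ?_⟩
  obtain ⟨m, hm⟩ := hA y hy
  refine ⟨m / (d : ℤ), ?_⟩
  have hr0 : 0 ≤ m % (d : ℤ) := Int.emod_nonneg m hdpos'.ne'
  have hrlt : m % (d : ℤ) < d := Int.emod_lt_of_pos m hdpos'
  have hdecomp : m = (d : ℤ) * (m / (d : ℤ)) + m % (d : ℤ) := (Int.mul_ediv_add_emod m d).symm
  have hb0 : y / ϖ ^ (m / (d : ℤ)) ≠ 0 := div_ne_zero hy (zpow_ne_zero _ hϖ0)
  have hb : V'.valuation (y / ϖ ^ (m / (d : ℤ))) ^ N = V'.valuation (ι π) ^ (m % (d : ℤ)) := by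
    rw [map_div₀, map_zpow₀, div_pow, hm, ← zpow_natCast (V'.valuation ϖ ^ (m / (d : ℤ))) N,
      ← zpow_mul, mul_comm (m / (d : ℤ)) (N : ℤ), zpow_mul, zpow_natCast, hϖ, ← zpow_natCast,
      ← zpow_mul, div_eq_iff (zpow_ne_zero _ hvπ0), ← zpow_add₀ hvπ0]
    congr 1
    rw [add_comm]
    exact hdecomp
  have hrzero : m % (d : ℤ) = 0 := by
    by_contra hr
    have hrpos : 0 < m % (d : ℤ) := lt_of_le_of_ne hr0 (Ne.symm hr)
    obtain ⟨r, hr'⟩ := Int.eq_ofNat_of_zero_le hr0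
    rw [hr'] at hb hrlt hrpos
    apply hmin r (by exact_mod_cast hrlt)
    refine ⟨by exact_mod_cast hrpos, y / ϖ ^ (m / (d : ℤ)), hb0, ?_⟩
    rw [hb, zpow_natCast]
  rw [hrzero, zpow_zero] at hb
  have h1 : V'.valuation (y / ϖ ^ (m / (d : ℤ))) = 1 :=
    (pow_eq_one_iff_of_nonneg zero_le hNpos.ne').1 hb
  rw [map_div₀, map_zpow₀, div_eq_one_iff_eq (zpow_ne_zero _ hvϖ0)] at h1
  exact h1

end Finite

end Fermat.Agent.S26

end
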