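/-
S26-E, piece E-R (relations calculus) at PLACES — helper80.

Bridge between the prelude `AlgebraicCurve.Place K Ω` (discrete valuation subrings of `Ω` over `K`,
with `Place.ord : Ω → ℤ`) and the valuation-subring calculus of `S26/ERAbs.lean`, `S26/ERDisc.lean`.

* `s26erp_val_eq_zpow_ord`, `s26erp_disc_of_irreducible`, `s26erp_exists_disc`:
  a place is discrete (`S26erdDisc`), `valuation a = valuation π ^ ord a`.
* `s26erp_ord_uniformizer`, `s26erp_val_eq_zpow_iff`, `s26erp_ord_eq_zero_iff`,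
  `s26erp_ord_eq_of_val_eq`: `ord` from the valuation.
* `s26erpOfDisc`, `s26erp_ofDisc_ord`: a discrete valuation subring over `K` is a place.
* (B1-pl) `s26erpRestrict`, `s26erp_restrict_ord` (`ord_{v'} (ι a) = e * ord_v a`, `e ≥ 1`),
  `s26erp_ord_eq_zero_of_trivial`.
* (B2-pl) finite extensions: `s26erpOfComap` (a valuation subring over a place is a place),
  `s26erp_exists_place_over`.
* (R4-pl) `s26erp_norm_ord_eq_zero`, `s26erp_norm_ord`.
-/
import Fermat.Prelude.Def_AlgebraicCurve_DivisorClassGroup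
import Fermat.Agent.S26.ERDisc

set_option autoImplicit false
set_option linter.style.haveILetI false
set_option linter.unusedSectionVars false

noncomputable section

open AlgebraicCurve

namespace Fermat.Agent.S26

section Bridge

variable {K Ω : Type*} [Field K] [Field Ω] [Algebra K Ω]

/-- at a place, `valuation a = valuation π ^ ord a` for an irreducible `π` -/
theorem s26erp_val_eq_zpow_ord (v : Place K Ω) {π : v.toValuationSubring} (hπ : Irreducible π)
    {a : Ω} (ha : a ≠ 0) :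
    v.toValuationSubring.valuation a = v.toValuationSubring.valuation (π : Ω) ^ (v.ord a) := by
  obtain ⟨u, hu⟩ := v.exists_unit_mul_zpow ha hπ
  conv_lhs => rw [hu]
  rw [map_mul, map_zpow₀, ValuationSubring.valuation_unit, one_mul]

/-- a place is discrete, any irreducible element is a uniformizer -/
theorem s26erp_disc_of_irreducible (v : Place K Ω) {π : v.toValuationSubring}
    (hπ : Irreducible π) : S26erdDisc v.toValuationSubring (π : Ω) := by
  refine ⟨?_, ?_, fun a ha => ⟨v.ord a, s26erp_val_eq_zpow_ord v hπ ha⟩⟩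
  · intro h
    exact hπ.ne_zero (Subtype.ext h)
  · rw [← ValuationSubring.valuation_lt_one_iff, IsLocalRing.mem_maximalIdeal]
    exact hπ.not_isUnit

theorem s26erp_exists_disc (v : Place K Ω) :
    ∃ π : Ω, S26erdDisc v.toValuationSubring π ∧ v.ord π = 1 := by
  obtain ⟨π, hπ⟩ := IsDiscreteValuationRing.exists_irreducible v.toValuationSubring
  exact ⟨π, s26erp_disc_of_irreducible v hπ, v.ord_coe_irreducible hπ⟩

/-- any uniformizer (in the sense of `S26erdDisc`) has `ord = 1` -/
theorem s26erp_ord_uniformizer (v : Place K Ω) {π : Ω} (hπ : S26erdDisc v.toValuationSubring π) :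
    v.ord π = 1 := by
  obtain ⟨ϖ, hϖ⟩ := IsDiscreteValuationRing.exists_irreducible v.toValuationSubring
  have hd := s26erp_disc_of_irreducible v hϖ
  have h1 := s26erp_val_eq_zpow_ord v hϖ hπ.1
  obtain ⟨k, hk⟩ := hπ.2.2 (ϖ : Ω) hd.1
  have h2 : v.toValuationSubring.valuation (ϖ : Ω) ^ (1 : ℤ) =
      v.toValuationSubring.valuation (ϖ : Ω) ^ (v.ord π * k) := by
    rw [zpow_mul, ← h1, ← hk, zpow_one]
  have h3 : (1 : ℤ) = v.ord π * k := hd.exp_unique h2
  have h4 : 0 < v.ord π := (hd.exp_pos_iff h1).1 hπ.2.1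
  have h5 : 0 < k := by
    by_contra hk0
    have : v.ord π * k ≤ 0 := mul_nonpos_of_nonneg_of_nonpos h4.le (not_lt.1 hk0)
    omega
  have h6 : v.ord π ≤ v.ord π * k := le_mul_of_one_le_right h4.le h5
  omega

/-- `ord` is the exponent with respect to any uniformizer -/
theorem s26erp_val_eq_zpow (v : Place K Ω) {π : Ω} (hπ : S26erdDisc v.toValuationSubring π)
    {a : Ω} (ha : a ≠ 0) :
    v.toValuationSubring.valuation a = v.toValuationSubring.valuation π ^ (v.ord a) := by
  obtain ⟨m, hm⟩ := hπ.2.2 a ha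
  obtain ⟨ϖ, hϖ⟩ := IsDiscreteValuationRing.exists_irreducible v.toValuationSubring
  have hd := s26erp_disc_of_irreducible v hϖ
  have h1 := s26erp_val_eq_zpow_ord v hϖ hπ.1
  rw [s26erp_ord_uniformizer v hπ, zpow_one] at h1
  rw [h1]
  exact s26erp_val_eq_zpow_ord v hϖ ha

theorem s26erp_val_eq_zpow_iff (v : Place K Ω) {π : Ω} (hπ : S26erdDisc v.toValuationSubring π)
    {a : Ω} (ha : a ≠ 0) (m : ℤ) :
    v.toValuationSubring.valuation a = v.toValuationSubring.valuation π ^ m ↔ v.ord a = m := by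
  rw [s26erp_val_eq_zpow v hπ ha]
  exact ⟨fun h => hπ.exp_unique h, fun h => by rw [h]⟩

theorem s26erp_ord_eq_zero_iff (v : Place K Ω) {a : Ω} (ha : a ≠ 0) :
    v.ord a = 0 ↔ v.toValuationSubring.valuation a = 1 := by
  obtain ⟨π, hπ, -⟩ := s26erp_exists_disc v
  rw [← s26erp_val_eq_zpow_iff v hπ ha 0, zpow_zero]

/-- `ord` only depends on the value -/
theorem s26erp_ord_eq_of_val_eq (v : Place K Ω) {a b : Ω} (ha : a ≠ 0) (hb : b ≠ 0)
    (h : v.toValuationSubring.valuation a = v.toValuationSubring.valuation b) :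
    v.ord a = v.ord b := by
  obtain ⟨π, hπ, -⟩ := s26erp_exists_disc v
  rw [← s26erp_val_eq_zpow_iff v hπ ha, h]
  exact s26erp_val_eq_zpow v hπ hb

theorem s26erp_val_eq_iff_ord_eq (v : Place K Ω) {a b : Ω} (ha : a ≠ 0) (hb : b ≠ 0) :
    v.toValuationSubring.valuation a = v.toValuationSubring.valuation b ↔ v.ord a = v.ord b := by
  refine ⟨s26erp_ord_eq_of_val_eq v ha hb, fun h => ?_⟩
  obtain ⟨π, hπ, -⟩ := s26erp_exists_disc v
  rw [s26erp_val_eq_zpow v hπ ha, s26erp_val_eq_zpow v hπ hb, h]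

theorem s26erp_val_le_iff_ord_le (v : Place K Ω) {a b : Ω} (ha : a ≠ 0) (hb : b ≠ 0) :
    v.toValuationSubring.valuation a ≤ v.toValuationSubring.valuation b ↔ v.ord b ≤ v.ord a := by
  obtain ⟨π, hπ, -⟩ := s26erp_exists_disc v
  rw [s26erp_val_eq_zpow v hπ ha, s26erp_val_eq_zpow v hπ hb]
  exact zpow_le_zpow_iff_right_of_lt_one₀ hπ.val_pos hπ.2.1

/-- a discrete valuation subring over `K` is a place -/
def s26erpOfDisc (W : ValuationSubring Ω) (hK : ∀ a : K, algebraMap K Ω a ∈ W) {π : Ω}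
    (h : S26erdDisc W π) : Place K Ω where
  toValuationSubring := W
  algebraMap_mem' := hK
  ne_top' := h.ne_top
  isPrincipalIdealRing' :=
    haveI := h.isDVR
    inferInstance

@[simp]
theorem s26erpOfDisc_toValuationSubring (W : ValuationSubring Ω)
    (hK : ∀ a : K, algebraMap K Ω a ∈ W) {π : Ω} (h : S26erdDisc W π) :
    (s26erpOfDisc W hK h).toValuationSubring = W := rfl

theorem s26erp_ofDisc_ord (W : ValuationSubring Ω) (hK : ∀ a : K, algebraMap K Ω a ∈ W) {π : Ω}
    (h : S26erdDisc W π) {a : Ω} (ha : a ≠ 0) (m : ℤ) :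
    (s26erpOfDisc W hK h).ord a = m ↔ W.valuation a = W.valuation π ^ m :=
  (s26erp_val_eq_zpow_iff (s26erpOfDisc W hK h) (π := π) h ha m).symm

end Bridge

section Restrict

variable {K Ω Ω' : Type*} [Field K] [Field Ω] [Field Ω'] [Algebra K Ω] [Algebra K Ω']
  [Algebra Ω Ω'] [IsScalarTower K Ω Ω']

theorem s26erp_over (v' : Place K Ω') : S26erOver K v'.toValuationSubring := v'.algebraMap_mem'

/-- the restriction of a place to a subfield is discrete if it is not trivial -/
theorem s26erp_restrict_disc (v' : Place K Ω')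
    (hne : v'.toValuationSubring.comap (algebraMap Ω Ω') ≠ ⊤) :
    ∃ π : Ω, S26erdDisc (v'.toValuationSubring.comap (algebraMap Ω Ω')) π := by
  obtain ⟨ϖ, hϖ, -⟩ := s26erp_exists_disc v'
  obtain ⟨π, e, -, hπ, -⟩ := hϖ.comap hne
  exact ⟨π, hπ⟩

/-- **(B1-pl)**: the restriction of a place of `Ω'` to `Ω`, when it is not trivial -/
def s26erpRestrict (v' : Place K Ω')
    (hne : v'.toValuationSubring.comap (algebraMap Ω Ω') ≠ ⊤) : Place K Ω :=
  s26erpOfDisc (v'.toValuationSubring.comap (algebraMap Ω Ω')) (s26erp_over v').comap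
    (s26erp_restrict_disc v' hne).choose_spec

@[simp]
theorem s26erpRestrict_toValuationSubring (v' : Place K Ω')
    (hne : v'.toValuationSubring.comap (algebraMap Ω Ω') ≠ ⊤) :
    (s26erpRestrict (Ω := Ω) v' hne).toValuationSubring =
      v'.toValuationSubring.comap (algebraMap Ω Ω') := rfl

/-- **(B1-pl)**, ramification index: `ord_{v'} (ι a) = e * ord_v a` with `e ≥ 1` -/
theorem s26erp_ord_of_comap_eq (v' : Place K Ω') (v : Place K Ω)
    (hv : v'.toValuationSubring.comap (algebraMap Ω Ω') = v.toValuationSubring) :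
    ∃ e : ℕ, 0 < e ∧ ∀ a : Ω, v'.ord (algebraMap Ω Ω' a) = (e : ℤ) * v.ord a := by
  obtain ⟨ϖ, hϖ, -⟩ := s26erp_exists_disc v'
  have hne : v'.toValuationSubring.comap (algebraMap Ω Ω') ≠ ⊤ := hv ▸ v.ne_top'
  obtain ⟨π, e, he, hπ, hπe⟩ := hϖ.comap hne
  refine ⟨e, he, fun a => ?_⟩
  rcases eq_or_ne a 0 with rfl | ha
  · simp
  have ha' : algebraMap Ω Ω' a ≠ 0 := (map_ne_zero_iff _ (algebraMap Ω Ω').injective).2 ha
  have hπv : S26erdDisc v.toValuationSubring π := hv ▸ hπ
  have h1 := s26erp_val_eq_zpow v hπv ha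
  have h2 : (v'.toValuationSubring.comap (algebraMap Ω Ω')).valuation a =
      (v'.toValuationSubring.comap (algebraMap Ω Ω')).valuation π ^ (v.ord a) := by
    rw [hv]; exact h1
  have h3 := s26erd_comap_exp hπe h2
  exact (s26erp_val_eq_zpow_iff v' hϖ ha' _).1 h3

theorem s26erp_restrict_ord (v' : Place K Ω')
    (hne : v'.toValuationSubring.comap (algebraMap Ω Ω') ≠ ⊤) :
    ∃ e : ℕ, 0 < e ∧ ∀ a : Ω,
      v'.ord (algebraMap Ω Ω' a) = (e : ℤ) * (s26erpRestrict (Ω := Ω) v' hne).ord a :=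
  s26erp_ord_of_comap_eq v' _ rfl

/-- **(B1-pl)**, trivial case -/
theorem s26erp_ord_eq_zero_of_trivial (v' : Place K Ω')
    (htop : v'.toValuationSubring.comap (algebraMap Ω Ω') = ⊤) (a : Ω) :
    v'.ord (algebraMap Ω Ω' a) = 0 := by
  rcases eq_or_ne a 0 with rfl | ha
  · simp
  have ha' : algebraMap Ω Ω' a ≠ 0 := (map_ne_zero_iff _ (algebraMap Ω Ω').injective).2 ha
  rw [s26erp_ord_eq_zero_iff v' ha']
  exact s26erd_val_eq_one_of_comap_eq_top htop ha

/-- a place of `Ω'` containing `Ω` is a place of `Ω'/Ω` -/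
def s26erpOver (v' : Place K Ω') (h : ∀ a : Ω, algebraMap Ω Ω' a ∈ v'.toValuationSubring) :
    Place Ω Ω' where
  toValuationSubring := v'.toValuationSubring
  algebraMap_mem' := h
  ne_top' := v'.ne_top'
  isPrincipalIdealRing' := v'.isPrincipalIdealRing'

/-- a place of `Ω'/Ω` is a place of `Ω'/K` -/
def s26erpUnder (w : Place Ω Ω') : Place K Ω' where
  toValuationSubring := w.toValuationSubring
  algebraMap_mem' := fun a => by
    rw [IsScalarTower.algebraMap_apply K Ω Ω']
    exact w.algebraMap_mem' _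
  ne_top' := w.ne_top'
  isPrincipalIdealRing' := w.isPrincipalIdealRing'

theorem s26erpUnder_ord (w : Place Ω Ω') (x : Ω') : (s26erpUnder (K := K) w).ord x = w.ord x :=
  rfl

theorem s26erpUnder_comap (w : Place Ω Ω') :
    (s26erpUnder (K := K) w).toValuationSubring.comap (algebraMap Ω Ω') = ⊤ := by
  ext a
  simp only [ValuationSubring.mem_comap, ValuationSubring.mem_top, iff_true]
  exact w.algebraMap_mem' a

end Restrict

section Finite

variable {K Ω Ω' : Type*} [Field K] [Field Ω] [Field Ω'] [Algebra K Ω] [Algebra K Ω']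
  [Algebra Ω Ω'] [IsScalarTower K Ω Ω'] [FiniteDimensional Ω Ω']

theorem s26erp_disc_of_comap (V' : ValuationSubring Ω') (v : Place K Ω)
    (h : V'.comap (algebraMap Ω Ω') = v.toValuationSubring) : ∃ ϖ : Ω', S26erdDisc V' ϖ := by
  obtain ⟨π, hπ, -⟩ := s26erp_exists_disc v
  exact S26erdDisc.of_finite (V' := V') (π := π) (h ▸ hπ)

/-- **(B2-pl)**: in a finite extension, a valuation subring lying over a place is a place -/
def s26erpOfComap (V' : ValuationSubring Ω') (v : Place K Ω)
    (h : V'.comap (algebraMap Ω Ω') = v.toValuationSubring) : Place K Ω' :=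
  s26erpOfDisc V' (S26erOver.of_comap (Ω := Ω) (h ▸ v.algebraMap_mem'))
    (s26erp_disc_of_comap V' v h).choose_spec

@[simp]
theorem s26erpOfComap_toValuationSubring (V' : ValuationSubring Ω') (v : Place K Ω)
    (h : V'.comap (algebraMap Ω Ω') = v.toValuationSubring) :
    (s26erpOfComap V' v h).toValuationSubring = V' := rfl

/-- **(B2-pl)**: places over a place exist -/
theorem s26erp_exists_place_over (v : Place K Ω) :
    ∃ v' : Place K Ω', v'.toValuationSubring.comap (algebraMap Ω Ω') = v.toValuationSubring := by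
  obtain ⟨V', hV'⟩ := s26er_exists_comap_eq (Ω' := Ω') v.toValuationSubring
  exact ⟨s26erpOfComap V' v hV', hV'⟩

/-- **(R4-pl)**, core: a function which is a unit at all places over `v` has a norm which is a
unit at `v` -/
theorem s26erp_norm_ord_eq_zero (v : Place K Ω) {x : Ω'} (hx : x ≠ 0)
    (h : ∀ v' : Place K Ω',
      v'.toValuationSubring.comap (algebraMap Ω Ω') = v.toValuationSubring → v'.ord x = 0) :
    v.ord (Algebra.norm Ω x) = 0 := by
  have hN : Algebra.norm Ω x ≠ 0 := Algebra.norm_ne_zero_iff.2 hx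
  rw [s26erp_ord_eq_zero_iff v hN]
  apply s26er_norm_val_eq_one
  intro V' hV'
  have := h (s26erpOfComap V' v hV') hV'
  rwa [s26erp_ord_eq_zero_iff _ hx] at this

/-- **(R4-pl)**: if `ord_{v'} x = e(v'|v) * m` at all places `v'` over `v` (in the form
`ord_{v'} x = ord_{v'} (ι g)`, `ord_v g = m`), then `ord_v N(x) = [Ω':Ω] * m`. -/
theorem s26erp_norm_ord (v : Place K Ω) {x : Ω'} (hx : x ≠ 0) {g : Ω} (hg : g ≠ 0)
    (h : ∀ v' : Place K Ω',
      v'.toValuationSubring.comap (algebraMap Ω Ω') = v.toValuationSubring →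
        v'.ord x = v'.ord (algebraMap Ω Ω' g)) :
    v.ord (Algebra.norm Ω x) = (Module.finrank Ω Ω' : ℤ) * v.ord g := by
  have hg' : algebraMap Ω Ω' g ≠ 0 := (map_ne_zero_iff _ (algebraMap Ω Ω').injective).2 hg
  have hxg : x / algebraMap Ω Ω' g ≠ 0 := div_ne_zero hx hg'
  have key : v.ord (Algebra.norm Ω (x / algebraMap Ω Ω' g)) = 0 := by
    apply s26erp_norm_ord_eq_zero v hxg
    intro v' hv'
    rw [div_eq_mul_inv, v'.ord_mul hx (inv_ne_zero hg'), v'.ord_inv, h v' hv']
    ring
  have hN : Algebra.norm Ω x ≠ 0 := Algebra.norm_ne_zero_iff.2 hx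
  have hNg : Algebra.norm Ω (algebraMap Ω Ω' g) ≠ 0 := Algebra.norm_ne_zero_iff.2 hg'
  have hmul : Algebra.norm Ω x =
      Algebra.norm Ω (x / algebraMap Ω Ω' g) * Algebra.norm Ω (algebraMap Ω Ω' g) := by
    rw [← map_mul, div_mul_cancel₀ _ hg']
  rw [hmul, v.ord_mul (Algebra.norm_ne_zero_iff.2 hxg) hNg, key, zero_add,
    Algebra.norm_algebraMap, ← zpow_natCast, v.ord_zpow]

end Finite

end Fermat.Agent.S26

end
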