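/-
S26-E (helper80): COMPLETENESS of the places of a function field of one variable
(`hcomp` of `s26erig_main`).

`Γ/K` a field extension such that `Γ` is finite over `K(t)` for every `t ∈ Γ` transcendental over
`K`.  Then every valuation subring `W ⊇ K`, `W ≠ ⊤`, of `Γ` is (the valuation subring of) a
`Place K Γ`.

* `s26ercomp_aeval_mem`, `s26ercomp_val_aeval`, `s26ercomp_val_adjoin`: for `t ∈ 𝔪_W`, `t ≠ 0`,
  the values of `K(t)ˣ` are the powers of the value of `t`;
* `s26ercomp_disc_comap`: `W ∩ K(t)` is discrete with uniformizer `t`;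
* `s26ercomp_transcendental`: a nonzero non-unit of `W ⊇ K` is transcendental over `K`;
* `s26ercomp_exists_disc`, `s26ercomp_exists_place`: the theorem.
-/
import Fermat.Agent.S26.ERPl

set_option autoImplicit false
set_option linter.style.haveILetI false
set_option linter.unusedSectionVars false

noncomputable section

open AlgebraicCurve Polynomial IntermediateField

namespace Fermat.Agent.S26

section Comp

variable {K Γ : Type*} [Field K] [Field Γ] [Algebra K Γ]

/-- polynomials in an element of `W` with coefficients in `K ⊆ W` are in `W` -/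
theorem s26ercomp_aeval_mem (W : ValuationSubring Γ) (hK : ∀ a : K, algebraMap K Γ a ∈ W)
    {t : Γ} (ht : t ∈ W) (p : K[X]) : aeval t p ∈ W := by
  induction p using Polynomial.induction_on' with
  | add p q hp hq => rw [map_add]; exact W.add_mem _ _ hp hq
  | monomial n a =>
    rw [aeval_monomial]
    exact W.mul_mem _ _ (hK a) (pow_mem ht n)

/-- the value of a nonzero constant is `1` -/
theorem s26ercomp_val_const (W : ValuationSubring Γ) (hK : ∀ a : K, algebraMap K Γ a ∈ W)
    {a : K} (ha : a ≠ 0) : W.valuation (algebraMap K Γ a) = 1 :=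
  s26er_val_eq_one_of_field (algebraMap K Γ) W hK ha

/-- a polynomial with nonzero constant term has value `1` at `t ∈ 𝔪_W` -/
theorem s26ercomp_val_aeval_one (W : ValuationSubring Γ) (hK : ∀ a : K, algebraMap K Γ a ∈ W)
    {t : Γ} (ht : W.valuation t < 1) {q : K[X]} (hq : q.coeff 0 ≠ 0) :
    W.valuation (aeval t q) = 1 := by
  have htW : t ∈ W := (ValuationSubring.valuation_le_one_iff W t).1 ht.le
  have hdec : aeval t q = aeval t q.divX * t + algebraMap K Γ (q.coeff 0) := by
    conv_lhs => rw [← Polynomial.divX_mul_X_add q]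
    rw [map_add, map_mul, aeval_X, aeval_C]
  have h1 : W.valuation (aeval t q.divX * t) < 1 := by
    rw [map_mul]
    have h2 : W.valuation (aeval t q.divX) ≤ 1 :=
      (ValuationSubring.valuation_le_one_iff W _).2 (s26ercomp_aeval_mem W hK htW _)
    calc W.valuation (aeval t q.divX) * W.valuation t
        ≤ 1 * W.valuation t := mul_le_mul_left h2 _
      _ = W.valuation t := one_mul _
      _ < 1 := ht
  have h3 := s26ercomp_val_const W hK hq
  rw [hdec, add_comm]
  rw [Valuation.map_add_eq_of_lt_left _ (by rw [h3]; exact h1), h3]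

/-- the value of a nonzero polynomial in `t ∈ 𝔪_W` is a power of the value of `t` -/
theorem s26ercomp_val_aeval (W : ValuationSubring Γ) (hK : ∀ a : K, algebraMap K Γ a ∈ W)
    {t : Γ} (ht : W.valuation t < 1) {p : K[X]} (hp : p ≠ 0) :
    ∃ m : ℕ, W.valuation (aeval t p) = W.valuation t ^ m := by
  obtain ⟨q, hpq, hq⟩ := Polynomial.exists_eq_pow_rootMultiplicity_mul_and_not_dvd p hp 0
  refine ⟨p.rootMultiplicity 0, ?_⟩
  have hq0 : q.coeff 0 ≠ 0 := by
    intro h
    apply hq
    rw [C_0, sub_zero]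
    exact Polynomial.X_dvd_iff.2 h
  conv_lhs => rw [hpq]
  rw [map_mul, map_pow, map_sub, aeval_X, aeval_C, map_zero, sub_zero, map_mul, map_pow,
    s26ercomp_val_aeval_one W hK ht hq0, mul_one]

/-- the values of `K(t)ˣ` are the powers of the value of `t` -/
theorem s26ercomp_val_adjoin (W : ValuationSubring Γ) (hK : ∀ a : K, algebraMap K Γ a ∈ W)
    {t : Γ} (ht0 : t ≠ 0) (ht : W.valuation t < 1) {x : Γ} (hx : x ∈ K⟮t⟯) (hx0 : x ≠ 0) :
    ∃ m : ℤ, W.valuation x = W.valuation t ^ m := by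
  obtain ⟨r, s, rfl⟩ := (IntermediateField.mem_adjoin_simple_iff K x).1 hx
  have hr : r ≠ 0 := by
    rintro rfl
    apply hx0
    rw [map_zero, zero_div]
  have hs : s ≠ 0 := by
    rintro rfl
    apply hx0
    rw [map_zero, div_zero]
  obtain ⟨m, hm⟩ := s26ercomp_val_aeval W hK ht hr
  obtain ⟨n, hn⟩ := s26ercomp_val_aeval W hK ht hs
  refine ⟨(m : ℤ) - n, ?_⟩
  have hv0 : W.valuation t ≠ 0 := (Valuation.ne_zero_iff _).2 ht0
  rw [map_div₀, hm, hn, zpow_sub₀ hv0, zpow_natCast, zpow_natCast]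

/-- `W ∩ K(t)` is discrete with uniformizer `t` -/
theorem s26ercomp_disc_comap (W : ValuationSubring Γ) (hK : ∀ a : K, algebraMap K Γ a ∈ W)
    {t : Γ} (ht0 : t ≠ 0) (ht : W.valuation t < 1) :
    S26erdDisc (W.comap (algebraMap K⟮t⟯ Γ)) (IntermediateField.AdjoinSimple.gen K t) := by
  have hgen : algebraMap K⟮t⟯ Γ (IntermediateField.AdjoinSimple.gen K t) = t :=
    IntermediateField.AdjoinSimple.algebraMap_gen K t
  refine ⟨?_, ?_, fun a ha => ?_⟩
  · intro h
    apply ht0
    rw [← hgen, h, map_zero]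
  · rw [s26erd_val_comap_lt_one_iff, hgen]
    exact ht
  · have ha' : algebraMap K⟮t⟯ Γ a ≠ 0 :=
      (map_ne_zero_iff _ (algebraMap K⟮t⟯ Γ).injective).2 ha
    obtain ⟨m, hm⟩ := s26ercomp_val_adjoin W hK ht0 ht (x := algebraMap K⟮t⟯ Γ a) a.2 ha'
    refine ⟨m, ?_⟩
    rw [s26erd_val_comap_zpow_iff, hgen]
    exact hm

/-- an element of `Γ` integral over `K` lies in every valuation subring over `K` -/
theorem s26ercomp_mem_of_isIntegral (W : ValuationSubring Γ)
    (hK : ∀ a : K, algebraMap K Γ a ∈ W) {x : Γ} (hx : IsIntegral K x) : x ∈ W := by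
  apply s26er_mem_of_isIntegralElem W
  obtain ⟨p, hp, hpx⟩ := hx
  refine ⟨p.map ((algebraMap K Γ).codRestrict W.toSubring hK), hp.map _, ?_⟩
  rw [Polynomial.eval₂_map]
  exact hpx

/-- a nonzero non-unit of `W ⊇ K` is transcendental over `K` -/
theorem s26ercomp_transcendental (W : ValuationSubring Γ) (hK : ∀ a : K, algebraMap K Γ a ∈ W)
    {t : Γ} (ht0 : t ≠ 0) (ht : W.valuation t < 1) : Transcendental K t := by
  intro halg
  have hinv : IsIntegral K t⁻¹ := (halg.inv).isIntegral
  have hmem := s26ercomp_mem_of_isIntegral W hK hinv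
  have h1 := (ValuationSubring.valuation_le_one_iff W _).2 hmem
  rw [map_inv₀] at h1
  have hv0 : 0 < W.valuation t := zero_lt_iff.2 ((Valuation.ne_zero_iff _).2 ht0)
  have h2 := (inv_le_one₀ hv0).1 h1
  exact absurd ht (not_lt.2 h2)

/-- a valuation subring `≠ ⊤` has a nonzero non-unit -/
theorem s26ercomp_exists_nonunit (W : ValuationSubring Γ) (hne : W ≠ ⊤) :
    ∃ t : Γ, t ≠ 0 ∧ W.valuation t < 1 := by
  have h1 : ∃ x : Γ, x ∉ W := by
    by_contra hcon
    apply hne
    ext a
    simp only [ValuationSubring.mem_top, iff_true]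
    by_contra ha
    exact hcon ⟨a, ha⟩
  obtain ⟨x, hx⟩ := h1
  have hx0 : x ≠ 0 := fun h => hx (h ▸ W.zero_mem)
  refine ⟨x⁻¹, inv_ne_zero hx0, ?_⟩
  have h2 : ¬ W.valuation x ≤ 1 := fun h => hx ((ValuationSubring.valuation_le_one_iff W x).1 h)
  rw [map_inv₀]
  exact inv_lt_one_of_one_lt₀ (not_le.1 h2)

/-- **completeness**, discrete form -/
theorem s26ercomp_exists_disc
    (hfin : ∀ t : Γ, Transcendental K t → FiniteDimensional K⟮t⟯ Γ)
    (W : ValuationSubring Γ) (hK : ∀ a : K, algebraMap K Γ a ∈ W) (hne : W ≠ ⊤) :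
    ∃ ϖ : Γ, S26erdDisc W ϖ := by
  obtain ⟨t, ht0, ht⟩ := s26ercomp_exists_nonunit W hne
  haveI := hfin t (s26ercomp_transcendental W hK ht0 ht)
  exact S26erdDisc.of_finite (Ω := K⟮t⟯) (V' := W) (s26ercomp_disc_comap W hK ht0 ht)

/-- **completeness** (`hcomp`): every valuation subring `≠ ⊤` over `K` of a function field of one
variable is a place -/
theorem s26ercomp_exists_place
    (hfin : ∀ t : Γ, Transcendental K t → FiniteDimensional K⟮t⟯ Γ)
    (W : ValuationSubring Γ) (hK : ∀ a : K, algebraMap K Γ a ∈ W) (hne : W ≠ ⊤) :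
    ∃ Q : Place K Γ, Q.toValuationSubring = W := by
  obtain ⟨ϖ, hϖ⟩ := s26ercomp_exists_disc hfin W hK hne
  exact ⟨s26erpOfDisc W hK hϖ, rfl⟩

end Comp

end Fermat.Agent.S26

end
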