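/-
S26-E, piece E-CRV, sub-leaves (E) + (FIN) (helper87, for helper32's chain).  Mathlib only.

## (E) the coordinate curves are function fields of one variable
* `s26ecrvf_transcendental` : a nonzero element of the maximal ideal of a local domain over `K`
  is transcendental over `K`;
* `s26ecrvf_unramified`     : `D` local, essentially of finite type over `K`, residue field `K`,
  `𝔪_D = (t)` ⇒ `D` is formally unramified over `K[t]` (Kähler differentials + Nakayama);
* `s26ecrvf_curve`          : then `t` is transcendental and `𝔠 = Frac D` is FINITE and SEPARABLE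
  over `K(t) = IntermediateField.adjoin K {t}`;
* `s26ecrvf_curve_algebraic`: `𝔠` is algebraic over `K[t] = Algebra.adjoin K {t}`.

## (FIN) finiteness over a generic point
* `s26ecrvf_trdeg_le`       : algebraic over `K[s_1..s_d]` ⇒ `trdeg ≤ d`;
* `s26ecrvf_finite_of_trdeg`, `s26ecrvf_finite` : **(F2)**;
* `s26ecrvfInl`, `s26ecrvfInr` : the embeddings of `Γ`, `W` into `W' = Frac (Γ ⊗_K W)`;
* `s26ecrvf_tensor_algebraic`, `s26ecrvf_tensor_algebraic_fin`, `s26ecrvf_tensor_essFiniteType` :
  **(F1)**.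
-/
import Mathlib

set_option autoImplicit false
set_option linter.style.haveILetI false
set_option linter.unusedSectionVars false

namespace Fermat.Agent.S26

open Polynomial IsLocalRing
open scoped TensorProduct

universe u

section Curve

variable {K D : Type u} [Field K] [CommRing D] [IsDomain D] [IsLocalRing D] [Algebra K D]

/-- a nonzero element of the maximal ideal of a local domain over `K` is transcendental. -/
theorem s26ecrvf_transcendental (t : D) (ht : t ∈ maximalIdeal D) (ht0 : t ≠ 0) :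
    Transcendental K t := by
  intro halg
  obtain ⟨p, hp0, hp⟩ := halg
  -- induction on the degree
  induction' hn : p.natDegree using Nat.strong_induction_on with n ih generalizing p
  have hdiv : p.divX * X + C (p.coeff 0) = p := Polynomial.divX_mul_X_add p
  have hev : aeval t p.divX * t + algebraMap K D (p.coeff 0) = 0 := by
    have := congrArg (aeval t) hdiv
    rw [hp] at this
    simpa using this
  have hc : p.coeff 0 = 0 := by
    by_contra hc
    have hmem : algebraMap K D (p.coeff 0) ∈ maximalIdeal D := by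
      have : algebraMap K D (p.coeff 0) = -(aeval t p.divX * t) := by
        linear_combination hev
      rw [this]
      exact neg_mem (Ideal.mul_mem_left _ _ ht)
    have hunit : IsUnit (algebraMap K D (p.coeff 0)) := (IsUnit.mk0 _ hc).map _
    exact (IsLocalRing.mem_maximalIdeal _).mp hmem hunit
  rw [hc, map_zero, add_zero] at hev
  have hq : aeval t p.divX = 0 := by
    rcases mul_eq_zero.mp hev with h | h
    · exact h
    · exact absurd h ht0
  have hq0 : p.divX ≠ 0 := by
    intro h
    rw [h, zero_mul, hc, map_zero, add_zero] at hdiv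
    exact hp0 hdiv.symm
  have hdeg : p.divX.natDegree < n := by
    rw [← hn, Polynomial.natDegree_divX_eq_natDegree_tsub_one]
    have hpos : 0 < p.natDegree := by
      by_contra h0
      have h0' : p.natDegree = 0 := by omega
      have : p = C (p.coeff 0) := Polynomial.eq_C_of_natDegree_eq_zero h0'
      rw [hc, map_zero] at this
      exact hp0 this
    omega
  exact ih _ hdeg p.divX hq0 hq rfl

/-- `D` is formally unramified over `K[t]` if `𝔪_D = (t)` and the residue field is `K`. -/
theorem s26ecrvf_unramified [Algebra.EssFiniteType K D]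
    (hres : ∀ r : D, ∃ c : K, r - algebraMap K D c ∈ maximalIdeal D)
    (t : D) (ht : maximalIdeal D = Ideal.span {t}) :
    Algebra.FormallyUnramified (Algebra.adjoin K {t}) D := by
  haveI : Algebra.EssFiniteType (Algebra.adjoin K {t}) D :=
    Algebra.EssFiniteType.of_comp K (Algebra.adjoin K {t}) D
  constructor
  -- Nakayama
  have htop : (⊤ : Submodule D (Ω[D⁄(Algebra.adjoin K {t})])) ≤
      maximalIdeal D • (⊤ : Submodule D (Ω[D⁄(Algebra.adjoin K {t})])) := by
    rw [← KaehlerDifferential.span_range_derivation, Submodule.span_le]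
    rintro _ ⟨d, rfl⟩
    obtain ⟨c, hc⟩ := hres d
    rw [ht, Ideal.mem_span_singleton] at hc
    obtain ⟨e, he⟩ := hc
    have hd : d = algebraMap K D c + t * e := by rw [← he]; ring
    have h1 : KaehlerDifferential.D (Algebra.adjoin K {t}) D (algebraMap K D c) = 0 := by
      have : algebraMap K D c = algebraMap (Algebra.adjoin K {t}) D (algebraMap K _ c) := rfl
      rw [this]
      exact Derivation.map_algebraMap _ _
    have h2 : KaehlerDifferential.D (Algebra.adjoin K {t}) D t = 0 := by
      have : t = algebraMap (Algebra.adjoin K {t}) D ⟨t, Algebra.subset_adjoin rfl⟩ := rfl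
      rw [this]
      exact Derivation.map_algebraMap _ _
    have h3 : KaehlerDifferential.D (Algebra.adjoin K {t}) D d =
        t • KaehlerDifferential.D (Algebra.adjoin K {t}) D e := by
      rw [hd, map_add, h1, zero_add, Derivation.leibniz, h2, smul_zero, add_zero]
    rw [SetLike.mem_coe, h3]
    refine Submodule.smul_mem_smul ?_ (Submodule.subset_span ⟨e, rfl⟩)
    rw [ht]
    exact Ideal.mem_span_singleton_self t
  have hfg : (⊤ : Submodule D (Ω[D⁄(Algebra.adjoin K {t})])).FG := Module.Finite.fg_top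
  have hbot := Submodule.eq_bot_of_le_smul_of_le_jacobson_bot (maximalIdeal D) ⊤ hfg htop
    (IsLocalRing.maximalIdeal_le_jacobson _)
  refine ⟨fun a b => ?_⟩
  have ha : a ∈ (⊤ : Submodule D (Ω[D⁄(Algebra.adjoin K {t})])) := trivial
  have hb : b ∈ (⊤ : Submodule D (Ω[D⁄(Algebra.adjoin K {t})])) := trivial
  rw [hbot, Submodule.mem_bot] at ha hb
  rw [ha, hb]

/-- **(E)** the coordinate curve: `D` a local domain, essentially of finite type over `K`, with
residue field `K` and `𝔪_D = (t)`, `t ≠ 0`.  Then `t` is transcendental over `K` and the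
fraction field `𝔠` of `D` is finite and separable over `K(t)`. -/
theorem s26ecrvf_curve [Algebra.EssFiniteType K D]
    (hres : ∀ r : D, ∃ c : K, r - algebraMap K D c ∈ maximalIdeal D)
    (t : D) (ht : maximalIdeal D = Ideal.span {t}) (ht0 : t ≠ 0)
    (𝔠 : Type u) [Field 𝔠] [Algebra D 𝔠] [IsFractionRing D 𝔠] [Algebra K 𝔠]
    [IsScalarTower K D 𝔠] :
    Transcendental K t ∧ Transcendental K (algebraMap D 𝔠 t) ∧
    Module.Finite (IntermediateField.adjoin K {algebraMap D 𝔠 t}) 𝔠 ∧
    Algebra.IsSeparable (IntermediateField.adjoin K {algebraMap D 𝔠 t}) 𝔠 := by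
  have htm : t ∈ maximalIdeal D := by rw [ht]; exact Ideal.mem_span_singleton_self t
  have htr : Transcendental K t := s26ecrvf_transcendental t htm ht0
  have hinj : Function.Injective (algebraMap D 𝔠) := IsFractionRing.injective D 𝔠
  have htr' : Transcendental K (algebraMap D 𝔠 t) :=
    (transcendental_algebraMap_iff hinj).mpr htr
  refine ⟨htr, htr', ?_⟩
  -- formally unramified over `K[t]`
  haveI fu0 : Algebra.FormallyUnramified (Algebra.adjoin K {t}) D :=
    s26ecrvf_unramified hres t ht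
  haveI fu1 : Algebra.FormallyUnramified D 𝔠 :=
    Algebra.FormallyUnramified.of_isLocalization (nonZeroDivisors D)
  haveI tower1 : IsScalarTower (Algebra.adjoin K {t}) D 𝔠 := inferInstance
  haveI fu2 : Algebra.FormallyUnramified (Algebra.adjoin K {t}) 𝔠 :=
    Algebra.FormallyUnramified.comp (Algebra.adjoin K {t}) D 𝔠
  -- the map `K[t] → K(t')`
  have hmem : ∀ x : Algebra.adjoin K {t},
      algebraMap D 𝔠 (x : D) ∈ IntermediateField.adjoin K {algebraMap D 𝔠 t} := by
    rintro ⟨x, hx⟩
    induction hx using Algebra.adjoin_induction with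
    | mem y hy =>
      rw [Set.mem_singleton_iff] at hy
      subst hy
      exact IntermediateField.mem_adjoin_simple_self K _
    | algebraMap r =>
      rw [← IsScalarTower.algebraMap_apply K D 𝔠]
      exact IntermediateField.algebraMap_mem _ r
    | add x y _ _ hx hy =>
      simp only [map_add]
      exact add_mem hx hy
    | mul x y _ _ hx hy =>
      simp only [map_mul]
      exact mul_mem hx hy
  let φ : Algebra.adjoin K {t} →+* IntermediateField.adjoin K {algebraMap D 𝔠 t} :=
    { toFun := fun x => ⟨algebraMap D 𝔠 (x : D), hmem x⟩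
      map_one' := by ext; simp
      map_mul' := fun x y => by ext; simp
      map_zero' := by ext; simp
      map_add' := fun x y => by ext; simp }
  letI algPE : Algebra (Algebra.adjoin K {t}) (IntermediateField.adjoin K {algebraMap D 𝔠 t}) :=
    φ.toAlgebra
  haveI tower2 : IsScalarTower (Algebra.adjoin K {t})
      (IntermediateField.adjoin K {algebraMap D 𝔠 t}) 𝔠 :=
    IsScalarTower.of_algebraMap_eq (fun x => rfl)
  haveI fu3 : Algebra.FormallyUnramified (IntermediateField.adjoin K {algebraMap D 𝔠 t}) 𝔠 :=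
    Algebra.FormallyUnramified.of_restrictScalars (Algebra.adjoin K {t}) _ 𝔠
  -- essentially of finite type
  haveI eft1 : Algebra.EssFiniteType D 𝔠 :=
    Algebra.EssFiniteType.of_isLocalization 𝔠 (nonZeroDivisors D)
  haveI eft2 : Algebra.EssFiniteType K 𝔠 := Algebra.EssFiniteType.comp K D 𝔠
  haveI eft3 : Algebra.EssFiniteType (IntermediateField.adjoin K {algebraMap D 𝔠 t}) 𝔠 :=
    Algebra.EssFiniteType.of_comp K _ 𝔠
  haveI sep : Algebra.IsSeparable (IntermediateField.adjoin K {algebraMap D 𝔠 t}) 𝔠 :=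
    Algebra.FormallyUnramified.isSeparable _ 𝔠
  exact ⟨Algebra.finite_of_essFiniteType_of_isAlgebraic, sep⟩

end Curve

section CurveAlg

open scoped IntermediateField.algebraAdjoinAdjoin in
/-- algebraic over `K(x)` ⇒ algebraic over `K[x]`. -/
theorem s26ecrvf_algebraic_of_adjoin {K 𝔠 : Type u} [Field K] [Field 𝔠] [Algebra K 𝔠] (x : 𝔠)
    (h1 : Algebra.IsAlgebraic (IntermediateField.adjoin K {x}) 𝔠) :
    Algebra.IsAlgebraic (Algebra.adjoin K {x}) 𝔠 :=
  (IsFractionRing.comap_isAlgebraic_iff
    (A := Algebra.adjoin K {x}) (K := IntermediateField.adjoin K {x})).mpr h1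

variable {K D : Type u} [Field K] [CommRing D] [IsDomain D] [IsLocalRing D] [Algebra K D]

/-- **(E)**, algebraic form: `𝔠 = Frac D` is algebraic over `K[t]`. -/
theorem s26ecrvf_curve_algebraic [Algebra.EssFiniteType K D]
    (hres : ∀ r : D, ∃ c : K, r - algebraMap K D c ∈ maximalIdeal D)
    (t : D) (ht : maximalIdeal D = Ideal.span {t}) (ht0 : t ≠ 0)
    (𝔠 : Type u) [Field 𝔠] [Algebra D 𝔠] [IsFractionRing D 𝔠] [Algebra K 𝔠]
    [IsScalarTower K D 𝔠] :
    Algebra.IsAlgebraic (Algebra.adjoin K {algebraMap D 𝔠 t}) 𝔠 := by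
  obtain ⟨-, -, hfin, -⟩ := s26ecrvf_curve hres t ht ht0 𝔠
  haveI := hfin
  exact s26ecrvf_algebraic_of_adjoin _ (Algebra.IsAlgebraic.of_finite _ _)

end CurveAlg

section Fin

/-- `trdeg_K W ≤ d` if `W` is algebraic over `K[s_1, …, s_d]`. -/
theorem s26ecrvf_trdeg_le {K W : Type u} [Field K] [Field W] [Algebra K W] {d : ℕ}
    (s : Fin d → W) (hs : Algebra.IsAlgebraic (Algebra.adjoin K (Set.range s)) W) :
    Algebra.trdeg K W ≤ (d : Cardinal.{u}) := by
  have h1 : Algebra.trdeg K W ≤ Cardinal.mk (Set.range s) :=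
    Algebra.IsAlgebraic.trdeg_le_cardinalMk K (Set.range s)
  have h2 : Cardinal.mk (Set.range s) ≤ Cardinal.lift.{u} (Cardinal.mk (Fin d)) := by
    have := Cardinal.mk_range_le_lift (f := s)
    simpa using this
  refine h1.trans (h2.trans ?_)
  simp

/-- **(F2)**, `trdeg` form: `W / K` essentially of finite type with `trdeg_K W ≤ d`, `𝔉 ⊆ W` a
subfield containing `d` elements that are algebraically independent over `K`.  Then `W` is
finite over `𝔉`. -/
theorem s26ecrvf_finite_of_trdeg {K W 𝔉 : Type u} [Field K] [Field W] [Field 𝔉] [Algebra K W]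
    [Algebra K 𝔉] [Algebra 𝔉 W] [IsScalarTower K 𝔉 W] [Algebra.EssFiniteType K W] {d : ℕ}
    (htr : Algebra.trdeg K W ≤ (d : Cardinal.{u})) (y : Fin d → 𝔉)
    (hy : AlgebraicIndependent K (fun i => algebraMap 𝔉 W (y i))) :
    Module.Finite 𝔉 W := by
  have hy' : AlgebraicIndependent K y :=
    AlgebraicIndependent.of_comp (IsScalarTower.toAlgHom K 𝔉 W) hy
  have h1 : (d : Cardinal.{u}) ≤ Algebra.trdeg K 𝔉 := by
    have := hy'.lift_cardinalMk_le_trdeg
    simpa using this
  have h2 : Algebra.trdeg K 𝔉 + Algebra.trdeg 𝔉 W = Algebra.trdeg K W :=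
    trdeg_add_eq K 𝔉 (A := W)
  have h3 : (d : Cardinal.{u}) + Algebra.trdeg 𝔉 W ≤ (d : Cardinal.{u}) := by
    calc (d : Cardinal.{u}) + Algebra.trdeg 𝔉 W
        ≤ Algebra.trdeg K 𝔉 + Algebra.trdeg 𝔉 W := add_le_add h1 le_rfl
      _ = Algebra.trdeg K W := h2
      _ ≤ d := htr
  have h4 : Algebra.trdeg 𝔉 W < Cardinal.aleph0 :=
    lt_of_le_of_lt (le_trans (self_le_add_left _ _) h3) (Cardinal.natCast_lt_aleph0)
  obtain ⟨n, hn⟩ := Cardinal.lt_aleph0.mp h4
  have h5 : n = 0 := by
    rw [hn] at h3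
    have : d + n ≤ d := by exact_mod_cast h3
    omega
  have h6 : Algebra.trdeg 𝔉 W = 0 := by rw [hn, h5]; simp
  haveI : Algebra.IsAlgebraic 𝔉 W := trdeg_eq_zero_iff.mp h6
  haveI : Algebra.EssFiniteType 𝔉 W := Algebra.EssFiniteType.of_comp K 𝔉 W
  exact Algebra.finite_of_essFiniteType_of_isAlgebraic

/-- **(F2)**: `W` essentially of finite type over `K` and algebraic over `K[s_1, …, s_d]`,
`e : 𝔉 → W` a `K`-embedding of a field, `y_1, …, y_d ∈ 𝔉` with `e ∘ y` algebraically independent
over `K`.  Then `W` is finite over `𝔉` (for the algebra structure `e`). -/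
theorem s26ecrvf_finite {K W 𝔉 : Type u} [Field K] [Field W] [Field 𝔉] [Algebra K W]
    [Algebra K 𝔉] [Algebra.EssFiniteType K W] {d : ℕ}
    (s : Fin d → W) (hs : Algebra.IsAlgebraic (Algebra.adjoin K (Set.range s)) W)
    (e : 𝔉 →ₐ[K] W) (y : Fin d → 𝔉) (hy : AlgebraicIndependent K (fun i => e (y i))) :
    letI := e.toRingHom.toAlgebra
    Module.Finite 𝔉 W := by
  letI := e.toRingHom.toAlgebra
  haveI : IsScalarTower K 𝔉 W := IsScalarTower.of_algebraMap_eq (fun x => (e.commutes x).symm)
  exact s26ecrvf_finite_of_trdeg (s26ecrvf_trdeg_le s hs) y hy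

end Fin


section Tensor

/-- transport of algebraicity along an injective `K`-algebra homomorphism `g : Γ → W'`: if `γ`
is algebraic over `K[A]` then `g γ` is algebraic over every subalgebra containing `g '' A`. -/
theorem s26ecrvf_algebraic_map {K Γ W' : Type u} [Field K] [CommRing Γ] [CommRing W']
    [Algebra K Γ] [Algebra K W'] (g : Γ →ₐ[K] W') (hg : Function.Injective g)
    (A : Set Γ) (S : Subalgebra K W') (hS : g '' A ⊆ S) {γ : Γ}
    (hγ : IsAlgebraic (Algebra.adjoin K A) γ) : IsAlgebraic S (g γ) := by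
  have hle : (Algebra.adjoin K A).map g ≤ S := by
    rw [AlgHom.map_adjoin]
    exact Algebra.adjoin_le hS
  let f : Algebra.adjoin K A →+* S :=
    { toFun := fun x => ⟨g x, hle ⟨x, x.2, rfl⟩⟩
      map_one' := by ext; simp
      map_mul' := fun x y => by ext; simp
      map_zero' := by ext; simp
      map_add' := fun x y => by ext; simp }
  have hf : Function.Injective f := by
    intro x y hxy
    have : g (x : Γ) = g (y : Γ) := congrArg Subtype.val hxy
    exact Subtype.ext (hg this)
  exact hγ.ringHom_of_comp_eq f (g : Γ →+* W') hf (by ext x; rfl)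

variable {K Γ W W' : Type u} [Field K] [Field Γ] [Field W] [Field W'] [Algebra K Γ]
  [Algebra K W] [Algebra K W'] [Algebra (Γ ⊗[K] W) W'] [IsScalarTower K (Γ ⊗[K] W) W']
  [IsFractionRing (Γ ⊗[K] W) W']

/-- the embedding `Γ → W' = Frac (Γ ⊗ W)`. -/
def s26ecrvfInl (K Γ W W' : Type u) [Field K] [Field Γ] [Field W] [Field W'] [Algebra K Γ]
    [Algebra K W] [Algebra K W'] [Algebra (Γ ⊗[K] W) W'] [IsScalarTower K (Γ ⊗[K] W) W'] :
    Γ →ₐ[K] W' :=
  (IsScalarTower.toAlgHom K (Γ ⊗[K] W) W').comp Algebra.TensorProduct.includeLeft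

/-- the embedding `W → W' = Frac (Γ ⊗ W)`. -/
def s26ecrvfInr (K Γ W W' : Type u) [Field K] [Field Γ] [Field W] [Field W'] [Algebra K Γ]
    [Algebra K W] [Algebra K W'] [Algebra (Γ ⊗[K] W) W'] [IsScalarTower K (Γ ⊗[K] W) W'] :
    W →ₐ[K] W' :=
  (IsScalarTower.toAlgHom K (Γ ⊗[K] W) W').comp Algebra.TensorProduct.includeRight

/-- **(F1)**, algebraicity: `Γ` algebraic over `K[A]`, `W` algebraic over `K[B]`,
`W' = Frac (Γ ⊗_K W)`.  Then `W'` is algebraic over `K[A ∪ B]` (images in `W'`). -/
theorem s26ecrvf_tensor_algebraic (A : Set Γ)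
    (hA : Algebra.IsAlgebraic (Algebra.adjoin K A) Γ) (B : Set W)
    (hB : Algebra.IsAlgebraic (Algebra.adjoin K B) W) :
    Algebra.IsAlgebraic
      (Algebra.adjoin K (s26ecrvfInl K Γ W W' '' A ∪ s26ecrvfInr K Γ W W' '' B)) W' := by
  set S : Subalgebra K W' :=
    Algebra.adjoin K (s26ecrvfInl K Γ W W' '' A ∪ s26ecrvfInr K Γ W W' '' B) with hS
  have hSA : s26ecrvfInl K Γ W W' '' A ⊆ S :=
    fun x hx => Algebra.subset_adjoin (Or.inl hx)
  have hSB : s26ecrvfInr K Γ W W' '' B ⊆ S :=
    fun x hx => Algebra.subset_adjoin (Or.inr hx)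
  have hl : ∀ γ : Γ, IsAlgebraic S (s26ecrvfInl K Γ W W' γ) := fun γ =>
    s26ecrvf_algebraic_map _ (RingHom.injective _) A S hSA (hA.isAlgebraic γ)
  have hr : ∀ w : W, IsAlgebraic S (s26ecrvfInr K Γ W W' w) := fun w =>
    s26ecrvf_algebraic_map _ (RingHom.injective _) B S hSB (hB.isAlgebraic w)
  -- all of `Γ ⊗ W`
  have ht : ∀ x : Γ ⊗[K] W, IsAlgebraic S (algebraMap (Γ ⊗[K] W) W' x) := by
    intro x
    induction x using TensorProduct.induction_on with
    | zero => rw [map_zero]; exact isAlgebraic_zero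
    | tmul γ w =>
      have : algebraMap (Γ ⊗[K] W) W' (γ ⊗ₜ[K] w) =
          s26ecrvfInl K Γ W W' γ * s26ecrvfInr K Γ W W' w := by
        have h1 : s26ecrvfInl K Γ W W' γ = algebraMap (Γ ⊗[K] W) W' (γ ⊗ₜ[K] (1 : W)) := rfl
        have h2 : s26ecrvfInr K Γ W W' w = algebraMap (Γ ⊗[K] W) W' ((1 : Γ) ⊗ₜ[K] w) := rfl
        rw [h1, h2, ← map_mul, Algebra.TensorProduct.tmul_mul_tmul, mul_one, one_mul]
      rw [this]
      exact (hl γ).mul (hr w)
    | add x y hx hy => rw [map_add]; exact hx.add hy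
  constructor
  intro z
  obtain ⟨a, b, _, rfl⟩ := IsFractionRing.div_surjective (A := Γ ⊗[K] W) z
  rw [div_eq_mul_inv]
  exact (ht a).mul (ht b).inv

/-- **(F1)**, finiteness: `W' = Frac (Γ ⊗_K W)` is essentially of finite type over `K` if `Γ`
and `W` are. -/
theorem s26ecrvf_tensor_essFiniteType [Algebra.EssFiniteType K Γ] [Algebra.EssFiniteType K W] :
    Algebra.EssFiniteType K W' := by
  haveI h1 : Algebra.EssFiniteType Γ (Γ ⊗[K] W) := inferInstance
  haveI h2 : Algebra.EssFiniteType K (Γ ⊗[K] W) := Algebra.EssFiniteType.comp K Γ (Γ ⊗[K] W)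
  haveI h3 : Algebra.EssFiniteType (Γ ⊗[K] W) W' :=
    Algebra.EssFiniteType.of_isLocalization W' (nonZeroDivisors (Γ ⊗[K] W))
  exact Algebra.EssFiniteType.comp K (Γ ⊗[K] W) W'

/-- **(F1)**, algebraicity, family form: `Γ` algebraic over `K[t]`, `W` algebraic over
`K[s_1..s_k]` ⇒ `W' = Frac (Γ ⊗_K W)` algebraic over `K[t, s_1..s_k]`. -/
theorem s26ecrvf_tensor_algebraic_fin (t : Γ)
    (ht : Algebra.IsAlgebraic (Algebra.adjoin K {t}) Γ) {k : ℕ} (s : Fin k → W)
    (hs : Algebra.IsAlgebraic (Algebra.adjoin K (Set.range s)) W) :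
    Algebra.IsAlgebraic (Algebra.adjoin K (Set.range
      (Fin.cons (s26ecrvfInl K Γ W W' t) (fun i => s26ecrvfInr K Γ W W' (s i)) :
        Fin (k + 1) → W'))) W' := by
  have h := s26ecrvf_tensor_algebraic (K := K) (Γ := Γ) (W := W) (W' := W') {t} ht
    (Set.range s) hs
  have heq : (s26ecrvfInl K Γ W W' '' {t} ∪ s26ecrvfInr K Γ W W' '' Set.range s) =
      Set.range (Fin.cons (s26ecrvfInl K Γ W W' t) (fun i => s26ecrvfInr K Γ W W' (s i)) :
        Fin (k + 1) → W') := by
    rw [Fin.range_cons, Set.image_singleton, ← Set.range_comp]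
    rfl
  rw [heq] at h
  exact h

end Tensor

end Fermat.Agent.S26
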