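/-
S26-E, common lemma (helper31): over an algebraically closed field `K`, the tensor product of two
`K`-algebras which are domains is a domain.

`s26etd_isDomain : IsDomain (A ⊗[K] B)`.

Proof: reduce to `A` of finite type; then `A` is a Jacobson ring whose maximal ideals are kernels
of `K`-points `e : A →ₐ[K] K` (Nullstellensatz); write `x = ∑ Xᵢ ⊗ 𝒞ᵢ`, `y = ∑ Yⱼ ⊗ 𝒞ⱼ` in a
`K`-basis `𝒞` of `B`; specialising at `e` gives `(∀ i, e Xᵢ = 0) ∨ (∀ j, e Yⱼ = 0)` since `B` is a
domain, hence `Xᵢ Yⱼ` lies in every maximal ideal, so `Xᵢ Yⱼ = 0`.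
-/
import Mathlib

set_option autoImplicit false
set_option linter.style.haveILetI false
set_option linter.unusedSectionVars false

noncomputable section

namespace Fermat.Agent.S26

open TensorProduct

section Points

variable {K A : Type*} [Field K] [IsAlgClosed K] [CommRing A] [Algebra K A]

/-- Nullstellensatz: a maximal ideal of a `K`-algebra of finite type is the kernel of a
`K`-point. -/
theorem s26etd_exists_eval [Algebra.FiniteType K A] (𝔪 : Ideal A) [h𝔪 : 𝔪.IsMaximal] :
    ∃ e : A →ₐ[K] K, ∀ a : A, e a = 0 ↔ a ∈ 𝔪 := by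
  letI : Field (A ⧸ 𝔪) := Ideal.Quotient.field 𝔪
  haveI : Algebra.FiniteType K (A ⧸ 𝔪) :=
    Algebra.FiniteType.of_surjective (Ideal.Quotient.mkₐ K 𝔪) (Ideal.Quotient.mkₐ_surjective K 𝔪)
  haveI : Module.Finite K (A ⧸ 𝔪) := finite_of_finite_type_of_isJacobsonRing K (A ⧸ 𝔪)
  haveI : Algebra.IsIntegral K (A ⧸ 𝔪) := Algebra.IsIntegral.of_finite K (A ⧸ 𝔪)
  have hbij : Function.Bijective (algebraMap K (A ⧸ 𝔪)) :=
    IsAlgClosed.algebraMap_bijective_of_isIntegral
  let ε : K ≃ₐ[K] (A ⧸ 𝔪) := AlgEquiv.ofBijective (Algebra.ofId K (A ⧸ 𝔪)) hbij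
  refine ⟨(ε.symm : (A ⧸ 𝔪) →ₐ[K] K).comp (Ideal.Quotient.mkₐ K 𝔪), fun a => ?_⟩
  show ε.symm (Ideal.Quotient.mk 𝔪 a) = 0 ↔ a ∈ 𝔪
  rw [map_eq_zero_iff _ ε.symm.injective]
  exact Ideal.Quotient.eq_zero_iff_mem (I := 𝔪)

/-- In a domain of finite type over `K`, an element killed by all `K`-points is zero. -/
theorem s26etd_eq_zero_of_eval [Algebra.FiniteType K A] [IsDomain A] (a : A)
    (h : ∀ e : A →ₐ[K] K, e a = 0) : a = 0 := by
  haveI : IsJacobsonRing A := isJacobsonRing_of_finiteType (A := K) (B := A)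
  have hj : (⊥ : Ideal A).jacobson = ⊥ :=
    IsJacobsonRing.out' _ Ideal.isRadical_bot
  have : a ∈ (⊥ : Ideal A).jacobson := by
    rw [Ideal.jacobson, Ideal.mem_sInf]
    rintro 𝔪 ⟨-, h𝔪⟩
    haveI := h𝔪
    obtain ⟨e, he⟩ := s26etd_exists_eval (K := K) 𝔪
    exact (he a).mp (h e)
  rw [hj] at this
  simpa using this

end Points

section FiniteType

variable {K A B : Type*} [Field K] [IsAlgClosed K] [CommRing A] [Algebra K A]
  [CommRing B] [Algebra K B]

/-- The specialisation `A ⊗[K] B → B` at a `K`-point of `A`. -/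
def s26etdSpec (e : A →ₐ[K] K) : A ⊗[K] B →ₐ[K] B :=
  Algebra.TensorProduct.lift ((Algebra.ofId K B).comp e) (AlgHom.id K B)
    (fun _ _ => Commute.all _ _)

@[simp]
theorem s26etdSpec_tmul (e : A →ₐ[K] K) (a : A) (b : B) :
    s26etdSpec (B := B) e (a ⊗ₜ[K] b) = e a • b := by
  simp [s26etdSpec, Algebra.ofId_apply, Algebra.smul_def]

/-- The coordinates of `x ∈ A ⊗[K] B` in a basis of `B`, and the specialisation. -/
theorem s26etd_spec_eq_zero_iff {ι : Type*} [DecidableEq ι] (𝒞 : Module.Basis ι K B)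
    (e : A →ₐ[K] K)
    (x : A ⊗[K] B) :
    s26etdSpec (B := B) e x = 0 ↔
      ∀ i, e (TensorProduct.equivFinsuppOfBasisRight 𝒞 x i) = 0 := by
  set X := TensorProduct.equivFinsuppOfBasisRight 𝒞 x with hX
  have hx : x = X.sum fun i m => m ⊗ₜ[K] 𝒞 i := by
    rw [← TensorProduct.equivFinsuppOfBasisRight_symm_apply, hX, LinearEquiv.symm_apply_apply]
  have hs : s26etdSpec (B := B) e x = X.sum fun i m => e m • 𝒞 i := by
    conv_lhs => rw [hx]
    rw [Finsupp.sum, map_sum]
    simp [Finsupp.sum]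
  rw [hs]
  constructor
  · intro h i
    have hli := 𝒞.linearIndependent
    rw [linearIndependent_iff'] at hli
    by_cases hi : i ∈ X.support
    · exact hli X.support (fun j => e (X j)) h i hi
    · rw [Finsupp.notMem_support_iff.mp hi, map_zero]
  · intro h
    simp [Finsupp.sum, h]

/-- The case where `A` is of finite type. -/
theorem s26etd_mul_eq_zero_of_finiteType [Algebra.FiniteType K A] [IsDomain A] [IsDomain B]
    {ι : Type*} [DecidableEq ι] (𝒞 : Module.Basis ι K B)
    (x y : A ⊗[K] B) (h : x * y = 0) : x = 0 ∨ y = 0 := by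
  obtain ⟨X, hX⟩ : ∃ X, X = TensorProduct.equivFinsuppOfBasisRight 𝒞 x := ⟨_, rfl⟩
  obtain ⟨Y, hY⟩ : ∃ Y, Y = TensorProduct.equivFinsuppOfBasisRight 𝒞 y := ⟨_, rfl⟩
  have key : ∀ i j, X i * Y j = 0 := by
    intro i j
    apply s26etd_eq_zero_of_eval (K := K)
    intro e
    have h0 : s26etdSpec (B := B) e x * s26etdSpec (B := B) e y = 0 := by
      rw [← map_mul, h, map_zero]
    rcases mul_eq_zero.mp h0 with h1 | h1
    · have h2 : e (X i) = 0 := by
        rw [hX]; exact (s26etd_spec_eq_zero_iff 𝒞 e x).mp h1 i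
      rw [map_mul, h2, zero_mul]
    · have h2 : e (Y j) = 0 := by
        rw [hY]; exact (s26etd_spec_eq_zero_iff 𝒞 e y).mp h1 j
      rw [map_mul, h2, mul_zero]
  by_cases hx : X = 0
  · left
    rw [hX] at hx
    exact (TensorProduct.equivFinsuppOfBasisRight 𝒞).map_eq_zero_iff.mp hx
  · right
    obtain ⟨i, hi⟩ := Finsupp.ne_iff.mp hx
    have hYz : Y = 0 := by
      ext j
      rcases mul_eq_zero.mp (key i j) with h1 | h1
      · exact absurd h1 (by simpa using hi)
      · simpa using h1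
    rw [hY] at hYz
    exact (TensorProduct.equivFinsuppOfBasisRight 𝒞).map_eq_zero_iff.mp hYz

end FiniteType

section General

variable (K A B : Type*) [Field K] [IsAlgClosed K] [CommRing A] [Algebra K A]
  [CommRing B] [Algebra K B]

theorem s26etd_mul_eq_zero_basis [IsDomain A] [IsDomain B]
    {ι : Type*} [DecidableEq ι] (𝒞 : Module.Basis ι K B)
    (x y : A ⊗[K] B) (h : x * y = 0) : x = 0 ∨ y = 0 := by
  classical
  obtain ⟨X, hX⟩ : ∃ X, X = TensorProduct.equivFinsuppOfBasisRight 𝒞 x := ⟨_, rfl⟩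
  obtain ⟨Y, hY⟩ : ∃ Y, Y = TensorProduct.equivFinsuppOfBasisRight 𝒞 y := ⟨_, rfl⟩
  -- the subalgebra of finite type generated by the coordinates
  let s : Finset A := X.support.image X ∪ Y.support.image Y
  let A₀ : Subalgebra K A := Algebra.adjoin K (s : Set A)
  haveI : Algebra.FiniteType K A₀ :=
    (Subalgebra.fg_iff_finiteType _).mp ⟨s, rfl⟩
  have hXmem : ∀ i, X i ∈ A₀ := by
    intro i
    by_cases hi : i ∈ X.support
    · exact Algebra.subset_adjoin (by
        simp only [s, Finset.coe_union, Finset.coe_image, Set.mem_union, Set.mem_image]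
        exact Or.inl ⟨i, hi, rfl⟩)
    · rw [Finsupp.notMem_support_iff.mp hi]; exact zero_mem _
  have hYmem : ∀ i, Y i ∈ A₀ := by
    intro i
    by_cases hi : i ∈ Y.support
    · exact Algebra.subset_adjoin (by
        simp only [s, Finset.coe_union, Finset.coe_image, Set.mem_union, Set.mem_image]
        exact Or.inr ⟨i, hi, rfl⟩)
    · rw [Finsupp.notMem_support_iff.mp hi]; exact zero_mem _
  let φ : A₀ ⊗[K] B →ₐ[K] A ⊗[K] B := Algebra.TensorProduct.map A₀.val (AlgHom.id K B)
  have hφ : Function.Injective φ := by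
    have : Function.Injective (LinearMap.rTensor B A₀.val.toLinearMap) :=
      Module.Flat.rTensor_preserves_injective_linearMap _ Subtype.val_injective
    intro a b hab
    apply this
    have e1 : ∀ z, φ z = LinearMap.rTensor B A₀.val.toLinearMap z := by
      intro z
      induction z using TensorProduct.induction_on with
      | zero => simp
      | tmul a b => simp [φ]
      | add a b ha hb => rw [map_add, map_add, ha, hb]
    rw [← e1, ← e1]; exact hab
  let x₀ : A₀ ⊗[K] B := X.sum fun i _ => (⟨X i, hXmem i⟩ : A₀) ⊗ₜ[K] 𝒞 i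
  let y₀ : A₀ ⊗[K] B := Y.sum fun i _ => (⟨Y i, hYmem i⟩ : A₀) ⊗ₜ[K] 𝒞 i
  have hx₀ : φ x₀ = x := by
    have hx : x = X.sum fun i m => m ⊗ₜ[K] 𝒞 i := by
      rw [← TensorProduct.equivFinsuppOfBasisRight_symm_apply, hX, LinearEquiv.symm_apply_apply]
    conv_rhs => rw [hx]
    simp only [x₀, Finsupp.sum, map_sum]
    refine Finset.sum_congr rfl fun i _ => ?_
    simp [φ]
  have hy₀ : φ y₀ = y := by
    have hy : y = Y.sum fun i m => m ⊗ₜ[K] 𝒞 i := by
      rw [← TensorProduct.equivFinsuppOfBasisRight_symm_apply, hY, LinearEquiv.symm_apply_apply]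
    conv_rhs => rw [hy]
    simp only [y₀, Finsupp.sum, map_sum]
    refine Finset.sum_congr rfl fun i _ => ?_
    simp [φ]
  have h₀ : x₀ * y₀ = 0 := by
    apply hφ
    rw [map_mul, hx₀, hy₀, h, map_zero]
  rcases s26etd_mul_eq_zero_of_finiteType (K := K) 𝒞 x₀ y₀ h₀ with h1 | h1
  · left; rw [← hx₀, h1, map_zero]
  · right; rw [← hy₀, h1, map_zero]

theorem s26etd_mul_eq_zero [IsDomain A] [IsDomain B]
    (x y : A ⊗[K] B) (h : x * y = 0) : x = 0 ∨ y = 0 := by
  classical
  exact s26etd_mul_eq_zero_basis K A B (Module.Basis.ofVectorSpace K B) x y h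

/-- **Tensor products of domains over an algebraically closed field are domains.** -/
theorem s26etd_isDomain [IsDomain A] [IsDomain B] : IsDomain (A ⊗[K] B) := by
  haveI : Nontrivial (A ⊗[K] B) := by
    infer_instance
  haveI : NoZeroDivisors (A ⊗[K] B) := ⟨fun {x y} h => s26etd_mul_eq_zero K A B x y h⟩
  exact NoZeroDivisors.to_isDomain _

end General

end Fermat.Agent.S26

end
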