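/-
S26-E, piece E-RR (E) (helper7): RIEMANN'S INEQUALITY ASCENDS along the constant extension
`Ω = Frac (𝔠 ⊗[K] 𝔎)` of a function field `𝔠 / K` all of whose places are rational
(`hall`), with `Con = Finsupp.mapDomain (s26gspCon hld hgen hall)` (`S26/ERRGaussCon.lean`).

* `s26erre_mem_rr`        : `f ∈ L_K(B) ⇒ f ∈ L_𝔎(Con B)`;
* `s26erre_linearIndependent_rr` : a `K`-independent family of `L_K(B)` is a `𝔎`-independent
  family of `L_𝔎(Con B)`;
* `s26erre_finite`        : `L_𝔎(Con B)` finite over `𝔎` ⇒ `L_K(B)` finite over `K`;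
* `s26erre_finrank_le`    (**E1**) : `dim_K L_K(B) ≤ dim_𝔎 L_𝔎(Con B)`;
* `s26erre_single_degree` : `deg (m · P₀) = m`;
* `s26erre_hbig`          : the hypothesis `hB` of `s26err_riemann_transfer` over `𝔎`;
* `s26erre_riemann'`, `s26erre_riemann` (**E2**) : `deg Δ + 1 − γ ≤ dim_𝔎 L_𝔎(Δ)` for EVERY
  divisor `Δ` of `Ω / 𝔎`, from Riemann's inequality (resp. `S26errfGenus K 𝔠 γ`) of `𝔠 / K`;
* `s26erre_genus_le`      : the genus `γ'` of `Ω / 𝔎` is `≤ γ`.
-/
import Fermat.Agent.S26.ERRGaussAlg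
import Fermat.Agent.S26.ERRF

set_option autoImplicit false
set_option linter.style.haveILetI false
set_option linter.unusedSectionVars false
set_option linter.unusedVariables false

noncomputable section

namespace Fermat.Agent.S26

open AlgebraicCurve TensorProduct Module

variable {K 𝔠 𝔎 Ω : Type*} [Field K] [Field 𝔠] [Field 𝔎] [Field Ω]
  [Algebra K 𝔠] [Algebra K 𝔎] [Algebra K Ω] [Algebra 𝔠 Ω] [Algebra 𝔎 Ω]
  [IsScalarTower K 𝔠 Ω] [IsScalarTower K 𝔎 Ω]

variable (hld : Function.Injective (s26gspMu K 𝔠 𝔎 Ω)) (hgen : S26gspGen K 𝔠 𝔎 Ω)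
  (hall : ∀ P : Place K 𝔠, Function.Surjective (algebraMap K P.ResidueField))

/-! ### (E1) `dim_K L_K(B) ≤ dim_𝔎 L_𝔎(Con B)` -/

/-- `L_K(B) ⊆ L_𝔎(Con B)`. -/
theorem s26erre_mem_rr (B : Divisor K 𝔠) {f : 𝔠} (hf : f ∈ riemannRochSpace B) :
    algebraMap 𝔠 Ω f ∈ riemannRochSpace (Finsupp.mapDomain (s26gspCon hld hgen hall) B) := by
  have := s26gspc_mem_rr hld hgen hall B hf 1
  rwa [map_one, mul_one] at this

/-- a `K`-linearly independent family of `L_K(B)` gives a `𝔎`-linearly independent family of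
`L_𝔎(Con B)`. -/
theorem s26erre_linearIndependent_rr (B : Divisor K 𝔠) {ι : Type*}
    {f : ι → ↥(riemannRochSpace B)} (hf : LinearIndependent K f) :
    LinearIndependent 𝔎 (fun i =>
      (⟨algebraMap 𝔠 Ω (f i : 𝔠), s26erre_mem_rr hld hgen hall B (f i).2⟩ :
        ↥(riemannRochSpace (Finsupp.mapDomain (s26gspCon hld hgen hall) B)))) := by
  have h1 : LinearIndependent K (fun i => ((f i : ↥(riemannRochSpace B)) : 𝔠)) :=
    hf.map' (riemannRochSpace B).subtype (Submodule.ker_subtype _)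
  have h2 : LinearIndependent 𝔎 (fun i => algebraMap 𝔠 Ω ((f i : ↥(riemannRochSpace B)) : 𝔠)) :=
    s26gspc_linearIndependent hld h1
  exact LinearIndependent.of_comp
    (riemannRochSpace (Finsupp.mapDomain (s26gspCon hld hgen hall) B)).subtype h2

/-- `L_𝔎(Con B)` finite-dimensional ⇒ `L_K(B)` finite-dimensional. -/
theorem s26erre_finite (B : Divisor K 𝔠)
    [Module.Finite 𝔎 ↥(riemannRochSpace (Finsupp.mapDomain (s26gspCon hld hgen hall) B))] :
    Module.Finite K ↥(riemannRochSpace B) := by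
  classical
  set b := Module.Basis.ofVectorSpace K ↥(riemannRochSpace B) with hb
  have h1 := s26erre_linearIndependent_rr hld hgen hall B b.linearIndependent
  haveI : Finite (Module.Basis.ofVectorSpaceIndex K ↥(riemannRochSpace B)) := h1.finite
  exact Module.Finite.of_basis b

/-- **(E1)** `dim_K L_K(B) ≤ dim_𝔎 L_𝔎(Con B)`. -/
theorem s26erre_finrank_le (B : Divisor K 𝔠)
    [Module.Finite 𝔎 ↥(riemannRochSpace (Finsupp.mapDomain (s26gspCon hld hgen hall) B))] :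
    finrank K ↥(riemannRochSpace B) ≤
      finrank 𝔎 ↥(riemannRochSpace (Finsupp.mapDomain (s26gspCon hld hgen hall) B)) := by
  classical
  haveI : Module.Finite K ↥(riemannRochSpace B) := s26erre_finite hld hgen hall B
  set b := Module.finBasis K ↥(riemannRochSpace B) with hb
  have h1 := s26erre_linearIndependent_rr hld hgen hall B b.linearIndependent
  have h2 := h1.fintype_card_le_finrank
  rwa [Fintype.card_fin] at h2

/-- (E1), with the finiteness derived from `HasPrincipalDivisors`. -/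
theorem s26erre_finrank_le' [HasPrincipalDivisors 𝔎 Ω]
    (hfin : ∀ v : Place 𝔎 Ω, Module.Finite 𝔎 v.ResidueField) (P₀ : Place K 𝔠)
    (B : Divisor K 𝔠) :
    finrank K ↥(riemannRochSpace B) ≤
      finrank 𝔎 ↥(riemannRochSpace (Finsupp.mapDomain (s26gspCon hld hgen hall) B)) := by
  haveI := s26err_rr_finite (s26gspCon hld hgen hall P₀) hfin
    (Finsupp.mapDomain (s26gspCon hld hgen hall) B)
  exact s26erre_finrank_le hld hgen hall B

/-! ### divisors `Con A` of large degree -/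

theorem s26erre_single_degree (P₀ : Place K 𝔠)
    (hP₀ : Function.Surjective (algebraMap K P₀.ResidueField)) (m : ℤ) :
    Divisor.degree (Finsupp.single P₀ m : Divisor K 𝔠) = m := by
  rw [Divisor.degree_single, s26gspc_deg_eq_one P₀ hP₀]
  simp

include hld hgen hall

/-- the hypothesis `hB` of `s26err_riemann_transfer` for `Ω / 𝔎`, from Riemann's inequality
for `𝔠 / K`. -/
theorem s26erre_hbig [HasPrincipalDivisors 𝔎 Ω]
    (hfin : ∀ v : Place 𝔎 Ω, Module.Finite 𝔎 v.ResidueField) (P₀ : Place K 𝔠) (γ : ℤ)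
    (hR : ∀ A : Divisor K 𝔠,
      Divisor.degree A + 1 - γ ≤ (finrank K ↥(riemannRochSpace A) : ℤ)) (m : ℤ) :
    ∃ B : Divisor 𝔎 Ω, m ≤ Divisor.degree B ∧
      Divisor.degree B + 1 - γ ≤ (finrank 𝔎 ↥(riemannRochSpace B) : ℤ) := by
  refine ⟨Finsupp.mapDomain (s26gspCon hld hgen hall) (Finsupp.single P₀ m), ?_, ?_⟩
  · rw [s26gspc_degree, s26erre_single_degree P₀ (hall P₀)]
  · rw [s26gspc_degree]
    have h1 := hR (Finsupp.single P₀ m)
    have h2 := s26erre_finrank_le' hld hgen hall hfin P₀ (Finsupp.single P₀ m)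
    have h3 : (finrank K ↥(riemannRochSpace (Finsupp.single P₀ m : Divisor K 𝔠)) : ℤ) ≤
        (finrank 𝔎 ↥(riemannRochSpace
          (Finsupp.mapDomain (s26gspCon hld hgen hall) (Finsupp.single P₀ m))) : ℤ) := by
      exact_mod_cast h2
    linarith

/-! ### (E2) Riemann's inequality for `Ω / 𝔎` -/

/-- **(E2)** Riemann's inequality with constant `γ` for `𝔠 / K` gives Riemann's inequality
with the same constant `γ` for EVERY divisor of `Ω / 𝔎`. -/
theorem s26erre_riemann' [HasPrincipalDivisors 𝔎 Ω]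
    (hfin : ∀ v : Place 𝔎 Ω, Module.Finite 𝔎 v.ResidueField) (P₀ : Place K 𝔠) (γ : ℤ)
    (hR : ∀ A : Divisor K 𝔠,
      Divisor.degree A + 1 - γ ≤ (finrank K ↥(riemannRochSpace A) : ℤ))
    (Δ : Divisor 𝔎 Ω) :
    Divisor.degree Δ + 1 - γ ≤ (finrank 𝔎 ↥(riemannRochSpace Δ) : ℤ) :=
  s26err_riemann_transfer hfin γ (s26erre_hbig hld hgen hall hfin P₀ γ hR) Δ

/-- **(E2)**, from `S26errfGenus K 𝔠 γ`. -/
theorem s26erre_riemann [HasPrincipalDivisors 𝔎 Ω]
    (hfin : ∀ v : Place 𝔎 Ω, Module.Finite 𝔎 v.ResidueField) (P₀ : Place K 𝔠) {γ : ℤ}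
    (hγ : S26errfGenus K 𝔠 γ) (Δ : Divisor 𝔎 Ω) :
    Divisor.degree Δ + 1 - γ ≤ (finrank 𝔎 ↥(riemannRochSpace Δ) : ℤ) :=
  s26erre_riemann' hld hgen hall hfin P₀ γ hγ.2.1 Δ

/-- the genus of `Ω / 𝔎` is at most the genus of `𝔠 / K`. -/
theorem s26erre_genus_le [HasPrincipalDivisors 𝔎 Ω]
    (hfin : ∀ v : Place 𝔎 Ω, Module.Finite 𝔎 v.ResidueField) (P₀ : Place K 𝔠) {γ γ' : ℤ}
    (hγ : S26errfGenus K 𝔠 γ) (hγ' : S26errfGenus 𝔎 Ω γ') : γ' ≤ γ := by
  obtain ⟨A₀, hA₀⟩ := hγ'.2.2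
  have h1 := s26erre_riemann hld hgen hall hfin P₀ hγ A₀
  rw [hA₀] at h1
  linarith

end Fermat.Agent.S26
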