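/-
S26-E, piece E-RR (C+) (helper96): the CONORM map `Con = Finsupp.mapDomain con` of the Gauss
places `con := s26gspCon hld hgen hall : Place K 𝔠 → Place 𝔎 Ω` (`S26/ERRGaussPlace.lean`).

Setting: `K ⊆ 𝔠`, `K ⊆ 𝔎`, `Ω = Frac (𝔠 ⊗[K] 𝔎)` (`hld`, `hgen`), every place of `𝔠 / K` has
residue field `K` (`hall`).

* `s26gspc_hcon`  : the hypothesis `hcon` of `s26erig_main` (uniqueness of constant places);
* `s26gspc_hΓL`   : the hypothesis `hΓL` of `s26erig_main` (`𝔠 ∩ 𝔎 = K` in `Ω`);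
* `s26gspc_ord_algebraMap`, `s26gspc_ord_eq_zero` : `ord_w u` for `u ∈ 𝔠` at all places `w`;
* `s26gspc_mapDomain_principal` : `Con (div u) = div (u)`;
* `s26gspc_degree` : `deg (Con D) = deg D`;
* `s26gspc_mem_rr`, `s26gspc_span_le_rr` : `𝔎 · L_K(B) ⊆ L_𝔎(Con B)`;
* `s26gspc_rr_of_mem_range` : `L_𝔎(Con B) ∩ μ(𝔠 ⊗ 𝔎) ⊆ 𝔎 · L_K(B)`;
* `s26gspc_linearIndependent` : `K`-independent families of `𝔠` stay independent over `𝔎`.
-/
import Fermat.Agent.S26.ERRGaussPlace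
import Fermat.Prelude.Def_AlgebraicCurve_Repartitions

set_option autoImplicit false
set_option linter.style.haveILetI false
set_option linter.unusedSectionVars false
set_option linter.unusedVariables false

noncomputable section

namespace Fermat.Agent.S26

open AlgebraicCurve TensorProduct IsLocalRing

variable {K 𝔠 𝔎 Ω : Type*} [Field K] [Field 𝔠] [Field 𝔎] [Field Ω]
  [Algebra K 𝔠] [Algebra K 𝔎] [Algebra K Ω] [Algebra 𝔠 Ω] [Algebra 𝔎 Ω]
  [IsScalarTower K 𝔠 Ω] [IsScalarTower K 𝔎 Ω]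

/-! ### `𝔠 ∩ 𝔎 = K` -/

/-- **`hΓL`**: an element of `𝔠` which is a constant of `𝔎` in `Ω` lies in `K`. -/
theorem s26gspc_hΓL (hld : Function.Injective (s26gspMu K 𝔠 𝔎 Ω)) (u : 𝔠) (c : 𝔎)
    (h : algebraMap 𝔠 Ω u = algebraMap 𝔎 Ω c) : ∃ a : K, u = algebraMap K 𝔠 a := by
  have h1 : u ⊗ₜ[K] (1 : 𝔎) = (1 : 𝔠) ⊗ₜ[K] c := by
    apply hld
    rw [s26gspMu_tmul, s26gspMu_tmul, map_one, map_one, mul_one, one_mul, h]
  obtain ⟨g, hg⟩ := LinearMap.exists_leftInverse_of_injective (Algebra.linearMap K 𝔎)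
    (LinearMap.ker_eq_bot.2 (algebraMap K 𝔎).injective)
  have hg1 : g 1 = 1 := by
    have := LinearMap.congr_fun hg 1
    simpa using this
  have h2 := congrArg (fun x => TensorProduct.rid K 𝔠 (LinearMap.lTensor 𝔠 g x)) h1
  simp only [LinearMap.lTensor_tmul, TensorProduct.rid_tmul, hg1, one_smul] at h2
  exact ⟨g c, by rw [h2, Algebra.smul_def, mul_one]⟩

variable (hld : Function.Injective (s26gspMu K 𝔠 𝔎 Ω)) (hgen : S26gspGen K 𝔠 𝔎 Ω)
  (hall : ∀ P : Place K 𝔠, Function.Surjective (algebraMap K P.ResidueField))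

/-! ### orders of the elements of `𝔠` -/

theorem s26gspc_ord_algebraMap (Q : Place K 𝔠) (u : 𝔠) :
    (s26gspCon hld hgen hall Q).ord (algebraMap 𝔠 Ω u) = Q.ord u :=
  s26gspPlace_ord_algebraMap Q (hall Q) hld hgen u

theorem s26gspc_ord_eq_zero (w : Place 𝔎 Ω) (hw : ∀ Q, w ≠ s26gspCon hld hgen hall Q) (u : 𝔠) :
    w.ord (algebraMap 𝔠 Ω u) = 0 := by
  by_contra h
  obtain ⟨P, hP⟩ := s26gspPlace_exists_of_nontrivial hld hgen hall w ⟨u, h⟩
  exact hw P hP

theorem s26gspc_comap (Q : Place K 𝔠) :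
    (s26gspCon hld hgen hall Q).toValuationSubring.comap (algebraMap 𝔠 Ω) =
      Q.toValuationSubring := by
  ext f
  exact s26gspPlace_mem_algebraMap Q (hall Q) hld hgen f

/-- **`hcon`** of `s26erig_main`. -/
theorem s26gspc_hcon (P : Place 𝔎 Ω) (Q : Place K 𝔠)
    (h : P.toValuationSubring.comap (algebraMap 𝔠 Ω) = Q.toValuationSubring) :
    P = s26gspCon hld hgen hall Q := by
  refine s26gspPlace_unique' Q (hall Q) hld hgen P fun f => ?_
  rw [← h]
  rfl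

/-- every place of `Ω / 𝔎` is a constant place or trivial on `𝔠`. -/
theorem s26gspc_dichotomy (w : Place 𝔎 Ω) :
    (∃ Q, w = s26gspCon hld hgen hall Q) ∨ ∀ u : 𝔠, w.ord (algebraMap 𝔠 Ω u) = 0 := by
  by_cases h : ∃ Q, w = s26gspCon hld hgen hall Q
  · exact Or.inl h
  · exact Or.inr (s26gspc_ord_eq_zero hld hgen hall w (fun Q hQ => h ⟨Q, hQ⟩))

/-! ### `Con` on divisors -/

/-- **`Con (div u) = div u`**. -/
theorem s26gspc_mapDomain_principal (D : Divisor K 𝔠) (u : 𝔠) (hD : ∀ Q, D Q = Q.ord u)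
    (w : Place 𝔎 Ω) :
    Finsupp.mapDomain (s26gspCon hld hgen hall) D w = w.ord (algebraMap 𝔠 Ω u) := by
  rcases s26gspc_dichotomy hld hgen hall w with ⟨Q, rfl⟩ | hw
  · rw [Finsupp.mapDomain_apply (s26gspCon_injective hld hgen hall), hD,
      s26gspc_ord_algebraMap]
  · rw [hw u]
    apply Finsupp.mapDomain_of_notMem_range
    rintro ⟨Q, rfl⟩
    obtain ⟨t, ht⟩ := Fermat.Agent.S24.place_exists_ord_eq_one Q
    have := hw t
    rw [s26gspc_ord_algebraMap, ht] at this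
    exact one_ne_zero this

theorem s26gspc_mapDomain_apply_con (D : Divisor K 𝔠) (Q : Place K 𝔠) :
    Finsupp.mapDomain (s26gspCon hld hgen hall) D (s26gspCon hld hgen hall Q) = D Q :=
  Finsupp.mapDomain_apply (s26gspCon_injective hld hgen hall) D Q

theorem s26gspc_mapDomain_apply_of_trivial (D : Divisor K 𝔠) (w : Place 𝔎 Ω)
    (hw : ∀ u : 𝔠, w.ord (algebraMap 𝔠 Ω u) = 0) :
    Finsupp.mapDomain (s26gspCon hld hgen hall) D w = 0 := by
  apply Finsupp.mapDomain_of_notMem_range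
  rintro ⟨Q, rfl⟩
  obtain ⟨t, ht⟩ := Fermat.Agent.S24.place_exists_ord_eq_one Q
  have := hw t
  rw [s26gspc_ord_algebraMap, ht] at this
  exact one_ne_zero this

theorem s26gspc_deg_eq_one (Q : Place K 𝔠)
    (hQ : Function.Surjective (algebraMap K Q.ResidueField)) : Q.deg = 1 := by
  unfold Place.deg
  refine (finrank_eq_one_iff_of_nonzero' (1 : Q.ResidueField) one_ne_zero).2 fun w => ?_
  obtain ⟨c, hc⟩ := hQ w
  exact ⟨c, by rw [Algebra.smul_def, mul_one, hc]⟩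

/-- **`deg (Con D) = deg D`**. -/
theorem s26gspc_degree (D : Divisor K 𝔠) :
    Divisor.degree (Finsupp.mapDomain (s26gspCon hld hgen hall) D) = Divisor.degree D := by
  induction D using Finsupp.induction_linear with
  | zero => simp
  | add x y hx hy => rw [Finsupp.mapDomain_add, map_add, map_add, hx, hy]
  | single Q n =>
    rw [Finsupp.mapDomain_single, Divisor.degree_single, Divisor.degree_single,
      s26gspc_deg_eq_one Q (hall Q)]
    have : (s26gspCon hld hgen hall Q).deg = 1 := s26gspPlace_deg Q (hall Q) hld hgen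
    rw [this]

/-! ### Riemann–Roch spaces -/

/-- **`𝔎 · L_K(B) ⊆ L_𝔎(Con B)`**, on generators. -/
theorem s26gspc_mem_rr (B : Divisor K 𝔠) {f : 𝔠} (hf : f ∈ riemannRochSpace B) (c : 𝔎) :
    algebraMap 𝔠 Ω f * algebraMap 𝔎 Ω c ∈
      riemannRochSpace (Finsupp.mapDomain (s26gspCon hld hgen hall) B) := by
  rw [mem_riemannRochSpace_iff] at hf ⊢
  intro w
  rcases eq_or_ne f 0 with rfl | hf0
  · left
    rw [map_zero, zero_mul]
  rcases eq_or_ne c 0 with rfl | hc0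
  · left
    rw [map_zero, mul_zero]
  right
  have hfΩ : algebraMap 𝔠 Ω f ≠ 0 := by simpa using hf0
  have hcΩ : algebraMap 𝔎 Ω c ≠ 0 := by simpa using hc0
  rw [w.ord_mul hfΩ hcΩ, Fermat.Agent.S24.place_ord_algebraMap w c, add_zero]
  rcases s26gspc_dichotomy hld hgen hall w with ⟨Q, rfl⟩ | hw
  · rw [s26gspc_mapDomain_apply_con, s26gspc_ord_algebraMap]
    exact (hf Q).resolve_left hf0
  · rw [s26gspc_mapDomain_apply_of_trivial hld hgen hall B w hw, hw f]
    simp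

/-- **`𝔎 · L_K(B) ⊆ L_𝔎(Con B)`**. -/
theorem s26gspc_span_le_rr (B : Divisor K 𝔠) :
    Submodule.span 𝔎 (algebraMap 𝔠 Ω '' (riemannRochSpace B : Set 𝔠)) ≤
      riemannRochSpace (Finsupp.mapDomain (s26gspCon hld hgen hall) B) := by
  rw [Submodule.span_le]
  rintro _ ⟨f, hf, rfl⟩
  have := s26gspc_mem_rr hld hgen hall B hf 1
  rwa [map_one, mul_one] at this

/-- **`L_𝔎(Con B) ∩ μ(𝔠 ⊗ 𝔎) ⊆ 𝔎 · L_K(B)`**. -/
theorem s26gspc_rr_of_mem_range (B : Divisor K 𝔠) (A : 𝔠 ⊗[K] 𝔎)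
    (hA : s26gspMu K 𝔠 𝔎 Ω A ∈
      riemannRochSpace (Finsupp.mapDomain (s26gspCon hld hgen hall) B)) :
    s26gspMu K 𝔠 𝔎 Ω A ∈
      Submodule.span 𝔎 (algebraMap 𝔠 Ω '' (riemannRochSpace B : Set 𝔠)) := by
  classical
  set b := Module.Basis.ofVectorSpace K 𝔎 with hb
  set e := TensorProduct.equivFinsuppOfBasisRight (M := 𝔠) b with he
  set crd := e A with hcrd
  have hAsum : A = ∑ i ∈ crd.support, crd i ⊗ₜ[K] b i := by
    have h1 : e.symm crd = A := e.symm_apply_apply A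
    rw [← h1, he, TensorProduct.equivFinsuppOfBasisRight_symm_apply]
    rfl
  have hμ : s26gspMu K 𝔠 𝔎 Ω A =
      ∑ i ∈ crd.support, algebraMap 𝔠 Ω (crd i) * algebraMap 𝔎 Ω (b i) := by
    conv_lhs => rw [hAsum]
    rw [map_sum]
    exact Finset.sum_congr rfl fun i _ => s26gspMu_tmul _ _
  have hmem : ∀ i ∈ crd.support, crd i ∈ riemannRochSpace B := by
    intro i hi
    rw [mem_riemannRochSpace_iff]
    intro Q
    right
    obtain ⟨j₀, hj₀, hmin⟩ := Finset.exists_min_image crd.support (fun j => Q.ord (crd j))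
      ⟨i, hi⟩
    have hC2 := s26gspPlace_ord_sum_of_linearIndependent Q (hall Q) hld hgen crd.support
      (fun j => crd j) (fun j => b j) b.linearIndependent (Q.ord (crd j₀))
      (fun j hj => Or.inr (hmin j hj)) ⟨j₀, hj₀, Finsupp.mem_support_iff.1 hj₀, rfl⟩
    rw [← hμ] at hC2
    rw [mem_riemannRochSpace_iff] at hA
    have h1 := (hA (s26gspCon hld hgen hall Q)).resolve_left hC2.2
    rw [s26gspc_mapDomain_apply_con] at h1
    have h2 : (s26gspCon hld hgen hall Q).ord (s26gspMu K 𝔠 𝔎 Ω A) = Q.ord (crd j₀) := hC2.1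
    rw [h2] at h1
    exact h1.trans (hmin i hi)
  rw [hμ]
  refine Submodule.sum_mem _ fun i hi => ?_
  have h1 : algebraMap 𝔠 Ω (crd i) * algebraMap 𝔎 Ω (b i) = b i • algebraMap 𝔠 Ω (crd i) := by
    rw [Algebra.smul_def, mul_comm]
  rw [h1]
  exact Submodule.smul_mem _ _ (Submodule.subset_span ⟨crd i, hmem i hi, rfl⟩)

end Fermat.Agent.S26
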