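/-
S26-E, piece E-RR (C+), part 2 (helper96): the CURVE FACTS of the constant extension
`Ω = Frac (𝔠 ⊗[K] 𝔎)` over `𝔎`, from those of `𝔠 / K` (hypotheses `hxF`, `halgF` of
`s26erig_main_ac`).

* `s26gspc_linearIndependent` : `K`-linearly independent families of `𝔠` are `𝔎`-linearly
  independent in `Ω`;
* `s26gspc_transcendental` (**`hxF`**) : `x ∈ 𝔠` transcendental over `K` ⇒ transcendental over `𝔎`;
* `s26gspc_isAlgebraic` (**`halgF`**) : `𝔠 / K(x)` algebraic ⇒ `Ω / 𝔎(x)` algebraic.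
-/
import Fermat.Agent.S26.ERRGaussCon

set_option autoImplicit false
set_option linter.style.haveILetI false
set_option linter.unusedSectionVars false
set_option linter.unusedVariables false

noncomputable section

namespace Fermat.Agent.S26

open AlgebraicCurve TensorProduct IsLocalRing Polynomial IntermediateField

variable {K 𝔠 𝔎 Ω : Type*} [Field K] [Field 𝔠] [Field 𝔎] [Field Ω]
  [Algebra K 𝔠] [Algebra K 𝔎] [Algebra K Ω] [Algebra 𝔠 Ω] [Algebra 𝔎 Ω]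
  [IsScalarTower K 𝔠 Ω] [IsScalarTower K 𝔎 Ω]

/-- the `𝔎`-linear map `𝔎 ⊗[K] 𝔠 → Ω`. -/
def s26gspcPsi (K 𝔠 𝔎 Ω : Type*) [Field K] [Field 𝔠] [Field 𝔎] [Field Ω]
    [Algebra K 𝔠] [Algebra K 𝔎] [Algebra K Ω] [Algebra 𝔠 Ω] [Algebra 𝔎 Ω]
    [IsScalarTower K 𝔠 Ω] [IsScalarTower K 𝔎 Ω] : 𝔎 ⊗[K] 𝔠 →ₗ[𝔎] Ω :=
  LinearMap.liftBaseChange 𝔎 (IsScalarTower.toAlgHom K 𝔠 Ω).toLinearMap

theorem s26gspcPsi_tmul (c : 𝔎) (f : 𝔠) :
    s26gspcPsi K 𝔠 𝔎 Ω (c ⊗ₜ[K] f) = algebraMap 𝔎 Ω c * algebraMap 𝔠 Ω f := by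
  simp [s26gspcPsi, Algebra.smul_def]

theorem s26gspcPsi_eq (z : 𝔎 ⊗[K] 𝔠) :
    s26gspcPsi K 𝔠 𝔎 Ω z = s26gspMu K 𝔠 𝔎 Ω (TensorProduct.comm K 𝔎 𝔠 z) := by
  induction z using TensorProduct.induction_on with
  | zero => simp
  | tmul c f => rw [s26gspcPsi_tmul, TensorProduct.comm_tmul, s26gspMu_tmul, mul_comm]
  | add a b ha hb => rw [map_add, map_add, map_add, ha, hb]

theorem s26gspcPsi_injective (hld : Function.Injective (s26gspMu K 𝔠 𝔎 Ω)) :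
    Function.Injective (s26gspcPsi K 𝔠 𝔎 Ω) := by
  intro a b hab
  rw [s26gspcPsi_eq, s26gspcPsi_eq] at hab
  exact (TensorProduct.comm K 𝔎 𝔠).injective (hld hab)

/-- `K`-linearly independent families of `𝔠` stay linearly independent over `𝔎`. -/
theorem s26gspc_linearIndependent (hld : Function.Injective (s26gspMu K 𝔠 𝔎 Ω))
    {ι : Type*} {f : ι → 𝔠} (hf : LinearIndependent K f) :
    LinearIndependent 𝔎 (fun i => algebraMap 𝔠 Ω (f i)) := by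
  have h1 : LinearIndependent 𝔎 (fun i => (1 : 𝔎) ⊗ₜ[K] f i) :=
    Module.Flat.linearIndependent_one_tmul hf
  have h2 := h1.map' (s26gspcPsi K 𝔠 𝔎 Ω)
    (LinearMap.ker_eq_bot.2 (s26gspcPsi_injective hld))
  have h3 : (⇑(s26gspcPsi K 𝔠 𝔎 Ω) ∘ fun i => (1 : 𝔎) ⊗ₜ[K] f i) =
      fun i => algebraMap 𝔠 Ω (f i) := by
    funext i
    simp [s26gspcPsi_tmul]
  rwa [h3] at h2

/-- **`hxF`**: an element of `𝔠` transcendental over `K` is transcendental over `𝔎`. -/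
theorem s26gspc_transcendental (hld : Function.Injective (s26gspMu K 𝔠 𝔎 Ω)) {x : 𝔠}
    (hx : Transcendental K x) : Transcendental 𝔎 (algebraMap 𝔠 Ω x) := by
  have h1 : LinearIndependent K (fun n : ℕ => x ^ n) := by
    have h2 := (Polynomial.basisMonomials K).linearIndependent.map' (aeval x).toLinearMap
      (LinearMap.ker_eq_bot.2 (transcendental_iff_injective.1 hx))
    have h3 : (⇑(aeval x).toLinearMap ∘ ⇑(Polynomial.basisMonomials K)) =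
        fun n : ℕ => x ^ n := by
      funext n
      simp
    rwa [h3] at h2
  have h4 := s26gspc_linearIndependent hld h1
  rw [transcendental_iff]
  intro p hp
  rw [aeval_eq_sum_range] at hp
  have h5 := linearIndependent_iff'.1 h4 (Finset.range (p.natDegree + 1))
    (fun n => p.coeff n) (by
      rw [← hp]
      exact Finset.sum_congr rfl fun n _ => by rw [map_pow])
  ext n
  rw [coeff_zero]
  by_cases hn : n ∈ Finset.range (p.natDegree + 1)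
  · exact h5 n hn
  · rw [Finset.mem_range, not_lt] at hn
    exact coeff_eq_zero_of_natDegree_lt (by omega)

/-! ### `halgF` -/

theorem s26gspc_algebraMap_aeval (x : 𝔠) (r : K[X]) :
    algebraMap 𝔠 Ω (aeval x r) = aeval (algebraMap 𝔠 Ω x) (r.map (algebraMap K 𝔎)) := by
  rw [aeval_map_algebraMap (A := 𝔎) (B := Ω)]
  exact (aeval_algebraMap_apply (A := 𝔠) Ω x r).symm

/-- the image of `K(x)` lies in `𝔎(x)`. -/
theorem s26gspc_mem_adjoin {x y : 𝔠} (hy : y ∈ IntermediateField.adjoin K {x}) :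
    algebraMap 𝔠 Ω y ∈ IntermediateField.adjoin 𝔎 {algebraMap 𝔠 Ω x} := by
  rw [mem_adjoin_simple_iff] at hy ⊢
  obtain ⟨r, s, rfl⟩ := hy
  exact ⟨r.map (algebraMap K 𝔎), s.map (algebraMap K 𝔎), by
    rw [map_div₀, s26gspc_algebraMap_aeval (𝔎 := 𝔎) x r,
      s26gspc_algebraMap_aeval (𝔎 := 𝔎) x s]⟩

/-- the embedding `K(x) → 𝔎(x)`. -/
def s26gspcPhi (𝔎 Ω : Type*) [Field 𝔎] [Field Ω] [Algebra K 𝔎] [Algebra K Ω] [Algebra 𝔠 Ω]
    [Algebra 𝔎 Ω] [IsScalarTower K 𝔠 Ω] [IsScalarTower K 𝔎 Ω] (x : 𝔠) :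
    ↥(IntermediateField.adjoin K {x}) →+*
      ↥(IntermediateField.adjoin 𝔎 {algebraMap 𝔠 Ω x}) where
  toFun y := ⟨algebraMap 𝔠 Ω y, s26gspc_mem_adjoin y.2⟩
  map_one' := by ext; simp
  map_mul' a b := by ext; simp
  map_zero' := by ext; simp
  map_add' a b := by ext; simp

theorem s26gspcPhi_coe (x : 𝔠) (y : ↥(IntermediateField.adjoin K {x})) :
    ((s26gspcPhi 𝔎 Ω x y : ↥(IntermediateField.adjoin 𝔎 {algebraMap 𝔠 Ω x})) : Ω) =
      algebraMap 𝔠 Ω (y : 𝔠) := rfl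

/-- the image of an element algebraic over `K(x)` is algebraic over `𝔎(x)`. -/
theorem s26gspc_isAlgebraic_algebraMap {x f : 𝔠}
    (hf : IsAlgebraic (IntermediateField.adjoin K {x}) f) :
    IsAlgebraic (IntermediateField.adjoin 𝔎 {algebraMap 𝔠 Ω x}) (algebraMap 𝔠 Ω f) := by
  obtain ⟨p, hp0, hp⟩ := hf
  refine ⟨p.map (s26gspcPhi 𝔎 Ω x), ?_, ?_⟩
  · rw [Ne, Polynomial.map_eq_zero_iff (s26gspcPhi 𝔎 Ω x).injective]
    exact hp0
  · rw [aeval_def, eval₂_map]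
    have h1 : (algebraMap ↥(IntermediateField.adjoin 𝔎 {algebraMap 𝔠 Ω x}) Ω).comp
        (s26gspcPhi 𝔎 Ω x) =
        (algebraMap 𝔠 Ω).comp (algebraMap ↥(IntermediateField.adjoin K {x}) 𝔠) := by
      ext y
      rfl
    rw [h1, ← hom_eval₂, ← aeval_def, hp, map_zero]

/-- **`halgF`**: `𝔠 / K(x)` algebraic ⇒ `Ω / 𝔎(x)` algebraic. -/
theorem s26gspc_isAlgebraic (hgen : S26gspGen K 𝔠 𝔎 Ω) {x : 𝔠}
    (halg : Algebra.IsAlgebraic (IntermediateField.adjoin K {x}) 𝔠) :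
    Algebra.IsAlgebraic (IntermediateField.adjoin 𝔎 {algebraMap 𝔠 Ω x}) Ω := by
  have hμ : ∀ A : 𝔠 ⊗[K] 𝔎,
      IsAlgebraic (IntermediateField.adjoin 𝔎 {algebraMap 𝔠 Ω x}) (s26gspMu K 𝔠 𝔎 Ω A) := by
    intro A
    induction A using TensorProduct.induction_on with
    | zero =>
      rw [map_zero]
      exact isAlgebraic_zero
    | tmul f c =>
      rw [s26gspMu_tmul]
      refine IsAlgebraic.mul (s26gspc_isAlgebraic_algebraMap (halg.isAlgebraic f)) ?_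
      have hc : algebraMap 𝔎 Ω c ∈ IntermediateField.adjoin 𝔎 {algebraMap 𝔠 Ω x} :=
        (IntermediateField.adjoin 𝔎 {algebraMap 𝔠 Ω x}).algebraMap_mem c
      exact isAlgebraic_algebraMap
        (⟨algebraMap 𝔎 Ω c, hc⟩ : ↥(IntermediateField.adjoin 𝔎 {algebraMap 𝔠 Ω x}))
    | add a b ha hb =>
      rw [map_add]
      exact IsAlgebraic.add ha hb
  refine ⟨fun ω => ?_⟩
  obtain ⟨A, B, hB, hAB⟩ := hgen ω
  have h1 : ω = s26gspMu K 𝔠 𝔎 Ω A * (s26gspMu K 𝔠 𝔎 Ω B)⁻¹ := by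
    rw [← hAB]
    field_simp
  rw [h1]
  exact IsAlgebraic.mul (hμ A) (IsAlgebraic.inv (hμ B))

end Fermat.Agent.S26
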