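/-
S26-E, piece E-RR (C+), part 3 (helper96): FINITENESS of the constant extension
`Ω = Frac (𝔠 ⊗[K] 𝔎)` over `𝔎(x)`.

* `s26gspf_finiteDimensional` : `[𝔠 : K(x)] < ∞` ⇒ `[Ω : 𝔎(x)] < ∞`  (only `hgen`).
-/
import Fermat.Agent.S26.ERRGaussAlg

set_option autoImplicit false
set_option linter.style.haveILetI false
set_option linter.unusedSectionVars false
set_option linter.unusedVariables false

noncomputable section

namespace Fermat.Agent.S26

open AlgebraicCurve TensorProduct IsLocalRing Polynomial IntermediateField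

variable {K 𝔠 𝔎 Ω : Type*} [Field K] [Field 𝔠] [Field 𝔎] [Field Ω]
  [Algebra K 𝔠] [Algebra K 𝔎] [Algebra K Ω] [Algebra 𝔠 Ω] [Algebra 𝔎 Ω]
  [IsScalarTower K 𝔠 Ω] [IsScalarTower K 𝔎 Ω]

/-- `[𝔠 : K(x)] < ∞` ⇒ `[Ω : 𝔎(x)] < ∞`. -/
theorem s26gspf_finiteDimensional (hgen : S26gspGen K 𝔠 𝔎 Ω) (x : 𝔠)
    [FiniteDimensional (IntermediateField.adjoin K {x}) 𝔠] :
    FiniteDimensional (IntermediateField.adjoin 𝔎 {algebraMap 𝔠 Ω x}) Ω := by
  classical
  set Q := IntermediateField.adjoin 𝔎 {algebraMap 𝔠 Ω x} with hQ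
  let b := Module.finBasis (IntermediateField.adjoin K {x}) 𝔠
  let S : Set Ω := Set.range (fun i => algebraMap 𝔠 Ω (b i))
  haveI : Finite S := Set.finite_range _
  have hS : ∀ y ∈ S, IsIntegral Q y := by
    rintro y ⟨i, rfl⟩
    exact (s26gspc_isAlgebraic_algebraMap (𝔎 := 𝔎) (Ω := Ω)
      (Algebra.IsAlgebraic.isAlgebraic (R := IntermediateField.adjoin K {x}) (b i))).isIntegral
  haveI hfin : FiniteDimensional Q (IntermediateField.adjoin Q S) :=
    IntermediateField.finiteDimensional_adjoin hS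
  -- the image of `𝔠` lies in `E`
  have h𝔠 : ∀ f : 𝔠, algebraMap 𝔠 Ω f ∈ IntermediateField.adjoin Q S := by
    intro f
    rw [← b.sum_repr f, map_sum]
    refine sum_mem fun i _ => ?_
    rw [Algebra.smul_def, map_mul]
    refine mul_mem ?_ (IntermediateField.subset_adjoin Q S ⟨i, rfl⟩)
    have h1 : algebraMap 𝔠 Ω (algebraMap (IntermediateField.adjoin K {x}) 𝔠 (b.repr f i)) ∈ Q :=
      s26gspc_mem_adjoin (b.repr f i).2
    exact (IntermediateField.adjoin Q S).algebraMap_mem ⟨_, h1⟩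
  have h𝔎 : ∀ c : 𝔎, algebraMap 𝔎 Ω c ∈ IntermediateField.adjoin Q S := by
    intro c
    exact (IntermediateField.adjoin Q S).algebraMap_mem
      (⟨algebraMap 𝔎 Ω c, Q.algebraMap_mem c⟩ : Q)
  have hμ : ∀ A : 𝔠 ⊗[K] 𝔎, s26gspMu K 𝔠 𝔎 Ω A ∈ IntermediateField.adjoin Q S := by
    intro A
    induction A using TensorProduct.induction_on with
    | zero =>
      rw [map_zero]
      exact zero_mem _
    | tmul f c =>
      rw [s26gspMu_tmul]
      exact mul_mem (h𝔠 f) (h𝔎 c)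
    | add a b ha hb =>
      rw [map_add]
      exact add_mem ha hb
  have htop : IntermediateField.adjoin Q S = ⊤ := by
    rw [eq_top_iff]
    intro ω _
    obtain ⟨A, B, hB, hAB⟩ := hgen ω
    have h1 : ω = s26gspMu K 𝔠 𝔎 Ω A * (s26gspMu K 𝔠 𝔎 Ω B)⁻¹ := by
      rw [← hAB]
      field_simp
    rw [h1]
    exact mul_mem (hμ A) (inv_mem (hμ B))
  rw [htop] at hfin
  exact Module.Finite.equiv (IntermediateField.topEquiv (F := Q) (E := Ω)).toLinearEquiv

end Fermat.Agent.S26
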