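/-
S26-E, piece E-RR (C+), part 4 (helper96): the hypotheses `hpdF`, `hRR` of `s26erig_main_ac`
(S26/ERig3.lean) for the constant extension `Ω = Frac (𝔠 ⊗[K] 𝔎)` over `𝔎`, and
`s26erig_main_ac` INSTANTIATED on the Gauss places (only `i, j, hM, hKR, hz, hy` are left).

Setting: `hld`, `hgen` (S26/ERRGaussPlace.lean), `x ∈ 𝔠` transcendental over `K`,
`[𝔠 : K(x)] < ∞`.

* `s26gspf_hasPrincipalDivisors` (**`hpdF`**) : `HasPrincipalDivisors 𝔎 Ω`;
* `s26gspf_residue_finite` : the residue fields of `Ω / 𝔎` are finite over `𝔎`;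
* `s26gspf_hall` : `K` algebraically closed ⇒ every place of `𝔠 / K` has residue field `K`;
* `s26gspf_riemann` : Riemann's inequality for `Ω / 𝔎` with the constant `γ` of `𝔠 / K`;
* `s26gspf_hRR` (**`hRR`**) : `deg Δ = 0`, `deg E₀ = γ` ⇒ `L(Δ + Con E₀) ≠ 0`;
* `s26gspf_main_ac` : `s26erig_main_ac` with `hxF, halgF, hpdF, hΓL, hcon, hRR` discharged.
-/
import Fermat.Agent.S26.ERRGaussFin
import Fermat.Agent.S26.ERRE
import Fermat.Agent.S26.ERR2c
import Fermat.Agent.S26.ERig3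

set_option autoImplicit false
set_option linter.style.haveILetI false
set_option linter.unusedSectionVars false
set_option linter.unusedVariables false

noncomputable section

namespace Fermat.Agent.S26

open AlgebraicCurve TensorProduct IsLocalRing Polynomial IntermediateField Module

section General

variable {K 𝔠 𝔎 Ω : Type*} [Field K] [Field 𝔠] [Field 𝔎] [Field Ω]
  [Algebra K 𝔠] [Algebra K 𝔎] [Algebra K Ω] [Algebra 𝔠 Ω] [Algebra 𝔎 Ω]
  [IsScalarTower K 𝔠 Ω] [IsScalarTower K 𝔎 Ω]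

/-- **`hpdF`**: the constant extension has principal divisors. -/
theorem s26gspf_hasPrincipalDivisors (hld : Function.Injective (s26gspMu K 𝔠 𝔎 Ω))
    (hgen : S26gspGen K 𝔠 𝔎 Ω) {x : 𝔠} (hx : Transcendental K x)
    [FiniteDimensional (IntermediateField.adjoin K {x}) 𝔠] : HasPrincipalDivisors 𝔎 Ω := by
  haveI := s26gspf_finiteDimensional (𝔎 := 𝔎) (Ω := Ω) hgen x
  exact s26err_hasPrincipalDivisors (algebraMap 𝔠 Ω x) (s26gspc_transcendental hld hx)

/-- the residue fields of the constant extension are finite over `𝔎`. -/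
theorem s26gspf_residue_finite (hld : Function.Injective (s26gspMu K 𝔠 𝔎 Ω))
    (hgen : S26gspGen K 𝔠 𝔎 Ω) {x : 𝔠} (hx : Transcendental K x)
    [FiniteDimensional (IntermediateField.adjoin K {x}) 𝔠] (v : Place 𝔎 Ω) :
    Module.Finite 𝔎 v.ResidueField := by
  haveI := s26gspf_finiteDimensional (𝔎 := 𝔎) (Ω := Ω) hgen x
  exact s26err_residue_finite (algebraMap 𝔠 Ω x) (s26gspc_transcendental hld hx) v

/-- `K` algebraically closed ⇒ every place of `𝔠 / K` has residue field `K`. -/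
theorem s26gspf_hall [IsAlgClosed K] {x : 𝔠} (hx : Transcendental K x)
    [FiniteDimensional (IntermediateField.adjoin K {x}) 𝔠] (P : Place K 𝔠) :
    Function.Surjective (algebraMap K P.ResidueField) :=
  (Fermat.Agent.S24.algebraMap_residueField_bijective x hx
    (Algebra.IsAlgebraic.of_finite _ _) P).2

/-- **Riemann's inequality for `Ω / 𝔎`** with the constant of `𝔠 / K`. -/
theorem s26gspf_riemann (hld : Function.Injective (s26gspMu K 𝔠 𝔎 Ω))
    (hgen : S26gspGen K 𝔠 𝔎 Ω)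
    (hall : ∀ P : Place K 𝔠, Function.Surjective (algebraMap K P.ResidueField))
    {x : 𝔠} (hx : Transcendental K x)
    [FiniteDimensional (IntermediateField.adjoin K {x}) 𝔠] (γ : ℤ)
    (hR : ∀ A : Divisor K 𝔠,
      Divisor.degree A + 1 - γ ≤ (finrank K ↥(riemannRochSpace A) : ℤ))
    (Δ : Divisor 𝔎 Ω) :
    Divisor.degree Δ + 1 - γ ≤ (finrank 𝔎 ↥(riemannRochSpace Δ) : ℤ) := by
  haveI := s26gspf_hasPrincipalDivisors (𝔎 := 𝔎) (Ω := Ω) hld hgen hx
  obtain ⟨P₀⟩ := s26err_nonempty_place x hx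
  exact s26erre_riemann' hld hgen hall (s26gspf_residue_finite hld hgen hx) P₀ γ hR Δ

/-- **`hRR`**: `deg Δ = 0` and `deg E₀ = γ` ⇒ `L(Δ + Con E₀) ≠ 0`. -/
theorem s26gspf_hRR (hld : Function.Injective (s26gspMu K 𝔠 𝔎 Ω))
    (hgen : S26gspGen K 𝔠 𝔎 Ω)
    (hall : ∀ P : Place K 𝔠, Function.Surjective (algebraMap K P.ResidueField))
    {x : 𝔠} (hx : Transcendental K x)
    [FiniteDimensional (IntermediateField.adjoin K {x}) 𝔠] (γ : ℤ)
    (hR : ∀ A : Divisor K 𝔠,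
      Divisor.degree A + 1 - γ ≤ (finrank K ↥(riemannRochSpace A) : ℤ))
    (E₀ : Divisor K 𝔠) (hE₀ : γ ≤ Divisor.degree E₀)
    (Δ : Divisor 𝔎 Ω) (hΔ : 0 ≤ Divisor.degree Δ) :
    ∃ f : Ω, f ≠ 0 ∧
      f ∈ riemannRochSpace (Δ + Finsupp.mapDomain (s26gspCon hld hgen hall) E₀) := by
  have h1 := s26gspf_riemann hld hgen hall hx γ hR
    (Δ + Finsupp.mapDomain (s26gspCon hld hgen hall) E₀)
  rw [map_add, s26gspc_degree] at h1
  have h2 : 0 < finrank 𝔎
      ↥(riemannRochSpace (Δ + Finsupp.mapDomain (s26gspCon hld hgen hall) E₀)) := by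
    have : (0 : ℤ) < (finrank 𝔎
      ↥(riemannRochSpace (Δ + Finsupp.mapDomain (s26gspCon hld hgen hall) E₀)) : ℤ) := by
      omega
    exact_mod_cast this
  haveI := Module.nontrivial_of_finrank_pos h2
  obtain ⟨⟨f, hf⟩, hf0⟩ := exists_ne (0 :
    ↥(riemannRochSpace (Δ + Finsupp.mapDomain (s26gspCon hld hgen hall) E₀)))
  exact ⟨f, fun h => hf0 (Subtype.ext h), hf⟩

end General

universe u v w

variable {K : Type v} {𝔠 : Type w} {𝔎 Ω : Type u} [Field K] [Field 𝔠] [Field 𝔎] [Field Ω]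
  [Algebra K 𝔠] [Algebra K 𝔎] [Algebra K Ω] [Algebra 𝔠 Ω] [Algebra 𝔎 Ω]
  [IsScalarTower K 𝔠 Ω] [IsScalarTower K 𝔎 Ω]

/-- **`s26erig_main_ac` on the Gauss places of the constant extension** `Ω = Frac (𝔠 ⊗[K] 𝔎)`:
the hypotheses `hxF`, `halgF`, `hpdF`, `hΓL`, `hcon`, `hRR` are discharged. -/
theorem s26gspf_main_ac [IsAlgClosed K] [IsAlgClosed 𝔎]
    (hld : Function.Injective (s26gspMu K 𝔠 𝔎 Ω)) (hgen : S26gspGen K 𝔠 𝔎 Ω)
    (hall : ∀ P : Place K 𝔠, Function.Surjective (algebraMap K P.ResidueField))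
    {R₀ M : Type*} [CommRing R₀] [IsLocalRing R₀] [Field M]
    (i : R₀ →+* M) (j : M →+* 𝔎)
    (hM : ∀ x : 𝔎, j.IsIntegralElem x → x ∈ j.range)
    (hKR : ∀ a : K, ∃ r : R₀, j (i r) = algebraMap K 𝔎 a)
    (x : 𝔠) (hx : Transcendental K x)
    [FiniteDimensional (IntermediateField.adjoin K {x}) 𝔠] (γ : ℤ)
    (hR : ∀ A : Divisor K 𝔠,
      Divisor.degree A + 1 - γ ≤ (finrank K ↥(riemannRochSpace A) : ℤ))
    (E₀ : Divisor K 𝔠) (hE₀ : γ ≤ Divisor.degree E₀)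
    (Δ : Divisor 𝔎 Ω) (hΔ : 0 ≤ Divisor.degree Δ)
    (hz : ∀ V : ValuationSubring 𝔎, (∀ r, j (i r) ∈ V) →
      (∀ r ∈ maximalIdeal R₀, j (i r) ∈ V.nonunits) →
      S26erigRedAt (s26gspCon hld hgen hall) E₀ Δ V)
    (hy : ∃ V : ValuationSubring 𝔎, (∀ m, j m ∈ V) ∧
      S26erigRedAt (s26gspCon hld hgen hall) E₀ Δ V) :
    ∃ G : Ω, G ≠ 0 ∧ ∀ P : Place 𝔎 Ω, P.ord G = Δ P :=
  s26erig_main_ac i j hM hKR x hx (Algebra.IsAlgebraic.of_finite _ _)
    (s26gspc_transcendental hld hx)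
    (s26gspc_isAlgebraic hgen (Algebra.IsAlgebraic.of_finite _ _))
    E₀ Δ (s26gspCon hld hgen hall)
    (s26gspf_hasPrincipalDivisors hld hgen hx)
    (s26gspc_hΓL hld)
    (s26gspc_hcon hld hgen hall)
    (s26gspf_hRR hld hgen hall hx γ hR E₀ hE₀ Δ hΔ) hz hy

end Fermat.Agent.S26
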