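import Mathlib

/-!
# S26-E (RR-D), part 1 (helper65): pure algebra

* `s26errd_exists_mul_mem` : denominators in a multiplicative set (Dedekind domains);
* `s26errd_trace`, `s26errd_dualBasis` : the trace and the trace-dual basis commute with a base
  change of fields that transfers a basis;
* `s26errd_int_mem_span` : the integral closure after such a base change is spanned by the image.
-/

set_option autoImplicit false
set_option linter.unusedSectionVars false

open IsDedekindDomain WithZero

namespace Fermat.Agent.S26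


/-- In `ℤᵐ⁰`: a power of an element `< 1` kills any given element. -/
theorem s26errd_pow_mul_le_one (a b : ℤᵐ⁰) (ha : a < 1) : ∃ n : ℕ, a ^ n * b ≤ 1 := by
  rcases eq_or_ne b 0 with rfl | hb
  · exact ⟨0, by simp⟩
  rcases eq_or_ne a 0 with rfl | ha0
  · exact ⟨1, by simp⟩
  have hla : log a < 0 := by
    have := (WithZero.log_lt_log ha0 one_ne_zero).mpr ha
    simpa using this
  refine ⟨(log b).toNat, ?_⟩
  rw [← WithZero.log_le_log (mul_ne_zero (pow_ne_zero _ ha0) hb) one_ne_zero,
    WithZero.log_mul (pow_ne_zero _ ha0) hb, WithZero.log_pow, WithZero.log_one]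
  have h1 : log b ≤ ((log b).toNat : ℤ) := Int.self_le_toNat _
  have h2 : ((log b).toNat : ℤ) * log a ≤ -((log b).toNat : ℤ) := by nlinarith [Int.natCast_nonneg (log b).toNat]
  simp only [nsmul_eq_mul]
  linarith

variable {C F : Type*} [CommRing C] [IsDedekindDomain C] [Field F] [Algebra C F]
  [IsFractionRing C F]

/-- **Denominators in a multiplicative set.**  If `f ∈ Frac C` is integral at every nonzero
prime of the Dedekind domain `C` that is disjoint from the multiplicative set `S`, then
`s f ∈ C` for some `s ∈ S`. -/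
theorem s26errd_exists_mul_mem (S : Submonoid C) (f : F)
    (h : ∀ v : HeightOneSpectrum C, (∀ s ∈ S, s ∉ v.asIdeal) → v.valuation F f ≤ 1) :
    ∃ s ∈ S, ∃ c : C, algebraMap C F s * f = algebraMap C F c := by
  classical
  have hfin : (HeightOneSpectrum.Support C f).Finite := HeightOneSpectrum.Support.finite C f
  have hex : ∀ v : HeightOneSpectrum C, ∃ s ∈ S, v.valuation F (algebraMap C F s) * v.valuation F f ≤ 1 := by
    intro v
    by_cases hv : ∀ s ∈ S, s ∉ v.asIdeal
    · exact ⟨1, S.one_mem, by simpa using h v hv⟩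
    · simp only [not_forall, not_not] at hv
      obtain ⟨s, hs, hsv⟩ := hv
      have hlt : v.valuation F (algebraMap C F s) < 1 := (v.valuation_lt_one_iff_mem s).mpr hsv
      obtain ⟨n, hn⟩ := s26errd_pow_mul_le_one _ (v.valuation F f) hlt
      exact ⟨s ^ n, S.pow_mem hs n, by simpa using hn⟩
  choose t ht htv using hex
  refine ⟨∏ v ∈ hfin.toFinset, t v, Submonoid.prod_mem _ (fun v _ => ht v), ?_⟩
  have hmem := HeightOneSpectrum.mem_integers_of_valuation_le_one (R := C) F
    (algebraMap C F (∏ v ∈ hfin.toFinset, t v) * f) ?_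
  · obtain ⟨c, hc⟩ := hmem
    exact ⟨c, hc.symm⟩
  intro v
  rw [map_mul]
  by_cases hv : v ∈ hfin.toFinset
  · rw [← Finset.mul_prod_erase _ _ hv, map_mul, map_mul, mul_right_comm]
    calc v.valuation F (algebraMap C F (t v)) * v.valuation F f *
          v.valuation F (algebraMap C F (∏ x ∈ hfin.toFinset.erase v, t x))
        ≤ 1 * 1 := mul_le_mul' (htv v) (v.valuation_le_one _)
      _ = 1 := one_mul 1
  · have hv' : v.valuation F f ≤ 1 := by
      by_contra hcon
      exact hv (hfin.mem_toFinset.mpr (not_le.mp hcon))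
    calc v.valuation F (algebraMap C F (∏ x ∈ hfin.toFinset, t x)) * v.valuation F f
        ≤ 1 * 1 := mul_le_mul' (v.valuation_le_one _) hv'
      _ = 1 := one_mul 1



section traceBC

variable {Q F Q₀ E : Type*} [Field Q] [Field F] [Algebra Q F] [Field Q₀] [Field E]
  [Algebra Q₀ E]
  (φ : Q₀ →+* Q) (ψ : E →+* F) (hcomm : ∀ a, ψ (algebraMap Q₀ E a) = algebraMap Q F (φ a))
  {ι : Type*} [Fintype ι] [DecidableEq ι] (e : Module.Basis ι Q₀ E) (b : Module.Basis ι Q F)
  (hb : ∀ i, b i = ψ (e i))

include hcomm hb in
/-- coordinates in the transferred basis -/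
theorem s26errd_repr (z : E) (i : ι) : b.repr (ψ z) i = φ (e.repr z i) := by
  have hz : ψ z = ∑ j, φ (e.repr z j) • b j := by
    conv_lhs => rw [← e.sum_repr z]
    rw [map_sum]
    refine Finset.sum_congr rfl fun j _ => ?_
    rw [Algebra.smul_def, map_mul, hcomm, hb, Algebra.smul_def]
  rw [hz, b.repr_sum_self]

include hcomm hb in
/-- the trace commutes with the base change -/
theorem s26errd_trace (y : E) : Algebra.trace Q F (ψ y) = φ (Algebra.trace Q₀ E y) := by
  rw [Algebra.trace_eq_matrix_trace b, Algebra.trace_eq_matrix_trace e, Matrix.trace,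
    Matrix.trace, map_sum]
  refine Finset.sum_congr rfl fun i _ => ?_
  simp only [Matrix.diag_apply]
  rw [Algebra.leftMulMatrix_eq_repr_mul, Algebra.leftMulMatrix_eq_repr_mul, hb, ← map_mul]
  exact s26errd_repr φ ψ hcomm e b hb _ i

variable [FiniteDimensional Q F] [Algebra.IsSeparable Q F] [FiniteDimensional Q₀ E]
  [Algebra.IsSeparable Q₀ E]

include hcomm hb in
/-- the trace-dual basis of the transferred basis is the transferred trace-dual basis -/
theorem s26errd_dualBasis (i : ι) :
    (Algebra.traceForm Q F).dualBasis (traceForm_nondegenerate Q F) b i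
      = ψ ((Algebra.traceForm Q₀ E).dualBasis (traceForm_nondegenerate Q₀ E) e i) := by
  have h := (LinearMap.BilinForm.dualBasis_eq_iff (traceForm_nondegenerate Q F) b
    (fun i => ψ ((Algebra.traceForm Q₀ E).dualBasis (traceForm_nondegenerate Q₀ E) e i))).mpr ?_
  · exact congrFun h i
  intro i j
  rw [Algebra.traceForm_apply, hb, ← map_mul, s26errd_trace φ ψ hcomm e b hb,
    ← Algebra.traceForm_apply, LinearMap.BilinForm.apply_dualBasis_left]
  split_ifs <;> simp

end traceBC

section intClosure

variable {A Q F Q₀ E : Type*} [CommRing A] [IsDomain A] [IsIntegrallyClosed A] [Field Q]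
  [Algebra A Q] [IsFractionRing A Q] [Field F] [Algebra Q F] [Algebra A F]
  [IsScalarTower A Q F] [FiniteDimensional Q F] [Algebra.IsSeparable Q F]
  [Field Q₀] [Field E] [Algebra Q₀ E] [FiniteDimensional Q₀ E] [Algebra.IsSeparable Q₀ E]
  (φ : Q₀ →+* Q) (ψ : E →+* F) (hcomm : ∀ a, ψ (algebraMap Q₀ E a) = algebraMap Q F (φ a))
  {ι : Type*} [Fintype ι] [DecidableEq ι] (e : Module.Basis ι Q₀ E) (b : Module.Basis ι Q F)
  (hb : ∀ i, b i = ψ (e i))

include hcomm hb in
/-- **Integral closure and base change.**  If the transferred basis is integral over `A`, every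
element of `F` integral over `A` is an `A`-combination of elements of `ψ E`. -/
theorem s26errd_int_mem_span (hint : ∀ i, IsIntegral A (ψ (e i))) (f : F)
    (hf : IsIntegral A f) :
    f ∈ Submodule.span A (Set.range ψ) := by
  have hint' : ∀ i, IsIntegral A (b i) := fun i => by rw [hb]; exact hint i
  have h := integralClosure_le_span_dualBasis (A := A) (K := Q) (L := F) b hint'
  have hf' : f ∈ Subalgebra.toSubmodule (integralClosure A F) := hf
  refine Submodule.span_mono ?_ (h hf')
  rintro _ ⟨i, rfl⟩
  exact ⟨_, (s26errd_dualBasis φ ψ hcomm e b hb i).symm⟩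

end intClosure


end Fermat.Agent.S26
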