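import Mathlib

/-!
# S26-E (RR-D), part 2 (helper65): linear disjointness over `K(x)`

Fields `K ⊆ E`, `K ⊆ L`, both inside `F`; `x ∈ E` transcendental over `K`, `ξ` its image in `F`.
If `K`-independent families of `E` stay independent over `L` (`hLD`), and `F` is the fraction
field of the ring `T = L[E]` (`hgen`), then a `K(x)`-basis of `E` is an `L(ξ)`-basis of `F`.

* `s26errd_linInd` : independence; `s26errd_span` : spanning;
* `s26errdPhi` : the map `K(x) → L(ξ)`; `s26errdT` : the ring `T`.
-/

set_option autoImplicit false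
set_option linter.unusedSectionVars false

open IsDedekindDomain WithZero Polynomial IntermediateField algebraAdjoinAdjoin

namespace Fermat.Agent.S26

section setting

variable {K E L F : Type*} [Field K] [Field E] [Field L] [Field F]
  [Algebra K E] [Algebra K L] [Algebra K F] [Algebra E F] [Algebra L F]
  [IsScalarTower K E F] [IsScalarTower K L F]

/-- the powers of a transcendental element are linearly independent -/
theorem s26errd_linInd_pow {x : E} (hx : Transcendental K x) :
    LinearIndependent K (fun n : ℕ => x ^ n) := by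
  have h := (Polynomial.basisMonomials K).linearIndependent.map' (Polynomial.aeval x).toLinearMap
    (LinearMap.ker_eq_bot.mpr (transcendental_iff_injective.mp hx))
  have hfun : (fun n : ℕ => x ^ n) = (Polynomial.aeval x).toLinearMap ∘ (Polynomial.basisMonomials K) := by
    funext n
    simp
  rw [hfun]
  exact h

/-- **Linear disjointness over `K(x)`.**  If `K`-independent families of `E` stay independent
over `L`, then `K(x)`-independent families of `E` stay independent over `L(ξ)`. -/
theorem s26errd_linInd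
    (hLD : ∀ (ι : Type) (e : ι → E), LinearIndependent K e →
      LinearIndependent L (fun i => algebraMap E F (e i)))
    {x : E} (hx : Transcendental K x) {ξ : F} (hξ : algebraMap E F x = ξ) {ι : Type} (e : ι → E)
    (he : LinearIndependent K⟮x⟯ e) :
    LinearIndependent L⟮ξ⟯ (fun i => algebraMap E F (e i)) := by
  classical
  rw [← LinearIndependent.iff_fractionRing (Algebra.adjoin L {ξ}) L⟮ξ⟯]
  -- the product family
  have hb : LinearIndependent K (fun n : ℕ => (AdjoinSimple.gen K x) ^ n) := by
    refine LinearIndependent.of_comp (IsScalarTower.toAlgHom K K⟮x⟯ E).toLinearMap ?_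
    have : (IsScalarTower.toAlgHom K K⟮x⟯ E).toLinearMap ∘ (fun n : ℕ => (AdjoinSimple.gen K x) ^ n)
        = fun n : ℕ => x ^ n := by
      funext n
      simp
    rw [this]
    exact s26errd_linInd_pow hx
  have hprod := hLD (ℕ × ι) _ (linearIndependent_smul hb he)
  rw [linearIndependent_iff'] at hprod ⊢
  intro s a hsum i hi
  -- polynomials representing the coefficients
  have hrep : ∀ j : ι, ∃ p : L[X], aeval ξ p = ((a j : Algebra.adjoin L {ξ}) : F) := by
    intro j
    have hj : ((a j : Algebra.adjoin L {ξ}) : F) ∈ (aeval ξ : L[X] →ₐ[L] F).range := by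
      rw [← Algebra.adjoin_singleton_eq_range_aeval]
      exact (a j).2
    obtain ⟨p, hp⟩ := hj
    exact ⟨p, hp⟩
  choose p hp using hrep
  obtain ⟨N, hN⟩ : ∃ N : ℕ, ∀ j ∈ s, (p j).natDegree < N := by
    refine ⟨s.sup (fun j => (p j).natDegree) + 1, fun j hj => ?_⟩
    exact Nat.lt_succ_of_le (Finset.le_sup (f := fun j => (p j).natDegree) hj)
  have hzero := hprod (Finset.range N ×ˢ s) (fun q => (p q.2).coeff q.1) ?_
  · have hpi : p i = 0 := by
      ext n
      by_cases hn : n < N
      · simpa using hzero (n, i) (Finset.mem_product.mpr ⟨Finset.mem_range.mpr hn, hi⟩)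
      · rw [Polynomial.coeff_eq_zero_of_natDegree_lt (lt_of_lt_of_le (hN i hi) (not_lt.mp hn))]
        simp
    have := hp i
    rw [hpi, map_zero] at this
    exact Subtype.ext (by simpa using this.symm)
  · rw [Finset.sum_product, Finset.sum_comm]
    rw [← hsum]
    refine Finset.sum_congr rfl fun j hj => ?_
    have h1 : (a j) • algebraMap E F (e j) = aeval ξ (p j) * algebraMap E F (e j) := by
      rw [hp j]
      rfl
    rw [h1, Polynomial.aeval_eq_sum_range' (hN j hj), Finset.sum_mul]
    refine Finset.sum_congr rfl fun n _ => ?_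
    have h2 : algebraMap E F ((AdjoinSimple.gen K x ^ n : K⟮x⟯) • e j)
        = ξ ^ n * algebraMap E F (e j) := by
      rw [Algebra.smul_def, map_mul, ← hξ]
      simp
    rw [h2, Algebra.smul_def, Algebra.smul_def]
    ring


/-- The subring of `F` generated by `E` and `L` (the image of `E ⊗[K] L`). -/
def s26errdT (E L F : Type*) [Field E] [Field L] [Field F] [Algebra E F] [Algebra L F] :
    Subalgebra L F :=
  Algebra.adjoin L (Set.range (algebraMap E F))

theorem s26errd_map_mem_T (y : E) : algebraMap E F y ∈ s26errdT E L F :=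
  Algebra.subset_adjoin ⟨y, rfl⟩

/-- compatibility of the two evaluations -/
theorem s26errd_map_aeval (x : E) (r : K[X]) :
    algebraMap E F (aeval x r) = aeval (algebraMap E F x) (r.map (algebraMap K L)) := by
  rw [Polynomial.aeval_map_algebraMap, Polynomial.aeval_algebraMap_apply]

/-- `K(x)` maps into `L(ξ)`. -/
theorem s26errd_map_mem (x : E) {ξ : F} (hξ : algebraMap E F x = ξ) (a : E) (ha : a ∈ K⟮x⟯) :
    algebraMap E F a ∈ L⟮ξ⟯ := by
  subst hξ
  rw [IntermediateField.mem_adjoin_simple_iff] at ha
  obtain ⟨r, s, rfl⟩ := ha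
  rw [map_div₀, s26errd_map_aeval (L := L), s26errd_map_aeval (L := L)]
  have hmem : ∀ p : L[X], aeval (algebraMap E F x) p ∈ L⟮algebraMap E F x⟯ := by
    intro p
    rw [IntermediateField.mem_adjoin_simple_iff]
    exact ⟨p, 1, by simp⟩
  exact div_mem (hmem _) (hmem _)

/-- the map `K(x) → L(ξ)` -/
noncomputable def s26errdPhi (L : Type*) [Field L] [Algebra K L] [Algebra L F]
    [IsScalarTower K L F] (x : E) {ξ : F} (hξ : algebraMap E F x = ξ) : K⟮x⟯ →+* L⟮ξ⟯ :=
  ((algebraMap E F).comp (algebraMap K⟮x⟯ E)).codRestrict L⟮ξ⟯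
    (fun a => s26errd_map_mem x hξ a.1 a.2)

theorem s26errdPhi_comm (x : E) {ξ : F} (hξ : algebraMap E F x = ξ) (a : K⟮x⟯) :
    algebraMap E F (algebraMap K⟮x⟯ E a)
      = algebraMap L⟮ξ⟯ F (s26errdPhi L x hξ a) := rfl

/-- **Spanning.**  A `K(x)`-basis of `E` spans `F` over `L(ξ)`. -/
theorem s26errd_span
    (hgen : ∀ z : F, ∃ a ∈ s26errdT E L F, ∃ b ∈ s26errdT E L F, b ≠ 0 ∧ z * b = a)
    {x : E} {ξ : F} (hξ : algebraMap E F x = ξ) {ι : Type*} [Finite ι]
    (e : Module.Basis ι K⟮x⟯ E) :
    ⊤ ≤ Submodule.span L⟮ξ⟯ (Set.range (fun i => algebraMap E F (e i))) := by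
  classical
  have := Fintype.ofFinite ι
  set M := Submodule.span L⟮ξ⟯ (Set.range (fun i => algebraMap E F (e i))) with hM
  -- (b) the image of `E` lies in `M`
  have hE : ∀ y : E, algebraMap E F y ∈ M := by
    intro y
    have hy : algebraMap E F y = ∑ i, algebraMap E F (e.repr y i • e i) := by
      conv_lhs => rw [← e.sum_repr y]
      rw [map_sum]
    rw [hy]
    refine Submodule.sum_mem _ fun i _ => ?_
    rw [Algebra.smul_def, map_mul, s26errdPhi_comm (L := L) x hξ, ← Algebra.smul_def]
    exact Submodule.smul_mem _ _ (Submodule.subset_span ⟨i, rfl⟩)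
  -- the subalgebra
  set S : Subalgebra L⟮ξ⟯ F := Algebra.adjoin L⟮ξ⟯ (Set.range (algebraMap E F)) with hS
  have hSM : Subalgebra.toSubmodule S ≤ M := by
    rw [hS, Algebra.adjoin_eq_span]
    have hcl : (Submonoid.closure (Set.range (algebraMap E F)) : Set F)
        = Set.range (algebraMap E F) := by
      have := Submonoid.closure_eq (MonoidHom.mrange ((algebraMap E F : E →+* F) : E →* F))
      rw [MonoidHom.coe_mrange] at this
      exact congrArg (fun s : Submonoid F => (s : Set F)) this
    rw [hcl, Submodule.span_le]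
    rintro _ ⟨y, rfl⟩
    exact hE y
  have hfg : (Subalgebra.toSubmodule S).FG := by
    have hMfg : M.FG := ⟨(Finset.univ.image fun i => algebraMap E F (e i)), by
      rw [hM]; congr 1; ext z; simp⟩
    have hle : M ≤ Subalgebra.toSubmodule S := by
      rw [hM, Submodule.span_le]
      rintro _ ⟨i, rfl⟩
      exact Algebra.subset_adjoin ⟨e i, rfl⟩
    have : Subalgebra.toSubmodule S = M := le_antisymm hSM hle
    rw [this]
    exact hMfg
  have hT : ∀ a ∈ s26errdT E L F, a ∈ S := by
    intro a ha
    induction ha using Algebra.adjoin_induction with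
    | mem z hz => exact Algebra.subset_adjoin hz
    | algebraMap l =>
      rw [IsScalarTower.algebraMap_apply L L⟮ξ⟯ F]
      exact S.algebraMap_mem _
    | add u v _ _ hu hv => exact S.add_mem hu hv
    | mul u v _ _ hu hv => exact S.mul_mem hu hv
  intro z _
  obtain ⟨a, ha, b, hb, hb0, hzb⟩ := hgen z
  have hbinv : b⁻¹ ∈ S :=
    S.inv_mem_of_algebraic (x := ⟨b, hT b hb⟩)
      ((IsIntegral.of_mem_of_fg S hfg b (hT b hb)).isAlgebraic)
  have hz : z = a * b⁻¹ := by
    rw [← hzb, mul_assoc, mul_inv_cancel₀ hb0, mul_one]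
  rw [hz]
  exact hSM (S.mul_mem (hT a ha) hbinv)


end setting

end Fermat.Agent.S26
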