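import Mathlib
import Fermat.Agent.S24.PlaceDict
import Fermat.Agent.S26.ERRD1
import Fermat.Agent.S26.ERRD2

/-!
# S26-E (RR-D), part 3 (helper65): the core

`s26errd_core` : fields `K ⊆ E`, `K ⊆ L` inside `F`, linearly disjoint over `K`, `F = Frac (L[E])`,
`x ∈ E` transcendental over `K` with `E / K(x)` finite separable.  An element of `F` that lies in
the valuation ring of every place of `F / L` containing `E` lies in the ring `T = L[E]`.

Proof: `C` = integral closure of `L[ξ]` in `F` is a Dedekind domain; the primes of `C` that avoid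
`K[x] ∖ 0` give places containing `E`; so `q(x) f ∈ C` for some `q ≠ 0` (`s26errd_exists_mul_mem`);
and `C ⊆ L[ξ]`-span of `E` by the trace-dual basis of a transferred integral basis.
-/

set_option autoImplicit false
set_option linter.unusedSectionVars false
set_option linter.style.haveILetI false

open AlgebraicCurve IsDedekindDomain WithZero Polynomial IntermediateField algebraAdjoinAdjoin

namespace Fermat.Agent.S26

section core

variable {K E L F : Type*} [Field K] [Field E] [Field L] [Field F]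
  [Algebra K E] [Algebra K L] [Algebra K F] [Algebra E F] [Algebra L F]
  [IsScalarTower K E F] [IsScalarTower K L F]

/-- linearly independent powers give a transcendental element -/
theorem s26errd_transcendental_of_linInd {ξ : F}
    (h : LinearIndependent L (fun n : ℕ => ξ ^ n)) : Transcendental L ξ := by
  rw [transcendental_iff]
  intro p hp
  rw [Polynomial.aeval_eq_sum_range] at hp
  have h0 := linearIndependent_iff'.mp h (Finset.range (p.natDegree + 1)) (fun n => p.coeff n) hp
  ext n
  by_cases hn : n ∈ Finset.range (p.natDegree + 1)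
  · simpa using h0 n hn
  · rw [Finset.mem_range, not_lt] at hn
    simp [Polynomial.coeff_eq_zero_of_natDegree_lt (Nat.lt_of_succ_le hn)]

/-- `L[ξ]` is a principal ideal ring. -/
theorem s26errd_isPID {ξ : F} (hξ : Transcendental L ξ) :
    IsPrincipalIdealRing (Algebra.adjoin L {ξ}) :=
  IsPrincipalIdealRing.of_surjective
    (Polynomial.algEquivOfTranscendental L ξ hξ).toRingEquiv.toRingHom
    (Polynomial.algEquivOfTranscendental L ξ hξ).surjective

/-- **A prime that avoids `K[x] ∖ 0` contains `E` in its valuation ring.** -/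
theorem s26errd_place_contains
    {C : Type*} [CommRing C] [IsDedekindDomain C] [Algebra C F] [IsFractionRing C F]
    (v : HeightOneSpectrum C) {x : E} [FiniteDimensional K⟮x⟯ E]
    (hunit : ∀ q : K[X], q ≠ 0 → v.valuation F (algebraMap E F (aeval x q)) = 1)
    (y : E) : v.valuation F (algebraMap E F y) ≤ 1 := by
  have hQ : ∀ a : K⟮x⟯, algebraMap E F (algebraMap K⟮x⟯ E a) ∈ (v.valuation F).valuationSubring := by
    intro a
    rw [Valuation.mem_valuationSubring_iff]
    obtain ⟨r, s, hrs⟩ := (IntermediateField.mem_adjoin_simple_iff K (a : E)).mp a.2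
    have ha : algebraMap K⟮x⟯ E a = aeval x r / aeval x s := hrs
    rw [ha, map_div₀, map_div₀]
    rcases eq_or_ne s 0 with rfl | hs
    · simp
    rcases eq_or_ne r 0 with rfl | hr
    · simp
    rw [hunit r hr, hunit s hs]
    simp
  let ι : K⟮x⟯ →+* (v.valuation F).valuationSubring :=
    ((algebraMap E F).comp (algebraMap K⟮x⟯ E)).codRestrict
      (v.valuation F).valuationSubring.toSubring hQ
  have hy : IsIntegral K⟮x⟯ y := IsIntegral.of_finite K⟮x⟯ y
  have hy' : IsIntegral (v.valuation F).valuationSubring (algebraMap E F y) := by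
    obtain ⟨p, hp, hpy⟩ := hy
    refine ⟨p.map ι, hp.map _, ?_⟩
    rw [Polynomial.eval₂_map]
    have : (algebraMap (v.valuation F).valuationSubring F).comp ι
        = (algebraMap E F).comp (algebraMap K⟮x⟯ E) := rfl
    rw [this, ← Polynomial.hom_eval₂, hpy, map_zero]
  obtain ⟨z, hz⟩ := IsIntegrallyClosed.isIntegral_iff.mp hy'
  rw [← Valuation.mem_valuationSubring_iff, ← hz]
  exact z.2


/-- an integral basis of `E` over `K(x)`, indexed by `Fin n` -/
theorem s26errd_exists_basis (x : E) [FiniteDimensional K⟮x⟯ E] :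
    ∃ (n : ℕ) (e : Module.Basis (Fin n) K⟮x⟯ E),
      ∀ i, IsIntegral (Algebra.adjoin K {x}) (e i) := by
  classical
  obtain ⟨s, e₀, he₀⟩ :=
    FiniteDimensional.exists_is_basis_integral (Algebra.adjoin K {x}) K⟮x⟯ E
  refine ⟨Fintype.card s, e₀.reindex (Fintype.equivFin s), fun i => ?_⟩
  simp only [Module.Basis.reindex_apply]
  exact he₀ _

/-- the transferred basis -/
theorem s26errd_exists_basis_F
    (hLD : ∀ (ι : Type) (e : ι → E), LinearIndependent K e →
      LinearIndependent L (fun i => algebraMap E F (e i)))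
    (hgen : ∀ z : F, ∃ a ∈ s26errdT E L F, ∃ b ∈ s26errdT E L F, b ≠ 0 ∧ z * b = a)
    {x : E} (hx : Transcendental K x) {ξ : F} (hξ : algebraMap E F x = ξ) {n : ℕ}
    (e : Module.Basis (Fin n) K⟮x⟯ E) :
    ∃ b : Module.Basis (Fin n) L⟮ξ⟯ F, ∀ i, b i = algebraMap E F (e i) := by
  have hli := s26errd_linInd hLD hx hξ e e.linearIndependent
  have hsp := s26errd_span hgen hξ e
  exact ⟨Module.Basis.mk hli hsp, fun i => by simp only [Module.Basis.mk_apply]⟩

/-- `F / L(ξ)` is separable -/
theorem s26errd_isSeparable {x : E} {ξ : F} (hξ : algebraMap E F x = ξ)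
    [FiniteDimensional K⟮x⟯ E] [Algebra.IsSeparable K⟮x⟯ E] {n : ℕ}
    (e : Module.Basis (Fin n) K⟮x⟯ E) (b : Module.Basis (Fin n) L⟮ξ⟯ F)
    (hb : ∀ i, b i = algebraMap E F (e i)) :
    Algebra.IsSeparable L⟮ξ⟯ F := by
  haveI : FiniteDimensional L⟮ξ⟯ F := Module.Finite.of_basis b
  have htrace := s26errd_trace (s26errdPhi L x hξ) (algebraMap E F) (s26errdPhi_comm x hξ) e b hb
  have htr : Algebra.trace L⟮ξ⟯ F ≠ 0 := by
    intro h0
    apply Algebra.trace_ne_zero K⟮x⟯ E
    refine LinearMap.ext fun y => ?_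
    have h1 := htrace y
    rw [h0, LinearMap.zero_apply] at h1
    rw [LinearMap.zero_apply]
    exact (map_eq_zero (s26errdPhi L x hξ)).mp h1.symm
  exact ((traceForm_nondegenerate_tfae L⟮ξ⟯ F).out 0 1).mpr htr

/-- the image of `K[x]` lies in `L[ξ]` -/
theorem s26errd_poly_mem {x : E} {ξ : F} (hξ : algebraMap E F x = ξ) (q : K[X]) :
    algebraMap E F (aeval x q) ∈ Algebra.adjoin L {ξ} := by
  rw [s26errd_map_aeval (L := L), hξ, Algebra.adjoin_singleton_eq_range_aeval]
  exact ⟨_, rfl⟩

theorem s26errd_poly_isIntegral {x : E} {ξ : F} (hξ : algebraMap E F x = ξ) (q : K[X]) :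
    IsIntegral (Algebra.adjoin L {ξ}) (algebraMap E F (aeval x q)) := by
  have : algebraMap E F (aeval x q)
      = algebraMap (Algebra.adjoin L {ξ}) F ⟨_, s26errd_poly_mem (L := L) hξ q⟩ := rfl
  rw [this]
  exact isIntegral_algebraMap

/-- integrality transfers from `K[x]` to `L[ξ]` -/
theorem s26errd_isIntegral_map {x : E} {ξ : F} (hξ : algebraMap E F x = ξ) {y : E}
    (hy : IsIntegral (Algebra.adjoin K {x}) y) :
    IsIntegral (Algebra.adjoin L {ξ}) (algebraMap E F y) := by
  let φ₀ : Algebra.adjoin K {x} →+* Algebra.adjoin L {ξ} :=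
    ((algebraMap E F).comp (algebraMap (Algebra.adjoin K {x}) E)).codRestrict
      (Algebra.adjoin L {ξ}) (fun a => by
        have ha : ((a : Algebra.adjoin K {x}) : E) ∈ (aeval x : K[X] →ₐ[K] E).range := by
          rw [← Algebra.adjoin_singleton_eq_range_aeval]
          exact a.2
        obtain ⟨r, hr⟩ := ha
        show algebraMap E F (a : E) ∈ Algebra.adjoin L {ξ}
        rw [← hr]
        exact s26errd_poly_mem hξ r)
  exact IsIntegral.map_of_comp_eq φ₀ (algebraMap E F) rfl hy

/-- `L[ξ] ⊆ T` -/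
theorem s26errd_adjoin_le_T {x : E} {ξ : F} (hξ : algebraMap E F x = ξ) (a : F)
    (ha : a ∈ Algebra.adjoin L {ξ}) : a ∈ s26errdT E L F := by
  have hle : Algebra.adjoin L {ξ} ≤ s26errdT E L F :=
    Algebra.adjoin_le (by
      rintro _ rfl
      rw [← hξ]
      exact s26errd_map_mem_T x)
  exact hle ha

/-- **integral over `L[ξ]` ⇒ in `T`** -/
theorem s26errd_integral_mem_T {x : E} {ξ : F} (hξ : algebraMap E F x = ξ)
    (hξtr : Transcendental L ξ)
    [FiniteDimensional K⟮x⟯ E] [Algebra.IsSeparable K⟮x⟯ E] {n : ℕ}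
    (e : Module.Basis (Fin n) K⟮x⟯ E) (he : ∀ i, IsIntegral (Algebra.adjoin K {x}) (e i))
    (b : Module.Basis (Fin n) L⟮ξ⟯ F) (hb : ∀ i, b i = algebraMap E F (e i))
    (c : F) (hc : IsIntegral (Algebra.adjoin L {ξ}) c) : c ∈ s26errdT E L F := by
  classical
  haveI : IsPrincipalIdealRing (Algebra.adjoin L {ξ}) := s26errd_isPID hξtr
  haveI : FiniteDimensional L⟮ξ⟯ F := Module.Finite.of_basis b
  haveI : Algebra.IsSeparable L⟮ξ⟯ F := s26errd_isSeparable hξ e b hb
  have hspan := s26errd_int_mem_span (A := Algebra.adjoin L {ξ}) (s26errdPhi L x hξ)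
    (algebraMap E F) (s26errdPhi_comm x hξ) e b hb
    (fun i => s26errd_isIntegral_map hξ (he i)) c hc
  refine Submodule.span_induction (p := fun z _ => z ∈ s26errdT E L F) ?_ ?_ ?_ ?_ hspan
  · rintro _ ⟨y, rfl⟩
    exact s26errd_map_mem_T y
  · exact (s26errdT E L F).zero_mem
  · intro u v _ _ hu hv
    exact (s26errdT E L F).add_mem hu hv
  · intro a u _ hu
    rw [Algebra.smul_def]
    exact (s26errdT E L F).mul_mem (s26errd_adjoin_le_T hξ _ a.2) hu

/-- the multiplicative set `K[x] ∖ 0` inside a subalgebra of `F` -/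
def s26errdS (K : Type*) {E F R : Type*} [Field K] [Field E] [Field F] [Algebra K E]
    [Algebra E F] [CommRing R] [Algebra R F] (x : E) (C : Subalgebra R F) : Submonoid C where
  carrier := {c | ∃ q : K[X], q ≠ 0 ∧ (c : F) = algebraMap E F (aeval x q)}
  one_mem' := ⟨1, one_ne_zero, by simp⟩
  mul_mem' := by
    rintro c c' ⟨q, hq, hc⟩ ⟨q', hq', hc'⟩
    exact ⟨q * q', mul_ne_zero hq hq', by simp [hc, hc']⟩

/-- **the valuative part**: some `q(x) f` is integral over `L[ξ]`. -/
theorem s26errd_exists_integral {x : E} {ξ : F} (hξ : algebraMap E F x = ξ)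
    (hξtr : Transcendental L ξ) [FiniteDimensional K⟮x⟯ E]
    [FiniteDimensional L⟮ξ⟯ F] [Algebra.IsSeparable L⟮ξ⟯ F]
    (f : F)
    (hf : ∀ w : Place L F, (∀ y : E, algebraMap E F y ∈ w.toValuationSubring) →
      f ∈ w.toValuationSubring) :
    ∃ q : K[X], q ≠ 0 ∧ IsIntegral (Algebra.adjoin L {ξ}) (algebraMap E F (aeval x q) * f) := by
  classical
  haveI : IsPrincipalIdealRing (Algebra.adjoin L {ξ}) := s26errd_isPID hξtr
  haveI : IsDedekindDomain (integralClosure (Algebra.adjoin L {ξ}) F) :=
    integralClosure.isDedekindDomain (Algebra.adjoin L {ξ}) L⟮ξ⟯ F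
  haveI : IsFractionRing (integralClosure (Algebra.adjoin L {ξ}) F) F :=
    integralClosure.isFractionRing_of_finite_extension L⟮ξ⟯ F
  have hK : ∀ a : L, ∃ r : integralClosure (Algebra.adjoin L {ξ}) F,
      algebraMap (integralClosure (Algebra.adjoin L {ξ}) F) F r = algebraMap L F a := by
    intro a
    refine ⟨⟨algebraMap L F a, ?_⟩, rfl⟩
    have : algebraMap L F a
        = algebraMap (Algebra.adjoin L {ξ}) F (algebraMap L (Algebra.adjoin L {ξ}) a) := rfl
    rw [this]
    exact isIntegral_algebraMap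
  have key : ∀ v : HeightOneSpectrum (integralClosure (Algebra.adjoin L {ξ}) F),
      (∀ s ∈ s26errdS K x (integralClosure (Algebra.adjoin L {ξ}) F), s ∉ v.asIdeal) →
        v.valuation F f ≤ 1 := by
    intro v hv
    have hunit : ∀ q : K[X], q ≠ 0 → v.valuation F (algebraMap E F (aeval x q)) = 1 := by
      intro q hq
      have hmem : (⟨algebraMap E F (aeval x q), s26errd_poly_isIntegral hξ q⟩ :
          integralClosure (Algebra.adjoin L {ξ}) F) ∈
            s26errdS K x (integralClosure (Algebra.adjoin L {ξ}) F) := ⟨q, hq, rfl⟩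
      have h2 : v.valuation F (algebraMap (integralClosure (Algebra.adjoin L {ξ}) F) F
          ⟨algebraMap E F (aeval x q), s26errd_poly_isIntegral hξ q⟩) = 1 :=
        (v.valuation_eq_one_iff_notMem).mpr (hv _ hmem)
      exact h2
    have hcont := s26errd_place_contains (K := K) v hunit
    have hw := hf (Fermat.Agent.S24.placeOfPrime hK v) (fun y => by
      rw [Fermat.Agent.S24.placeOfPrime_toValuationSubring, Valuation.mem_valuationSubring_iff]
      exact hcont y)
    rw [Fermat.Agent.S24.placeOfPrime_toValuationSubring,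
      Valuation.mem_valuationSubring_iff] at hw
    exact hw
  obtain ⟨s₁, ⟨q, hq, hs₁⟩, c, hc⟩ := s26errd_exists_mul_mem (F := F)
    (s26errdS K x (integralClosure (Algebra.adjoin L {ξ}) F)) f key
  refine ⟨q, hq, ?_⟩
  have h1 : algebraMap E F (aeval x q) * f = (c : F) := by
    rw [← hs₁]
    exact hc
  rw [h1]
  exact c.2

/-- **RR-D, the core.**  `x ∈ E` transcendental over `K` with `E / K(x)` finite separable; `E`
and `L` linearly disjoint over `K` inside `F = Frac (L[E])`.  An element of `F` that lies in the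
valuation ring of every place of `F / L` containing `E` lies in the ring `T = L[E]`. -/
theorem s26errd_core
    (hLD : ∀ (ι : Type) (e : ι → E), LinearIndependent K e →
      LinearIndependent L (fun i => algebraMap E F (e i)))
    (hgen : ∀ z : F, ∃ a ∈ s26errdT E L F, ∃ b ∈ s26errdT E L F, b ≠ 0 ∧ z * b = a)
    {x : E} (hx : Transcendental K x) [FiniteDimensional K⟮x⟯ E] [Algebra.IsSeparable K⟮x⟯ E]
    (f : F)
    (hf : ∀ w : Place L F, (∀ y : E, algebraMap E F y ∈ w.toValuationSubring) →
      f ∈ w.toValuationSubring) :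
    f ∈ s26errdT E L F := by
  classical
  obtain ⟨ξ, hξ⟩ : ∃ ξ : F, algebraMap E F x = ξ := ⟨_, rfl⟩
  have hξtr : Transcendental L ξ := by
    apply s26errd_transcendental_of_linInd
    have h := hLD ℕ _ (s26errd_linInd_pow hx)
    simpa [hξ] using h
  obtain ⟨n, e, he⟩ := s26errd_exists_basis (K := K) x
  obtain ⟨b, hb⟩ := s26errd_exists_basis_F hLD hgen hx hξ e
  haveI : FiniteDimensional L⟮ξ⟯ F := Module.Finite.of_basis b
  haveI : Algebra.IsSeparable L⟮ξ⟯ F := s26errd_isSeparable hξ e b hb
  obtain ⟨q, hq, hint⟩ := s26errd_exists_integral (K := K) hξ hξtr f hf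
  have hcT := s26errd_integral_mem_T hξ hξtr e he b hb _ hint
  have hq0 : aeval x q ≠ 0 := fun h0 => hq ((transcendental_iff.mp hx) q h0)
  have hne : algebraMap E F (aeval x q) ≠ 0 := by simpa using hq0
  have hfeq : f = algebraMap E F (aeval x q)⁻¹ * (algebraMap E F (aeval x q) * f) := by
    rw [map_inv₀, ← mul_assoc, inv_mul_cancel₀ hne, one_mul]
  rw [hfeq]
  exact (s26errdT E L F).mul_mem (s26errd_map_mem_T _) hcT

end core

end Fermat.Agent.S26
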