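import Mathlib
import Fermat.Agent.S26.ERRD3
import Fermat.Agent.S26.ERRGaussCon

/-!
# S26-E (RR-D), part 4 (helper65): the statement in the language of RR-C (helper96)

`s26errd_mem_range` : with `hld`, `hgen` of `S26/ERRGaussPlace.lean`: an element of `Ω` that lies
in the valuation ring of every place of `Ω / 𝔎` containing `𝔠` lies in the image of
`μ : 𝔠 ⊗[K] 𝔎 → Ω`.
-/

set_option autoImplicit false
set_option linter.unusedSectionVars false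
set_option linter.style.haveILetI false

open AlgebraicCurve IsDedekindDomain WithZero Polynomial IntermediateField TensorProduct

namespace Fermat.Agent.S26

section wiring

variable {K 𝔠 𝔎 Ω : Type*} [Field K] [Field 𝔠] [Field 𝔎] [Field Ω]
  [Algebra K 𝔠] [Algebra K 𝔎] [Algebra K Ω] [Algebra 𝔠 Ω] [Algebra 𝔎 Ω]
  [IsScalarTower K 𝔠 Ω] [IsScalarTower K 𝔎 Ω]

/-- the `𝔎`-linear form of `μ` on `𝔎 ⊗[K] 𝔠` -/
noncomputable def s26errdMu' (K 𝔠 𝔎 Ω : Type*) [Field K] [Field 𝔠] [Field 𝔎] [Field Ω]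
    [Algebra K 𝔠] [Algebra K 𝔎] [Algebra K Ω] [Algebra 𝔠 Ω] [Algebra 𝔎 Ω]
    [IsScalarTower K 𝔠 Ω] [IsScalarTower K 𝔎 Ω] : 𝔎 ⊗[K] 𝔠 →ₗ[𝔎] Ω :=
  LinearMap.liftBaseChange 𝔎 (IsScalarTower.toAlgHom K 𝔠 Ω).toLinearMap

theorem s26errdMu'_eq (t : 𝔎 ⊗[K] 𝔠) :
    s26errdMu' K 𝔠 𝔎 Ω t = s26gspMu K 𝔠 𝔎 Ω (TensorProduct.comm K 𝔎 𝔠 t) := by
  induction t using TensorProduct.induction_on with
  | zero => simp
  | tmul c f =>
    simp [s26errdMu', Algebra.smul_def, mul_comm]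
  | add u v hu hv => simp [hu, hv]

theorem s26errdMu'_injective (hld : Function.Injective (s26gspMu K 𝔠 𝔎 Ω)) :
    Function.Injective (s26errdMu' K 𝔠 𝔎 Ω) := by
  intro u v huv
  rw [s26errdMu'_eq, s26errdMu'_eq] at huv
  exact (TensorProduct.comm K 𝔎 𝔠).injective (hld huv)

/-- linear disjointness, in the form used by the core -/
theorem s26errd_LD_of_inj (hld : Function.Injective (s26gspMu K 𝔠 𝔎 Ω))
    {ι : Type*} (e : ι → 𝔠) (he : LinearIndependent K e) :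
    LinearIndependent 𝔎 (fun i => algebraMap 𝔠 Ω (e i)) := by
  have h1 : LinearIndependent 𝔎 (fun i => (1 : 𝔎) ⊗ₜ[K] e i) :=
    Module.Flat.linearIndependent_one_tmul he
  have h2 := h1.map' (s26errdMu' K 𝔠 𝔎 Ω)
    (LinearMap.ker_eq_bot.mpr (s26errdMu'_injective hld))
  have hfun : (s26errdMu' K 𝔠 𝔎 Ω) ∘ (fun i => (1 : 𝔎) ⊗ₜ[K] e i)
      = fun i => algebraMap 𝔠 Ω (e i) := by
    funext i
    simp [s26errdMu']
  rw [hfun] at h2
  exact h2

/-- the image of `μ` lies in `T` -/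
theorem s26errd_mu_mem_T (t : 𝔠 ⊗[K] 𝔎) : s26gspMu K 𝔠 𝔎 Ω t ∈ s26errdT 𝔠 𝔎 Ω := by
  induction t using TensorProduct.induction_on with
  | zero => simp
  | tmul f c =>
    rw [s26gspMu_tmul]
    exact (s26errdT 𝔠 𝔎 Ω).mul_mem (s26errd_map_mem_T f) ((s26errdT 𝔠 𝔎 Ω).algebraMap_mem c)
  | add u v hu hv =>
    rw [map_add]
    exact (s26errdT 𝔠 𝔎 Ω).add_mem hu hv

/-- `T` is the image of `μ` -/
theorem s26errd_T_le_range (a : Ω) (ha : a ∈ s26errdT 𝔠 𝔎 Ω) :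
    ∃ t : 𝔠 ⊗[K] 𝔎, s26gspMu K 𝔠 𝔎 Ω t = a := by
  induction ha using Algebra.adjoin_induction with
  | mem z hz =>
    obtain ⟨f, rfl⟩ := hz
    exact ⟨f ⊗ₜ 1, by simp⟩
  | algebraMap c => exact ⟨1 ⊗ₜ c, by simp⟩
  | add u v _ _ hu hv =>
    obtain ⟨tu, rfl⟩ := hu
    obtain ⟨tv, rfl⟩ := hv
    exact ⟨tu + tv, map_add _ _ _⟩
  | mul u v _ _ hu hv =>
    obtain ⟨tu, rfl⟩ := hu
    obtain ⟨tv, rfl⟩ := hv
    exact ⟨tu * tv, map_mul _ _ _⟩

theorem s26errd_gen_of_gen (hgen : S26gspGen K 𝔠 𝔎 Ω) :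
    ∀ z : Ω, ∃ a ∈ s26errdT 𝔠 𝔎 Ω, ∃ b ∈ s26errdT 𝔠 𝔎 Ω, b ≠ 0 ∧ z * b = a := by
  intro z
  obtain ⟨A, B, hB, hz⟩ := hgen z
  exact ⟨_, s26errd_mu_mem_T A, _, s26errd_mu_mem_T B, hB, hz⟩

/-- **RR-D, the core, in the language of RR-C.**  If `x ∈ 𝔠` is a separating transcendental
element of `𝔠 / K`, every `f ∈ Ω` that is integral at all places of `Ω / 𝔎` containing `𝔠`
lies in the image of `μ : 𝔠 ⊗[K] 𝔎 → Ω`. -/
theorem s26errd_mem_range (hld : Function.Injective (s26gspMu K 𝔠 𝔎 Ω))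
    (hgen : S26gspGen K 𝔠 𝔎 Ω)
    {x : 𝔠} (hx : Transcendental K x) [FiniteDimensional K⟮x⟯ 𝔠] [Algebra.IsSeparable K⟮x⟯ 𝔠]
    (f : Ω)
    (hf : ∀ w : Place 𝔎 Ω, (∀ y : 𝔠, algebraMap 𝔠 Ω y ∈ w.toValuationSubring) →
      f ∈ w.toValuationSubring) :
    ∃ t : 𝔠 ⊗[K] 𝔎, s26gspMu K 𝔠 𝔎 Ω t = f :=
  s26errd_T_le_range f
    (s26errd_core (fun _ e he => s26errd_LD_of_inj hld e he) (s26errd_gen_of_gen hgen) hx f hf)

/-- the same with orders: `f` has no pole at the places that are trivial on `𝔠`. -/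
theorem s26errd_mem_range_ord (hld : Function.Injective (s26gspMu K 𝔠 𝔎 Ω))
    (hgen : S26gspGen K 𝔠 𝔎 Ω)
    {x : 𝔠} (hx : Transcendental K x) [FiniteDimensional K⟮x⟯ 𝔠] [Algebra.IsSeparable K⟮x⟯ 𝔠]
    (f : Ω)
    (hf : ∀ w : Place 𝔎 Ω, (∀ y : 𝔠, w.ord (algebraMap 𝔠 Ω y) = 0) → 0 ≤ w.ord f) :
    ∃ t : 𝔠 ⊗[K] 𝔎, s26gspMu K 𝔠 𝔎 Ω t = f := by
  refine s26errd_mem_range hld hgen hx f (fun w hw => ?_)
  apply Fermat.Agent.S24.PlaceAux.mem_of_ord_nonneg w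
  refine hf w (fun y => ?_)
  rcases eq_or_ne y 0 with rfl | hy
  · simp
  have hy' : algebraMap 𝔠 Ω y ≠ 0 := by simpa using hy
  have h1 : 0 ≤ w.ord (algebraMap 𝔠 Ω y) :=
    (Fermat.Agent.S24.PlaceAux.ord_nonneg_iff w hy').mpr (hw y)
  have h2 : 0 ≤ w.ord (algebraMap 𝔠 Ω y⁻¹) :=
    (Fermat.Agent.S24.PlaceAux.ord_nonneg_iff w (by simpa using hy)).mpr (hw y⁻¹)
  rw [map_inv₀, w.ord_inv] at h2
  omega


/-! ### (RR-D) -/

section RRD

variable (hld : Function.Injective (s26gspMu K 𝔠 𝔎 Ω)) (hgen : S26gspGen K 𝔠 𝔎 Ω)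
  (hall : ∀ P : Place K 𝔠, Function.Surjective (algebraMap K P.ResidueField))

/-- **(RR-D)**: `L_𝔎(Con B) = 𝔎 · L_K(B)`. -/
theorem s26errd_rr_eq {x : 𝔠} (hx : Transcendental K x) [FiniteDimensional K⟮x⟯ 𝔠]
    [Algebra.IsSeparable K⟮x⟯ 𝔠] (B : Divisor K 𝔠) :
    riemannRochSpace (Finsupp.mapDomain (s26gspCon hld hgen hall) B) =
      Submodule.span 𝔎 (algebraMap 𝔠 Ω '' (riemannRochSpace B : Set 𝔠)) := by
  refine le_antisymm (fun f hf => ?_) (s26gspc_span_le_rr hld hgen hall B)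
  obtain ⟨A, hA⟩ := s26errd_mem_range_ord hld hgen hx f (fun w hw => by
    have h := (mem_riemannRochSpace_iff.mp hf) w
    rw [s26gspc_mapDomain_apply_of_trivial hld hgen hall B w hw] at h
    rcases h with h | h
    · rw [h]; simp
    · simpa using h)
  rw [← hA]
  exact s26gspc_rr_of_mem_range hld hgen hall B A (by rw [hA]; exact hf)

/-- **(RR-D), dimensions**: `dim_𝔎 L_𝔎(Con B) = dim_K L_K(B)`. -/
theorem s26errd_finrank_eq {x : 𝔠} (hx : Transcendental K x) [FiniteDimensional K⟮x⟯ 𝔠]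
    [Algebra.IsSeparable K⟮x⟯ 𝔠] (B : Divisor K 𝔠) :
    Module.finrank 𝔎 (riemannRochSpace (Finsupp.mapDomain (s26gspCon hld hgen hall) B)) =
      Module.finrank K (riemannRochSpace B) := by
  classical
  set b := Module.Basis.ofVectorSpace K (riemannRochSpace B) with hb
  have hli : LinearIndependent K (fun i => ((b i : riemannRochSpace B) : 𝔠)) :=
    b.linearIndependent.map' (riemannRochSpace B).subtype (Submodule.ker_subtype _)
  have hli' := s26errd_LD_of_inj hld _ hli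
  have hspan : Submodule.span 𝔎 (Set.range fun i => algebraMap 𝔠 Ω ((b i : riemannRochSpace B) : 𝔠))
      = Submodule.span 𝔎 (algebraMap 𝔠 Ω '' (riemannRochSpace B : Set 𝔠)) := by
    apply le_antisymm
    · apply Submodule.span_mono
      rintro _ ⟨i, rfl⟩
      exact ⟨_, (b i).2, rfl⟩
    · rw [Submodule.span_le]
      rintro _ ⟨f, hf, rfl⟩
      have hrep : (⟨f, hf⟩ : riemannRochSpace B) = ∑ i ∈ (b.repr ⟨f, hf⟩).support,
          (b.repr ⟨f, hf⟩ i) • b i := by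
        conv_lhs => rw [← b.linearCombination_repr ⟨f, hf⟩]
        rw [Finsupp.linearCombination_apply, Finsupp.sum]
      have hf' : f = ∑ i ∈ (b.repr ⟨f, hf⟩).support,
          (b.repr ⟨f, hf⟩ i) • ((b i : riemannRochSpace B) : 𝔠) := by
        have := congrArg (fun z : riemannRochSpace B => (z : 𝔠)) hrep
        simpa using this
      rw [hf', map_sum]
      refine Submodule.sum_mem _ fun i _ => ?_
      have h1 : algebraMap 𝔠 Ω ((b.repr ⟨f, hf⟩ i) • ((b i : riemannRochSpace B) : 𝔠))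
          = (algebraMap K 𝔎 (b.repr ⟨f, hf⟩ i)) •
            algebraMap 𝔠 Ω ((b i : riemannRochSpace B) : 𝔠) := by
        rw [Algebra.smul_def, map_mul, Algebra.smul_def, ← IsScalarTower.algebraMap_apply K 𝔠 Ω,
          ← IsScalarTower.algebraMap_apply K 𝔎 Ω]
      rw [h1]
      exact Submodule.smul_mem _ _ (Submodule.subset_span ⟨i, rfl⟩)
  rw [s26errd_rr_eq hld hgen hall hx B, ← hspan,
    Module.finrank_eq_nat_card_basis (Module.Basis.span hli'),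
    Module.finrank_eq_nat_card_basis b]

end RRD

end wiring

end Fermat.Agent.S26
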