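import Mathlib
import Fermat.Agent.S26.ERRD4

/-!
# S26-E (RR-D), part 5 (helper65): consumer shapes

For a curve `𝔠 / K` with a separating element (the literal body of `S26eIsCurve K 𝔠`,
S26/PlanE2.lean) and ANY field `𝔎 ⊇ K`, `Ω = Frac (𝔠 ⊗[K] 𝔎)` (`hld`, `hgen` of RR-C):

* `s26errd_rr_eq'`, `s26errd_finrank_eq'` : (RR-D) with the hypothesis in the shape of
  `S26eIsCurve`;
* `s26errd_rr_const` : if `L_K(E₀)` consists of constants, so does `L_𝔎(Con E₀)`
  (the hypothesis `hE₀k` of TI-REDAT);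
* `s26errd_finrank_one` : `dim_K L_K(E₀) = 1 ⇒ dim_𝔎 L_𝔎(Con E₀) = 1` (`hCon`).
-/

set_option autoImplicit false
set_option linter.unusedSectionVars false
set_option linter.style.haveILetI false

open AlgebraicCurve IsDedekindDomain WithZero Polynomial IntermediateField TensorProduct

namespace Fermat.Agent.S26

section consumers

variable {K 𝔠 𝔎 Ω : Type*} [Field K] [Field 𝔠] [Field 𝔎] [Field Ω]
  [Algebra K 𝔠] [Algebra K 𝔎] [Algebra K Ω] [Algebra 𝔠 Ω] [Algebra 𝔎 Ω]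
  [IsScalarTower K 𝔠 Ω] [IsScalarTower K 𝔎 Ω]
  (hld : Function.Injective (s26gspMu K 𝔠 𝔎 Ω)) (hgen : S26gspGen K 𝔠 𝔎 Ω)
  (hall : ∀ P : Place K 𝔠, Function.Surjective (algebraMap K P.ResidueField))

/-- **(RR-D)** for a curve with a separating element. -/
theorem s26errd_rr_eq'
    (hΓ : ∃ t : 𝔠, Transcendental K t ∧ Module.Finite (IntermediateField.adjoin K {t}) 𝔠 ∧
      Algebra.IsSeparable (IntermediateField.adjoin K {t}) 𝔠) (B : Divisor K 𝔠) :
    riemannRochSpace (Finsupp.mapDomain (s26gspCon hld hgen hall) B) =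
      Submodule.span 𝔎 (algebraMap 𝔠 Ω '' (riemannRochSpace B : Set 𝔠)) := by
  obtain ⟨t, ht, hfin, hsep⟩ := hΓ
  exact s26errd_rr_eq hld hgen hall ht B

/-- **(RR-D), dimensions**, for a curve with a separating element. -/
theorem s26errd_finrank_eq'
    (hΓ : ∃ t : 𝔠, Transcendental K t ∧ Module.Finite (IntermediateField.adjoin K {t}) 𝔠 ∧
      Algebra.IsSeparable (IntermediateField.adjoin K {t}) 𝔠) (B : Divisor K 𝔠) :
    Module.finrank 𝔎 (riemannRochSpace (Finsupp.mapDomain (s26gspCon hld hgen hall) B)) =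
      Module.finrank K (riemannRochSpace B) := by
  obtain ⟨t, ht, hfin, hsep⟩ := hΓ
  exact s26errd_finrank_eq hld hgen hall ht B

/-- **`hCon`**: `dim L_K(E₀) = 1 ⇒ dim L_𝔎(Con E₀) = 1`. -/
theorem s26errd_finrank_one
    (hΓ : ∃ t : 𝔠, Transcendental K t ∧ Module.Finite (IntermediateField.adjoin K {t}) 𝔠 ∧
      Algebra.IsSeparable (IntermediateField.adjoin K {t}) 𝔠) (E₀ : Divisor K 𝔠)
    (hE₀ : Module.finrank K (riemannRochSpace E₀) = 1) :
    Module.finrank 𝔎 (riemannRochSpace (Finsupp.mapDomain (s26gspCon hld hgen hall) E₀)) = 1 := by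
  rw [s26errd_finrank_eq' hld hgen hall hΓ E₀, hE₀]

/-- **`hE₀k`**: if `L_K(E₀)` consists of constants of `K`, then `L_𝔎(Con E₀)` consists of
constants of `𝔎`. -/
theorem s26errd_rr_const
    (hΓ : ∃ t : 𝔠, Transcendental K t ∧ Module.Finite (IntermediateField.adjoin K {t}) 𝔠 ∧
      Algebra.IsSeparable (IntermediateField.adjoin K {t}) 𝔠) (E₀ : Divisor K 𝔠)
    (hE₀ : ∀ f ∈ riemannRochSpace E₀, ∃ a : K, f = algebraMap K 𝔠 a) :
    ∀ w ∈ riemannRochSpace (Finsupp.mapDomain (s26gspCon hld hgen hall) E₀),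
      ∃ b : 𝔎, w = algebraMap 𝔎 Ω b := by
  intro w hw
  rw [s26errd_rr_eq' hld hgen hall hΓ E₀] at hw
  refine Submodule.span_induction (p := fun z _ => ∃ b : 𝔎, z = algebraMap 𝔎 Ω b)
    ?_ ?_ ?_ ?_ hw
  · rintro _ ⟨f, hf, rfl⟩
    obtain ⟨a, rfl⟩ := hE₀ f hf
    exact ⟨algebraMap K 𝔎 a, by
      rw [← IsScalarTower.algebraMap_apply K 𝔠 Ω, ← IsScalarTower.algebraMap_apply K 𝔎 Ω]⟩
  · exact ⟨0, (map_zero _).symm⟩
  · rintro u v _ _ ⟨b, rfl⟩ ⟨b', rfl⟩
    exact ⟨b + b', (map_add _ _ _).symm⟩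
  · rintro c u _ ⟨b, rfl⟩
    exact ⟨c * b, by rw [Algebra.smul_def, map_mul]⟩

/-- the constants are in `L_K(E₀)` for `E₀ ≥ 0`; with `dim = 1` they are all of it. -/
theorem s26errd_const_of_finrank_one (E₀ : Divisor K 𝔠) (hpos : 0 ≤ E₀)
    (hE₀ : Module.finrank K (riemannRochSpace E₀) = 1) :
    ∀ f ∈ riemannRochSpace E₀, ∃ a : K, f = algebraMap K 𝔠 a := by
  intro f hf
  have h1 : (1 : 𝔠) ∈ riemannRochSpace E₀ := by
    rw [mem_riemannRochSpace_iff]
    intro v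
    right
    rw [Place.ord_one]
    have := Finsupp.le_def.mp hpos v
    simpa using this
  have hne : (⟨1, h1⟩ : riemannRochSpace E₀) ≠ 0 := by
    intro h0
    have := congrArg (fun z : riemannRochSpace E₀ => (z : 𝔠)) h0
    simp at this
  obtain ⟨a, ha⟩ := (finrank_eq_one_iff_of_nonzero' (⟨1, h1⟩ : riemannRochSpace E₀) hne).mp hE₀
    ⟨f, hf⟩
  refine ⟨a, ?_⟩
  have := congrArg (fun z : riemannRochSpace E₀ => (z : 𝔠)) ha
  simp only [Submodule.coe_smul] at this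
  rw [← this, Algebra.smul_def, mul_one]

end consumers

end Fermat.Agent.S26
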