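/-
S26-E, piece E-RR (C) (helper96): GAUSS PLACES of a constant field extension.

Setting (helper79's plan, blueprint v1 §2): fields `K ⊆ 𝔠`, `K ⊆ 𝔎`, `Ω ⊇ 𝔠, 𝔎` with
`μ : 𝔠 ⊗[K] 𝔎 → Ω` injective (`hld`) and `Ω = Frac (image of μ)` (`hgen`);  `P` a place of `𝔠 / K`
with residue field `K` (`hP`).  Then there is exactly one place `P′ = s26gspPlace …` of `Ω / 𝔎`
over `P`;  `ord_{P′} (∑ fᵢ cᵢ) = minᵢ ord_P fᵢ` for `K`-linearly independent `cᵢ ∈ 𝔎`;  the residue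
field of `P′` is `𝔎` (degree one);  every place of `Ω / 𝔎` which is non-trivial on `𝔠` is a `P′`.
-/
import Mathlib
import Fermat.Prelude.Def_AlgebraicCurve_DivisorClassGroup
import Fermat.Agent.S24.GaloisCount

set_option autoImplicit false
set_option linter.style.haveILetI false
set_option linter.unusedSectionVars false
set_option linter.unusedVariables false

noncomputable section

namespace Fermat.Agent.S26

open AlgebraicCurve TensorProduct IsLocalRing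

variable {K 𝔠 𝔎 Ω : Type*} [Field K] [Field 𝔠] [Field 𝔎] [Field Ω]
  [Algebra K 𝔠] [Algebra K 𝔎] [Algebra K Ω] [Algebra 𝔠 Ω] [Algebra 𝔎 Ω]
  [IsScalarTower K 𝔠 Ω] [IsScalarTower K 𝔎 Ω]

/-- the multiplication map `𝔠 ⊗[K] 𝔎 → Ω`. -/
def s26gspMu (K 𝔠 𝔎 Ω : Type*) [Field K] [Field 𝔠] [Field 𝔎] [Field Ω]
    [Algebra K 𝔠] [Algebra K 𝔎] [Algebra K Ω] [Algebra 𝔠 Ω] [Algebra 𝔎 Ω]
    [IsScalarTower K 𝔠 Ω] [IsScalarTower K 𝔎 Ω] : 𝔠 ⊗[K] 𝔎 →ₐ[K] Ω :=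
  Algebra.TensorProduct.productMap (IsScalarTower.toAlgHom K 𝔠 Ω) (IsScalarTower.toAlgHom K 𝔎 Ω)

@[simp]
theorem s26gspMu_tmul (f : 𝔠) (c : 𝔎) :
    s26gspMu K 𝔠 𝔎 Ω (f ⊗ₜ c) = algebraMap 𝔠 Ω f * algebraMap 𝔎 Ω c := by
  simp [s26gspMu]

section Res

variable (P : Place K 𝔠)

/-- the inclusion `O_P → 𝔠` as a `K`-algebra map. -/
def s26gspVal : ↥P.toValuationSubring →ₐ[K] 𝔠 :=
  { P.toValuationSubring.subtype with commutes' := fun _ => rfl }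

@[simp]
theorem s26gspVal_apply (a : ↥P.toValuationSubring) : s26gspVal P a = (a : 𝔠) := rfl

/-- the residue map `O_P → K` of a place with residue field `K`. -/
def s26gspRes (hP : Function.Surjective (algebraMap K P.ResidueField)) :
    ↥P.toValuationSubring →ₐ[K] K :=
  ((AlgEquiv.ofBijective (Algebra.ofId K P.ResidueField)
      ⟨(algebraMap K P.ResidueField).injective, hP⟩).symm : P.ResidueField →ₐ[K] K).comp
    (Ideal.Quotient.mkₐ K (maximalIdeal ↥P.toValuationSubring))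

theorem s26gspRes_spec (hP : Function.Surjective (algebraMap K P.ResidueField))
    (a : ↥P.toValuationSubring) :
    algebraMap K P.ResidueField (s26gspRes P hP a) = residue _ a := by
  have := (AlgEquiv.ofBijective (Algebra.ofId K P.ResidueField)
      ⟨(algebraMap K P.ResidueField).injective, hP⟩).apply_symm_apply
      (Ideal.Quotient.mkₐ K (maximalIdeal ↥P.toValuationSubring) a)
  exact this

theorem s26gspRes_eq_zero_iff (hP : Function.Surjective (algebraMap K P.ResidueField))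
    (a : ↥P.toValuationSubring) :
    s26gspRes P hP a = 0 ↔ a ∈ maximalIdeal ↥P.toValuationSubring := by
  constructor
  · intro h
    rw [← residue_eq_zero_iff, ← s26gspRes_spec P hP a, h, map_zero]
  · intro h
    have h1 := s26gspRes_spec P hP a
    rw [(residue_eq_zero_iff _).2 h] at h1
    exact (map_eq_zero (algebraMap K P.ResidueField)).1 h1

theorem s26gspRes_ne_zero_of_isUnit (hP : Function.Surjective (algebraMap K P.ResidueField))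
    {a : ↥P.toValuationSubring} (ha : IsUnit a) : s26gspRes P hP a ≠ 0 := by
  rw [Ne, s26gspRes_eq_zero_iff, mem_maximalIdeal, mem_nonunits_iff]
  exact fun h => h ha

/-- the inclusion `O_P ⊗ 𝔎 → 𝔠 ⊗ 𝔎`. -/
def s26gspIncl (𝔎 : Type*) [Field 𝔎] [Algebra K 𝔎] :
    ↥P.toValuationSubring ⊗[K] 𝔎 →ₐ[K] 𝔠 ⊗[K] 𝔎 :=
  Algebra.TensorProduct.map (s26gspVal P) (AlgHom.id K 𝔎)

@[simp]
theorem s26gspIncl_tmul (a : ↥P.toValuationSubring) (c : 𝔎) :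
    s26gspIncl P 𝔎 (a ⊗ₜ c) = (a : 𝔠) ⊗ₜ c := by
  simp [s26gspIncl]

theorem s26gspIncl_injective : Function.Injective (s26gspIncl P 𝔎) := by
  have h : Function.Injective ((s26gspVal P).toLinearMap.rTensor 𝔎) :=
    Module.Flat.rTensor_preserves_injective_linearMap _ Subtype.val_injective
  intro x y hxy
  apply h
  have e : ∀ z, (s26gspVal P).toLinearMap.rTensor 𝔎 z = s26gspIncl P 𝔎 z := by
    intro z
    induction z using TensorProduct.induction_on with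
    | zero => simp
    | tmul a c => simp
    | add a b ha hb => rw [map_add, map_add, ha, hb]
  rw [e, e, hxy]

/-- the reduction map `O_P ⊗ 𝔎 → 𝔎`. -/
def s26gspRho (𝔎 : Type*) [Field 𝔎] [Algebra K 𝔎]
    (hP : Function.Surjective (algebraMap K P.ResidueField)) :
    ↥P.toValuationSubring ⊗[K] 𝔎 →ₐ[K] 𝔎 :=
  Algebra.TensorProduct.productMap ((Algebra.ofId K 𝔎).comp (s26gspRes P hP)) (AlgHom.id K 𝔎)

@[simp]
theorem s26gspRho_tmul (hP : Function.Surjective (algebraMap K P.ResidueField))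
    (a : ↥P.toValuationSubring) (c : 𝔎) :
    s26gspRho P 𝔎 hP (a ⊗ₜ c) = algebraMap K 𝔎 (s26gspRes P hP a) * c := by
  simp [s26gspRho, Algebra.ofId_apply]

end Res

/-! ### The normal form in `𝔠 ⊗[K] 𝔎` -/

section NF

variable (P : Place K 𝔠) (hP : Function.Surjective (algebraMap K P.ResidueField))

theorem s26gsp_ne_zero_of_ord {t : 𝔠} (ht : P.ord t = 1) : t ≠ 0 := by
  rintro rfl
  simp at ht

theorem s26gsp_mem_of_ord {f : 𝔠} (hf : 0 ≤ P.ord f) : f ∈ P.toValuationSubring :=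
  (Fermat.Agent.S24.place_mem_iff' P).2 (Or.inr hf)

theorem s26gsp_isUnit_of_ord {f : 𝔠} (hf0 : f ≠ 0) (hf : P.ord f = 0) :
    IsUnit (⟨f, s26gsp_mem_of_ord P hf.ge⟩ : ↥P.toValuationSubring) := by
  have hi : f⁻¹ ∈ P.toValuationSubring :=
    s26gsp_mem_of_ord P (by rw [P.ord_inv, hf, neg_zero])
  refine IsUnit.of_mul_eq_one (⟨f⁻¹, hi⟩ : ↥P.toValuationSubring) ?_
  ext
  simp [hf0]

include hP in
/-- **normal form**: a nonzero element of `𝔠 ⊗ 𝔎` is `t ^ m` times an element of `O_P ⊗ 𝔎` with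
nonzero reduction. -/
theorem s26gsp_nf {t : 𝔠} (ht : P.ord t = 1) (A : 𝔠 ⊗[K] 𝔎) (hA : A ≠ 0) :
    ∃ (m : ℤ) (a : ↥P.toValuationSubring ⊗[K] 𝔎), s26gspRho P 𝔎 hP a ≠ 0 ∧
      A = ((t ^ m) ⊗ₜ[K] (1 : 𝔎)) * s26gspIncl P 𝔎 a := by
  classical
  have ht0 : t ≠ 0 := s26gsp_ne_zero_of_ord P ht
  set b := Module.Basis.ofVectorSpace K 𝔎 with hb
  set e := TensorProduct.equivFinsuppOfBasisRight (M := 𝔠) b with he
  set crd := e A with hcrd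
  have hAsum : A = ∑ i ∈ crd.support, crd i ⊗ₜ[K] b i := by
    have h1 : e.symm crd = A := e.symm_apply_apply A
    rw [← h1, he, TensorProduct.equivFinsuppOfBasisRight_symm_apply]
    rfl
  have hne : crd.support.Nonempty := by
    rw [Finsupp.support_nonempty_iff]
    intro h0
    apply hA
    have h1 : e.symm crd = A := e.symm_apply_apply A
    rw [← h1, h0, map_zero]
  obtain ⟨i₀, hi₀, hmin⟩ := Finset.exists_min_image crd.support (fun i => P.ord (crd i)) hne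
  set m := P.ord (crd i₀) with hm
  have hord : ∀ i ∈ crd.support, 0 ≤ P.ord (crd i * t ^ (-m)) := by
    intro i hi
    have hci : crd i ≠ 0 := Finsupp.mem_support_iff.1 hi
    rw [P.ord_mul hci (zpow_ne_zero _ ht0), P.ord_zpow, ht]
    have := hmin i hi
    omega
  let g : _ → ↥P.toValuationSubring := fun i =>
    if h : i ∈ crd.support then ⟨crd i * t ^ (-m), s26gsp_mem_of_ord P (hord i h)⟩ else 0
  have hg : ∀ i ∈ crd.support, ((g i : ↥P.toValuationSubring) : 𝔠) = crd i * t ^ (-m) := by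
    intro i hi
    simp only [g, dif_pos hi]
  refine ⟨m, ∑ i ∈ crd.support, g i ⊗ₜ[K] b i, ?_, ?_⟩
  · intro h0
    rw [map_sum] at h0
    have h1 : ∑ i ∈ crd.support, (s26gspRes P hP (g i)) • b i = 0 := by
      rw [← h0]
      refine Finset.sum_congr rfl fun i _ => ?_
      rw [s26gspRho_tmul, Algebra.smul_def]
    have h2 := linearIndependent_iff'.1 b.linearIndependent crd.support
      (fun i => s26gspRes P hP (g i)) h1 i₀ hi₀
    have hci₀ : crd i₀ ≠ 0 := Finsupp.mem_support_iff.1 hi₀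
    have hu : IsUnit (g i₀) := by
      have h3 : P.ord (crd i₀ * t ^ (-m)) = 0 := by
        rw [P.ord_mul hci₀ (zpow_ne_zero _ ht0), P.ord_zpow, ht]
        omega
      have h4 := s26gsp_isUnit_of_ord P (mul_ne_zero hci₀ (zpow_ne_zero _ ht0)) h3
      have h5 : g i₀ = ⟨crd i₀ * t ^ (-m), s26gsp_mem_of_ord P h3.ge⟩ := by
        ext
        exact hg i₀ hi₀
      rw [h5]
      exact h4
    exact s26gspRes_ne_zero_of_isUnit P hP hu h2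
  · rw [map_sum, Finset.mul_sum]
    conv_lhs => rw [hAsum]
    refine Finset.sum_congr rfl fun i hi => ?_
    rw [s26gspIncl_tmul, Algebra.TensorProduct.tmul_mul_tmul, hg i hi, one_mul]
    congr 1
    rw [mul_comm, mul_assoc, ← zpow_add₀ ht0]
    simp

end NF

/-! ### The Gauss valuation ring -/

/-- hypothesis `Ω = Frac (μ (𝔠 ⊗ 𝔎))`, in elementwise form. -/
def S26gspGen (K 𝔠 𝔎 Ω : Type*) [Field K] [Field 𝔠] [Field 𝔎] [Field Ω]
    [Algebra K 𝔠] [Algebra K 𝔎] [Algebra K Ω] [Algebra 𝔠 Ω] [Algebra 𝔎 Ω]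
    [IsScalarTower K 𝔠 Ω] [IsScalarTower K 𝔎 Ω] : Prop :=
  ∀ x : Ω, ∃ A B : 𝔠 ⊗[K] 𝔎, s26gspMu K 𝔠 𝔎 Ω B ≠ 0 ∧
    x * s26gspMu K 𝔠 𝔎 Ω B = s26gspMu K 𝔠 𝔎 Ω A

section Gauss

variable (P : Place K 𝔠) (hP : Function.Surjective (algebraMap K P.ResidueField))

/-- `μ₀ : O_P ⊗ 𝔎 → Ω`. -/
def s26gspMu0 (𝔎 Ω : Type*) [Field 𝔎] [Field Ω] [Algebra K 𝔎] [Algebra K Ω] [Algebra 𝔠 Ω]
    [Algebra 𝔎 Ω] [IsScalarTower K 𝔠 Ω] [IsScalarTower K 𝔎 Ω] :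
    ↥P.toValuationSubring ⊗[K] 𝔎 →ₐ[K] Ω :=
  (s26gspMu K 𝔠 𝔎 Ω).comp (s26gspIncl P 𝔎)

@[simp]
theorem s26gspMu0_tmul (a : ↥P.toValuationSubring) (c : 𝔎) :
    s26gspMu0 P 𝔎 Ω (a ⊗ₜ c) = algebraMap 𝔠 Ω (a : 𝔠) * algebraMap 𝔎 Ω c := by
  simp [s26gspMu0]

theorem s26gspMu0_injective (hld : Function.Injective (s26gspMu K 𝔠 𝔎 Ω)) :
    Function.Injective (s26gspMu0 P 𝔎 Ω) :=
  hld.comp (s26gspIncl_injective P)

theorem s26gsp_t_mem {t : 𝔠} (ht : P.ord t = 1) : t ∈ P.toValuationSubring :=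
  s26gsp_mem_of_ord P (by rw [ht]; norm_num)

theorem s26gsp_res_t {t : 𝔠} (ht : P.ord t = 1) :
    s26gspRes P hP ⟨t, s26gsp_t_mem P ht⟩ = 0 := by
  rw [s26gspRes_eq_zero_iff, mem_maximalIdeal, mem_nonunits_iff]
  rintro ⟨u, hu⟩
  have h1 := P.ord_coe_unit u
  rw [hu] at h1
  simp only at h1
  omega

theorem s26gspRho_ne_zero {a : ↥P.toValuationSubring ⊗[K] 𝔎}
    (ha : s26gspRho P 𝔎 hP a ≠ 0) : a ≠ 0 := by
  rintro rfl
  exact ha (map_zero _)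

include hP in
/-- the KEY: `t ^ (k+1) · μ₀ a · μ₀ b' = μ₀ a' · μ₀ b` is impossible when `ρ a', ρ b ≠ 0`. -/
theorem s26gsp_key (hld : Function.Injective (s26gspMu K 𝔠 𝔎 Ω)) {t : 𝔠} (ht : P.ord t = 1)
    (k : ℕ) (a b a' b' : ↥P.toValuationSubring ⊗[K] 𝔎)
    (ha' : s26gspRho P 𝔎 hP a' ≠ 0) (hb : s26gspRho P 𝔎 hP b ≠ 0)
    (h : algebraMap 𝔠 Ω t ^ (k + 1) * (s26gspMu0 P 𝔎 Ω a * s26gspMu0 P 𝔎 Ω b') =
      s26gspMu0 P 𝔎 Ω a' * s26gspMu0 P 𝔎 Ω b) : False := by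
  have h1 : s26gspMu0 P 𝔎 Ω
      (((⟨t, s26gsp_t_mem P ht⟩ : ↥P.toValuationSubring) ^ (k + 1)) ⊗ₜ[K] (1 : 𝔎) * (a * b')) =
      s26gspMu0 P 𝔎 Ω (a' * b) := by
    rw [map_mul, map_mul, map_mul, s26gspMu0_tmul, ← h]
    simp
  have h2 := s26gspMu0_injective P hld h1
  have h3 := congrArg (s26gspRho P 𝔎 hP) h2
  rw [map_mul, map_mul, map_mul, s26gspRho_tmul, map_pow, s26gsp_res_t P hP ht,
    zero_pow (Nat.succ_ne_zero k), map_zero, zero_mul, zero_mul] at h3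
  exact mul_ne_zero ha' hb h3.symm

include hP in
/-- **normal form in `Ω`**. -/
theorem s26gsp_nfΩ (hgen : S26gspGen K 𝔠 𝔎 Ω)
    {t : 𝔠} (ht : P.ord t = 1) (x : Ω) (hx : x ≠ 0) :
    ∃ (n : ℤ) (a b : ↥P.toValuationSubring ⊗[K] 𝔎), s26gspRho P 𝔎 hP a ≠ 0 ∧
      s26gspRho P 𝔎 hP b ≠ 0 ∧
      x * s26gspMu0 P 𝔎 Ω b = algebraMap 𝔠 Ω t ^ n * s26gspMu0 P 𝔎 Ω a := by
  have ht0 : algebraMap 𝔠 Ω t ≠ 0 := by
    simpa using s26gsp_ne_zero_of_ord P ht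
  obtain ⟨A, B, hB, hAB⟩ := hgen x
  have hB0 : B ≠ 0 := by
    rintro rfl
    exact hB (map_zero _)
  have hA0 : A ≠ 0 := by
    rintro rfl
    rw [map_zero] at hAB
    exact (mul_ne_zero hx hB) hAB
  obtain ⟨m, a, ha, hAa⟩ := s26gsp_nf P hP ht A hA0
  obtain ⟨l, b, hb, hBb⟩ := s26gsp_nf P hP ht B hB0
  have hμA : s26gspMu K 𝔠 𝔎 Ω A = algebraMap 𝔠 Ω t ^ m * s26gspMu0 P 𝔎 Ω a := by
    rw [hAa, map_mul, s26gspMu_tmul, map_one, mul_one, map_zpow₀]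
    rfl
  have hμB : s26gspMu K 𝔠 𝔎 Ω B = algebraMap 𝔠 Ω t ^ l * s26gspMu0 P 𝔎 Ω b := by
    rw [hBb, map_mul, s26gspMu_tmul, map_one, mul_one, map_zpow₀]
    rfl
  refine ⟨m - l, a, b, ha, hb, ?_⟩
  rw [hμA, hμB] at hAB
  rw [zpow_sub₀ ht0, div_mul_eq_mul_div, eq_div_iff (zpow_ne_zero _ ht0), ← hAB]
  ring

/-- **the Gauss valuation ring** of `Ω` over `P`. -/
def s26gspVS (hld : Function.Injective (s26gspMu K 𝔠 𝔎 Ω)) (hgen : S26gspGen K 𝔠 𝔎 Ω) :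
    ValuationSubring Ω where
  carrier := {x | ∃ a b : ↥P.toValuationSubring ⊗[K] 𝔎, s26gspRho P 𝔎 hP b ≠ 0 ∧
    x * s26gspMu0 P 𝔎 Ω b = s26gspMu0 P 𝔎 Ω a}
  mul_mem' := by
    rintro x y ⟨a, b, hb, h⟩ ⟨a', b', hb', h'⟩
    refine ⟨a * a', b * b', ?_, ?_⟩
    · rw [map_mul]
      exact mul_ne_zero hb hb'
    · rw [map_mul, map_mul, ← h, ← h']
      ring
  one_mem' := ⟨1, 1, by rw [map_one]; exact one_ne_zero, by rw [map_one, mul_one]⟩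
  add_mem' := by
    rintro x y ⟨a, b, hb, h⟩ ⟨a', b', hb', h'⟩
    refine ⟨a * b' + a' * b, b * b', ?_, ?_⟩
    · rw [map_mul]
      exact mul_ne_zero hb hb'
    · rw [map_add, map_mul, map_mul, map_mul, ← h, ← h']
      ring
  zero_mem' := ⟨0, 1, by rw [map_one]; exact one_ne_zero, by rw [map_zero, zero_mul]⟩
  neg_mem' := by
    rintro x ⟨a, b, hb, h⟩
    exact ⟨-a, b, hb, by rw [map_neg, ← h]; ring⟩
  mem_or_inv_mem' := by
    intro x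
    rcases eq_or_ne x 0 with rfl | hx
    · exact Or.inl ⟨0, 1, by rw [map_one]; exact one_ne_zero, by rw [map_zero, zero_mul]⟩
    obtain ⟨t, ht⟩ := Fermat.Agent.S24.place_exists_ord_eq_one P
    have ht0 : algebraMap 𝔠 Ω t ≠ 0 := by
      simpa using s26gsp_ne_zero_of_ord P ht
    obtain ⟨n, a, b, ha, hb, h⟩ := s26gsp_nfΩ P hP hgen ht x hx
    rcases le_or_gt 0 n with hn | hn
    · left
      obtain ⟨k, rfl⟩ := Int.eq_ofNat_of_zero_le hn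
      refine ⟨((⟨t, s26gsp_t_mem P ht⟩ : ↥P.toValuationSubring) ^ k) ⊗ₜ[K] (1 : 𝔎) * a, b, hb, ?_⟩
      rw [h, map_mul, s26gspMu0_tmul]
      simp
    · right
      obtain ⟨k, hk⟩ : ∃ k : ℕ, n = -(k : ℤ) := ⟨(-n).toNat, by omega⟩
      subst hk
      refine ⟨((⟨t, s26gsp_t_mem P ht⟩ : ↥P.toValuationSubring) ^ k) ⊗ₜ[K] (1 : 𝔎) * b, a, ha, ?_⟩
      rw [map_mul, s26gspMu0_tmul]
      have hμa : s26gspMu0 P 𝔎 Ω a ≠ 0 := fun h0 =>
        s26gspRho_ne_zero P hP ha ((s26gspMu0_injective P hld) (h0.trans (map_zero _).symm))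
      rw [zpow_neg, zpow_natCast] at h
      have h2 : s26gspMu0 P 𝔎 Ω a = x * s26gspMu0 P 𝔎 Ω b * algebraMap 𝔠 Ω t ^ k := by
        rw [h]
        field_simp
      simp only [map_one, mul_one, SubmonoidClass.mk_pow, map_pow]
      rw [h2]
      field_simp

theorem s26gsp_mem_VS (hld : Function.Injective (s26gspMu K 𝔠 𝔎 Ω))
    (hgen : S26gspGen K 𝔠 𝔎 Ω) (x : Ω) :
    x ∈ s26gspVS P hP hld hgen ↔
      ∃ a b : ↥P.toValuationSubring ⊗[K] 𝔎, s26gspRho P 𝔎 hP b ≠ 0 ∧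
        x * s26gspMu0 P 𝔎 Ω b = s26gspMu0 P 𝔎 Ω a := Iff.rfl

theorem s26gspMu0_ne_zero (hld : Function.Injective (s26gspMu K 𝔠 𝔎 Ω))
    {a : ↥P.toValuationSubring ⊗[K] 𝔎} (ha : s26gspRho P 𝔎 hP a ≠ 0) :
    s26gspMu0 P 𝔎 Ω a ≠ 0 := fun h0 =>
  s26gspRho_ne_zero P hP ha ((s26gspMu0_injective P hld) (h0.trans (map_zero _).symm))

/-- unit criterion. -/
theorem s26gsp_unit_mem (hld : Function.Injective (s26gspMu K 𝔠 𝔎 Ω))
    (hgen : S26gspGen K 𝔠 𝔎 Ω) {x : Ω} {a b : ↥P.toValuationSubring ⊗[K] 𝔎}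
    (ha : s26gspRho P 𝔎 hP a ≠ 0) (hb : s26gspRho P 𝔎 hP b ≠ 0)
    (h : x * s26gspMu0 P 𝔎 Ω b = s26gspMu0 P 𝔎 Ω a) :
    x ∈ s26gspVS P hP hld hgen ∧ x⁻¹ ∈ s26gspVS P hP hld hgen ∧ x ≠ 0 := by
  have hμa := s26gspMu0_ne_zero P hP hld ha
  have hμb := s26gspMu0_ne_zero P hP hld hb
  have hx : x ≠ 0 := by
    rintro rfl
    rw [zero_mul] at h
    exact hμa h.symm
  refine ⟨⟨a, b, hb, h⟩, ⟨b, a, ha, ?_⟩, hx⟩
  rw [← h]
  field_simp

theorem s26gsp_tΩ_mem (hld : Function.Injective (s26gspMu K 𝔠 𝔎 Ω))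
    (hgen : S26gspGen K 𝔠 𝔎 Ω) {f : 𝔠} (hf : f ∈ P.toValuationSubring) :
    algebraMap 𝔠 Ω f ∈ s26gspVS P hP hld hgen :=
  ⟨(⟨f, hf⟩ : ↥P.toValuationSubring) ⊗ₜ[K] (1 : 𝔎), 1, by rw [map_one]; exact one_ne_zero,
    by rw [map_one, mul_one, s26gspMu0_tmul, map_one, mul_one]⟩

theorem s26gsp_t_inv_not_mem (hld : Function.Injective (s26gspMu K 𝔠 𝔎 Ω))
    (hgen : S26gspGen K 𝔠 𝔎 Ω) {t : 𝔠} (ht : P.ord t = 1) :
    (algebraMap 𝔠 Ω t)⁻¹ ∉ s26gspVS P hP hld hgen := by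
  rintro ⟨a, b, hb, h⟩
  have ht0 : algebraMap 𝔠 Ω t ≠ 0 := by
    simpa using s26gsp_ne_zero_of_ord P ht
  refine s26gsp_key P hP hld ht 0 a 1 b 1 hb (by rw [map_one]; exact one_ne_zero) ?_
  rw [map_one, mul_one, mul_one, ← h, zero_add, pow_one]
  field_simp

/-- nonzero elements of the Gauss ring have a normal form with exponent in `ℕ`. -/
theorem s26gsp_nf_mem (hld : Function.Injective (s26gspMu K 𝔠 𝔎 Ω))
    (hgen : S26gspGen K 𝔠 𝔎 Ω) {t : 𝔠} (ht : P.ord t = 1) {x : Ω}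
    (hx : x ∈ s26gspVS P hP hld hgen) (hx0 : x ≠ 0) :
    ∃ (k : ℕ) (a b : ↥P.toValuationSubring ⊗[K] 𝔎), s26gspRho P 𝔎 hP a ≠ 0 ∧
      s26gspRho P 𝔎 hP b ≠ 0 ∧
      x * s26gspMu0 P 𝔎 Ω b = algebraMap 𝔠 Ω t ^ k * s26gspMu0 P 𝔎 Ω a := by
  have ht0 : algebraMap 𝔠 Ω t ≠ 0 := by
    simpa using s26gsp_ne_zero_of_ord P ht
  obtain ⟨n, a, b, ha, hb, h⟩ := s26gsp_nfΩ P hP hgen ht x hx0
  rcases le_or_gt 0 n with hn | hn
  · obtain ⟨k, rfl⟩ := Int.eq_ofNat_of_zero_le hn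
    exact ⟨k, a, b, ha, hb, by rw [h, zpow_natCast]⟩
  · exfalso
    obtain ⟨k, hk⟩ : ∃ k : ℕ, n = -((k : ℤ) + 1) := ⟨(-n - 1).toNat, by omega⟩
    subst hk
    obtain ⟨a₁, b₁, hb₁, h₁⟩ := hx
    refine s26gsp_key P hP hld ht k a₁ b₁ a b ha hb₁ ?_
    rw [zpow_neg] at h
    have h2 : s26gspMu0 P 𝔎 Ω a = algebraMap 𝔠 Ω t ^ ((k : ℤ) + 1) *
        (x * s26gspMu0 P 𝔎 Ω b) := by
      rw [h]
      field_simp
    rw [h2, ← h₁]
    have h3 : algebraMap 𝔠 Ω t ^ ((k : ℤ) + 1) = algebraMap 𝔠 Ω t ^ (k + 1) := by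
      rw [← zpow_natCast]
      norm_cast
    rw [h3]
    ring

theorem s26gsp_isUnit_sub {V : ValuationSubring Ω} {x : Ω} (hx : x ∈ V) (hxi : x⁻¹ ∈ V)
    (hx0 : x ≠ 0) : IsUnit (⟨x, hx⟩ : ↥V) := by
  refine IsUnit.of_mul_eq_one (⟨x⁻¹, hxi⟩ : ↥V) ?_
  ext
  simp [hx0]

theorem s26gsp_inv_mem_of_isUnit {V : ValuationSubring Ω} {x : ↥V} (hx : IsUnit x) :
    ((x : ↥V) : Ω)⁻¹ ∈ V := by
  obtain ⟨u, rfl⟩ := hx
  have h1 : ((u : ↥V) : Ω) * (((u⁻¹ : (↥V)ˣ) : ↥V) : Ω) = 1 := by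
    have h2 : (u : ↥V) * ((u⁻¹ : (↥V)ˣ) : ↥V) = 1 := by simp
    exact_mod_cast congrArg Subtype.val h2
  rw [inv_eq_of_mul_eq_one_right h1]
  exact SetLike.coe_mem _

/-- the uniformizer `t` as an element of the Gauss ring. -/
def s26gspUnif (hld : Function.Injective (s26gspMu K 𝔠 𝔎 Ω)) (hgen : S26gspGen K 𝔠 𝔎 Ω)
    {t : 𝔠} (ht : P.ord t = 1) : ↥(s26gspVS P hP hld hgen) :=
  ⟨algebraMap 𝔠 Ω t, s26gsp_tΩ_mem P hP hld hgen (s26gsp_t_mem P ht)⟩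

theorem s26gspUnif_not_isUnit (hld : Function.Injective (s26gspMu K 𝔠 𝔎 Ω))
    (hgen : S26gspGen K 𝔠 𝔎 Ω) {t : 𝔠} (ht : P.ord t = 1) :
    ¬ IsUnit (s26gspUnif P hP hld hgen ht) := fun h =>
  s26gsp_t_inv_not_mem P hP hld hgen ht (s26gsp_inv_mem_of_isUnit h)

/-- every nonzero element of the Gauss ring is `t ^ k · unit`. -/
theorem s26gsp_factor (hld : Function.Injective (s26gspMu K 𝔠 𝔎 Ω))
    (hgen : S26gspGen K 𝔠 𝔎 Ω) {t : 𝔠} (ht : P.ord t = 1)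
    (x : ↥(s26gspVS P hP hld hgen)) (hx0 : x ≠ 0) :
    ∃ (k : ℕ) (u : (↥(s26gspVS P hP hld hgen))ˣ),
      x = s26gspUnif P hP hld hgen ht ^ k * (u : ↥(s26gspVS P hP hld hgen)) := by
  have ht0 : algebraMap 𝔠 Ω t ≠ 0 := by
    simpa using s26gsp_ne_zero_of_ord P ht
  have hx0' : (x : Ω) ≠ 0 := fun h => hx0 (Subtype.ext h)
  obtain ⟨k, a, b, ha, hb, h⟩ := s26gsp_nf_mem P hP hld hgen ht x.2 hx0'
  have hμb := s26gspMu0_ne_zero P hP hld hb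
  set y : Ω := s26gspMu0 P 𝔎 Ω a / s26gspMu0 P 𝔎 Ω b with hy
  have hyb : y * s26gspMu0 P 𝔎 Ω b = s26gspMu0 P 𝔎 Ω a := by
    rw [hy]
    field_simp
  obtain ⟨h1, h2, h3⟩ := s26gsp_unit_mem P hP hld hgen ha hb hyb
  refine ⟨k, (s26gsp_isUnit_sub h1 h2 h3).unit, ?_⟩
  ext
  simp only [s26gspUnif, MulMemClass.coe_mul, SubmonoidClass.coe_pow, IsUnit.unit_spec]
  rw [hy, mul_div_assoc', ← h]
  field_simp

theorem s26gspUnif_irreducible (hld : Function.Injective (s26gspMu K 𝔠 𝔎 Ω))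
    (hgen : S26gspGen K 𝔠 𝔎 Ω) {t : 𝔠} (ht : P.ord t = 1) :
    Irreducible (s26gspUnif P hP hld hgen ht) := by
  have ht0 : algebraMap 𝔠 Ω t ≠ 0 := by
    simpa using s26gsp_ne_zero_of_ord P ht
  have hp0 : s26gspUnif P hP hld hgen ht ≠ 0 := fun h => ht0 (congrArg Subtype.val h)
  have hnu := s26gspUnif_not_isUnit P hP hld hgen ht
  rw [irreducible_iff]
  refine ⟨hnu, fun x y hxy => ?_⟩
  have hx0 : x ≠ 0 := by
    rintro rfl
    rw [zero_mul] at hxy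
    exact hp0 hxy
  have hy0 : y ≠ 0 := by
    rintro rfl
    rw [mul_zero] at hxy
    exact hp0 hxy
  obtain ⟨k, u, hk⟩ := s26gsp_factor P hP hld hgen ht x hx0
  obtain ⟨l, v, hl⟩ := s26gsp_factor P hP hld hgen ht y hy0
  rcases Nat.eq_zero_or_pos k with rfl | hkpos
  · left
    rw [hk, pow_zero, one_mul]
    exact u.isUnit
  rcases Nat.eq_zero_or_pos l with rfl | hlpos
  · right
    rw [hl, pow_zero, one_mul]
    exact v.isUnit
  exfalso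
  apply hnu
  obtain ⟨k', rfl⟩ : ∃ k', k = k' + 1 := ⟨k - 1, by omega⟩
  obtain ⟨l', rfl⟩ : ∃ l', l = l' + 1 := ⟨l - 1, by omega⟩
  set p := s26gspUnif P hP hld hgen ht with hp
  have h1 : p * 1 = p * (p * (p ^ k' * p ^ l' * (u * v : (↥(s26gspVS P hP hld hgen))ˣ))) := by
    rw [mul_one]
    conv_lhs => rw [hxy, hk, hl]
    push_cast
    ring
  have h2 := mul_left_cancel₀ hp0 h1
  exact IsUnit.of_mul_eq_one _ h2.symm

theorem s26gsp_hasFactorization (hld : Function.Injective (s26gspMu K 𝔠 𝔎 Ω))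
    (hgen : S26gspGen K 𝔠 𝔎 Ω) :
    IsDiscreteValuationRing.HasUnitMulPowIrreducibleFactorization
      ↥(s26gspVS P hP hld hgen) := by
  obtain ⟨t, ht⟩ := Fermat.Agent.S24.place_exists_ord_eq_one P
  refine ⟨s26gspUnif P hP hld hgen ht, s26gspUnif_irreducible P hP hld hgen ht, ?_⟩
  intro x hx
  obtain ⟨k, u, hk⟩ := s26gsp_factor P hP hld hgen ht x hx
  exact ⟨k, u, hk.symm⟩

/-- **(C1), existence: the Gauss place `P′` of `Ω / 𝔎` over `P`.** -/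
def s26gspPlace (hld : Function.Injective (s26gspMu K 𝔠 𝔎 Ω)) (hgen : S26gspGen K 𝔠 𝔎 Ω) :
    Place 𝔎 Ω where
  toValuationSubring := s26gspVS P hP hld hgen
  algebraMap_mem' c :=
    ⟨(1 : ↥P.toValuationSubring) ⊗ₜ[K] c, 1, by rw [map_one]; exact one_ne_zero,
      by rw [map_one, mul_one, s26gspMu0_tmul]; simp⟩
  ne_top' := by
    intro htop
    obtain ⟨t, ht⟩ := Fermat.Agent.S24.place_exists_ord_eq_one P
    apply s26gsp_t_inv_not_mem P hP hld hgen ht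
    rw [htop]
    exact ValuationSubring.mem_top _
  isPrincipalIdealRing' := by
    haveI := IsDiscreteValuationRing.ofHasUnitMulPowIrreducibleFactorization
      (s26gsp_hasFactorization P hP hld hgen)
    infer_instance

@[simp]
theorem s26gspPlace_toValuationSubring (hld : Function.Injective (s26gspMu K 𝔠 𝔎 Ω))
    (hgen : S26gspGen K 𝔠 𝔎 Ω) :
    (s26gspPlace P hP hld hgen).toValuationSubring = s26gspVS P hP hld hgen := rfl

/-- **the order at the Gauss place**, from a normal form. -/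
theorem s26gspPlace_ord_eq (hld : Function.Injective (s26gspMu K 𝔠 𝔎 Ω))
    (hgen : S26gspGen K 𝔠 𝔎 Ω) {t : 𝔠} (ht : P.ord t = 1) {x : Ω} {n : ℤ}
    {a b : ↥P.toValuationSubring ⊗[K] 𝔎}
    (ha : s26gspRho P 𝔎 hP a ≠ 0) (hb : s26gspRho P 𝔎 hP b ≠ 0)
    (h : x * s26gspMu0 P 𝔎 Ω b = algebraMap 𝔠 Ω t ^ n * s26gspMu0 P 𝔎 Ω a) :
    (s26gspPlace P hP hld hgen).ord x = n := by
  have ht0 : algebraMap 𝔠 Ω t ≠ 0 := by
    simpa using s26gsp_ne_zero_of_ord P ht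
  have hμb := s26gspMu0_ne_zero P hP hld hb
  set y : Ω := s26gspMu0 P 𝔎 Ω a / s26gspMu0 P 𝔎 Ω b with hy
  have hyb : y * s26gspMu0 P 𝔎 Ω b = s26gspMu0 P 𝔎 Ω a := by
    rw [hy]
    field_simp
  obtain ⟨h1, h2, h3⟩ := s26gsp_unit_mem P hP hld hgen ha hb hyb
  have hx : x = y * algebraMap 𝔠 Ω t ^ n := by
    rw [hy, div_mul_eq_mul_div, eq_div_iff hμb, h]
    ring
  have key := (s26gspPlace P hP hld hgen).ord_unit_smul_zpow
    (s26gsp_isUnit_sub h1 h2 h3).unit (s26gspUnif_irreducible P hP hld hgen ht) n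
  rw [hx]
  exact key

/-! ### (C1): `P′` restricts to `P` -/

/-- **(C1)/(C2) on `𝔠`**: `ord_{P′} f = ord_P f` for `f ∈ 𝔠`. -/
theorem s26gspPlace_ord_algebraMap (hld : Function.Injective (s26gspMu K 𝔠 𝔎 Ω))
    (hgen : S26gspGen K 𝔠 𝔎 Ω) (f : 𝔠) :
    (s26gspPlace P hP hld hgen).ord (algebraMap 𝔠 Ω f) = P.ord f := by
  rcases eq_or_ne f 0 with rfl | hf
  · simp
  obtain ⟨t, ht⟩ := Fermat.Agent.S24.place_exists_ord_eq_one P
  have ht0 : t ≠ 0 := s26gsp_ne_zero_of_ord P ht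
  have h0 : P.ord (f * t ^ (-P.ord f)) = 0 := by
    rw [P.ord_mul hf (zpow_ne_zero _ ht0), P.ord_zpow, ht]
    ring
  have hu := s26gsp_isUnit_of_ord P (mul_ne_zero hf (zpow_ne_zero _ ht0)) h0
  refine s26gspPlace_ord_eq P hP hld hgen ht
    (a := (⟨f * t ^ (-P.ord f), s26gsp_mem_of_ord P h0.ge⟩ : ↥P.toValuationSubring) ⊗ₜ[K] 1)
    (b := 1) ?_ ?_ ?_
  · rw [s26gspRho_tmul, mul_one]
    simpa using s26gspRes_ne_zero_of_isUnit P hP hu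
  · rw [map_one]
    exact one_ne_zero
  · rw [map_one, mul_one, s26gspMu0_tmul, map_one, mul_one, map_mul, map_zpow₀, zpow_neg]
    have : algebraMap 𝔠 Ω t ≠ 0 := by simpa using ht0
    field_simp

/-- **(C1)**: `P′ ∩ 𝔠 = P`. -/
theorem s26gspPlace_mem_algebraMap (hld : Function.Injective (s26gspMu K 𝔠 𝔎 Ω))
    (hgen : S26gspGen K 𝔠 𝔎 Ω) (f : 𝔠) :
    algebraMap 𝔠 Ω f ∈ (s26gspPlace P hP hld hgen).toValuationSubring ↔
      f ∈ P.toValuationSubring := by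
  rw [Fermat.Agent.S24.place_mem_iff', Fermat.Agent.S24.place_mem_iff',
    s26gspPlace_ord_algebraMap]
  simp

/-! ### (C2): the order of a sum `∑ fᵢ cᵢ` -/

/-- **(C2)**: for `cᵢ ∈ 𝔎` linearly independent over `K` (on `s`) and `fᵢ ∈ 𝔠` with
`ord_P fᵢ ≥ m` (or `fᵢ = 0`), equality for some `i`:  `ord_{P′} (∑ fᵢ cᵢ) = m`, and the sum is
not zero. -/
theorem s26gspPlace_ord_sum (hld : Function.Injective (s26gspMu K 𝔠 𝔎 Ω))
    (hgen : S26gspGen K 𝔠 𝔎 Ω) {ι : Type*} (s : Finset ι) (f : ι → 𝔠) (c : ι → 𝔎)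
    (hc : ∀ r : ι → K, ∑ i ∈ s, r i • c i = 0 → ∀ i ∈ s, r i = 0) (m : ℤ)
    (hm : ∀ i ∈ s, f i = 0 ∨ m ≤ P.ord (f i)) (hi₀ : ∃ i ∈ s, f i ≠ 0 ∧ P.ord (f i) = m) :
    (s26gspPlace P hP hld hgen).ord
        (∑ i ∈ s, algebraMap 𝔠 Ω (f i) * algebraMap 𝔎 Ω (c i)) = m ∧
      ∑ i ∈ s, algebraMap 𝔠 Ω (f i) * algebraMap 𝔎 Ω (c i) ≠ 0 := by
  classical
  obtain ⟨t, ht⟩ := Fermat.Agent.S24.place_exists_ord_eq_one P
  have ht0 : t ≠ 0 := s26gsp_ne_zero_of_ord P ht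
  have htΩ : algebraMap 𝔠 Ω t ≠ 0 := by simpa using ht0
  have hord : ∀ i ∈ s, 0 ≤ P.ord (f i * t ^ (-m)) := by
    intro i hi
    rcases hm i hi with h | h
    · rw [h, zero_mul, P.ord_zero]
    · rcases eq_or_ne (f i) 0 with h0 | h0
      · rw [h0, zero_mul, P.ord_zero]
      rw [P.ord_mul h0 (zpow_ne_zero _ ht0), P.ord_zpow, ht]
      omega
  let g : ι → ↥P.toValuationSubring := fun i =>
    if h : i ∈ s then ⟨f i * t ^ (-m), s26gsp_mem_of_ord P (hord i h)⟩ else 0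
  have hg : ∀ i ∈ s, ((g i : ↥P.toValuationSubring) : 𝔠) = f i * t ^ (-m) := by
    intro i hi
    simp only [g, dif_pos hi]
  set a : ↥P.toValuationSubring ⊗[K] 𝔎 := ∑ i ∈ s, g i ⊗ₜ[K] c i with ha
  have hρa : s26gspRho P 𝔎 hP a ≠ 0 := by
    intro h0
    rw [ha, map_sum] at h0
    have h1 : ∑ i ∈ s, (s26gspRes P hP (g i)) • c i = 0 := by
      rw [← h0]
      refine Finset.sum_congr rfl fun i _ => ?_
      rw [s26gspRho_tmul, Algebra.smul_def]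
    obtain ⟨i₀, hi₀s, hfi₀, hordi₀⟩ := hi₀
    have h2 := hc (fun i => s26gspRes P hP (g i)) h1 i₀ hi₀s
    have h3 : P.ord (f i₀ * t ^ (-m)) = 0 := by
      rw [P.ord_mul hfi₀ (zpow_ne_zero _ ht0), P.ord_zpow, ht]
      omega
    have h4 := s26gsp_isUnit_of_ord P (mul_ne_zero hfi₀ (zpow_ne_zero _ ht0)) h3
    have h5 : g i₀ = ⟨f i₀ * t ^ (-m), s26gsp_mem_of_ord P h3.ge⟩ := by
      ext
      exact hg i₀ hi₀s
    rw [← h5] at h4
    exact s26gspRes_ne_zero_of_isUnit P hP h4 h2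
  have hμa : s26gspMu0 P 𝔎 Ω a =
      (algebraMap 𝔠 Ω t) ^ (-m) * ∑ i ∈ s, algebraMap 𝔠 Ω (f i) * algebraMap 𝔎 Ω (c i) := by
    rw [ha, map_sum, Finset.mul_sum]
    refine Finset.sum_congr rfl fun i hi => ?_
    rw [s26gspMu0_tmul, hg i hi, map_mul, map_zpow₀]
    ring
  have hsum : (∑ i ∈ s, algebraMap 𝔠 Ω (f i) * algebraMap 𝔎 Ω (c i)) *
      s26gspMu0 P 𝔎 Ω (1 : ↥P.toValuationSubring ⊗[K] 𝔎) =
      algebraMap 𝔠 Ω t ^ m * s26gspMu0 P 𝔎 Ω a := by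
    rw [map_one, mul_one, hμa, ← mul_assoc, ← zpow_add₀ htΩ]
    simp
  refine ⟨s26gspPlace_ord_eq P hP hld hgen ht hρa (by rw [map_one]; exact one_ne_zero) hsum, ?_⟩
  intro h0
  rw [h0, zero_mul] at hsum
  exact (mul_ne_zero (zpow_ne_zero _ htΩ) (s26gspMu0_ne_zero P hP hld hρa)) hsum.symm

/-- (C2) for a linearly independent family. -/
theorem s26gspPlace_ord_sum_of_linearIndependent
    (hld : Function.Injective (s26gspMu K 𝔠 𝔎 Ω))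
    (hgen : S26gspGen K 𝔠 𝔎 Ω) {ι : Type*} (s : Finset ι) (f : ι → 𝔠) (c : ι → 𝔎)
    (hc : LinearIndependent K c) (m : ℤ)
    (hm : ∀ i ∈ s, f i = 0 ∨ m ≤ P.ord (f i)) (hi₀ : ∃ i ∈ s, f i ≠ 0 ∧ P.ord (f i) = m) :
    (s26gspPlace P hP hld hgen).ord
        (∑ i ∈ s, algebraMap 𝔠 Ω (f i) * algebraMap 𝔎 Ω (c i)) = m ∧
      ∑ i ∈ s, algebraMap 𝔠 Ω (f i) * algebraMap 𝔎 Ω (c i) ≠ 0 :=
  s26gspPlace_ord_sum P hP hld hgen s f c
    (fun r hr i hi => linearIndependent_iff'.1 hc s r hr i hi) m hm hi₀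

/-! ### the kernel of `ρ` -/

include hP in
/-- `ker ρ = t · (O_P ⊗ 𝔎)`. -/
theorem s26gspRho_ker {t : 𝔠} (ht : P.ord t = 1) (d : ↥P.toValuationSubring ⊗[K] 𝔎)
    (hd : s26gspRho P 𝔎 hP d = 0) :
    ∃ d' : ↥P.toValuationSubring ⊗[K] 𝔎,
      d = ((⟨t, s26gsp_t_mem P ht⟩ : ↥P.toValuationSubring) ⊗ₜ[K] (1 : 𝔎)) * d' := by
  have ht0 : t ≠ 0 := s26gsp_ne_zero_of_ord P ht
  rcases eq_or_ne d 0 with rfl | hd0
  · exact ⟨0, by rw [mul_zero]⟩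
  have hincl : s26gspIncl P 𝔎 d ≠ 0 := fun h =>
    hd0 (s26gspIncl_injective P (h.trans (map_zero _).symm))
  obtain ⟨m, a, ha, hA⟩ := s26gsp_nf P hP ht (s26gspIncl P 𝔎 d) hincl
  have hpow : ∀ k : ℕ, s26gspIncl P 𝔎
      (((⟨t, s26gsp_t_mem P ht⟩ : ↥P.toValuationSubring) ^ k) ⊗ₜ[K] (1 : 𝔎)) =
      (t ^ (k : ℤ)) ⊗ₜ[K] (1 : 𝔎) := by
    intro k
    rw [s26gspIncl_tmul, zpow_natCast]
    rfl
  rcases lt_or_ge 0 m with hm | hm
  · obtain ⟨k, hk⟩ : ∃ k : ℕ, m = (k : ℤ) + 1 := ⟨(m - 1).toNat, by omega⟩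
    refine ⟨((⟨t, s26gsp_t_mem P ht⟩ : ↥P.toValuationSubring) ^ k) ⊗ₜ[K] (1 : 𝔎) * a, ?_⟩
    apply s26gspIncl_injective P
    rw [hA, map_mul, map_mul, hpow, s26gspIncl_tmul, ← mul_assoc,
      Algebra.TensorProduct.tmul_mul_tmul, mul_one, hk]
    congr 2
    rw [zpow_add₀ ht0, zpow_one, mul_comm]
  · exfalso
    obtain ⟨k, hk⟩ : ∃ k : ℕ, m = -(k : ℤ) := ⟨(-m).toNat, by omega⟩
    have h1 : s26gspIncl P 𝔎
        (((⟨t, s26gsp_t_mem P ht⟩ : ↥P.toValuationSubring) ^ k) ⊗ₜ[K] (1 : 𝔎) * d) =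
        s26gspIncl P 𝔎 a := by
      rw [map_mul, hpow, hA, ← mul_assoc, Algebra.TensorProduct.tmul_mul_tmul, mul_one, hk,
        ← zpow_add₀ ht0]
      have h1 : ((k : ℤ) + -(k : ℤ)) = 0 := by ring
      rw [h1, zpow_zero, ← Algebra.TensorProduct.one_def, one_mul]
    have h2 := s26gspIncl_injective P h1
    apply ha
    rw [← h2, map_mul, hd, mul_zero]

/-! ### (C3): the residue field of `P′` is `𝔎` -/

/-- every element of the Gauss ring is congruent to a constant `c ∈ 𝔎` modulo `t`. -/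
theorem s26gsp_exists_const (hld : Function.Injective (s26gspMu K 𝔠 𝔎 Ω))
    (hgen : S26gspGen K 𝔠 𝔎 Ω) {t : 𝔠} (ht : P.ord t = 1) {x : Ω}
    (hx : x ∈ s26gspVS P hP hld hgen) :
    ∃ (c : 𝔎) (z : Ω), z ∈ s26gspVS P hP hld hgen ∧
      x = algebraMap 𝔎 Ω c + algebraMap 𝔠 Ω t * z := by
  obtain ⟨a, b, hb, h⟩ := hx
  have hμb := s26gspMu0_ne_zero P hP hld hb
  set c : 𝔎 := s26gspRho P 𝔎 hP a / s26gspRho P 𝔎 hP b with hc
  set d : ↥P.toValuationSubring ⊗[K] 𝔎 :=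
    a - ((1 : ↥P.toValuationSubring) ⊗ₜ[K] c) * b with hd
  have hρd : s26gspRho P 𝔎 hP d = 0 := by
    rw [hd, map_sub, map_mul, s26gspRho_tmul, map_one, map_one, one_mul, hc]
    field_simp
    ring
  obtain ⟨d', hd'⟩ := s26gspRho_ker P hP ht d hρd
  refine ⟨c, s26gspMu0 P 𝔎 Ω d' / s26gspMu0 P 𝔎 Ω b, ⟨d', b, hb, by field_simp⟩, ?_⟩
  have h1 : s26gspMu0 P 𝔎 Ω d = algebraMap 𝔠 Ω t * s26gspMu0 P 𝔎 Ω d' := by
    rw [hd', map_mul, s26gspMu0_tmul, map_one, mul_one]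
  have h2 : s26gspMu0 P 𝔎 Ω d = x * s26gspMu0 P 𝔎 Ω b -
      algebraMap 𝔎 Ω c * s26gspMu0 P 𝔎 Ω b := by
    rw [hd, map_sub, map_mul, s26gspMu0_tmul, h]
    simp
  rw [mul_div_assoc', ← h1, h2]
  field_simp
  ring

/-- **(C3)**: the residue field of `P′` is `𝔎`. -/
theorem s26gspPlace_residue_surjective (hld : Function.Injective (s26gspMu K 𝔠 𝔎 Ω))
    (hgen : S26gspGen K 𝔠 𝔎 Ω) :
    Function.Surjective (algebraMap 𝔎 (s26gspPlace P hP hld hgen).ResidueField) := by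
  intro y
  obtain ⟨x, rfl⟩ := IsLocalRing.residue_surjective y
  obtain ⟨t, ht⟩ := Fermat.Agent.S24.place_exists_ord_eq_one P
  obtain ⟨c, z, hz, hxz⟩ := s26gsp_exists_const P hP hld hgen ht x.2
  refine ⟨c, ?_⟩
  let π' : ↥(s26gspPlace P hP hld hgen).toValuationSubring := s26gspUnif P hP hld hgen ht
  let z' : ↥(s26gspPlace P hP hld hgen).toValuationSubring := ⟨z, hz⟩
  have hx : x = algebraMap 𝔎 ↥(s26gspPlace P hP hld hgen).toValuationSubring c + π' * z' := by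
    ext
    exact hxz
  have hπ' : π' ∈ maximalIdeal ↥(s26gspPlace P hP hld hgen).toValuationSubring := by
    rw [mem_maximalIdeal, mem_nonunits_iff]
    exact s26gspUnif_not_isUnit P hP hld hgen ht
  have hmem : π' * z' ∈ maximalIdeal ↥(s26gspPlace P hP hld hgen).toValuationSubring :=
    Ideal.mul_mem_right _ _ hπ'
  rw [hx, map_add, (residue_eq_zero_iff _).2 hmem, add_zero]
  rfl

/-- **(C3)**: `deg P′ = 1`. -/
theorem s26gspPlace_deg (hld : Function.Injective (s26gspMu K 𝔠 𝔎 Ω))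
    (hgen : S26gspGen K 𝔠 𝔎 Ω) : (s26gspPlace P hP hld hgen).deg = 1 := by
  unfold Place.deg
  refine (finrank_eq_one_iff_of_nonzero' (1 : (s26gspPlace P hP hld hgen).ResidueField)
    one_ne_zero).2 fun w => ?_
  obtain ⟨c, hc⟩ := s26gspPlace_residue_surjective P hP hld hgen w
  exact ⟨c, by rw [Algebra.smul_def, mul_one, hc]⟩

/-! ### (C1): uniqueness -/

theorem s26gspMu0_mem (w : Place 𝔎 Ω)
    (hw : ∀ f : 𝔠, f ∈ P.toValuationSubring → algebraMap 𝔠 Ω f ∈ w.toValuationSubring)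
    (a : ↥P.toValuationSubring ⊗[K] 𝔎) : s26gspMu0 P 𝔎 Ω a ∈ w.toValuationSubring := by
  induction a using TensorProduct.induction_on with
  | zero => rw [map_zero]; exact zero_mem _
  | tmul f c =>
    rw [s26gspMu0_tmul]
    exact mul_mem (hw _ f.2) (w.algebraMap_mem' c)
  | add x y hx hy => rw [map_add]; exact add_mem hx hy

include hP in
theorem s26gspMu0_inv_mem (w : Place 𝔎 Ω)
    (hw : ∀ f : 𝔠, f ∈ P.toValuationSubring → algebraMap 𝔠 Ω f ∈ w.toValuationSubring)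
    {t : 𝔠} (ht : P.ord t = 1) (hwt : (algebraMap 𝔠 Ω t)⁻¹ ∉ w.toValuationSubring)
    {b : ↥P.toValuationSubring ⊗[K] 𝔎} (hb : s26gspRho P 𝔎 hP b ≠ 0) :
    (s26gspMu0 P 𝔎 Ω b)⁻¹ ∈ w.toValuationSubring := by
  have ht0 : algebraMap 𝔠 Ω t ≠ 0 := by
    simpa using s26gsp_ne_zero_of_ord P ht
  set c : 𝔎 := s26gspRho P 𝔎 hP b with hc
  set d : ↥P.toValuationSubring ⊗[K] 𝔎 := b - (1 : ↥P.toValuationSubring) ⊗ₜ[K] c with hd
  have hρd : s26gspRho P 𝔎 hP d = 0 := by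
    rw [hd, map_sub, s26gspRho_tmul, map_one, map_one, one_mul, sub_self]
  obtain ⟨d', hd'⟩ := s26gspRho_ker P hP ht d hρd
  have hb' : s26gspMu0 P 𝔎 Ω b =
      algebraMap 𝔎 Ω c + algebraMap 𝔠 Ω t * s26gspMu0 P 𝔎 Ω d' := by
    have h1 : s26gspMu0 P 𝔎 Ω d = algebraMap 𝔠 Ω t * s26gspMu0 P 𝔎 Ω d' := by
      rw [hd', map_mul, s26gspMu0_tmul, map_one, mul_one]
    have h2 : s26gspMu0 P 𝔎 Ω d = s26gspMu0 P 𝔎 Ω b - algebraMap 𝔎 Ω c := by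
      rw [hd, map_sub, s26gspMu0_tmul]
      simp
    rw [← h1, h2]
    ring
  have hc0 : algebraMap 𝔎 Ω c ≠ 0 := by
    simpa using hb
  have hordc : w.ord (algebraMap 𝔎 Ω c) = 0 := Fermat.Agent.S24.place_ord_algebraMap w c
  have htpos : 0 < w.ord (algebraMap 𝔠 Ω t) :=
    Fermat.Agent.S24.place_ord_pos_of_mem_of_inv_not_mem w (hw t (s26gsp_t_mem P ht)) hwt ht0
  have hsecond : algebraMap 𝔠 Ω t * s26gspMu0 P 𝔎 Ω d' = 0 ∨
      0 < w.ord (algebraMap 𝔠 Ω t * s26gspMu0 P 𝔎 Ω d') := by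
    rcases eq_or_ne (s26gspMu0 P 𝔎 Ω d') 0 with h0 | h0
    · left
      rw [h0, mul_zero]
    · right
      rw [w.ord_mul ht0 h0]
      have := (Fermat.Agent.S24.place_mem_iff w h0).1 (s26gspMu0_mem P w hw d')
      omega
  have hord0 : w.ord (s26gspMu0 P 𝔎 Ω b) = 0 := by
    rw [hb']
    exact Fermat.Agent.S24.place_ord_add_eq_zero w hordc hc0 hsecond
  rw [Fermat.Agent.S24.place_mem_iff', w.ord_inv, hord0]
  right
  simp

/-- **(C1), uniqueness**: a place `w` of `Ω / 𝔎` whose ring contains `O_P` and not `t⁻¹`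
is the Gauss place `P′`. -/
theorem s26gspPlace_unique (hld : Function.Injective (s26gspMu K 𝔠 𝔎 Ω))
    (hgen : S26gspGen K 𝔠 𝔎 Ω) (w : Place 𝔎 Ω)
    (hw : ∀ f : 𝔠, f ∈ P.toValuationSubring → algebraMap 𝔠 Ω f ∈ w.toValuationSubring)
    {t : 𝔠} (ht : P.ord t = 1) (hwt : (algebraMap 𝔠 Ω t)⁻¹ ∉ w.toValuationSubring) :
    w = s26gspPlace P hP hld hgen := by
  have ht0 : algebraMap 𝔠 Ω t ≠ 0 := by
    simpa using s26gsp_ne_zero_of_ord P ht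
  apply Place.ext
  rw [s26gspPlace_toValuationSubring]
  refine le_antisymm ?_ ?_
  · intro x hx
    by_contra hxV
    have hx0 : x ≠ 0 := by
      rintro rfl
      exact hxV (zero_mem _)
    obtain ⟨n, a, b, ha, hb, h⟩ := s26gsp_nfΩ P hP hgen ht x hx0
    have hμb := s26gspMu0_ne_zero P hP hld hb
    have hμa := s26gspMu0_ne_zero P hP hld ha
    have hn : n < 0 := by
      by_contra hn
      rw [not_lt] at hn
      obtain ⟨k, rfl⟩ := Int.eq_ofNat_of_zero_le hn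
      apply hxV
      refine ⟨((⟨t, s26gsp_t_mem P ht⟩ : ↥P.toValuationSubring) ^ k) ⊗ₜ[K] (1 : 𝔎) * a, b,
        hb, ?_⟩
      rw [h, map_mul, s26gspMu0_tmul]
      simp
    obtain ⟨k, hk⟩ : ∃ k : ℕ, n = -((k : ℤ) + 1) := ⟨(-n - 1).toNat, by omega⟩
    apply hwt
    -- `t⁻¹ = x · μ₀ b · (μ₀ a)⁻¹ · t ^ k`
    have h1 : (algebraMap 𝔠 Ω t)⁻¹ =
        x * s26gspMu0 P 𝔎 Ω b * (s26gspMu0 P 𝔎 Ω a)⁻¹ * algebraMap 𝔠 Ω t ^ k := by
      rw [h, hk, zpow_neg, zpow_add₀ ht0, zpow_one, zpow_natCast]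
      field_simp
    rw [h1]
    exact mul_mem (mul_mem (mul_mem hx (s26gspMu0_mem P w hw b))
      (s26gspMu0_inv_mem P hP w hw ht hwt ha)) (pow_mem (hw t (s26gsp_t_mem P ht)) k)
  · rintro x ⟨a, b, hb, h⟩
    have hμb := s26gspMu0_ne_zero P hP hld hb
    have h1 : x = s26gspMu0 P 𝔎 Ω a * (s26gspMu0 P 𝔎 Ω b)⁻¹ := by
      rw [← h]
      field_simp
    rw [h1]
    exact mul_mem (s26gspMu0_mem P w hw a) (s26gspMu0_inv_mem P hP w hw ht hwt hb)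

/-- **(C1), uniqueness**, second form: a place `w` of `Ω / 𝔎` with `w ∩ 𝔠 = P`. -/
theorem s26gspPlace_unique' (hld : Function.Injective (s26gspMu K 𝔠 𝔎 Ω))
    (hgen : S26gspGen K 𝔠 𝔎 Ω) (w : Place 𝔎 Ω)
    (hw : ∀ f : 𝔠, algebraMap 𝔠 Ω f ∈ w.toValuationSubring ↔ f ∈ P.toValuationSubring) :
    w = s26gspPlace P hP hld hgen := by
  obtain ⟨t, ht⟩ := Fermat.Agent.S24.place_exists_ord_eq_one P
  refine s26gspPlace_unique P hP hld hgen w (fun f hf => (hw f).2 hf) ht ?_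
  rw [← map_inv₀, hw, Fermat.Agent.S24.place_mem_iff', P.ord_inv, ht]
  have ht0 := s26gsp_ne_zero_of_ord P ht
  simp [ht0]

end Gauss

/-! ### injectivity of `P ↦ P′` and (C4) -/

section C4

theorem s26gspPlace_injective (hld : Function.Injective (s26gspMu K 𝔠 𝔎 Ω))
    (hgen : S26gspGen K 𝔠 𝔎 Ω) {P Q : Place K 𝔠}
    (hP : Function.Surjective (algebraMap K P.ResidueField))
    (hQ : Function.Surjective (algebraMap K Q.ResidueField))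
    (h : s26gspPlace P hP hld hgen = s26gspPlace Q hQ hld hgen) : P = Q := by
  apply Place.ext
  ext f
  rw [← s26gspPlace_mem_algebraMap P hP hld hgen, ← s26gspPlace_mem_algebraMap Q hQ hld hgen, h]

/-- a place of `Ω / 𝔎`, as a place of `Ω / K`. -/
def s26gspRestrictScalars (K : Type*) [Field K] [Algebra K 𝔎] [Algebra K Ω]
    [IsScalarTower K 𝔎 Ω] (w : Place 𝔎 Ω) : Place K Ω where
  toValuationSubring := w.toValuationSubring
  algebraMap_mem' a := by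
    rw [IsScalarTower.algebraMap_apply K 𝔎 Ω]
    exact w.algebraMap_mem' _
  ne_top' := w.ne_top'
  isPrincipalIdealRing' := w.isPrincipalIdealRing'

theorem s26gspRestrictScalars_ord (w : Place 𝔎 Ω) (x : Ω) :
    (s26gspRestrictScalars K w).ord x = w.ord x := rfl

/-- **(C4)**: a place `w` of `Ω / 𝔎` that is not trivial on `𝔠` is a Gauss place. -/
theorem s26gspPlace_exists_of_nontrivial (hld : Function.Injective (s26gspMu K 𝔠 𝔎 Ω))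
    (hgen : S26gspGen K 𝔠 𝔎 Ω)
    (hall : ∀ P : Place K 𝔠, Function.Surjective (algebraMap K P.ResidueField))
    (w : Place 𝔎 Ω) (hw : ∃ f : 𝔠, w.ord (algebraMap 𝔠 Ω f) ≠ 0) :
    ∃ P : Place K 𝔠, w = s26gspPlace P (hall P) hld hgen := by
  have hnt : ∃ f : 𝔠, 0 < (s26gspRestrictScalars K w).ord (IsScalarTower.toAlgHom K 𝔠 Ω f) := by
    obtain ⟨f, hf⟩ := hw
    rcases lt_or_gt_of_ne hf with h | h
    · refine ⟨f⁻¹, ?_⟩
      rw [s26gspRestrictScalars_ord, map_inv₀, w.ord_inv]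
      have : w.ord (IsScalarTower.toAlgHom K 𝔠 Ω f) = w.ord (algebraMap 𝔠 Ω f) := rfl
      omega
    · exact ⟨f, h⟩
  set P := Fermat.Agent.S24.comapPlace (IsScalarTower.toAlgHom K 𝔠 Ω)
    (s26gspRestrictScalars K w) hnt with hPdef
  refine ⟨P, s26gspPlace_unique' P (hall P) hld hgen w fun f => ?_⟩
  exact (Fermat.Agent.S24.mem_comapPlace (IsScalarTower.toAlgHom K 𝔠 Ω)
    (s26gspRestrictScalars K w) hnt f).symm

/-- the map `P ↦ P′` on all places, when every place of `𝔠 / K` has residue field `K`. -/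
def s26gspCon (hld : Function.Injective (s26gspMu K 𝔠 𝔎 Ω)) (hgen : S26gspGen K 𝔠 𝔎 Ω)
    (hall : ∀ P : Place K 𝔠, Function.Surjective (algebraMap K P.ResidueField))
    (P : Place K 𝔠) : Place 𝔎 Ω :=
  s26gspPlace P (hall P) hld hgen

theorem s26gspCon_injective (hld : Function.Injective (s26gspMu K 𝔠 𝔎 Ω))
    (hgen : S26gspGen K 𝔠 𝔎 Ω)
    (hall : ∀ P : Place K 𝔠, Function.Surjective (algebraMap K P.ResidueField)) :
    Function.Injective (s26gspCon hld hgen hall) := fun P Q h =>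
  s26gspPlace_injective hld hgen (hall P) (hall Q) h

end C4

/-! ### The hypotheses for `Ω = Frac (𝔠 ⊗[K] 𝔎)` -/

section Frac

/-- `hld` and `hgen` when `Ω` is a fraction ring of `𝔠 ⊗[K] 𝔎` (through `μ`). -/
theorem s26gsp_hyp_of_isFractionRing [Algebra (𝔠 ⊗[K] 𝔎) Ω] [IsFractionRing (𝔠 ⊗[K] 𝔎) Ω]
    (hcomp : ∀ x : 𝔠 ⊗[K] 𝔎, algebraMap (𝔠 ⊗[K] 𝔎) Ω x = s26gspMu K 𝔠 𝔎 Ω x) :
    Function.Injective (s26gspMu K 𝔠 𝔎 Ω) ∧ S26gspGen K 𝔠 𝔎 Ω := by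
  have hinj : Function.Injective (algebraMap (𝔠 ⊗[K] 𝔎) Ω) :=
    IsFractionRing.injective (𝔠 ⊗[K] 𝔎) Ω
  refine ⟨fun x y hxy => hinj (by rw [hcomp, hcomp, hxy]), fun x => ?_⟩
  obtain ⟨a, b, hb, hx⟩ := IsFractionRing.div_surjective (A := 𝔠 ⊗[K] 𝔎) x
  have hb0 : algebraMap (𝔠 ⊗[K] 𝔎) Ω b ≠ 0 := by
    intro h0
    exact (nonZeroDivisors.ne_zero hb) (hinj (h0.trans (map_zero _).symm))
  refine ⟨a, b, by rw [← hcomp]; exact hb0, ?_⟩
  rw [← hcomp, ← hcomp, ← hx]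
  field_simp

end Frac

end Fermat.Agent.S26
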