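/-
S26-E, TI hub leaf **TI-FIELDS** (helper33): ONE concrete model of the fields of the step
`C(k) ⇒ C(k+1)` of the theorem of the cube.

`K` algebraically closed, `Γ`, `𝔎` fields over `K` (all in `Type u`).

* `s26etifOm K Γ 𝔎 := FractionRing (Γ ⊗[K] 𝔎)` with instances `Field`, `Algebra K`, `Algebra Γ`,
  `Algebra 𝔎`, `Algebra (Γ ⊗[K] 𝔎)`, `IsFractionRing (Γ ⊗[K] 𝔎)`, the scalar towers.
* `s26etifL : Γ →ₐ[K] Ω′`, `s26etifR : 𝔎 →ₐ[K] Ω′`.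
* `s26etif_algebraMap_eq` : `algebraMap (Γ ⊗ 𝔎) Ω′ = productMap s26etifL s26etifR`
  (the `hcomp` of helper96's `s26gsp_hyp_of_isFractionRing`), `s26etif_mu_injective`,
  `s26etif_gen` (the literal `hld`, `hgen` shapes).
* the swapped order (helper12's ERedGauss): `s26etifSwapAlgebra : Algebra (𝔎 ⊗[K] Γ) Ω′`
  (a reducible def, NOT an instance), `s26etif_swap_isFractionRing`, `s26etif_swap_tower`.
* for a field extension `L/𝔎`: `s26etifIota : Ω′(𝔎) →ₐ[K] Ω′(L)`, compatible with `Γ` and `𝔎 → L`;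
  `s26etifIotaAlgebra` (reducible def), `s26etif_iota_tower`, `s26etif_isAlgebraic` (`L/𝔎`
  algebraic).
* `s26etif_hΓL` : `Γ ∩ 𝔎 = K` inside `Ω′` (the `hΓL` of `s26erig_main`).
-/
import Mathlib
import Fermat.Agent.S26.ETensDom

set_option autoImplicit false
set_option linter.unusedVariables false
set_option linter.unusedSectionVars false
set_option linter.style.haveILetI false

noncomputable section

namespace Fermat.Agent.S26

open TensorProduct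

universe u

section Model

variable (K Γ 𝔎 : Type u) [Field K] [Field Γ] [Field 𝔎] [Algebra K Γ] [Algebra K 𝔎]

/-- the function field of the constant curve: `Ω′ = Frac(Γ ⊗[K] 𝔎)` -/
def s26etifOm : Type u := FractionRing (Γ ⊗[K] 𝔎)

variable [IsAlgClosed K]

theorem s26etif_isDomain : IsDomain (Γ ⊗[K] 𝔎) := s26etd_isDomain K Γ 𝔎

instance s26etifField : Field (s26etifOm K Γ 𝔎) :=
  haveI := s26etif_isDomain K Γ 𝔎
  inferInstanceAs (Field (FractionRing (Γ ⊗[K] 𝔎)))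

instance s26etifAlgebraT : Algebra (Γ ⊗[K] 𝔎) (s26etifOm K Γ 𝔎) :=
  haveI := s26etif_isDomain K Γ 𝔎
  inferInstanceAs (Algebra (Γ ⊗[K] 𝔎) (FractionRing (Γ ⊗[K] 𝔎)))

instance s26etifIsFractionRing : IsFractionRing (Γ ⊗[K] 𝔎) (s26etifOm K Γ 𝔎) :=
  haveI := s26etif_isDomain K Γ 𝔎
  inferInstanceAs (IsFractionRing (Γ ⊗[K] 𝔎) (FractionRing (Γ ⊗[K] 𝔎)))

instance s26etifAlgebraK : Algebra K (s26etifOm K Γ 𝔎) :=
  ((algebraMap (Γ ⊗[K] 𝔎) (s26etifOm K Γ 𝔎)).comp (algebraMap K (Γ ⊗[K] 𝔎))).toAlgebra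

instance s26etifAlgebraL : Algebra Γ (s26etifOm K Γ 𝔎) :=
  ((algebraMap (Γ ⊗[K] 𝔎) (s26etifOm K Γ 𝔎)).comp
    (Algebra.TensorProduct.includeLeft : Γ →ₐ[K] Γ ⊗[K] 𝔎).toRingHom).toAlgebra

instance s26etifAlgebraR : Algebra 𝔎 (s26etifOm K Γ 𝔎) :=
  ((algebraMap (Γ ⊗[K] 𝔎) (s26etifOm K Γ 𝔎)).comp
    (Algebra.TensorProduct.includeRight : 𝔎 →ₐ[K] Γ ⊗[K] 𝔎).toRingHom).toAlgebra

variable {K Γ 𝔎}

theorem s26etif_algebraMapK (k : K) :
    algebraMap K (s26etifOm K Γ 𝔎) k =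
      algebraMap (Γ ⊗[K] 𝔎) (s26etifOm K Γ 𝔎) (algebraMap K (Γ ⊗[K] 𝔎) k) := rfl

theorem s26etif_algebraMapL (γ : Γ) :
    algebraMap Γ (s26etifOm K Γ 𝔎) γ =
      algebraMap (Γ ⊗[K] 𝔎) (s26etifOm K Γ 𝔎) (γ ⊗ₜ[K] (1 : 𝔎)) := rfl

theorem s26etif_algebraMapR (c : 𝔎) :
    algebraMap 𝔎 (s26etifOm K Γ 𝔎) c =
      algebraMap (Γ ⊗[K] 𝔎) (s26etifOm K Γ 𝔎) ((1 : Γ) ⊗ₜ[K] c) := rfl

variable (K Γ 𝔎)

instance s26etifTowerT : IsScalarTower K (Γ ⊗[K] 𝔎) (s26etifOm K Γ 𝔎) :=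
  IsScalarTower.of_algebraMap_eq fun _ => rfl

instance s26etifTowerL : IsScalarTower K Γ (s26etifOm K Γ 𝔎) :=
  IsScalarTower.of_algebraMap_eq fun k => by
    rw [s26etif_algebraMapK, s26etif_algebraMapL, Algebra.TensorProduct.algebraMap_apply]

theorem s26etif_algebraMap_base (k : K) :
    algebraMap K (Γ ⊗[K] 𝔎) k = (1 : Γ) ⊗ₜ[K] algebraMap K 𝔎 k := by
  rw [Algebra.TensorProduct.algebraMap_apply, Algebra.algebraMap_eq_smul_one (A := Γ),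
    Algebra.algebraMap_eq_smul_one (A := 𝔎), TensorProduct.smul_tmul]

instance s26etifTowerR : IsScalarTower K 𝔎 (s26etifOm K Γ 𝔎) :=
  IsScalarTower.of_algebraMap_eq fun k => by
    rw [s26etif_algebraMapK, s26etif_algebraMapR, s26etif_algebraMap_base]

instance s26etifTowerLT : IsScalarTower Γ (Γ ⊗[K] 𝔎) (s26etifOm K Γ 𝔎) :=
  IsScalarTower.of_algebraMap_eq fun γ => by
    rw [s26etif_algebraMapL, Algebra.TensorProduct.algebraMap_apply]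
    rfl

/-- `Γ → Ω′` -/
def s26etifL : Γ →ₐ[K] s26etifOm K Γ 𝔎 := IsScalarTower.toAlgHom K Γ (s26etifOm K Γ 𝔎)

/-- `𝔎 → Ω′` -/
def s26etifR : 𝔎 →ₐ[K] s26etifOm K Γ 𝔎 := IsScalarTower.toAlgHom K 𝔎 (s26etifOm K Γ 𝔎)

variable {K Γ 𝔎}

@[simp] theorem s26etifL_apply (γ : Γ) :
    s26etifL K Γ 𝔎 γ = algebraMap Γ (s26etifOm K Γ 𝔎) γ := rfl

@[simp] theorem s26etifR_apply (c : 𝔎) :
    s26etifR K Γ 𝔎 c = algebraMap 𝔎 (s26etifOm K Γ 𝔎) c := rfl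

theorem s26etif_algebraMap_tmul (γ : Γ) (c : 𝔎) :
    algebraMap (Γ ⊗[K] 𝔎) (s26etifOm K Γ 𝔎) (γ ⊗ₜ[K] c) =
      algebraMap Γ (s26etifOm K Γ 𝔎) γ * algebraMap 𝔎 (s26etifOm K Γ 𝔎) c := by
  rw [s26etif_algebraMapL, s26etif_algebraMapR, ← map_mul,
    Algebra.TensorProduct.tmul_mul_tmul, mul_one, one_mul]

/-- **(hcomp)**: the structure map of `Ω′` is the product map -/
theorem s26etif_algebraMap_eq (x : Γ ⊗[K] 𝔎) :
    algebraMap (Γ ⊗[K] 𝔎) (s26etifOm K Γ 𝔎) x =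
      Algebra.TensorProduct.productMap (IsScalarTower.toAlgHom K Γ (s26etifOm K Γ 𝔎))
        (IsScalarTower.toAlgHom K 𝔎 (s26etifOm K Γ 𝔎)) x := by
  induction x using TensorProduct.induction_on with
  | zero => rw [map_zero, map_zero]
  | tmul γ c =>
    rw [s26etif_algebraMap_tmul]
    rfl
  | add x y hx hy => rw [map_add, map_add, hx, hy]

/-- **(hld)**: `Γ ⊗[K] 𝔎 → Ω′` is injective -/
theorem s26etif_mu_injective :
    Function.Injective (Algebra.TensorProduct.productMap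
      (IsScalarTower.toAlgHom K Γ (s26etifOm K Γ 𝔎))
      (IsScalarTower.toAlgHom K 𝔎 (s26etifOm K Γ 𝔎))) := by
  intro x y hxy
  apply IsFractionRing.injective (Γ ⊗[K] 𝔎) (s26etifOm K Γ 𝔎)
  rw [s26etif_algebraMap_eq, s26etif_algebraMap_eq, hxy]

/-- **(hgen)**: `Ω′` is generated by `Γ ⊗[K] 𝔎` -/
theorem s26etif_gen (ω : s26etifOm K Γ 𝔎) :
    ∃ A B : Γ ⊗[K] 𝔎,
      Algebra.TensorProduct.productMap (IsScalarTower.toAlgHom K Γ (s26etifOm K Γ 𝔎))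
        (IsScalarTower.toAlgHom K 𝔎 (s26etifOm K Γ 𝔎)) B ≠ 0 ∧
      ω * Algebra.TensorProduct.productMap (IsScalarTower.toAlgHom K Γ (s26etifOm K Γ 𝔎))
        (IsScalarTower.toAlgHom K 𝔎 (s26etifOm K Γ 𝔎)) B =
      Algebra.TensorProduct.productMap (IsScalarTower.toAlgHom K Γ (s26etifOm K Γ 𝔎))
        (IsScalarTower.toAlgHom K 𝔎 (s26etifOm K Γ 𝔎)) A := by
  obtain ⟨x, y, hy, rfl⟩ := IsFractionRing.div_surjective (Γ ⊗[K] 𝔎) ω
  have hy0 : algebraMap (Γ ⊗[K] 𝔎) (s26etifOm K Γ 𝔎) y ≠ 0 :=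
    IsFractionRing.to_map_ne_zero_of_mem_nonZeroDivisors hy
  refine ⟨x, y, ?_, ?_⟩
  · rw [← s26etif_algebraMap_eq]
    exact hy0
  · rw [← s26etif_algebraMap_eq, ← s26etif_algebraMap_eq, div_mul_cancel₀ _ hy0]

/-- **(3) `hΓL`**: `Γ ∩ 𝔎 = K` inside `Ω′ = Frac(Γ ⊗[K] 𝔎)` (linear disjointness). -/
theorem s26etif_hΓL (u : Γ) (c : 𝔎)
    (h : algebraMap Γ (s26etifOm K Γ 𝔎) u = algebraMap 𝔎 (s26etifOm K Γ 𝔎) c) :
    ∃ a : K, u = algebraMap K Γ a := by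
  rw [s26etif_algebraMapL, s26etif_algebraMapR] at h
  have h1 : u ⊗ₜ[K] (1 : 𝔎) = (1 : Γ) ⊗ₜ[K] c :=
    IsFractionRing.injective (Γ ⊗[K] 𝔎) (s26etifOm K Γ 𝔎) h
  have hker : LinearMap.ker (Algebra.linearMap K 𝔎) = ⊥ :=
    LinearMap.ker_eq_bot.mpr (algebraMap K 𝔎).injective
  obtain ⟨φ, hφ⟩ := LinearMap.exists_leftInverse_of_injective (Algebra.linearMap K 𝔎) hker
  have hφ1 : φ (1 : 𝔎) = 1 := by
    have := LinearMap.congr_fun hφ (1 : K)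
    simpa using this
  have h2 := congrArg (fun t => TensorProduct.rid K Γ (LinearMap.lTensor Γ φ t)) h1
  simp only [LinearMap.lTensor_tmul, TensorProduct.rid_tmul, hφ1, one_smul] at h2
  exact ⟨φ c, by rw [h2, Algebra.algebraMap_eq_smul_one]⟩

end Model

/-! ### The swapped order `𝔎 ⊗[K] Γ` (helper12's ERedGauss) -/

section Swap

variable (K Γ 𝔎 : Type u) [Field K] [Field Γ] [Field 𝔎] [Algebra K Γ] [Algebra K 𝔎]
  [IsAlgClosed K]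

/-- `𝔎 ⊗[K] Γ → Ω′` (through the commutativity of the tensor product).  A reducible def, NOT an
instance. -/
@[reducible] def s26etifSwapAlgebra : Algebra (𝔎 ⊗[K] Γ) (s26etifOm K Γ 𝔎) :=
  ((algebraMap (Γ ⊗[K] 𝔎) (s26etifOm K Γ 𝔎)).comp
    (Algebra.TensorProduct.comm K 𝔎 Γ).toAlgHom.toRingHom).toAlgebra

theorem s26etif_swap_algebraMap (x : 𝔎 ⊗[K] Γ) :
    letI := s26etifSwapAlgebra K Γ 𝔎
    algebraMap (𝔎 ⊗[K] Γ) (s26etifOm K Γ 𝔎) x =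
      algebraMap (Γ ⊗[K] 𝔎) (s26etifOm K Γ 𝔎) (Algebra.TensorProduct.comm K 𝔎 Γ x) := rfl

theorem s26etif_swap_algebraMap_tmul (c : 𝔎) (γ : Γ) :
    letI := s26etifSwapAlgebra K Γ 𝔎
    algebraMap (𝔎 ⊗[K] Γ) (s26etifOm K Γ 𝔎) (c ⊗ₜ[K] γ) =
      algebraMap 𝔎 (s26etifOm K Γ 𝔎) c * algebraMap Γ (s26etifOm K Γ 𝔎) γ := by
  letI := s26etifSwapAlgebra K Γ 𝔎
  rw [s26etif_swap_algebraMap, Algebra.TensorProduct.comm_tmul, s26etif_algebraMap_tmul, mul_comm]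

theorem s26etif_swap_isFractionRing :
    letI := s26etifSwapAlgebra K Γ 𝔎
    IsFractionRing (𝔎 ⊗[K] Γ) (s26etifOm K Γ 𝔎) := by
  letI := s26etifSwapAlgebra K Γ 𝔎
  exact IsFractionRing.of_ringEquiv_left (Algebra.TensorProduct.comm K 𝔎 Γ).toRingEquiv
    (fun x => rfl)

theorem s26etif_swap_tower :
    letI := s26etifSwapAlgebra K Γ 𝔎
    IsScalarTower 𝔎 (𝔎 ⊗[K] Γ) (s26etifOm K Γ 𝔎) := by
  letI := s26etifSwapAlgebra K Γ 𝔎
  refine IsScalarTower.of_algebraMap_eq fun c => ?_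
  rw [s26etif_swap_algebraMap, Algebra.TensorProduct.algebraMap_apply,
    Algebra.TensorProduct.comm_tmul, s26etif_algebraMapR]
  rfl

theorem s26etif_swap_towerK :
    letI := s26etifSwapAlgebra K Γ 𝔎
    IsScalarTower K (𝔎 ⊗[K] Γ) (s26etifOm K Γ 𝔎) := by
  letI := s26etifSwapAlgebra K Γ 𝔎
  refine IsScalarTower.of_algebraMap_eq fun k => ?_
  rw [s26etif_swap_algebraMap, AlgEquiv.commutes]
  rfl

end Swap

/-! ### Extension of the second field: `ι : Frac(Γ ⊗ 𝔎) → Frac(Γ ⊗ L)` -/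

section Iota

variable (K Γ 𝔎 L : Type u) [Field K] [Field Γ] [Field 𝔎] [Field L] [Algebra K Γ] [Algebra K 𝔎]
  [Algebra K L] [Algebra 𝔎 L] [IsScalarTower K 𝔎 L]

/-- `id ⊗ (𝔎 → L) : Γ ⊗[K] 𝔎 → Γ ⊗[K] L` -/
def s26etifBase : Γ ⊗[K] 𝔎 →ₐ[K] Γ ⊗[K] L :=
  Algebra.TensorProduct.map (AlgHom.id K Γ) (IsScalarTower.toAlgHom K 𝔎 L)

variable {K Γ 𝔎 L}

@[simp] theorem s26etifBase_tmul (γ : Γ) (c : 𝔎) :
    s26etifBase K Γ 𝔎 L (γ ⊗ₜ[K] c) = γ ⊗ₜ[K] algebraMap 𝔎 L c := by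
  rw [s26etifBase, Algebra.TensorProduct.map_tmul]
  rfl

variable (K Γ 𝔎 L)

theorem s26etifBase_injective : Function.Injective (s26etifBase K Γ 𝔎 L) := by
  have h := Module.Flat.lTensor_preserves_injective_linearMap (M := Γ)
    (IsScalarTower.toAlgHom K 𝔎 L).toLinearMap (algebraMap 𝔎 L).injective
  have heq : ∀ x, s26etifBase K Γ 𝔎 L x =
      LinearMap.lTensor Γ (IsScalarTower.toAlgHom K 𝔎 L).toLinearMap x := by
    intro x
    induction x using TensorProduct.induction_on with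
    | zero => rw [map_zero, map_zero]
    | tmul γ c => rw [s26etifBase_tmul, LinearMap.lTensor_tmul]; rfl
    | add x y hx hy => rw [map_add, map_add, hx, hy]
  intro x y hxy
  apply h
  rw [← heq, ← heq, hxy]

variable [IsAlgClosed K]

/-- `Γ ⊗[K] 𝔎 → Γ ⊗[K] L → Frac(Γ ⊗[K] L)` -/
def s26etifBaseOm : Γ ⊗[K] 𝔎 →ₐ[K] s26etifOm K Γ L :=
  (IsScalarTower.toAlgHom K (Γ ⊗[K] L) (s26etifOm K Γ L)).comp (s26etifBase K Γ 𝔎 L)

theorem s26etifBaseOm_injective : Function.Injective (s26etifBaseOm K Γ 𝔎 L) :=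
  (IsFractionRing.injective (Γ ⊗[K] L) (s26etifOm K Γ L)).comp (s26etifBase_injective K Γ 𝔎 L)

/-- **(2)** `ι : Frac(Γ ⊗[K] 𝔎) →ₐ[K] Frac(Γ ⊗[K] L)` -/
def s26etifIota : s26etifOm K Γ 𝔎 →ₐ[K] s26etifOm K Γ L :=
  IsFractionRing.liftAlgHom (A := Γ ⊗[K] 𝔎) (K := s26etifOm K Γ 𝔎)
    (g := s26etifBaseOm K Γ 𝔎 L) (s26etifBaseOm_injective K Γ 𝔎 L)

variable {K Γ 𝔎 L}

theorem s26etifIota_algebraMap (x : Γ ⊗[K] 𝔎) :
    s26etifIota K Γ 𝔎 L (algebraMap (Γ ⊗[K] 𝔎) (s26etifOm K Γ 𝔎) x) =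
      algebraMap (Γ ⊗[K] L) (s26etifOm K Γ L) (s26etifBase K Γ 𝔎 L x) := by
  rw [s26etifIota, IsFractionRing.liftAlgHom_apply, IsFractionRing.lift_algebraMap]
  rfl

/-- `ι` is compatible with `Γ` -/
theorem s26etifIota_left (γ : Γ) :
    s26etifIota K Γ 𝔎 L (algebraMap Γ (s26etifOm K Γ 𝔎) γ) =
      algebraMap Γ (s26etifOm K Γ L) γ := by
  rw [s26etif_algebraMapL, s26etifIota_algebraMap, s26etifBase_tmul, map_one,
    s26etif_algebraMapL]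

/-- `ι` is compatible with `𝔎 → L` -/
theorem s26etifIota_right (c : 𝔎) :
    s26etifIota K Γ 𝔎 L (algebraMap 𝔎 (s26etifOm K Γ 𝔎) c) =
      algebraMap L (s26etifOm K Γ L) (algebraMap 𝔎 L c) := by
  rw [s26etif_algebraMapR, s26etifIota_algebraMap, s26etifBase_tmul, s26etif_algebraMapR]

variable (K Γ 𝔎 L)

/-- **(4)** `ι ∘ s26etifL = s26etifL` -/
theorem s26etifIota_comp_L :
    (s26etifIota K Γ 𝔎 L).comp (s26etifL K Γ 𝔎) = s26etifL K Γ L :=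
  AlgHom.ext fun γ => s26etifIota_left γ

/-- **(4)** `ι ∘ s26etifR = s26etifR ∘ (𝔎 → L)` -/
theorem s26etifIota_comp_R :
    (s26etifIota K Γ 𝔎 L).comp (s26etifR K Γ 𝔎) =
      (s26etifR K Γ L).comp (IsScalarTower.toAlgHom K 𝔎 L) :=
  AlgHom.ext fun c => s26etifIota_right c

theorem s26etifIota_injective : Function.Injective (s26etifIota K Γ 𝔎 L) :=
  (s26etifIota K Γ 𝔎 L).toRingHom.injective

/-- the algebra structure `Ω′(𝔎) → Ω′(L)` through `ι`.  A reducible def, NOT an instance. -/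
@[reducible] def s26etifIotaAlgebra : Algebra (s26etifOm K Γ 𝔎) (s26etifOm K Γ L) :=
  (s26etifIota K Γ 𝔎 L).toRingHom.toAlgebra

theorem s26etif_iota_algebraMap (ω : s26etifOm K Γ 𝔎) :
    letI := s26etifIotaAlgebra K Γ 𝔎 L
    algebraMap (s26etifOm K Γ 𝔎) (s26etifOm K Γ L) ω = s26etifIota K Γ 𝔎 L ω := rfl

/-- `IsScalarTower K Ω′(𝔎) Ω′(L)` -/
theorem s26etif_iota_tower :
    letI := s26etifIotaAlgebra K Γ 𝔎 L
    IsScalarTower K (s26etifOm K Γ 𝔎) (s26etifOm K Γ L) := by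
  letI := s26etifIotaAlgebra K Γ 𝔎 L
  refine IsScalarTower.of_algebraMap_eq fun k => ?_
  rw [s26etif_iota_algebraMap, AlgHom.commutes]

/-- `IsScalarTower Γ Ω′(𝔎) Ω′(L)` -/
theorem s26etif_iota_towerL :
    letI := s26etifIotaAlgebra K Γ 𝔎 L
    IsScalarTower Γ (s26etifOm K Γ 𝔎) (s26etifOm K Γ L) := by
  letI := s26etifIotaAlgebra K Γ 𝔎 L
  refine IsScalarTower.of_algebraMap_eq fun γ => ?_
  rw [s26etif_iota_algebraMap, s26etifIota_left]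

/-- `IsScalarTower 𝔎 Ω′(𝔎) Ω′(L)` for the composite structure `𝔎 → L → Ω′(L)` -/
theorem s26etif_iota_towerR [Algebra 𝔎 (s26etifOm K Γ L)] [IsScalarTower 𝔎 L (s26etifOm K Γ L)] :
    letI := s26etifIotaAlgebra K Γ 𝔎 L
    IsScalarTower 𝔎 (s26etifOm K Γ 𝔎) (s26etifOm K Γ L) := by
  letI := s26etifIotaAlgebra K Γ 𝔎 L
  refine IsScalarTower.of_algebraMap_eq fun c => ?_
  rw [s26etif_iota_algebraMap, s26etifIota_right,
    ← IsScalarTower.algebraMap_apply 𝔎 L (s26etifOm K Γ L)]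

/-- **(2)** `Ω′(L)` is algebraic over `Ω′(𝔎)` when `L/𝔎` is algebraic. -/
theorem s26etif_isAlgebraic [Algebra.IsAlgebraic 𝔎 L] :
    letI := s26etifIotaAlgebra K Γ 𝔎 L
    Algebra.IsAlgebraic (s26etifOm K Γ 𝔎) (s26etifOm K Γ L) := by
  letI := s26etifIotaAlgebra K Γ 𝔎 L
  -- the structure `𝔎 → L → Ω′(L)`
  letI a𝔎 : Algebra 𝔎 (s26etifOm K Γ L) :=
    ((algebraMap L (s26etifOm K Γ L)).comp (algebraMap 𝔎 L)).toAlgebra
  haveI t1 : IsScalarTower 𝔎 L (s26etifOm K Γ L) := IsScalarTower.of_algebraMap_eq fun _ => rfl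
  haveI t2 : IsScalarTower 𝔎 (s26etifOm K Γ 𝔎) (s26etifOm K Γ L) :=
    s26etif_iota_towerR K Γ 𝔎 L
  have hL : ∀ c : L, algebraMap L (s26etifOm K Γ L) c ∈
      algebraicClosure (s26etifOm K Γ 𝔎) (s26etifOm K Γ L) := by
    intro c
    rw [mem_algebraicClosure_iff]
    have hc : IsAlgebraic 𝔎 c := Algebra.IsAlgebraic.isAlgebraic c
    have hc' : IsAlgebraic 𝔎 (algebraMap L (s26etifOm K Γ L) c) := hc.algebraMap
    exact hc'.tower_top (s26etifOm K Γ 𝔎)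
  have hΓ : ∀ γ : Γ, algebraMap Γ (s26etifOm K Γ L) γ ∈
      algebraicClosure (s26etifOm K Γ 𝔎) (s26etifOm K Γ L) := by
    intro γ
    rw [← s26etifIota_left (𝔎 := 𝔎) γ, ← s26etif_iota_algebraMap]
    exact (algebraicClosure (s26etifOm K Γ 𝔎) (s26etifOm K Γ L)).algebraMap_mem _
  have hT : ∀ t : Γ ⊗[K] L, algebraMap (Γ ⊗[K] L) (s26etifOm K Γ L) t ∈
      algebraicClosure (s26etifOm K Γ 𝔎) (s26etifOm K Γ L) := by
    intro t
    induction t using TensorProduct.induction_on with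
    | zero => rw [map_zero]; exact zero_mem _
    | tmul γ c => rw [s26etif_algebraMap_tmul]; exact mul_mem (hΓ γ) (hL c)
    | add x y hx hy => rw [map_add]; exact add_mem hx hy
  refine ⟨fun ω => ?_⟩
  obtain ⟨x, y, hy, rfl⟩ := IsFractionRing.div_surjective (Γ ⊗[K] L) ω
  rw [← mem_algebraicClosure_iff]
  exact div_mem (hT x) (hT y)

end Iota

end Fermat.Agent.S26
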