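/-
S26-E, TI hub leaf **TOP-B** (helper33): the FIELD PACKAGE of the reduction
`s26eti_StmtTIF → s26e_StmtTI` (S26/ETiTop.lean, helper82).  Pure field algebra.

Input (the data of `s26e_StmtTI`, S26/PlanE2.lean): `K` algebraically closed, fields `Γ`, `W`, `𝔉`
over `K`, a field `Ω/K` with `ιΓ : Γ →ₐ[K] Ω`, `ιW : W →ₐ[K] Ω`, `j₁ j₂ : 𝔉 →ₐ[K] Ω` and
`hinj : Function.Injective (productMap (productMap (productMap ιΓ ιW) j₁) j₂)`.

Output:
* `s26ettbK K W 𝔉 := FractionRing ((W ⊗[K] 𝔉) ⊗[K] 𝔉)` (a field over `K`) with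
  `s26ettbW : W →ₐ[K] 𝔎`, `s26ettbJ1 s26ettbJ2 : 𝔉 →ₐ[K] 𝔎`, `s26ettb_prod_injective`.
* `s26ettbKappa ιW j₁ j₂ h : 𝔎 →ₐ[K] Ω` with `κ ∘ ιW′ = ιW`, `κ ∘ j_i′ = j_i`.
* `s26ettbIota0 ιΓ ιW j₁ j₂ hinj : s26etifOm K Γ 𝔎 →ₐ[K] Ω` with `ι₀ ∘ s26etifL = ιΓ`,
  `ι₀ ∘ s26etifR ∘ ιW′ = ιW`, `ι₀ ∘ s26etifR ∘ j_i′ = j_i`.
* `L := AlgebraicClosure 𝔎`, `s26ettbToL : 𝔎 →ₐ[K] L`, `s26ettb_L_injective` (the hypothesis of
  `s26eti_StmtTIF` on `ιW, j₁, j₂` into `L`).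
* `s26ettb_F_injective`, `s26ettb_F_gen`: the hypotheses of `s26eti_StmtTIF` on
  `F := s26etifOm K Γ L` (any field `L/K`).
* `s26ettb_down_*`: compatibility of `s26etifIota K Γ 𝔎 L` with the points; `s26ettb_isAlgebraic`.
-/
import Mathlib
import Fermat.Agent.S26.ETiFields

set_option autoImplicit false
set_option linter.unusedVariables false
set_option linter.unusedSectionVars false
set_option linter.style.haveILetI false

noncomputable section

namespace Fermat.Agent.S26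

open TensorProduct

universe u

/-! ### Generic lemmas on tensor products over a field -/

section Gen

variable {K : Type*} [Field K] {A A' B S S' : Type*} [CommRing A] [CommRing A'] [CommRing B]
  [CommRing S] [CommRing S'] [Algebra K A] [Algebra K A'] [Algebra K B] [Algebra K S]
  [Algebra K S']

/-- `ψ ⊗ id` is injective when `ψ` is (flatness over a field). -/
theorem s26ettb_map_left_injective (ψ : A →ₐ[K] A') (hψ : Function.Injective ψ) :
    Function.Injective (Algebra.TensorProduct.map ψ (AlgHom.id K B)) := by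
  have h := Module.Flat.rTensor_preserves_injective_linearMap (M := B) ψ.toLinearMap hψ
  have heq : ∀ x, Algebra.TensorProduct.map ψ (AlgHom.id K B) x =
      LinearMap.rTensor B ψ.toLinearMap x := by
    intro x
    induction x using TensorProduct.induction_on with
    | zero => rw [map_zero, map_zero]
    | tmul a b => rw [Algebra.TensorProduct.map_tmul, LinearMap.rTensor_tmul]; rfl
    | add x y hx hy => rw [map_add, map_add, hx, hy]
  intro x y hxy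
  apply h
  rw [← heq, ← heq, hxy]

/-- `id ⊗ ψ` is injective when `ψ` is (flatness over a field). -/
theorem s26ettb_map_right_injective (ψ : A →ₐ[K] A') (hψ : Function.Injective ψ) :
    Function.Injective (Algebra.TensorProduct.map (AlgHom.id K B) ψ) := by
  have h := Module.Flat.lTensor_preserves_injective_linearMap (M := B) ψ.toLinearMap hψ
  have heq : ∀ x, Algebra.TensorProduct.map (AlgHom.id K B) ψ x =
      LinearMap.lTensor B ψ.toLinearMap x := by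
    intro x
    induction x using TensorProduct.induction_on with
    | zero => rw [map_zero, map_zero]
    | tmul a b => rw [Algebra.TensorProduct.map_tmul, LinearMap.lTensor_tmul]; rfl
    | add x y hx hy => rw [map_add, map_add, hx, hy]
  intro x y hxy
  apply h
  rw [← heq, ← heq, hxy]

/-- `h ∘ productMap f g = productMap (h ∘ f) (h ∘ g)` -/
theorem s26ettb_comp_productMap (f : A →ₐ[K] S) (g : B →ₐ[K] S) (h : S →ₐ[K] S') :
    h.comp (Algebra.TensorProduct.productMap f g) =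
      Algebra.TensorProduct.productMap (h.comp f) (h.comp g) := by
  apply Algebra.TensorProduct.ext'
  intro a b
  rw [AlgHom.comp_apply, Algebra.TensorProduct.productMap_apply_tmul,
    Algebra.TensorProduct.productMap_apply_tmul, map_mul]
  rfl

/-- `productMap f g ∘ (φ ⊗ ψ) = productMap (f ∘ φ) (g ∘ ψ)` -/
theorem s26ettb_productMap_comp_map {A₀ B₀ : Type*} [CommRing A₀] [CommRing B₀] [Algebra K A₀]
    [Algebra K B₀] (f : A →ₐ[K] S) (g : B →ₐ[K] S) (φ : A₀ →ₐ[K] A) (ψ : B₀ →ₐ[K] B) :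
    (Algebra.TensorProduct.productMap f g).comp (Algebra.TensorProduct.map φ ψ) =
      Algebra.TensorProduct.productMap (f.comp φ) (g.comp ψ) := by
  apply Algebra.TensorProduct.ext'
  intro a b
  rw [AlgHom.comp_apply, Algebra.TensorProduct.map_tmul,
    Algebra.TensorProduct.productMap_apply_tmul, Algebra.TensorProduct.productMap_apply_tmul]
  rfl

end Gen

/-! ### Common denominators in `Γ ⊗[K] Frac T` -/

section Denominators

variable {K : Type*} [Field K] {Γ T 𝔎 Ω : Type*} [CommRing Γ] [CommRing T] [Field 𝔎] [Field Ω]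
  [Algebra K Γ] [Algebra K T] [Algebra K 𝔎] [Algebra K Ω] [Algebra T 𝔎] [IsScalarTower K T 𝔎]
  [IsFractionRing T 𝔎]

/-- every element of `Γ ⊗[K] Frac T` becomes an element of `Γ ⊗[K] T` after multiplication by
`1 ⊗ s`, `s ∈ T` nonzero. -/
theorem s26ettb_exists_denominator (x : Γ ⊗[K] 𝔎) :
    ∃ (s : T) (y : Γ ⊗[K] T), algebraMap T 𝔎 s ≠ 0 ∧
      x * ((1 : Γ) ⊗ₜ[K] algebraMap T 𝔎 s) =
        Algebra.TensorProduct.map (AlgHom.id K Γ) (IsScalarTower.toAlgHom K T 𝔎) y := by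
  induction x using TensorProduct.induction_on with
  | zero =>
    refine ⟨1, 0, ?_, ?_⟩
    · rw [map_one]; exact one_ne_zero
    · rw [zero_mul, map_zero]
  | tmul γ c =>
    obtain ⟨a, s, hs, rfl⟩ := IsFractionRing.div_surjective (A := T) c
    have hs0 : algebraMap T 𝔎 s ≠ 0 := (IsLocalization.map_units 𝔎 ⟨s, hs⟩).ne_zero
    refine ⟨s, γ ⊗ₜ[K] a, hs0, ?_⟩
    rw [Algebra.TensorProduct.tmul_mul_tmul, mul_one, div_mul_cancel₀ _ hs0,
      Algebra.TensorProduct.map_tmul]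
    rfl
  | add x₁ x₂ h₁ h₂ =>
    obtain ⟨s₁, y₁, hs₁, e₁⟩ := h₁
    obtain ⟨s₂, y₂, hs₂, e₂⟩ := h₂
    refine ⟨s₁ * s₂, y₁ * ((1 : Γ) ⊗ₜ[K] s₂) + y₂ * ((1 : Γ) ⊗ₜ[K] s₁), ?_, ?_⟩
    · rw [map_mul]; exact mul_ne_zero hs₁ hs₂
    · have hm : ∀ s : T, Algebra.TensorProduct.map (AlgHom.id K Γ) (IsScalarTower.toAlgHom K T 𝔎)
          ((1 : Γ) ⊗ₜ[K] s) = (1 : Γ) ⊗ₜ[K] algebraMap T 𝔎 s := by
        intro s
        rw [Algebra.TensorProduct.map_tmul]
        rfl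
      have h12 : ((1 : Γ) ⊗ₜ[K] algebraMap T 𝔎 (s₁ * s₂)) =
          ((1 : Γ) ⊗ₜ[K] algebraMap T 𝔎 s₁) * ((1 : Γ) ⊗ₜ[K] algebraMap T 𝔎 s₂) := by
        rw [Algebra.TensorProduct.tmul_mul_tmul, mul_one, map_mul]
      have hy₁ : Algebra.TensorProduct.map (AlgHom.id K Γ) (IsScalarTower.toAlgHom K T 𝔎)
          (y₁ * ((1 : Γ) ⊗ₜ[K] s₂)) =
          x₁ * ((1 : Γ) ⊗ₜ[K] algebraMap T 𝔎 s₁) * ((1 : Γ) ⊗ₜ[K] algebraMap T 𝔎 s₂) := by
        rw [e₁, ← hm s₂, ← map_mul]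
      have hy₂ : Algebra.TensorProduct.map (AlgHom.id K Γ) (IsScalarTower.toAlgHom K T 𝔎)
          (y₂ * ((1 : Γ) ⊗ₜ[K] s₁)) =
          x₂ * ((1 : Γ) ⊗ₜ[K] algebraMap T 𝔎 s₂) * ((1 : Γ) ⊗ₜ[K] algebraMap T 𝔎 s₁) := by
        rw [e₂, ← hm s₁, ← map_mul]
      rw [map_add, hy₁, hy₂, h12]
      ring

/-- **Localisation**: if `Γ ⊗[K] T → Ω` is injective then so is `Γ ⊗[K] Frac T → Ω`. -/
theorem s26ettb_productMap_injective_of_base (φ : Γ →ₐ[K] Ω) (κ : 𝔎 →ₐ[K] Ω)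
    (h : Function.Injective (Algebra.TensorProduct.productMap φ
      (κ.comp (IsScalarTower.toAlgHom K T 𝔎)))) :
    Function.Injective (Algebra.TensorProduct.productMap φ κ) := by
  rw [injective_iff_map_eq_zero]
  intro x hx
  obtain ⟨s, y, hs, e⟩ := s26ettb_exists_denominator (T := T) x
  have h1 : Algebra.TensorProduct.productMap φ (κ.comp (IsScalarTower.toAlgHom K T 𝔎)) y = 0 := by
    have h2 := congrArg (Algebra.TensorProduct.productMap φ κ) e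
    rw [map_mul, hx, zero_mul] at h2
    rw [h2, ← AlgHom.comp_apply, s26ettb_productMap_comp_map]
    rfl
  have hy : y = 0 := h (h1.trans (map_zero _).symm)
  rw [hy, map_zero] at e
  have h3 := congrArg (fun t => t * ((1 : Γ) ⊗ₜ[K] (algebraMap T 𝔎 s)⁻¹)) e
  simp only [zero_mul, mul_assoc, Algebra.TensorProduct.tmul_mul_tmul, mul_one,
    mul_inv_cancel₀ hs] at h3
  rw [← Algebra.TensorProduct.one_def, mul_one] at h3
  exact h3

end Denominators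

/-! ### The field `𝔎 = Frac((W ⊗ 𝔉) ⊗ 𝔉)` -/

section FieldK

variable (K W 𝔉 : Type u) [Field K] [Field W] [Field 𝔉] [Algebra K W] [Algebra K 𝔉]

/-- `𝔎 = Frac((W ⊗[K] 𝔉) ⊗[K] 𝔉)`: the field generated by `W` and two independent generic
points. -/
def s26ettbK : Type u := FractionRing ((W ⊗[K] 𝔉) ⊗[K] 𝔉)

variable [IsAlgClosed K]

theorem s26ettb_isDomain : IsDomain ((W ⊗[K] 𝔉) ⊗[K] 𝔉) :=
  haveI := s26etd_isDomain K W 𝔉
  s26etd_isDomain K (W ⊗[K] 𝔉) 𝔉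

instance s26ettbField : Field (s26ettbK K W 𝔉) :=
  haveI := s26ettb_isDomain K W 𝔉
  inferInstanceAs (Field (FractionRing ((W ⊗[K] 𝔉) ⊗[K] 𝔉)))

instance s26ettbAlgebraT : Algebra ((W ⊗[K] 𝔉) ⊗[K] 𝔉) (s26ettbK K W 𝔉) :=
  haveI := s26ettb_isDomain K W 𝔉
  inferInstanceAs (Algebra ((W ⊗[K] 𝔉) ⊗[K] 𝔉) (FractionRing ((W ⊗[K] 𝔉) ⊗[K] 𝔉)))

instance s26ettbIsFractionRing : IsFractionRing ((W ⊗[K] 𝔉) ⊗[K] 𝔉) (s26ettbK K W 𝔉) :=
  haveI := s26ettb_isDomain K W 𝔉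
  inferInstanceAs (IsFractionRing ((W ⊗[K] 𝔉) ⊗[K] 𝔉) (FractionRing ((W ⊗[K] 𝔉) ⊗[K] 𝔉)))

instance s26ettbAlgebraK : Algebra K (s26ettbK K W 𝔉) :=
  ((algebraMap ((W ⊗[K] 𝔉) ⊗[K] 𝔉) (s26ettbK K W 𝔉)).comp
    (algebraMap K ((W ⊗[K] 𝔉) ⊗[K] 𝔉))).toAlgebra

instance s26ettbTowerT : IsScalarTower K ((W ⊗[K] 𝔉) ⊗[K] 𝔉) (s26ettbK K W 𝔉) :=
  IsScalarTower.of_algebraMap_eq (R := K) (S := (W ⊗[K] 𝔉) ⊗[K] 𝔉) (A := s26ettbK K W 𝔉)
    fun _ => rfl

/-- `(W ⊗ 𝔉) ⊗ 𝔉 → 𝔎` -/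
def s26ettbIncl : (W ⊗[K] 𝔉) ⊗[K] 𝔉 →ₐ[K] s26ettbK K W 𝔉 :=
  IsScalarTower.toAlgHom K ((W ⊗[K] 𝔉) ⊗[K] 𝔉) (s26ettbK K W 𝔉)

theorem s26ettbIncl_injective : Function.Injective (s26ettbIncl K W 𝔉) :=
  IsFractionRing.injective ((W ⊗[K] 𝔉) ⊗[K] 𝔉) (s26ettbK K W 𝔉)

/-- `ιW′ : W → 𝔎` -/
def s26ettbW : W →ₐ[K] s26ettbK K W 𝔉 :=
  (s26ettbIncl K W 𝔉).comp
    ((Algebra.TensorProduct.includeLeft : W ⊗[K] 𝔉 →ₐ[K] (W ⊗[K] 𝔉) ⊗[K] 𝔉).comp
      (Algebra.TensorProduct.includeLeft : W →ₐ[K] W ⊗[K] 𝔉))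

/-- `j₁′ : 𝔉 → 𝔎` (the first generic point) -/
def s26ettbJ1 : 𝔉 →ₐ[K] s26ettbK K W 𝔉 :=
  (s26ettbIncl K W 𝔉).comp
    ((Algebra.TensorProduct.includeLeft : W ⊗[K] 𝔉 →ₐ[K] (W ⊗[K] 𝔉) ⊗[K] 𝔉).comp
      (Algebra.TensorProduct.includeRight : 𝔉 →ₐ[K] W ⊗[K] 𝔉))

/-- `j₂′ : 𝔉 → 𝔎` (the second generic point) -/
def s26ettbJ2 : 𝔉 →ₐ[K] s26ettbK K W 𝔉 :=
  (s26ettbIncl K W 𝔉).comp
    (Algebra.TensorProduct.includeRight : 𝔉 →ₐ[K] (W ⊗[K] 𝔉) ⊗[K] 𝔉)

variable {K W 𝔉}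

@[simp] theorem s26ettbW_apply (w : W) :
    s26ettbW K W 𝔉 w = s26ettbIncl K W 𝔉 ((w ⊗ₜ[K] (1 : 𝔉)) ⊗ₜ[K] (1 : 𝔉)) := rfl

@[simp] theorem s26ettbJ1_apply (y : 𝔉) :
    s26ettbJ1 K W 𝔉 y = s26ettbIncl K W 𝔉 (((1 : W) ⊗ₜ[K] y) ⊗ₜ[K] (1 : 𝔉)) := rfl

@[simp] theorem s26ettbJ2_apply (z : 𝔉) :
    s26ettbJ2 K W 𝔉 z = s26ettbIncl K W 𝔉 ((1 : W ⊗[K] 𝔉) ⊗ₜ[K] z) := rfl

variable (K W 𝔉)

/-- the product of the three embeddings is the structure map of the fraction field -/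
theorem s26ettb_prod_eq :
    Algebra.TensorProduct.productMap
      (Algebra.TensorProduct.productMap (s26ettbW K W 𝔉) (s26ettbJ1 K W 𝔉)) (s26ettbJ2 K W 𝔉) =
      s26ettbIncl K W 𝔉 := by
  apply Algebra.TensorProduct.ext'
  intro t z
  rw [Algebra.TensorProduct.productMap_apply_tmul]
  induction t using TensorProduct.induction_on with
  | zero => rw [map_zero, zero_mul, TensorProduct.zero_tmul, map_zero]
  | tmul w y =>
    rw [Algebra.TensorProduct.productMap_apply_tmul, s26ettbW_apply, s26ettbJ1_apply,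
      s26ettbJ2_apply, ← map_mul, ← map_mul]
    simp only [Algebra.TensorProduct.tmul_mul_tmul, mul_one, one_mul]
  | add t₁ t₂ h₁ h₂ => rw [map_add, add_mul, h₁, h₂, TensorProduct.add_tmul, map_add]

/-- `W ⊗ 𝔉 ⊗ 𝔉 → 𝔎` is injective: `W`, `y`, `z` are independent in `𝔎`. -/
theorem s26ettb_prod_injective :
    Function.Injective (Algebra.TensorProduct.productMap
      (Algebra.TensorProduct.productMap (s26ettbW K W 𝔉) (s26ettbJ1 K W 𝔉))
      (s26ettbJ2 K W 𝔉)) := by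
  rw [s26ettb_prod_eq]
  exact s26ettbIncl_injective K W 𝔉

end FieldK

/-! ### `κ : 𝔎 → Ω` and `ι₀ : Frac(Γ ⊗ 𝔎) → Ω` -/

section Kappa

variable {K Γ W 𝔉 Ω : Type u} [Field K] [Field Γ] [Field W] [Field 𝔉] [Field Ω] [Algebra K Γ]
  [Algebra K W] [Algebra K 𝔉] [Algebra K Ω]

variable (Γ) in
/-- the embedding of `(W ⊗ 𝔉) ⊗ 𝔉` into `((Γ ⊗ W) ⊗ 𝔉) ⊗ 𝔉` -/
def s26ettbEmb : (W ⊗[K] 𝔉) ⊗[K] 𝔉 →ₐ[K] ((Γ ⊗[K] W) ⊗[K] 𝔉) ⊗[K] 𝔉 :=
  Algebra.TensorProduct.map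
    (Algebra.TensorProduct.map (Algebra.TensorProduct.includeRight : W →ₐ[K] Γ ⊗[K] W)
      (AlgHom.id K 𝔉)) (AlgHom.id K 𝔉)

theorem s26ettbEmb_injective : Function.Injective (s26ettbEmb (K := K) Γ (W := W) (𝔉 := 𝔉)) := by
  apply s26ettb_map_left_injective
  apply s26ettb_map_left_injective
  exact Algebra.TensorProduct.includeRight_injective (algebraMap K Γ).injective

variable (ιΓ : Γ →ₐ[K] Ω) (ιW : W →ₐ[K] Ω) (j₁ j₂ : 𝔉 →ₐ[K] Ω)

theorem s26ettb_prod4_comp_emb :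
    (Algebra.TensorProduct.productMap (Algebra.TensorProduct.productMap
      (Algebra.TensorProduct.productMap ιΓ ιW) j₁) j₂).comp (s26ettbEmb Γ) =
      Algebra.TensorProduct.productMap (Algebra.TensorProduct.productMap ιW j₁) j₂ := by
  rw [s26ettbEmb, s26ettb_productMap_comp_map, s26ettb_productMap_comp_map,
    Algebra.TensorProduct.productMap_right]
  rfl

/-- from the independence of `Γ, W, y, z` to the independence of `W, y, z` -/
theorem s26ettb_inj3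
    (hinj : Function.Injective (Algebra.TensorProduct.productMap (Algebra.TensorProduct.productMap
      (Algebra.TensorProduct.productMap ιΓ ιW) j₁) j₂)) :
    Function.Injective (Algebra.TensorProduct.productMap
      (Algebra.TensorProduct.productMap ιW j₁) j₂) := by
  rw [← s26ettb_prod4_comp_emb ιΓ ιW j₁ j₂]
  exact hinj.comp s26ettbEmb_injective

variable (Γ) in
/-- associativity: `Γ ⊗ ((W ⊗ 𝔉) ⊗ 𝔉) ≃ ((Γ ⊗ W) ⊗ 𝔉) ⊗ 𝔉` -/
def s26ettbAssoc : Γ ⊗[K] ((W ⊗[K] 𝔉) ⊗[K] 𝔉) ≃ₐ[K] ((Γ ⊗[K] W) ⊗[K] 𝔉) ⊗[K] 𝔉 :=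
  (Algebra.TensorProduct.assoc K K K Γ (W ⊗[K] 𝔉) 𝔉).symm.trans
    (Algebra.TensorProduct.congr (Algebra.TensorProduct.assoc K K K Γ W 𝔉).symm AlgEquiv.refl)

theorem s26ettbAssoc_tmul (γ : Γ) (w : W) (y z : 𝔉) :
    s26ettbAssoc (K := K) Γ (γ ⊗ₜ[K] ((w ⊗ₜ[K] y) ⊗ₜ[K] z)) = ((γ ⊗ₜ[K] w) ⊗ₜ[K] y) ⊗ₜ[K] z := by
  simp [s26ettbAssoc]

theorem s26ettb_prod4_assoc (x : Γ ⊗[K] ((W ⊗[K] 𝔉) ⊗[K] 𝔉)) :
    Algebra.TensorProduct.productMap (Algebra.TensorProduct.productMap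
      (Algebra.TensorProduct.productMap ιΓ ιW) j₁) j₂ (s26ettbAssoc Γ x) =
      Algebra.TensorProduct.productMap ιΓ
        (Algebra.TensorProduct.productMap (Algebra.TensorProduct.productMap ιW j₁) j₂) x := by
  induction x using TensorProduct.induction_on with
  | zero => rw [map_zero, map_zero, map_zero]
  | add x₁ x₂ h₁ h₂ => rw [map_add, map_add, map_add, h₁, h₂]
  | tmul γ t =>
    induction t using TensorProduct.induction_on with
    | zero => rw [TensorProduct.tmul_zero, map_zero, map_zero, map_zero]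
    | add t₁ t₂ h₁ h₂ => rw [TensorProduct.tmul_add, map_add, map_add, map_add, h₁, h₂]
    | tmul t z =>
      induction t using TensorProduct.induction_on with
      | zero =>
        rw [TensorProduct.zero_tmul, TensorProduct.tmul_zero, map_zero, map_zero, map_zero]
      | add t₁ t₂ h₁ h₂ =>
        rw [TensorProduct.add_tmul, TensorProduct.tmul_add, map_add, map_add, map_add, h₁, h₂]
      | tmul w y =>
        rw [s26ettbAssoc_tmul]
        simp only [Algebra.TensorProduct.productMap_apply_tmul]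
        ring

/-- `Γ ⊗ ((W ⊗ 𝔉) ⊗ 𝔉) → Ω` is injective. -/
theorem s26ettb_injT
    (hinj : Function.Injective (Algebra.TensorProduct.productMap (Algebra.TensorProduct.productMap
      (Algebra.TensorProduct.productMap ιΓ ιW) j₁) j₂)) :
    Function.Injective (Algebra.TensorProduct.productMap ιΓ
      (Algebra.TensorProduct.productMap (Algebra.TensorProduct.productMap ιW j₁) j₂)) := by
  intro x y hxy
  rw [← s26ettb_prod4_assoc, ← s26ettb_prod4_assoc] at hxy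
  exact (s26ettbAssoc Γ).injective (hinj hxy)

variable [IsAlgClosed K]

/-- **`κ : 𝔎 → Ω`**, the extension of `(W ⊗ 𝔉) ⊗ 𝔉 → Ω` to the fraction field -/
def s26ettbKappa (h : Function.Injective (Algebra.TensorProduct.productMap
    (Algebra.TensorProduct.productMap ιW j₁) j₂)) : s26ettbK K W 𝔉 →ₐ[K] Ω :=
  IsFractionRing.liftAlgHom (A := (W ⊗[K] 𝔉) ⊗[K] 𝔉) (K := s26ettbK K W 𝔉)
    (g := Algebra.TensorProduct.productMap (Algebra.TensorProduct.productMap ιW j₁) j₂) h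

variable {ιW j₁ j₂}

theorem s26ettbKappa_incl (h : Function.Injective (Algebra.TensorProduct.productMap
    (Algebra.TensorProduct.productMap ιW j₁) j₂)) (t : (W ⊗[K] 𝔉) ⊗[K] 𝔉) :
    s26ettbKappa ιW j₁ j₂ h (s26ettbIncl K W 𝔉 t) =
      Algebra.TensorProduct.productMap (Algebra.TensorProduct.productMap ιW j₁) j₂ t := by
  rw [s26ettbKappa, IsFractionRing.liftAlgHom_apply]
  exact IsFractionRing.lift_algebraMap _ t

theorem s26ettbKappa_comp_incl (h : Function.Injective (Algebra.TensorProduct.productMap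
    (Algebra.TensorProduct.productMap ιW j₁) j₂)) :
    (s26ettbKappa ιW j₁ j₂ h).comp (s26ettbIncl K W 𝔉) =
      Algebra.TensorProduct.productMap (Algebra.TensorProduct.productMap ιW j₁) j₂ :=
  AlgHom.ext fun t => s26ettbKappa_incl h t

theorem s26ettbKappa_comp_W (h : Function.Injective (Algebra.TensorProduct.productMap
    (Algebra.TensorProduct.productMap ιW j₁) j₂)) :
    (s26ettbKappa ιW j₁ j₂ h).comp (s26ettbW K W 𝔉) = ιW := by
  ext w
  rw [AlgHom.comp_apply, s26ettbW_apply, s26ettbKappa_incl,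
    Algebra.TensorProduct.productMap_left_apply, Algebra.TensorProduct.productMap_left_apply]

theorem s26ettbKappa_comp_J1 (h : Function.Injective (Algebra.TensorProduct.productMap
    (Algebra.TensorProduct.productMap ιW j₁) j₂)) :
    (s26ettbKappa ιW j₁ j₂ h).comp (s26ettbJ1 K W 𝔉) = j₁ := by
  ext y
  rw [AlgHom.comp_apply, s26ettbJ1_apply, s26ettbKappa_incl,
    Algebra.TensorProduct.productMap_left_apply, Algebra.TensorProduct.productMap_right_apply]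

theorem s26ettbKappa_comp_J2 (h : Function.Injective (Algebra.TensorProduct.productMap
    (Algebra.TensorProduct.productMap ιW j₁) j₂)) :
    (s26ettbKappa ιW j₁ j₂ h).comp (s26ettbJ2 K W 𝔉) = j₂ := by
  ext z
  rw [AlgHom.comp_apply, s26ettbJ2_apply, s26ettbKappa_incl,
    Algebra.TensorProduct.productMap_right_apply]

variable {ιΓ}

/-- `Γ ⊗ 𝔎 → Ω` is injective: `Γ` and `𝔎` are linearly disjoint in `Ω`. -/
theorem s26ettb_kappa_injective
    (hinj : Function.Injective (Algebra.TensorProduct.productMap (Algebra.TensorProduct.productMap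
      (Algebra.TensorProduct.productMap ιΓ ιW) j₁) j₂)) :
    Function.Injective (Algebra.TensorProduct.productMap ιΓ
      (s26ettbKappa ιW j₁ j₂ (s26ettb_inj3 ιΓ ιW j₁ j₂ hinj))) := by
  apply s26ettb_productMap_injective_of_base (T := (W ⊗[K] 𝔉) ⊗[K] 𝔉)
  have h := s26ettbKappa_comp_incl (s26ettb_inj3 ιΓ ιW j₁ j₂ hinj)
  rw [s26ettbIncl] at h
  rw [h]
  exact s26ettb_injT ιΓ ιW j₁ j₂ hinj

variable (ιΓ ιW j₁ j₂)

/-- **`ι₀ : Ω₀ = Frac(Γ ⊗ 𝔎) → Ω`** -/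
def s26ettbIota0
    (hinj : Function.Injective (Algebra.TensorProduct.productMap (Algebra.TensorProduct.productMap
      (Algebra.TensorProduct.productMap ιΓ ιW) j₁) j₂)) :
    s26etifOm K Γ (s26ettbK K W 𝔉) →ₐ[K] Ω :=
  IsFractionRing.liftAlgHom (A := Γ ⊗[K] s26ettbK K W 𝔉) (K := s26etifOm K Γ (s26ettbK K W 𝔉))
    (g := Algebra.TensorProduct.productMap ιΓ
      (s26ettbKappa ιW j₁ j₂ (s26ettb_inj3 ιΓ ιW j₁ j₂ hinj)))
    (s26ettb_kappa_injective hinj)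

variable {ιΓ ιW j₁ j₂}

theorem s26ettbIota0_algebraMap
    (hinj : Function.Injective (Algebra.TensorProduct.productMap (Algebra.TensorProduct.productMap
      (Algebra.TensorProduct.productMap ιΓ ιW) j₁) j₂)) (x : Γ ⊗[K] s26ettbK K W 𝔉) :
    s26ettbIota0 ιΓ ιW j₁ j₂ hinj
        (algebraMap (Γ ⊗[K] s26ettbK K W 𝔉) (s26etifOm K Γ (s26ettbK K W 𝔉)) x) =
      Algebra.TensorProduct.productMap ιΓ
        (s26ettbKappa ιW j₁ j₂ (s26ettb_inj3 ιΓ ιW j₁ j₂ hinj)) x := by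
  rw [s26ettbIota0, IsFractionRing.liftAlgHom_apply]
  exact IsFractionRing.lift_algebraMap _ x

/-- `ι₀ ∘ s26etifL = ιΓ` -/
theorem s26ettbIota0_comp_L
    (hinj : Function.Injective (Algebra.TensorProduct.productMap (Algebra.TensorProduct.productMap
      (Algebra.TensorProduct.productMap ιΓ ιW) j₁) j₂)) :
    (s26ettbIota0 ιΓ ιW j₁ j₂ hinj).comp (s26etifL K Γ (s26ettbK K W 𝔉)) = ιΓ := by
  ext γ
  rw [AlgHom.comp_apply, s26etifL_apply, s26etif_algebraMapL, s26ettbIota0_algebraMap,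
    Algebra.TensorProduct.productMap_left_apply]

/-- `ι₀ ∘ s26etifR = κ` -/
theorem s26ettbIota0_comp_R
    (hinj : Function.Injective (Algebra.TensorProduct.productMap (Algebra.TensorProduct.productMap
      (Algebra.TensorProduct.productMap ιΓ ιW) j₁) j₂)) :
    (s26ettbIota0 ιΓ ιW j₁ j₂ hinj).comp (s26etifR K Γ (s26ettbK K W 𝔉)) =
      s26ettbKappa ιW j₁ j₂ (s26ettb_inj3 ιΓ ιW j₁ j₂ hinj) := by
  ext c
  rw [AlgHom.comp_apply, s26etifR_apply, s26etif_algebraMapR, s26ettbIota0_algebraMap,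
    Algebra.TensorProduct.productMap_right_apply]

/-- `ι₀ ∘ s26etifR ∘ ιW′ = ιW` -/
theorem s26ettbIota0_comp_W
    (hinj : Function.Injective (Algebra.TensorProduct.productMap (Algebra.TensorProduct.productMap
      (Algebra.TensorProduct.productMap ιΓ ιW) j₁) j₂)) :
    (s26ettbIota0 ιΓ ιW j₁ j₂ hinj).comp
      ((s26etifR K Γ (s26ettbK K W 𝔉)).comp (s26ettbW K W 𝔉)) = ιW := by
  rw [← AlgHom.comp_assoc, s26ettbIota0_comp_R, s26ettbKappa_comp_W]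

/-- `ι₀ ∘ s26etifR ∘ j₁′ = j₁` -/
theorem s26ettbIota0_comp_J1
    (hinj : Function.Injective (Algebra.TensorProduct.productMap (Algebra.TensorProduct.productMap
      (Algebra.TensorProduct.productMap ιΓ ιW) j₁) j₂)) :
    (s26ettbIota0 ιΓ ιW j₁ j₂ hinj).comp
      ((s26etifR K Γ (s26ettbK K W 𝔉)).comp (s26ettbJ1 K W 𝔉)) = j₁ := by
  rw [← AlgHom.comp_assoc, s26ettbIota0_comp_R, s26ettbKappa_comp_J1]

/-- `ι₀ ∘ s26etifR ∘ j₂′ = j₂` -/
theorem s26ettbIota0_comp_J2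
    (hinj : Function.Injective (Algebra.TensorProduct.productMap (Algebra.TensorProduct.productMap
      (Algebra.TensorProduct.productMap ιΓ ιW) j₁) j₂)) :
    (s26ettbIota0 ιΓ ιW j₁ j₂ hinj).comp
      ((s26etifR K Γ (s26ettbK K W 𝔉)).comp (s26ettbJ2 K W 𝔉)) = j₂ := by
  rw [← AlgHom.comp_assoc, s26ettbIota0_comp_R, s26ettbKappa_comp_J2]

end Kappa

/-! ### The hypotheses of `s26eti_StmtTIF` -/

section Hyps

variable (K Γ L : Type u) [Field K] [Field Γ] [Field L] [Algebra K Γ] [Algebra K L]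
  [IsAlgClosed K]

/-- the injectivity hypothesis of `s26eti_StmtTIF` for `F = s26etifOm K Γ L` -/
theorem s26ettb_F_injective :
    Function.Injective (Algebra.TensorProduct.productMap (s26etifL K Γ L) (s26etifR K Γ L)) :=
  s26etif_mu_injective

/-- the generation hypothesis of `s26eti_StmtTIF` for `F = s26etifOm K Γ L` -/
theorem s26ettb_F_gen (x : s26etifOm K Γ L) :
    ∃ s t : Γ ⊗[K] L,
      Algebra.TensorProduct.productMap (s26etifL K Γ L) (s26etifR K Γ L) t ≠ 0 ∧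
      x = Algebra.TensorProduct.productMap (s26etifL K Γ L) (s26etifR K Γ L) s /
        Algebra.TensorProduct.productMap (s26etifL K Γ L) (s26etifR K Γ L) t := by
  obtain ⟨A, B, hB, h⟩ := s26etif_gen x
  exact ⟨A, B, hB, eq_div_of_mul_eq hB h⟩

end Hyps

/-! ### `L = AlgebraicClosure 𝔎` -/

section AlgClosure

variable (K Γ W 𝔉 : Type u) [Field K] [Field Γ] [Field W] [Field 𝔉] [Algebra K Γ] [Algebra K W]
  [Algebra K 𝔉] [IsAlgClosed K]

/-- `𝔎 → L = AlgebraicClosure 𝔎` -/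
def s26ettbToL : s26ettbK K W 𝔉 →ₐ[K] AlgebraicClosure (s26ettbK K W 𝔉) :=
  IsScalarTower.toAlgHom K (s26ettbK K W 𝔉) (AlgebraicClosure (s26ettbK K W 𝔉))

/-- the hypothesis of `s26eti_StmtTIF` on `W, y, z` in `L = AlgebraicClosure 𝔎` -/
theorem s26ettb_L_injective :
    Function.Injective (Algebra.TensorProduct.productMap
      (Algebra.TensorProduct.productMap ((s26ettbToL K W 𝔉).comp (s26ettbW K W 𝔉))
        ((s26ettbToL K W 𝔉).comp (s26ettbJ1 K W 𝔉)))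
      ((s26ettbToL K W 𝔉).comp (s26ettbJ2 K W 𝔉))) := by
  rw [← s26ettb_comp_productMap, ← s26ettb_comp_productMap]
  exact (s26ettbToL K W 𝔉).toRingHom.injective.comp (s26ettb_prod_injective K W 𝔉)

/-- DOWN: `ι ∘ s26etifL = s26etifL` -/
theorem s26ettb_down_L :
    (s26etifIota K Γ (s26ettbK K W 𝔉) (AlgebraicClosure (s26ettbK K W 𝔉))).comp
      (s26etifL K Γ (s26ettbK K W 𝔉)) =
      s26etifL K Γ (AlgebraicClosure (s26ettbK K W 𝔉)) :=
  s26etifIota_comp_L K Γ _ _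

/-- DOWN: `ι ∘ s26etifR = s26etifR ∘ (𝔎 → L)` -/
theorem s26ettb_down_R :
    (s26etifIota K Γ (s26ettbK K W 𝔉) (AlgebraicClosure (s26ettbK K W 𝔉))).comp
      (s26etifR K Γ (s26ettbK K W 𝔉)) =
      (s26etifR K Γ (AlgebraicClosure (s26ettbK K W 𝔉))).comp (s26ettbToL K W 𝔉) :=
  s26etifIota_comp_R K Γ _ _

/-- DOWN: `ι ∘ (s26etifR ∘ e) = s26etifR ∘ ((𝔎 → L) ∘ e)` for every `e : E → 𝔎`
(`e = ιW′, j₁′, j₂′`) -/
theorem s26ettb_down_comp {E : Type u} [Field E] [Algebra K E] (e : E →ₐ[K] s26ettbK K W 𝔉) :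
    (s26etifIota K Γ (s26ettbK K W 𝔉) (AlgebraicClosure (s26ettbK K W 𝔉))).comp
      ((s26etifR K Γ (s26ettbK K W 𝔉)).comp e) =
      (s26etifR K Γ (AlgebraicClosure (s26ettbK K W 𝔉))).comp ((s26ettbToL K W 𝔉).comp e) := by
  rw [← AlgHom.comp_assoc, s26ettb_down_R, AlgHom.comp_assoc]

/-- `F = Frac(Γ ⊗ L)` is algebraic over `Ω₀ = Frac(Γ ⊗ 𝔎)` (through `s26etifIota`) -/
theorem s26ettb_isAlgebraic :
    letI := s26etifIotaAlgebra K Γ (s26ettbK K W 𝔉) (AlgebraicClosure (s26ettbK K W 𝔉))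
    Algebra.IsAlgebraic (s26etifOm K Γ (s26ettbK K W 𝔉))
      (s26etifOm K Γ (AlgebraicClosure (s26ettbK K W 𝔉))) :=
  s26etif_isAlgebraic K Γ _ _

end AlgClosure

end Fermat.Agent.S26
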