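import Fermat.Agent.S26.ERedBootA
import Fermat.Agent.S26.ERRF
import Fermat.Agent.DEU.Main3

/-!
# S26-E, E-RED half B: the `DEU.Hyp` ASSEMBLY for a constant reduction, and the `bound`

Abstract frame of `S26/ERedBootA.lean` (helper17): `Γ/K` a function field, `F/L` and `Fb/k` two
"constant extensions" of it (`ιF : Γ →+* F`, `ιk : Γ →+* Fb`) with conorm maps
`con : Place K Γ → Place L F`, `conk : Place K Γ → Place k Fb`, and `R : DEU.RedData L F k Fb` a
constant reduction which is the identity on `Γ`.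

* `s26era_degree_con`     : `deg (Con B) = deg B` (all places of degree one);
* `s26era_mulPlace_con`   : `Con (m·P₀) = m·con P₀`;
* `s26era_finrank_le_con` : `dim_K L_K(B) ≤ dim_L L_F(Con B)` (the easy half of (RR-D));
* `s26era_riemannF`       : Riemann's inequality for `F/L` with the constant `γ` of `Γ/K`
  (`ES.R.riemann_transfer` along the divisors `m·con P₀`);
* `s26era_dimF`           : `dim_L L_F(Con D) ≤ deg D + 1` for `D ≥ 0`;
* `s26era_hyp`            : **the assembly**: `DEU.Hyp R (con P₀) (conk P₀) γ n₀` from (Q2), the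
  anchor (`s26erb_anchor`), Riemann over `K` with `γ`, and the `bound` at `n₀`;
* `s26era_exists_bound`   : the `bound` over `K` (`dim L_K(n·P₀) + γ = n + 1` for `n ≥ c`), from
  the genus `S26errfGenus K Γ γ`;
* `s26era_bound_of_semi`  : the `bound` on the residue side from the semicontinuity
  `dim_k L_Fb(n·conk P₀) ≤ dim_K L_K(n·P₀)` (Instance 0 ⇒ Instance 1);
* `s26era_hyp_exists`     : `∃ n₀, DEU.Hyp R (con P₀) (conk P₀) γ n₀`;
* `s26era_hyp_rat`        : Instance 0 (`k = K`, `Fb = Γ`, `conk = id`, `ιk = id`): no `bound`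
  hypothesis at all;
* `s26era_semi_anchor`    : **(RR-D), hard half**: `dim_k L_Fb(Con_k B) ≤ dim_K L_K(B)` from the
  anchor of a reduction `R₀ : RedData k Fb K Γ` with (Q2); `s26era_rrd` : equality;
* `s26era_hyp_gen`        : **Instance 1**: `∃ n₀, DEU.Hyp R (con P₀) (conk P₀) γ n₀` from `R`,
  (Q2) for `R`, and a second reduction `R₀ : Fb/k → Γ/K` with (Q2) (no `bound` hypothesis);
* `s26era_semi`           : OUTPUT: `dim_L L_F(Con B) ≤ dim_k L_Fb(Con_k B)` for every `B`, from
  `H : DEU.Hyp …` and `H.r ∘ con = conk` (the hard half of (RR-D) when `k = K`).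
-/

set_option autoImplicit false
set_option linter.unusedSectionVars false
set_option linter.unusedVariables false
set_option linter.style.haveILetI false

open AlgebraicCurve Module

namespace Fermat.Agent.S26

open Fermat.Agent.S24 Fermat.Agent.DEU Fermat.Agent.ES.R

variable {K Γ L F : Type*} [Field K] [Field Γ] [Algebra K Γ] [Field L] [Field F] [Algebra L F]

/-! ### Conorms -/

/-- `deg (Con B) = deg B` when all places have degree one. -/
theorem s26era_degree_con (con : Place K Γ → Place L F)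
    (hresK : ∀ v : Place K Γ, Function.Bijective (algebraMap K v.ResidueField))
    (hresF : ∀ v : Place L F, Function.Bijective (algebraMap L v.ResidueField))
    (B : Divisor K Γ) :
    Divisor.degree (Finsupp.mapDomain con B : Divisor L F) = Divisor.degree B := by
  induction B using Finsupp.induction_linear with
  | zero => rw [Finsupp.mapDomain_zero, map_zero, map_zero]
  | add f g hf hg => rw [Finsupp.mapDomain_add, map_add, map_add, hf, hg]
  | single Q n =>
    rw [Finsupp.mapDomain_single, Divisor.degree_single, Divisor.degree_single,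
      place_deg_eq_one _ (hresF _), place_deg_eq_one _ (hresK _)]

/-- `Con (m·P₀) = m·con P₀`. -/
theorem s26era_mulPlace_con (con : Place K Γ → Place L F) (P₀ : Place K Γ) (m : ℤ) :
    (Finsupp.mapDomain con (mulPlace P₀ m) : Divisor L F) = mulPlace (con P₀) m := by
  rw [mulPlace, mulPlace, Finsupp.mapDomain_single]

/-- **the easy half of (RR-D)**: `dim_K L_K(B) ≤ dim_L L_F(Con B)`. -/
theorem s26era_finrank_le_con (ιF : Γ →+* F) (con : Place K Γ → Place L F)
    (hcon : Function.Injective con)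
    (hordF : ∀ (Q : Place K Γ) (u : Γ), (con Q).ord (ιF u) = Q.ord u)
    (hpoleF : ∀ (u : Γ) (P : Place L F), P.ord (ιF u) < 0 → ∃ Q, P = con Q)
    (hldF : ∀ (n : ℕ) (v : Fin n → Γ), LinearIndependent K v →
      LinearIndependent L (fun i => ιF (v i)))
    (B : Divisor K Γ) (hfinK : Module.Finite K ↥(riemannRochSpace B))
    (hfinF : Module.Finite L ↥(riemannRochSpace (Finsupp.mapDomain con B : Divisor L F))) :
    finrank K ↥(riemannRochSpace B) ≤
      finrank L ↥(riemannRochSpace (Finsupp.mapDomain con B : Divisor L F)) := by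
  classical
  set T : Submodule K Γ := riemannRochSpace B with hT
  set t : ℕ := finrank K T with ht
  let b : Basis (Fin t) K T := Module.finBasis K T
  let v : Fin t → Γ := fun i => (b i : Γ)
  have hv : LinearIndependent K v :=
    b.linearIndependent.map' T.subtype (Submodule.ker_subtype _)
  have hvL : LinearIndependent L (fun i => ιF (v i)) := hldF t v hv
  set W : Submodule L F := riemannRochSpace (Finsupp.mapDomain con B : Divisor L F) with hW
  have hmem : ∀ i, ιF (v i) ∈ W := fun i =>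
    s26erb_map_mem_rr ιF con hcon hordF hpoleF B (b i).2
  have hliW : LinearIndependent L (fun i => (⟨ιF (v i), hmem i⟩ : W)) := by
    apply LinearIndependent.of_comp W.subtype
    exact hvL
  have h := hliW.fintype_card_le_finrank
  rwa [Fintype.card_fin] at h

/-- **Riemann's inequality for `F/L`** with the Riemann constant `γ` of `Γ/K`. -/
theorem s26era_riemannF [HasPrincipalDivisors K Γ] (hpdF : HasPrincipalDivisors L F)
    (ιF : Γ →+* F) (con : Place K Γ → Place L F) (hcon : Function.Injective con)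
    (hordF : ∀ (Q : Place K Γ) (u : Γ), (con Q).ord (ιF u) = Q.ord u)
    (hpoleF : ∀ (u : Γ) (P : Place L F), P.ord (ιF u) < 0 → ∃ Q, P = con Q)
    (hresK : ∀ v : Place K Γ, Function.Bijective (algebraMap K v.ResidueField))
    (hresF : ∀ v : Place L F, Function.Bijective (algebraMap L v.ResidueField))
    (hldF : ∀ (n : ℕ) (v : Fin n → Γ), LinearIndependent K v →
      LinearIndependent L (fun i => ιF (v i)))
    (γ : ℤ)
    (hriem : ∀ D : Divisor K Γ,
      Divisor.degree D + 1 - γ ≤ (finrank K ↥(riemannRochSpace D) : ℤ))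
    (P₀ : Place K Γ) (A : Divisor L F) :
    Divisor.degree A + 1 - γ ≤ (finrank L ↥(riemannRochSpace A) : ℤ) := by
  haveI := hpdF
  refine riemann_transfer hresF γ (fun m => ?_) A
  refine ⟨Finsupp.mapDomain con (mulPlace P₀ m), ?_, ?_⟩
  · rw [s26era_degree_con con hresK hresF, degree_mulPlace hresK]
  · rw [s26era_degree_con con hresK hresF]
    have h1 := hriem (mulPlace P₀ m)
    have h2 := s26era_finrank_le_con ιF con hcon hordF hpoleF hldF (mulPlace P₀ m)
      (rr_finite P₀ hresK _) (rr_finite (con P₀) hresF _)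
    have h3 : (finrank K ↥(riemannRochSpace (mulPlace P₀ m)) : ℤ) ≤
        finrank L ↥(riemannRochSpace (Finsupp.mapDomain con (mulPlace P₀ m) : Divisor L F)) := by
      exact_mod_cast h2
    linarith

/-- `dim_L L_F(Con D) ≤ deg D + 1` for `D ≥ 0`. -/
theorem s26era_dimF (hpdF : HasPrincipalDivisors L F)
    (con : Place K Γ → Place L F)
    (hresK : ∀ v : Place K Γ, Function.Bijective (algebraMap K v.ResidueField))
    (hresF : ∀ v : Place L F, Function.Bijective (algebraMap L v.ResidueField))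
    (P₀ : Place K Γ) (D : Divisor K Γ) (hD : 0 ≤ D) :
    (finrank L ↥(riemannRochSpace (Finsupp.mapDomain con D : Divisor L F)) : ℤ) ≤
      Divisor.degree D + 1 := by
  haveI := hpdF
  have h0 : 0 ≤ Divisor.degree D := degree_nonneg hD
  have h := rr_finrank_le_degree_add_one hresF (con P₀) (Finsupp.mapDomain con D)
    (by rw [s26era_degree_con con hresK hresF]; linarith)
  rwa [s26era_degree_con con hresK hresF] at h

/-! ### The assembly -/

section Asm

variable {k Fb : Type*} [Field k] [Field Fb] [Algebra k Fb]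

/-- **The `DEU.Hyp` of a constant reduction** (assembly): from (Q2), Riemann over `K` with the
constant `γ`, the conorm shapes of (RR-C) on both sides and ONE bound on the residue side. -/
theorem s26era_hyp [HasPrincipalDivisors K Γ]
    (R : RedData L F k Fb) (ιF : Γ →+* F) (ιk : Γ →+* Fb)
    (hO : ∀ u, ιF u ∈ R.O) (hred : ∀ u, R.red ⟨ιF u, hO u⟩ = ιk u)
    (con : Place K Γ → Place L F) (hcon : Function.Injective con)
    (hordF : ∀ (Q : Place K Γ) (u : Γ), (con Q).ord (ιF u) = Q.ord u)
    (hpoleF : ∀ (u : Γ) (P : Place L F), P.ord (ιF u) < 0 → ∃ Q, P = con Q)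
    (conk : Place K Γ → Place k Fb) (hconk : Function.Injective conk)
    (hordk : ∀ (Q : Place K Γ) (u : Γ), (conk Q).ord (ιk u) = Q.ord u)
    (hpolek : ∀ (u : Γ) (P : Place k Fb), P.ord (ιk u) < 0 → ∃ Q, P = conk Q)
    (hresK : ∀ v : Place K Γ, Function.Bijective (algebraMap K v.ResidueField))
    (hresF : ∀ v : Place L F, Function.Bijective (algebraMap L v.ResidueField))
    (hresk : ∀ v : Place k Fb, Function.Bijective (algebraMap k v.ResidueField))
    (hpdF : HasPrincipalDivisors L F) (hpdk : HasPrincipalDivisors k Fb)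
    (hldF : ∀ (n : ℕ) (v : Fin n → Γ), LinearIndependent K v →
      LinearIndependent L (fun i => ιF (v i)))
    (hldk : ∀ (n : ℕ) (v : Fin n → Γ), LinearIndependent K v →
      LinearIndependent k (fun i => ιk (v i)))
    (hq2 : ∀ V : Submodule L F, Module.Finite L V → finrank L V ≤ finrank k ↥(R.redSpace V))
    (γ : ℕ)
    (hriem : ∀ D : Divisor K Γ,
      Divisor.degree D + 1 - γ ≤ (finrank K ↥(riemannRochSpace D) : ℤ))
    (P₀ : Place K Γ) (n₀ : ℕ)
    (hbound : (finrank k ↥(riemannRochSpace (mulPlace (conk P₀) n₀)) : ℤ) + γ ≤ n₀ + 1) :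
    Hyp R (con P₀) (conk P₀) γ n₀ where
  hresF := hresF
  hresk := hresk
  hpdF := hpdF
  hpdk := hpdk
  riemann := fun 𝔞 =>
    s26era_riemannF hpdF ιF con hcon hordF hpoleF hresK hresF hldF γ hriem P₀ 𝔞
  q2 := hq2
  anchor := fun m => by
    haveI := hpdF
    have h := s26erb_anchor R ιF ιk hO hred con hcon hordF hpoleF conk hconk hordk hpolek
      (fun D => rr_finite (con P₀) hresF _)
      (fun D hD => s26era_dimF hpdF con hresK hresF P₀ D hD) γ
      (fun D => rr_finite P₀ hresK D) hriem hldk (mulPlace P₀ m)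
    rwa [s26era_mulPlace_con, s26era_mulPlace_con] at h
  bound := hbound

/-- the `bound` over `K`: `dim L_K(n·P₀) + γ = n + 1` for `n ≥ c`. -/
theorem s26era_exists_bound [HasPrincipalDivisors K Γ]
    (hresK : ∀ v : Place K Γ, Function.Bijective (algebraMap K v.ResidueField))
    {γ : ℤ} (hγ : S26errfGenus K Γ γ) (P₀ : Place K Γ) :
    ∃ c : ℕ, ∀ n : ℕ, c ≤ n →
      (finrank K ↥(riemannRochSpace (mulPlace P₀ n)) : ℤ) + γ = n + 1 := by
  have hfin : ∀ v : Place K Γ, Module.Finite K v.ResidueField := fun v =>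
    Module.Finite.of_surjective (Algebra.linearMap K v.ResidueField) (hresK v).2
  obtain ⟨c, hc⟩ := s26errf_exists_bound hfin hγ
  refine ⟨c.toNat, fun n hn => ?_⟩
  have h1 : c ≤ Divisor.degree (mulPlace P₀ (n : ℤ)) := by
    rw [degree_mulPlace hresK]
    have := Int.self_le_toNat c
    have h2 : (c.toNat : ℤ) ≤ n := by exact_mod_cast hn
    linarith
  have h3 := hc _ h1
  rw [degree_mulPlace hresK] at h3
  linarith

/-- the `bound` on the residue side from the semicontinuity at the multiples of `P₀`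
(Instance 0 ⇒ Instance 1). -/
theorem s26era_bound_of_semi [HasPrincipalDivisors K Γ]
    (hresK : ∀ v : Place K Γ, Function.Bijective (algebraMap K v.ResidueField))
    {γ : ℤ} (hγ : S26errfGenus K Γ γ) (P₀ : Place K Γ)
    (conk : Place K Γ → Place k Fb)
    (hsemi : ∀ n : ℕ, finrank k ↥(riemannRochSpace (mulPlace (conk P₀) n)) ≤
      finrank K ↥(riemannRochSpace (mulPlace P₀ n))) :
    ∃ c : ℕ, ∀ n : ℕ, c ≤ n →
      (finrank k ↥(riemannRochSpace (mulPlace (conk P₀) n)) : ℤ) + γ ≤ n + 1 := by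
  obtain ⟨c, hc⟩ := s26era_exists_bound hresK hγ P₀
  refine ⟨c, fun n hn => ?_⟩
  have h1 := hc n hn
  have h2 : (finrank k ↥(riemannRochSpace (mulPlace (conk P₀) n)) : ℤ) ≤
      finrank K ↥(riemannRochSpace (mulPlace P₀ n)) := by exact_mod_cast hsemi n
  linarith

/-- **The `DEU.Hyp` of a constant reduction exists** (Instance 1): the `bound` comes from the
semicontinuity `dim_k L_Fb(n·conk P₀) ≤ dim_K L_K(n·P₀)` (= OUTPUT of Instance 0 for the field
`k`). -/
theorem s26era_hyp_exists [HasPrincipalDivisors K Γ]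
    (R : RedData L F k Fb) (ιF : Γ →+* F) (ιk : Γ →+* Fb)
    (hO : ∀ u, ιF u ∈ R.O) (hred : ∀ u, R.red ⟨ιF u, hO u⟩ = ιk u)
    (con : Place K Γ → Place L F) (hcon : Function.Injective con)
    (hordF : ∀ (Q : Place K Γ) (u : Γ), (con Q).ord (ιF u) = Q.ord u)
    (hpoleF : ∀ (u : Γ) (P : Place L F), P.ord (ιF u) < 0 → ∃ Q, P = con Q)
    (conk : Place K Γ → Place k Fb) (hconk : Function.Injective conk)
    (hordk : ∀ (Q : Place K Γ) (u : Γ), (conk Q).ord (ιk u) = Q.ord u)
    (hpolek : ∀ (u : Γ) (P : Place k Fb), P.ord (ιk u) < 0 → ∃ Q, P = conk Q)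
    (hresK : ∀ v : Place K Γ, Function.Bijective (algebraMap K v.ResidueField))
    (hresF : ∀ v : Place L F, Function.Bijective (algebraMap L v.ResidueField))
    (hresk : ∀ v : Place k Fb, Function.Bijective (algebraMap k v.ResidueField))
    (hpdF : HasPrincipalDivisors L F) (hpdk : HasPrincipalDivisors k Fb)
    (hldF : ∀ (n : ℕ) (v : Fin n → Γ), LinearIndependent K v →
      LinearIndependent L (fun i => ιF (v i)))
    (hldk : ∀ (n : ℕ) (v : Fin n → Γ), LinearIndependent K v →
      LinearIndependent k (fun i => ιk (v i)))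
    (hq2 : ∀ V : Submodule L F, Module.Finite L V → finrank L V ≤ finrank k ↥(R.redSpace V))
    (γ : ℕ) (hγ : S26errfGenus K Γ (γ : ℤ)) (P₀ : Place K Γ)
    (hsemi : ∀ n : ℕ, finrank k ↥(riemannRochSpace (mulPlace (conk P₀) n)) ≤
      finrank K ↥(riemannRochSpace (mulPlace P₀ n))) :
    ∃ n₀ : ℕ, Hyp R (con P₀) (conk P₀) γ n₀ := by
  obtain ⟨c, hc⟩ := s26era_bound_of_semi hresK hγ P₀ conk hsemi
  exact ⟨c, s26era_hyp R ιF ιk hO hred con hcon hordF hpoleF conk hconk hordk hpolek hresK hresF
    hresk hpdF hpdk hldF hldk hq2 γ hγ.2.1 P₀ c (hc c le_rfl)⟩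

end Asm

/-! ### Instance 0: the residue field is `K` -/

/-- **Instance 0** (`k = K`, `Fb = Γ`, `conk = id`, `ιk = id`): the `DEU.Hyp` of a constant
reduction `F/L → Γ/K` along a valuation ring of `L` with residue field `K`. -/
theorem s26era_hyp_rat [HasPrincipalDivisors K Γ]
    (R : RedData L F K Γ) (ιF : Γ →+* F)
    (hO : ∀ u, ιF u ∈ R.O) (hred : ∀ u, R.red ⟨ιF u, hO u⟩ = u)
    (con : Place K Γ → Place L F) (hcon : Function.Injective con)
    (hordF : ∀ (Q : Place K Γ) (u : Γ), (con Q).ord (ιF u) = Q.ord u)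
    (hpoleF : ∀ (u : Γ) (P : Place L F), P.ord (ιF u) < 0 → ∃ Q, P = con Q)
    (hresK : ∀ v : Place K Γ, Function.Bijective (algebraMap K v.ResidueField))
    (hresF : ∀ v : Place L F, Function.Bijective (algebraMap L v.ResidueField))
    (hpdF : HasPrincipalDivisors L F)
    (hldF : ∀ (n : ℕ) (v : Fin n → Γ), LinearIndependent K v →
      LinearIndependent L (fun i => ιF (v i)))
    (hq2 : ∀ V : Submodule L F, Module.Finite L V → finrank L V ≤ finrank K ↥(R.redSpace V))
    (γ : ℕ) (hγ : S26errfGenus K Γ (γ : ℤ)) (P₀ : Place K Γ) :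
    ∃ n₀ : ℕ, Hyp R (con P₀) P₀ γ n₀ :=
  s26era_hyp_exists R ιF (RingHom.id Γ) hO hred con hcon hordF hpoleF id Function.injective_id
    (fun _ _ => rfl) (fun _ P _ => ⟨P, rfl⟩) hresK hresF hresK hpdF inferInstance hldF
    (fun _ _ hv => hv) hq2 γ hγ P₀ (fun _ => le_rfl)

/-! ### The semicontinuity from the anchor of Instance 0, and Instance 1 -/

section Gen

variable {k Fb : Type*} [Field k] [Field Fb] [Algebra k Fb]

/-- **(RR-D), hard half, from the anchor**: if `R₀ : RedData k Fb K Γ` is a constant reduction of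
`Fb/k` to `Γ/K` itself (valuation ring of `k` with residue field `K`) with (Q2), then
`dim_k L_Fb(Con_k B) ≤ dim_K L_K(B)` for every divisor `B` of `Γ/K`. -/
theorem s26era_semi_anchor [HasPrincipalDivisors K Γ]
    (R₀ : RedData k Fb K Γ) (ιk : Γ →+* Fb)
    (hO₀ : ∀ u, ιk u ∈ R₀.O) (hred₀ : ∀ u, R₀.red ⟨ιk u, hO₀ u⟩ = u)
    (conk : Place K Γ → Place k Fb) (hconk : Function.Injective conk)
    (hordk : ∀ (Q : Place K Γ) (u : Γ), (conk Q).ord (ιk u) = Q.ord u)
    (hpolek : ∀ (u : Γ) (P : Place k Fb), P.ord (ιk u) < 0 → ∃ Q, P = conk Q)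
    (hresK : ∀ v : Place K Γ, Function.Bijective (algebraMap K v.ResidueField))
    (hresk : ∀ v : Place k Fb, Function.Bijective (algebraMap k v.ResidueField))
    (hpdk : HasPrincipalDivisors k Fb)
    (hq2₀ : ∀ V : Submodule k Fb, Module.Finite k V →
      finrank k V ≤ finrank K ↥(R₀.redSpace V))
    (γ : ℕ)
    (hriem : ∀ D : Divisor K Γ,
      Divisor.degree D + 1 - γ ≤ (finrank K ↥(riemannRochSpace D) : ℤ))
    (P₀ : Place K Γ) (B : Divisor K Γ) :
    finrank k ↥(riemannRochSpace (Finsupp.mapDomain conk B : Divisor k Fb)) ≤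
      finrank K ↥(riemannRochSpace B) := by
  haveI := hpdk
  have hfinW : Module.Finite k
      ↥(riemannRochSpace (Finsupp.mapDomain conk B : Divisor k Fb)) :=
    rr_finite (conk P₀) hresk _
  have h1 := hq2₀ _ hfinW
  have h2 := s26erb_anchor R₀ ιk (RingHom.id Γ) hO₀ hred₀ conk hconk hordk hpolek id
    Function.injective_id (fun _ _ => rfl) (fun _ P _ => ⟨P, rfl⟩)
    (fun D => rr_finite (conk P₀) hresk _)
    (fun D hD => s26era_dimF hpdk conk hresK hresk P₀ D hD) γ
    (fun D => rr_finite P₀ hresK D) hriem (fun _ _ hv => hv) B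
  rw [Finsupp.mapDomain_id] at h2
  haveI : Module.Finite K ↥(riemannRochSpace B) := rr_finite P₀ hresK B
  exact h1.trans (Submodule.finrank_mono h2)

/-- **Instance 1**: the `DEU.Hyp` of a constant reduction `R : F/L → Fb/k`, the `bound` coming
from a second constant reduction `R₀ : Fb/k → Γ/K` (valuation ring of `k` with residue field
`K`). -/
theorem s26era_hyp_gen [HasPrincipalDivisors K Γ]
    (R : RedData L F k Fb) (ιF : Γ →+* F) (ιk : Γ →+* Fb)
    (hO : ∀ u, ιF u ∈ R.O) (hred : ∀ u, R.red ⟨ιF u, hO u⟩ = ιk u)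
    (con : Place K Γ → Place L F) (hcon : Function.Injective con)
    (hordF : ∀ (Q : Place K Γ) (u : Γ), (con Q).ord (ιF u) = Q.ord u)
    (hpoleF : ∀ (u : Γ) (P : Place L F), P.ord (ιF u) < 0 → ∃ Q, P = con Q)
    (conk : Place K Γ → Place k Fb) (hconk : Function.Injective conk)
    (hordk : ∀ (Q : Place K Γ) (u : Γ), (conk Q).ord (ιk u) = Q.ord u)
    (hpolek : ∀ (u : Γ) (P : Place k Fb), P.ord (ιk u) < 0 → ∃ Q, P = conk Q)
    (hresK : ∀ v : Place K Γ, Function.Bijective (algebraMap K v.ResidueField))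
    (hresF : ∀ v : Place L F, Function.Bijective (algebraMap L v.ResidueField))
    (hresk : ∀ v : Place k Fb, Function.Bijective (algebraMap k v.ResidueField))
    (hpdF : HasPrincipalDivisors L F) (hpdk : HasPrincipalDivisors k Fb)
    (hldF : ∀ (n : ℕ) (v : Fin n → Γ), LinearIndependent K v →
      LinearIndependent L (fun i => ιF (v i)))
    (hldk : ∀ (n : ℕ) (v : Fin n → Γ), LinearIndependent K v →
      LinearIndependent k (fun i => ιk (v i)))
    (hq2 : ∀ V : Submodule L F, Module.Finite L V → finrank L V ≤ finrank k ↥(R.redSpace V))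
    (R₀ : RedData k Fb K Γ)
    (hO₀ : ∀ u, ιk u ∈ R₀.O) (hred₀ : ∀ u, R₀.red ⟨ιk u, hO₀ u⟩ = u)
    (hq2₀ : ∀ V : Submodule k Fb, Module.Finite k V →
      finrank k V ≤ finrank K ↥(R₀.redSpace V))
    (γ : ℕ) (hγ : S26errfGenus K Γ (γ : ℤ)) (P₀ : Place K Γ) :
    ∃ n₀ : ℕ, Hyp R (con P₀) (conk P₀) γ n₀ := by
  refine s26era_hyp_exists R ιF ιk hO hred con hcon hordF hpoleF conk hconk hordk hpolek hresK
    hresF hresk hpdF hpdk hldF hldk hq2 γ hγ P₀ (fun n => ?_)
  have h := s26era_semi_anchor R₀ ιk hO₀ hred₀ conk hconk hordk hpolek hresK hresk hpdk hq2₀ γ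
    hγ.2.1 P₀ (mulPlace P₀ n)
  rwa [s26era_mulPlace_con] at h

/-- **(RR-D)**: `dim_k L_Fb(Con_k B) = dim_K L_K(B)` for a constant extension `Fb/k` of `Γ/K`
which has a constant reduction back to `Γ/K` with (Q2). -/
theorem s26era_rrd [HasPrincipalDivisors K Γ]
    (R₀ : RedData k Fb K Γ) (ιk : Γ →+* Fb)
    (hO₀ : ∀ u, ιk u ∈ R₀.O) (hred₀ : ∀ u, R₀.red ⟨ιk u, hO₀ u⟩ = u)
    (conk : Place K Γ → Place k Fb) (hconk : Function.Injective conk)
    (hordk : ∀ (Q : Place K Γ) (u : Γ), (conk Q).ord (ιk u) = Q.ord u)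
    (hpolek : ∀ (u : Γ) (P : Place k Fb), P.ord (ιk u) < 0 → ∃ Q, P = conk Q)
    (hresK : ∀ v : Place K Γ, Function.Bijective (algebraMap K v.ResidueField))
    (hresk : ∀ v : Place k Fb, Function.Bijective (algebraMap k v.ResidueField))
    (hpdk : HasPrincipalDivisors k Fb)
    (hldk : ∀ (n : ℕ) (v : Fin n → Γ), LinearIndependent K v →
      LinearIndependent k (fun i => ιk (v i)))
    (hq2₀ : ∀ V : Submodule k Fb, Module.Finite k V →
      finrank k V ≤ finrank K ↥(R₀.redSpace V))
    (γ : ℕ)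
    (hriem : ∀ D : Divisor K Γ,
      Divisor.degree D + 1 - γ ≤ (finrank K ↥(riemannRochSpace D) : ℤ))
    (P₀ : Place K Γ) (B : Divisor K Γ) :
    finrank k ↥(riemannRochSpace (Finsupp.mapDomain conk B : Divisor k Fb)) =
      finrank K ↥(riemannRochSpace B) := by
  haveI := hpdk
  exact le_antisymm
    (s26era_semi_anchor R₀ ιk hO₀ hred₀ conk hconk hordk hpolek hresK hresk hpdk hq2₀ γ hriem
      P₀ B)
    (s26era_finrank_le_con ιk conk hconk hordk hpolek hldk B (rr_finite P₀ hresK B)
      (rr_finite (conk P₀) hresk _))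

end Gen

/-! ### Output: semicontinuity along conorms -/

section Out

variable {k Fb : Type*} [Field k] [Field Fb] [Algebra k Fb]

/-- **OUTPUT (semicontinuity along conorms)**: `dim_L L_F(Con B) ≤ dim_k L_Fb(Con_k B)`.
For `k = K`, `conk = id` this is the hard half of (RR-D). -/
theorem s26era_semi {R : RedData L F k Fb} {Pinf : Place L F} {Qinf : Place k Fb} {g n₀ : ℕ}
    (H : Hyp R Pinf Qinf g n₀) (con : Place K Γ → Place L F) (conk : Place K Γ → Place k Fb)
    (hr : ∀ Q, H.r (con Q) = conk Q) (B : Divisor K Γ) :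
    finrank L ↥(riemannRochSpace (Finsupp.mapDomain con B : Divisor L F)) ≤
      finrank k ↥(riemannRochSpace (Finsupp.mapDomain conk B : Divisor k Fb)) := by
  have h := H.finrank_rr_le_mapDomain (Finsupp.mapDomain con B)
  have e : (Finsupp.mapDomain H.r (Finsupp.mapDomain con B) : Divisor k Fb) =
      Finsupp.mapDomain conk B := by
    rw [← Finsupp.mapDomain_comp]
    congr 1
    funext Q
    exact hr Q
  rwa [e] at h

/-- `red (L_F(Con B)) ≤ L_Fb(Con_k B)` from `H` (all `B`). -/
theorem s26era_redSpace_le {R : RedData L F k Fb} {Pinf : Place L F} {Qinf : Place k Fb}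
    {g n₀ : ℕ} (H : Hyp R Pinf Qinf g n₀) (con : Place K Γ → Place L F)
    (conk : Place K Γ → Place k Fb) (hr : ∀ Q, H.r (con Q) = conk Q) (B : Divisor K Γ) :
    R.redSpace (riemannRochSpace (Finsupp.mapDomain con B : Divisor L F)) ≤
      riemannRochSpace (Finsupp.mapDomain conk B : Divisor k Fb) := by
  have h := H.redSpace_rr_le_mapDomain (Finsupp.mapDomain con B)
  have e : (Finsupp.mapDomain H.r (Finsupp.mapDomain con B) : Divisor k Fb) =
      Finsupp.mapDomain conk B := by
    rw [← Finsupp.mapDomain_comp]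
    congr 1
    funext Q
    exact hr Q
  rwa [e] at h

end Out

end Fermat.Agent.S26
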