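/-
S26, wall (E), piece **E-RED**, half A (helper12), part 1: **pivoting**.

Pure linear algebra over a valued field `(L, V)` with a ring homomorphism `res : V → k`
(Mathlib only).  A finite-dimensional `L`-subspace `W` of `I →₀ L` (max norm) has a basis whose
coordinates lie in `V` and whose coordinatewise reductions are `k`-linearly independent:
Gaussian elimination with a pivot of largest absolute value.
-/
import Mathlib

set_option autoImplicit false

noncomputable section

namespace Fermat.Agent.S26

open Module

variable {L k I : Type*} [Field L] [Field k]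

/-- the vector of `I →₀ L` underlying a vector with coordinates in `V` -/
def s26ergUp (V : ValuationSubring L) (e : I →₀ ↥V) : I →₀ L :=
  Finsupp.mapRange (fun x : ↥V => (x : L)) rfl e

/-- the coordinatewise reduction -/
def s26ergDown (V : ValuationSubring L) (res : ↥V →+* k) (e : I →₀ ↥V) : I →₀ k :=
  Finsupp.mapRange res (map_zero res) e

@[simp] theorem s26ergUp_apply (V : ValuationSubring L) (e : I →₀ ↥V) (i : I) :
    s26ergUp V e i = (e i : L) := rfl

@[simp] theorem s26ergDown_apply (V : ValuationSubring L) (res : ↥V →+* k) (e : I →₀ ↥V)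
    (i : I) : s26ergDown V res e i = res (e i) := rfl

/-- a vector all of whose coordinates lie in `V` comes from `I →₀ V` -/
theorem s26erg_exists_up (V : ValuationSubring L) (x : I →₀ L) (hx : ∀ i, x i ∈ V) :
    ∃ e : I →₀ ↥V, s26ergUp V e = x := by
  classical
  refine ⟨Finsupp.onFinset x.support (fun i => ⟨x i, hx i⟩) ?_, ?_⟩
  · intro i hi
    rw [Finsupp.mem_support_iff]
    intro h0
    apply hi
    apply Subtype.ext
    exact h0
  · ext i
    rfl

/-- **scaling**: a nonzero vector has a multiple with coordinates in `V` one of which is `1`. -/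
theorem s26erg_exists_scale (V : ValuationSubring L) (x : I →₀ L) (hx : x ≠ 0) :
    ∃ (c : L) (i₀ : I) (e : I →₀ ↥V), c ≠ 0 ∧ s26ergUp V e = c • x ∧ e i₀ = 1 := by
  classical
  have hne : x.support.Nonempty := Finsupp.support_nonempty_iff.mpr hx
  obtain ⟨i₀, hi₀, hmax⟩ := Finset.exists_max_image x.support (fun i => V.valuation (x i)) hne
  have hxi₀ : x i₀ ≠ 0 := Finsupp.mem_support_iff.mp hi₀
  have hmem : ∀ i, (x i₀)⁻¹ * x i ∈ V := by
    intro i
    by_cases hi : i ∈ x.support
    · rw [← ValuationSubring.valuation_le_one_iff, map_mul, map_inv₀]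
      have h0 : V.valuation (x i₀) ≠ 0 := (Valuation.ne_zero_iff _).mpr hxi₀
      rw [inv_mul_le_iff₀ (zero_lt_iff.mpr h0), mul_one]
      exact hmax i hi
    · rw [Finsupp.notMem_support_iff.mp hi, mul_zero]
      exact V.zero_mem
  obtain ⟨e, he⟩ := s26erg_exists_up V ((x i₀)⁻¹ • x) (fun i => by
    rw [Finsupp.smul_apply, smul_eq_mul]; exact hmem i)
  refine ⟨(x i₀)⁻¹, i₀, e, inv_ne_zero hxi₀, he, ?_⟩
  apply Subtype.ext
  have := DFunLike.congr_fun he i₀
  rw [s26ergUp_apply, Finsupp.smul_apply, smul_eq_mul, inv_mul_cancel₀ hxi₀] at this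
  exact this

/-- **pivoting**: a finite-dimensional subspace of `I →₀ L` has `finrank` many vectors with
coordinates in `V` whose reductions are linearly independent. -/
theorem s26erg_pivot (V : ValuationSubring L) (res : ↥V →+* k) :
    ∀ (n : ℕ) (W : Submodule L (I →₀ L)), Module.Finite L W → finrank L W = n →
      ∃ e : Fin n → (I →₀ ↥V), (∀ j, s26ergUp V (e j) ∈ W) ∧
        LinearIndependent k (fun j => s26ergDown V res (e j)) := by
  classical
  intro n
  induction n with
  | zero =>
    intro W _ _
    exact ⟨Fin.elim0, fun j => j.elim0, linearIndependent_empty_type⟩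
  | succ n ih =>
    intro W hfin hW
    have hWne : W ≠ ⊥ := by
      intro h
      rw [h, finrank_bot] at hW
      exact Nat.succ_ne_zero n hW.symm
    obtain ⟨x, hxW, hx0⟩ := (Submodule.ne_bot_iff W).mp hWne
    obtain ⟨c, i₀, e₀, hc, he₀, he₀1⟩ := s26erg_exists_scale V x hx0
    have he₀W : s26ergUp V e₀ ∈ W := by
      rw [he₀]
      exact W.smul_mem c hxW
    -- the hyperplane of `W` of the vectors with vanishing `i₀`-th coordinate
    set φ : (I →₀ L) →ₗ[L] L := Finsupp.lapply i₀ with hφ
    set W' : Submodule L (I →₀ L) := W ⊓ LinearMap.ker φ with hW'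
    have hW'le : W' ≤ W := inf_le_left
    have : Module.Finite L W' := Submodule.finiteDimensional_of_le hW'le
    have hφe₀ : φ (s26ergUp V e₀) = 1 := by
      rw [hφ, Finsupp.lapply_apply, s26ergUp_apply, he₀1]
      rfl
    have hdim : finrank L W' = n := by
      -- rank-nullity for `φ` restricted to `W`
      set ψ : ↥W →ₗ[L] L := φ.comp W.subtype with hψ
      have h1 := LinearMap.finrank_range_add_finrank_ker (K := L) (V := ↥W) (V₂ := L) ψ
      have hrange : LinearMap.range ψ = ⊤ := by
        rw [eq_top_iff]
        intro a _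
        refine ⟨a • ⟨s26ergUp V e₀, he₀W⟩, ?_⟩
        rw [map_smul, hψ, LinearMap.comp_apply, Submodule.subtype_apply, hφe₀, smul_eq_mul,
          mul_one]
      have hker : finrank L ↥(LinearMap.ker ψ) = finrank L W' := by
        have : LinearMap.ker ψ = Submodule.comap W.subtype W' := by
          ext y
          rw [LinearMap.mem_ker, Submodule.mem_comap, hW', Submodule.mem_inf, LinearMap.mem_ker]
          constructor
          · intro h
            exact ⟨y.2, h⟩
          · intro h
            exact h.2
        rw [this]
        exact (Submodule.comapSubtypeEquivOfLe hW'le).finrank_eq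
      rw [hrange, finrank_top, finrank_self, hker, hW] at h1
      omega
    obtain ⟨e', he'W, he'li⟩ := ih W' inferInstance hdim
    refine ⟨Fin.cons e₀ e', ?_, ?_⟩
    · intro j
      refine Fin.cases ?_ (fun j' => ?_) j
      · rw [Fin.cons_zero]
        exact he₀W
      · rw [Fin.cons_succ]
        exact hW'le (he'W j')
    · have hcons : (fun j => s26ergDown V res ((Fin.cons e₀ e' : Fin (n + 1) → (I →₀ ↥V)) j)) =
          Fin.cons (s26ergDown V res e₀) (fun j => s26ergDown V res (e' j)) := by
        funext j
        refine Fin.cases ?_ (fun j' => ?_) j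
        · rw [Fin.cons_zero, Fin.cons_zero]
        · rw [Fin.cons_succ, Fin.cons_succ]
      rw [hcons, linearIndependent_finCons]
      refine ⟨he'li, ?_⟩
      intro hmem
      -- every vector of the span has vanishing `i₀`-th coordinate
      have hzero : ∀ y ∈ Submodule.span k (Set.range fun j => s26ergDown V res (e' j)),
          (y : I →₀ k) i₀ = 0 := by
        intro y hy
        induction hy using Submodule.span_induction with
        | mem y hy =>
          obtain ⟨j, rfl⟩ := hy
          rw [s26ergDown_apply]
          have h2 : s26ergUp V (e' j) ∈ LinearMap.ker φ := (he'W j).2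
          rw [LinearMap.mem_ker, hφ, Finsupp.lapply_apply, s26ergUp_apply] at h2
          have h3 : e' j i₀ = 0 := Subtype.ext h2
          rw [h3, map_zero]
        | zero => rfl
        | add y z _ _ hy hz => rw [Finsupp.add_apply, hy, hz, add_zero]
        | smul a y _ hy => rw [Finsupp.smul_apply, hy, smul_zero]
      have h4 := hzero _ hmem
      rw [s26ergDown_apply, he₀1, map_one] at h4
      exact one_ne_zero h4

end Fermat.Agent.S26
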