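/-
S26, wall (E), piece **E-RED**, half A (helper12), part 2: **the Gauss reduction of a constant
curve** as a `DEU.RedData`.

SETTING (abstract, all fields arbitrary):
* `K` a field, `Γ / K` a field (the function field of the curve), `L / K` a field with a valuation
  ring `V ⊇ K` (`[Algebra K ↥V] [IsScalarTower K ↥V L]`), `res : ↥V →ₐ[K] k` onto a field `k`;
* `F` = a fraction field of `L ⊗[K] Γ` (`[Algebra (L ⊗[K] Γ) F] [IsFractionRing (L ⊗[K] Γ) F]`,
  `[IsScalarTower L (L ⊗[K] Γ) F]`), `Fb` = a field containing `k ⊗[K] Γ`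
  (`hFb : Function.Injective (algebraMap (k ⊗[K] Γ) Fb)`, `[IsScalarTower k (k ⊗[K] Γ) Fb]`).

RESULT: `s26ergData K Γ V res hres F Fb hFb : DEU.RedData L F k Fb` with
* `O = {ι a / ι b : a, b ∈ V ⊗[K] Γ, ρ b ≠ 0}` (`ι : V ⊗ Γ → F`, `ρ : V ⊗ Γ → k ⊗ Γ`),
* `red (ι a / ι b) = ρ a / ρ b` (`s26erg_red_eq`, `s26erg_red_iota`).
-/
import Fermat.Agent.DEU.Defs
import Fermat.Agent.S26.ERedPivot

set_option autoImplicit false
set_option linter.unusedSectionVars false

noncomputable section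

namespace Fermat.Agent.S26

open TensorProduct Module

variable (K : Type*) [Field K] {L : Type*} [Field L] [Algebra K L]
  (Γ : Type*) [Field Γ] [Algebra K Γ]
  (V : ValuationSubring L) [Algebra K ↥V] [IsScalarTower K ↥V L]
  {k : Type*} [Field k] [Algebra K k] (res : ↥V →ₐ[K] k)

/-- `V ⊗[K] Γ → L ⊗[K] Γ` -/
def s26ergJ : ↥V ⊗[K] Γ →ₐ[K] L ⊗[K] Γ :=
  Algebra.TensorProduct.map (IsScalarTower.toAlgHom K ↥V L) (AlgHom.id K Γ)

/-- `V ⊗[K] Γ → k ⊗[K] Γ`, the reduction of the coefficients -/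
def s26ergRho : ↥V ⊗[K] Γ →ₐ[K] k ⊗[K] Γ :=
  Algebra.TensorProduct.map res (AlgHom.id K Γ)

@[simp] theorem s26ergJ_tmul (v : ↥V) (γ : Γ) :
    s26ergJ K Γ V (v ⊗ₜ[K] γ) = (v : L) ⊗ₜ[K] γ := rfl

@[simp] theorem s26ergRho_tmul (v : ↥V) (γ : Γ) :
    s26ergRho K Γ V res (v ⊗ₜ[K] γ) = res v ⊗ₜ[K] γ := rfl

section Coord

variable {I : Type*} (b : Basis I K Γ)

/-- coordinates of `J t` -/
theorem s26erg_repr_J (t : ↥V ⊗[K] Γ) :
    (Algebra.TensorProduct.basis L b).repr (s26ergJ K Γ V t) =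
      s26ergUp V ((Algebra.TensorProduct.basis ↥V b).repr t) := by
  induction t using TensorProduct.induction_on with
  | zero =>
    rw [map_zero, map_zero, map_zero]
    rfl
  | tmul v γ =>
    rw [s26ergJ_tmul, Algebra.TensorProduct.basis_repr_tmul,
      Algebra.TensorProduct.basis_repr_tmul]
    ext i
    rw [s26ergUp_apply, Finsupp.smul_apply, Finsupp.smul_apply, Finsupp.mapRange_apply,
      Finsupp.mapRange_apply, smul_eq_mul, smul_eq_mul, IsScalarTower.algebraMap_apply K ↥V L]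
    rfl
  | add x y hx hy =>
    rw [map_add, map_add, map_add, hx, hy]
    ext i
    rfl

/-- coordinates of `ρ t` -/
theorem s26erg_repr_rho (t : ↥V ⊗[K] Γ) :
    (Algebra.TensorProduct.basis k b).repr (s26ergRho K Γ V res t) =
      s26ergDown V (res : ↥V →+* k) ((Algebra.TensorProduct.basis ↥V b).repr t) := by
  induction t using TensorProduct.induction_on with
  | zero =>
    rw [map_zero, map_zero, map_zero]
    ext i
    rw [s26ergDown_apply, Finsupp.zero_apply, Finsupp.zero_apply, map_zero]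
  | tmul v γ =>
    rw [s26ergRho_tmul, Algebra.TensorProduct.basis_repr_tmul,
      Algebra.TensorProduct.basis_repr_tmul]
    ext i
    rw [s26ergDown_apply, Finsupp.smul_apply, Finsupp.smul_apply, Finsupp.mapRange_apply,
      Finsupp.mapRange_apply, smul_eq_mul, smul_eq_mul, map_mul]
    congr 1
    exact (res.commutes _).symm
  | add x y hx hy =>
    rw [map_add, map_add, map_add, hx, hy]
    ext i
    rw [s26ergDown_apply, Finsupp.add_apply, Finsupp.add_apply, s26ergDown_apply,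
      s26ergDown_apply, map_add]

end Coord

/-- `J` is injective -/
theorem s26ergJ_injective : Function.Injective (s26ergJ K Γ V) := by
  rw [injective_iff_map_eq_zero]
  intro t ht
  have b := Basis.ofVectorSpace K Γ
  have h := s26erg_repr_J K Γ V b t
  rw [ht, map_zero] at h
  have h2 : (Algebra.TensorProduct.basis ↥V b).repr t = 0 := by
    ext i
    have := DFunLike.congr_fun h i
    rw [s26ergUp_apply, Finsupp.zero_apply] at this
    rw [Finsupp.zero_apply, ← this]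
    rfl
  exact (LinearEquiv.map_eq_zero_iff _).mp h2

/-- **scaling in `L ⊗ Γ`**: a nonzero element has a multiple in the image of `V ⊗ Γ` with nonzero
reduction. -/
theorem s26erg_scale_tensor (a : L ⊗[K] Γ) (ha : a ≠ 0) :
    ∃ (c : L) (t : ↥V ⊗[K] Γ), c ≠ 0 ∧ s26ergJ K Γ V t = c • a ∧ s26ergRho K Γ V res t ≠ 0 := by
  have b := Basis.ofVectorSpace K Γ
  have hx : (Algebra.TensorProduct.basis L b).repr a ≠ 0 := by
    intro h
    exact ha ((LinearEquiv.map_eq_zero_iff _).mp h)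
  obtain ⟨c, i₀, e, hc, he, he1⟩ := s26erg_exists_scale V _ hx
  refine ⟨c, (Algebra.TensorProduct.basis ↥V b).repr.symm e, hc, ?_, ?_⟩
  · apply (Algebra.TensorProduct.basis L b).repr.injective
    rw [s26erg_repr_J, LinearEquiv.apply_symm_apply, he, map_smul]
  · intro h0
    have h1 := s26erg_repr_rho K Γ V res b ((Algebra.TensorProduct.basis ↥V b).repr.symm e)
    rw [h0, map_zero, LinearEquiv.apply_symm_apply] at h1
    have h2 := DFunLike.congr_fun h1 i₀
    rw [s26ergDown_apply, Finsupp.zero_apply, he1, map_one] at h2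
    exact zero_ne_one h2

variable (F : Type*) [Field F] [Algebra L F] [Algebra (L ⊗[K] Γ) F]
  [IsScalarTower L (L ⊗[K] Γ) F] [IsFractionRing (L ⊗[K] Γ) F]
  (Fb : Type*) [Field Fb] [Algebra k Fb] [Algebra (k ⊗[K] Γ) Fb]
  [IsScalarTower k (k ⊗[K] Γ) Fb]

/-- `ι : V ⊗[K] Γ → F` -/
def s26ergIota : ↥V ⊗[K] Γ →+* F :=
  (algebraMap (L ⊗[K] Γ) F).comp (s26ergJ K Γ V).toRingHom

/-- `ρ̄ : V ⊗[K] Γ → Fb` -/
def s26ergBar : ↥V ⊗[K] Γ →+* Fb :=
  (algebraMap (k ⊗[K] Γ) Fb).comp (s26ergRho K Γ V res).toRingHom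

theorem s26ergIota_injective : Function.Injective (s26ergIota K Γ V F) :=
  (IsFractionRing.injective (L ⊗[K] Γ) F).comp (s26ergJ_injective K Γ V)

theorem s26ergIota_ne_zero {t : ↥V ⊗[K] Γ} (ht : t ≠ 0) : s26ergIota K Γ V F t ≠ 0 :=
  (map_ne_zero_iff _ (s26ergIota_injective K Γ V F)).mpr ht

variable {Fb} in
theorem s26ergBar_eq_zero_iff (hFb : Function.Injective (algebraMap (k ⊗[K] Γ) Fb))
    (t : ↥V ⊗[K] Γ) : s26ergBar K Γ V res Fb t = 0 ↔ s26ergRho K Γ V res t = 0 :=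
  map_eq_zero_iff _ hFb

/-- the integral elements of the Gauss valuation: `O = {ι a / ι b : ρ̄ b ≠ 0}` -/
def s26ergO : Subring F where
  carrier := {f | ∃ a b : ↥V ⊗[K] Γ, s26ergBar K Γ V res Fb b ≠ 0 ∧
    f * s26ergIota K Γ V F b = s26ergIota K Γ V F a}
  mul_mem' := by
    rintro f g ⟨a, b, hb, hf⟩ ⟨a', b', hb', hg⟩
    refine ⟨a * a', b * b', ?_, ?_⟩
    · rw [map_mul]
      exact mul_ne_zero hb hb'
    · rw [map_mul, map_mul, ← hf, ← hg]
      ring
  one_mem' := ⟨1, 1, by rw [map_one]; exact one_ne_zero, by rw [map_one, mul_one]⟩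
  add_mem' := by
    rintro f g ⟨a, b, hb, hf⟩ ⟨a', b', hb', hg⟩
    refine ⟨a * b' + a' * b, b * b', ?_, ?_⟩
    · rw [map_mul]
      exact mul_ne_zero hb hb'
    · rw [map_mul, map_add, map_mul, map_mul, ← hf, ← hg]
      ring
  zero_mem' := ⟨0, 1, by rw [map_one]; exact one_ne_zero, by rw [map_zero, zero_mul]⟩
  neg_mem' := by
    rintro f ⟨a, b, hb, hf⟩
    exact ⟨-a, b, hb, by rw [map_neg, ← hf, neg_mul]⟩

variable {K Γ V res F Fb}

theorem s26erg_mem_O {f : F} :
    f ∈ s26ergO K Γ V res F Fb ↔ ∃ a b : ↥V ⊗[K] Γ, s26ergBar K Γ V res Fb b ≠ 0 ∧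
      f * s26ergIota K Γ V F b = s26ergIota K Γ V F a := Iff.rfl

theorem s26ergIota_mem_O (t : ↥V ⊗[K] Γ) : s26ergIota K Γ V F t ∈ s26ergO K Γ V res F Fb :=
  ⟨t, 1, by rw [map_one]; exact one_ne_zero, by rw [map_one, mul_one]⟩

/-- the numerator of an integral element -/
def s26ergNum (f : s26ergO K Γ V res F Fb) : ↥V ⊗[K] Γ := f.2.choose

/-- the denominator of an integral element -/
def s26ergDen (f : s26ergO K Γ V res F Fb) : ↥V ⊗[K] Γ := f.2.choose_spec.choose

theorem s26ergDen_ne_zero (f : s26ergO K Γ V res F Fb) :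
    s26ergBar K Γ V res Fb (s26ergDen f) ≠ 0 := f.2.choose_spec.choose_spec.1

theorem s26erg_num_den (f : s26ergO K Γ V res F Fb) :
    (f : F) * s26ergIota K Γ V F (s26ergDen f) = s26ergIota K Γ V F (s26ergNum f) :=
  f.2.choose_spec.choose_spec.2

/-- the reduction, as a function -/
def s26ergRedFun (f : s26ergO K Γ V res F Fb) : Fb :=
  s26ergBar K Γ V res Fb (s26ergNum f) / s26ergBar K Γ V res Fb (s26ergDen f)

/-- the reduction does not depend on the representation -/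
theorem s26ergRedFun_eq (f : s26ergO K Γ V res F Fb) (a b : ↥V ⊗[K] Γ)
    (hb : s26ergBar K Γ V res Fb b ≠ 0)
    (h : (f : F) * s26ergIota K Γ V F b = s26ergIota K Γ V F a) :
    s26ergRedFun f = s26ergBar K Γ V res Fb a / s26ergBar K Γ V res Fb b := by
  rw [s26ergRedFun, div_eq_div_iff (s26ergDen_ne_zero f) hb, ← map_mul, ← map_mul]
  congr 1
  apply s26ergIota_injective K Γ V F
  rw [map_mul, map_mul, ← h, ← s26erg_num_den f]
  ring

variable (K Γ V res F Fb)

/-- the reduction `O → Fb` -/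
def s26ergRed : s26ergO K Γ V res F Fb →+* Fb where
  toFun := s26ergRedFun
  map_one' := by
    rw [s26ergRedFun_eq 1 1 1 (by rw [map_one]; exact one_ne_zero)
      (by rw [map_one, mul_one]; rfl), map_one, div_one]
  map_mul' f g := by
    rw [s26ergRedFun_eq (f * g) (s26ergNum f * s26ergNum g) (s26ergDen f * s26ergDen g)
      (by rw [map_mul]; exact mul_ne_zero (s26ergDen_ne_zero f) (s26ergDen_ne_zero g))
      (by rw [map_mul, map_mul, ← s26erg_num_den f, ← s26erg_num_den g, Subring.coe_mul]; ring),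
      map_mul, map_mul, s26ergRedFun, s26ergRedFun, div_mul_div_comm]
  map_zero' := by
    rw [s26ergRedFun_eq 0 0 1 (by rw [map_one]; exact one_ne_zero)
      (by rw [map_zero, Subring.coe_zero, zero_mul]), map_zero, zero_div]
  map_add' f g := by
    rw [s26ergRedFun_eq (f + g) (s26ergNum f * s26ergDen g + s26ergNum g * s26ergDen f)
      (s26ergDen f * s26ergDen g)
      (by rw [map_mul]; exact mul_ne_zero (s26ergDen_ne_zero f) (s26ergDen_ne_zero g))
      (by rw [map_mul, map_add, map_mul, map_mul, ← s26erg_num_den f, ← s26erg_num_den g,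
        Subring.coe_add]; ring),
      map_add, map_mul, map_mul, map_mul, s26ergRedFun, s26ergRedFun,
      div_add_div _ _ (s26ergDen_ne_zero f) (s26ergDen_ne_zero g)]
    congr 1
    ring

variable {K Γ V res F Fb}

/-- **the reduction of a fraction** -/
theorem s26erg_red_eq (f : s26ergO K Γ V res F Fb) (a b : ↥V ⊗[K] Γ)
    (hb : s26ergBar K Γ V res Fb b ≠ 0)
    (h : (f : F) * s26ergIota K Γ V F b = s26ergIota K Γ V F a) :
    s26ergRed K Γ V res F Fb f = s26ergBar K Γ V res Fb a / s26ergBar K Γ V res Fb b :=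
  s26ergRedFun_eq f a b hb h

/-- the reduction of an element of `V ⊗ Γ` -/
theorem s26erg_red_iota (t : ↥V ⊗[K] Γ) :
    s26ergRed K Γ V res F Fb ⟨s26ergIota K Γ V F t, s26ergIota_mem_O t⟩ =
      s26ergBar K Γ V res Fb t := by
  rw [s26erg_red_eq _ t 1 (by rw [map_one]; exact one_ne_zero) (by rw [map_one, mul_one]),
    map_one, div_one]

/-- an element of `O` with nonzero reduction is a unit of `O` -/
theorem s26erg_inv_mem (f : s26ergO K Γ V res F Fb) (hf : s26ergRed K Γ V res F Fb f ≠ 0) :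
    ((f : F))⁻¹ ∈ s26ergO K Γ V res F Fb := by
  have h1 := s26erg_num_den f
  have hnum : s26ergBar K Γ V res Fb (s26ergNum f) ≠ 0 := by
    intro h0
    apply hf
    show s26ergRedFun f = 0
    rw [s26ergRedFun, h0, zero_div]
  have hden : s26ergIota K Γ V F (s26ergDen f) ≠ 0 := by
    apply s26ergIota_ne_zero
    intro h0
    apply s26ergDen_ne_zero f
    rw [h0, map_zero]
  have hnum' : s26ergIota K Γ V F (s26ergNum f) ≠ 0 := by
    apply s26ergIota_ne_zero
    intro h0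
    apply hnum
    rw [h0, map_zero]
  have hf0 : (f : F) ≠ 0 := by
    intro h0
    rw [h0, zero_mul] at h1
    exact hnum' h1.symm
  refine ⟨s26ergDen f, s26ergNum f, hnum, ?_⟩
  rw [← h1]
  field_simp

/-! ### constants -/

theorem s26ergIota_const (a : ↥V) :
    s26ergIota K Γ V F (a ⊗ₜ[K] (1 : Γ)) = algebraMap L F (a : L) := by
  rw [IsScalarTower.algebraMap_apply L (L ⊗[K] Γ) F, Algebra.TensorProduct.algebraMap_apply]
  rfl

theorem s26ergBar_const (a : ↥V) :
    s26ergBar K Γ V res Fb (a ⊗ₜ[K] (1 : Γ)) = algebraMap k Fb (res a) := by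
  rw [IsScalarTower.algebraMap_apply k (k ⊗[K] Γ) Fb, Algebra.TensorProduct.algebraMap_apply]
  rfl

/-- a function of `Γ`, as an element of `F` -/
theorem s26ergIota_fun (γ : Γ) :
    s26ergIota K Γ V F ((1 : ↥V) ⊗ₜ[K] γ) = algebraMap (L ⊗[K] Γ) F ((1 : L) ⊗ₜ[K] γ) := rfl

theorem s26ergBar_fun (γ : Γ) :
    s26ergBar K Γ V res Fb ((1 : ↥V) ⊗ₜ[K] γ) =
      algebraMap (k ⊗[K] Γ) Fb ((1 : k) ⊗ₜ[K] γ) := by
  show algebraMap (k ⊗[K] Γ) Fb (res 1 ⊗ₜ[K] γ) = _
  rw [map_one]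

theorem s26erg_algebraMap_mem (a : ↥V) : algebraMap L F (a : L) ∈ s26ergO K Γ V res F Fb := by
  rw [← s26ergIota_const (K := K) (Γ := Γ)]
  exact s26ergIota_mem_O _

theorem s26erg_red_algebraMap (a : ↥V) :
    s26ergRed K Γ V res F Fb ⟨algebraMap L F (a : L), s26erg_algebraMap_mem a⟩ =
      algebraMap k Fb (res a) := by
  rw [s26erg_red_eq _ (a ⊗ₜ[K] (1 : Γ)) 1 (by rw [map_one]; exact one_ne_zero)
    (by rw [map_one, mul_one, s26ergIota_const]), map_one, div_one, s26ergBar_const]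

/-- `ι t` for `J t = c • a` -/
theorem s26ergIota_of_J {t : ↥V ⊗[K] Γ} {c : L} {a : L ⊗[K] Γ}
    (h : s26ergJ K Γ V t = c • a) :
    s26ergIota K Γ V F t = algebraMap L F c * algebraMap (L ⊗[K] Γ) F a := by
  show algebraMap (L ⊗[K] Γ) F (s26ergJ K Γ V t) = _
  rw [h, Algebra.smul_def, map_mul, ← IsScalarTower.algebraMap_apply L (L ⊗[K] Γ) F]

/-- **scaling**: every nonzero `f ∈ F` has a constant multiple in `O` with nonzero reduction. -/
theorem s26erg_exists_scale_F (hFb : Function.Injective (algebraMap (k ⊗[K] Γ) Fb))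
    (f : F) (hf : f ≠ 0) :
    ∃ c : L, c ≠ 0 ∧ ∃ h : algebraMap L F c * f ∈ s26ergO K Γ V res F Fb,
      s26ergRed K Γ V res F Fb ⟨algebraMap L F c * f, h⟩ ≠ 0 := by
  obtain ⟨a, d, hd, rfl⟩ := IsFractionRing.div_surjective (A := L ⊗[K] Γ) f
  have hd0 : d ≠ 0 := nonZeroDivisors.ne_zero hd
  have ha0 : a ≠ 0 := by
    rintro rfl
    apply hf
    rw [map_zero, zero_div]
  have hdF : algebraMap (L ⊗[K] Γ) F d ≠ 0 :=
    (map_ne_zero_iff _ (IsFractionRing.injective (L ⊗[K] Γ) F)).mpr hd0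
  obtain ⟨c₁, t₁, hc₁, ht₁, hρ₁⟩ := s26erg_scale_tensor K Γ V res a ha0
  obtain ⟨c₂, t₂, hc₂, ht₂, hρ₂⟩ := s26erg_scale_tensor K Γ V res d hd0
  have hb₁ : s26ergBar K Γ V res Fb t₁ ≠ 0 := fun h =>
    hρ₁ ((s26ergBar_eq_zero_iff K Γ V res hFb t₁).mp h)
  have hb₂ : s26ergBar K Γ V res Fb t₂ ≠ 0 := fun h =>
    hρ₂ ((s26ergBar_eq_zero_iff K Γ V res hFb t₂).mp h)
  have hc₂F : algebraMap L F c₂ ≠ 0 := (map_ne_zero _).mpr hc₂
  have key : algebraMap L F (c₁ / c₂) *
      (algebraMap (L ⊗[K] Γ) F a / algebraMap (L ⊗[K] Γ) F d) * s26ergIota K Γ V F t₂ =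
        s26ergIota K Γ V F t₁ := by
    rw [s26ergIota_of_J ht₁, s26ergIota_of_J ht₂, map_div₀]
    field_simp
  have hmem : algebraMap L F (c₁ / c₂) *
      (algebraMap (L ⊗[K] Γ) F a / algebraMap (L ⊗[K] Γ) F d) ∈ s26ergO K Γ V res F Fb :=
    ⟨t₁, t₂, hb₂, key⟩
  refine ⟨c₁ / c₂, div_ne_zero hc₁ hc₂, hmem, ?_⟩
  rw [s26erg_red_eq _ t₁ t₂ hb₂ key]
  exact div_ne_zero hb₁ hb₂

variable (K Γ V res F Fb)

/-- **The Gauss reduction of the constant curve `Γ` along `V ⊂ L`, as a `DEU.RedData`.** -/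
def s26ergData (hres : Function.Surjective res)
    (hFb : Function.Injective (algebraMap (k ⊗[K] Γ) Fb)) : DEU.RedData L F k Fb where
  A := V
  res := (res : ↥V →+* k)
  res_surjective := hres
  O := s26ergO K Γ V res F Fb
  red := s26ergRed K Γ V res F Fb
  algebraMap_mem := s26erg_algebraMap_mem
  red_algebraMap := s26erg_red_algebraMap
  inv_mem := s26erg_inv_mem
  exists_scale := s26erg_exists_scale_F hFb

end Fermat.Agent.S26
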