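/-
S26, wall (E), piece **E-RED**, half A (helper12), part 3: **(Q2) and the valuation-ring property**
of the Gauss reduction `s26ergData` of a constant curve.

* `s26erg_q2` : `finrank L W ≤ finrank k (redSpace W)` for every finite-dimensional `L`-subspace
  `W ⊆ F` — the hypothesis `q2` of `DEU.Hyp` (orthonormal bases by pivoting);
* `s26erg_mem_or_inv_mem` : `O` is a valuation ring of `F`;
* `s26erg_mem_O_of_const_mul`, … : small facts for the users.
-/
import Fermat.Agent.S26.ERedGauss
import Fermat.Agent.DEU.RedSpace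

set_option autoImplicit false
set_option linter.unusedSectionVars false

noncomputable section

namespace Fermat.Agent.S26

open TensorProduct Module

variable {K : Type*} [Field K] {L : Type*} [Field L] [Algebra K L]
  {Γ : Type*} [Field Γ] [Algebra K Γ]
  {V : ValuationSubring L} [Algebra K ↥V] [IsScalarTower K ↥V L]
  {k : Type*} [Field k] [Algebra K k] {res : ↥V →ₐ[K] k}
  {F : Type*} [Field F] [Algebra L F] [Algebra (L ⊗[K] Γ) F]
  [IsScalarTower L (L ⊗[K] Γ) F] [IsFractionRing (L ⊗[K] Γ) F]
  {Fb : Type*} [Field Fb] [Algebra k Fb] [Algebra (k ⊗[K] Γ) Fb]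
  [IsScalarTower k (k ⊗[K] Γ) Fb]

/-- **`O` is a valuation ring of `F`.** -/
theorem s26erg_mem_or_inv_mem (hFb : Function.Injective (algebraMap (k ⊗[K] Γ) Fb)) (f : F) :
    f ∈ s26ergO K Γ V res F Fb ∨ f⁻¹ ∈ s26ergO K Γ V res F Fb := by
  rcases eq_or_ne f 0 with rfl | hf
  · exact Or.inl (Subring.zero_mem _)
  obtain ⟨c, hc, hmem, hred⟩ := s26erg_exists_scale_F (K := K) (Γ := Γ) (V := V) (res := res)
    (Fb := Fb) hFb f hf
  have hcF : algebraMap L F c ≠ 0 := (map_ne_zero _).mpr hc
  rcases V.mem_or_inv_mem c with h | h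
  · -- `f⁻¹ = c * (c f)⁻¹`
    right
    have h1 : (algebraMap L F c * f)⁻¹ ∈ s26ergO K Γ V res F Fb :=
      s26erg_inv_mem ⟨_, hmem⟩ hred
    have h2 : algebraMap L F c ∈ s26ergO K Γ V res F Fb :=
      s26erg_algebraMap_mem (K := K) (Γ := Γ) (res := res) (Fb := Fb) ⟨c, h⟩
    have h3 : f⁻¹ = algebraMap L F c * (algebraMap L F c * f)⁻¹ := by
      field_simp
    rw [h3]
    exact Subring.mul_mem _ h2 h1
  · left
    have h2 : algebraMap L F c⁻¹ ∈ s26ergO K Γ V res F Fb :=
      s26erg_algebraMap_mem (K := K) (Γ := Γ) (res := res) (Fb := Fb) ⟨c⁻¹, h⟩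
    have h3 : f = algebraMap L F c⁻¹ * (algebraMap L F c * f) := by
      rw [map_inv₀]
      field_simp
    rw [h3]
    exact Subring.mul_mem _ h2 hmem

/-- `ρ̄ t ≠ 0` for a `t` one of whose coordinates is a unit with nonzero reduction -/
theorem s26ergBar_injective_of (hFb : Function.Injective (algebraMap (k ⊗[K] Γ) Fb))
    {t : ↥V ⊗[K] Γ} (h : s26ergRho K Γ V res t ≠ 0) : s26ergBar K Γ V res Fb t ≠ 0 :=
  fun h0 => h ((s26ergBar_eq_zero_iff K Γ V res hFb t).mp h0)

/-- **(Q2)** for the Gauss reduction: the reduction of a finite-dimensional subspace has at least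
the same dimension. -/
theorem s26erg_q2 (hres : Function.Surjective res)
    (hFb : Function.Injective (algebraMap (k ⊗[K] Γ) Fb))
    (W : Submodule L F) (hW : Module.Finite L W) :
    finrank L W ≤ finrank k ↥((s26ergData K Γ V res F Fb hres hFb).redSpace W) := by
  classical
  set R := s26ergData K Γ V res F Fb hres hFb with hR
  set n := finrank L W with hn
  let bI : Basis (Basis.ofVectorSpaceIndex K Γ) K Γ := Basis.ofVectorSpace K Γ
  set bL := Algebra.TensorProduct.basis L bI with hbL
  set bV := Algebra.TensorProduct.basis ↥V bI with hbV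
  set bk := Algebra.TensorProduct.basis k bI with hbk
  -- a basis of `W` and a common denominator
  have w : Basis (Fin n) L W := Module.finBasis L W
  obtain ⟨d, hd⟩ := IsLocalization.exist_integer_multiples_of_finite
    (nonZeroDivisors (L ⊗[K] Γ)) (fun j => ((w j : W) : F))
  choose a ha using hd
  have hd0 : (d : L ⊗[K] Γ) ≠ 0 := nonZeroDivisors.ne_zero d.2
  obtain ⟨c, td, hc, htd, hρd⟩ := s26erg_scale_tensor K Γ V res (d : L ⊗[K] Γ) hd0
  have hbd : s26ergBar K Γ V res Fb td ≠ 0 := s26ergBar_injective_of hFb hρd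
  set D : F := s26ergIota K Γ V F td with hD
  have hD0 : D ≠ 0 := by
    apply s26ergIota_ne_zero
    intro h0
    apply hρd
    rw [h0, map_zero]
  have hDeq : D = algebraMap L F c * algebraMap (L ⊗[K] Γ) F (d : L ⊗[K] Γ) :=
    s26ergIota_of_J htd
  -- `D * w j = algebraMap (c • a j)`
  have hDw : ∀ j, D * ((w j : W) : F) = algebraMap (L ⊗[K] Γ) F (c • a j) := by
    intro j
    have h1 := ha j
    rw [Algebra.smul_def] at h1
    rw [hDeq, mul_assoc, ← h1, Algebra.smul_def, map_mul,
      ← IsScalarTower.algebraMap_apply L (L ⊗[K] Γ) F]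
  -- the coordinate vectors
  set u : Fin n → (Basis.ofVectorSpaceIndex K Γ →₀ L) := fun j => bL.repr (c • a j) with hu
  have huLI : LinearIndependent L u := by
    rw [Fintype.linearIndependent_iff]
    intro l hl
    have h1 : bL.repr (∑ j, l j • (c • a j)) = 0 := by
      rw [map_sum, ← hl]
      exact Finset.sum_congr rfl fun j _ => bL.repr.map_smul (l j) (c • a j)
    have h2 : ∑ j, l j • (c • a j) = 0 := (LinearEquiv.map_eq_zero_iff _).mp h1
    have h3 : D * ∑ j, l j • ((w j : W) : F) = 0 := by
      rw [Finset.mul_sum]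
      have : ∀ j, D * l j • ((w j : W) : F) = algebraMap (L ⊗[K] Γ) F (l j • (c • a j)) := by
        intro j
        rw [mul_smul_comm, hDw, Algebra.smul_def, Algebra.smul_def (l j) (c • a j), map_mul,
          ← IsScalarTower.algebraMap_apply L (L ⊗[K] Γ) F]
      simp_rw [this]
      rw [← map_sum, h2, map_zero]
    have h4 : ∑ j, l j • ((w j : W) : F) = 0 := by
      rcases mul_eq_zero.mp h3 with h | h
      · exact absurd h hD0
      · exact h
    have h5 : ∑ j, l j • w j = 0 := by
      apply Subtype.ext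
      rw [Submodule.coe_sum, Submodule.coe_zero]
      simp_rw [Submodule.coe_smul]
      exact h4
    exact Fintype.linearIndependent_iff.mp w.linearIndependent l h5
  set Wc : Submodule L (Basis.ofVectorSpaceIndex K Γ →₀ L) := Submodule.span L (Set.range u) with hWc
  have hWcfin : Module.Finite L Wc := FiniteDimensional.span_of_finite L (Set.finite_range u)
  have hWcdim : finrank L Wc = n := by
    rw [hWc, finrank_span_eq_card huLI, Fintype.card_fin]
  obtain ⟨e, heW, heli⟩ := s26erg_pivot V (res : ↥V →+* k) n Wc hWcfin hWcdim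
  -- back to `F`
  set t : Fin n → ↥V ⊗[K] Γ := fun j => bV.repr.symm (e j) with ht
  have htJ : ∀ j, bL.repr (s26ergJ K Γ V (t j)) = s26ergUp V (e j) := by
    intro j
    rw [s26erg_repr_J, ht, LinearEquiv.apply_symm_apply]
  have htρ : ∀ j, bk.repr (s26ergRho K Γ V res (t j)) = s26ergDown V (res : ↥V →+* k) (e j) := by
    intro j
    rw [s26erg_repr_rho, ht, LinearEquiv.apply_symm_apply]
  -- `ι (t j) ∈ D • W`
  have hmemW : ∀ j, s26ergIota K Γ V F (t j) / D ∈ W := by
    intro j
    have h1 : bL.repr (s26ergJ K Γ V (t j)) ∈ Wc := by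
      rw [htJ]
      exact heW j
    -- every element of `Wc` is the coordinate vector of an element `x` with `algebraMap x ∈ D • W`
    have h2 : ∀ y ∈ Wc, algebraMap (L ⊗[K] Γ) F (bL.repr.symm y) / D ∈ W := by
      intro y hy
      induction hy using Submodule.span_induction with
      | mem y hy =>
        obtain ⟨j', rfl⟩ := hy
        rw [hu, LinearEquiv.symm_apply_apply, ← hDw, mul_div_cancel_left₀ _ hD0]
        exact (w j').2
      | zero =>
        rw [map_zero, map_zero, zero_div]
        exact W.zero_mem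
      | add y z _ _ hy hz =>
        rw [map_add, map_add, add_div]
        exact W.add_mem hy hz
      | smul l y _ hy =>
        rw [map_smul, Algebra.smul_def, map_mul, mul_div_assoc,
          ← IsScalarTower.algebraMap_apply L (L ⊗[K] Γ) F, ← Algebra.smul_def]
        exact W.smul_mem l hy
    have h3 := h2 _ h1
    rw [LinearEquiv.symm_apply_apply] at h3
    exact h3
  have hmemO : ∀ j, s26ergIota K Γ V F (t j) / D ∈ s26ergO K Γ V res F Fb := by
    intro j
    exact ⟨t j, td, hbd, by rw [← hD, div_mul_cancel₀ _ hD0]⟩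
  have hredj : ∀ j, R.red ⟨s26ergIota K Γ V F (t j) / D, hmemO j⟩ =
      s26ergBar K Γ V res Fb (t j) / s26ergBar K Γ V res Fb td := by
    intro j
    exact s26erg_red_eq _ (t j) td hbd (by rw [← hD]; exact div_mul_cancel₀ _ hD0)
  -- the reductions are linearly independent
  have hli : LinearIndependent k (fun j : Fin n =>
      (⟨R.red ⟨s26ergIota K Γ V F (t j) / D, hmemO j⟩,
        R.red_mem_redSpace _ (hmemW j)⟩ : ↥(R.redSpace W))) := by
    rw [Fintype.linearIndependent_iff]
    intro l hl
    have h1 : ∑ j, l j • (s26ergBar K Γ V res Fb (t j) / s26ergBar K Γ V res Fb td) = 0 := by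
      have := congrArg (Submodule.subtype _) hl
      rw [map_sum, map_zero] at this
      simp_rw [map_smul, Submodule.subtype_apply, hredj] at this
      exact this
    have h2 : ∑ j, l j • s26ergBar K Γ V res Fb (t j) = 0 := by
      have : (∑ j, l j • s26ergBar K Γ V res Fb (t j)) / s26ergBar K Γ V res Fb td = 0 := by
        rw [Finset.sum_div, ← h1]
        refine Finset.sum_congr rfl fun j _ => ?_
        rw [smul_div_assoc]
      rcases div_eq_zero_iff.mp this with h | h
      · exact h
      · exact absurd h hbd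
    have h3 : algebraMap (k ⊗[K] Γ) Fb (∑ j, l j • s26ergRho K Γ V res (t j)) = 0 := by
      rw [map_sum, ← h2]
      refine Finset.sum_congr rfl fun j _ => ?_
      rw [Algebra.smul_def, map_mul, ← IsScalarTower.algebraMap_apply k (k ⊗[K] Γ) Fb,
        Algebra.smul_def]
      rfl
    have h4 : ∑ j, l j • s26ergRho K Γ V res (t j) = 0 := (map_eq_zero_iff _ hFb).mp h3
    have h5 : ∑ j, l j • s26ergDown V (res : ↥V →+* k) (e j) = 0 := by
      have := congrArg bk.repr h4
      rw [map_sum, map_zero] at this
      simp_rw [map_smul, htρ] at this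
      exact this
    exact Fintype.linearIndependent_iff.mp heli l h5
  have := hli.fintype_card_le_finrank
  rwa [Fintype.card_fin] at this

end Fermat.Agent.S26
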