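/-
S26-E, piece E-RIG, step 3 (helper97): steps 2–3 of (c) (NOTES/S26-E-RIG-plan.md) on the shapes
of E-RED (DEU `RedData`, a reduction map `r` of places with `r_* div u = div (red u)`), E-SPEC
(`r_* Δ` principal) and E-RR (`L_k(Con_k E₀) = k`).

ONE valuation subring `V = R.A` of `L`.  `D = div f + Δ + Con E₀ ≥ 0`.  Then
* `s26erig_B_mult` : `r_* D = Con_k E₀`;
* `s26erig_B_HV`   : (H_V) = `S26erigHV E₀.support P R.A` at every place `P` of the support of `D`.
-/
import Fermat.Agent.DEU.Main3
import Fermat.Agent.S26.ERigA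

set_option autoImplicit false
set_option linter.unusedSectionVars false

namespace Fermat.Agent.S26

open AlgebraicCurve IsLocalRing Fermat.Agent.S24 Fermat.Agent.DEU

section Fs

variable {α β : Type*}

theorem s26erig_mapDomain_apply [DecidableEq β] (r : α → β) (D : α →₀ ℤ) (b : β) :
    Finsupp.mapDomain r D b = ∑ a ∈ D.support, if r a = b then D a else 0 := by
  rw [Finsupp.mapDomain, Finsupp.sum, Finsupp.finsetSum_apply]
  refine Finset.sum_congr rfl (fun a _ => ?_)
  rw [Finsupp.single_apply]

theorem s26erig_mapDomain_nonneg (r : α → β) (D : α →₀ ℤ) (hD : ∀ a, 0 ≤ D a) (b : β) :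
    0 ≤ Finsupp.mapDomain r D b := by
  classical
  rw [s26erig_mapDomain_apply]
  refine Finset.sum_nonneg (fun a _ => ?_)
  split_ifs
  · exact hD a
  · exact le_refl _

theorem s26erig_mapDomain_pos (r : α → β) (D : α →₀ ℤ) (a₀ : α)
    (hD : ∀ a, r a = r a₀ → 0 ≤ D a) (h₀ : 0 < D a₀) : 0 < Finsupp.mapDomain r D (r a₀) := by
  classical
  rw [s26erig_mapDomain_apply]
  have hmem : a₀ ∈ D.support := Finsupp.mem_support_iff.2 (ne_of_gt h₀)
  have hle : (if r a₀ = r a₀ then D a₀ else 0) ≤
      ∑ a ∈ D.support, if r a = r a₀ then D a else 0 := by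
    refine Finset.single_le_sum (f := fun a => if r a = r a₀ then D a else 0)
      (fun a _ => ?_) hmem
    show 0 ≤ if r a = r a₀ then D a else 0
    split_ifs with h
    · exact hD a h
    · exact le_refl _
  rw [if_pos rfl] at hle
  exact lt_of_lt_of_le h₀ hle

theorem s26erig_exists_of_mapDomain_ne_zero (r : α → β) (D : α →₀ ℤ) (b : β)
    (h : Finsupp.mapDomain r D b ≠ 0) : ∃ a ∈ D.support, r a = b := by
  classical
  rw [s26erig_mapDomain_apply] at h
  obtain ⟨a, ha, hne⟩ := Finset.exists_ne_zero_of_sum_ne_zero h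
  refine ⟨a, ha, ?_⟩
  by_contra hr
  exact hne (if_neg hr)

end Fs

variable {K Γ L F k Fb : Type*} [Field K] [Field Γ] [Field L] [Field F] [Field k] [Field Fb]
  [Algebra K Γ] [Algebra K L] [Algebra Γ F] [Algebra L F] [Algebra K F]
  [IsScalarTower K Γ F] [IsScalarTower K L F] [Algebra k Fb]

/-- the kernel of the residue map of a `RedData` is the maximal ideal of its valuation ring. -/
theorem s26erig_res_eq_zero_iff (R : RedData L F k Fb) (a : R.A) :
    R.res a = 0 ↔ (a : L) ∈ R.A.nonunits := by
  rw [ValuationSubring.coe_mem_nonunits_iff]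
  have hmax : (RingHom.ker R.res).IsMaximal := RingHom.ker_isMaximal_of_surjective _ R.res_surjective
  have hker : RingHom.ker R.res = maximalIdeal R.A := IsLocalRing.eq_maximalIdeal hmax
  rw [← hker, RingHom.mem_ker]

/-- **The reduction package at ONE valuation subring `V = R.A` of `L`** (shapes of E-RED/RR-C). -/
structure S26erigRed (R : RedData L F k Fb) (r : Place L F → Place k Fb)
    (con : Place K Γ → Place L F) (conk : Place K Γ → Place k Fb) (ιk : Γ →+* Fb) : Prop where
  /-- principal divisors exist on `F/L` -/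
  hpdF : HasPrincipalDivisors L F
  /-- `r_* div u = div (red u)` (DEU `Hyp.mapDomain_r_principal`) -/
  r_principal : ∀ u : R.O, R.red u ≠ 0 → ∀ D : Divisor L F,
    (∀ P : Place L F, D P = P.ord (u : F)) →
      ∀ Q : Place k Fb, Finsupp.mapDomain r D Q = Q.ord (R.red u)
  /-- constant functions are Gauss-integral … -/
  mem_O : ∀ u : Γ, algebraMap Γ F u ∈ R.O
  /-- … and reduce to themselves -/
  red_Γ : ∀ u : Γ, R.red ⟨algebraMap Γ F u, mem_O u⟩ = ιk u
  /-- constant places reduce to constant places -/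
  r_con : ∀ Q, r (con Q) = conk Q
  conk_inj : Function.Injective conk
  /-- the poles of a constant function are constant places (RR-C (C2), (C4)) -/
  ord_con : ∀ (u : Γ) (P : Place L F), P.ord (algebraMap Γ F u) < 0 →
    ∃ Q : Place K Γ, P = con Q ∧ Q.ord u < 0
  /-- zeros at `Q` stay zeros at `Con_k Q` (RR-C (C2) over `k`) -/
  ord_conk : ∀ (Q : Place K Γ) (u : Γ), 0 < Q.ord u → 0 < (conk Q).ord (ιk u)
  /-- `Γ ∩ k = K` in `Fb` -/
  ιk_const : ∀ (u : Γ) (b : k), ιk u = algebraMap k Fb b → ∃ a : K, u = algebraMap K Γ a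

namespace S26erigRed

variable {R : RedData L F k Fb} {r : Place L F → Place k Fb}
  {con : Place K Γ → Place L F} {conk : Place K Γ → Place k Fb} {ιk : Γ →+* Fb}

/-- **Step 2.**  `r_* D = Con_k E₀` for `D = div f + Δ + Con E₀ ≥ 0`, when `r_* Δ` is principal
and `L_k(Con_k E₀)` consists of constants. -/
theorem mult (h : S26erigRed R r con conk ιk) (E₀ : Divisor K Γ) (Δ D : Divisor L F)
    (f : F) (hf : f ≠ 0)
    (hD : ∀ P : Place L F, D P = P.ord f + Δ P + Finsupp.mapDomain con E₀ P)
    (hD0 : ∀ P, 0 ≤ D P)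
    (hspec : ∃ φ : Fb, φ ≠ 0 ∧ ∀ Q : Place k Fb, Finsupp.mapDomain r Δ Q = Q.ord φ)
    (hE₀k : ∀ w ∈ riemannRochSpace (Finsupp.mapDomain conk E₀), ∃ b : k, w = algebraMap k Fb b) :
    Finsupp.mapDomain r D = Finsupp.mapDomain conk E₀ := by
  classical
  have := h.hpdF
  obtain ⟨φ, hφ, hΔ⟩ := hspec
  obtain ⟨c, hc0, hcO, hred⟩ := R.exists_scale f hf
  obtain ⟨divf, hdivf, -⟩ := HasPrincipalDivisors.exists_divisor (K := L) f hf
  have hcf : ∀ P : Place L F, divf P = P.ord (algebraMap L F c * f) := by
    intro P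
    have hc1 : algebraMap L F c ≠ 0 := by simpa using hc0
    rw [hdivf, P.ord_mul hc1 hf, PlaceAux.ord_algebraMap, zero_add]
  have h1 := h.r_principal ⟨algebraMap L F c * f, hcO⟩ hred divf hcf
  have hDsum : D = divf + Δ + Finsupp.mapDomain con E₀ := by
    ext P
    rw [Finsupp.add_apply, Finsupp.add_apply, hD, hdivf]
  have hcomp : r ∘ con = conk := funext h.r_con
  have hmap : Finsupp.mapDomain r D =
      Finsupp.mapDomain r divf + Finsupp.mapDomain r Δ + Finsupp.mapDomain conk E₀ := by
    rw [hDsum, Finsupp.mapDomain_add, Finsupp.mapDomain_add, ← Finsupp.mapDomain_comp, hcomp]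
  set ū : Fb := R.red ⟨algebraMap L F c * f, hcO⟩ with hū
  have hprod : ū * φ ≠ 0 := mul_ne_zero hred hφ
  have hval : ∀ Q : Place k Fb, Finsupp.mapDomain r D Q =
      Q.ord (ū * φ) + Finsupp.mapDomain conk E₀ Q := by
    intro Q
    rw [hmap, Finsupp.add_apply, Finsupp.add_apply, h1 Q, hΔ Q, Q.ord_mul hred hφ]
  have hmem : ū * φ ∈ riemannRochSpace (Finsupp.mapDomain conk E₀) := by
    rw [mem_riemannRochSpace_iff]
    intro Q
    right
    have := s26erig_mapDomain_nonneg r D hD0 Q
    rw [hval Q] at this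
    omega
  obtain ⟨b, hb⟩ := hE₀k _ hmem
  ext Q
  rw [hval Q, hb, PlaceAux.ord_algebraMap, zero_add]

/-- constants of `K` reduce compatibly. -/
theorem ιk_algebraMap (h : S26erigRed R r con conk ιk) (hK : ∀ a : K, algebraMap K L a ∈ R.A)
    (a : K) : ιk (algebraMap K Γ a) = algebraMap k Fb (R.res ⟨algebraMap K L a, hK a⟩) := by
  rw [← h.red_Γ, ← R.red_algebraMap]
  congr 1
  apply Subtype.ext
  show algebraMap Γ F (algebraMap K Γ a) = algebraMap L F (algebraMap K L a)
  rw [← IsScalarTower.algebraMap_apply, ← IsScalarTower.algebraMap_apply]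

/-- **Step 3** = (H_V) at the places of the support of `D`. -/
theorem hV (h : S26erigRed R r con conk ιk) (hK : ∀ a : K, algebraMap K L a ∈ R.A)
    (hΓL : ∀ (u : Γ) (c : L), algebraMap Γ F u = algebraMap L F c →
      ∃ a : K, u = algebraMap K Γ a)
    (E₀ : Divisor K Γ) (D : Divisor L F) (hD0 : ∀ P, 0 ≤ D P)
    (hmult : Finsupp.mapDomain r D = Finsupp.mapDomain conk E₀)
    (P : Place L F) (hP : D P ≠ 0) : S26erigHV E₀.support P R.A := by
  classical
  have := h.hpdF
  have hDP : 0 < D P := lt_of_le_of_ne (hD0 P) (Ne.symm hP)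
  have hpos : 0 < Finsupp.mapDomain conk E₀ (r P) := by
    rw [← hmult]
    exact s26erig_mapDomain_pos r D P (fun a _ => hD0 a) hDP
  obtain ⟨Q, hQS, hQ⟩ := s26erig_exists_of_mapDomain_ne_zero conk E₀ (r P) (ne_of_gt hpos)
  intro u hu
  have huQ : u ∈ Q.toValuationSubring := hu Q hQS
  -- a pole of `u` does not reduce to `r P`
  have hpole : ∀ P' : Place L F, r P' = r P → algebraMap Γ F u ∈ P'.toValuationSubring := by
    intro P' hP'
    by_contra hnot
    have hu0 : algebraMap Γ F u ≠ 0 := fun h0 => hnot (h0 ▸ zero_mem _)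
    have hlt : P'.ord (algebraMap Γ F u) < 0 := by
      by_contra hge
      exact hnot ((PlaceAux.ord_nonneg_iff P' hu0).1 (not_lt.1 hge))
    obtain ⟨Q', rfl, hQ'⟩ := h.ord_con u P' hlt
    have hQQ : Q' = Q := by
      apply h.conk_inj
      rw [← h.r_con, hP', hQ]
    rw [hQQ] at hQ'
    have hu0' : u ≠ 0 := fun h0 => hu0 (by rw [h0, map_zero])
    have := (PlaceAux.ord_nonneg_iff Q hu0').2 huQ
    omega
  refine ⟨hpole P rfl, ?_⟩
  intro c hc
  refine ⟨Q, hQS, ?_⟩
  intro c₀ hc₀
  set w : F := algebraMap Γ F u - algebraMap L F c with hw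
  by_cases hw0 : w = 0
  · -- `u` is a constant
    obtain ⟨a, ha⟩ := hΓL u c (sub_eq_zero.1 hw0)
    have hca : c = algebraMap K L a := by
      have h1 : algebraMap L F c = algebraMap L F (algebraMap K L a) := by
        rw [← sub_eq_zero.1 hw0, ha, ← IsScalarTower.algebraMap_apply,
          ← IsScalarTower.algebraMap_apply]
      exact ((algebraMap L F).injective h1)
    have hac : a = c₀ := by
      refine s26erig_eq_of_sub_mem_nonunits (algebraMap K Γ) Q.toValuationSubring
        Q.algebraMap_mem' a c₀ ?_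
      rw [← ha]
      exact hc₀
    rw [hca, hac, sub_self]
    exact zero_mem _
  · have hwpos : 0 < P.ord w := (PlaceAux.ord_pos_iff_mem_nonunits P hw0).2 hc
    obtain ⟨divw, hdivw, -⟩ := HasPrincipalDivisors.exists_divisor (K := L) w hw0
    have hfib : ∀ P' : Place L F, r P' = r P → 0 ≤ divw P' := by
      intro P' hP'
      rw [hdivw]
      refine (PlaceAux.ord_nonneg_iff P' hw0).2 ?_
      exact sub_mem (hpole P' hP') (P'.algebraMap_mem' c)
    have hsum : 0 < Finsupp.mapDomain r divw (r P) :=
      s26erig_mapDomain_pos r divw P hfib (by rw [hdivw]; exact hwpos)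
    by_cases hcA : c ∈ R.A
    · -- the value lies in `V`
      set uO : R.O := ⟨algebraMap Γ F u, h.mem_O u⟩ - R.const ⟨c, hcA⟩ with huO
      have hcoe : (uO : F) = w := rfl
      have hredO : R.red uO = ιk u - algebraMap k Fb (R.res ⟨c, hcA⟩) := by
        rw [huO, map_sub, h.red_Γ, R.red_const]
      by_cases hred0 : R.red uO = 0
      · exfalso
        rw [hredO, sub_eq_zero] at hred0
        obtain ⟨a, ha⟩ := h.ιk_const u _ hred0
        apply hw0
        have hw' : w = algebraMap L F (algebraMap K L a - c) := by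
          rw [hw, ha, map_sub, ← IsScalarTower.algebraMap_apply,
            ← IsScalarTower.algebraMap_apply]
        have hz : algebraMap K L a - c = 0 :=
          s26erig_const_nonunit (algebraMap L F) P.toValuationSubring P.algebraMap_mem' _
            (by rw [← hw']; exact hc)
        rw [hw', hz, map_zero]
      · have h1 := h.r_principal uO hred0 divw (fun P' => by rw [hdivw, hcoe]) (r P)
        rw [h1, hredO] at hsum
        have hne : ιk u - algebraMap k Fb (R.res ⟨c, hcA⟩) ≠ 0 := by
          rw [← hredO]; exact hred0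
        have hmem1 : ιk u - algebraMap k Fb (R.res ⟨c, hcA⟩) ∈
            (r P).toValuationSubring.nonunits :=
          (PlaceAux.ord_pos_iff_mem_nonunits (r P) hne).1 hsum
        have hmem2 : ιk (u - algebraMap K Γ c₀) ∈ (r P).toValuationSubring.nonunits := by
          by_cases hz : u - algebraMap K Γ c₀ = 0
          · rw [hz, map_zero]; exact zero_mem _
          · have h2 : 0 < Q.ord (u - algebraMap K Γ c₀) :=
              (PlaceAux.ord_pos_iff_mem_nonunits Q hz).2 hc₀
            have h3 := h.ord_conk Q _ h2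
            rw [hQ] at h3
            have hz' : ιk (u - algebraMap K Γ c₀) ≠ 0 := by
              intro h0
              rw [h0, Place.ord_zero] at h3
              exact lt_irrefl _ h3
            exact (PlaceAux.ord_pos_iff_mem_nonunits (r P) hz').1 h3
        rw [map_sub, h.ιk_algebraMap hK] at hmem2
        have hdiff : algebraMap k Fb (R.res ⟨c, hcA⟩ - R.res ⟨algebraMap K L c₀, hK c₀⟩) ∈
            (r P).toValuationSubring.nonunits := by
          have := sub_mem hmem2 hmem1
          have e : ιk u - algebraMap k Fb (R.res ⟨algebraMap K L c₀, hK c₀⟩) -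
              (ιk u - algebraMap k Fb (R.res ⟨c, hcA⟩)) =
              algebraMap k Fb (R.res ⟨c, hcA⟩ - R.res ⟨algebraMap K L c₀, hK c₀⟩) := by
            rw [map_sub]; ring
          rw [e] at this
          exact this
        have hzero := s26erig_const_nonunit (algebraMap k Fb) (r P).toValuationSubring
          (r P).algebraMap_mem' _ hdiff
        rw [← map_sub] at hzero
        exact (s26erig_res_eq_zero_iff R _).1 hzero
    · -- the value does not lie in `V`: impossible
      exfalso
      have hc0 : c ≠ 0 := fun h0 => hcA (h0 ▸ zero_mem _)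
      have hcinv : c⁻¹ ∈ R.A := (R.A.mem_or_inv_mem c).resolve_left hcA
      have hcinvnu : ((⟨c⁻¹, hcinv⟩ : R.A) : L) ∈ R.A.nonunits := by
        rw [ValuationSubring.mem_nonunits_iff_or]
        right
        rw [inv_inv]
        exact hcA
      have hres0 : R.res ⟨c⁻¹, hcinv⟩ = 0 := (s26erig_res_eq_zero_iff R _).2 hcinvnu
      set uO : R.O := R.const ⟨c⁻¹, hcinv⟩ * ⟨algebraMap Γ F u, h.mem_O u⟩ - 1 with huO
      have hcoe : (uO : F) = algebraMap L F c⁻¹ * w := by
        show algebraMap L F c⁻¹ * algebraMap Γ F u - 1 = algebraMap L F c⁻¹ * w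
        rw [hw, mul_sub, ← map_mul, inv_mul_cancel₀ hc0, map_one]
      have hredO : R.red uO = -1 := by
        rw [huO, map_sub, map_mul, R.red_const, hres0, map_zero, zero_mul, map_one, zero_sub]
      have hredne : R.red uO ≠ 0 := by rw [hredO]; exact neg_ne_zero.2 one_ne_zero
      have hci : algebraMap L F c⁻¹ ≠ 0 := by simpa using hc0
      have h1 := h.r_principal uO hredne divw (fun P' => by
        rw [hdivw, hcoe, P'.ord_mul hci hw0, PlaceAux.ord_algebraMap, zero_add]) (r P)
      rw [h1, hredO, PlaceAux.ord_neg, Place.ord_one] at hsum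
      exact lt_irrefl _ hsum

end S26erigRed

end Fermat.Agent.S26
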