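/-
S26-E, piece E-RIG (helper97): **(c) of NOTES/S26-E.md §2** = the rigidity step, assembled.

`K ⊆ Γ` a function field of one variable, `L ⊇ K` algebraically closed, `F = Frac(Γ·L)`,
`Δ` a divisor of `F/L`, `E₀` a divisor of `Γ/K`, `Con = mapDomain con`.

`s26erig_main` : if
* (RR)   `L_L(Δ + Con E₀) ≠ 0`                                    (Riemann over `L`, deg = genus),
* (RED)  at every valuation subring `V` of `L` centred at `z = 0` (dominating `j (i R₀)`) and at
         ONE valuation subring `V₁ ⊇ j M`: a reduction package `S26erigRed` with `r_* Δ` principal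
         (E-SPEC) and `L_k(Con_k E₀) = k` (E-RR),
* (RIG)  `M` is algebraically closed in `L`,
* the curve facts on `Γ/K` and the uniqueness of constant places,
then `Δ` is principal: `∃ G ≠ 0, ∀ P : Place L F, P.ord G = Δ P`.
-/
import Fermat.Agent.S26.ERigB

set_option autoImplicit false
set_option linter.unusedSectionVars false

namespace Fermat.Agent.S26

open AlgebraicCurve IsLocalRing Fermat.Agent.S24 Fermat.Agent.DEU

universe u v w

variable {K : Type v} {Γ : Type w} {L F : Type u} [Field K] [Field Γ] [Field L] [Field F]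
  [Algebra K Γ] [Algebra K L] [Algebra Γ F] [Algebra L F] [Algebra K F]
  [IsScalarTower K Γ F] [IsScalarTower K L F]

/-- **The reduction hypothesis at the valuation subring `V` of `L`**: a Gauss reduction with
valuation ring `V` (E-RED), for which `r_* Δ` is principal (E-SPEC) and `L_k(Con_k E₀)` consists
of constants (E-RR). -/
def S26erigRedAt (con : Place K Γ → Place L F) (E₀ : Divisor K Γ) (Δ : Divisor L F)
    (V : ValuationSubring L) : Prop :=
  ∃ (k Fb : Type u) (_ : Field k) (_ : Field Fb) (_ : Algebra k Fb)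
    (R : RedData L F k Fb) (r : Place L F → Place k Fb) (conk : Place K Γ → Place k Fb)
    (ιk : Γ →+* Fb),
    R.A = V ∧ S26erigRed R r con conk ιk ∧
    (∃ φ : Fb, φ ≠ 0 ∧ ∀ Q : Place k Fb, Finsupp.mapDomain r Δ Q = Q.ord φ) ∧
    (∀ w ∈ riemannRochSpace (Finsupp.mapDomain conk E₀), ∃ b : k, w = algebraMap k Fb b)

/-- **E-RIG = (c).** -/
theorem s26erig_main {R₀ M : Type*} [CommRing R₀] [IsLocalRing R₀] [Field M]
    (i : R₀ →+* M) (j : M →+* L)
    (hM : ∀ x : L, j.IsIntegralElem x → x ∈ j.range)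
    (hKR : ∀ a : K, ∃ r : R₀, j (i r) = algebraMap K L a)
    (E₀ : Divisor K Γ) (Δ : Divisor L F) (con : Place K Γ → Place L F)
    (hpdF : HasPrincipalDivisors L F)
    (hresF : ∀ P : Place L F, ∀ x ∈ P.toValuationSubring, ∃ c : L,
      x - algebraMap L F c ∈ P.toValuationSubring.nonunits)
    (hresΓ : ∀ Q : Place K Γ, ∀ u ∈ Q.toValuationSubring, ∃ c₀ : K,
      u - algebraMap K Γ c₀ ∈ Q.toValuationSubring.nonunits)
    (hΓL : ∀ (u : Γ) (c : L), algebraMap Γ F u = algebraMap L F c →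
      ∃ a : K, u = algebraMap K Γ a)
    (hcomp : ∀ W : ValuationSubring Γ, (∀ a : K, algebraMap K Γ a ∈ W) → W ≠ ⊤ →
      ∃ Q : Place K Γ, Q.toValuationSubring = W)
    (hpole : ∀ Q : Place K Γ, Q ∉ E₀.support →
      ∃ u : Γ, u ∉ Q.toValuationSubring ∧ ∀ Q' ∈ E₀.support, u ∈ Q'.toValuationSubring)
    (hnc : ∃ u : Γ, (∀ Q' ∈ E₀.support, u ∈ Q'.toValuationSubring) ∧
      ∀ a : K, u ≠ algebraMap K Γ a)
    (hcon : ∀ (P : Place L F) (Q : Place K Γ),
      P.toValuationSubring.comap (algebraMap Γ F) = Q.toValuationSubring → P = con Q)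
    (hRR : ∃ f : F, f ≠ 0 ∧ f ∈ riemannRochSpace (Δ + Finsupp.mapDomain con E₀))
    (hz : ∀ V : ValuationSubring L, (∀ r, j (i r) ∈ V) →
      (∀ r ∈ maximalIdeal R₀, j (i r) ∈ V.nonunits) → S26erigRedAt con E₀ Δ V)
    (hy : ∃ V : ValuationSubring L, (∀ m, j m ∈ V) ∧ S26erigRedAt con E₀ Δ V) :
    ∃ G : F, G ≠ 0 ∧ ∀ P : Place L F, P.ord G = Δ P := by
  classical
  obtain ⟨f, hf, hfRR⟩ := hRR
  obtain ⟨divf, hdivf, -⟩ := HasPrincipalDivisors.exists_divisor (K := L) f hf
  set D : Divisor L F := divf + Δ + Finsupp.mapDomain con E₀ with hDdef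
  have hD : ∀ P : Place L F, D P = P.ord f + Δ P + Finsupp.mapDomain con E₀ P := by
    intro P
    rw [hDdef, Finsupp.add_apply, Finsupp.add_apply, hdivf]
  have hD0 : ∀ P, 0 ≤ D P := by
    intro P
    rw [mem_riemannRochSpace_iff] at hfRR
    rcases hfRR P with h0 | h1
    · exact (hf h0).elim
    · rw [hD P]
      rw [Finsupp.add_apply] at h1
      omega
  -- the package at one valuation ring
  have hpack : ∀ V : ValuationSubring L, (∀ a : K, algebraMap K L a ∈ V) →
      S26erigRedAt con E₀ Δ V →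
      (∀ P : Place L F, D P ≠ 0 → S26erigHV E₀.support P V) := by
    rintro V hKV ⟨k, Fb, _, _, _, R, r, conk, ιk, rfl, hred, hspec, hE₀k⟩ P hP
    have hmult := hred.mult E₀ Δ D f hf hD hD0 hspec hE₀k
    exact hred.hV hKV hΓL E₀ D hD0 hmult P hP
  have hKz : ∀ V : ValuationSubring L, (∀ r, j (i r) ∈ V) → ∀ a : K, algebraMap K L a ∈ V := by
    intro V hV a
    obtain ⟨r, hr⟩ := hKR a
    rw [← hr]
    exact hV r
  obtain ⟨V₁, hV₁M, hV₁⟩ := hy
  have hKV₁ : ∀ a : K, algebraMap K L a ∈ V₁ := by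
    intro a
    obtain ⟨r, hr⟩ := hKR a
    rw [← hr]
    exact hV₁M _
  have hHV₁ := hpack V₁ hKV₁ hV₁
  obtain ⟨k, Fb, _, _, _, R, r, conk, ιk, hRA, hred, hspec, hE₀k⟩ := hV₁
  have hmult := hred.mult E₀ Δ D f hf hD hD0 hspec hE₀k
  have hDcon : D = Finsupp.mapDomain con E₀ :=
    s26erig_A i j hM hKR E₀ D hresF hresΓ hcomp hpole hnc
      (fun P hP V h1 h2 => hpack V (hKz V h1) (hz V h1 h2) P hP)
      (fun P hP => ⟨V₁, hV₁M, hHV₁ P hP⟩)
      con conk r hcon hred.r_con hred.conk_inj hmult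
  refine ⟨f⁻¹, inv_ne_zero hf, fun P => ?_⟩
  have h1 := hD P
  rw [hDcon] at h1
  rw [Place.ord_inv]
  omega

end Fermat.Agent.S26
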