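/-
S26-E, piece E-RED, part (Bo) = OUTPUT (helper93): from a reduction of places `r` with
`r_* div u = div (red u)` (DEU `Hyp.mapDomain_r_principal`) and the shapes of RR-C over `L` and
over `k` (constant places `con Q`, `conk Q`: `ord_{con Q} u = ord_Q u`, every place at which a
constant function has a zero or a pole is constant) we get

* `s26ero_r_con` : **constant places reduce to constant places**, `r (con Q) = conk Q`;
* `s26ero_red`   : helper97's package `S26erigRed R r con conk ιk` (S26/ERigB.lean);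
* `s26ero_red_of_hyp` : the same for `r = H.r`, `H : DEU.Hyp R Pinf Qinf g n₀`;
* `s26ero_pole_of_riemann` : the curve fact "a function whose only pole is `Q`" from Riemann's
  inequality on `Γ / K`; `s26ero_red_of_hyp_riemann` uses it;
* `s26ero_redAt` : the existential package `S26erigRedAt con E₀ Δ V` of `s26erig_main`.

Proof of `r_con`: `u ∈ Γ` with its only zero at `Q`; `r_* div_F u = div_Fb ū` evaluated at
`conk Q` is `ord_Q u > 0`, so some zero `P` of `u` in `F` reduces to `conk Q`; the zeros of `u`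
in `F` are constant places `con Q'` with `ord_{Q'} u > 0`, so `P = con Q`.
-/
import Fermat.Agent.S26.ERig

set_option autoImplicit false
set_option linter.unusedSectionVars false

namespace Fermat.Agent.S26

open AlgebraicCurve IsLocalRing Fermat.Agent.S24 Fermat.Agent.DEU

variable {K Γ L F k Fb : Type*} [Field K] [Field Γ] [Field L] [Field F] [Field k] [Field Fb]
  [Algebra K Γ] [Algebra K L] [Algebra Γ F] [Algebra L F] [Algebra K F]
  [IsScalarTower K Γ F] [IsScalarTower K L F] [Algebra k Fb]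

/-- a positive value of a push-forward comes from a positive coefficient -/
theorem s26ero_exists_pos_of_mapDomain_pos {α β : Type*} (r : α → β) (D : α →₀ ℤ) (b : β)
    (h : 0 < Finsupp.mapDomain r D b) : ∃ a, r a = b ∧ 0 < D a := by
  classical
  rw [s26erig_mapDomain_apply] at h
  by_contra hne
  push_neg at hne
  have hle : ∑ a ∈ D.support, (if r a = b then D a else 0) ≤ 0 := by
    refine Finset.sum_nonpos fun a _ => ?_
    split_ifs with hr
    · exact hne a hr
    · exact le_refl _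
  omega

/-- a function with its only zero at `Q`, from a function with its only pole at `Q` -/
theorem s26ero_zero_of_pole
    (hpole : ∀ Q : Place K Γ, ∃ u : Γ, Q.ord u < 0 ∧ ∀ Q' : Place K Γ, Q'.ord u < 0 → Q' = Q)
    (Q : Place K Γ) : ∃ u : Γ, 0 < Q.ord u ∧ ∀ Q' : Place K Γ, 0 < Q'.ord u → Q' = Q := by
  obtain ⟨u, hu, huniq⟩ := hpole Q
  refine ⟨u⁻¹, ?_, fun Q' hQ' => huniq Q' ?_⟩
  · rw [Place.ord_inv]
    omega
  · rw [Place.ord_inv] at hQ'
    omega

/-- **Curve fact from Riemann's inequality on `Γ / K`**: a function whose only pole is `Q`. -/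
theorem s26ero_pole_of_riemann [HasPrincipalDivisors K Γ]
    (hres : ∀ v : Place K Γ, Function.Bijective (algebraMap K v.ResidueField)) (g : ℕ)
    (hriem : ∀ 𝔞 : Divisor K Γ,
      Divisor.degree 𝔞 + 1 - g ≤ (Module.finrank K ↥(riemannRochSpace 𝔞) : ℤ))
    (Q : Place K Γ) :
    ∃ u : Γ, Q.ord u < 0 ∧ ∀ Q' : Place K Γ, Q'.ord u < 0 → Q' = Q := by
  classical
  set D : Divisor K Γ := mulPlace Q ((g : ℤ) + 1) with hD
  have hdeg : Divisor.degree D = (g : ℤ) + 1 := degree_mulPlace hres Q _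
  have h2 : (2 : ℤ) ≤ (Module.finrank K ↥(riemannRochSpace D) : ℤ) := by
    have := hriem D
    rw [hdeg] at this
    omega
  have h1 : (Module.finrank K ↥(riemannRochSpace (0 : Divisor K Γ)) : ℤ) ≤ 1 := by
    have := rr_finrank_le_degree_add_one hres Q (0 : Divisor K Γ) (by simp)
    simpa using this
  have hfin0 : Module.Finite K ↥(riemannRochSpace (0 : Divisor K Γ)) :=
    Fermat.Agent.ES.R.rr_finite Q hres 0
  -- some element of `L(D)` has a pole at `Q`
  have hex : ∃ u ∈ riemannRochSpace D, Q.ord u < 0 := by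
    by_contra hne
    push_neg at hne
    have hle : riemannRochSpace D ≤ riemannRochSpace (0 : Divisor K Γ) := by
      intro u hu
      rw [mem_riemannRochSpace_iff] at hu ⊢
      intro v
      rcases hu v with h0 | hv
      · exact Or.inl h0
      · right
        by_cases hvQ : v = Q
        · subst hvQ
          simpa using hne u (by rw [mem_riemannRochSpace_iff]; exact hu)
        · have hDv : D v = 0 := by
            rw [hD, mulPlace, Finsupp.single_apply, if_neg (Ne.symm hvQ)]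
          rw [hDv] at hv
          simpa using hv
    have := Submodule.finrank_mono hle
    omega
  obtain ⟨u, hu, huQ⟩ := hex
  refine ⟨u, huQ, fun Q' hQ' => ?_⟩
  by_contra hne
  rw [mem_riemannRochSpace_iff] at hu
  rcases hu Q' with h0 | hv
  · rw [h0, Place.ord_zero] at hQ'
    exact lt_irrefl _ hQ'
  · have hDv : D Q' = 0 := by
      rw [hD, mulPlace, Finsupp.single_apply, if_neg (Ne.symm hne)]
    rw [hDv] at hv
    omega

/-- **Constant places reduce to constant places.** -/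
theorem s26ero_r_con (R : RedData L F k Fb) (r : Place L F → Place k Fb)
    (con : Place K Γ → Place L F) (conk : Place K Γ → Place k Fb) (ιk : Γ →+* Fb)
    (hpdF : HasPrincipalDivisors L F)
    (hr : ∀ u : R.O, R.red u ≠ 0 → ∀ D : Divisor L F,
      (∀ P : Place L F, D P = P.ord (u : F)) →
        ∀ Q : Place k Fb, Finsupp.mapDomain r D Q = Q.ord (R.red u))
    (hmem : ∀ u : Γ, algebraMap Γ F u ∈ R.O)
    (hred : ∀ u : Γ, R.red ⟨algebraMap Γ F u, hmem u⟩ = ιk u)
    (hcon_ord : ∀ (Q : Place K Γ) (u : Γ), (con Q).ord (algebraMap Γ F u) = Q.ord u)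
    (hcon_ex : ∀ (w : Place L F) (u : Γ), w.ord (algebraMap Γ F u) ≠ 0 → ∃ Q, w = con Q)
    (hconk_ord : ∀ (Q : Place K Γ) (u : Γ), (conk Q).ord (ιk u) = Q.ord u)
    (hzero : ∀ Q : Place K Γ, ∃ u : Γ, 0 < Q.ord u ∧ ∀ Q' : Place K Γ, 0 < Q'.ord u → Q' = Q)
    (Q : Place K Γ) : r (con Q) = conk Q := by
  obtain ⟨u, hu, huniq⟩ := hzero Q
  have hu0 : u ≠ 0 := by
    rintro rfl
    rw [Place.ord_zero] at hu
    exact lt_irrefl _ hu
  have huF : algebraMap Γ F u ≠ 0 := by
    simpa using hu0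
  have hιu : ιk u ≠ 0 := by
    simpa using hu0
  have hredu : R.red ⟨algebraMap Γ F u, hmem u⟩ ≠ 0 := by
    rw [hred]
    exact hιu
  obtain ⟨D, hD, -⟩ := HasPrincipalDivisors.exists_divisor (K := L) (algebraMap Γ F u) huF
  have h1 := hr ⟨algebraMap Γ F u, hmem u⟩ hredu D hD (conk Q)
  rw [hred, hconk_ord] at h1
  obtain ⟨P, hrP, hDP⟩ := s26ero_exists_pos_of_mapDomain_pos r D (conk Q) (by rw [h1]; exact hu)
  rw [hD P] at hDP
  obtain ⟨Q', rfl⟩ := hcon_ex P u (ne_of_gt hDP)
  rw [hcon_ord] at hDP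
  rw [huniq Q' hDP] at hrP
  exact hrP

/-- **The package `S26erigRed`** of E-RIG from the reduction of places and the RR-C shapes. -/
theorem s26ero_red (R : RedData L F k Fb) (r : Place L F → Place k Fb)
    (con : Place K Γ → Place L F) (conk : Place K Γ → Place k Fb) (ιk : Γ →+* Fb)
    (hpdF : HasPrincipalDivisors L F)
    (hr : ∀ u : R.O, R.red u ≠ 0 → ∀ D : Divisor L F,
      (∀ P : Place L F, D P = P.ord (u : F)) →
        ∀ Q : Place k Fb, Finsupp.mapDomain r D Q = Q.ord (R.red u))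
    (hmem : ∀ u : Γ, algebraMap Γ F u ∈ R.O)
    (hred : ∀ u : Γ, R.red ⟨algebraMap Γ F u, hmem u⟩ = ιk u)
    (hcon_ord : ∀ (Q : Place K Γ) (u : Γ), (con Q).ord (algebraMap Γ F u) = Q.ord u)
    (hcon_ex : ∀ (w : Place L F) (u : Γ), w.ord (algebraMap Γ F u) ≠ 0 → ∃ Q, w = con Q)
    (hconk_ord : ∀ (Q : Place K Γ) (u : Γ), (conk Q).ord (ιk u) = Q.ord u)
    (hzero : ∀ Q : Place K Γ, ∃ u : Γ, 0 < Q.ord u ∧ ∀ Q' : Place K Γ, 0 < Q'.ord u → Q' = Q)
    (hconst : ∀ (u : Γ) (b : k), ιk u = algebraMap k Fb b → ∃ a : K, u = algebraMap K Γ a) :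
    S26erigRed R r con conk ιk where
  hpdF := hpdF
  r_principal := hr
  mem_O := hmem
  red_Γ := hred
  r_con := s26ero_r_con R r con conk ιk hpdF hr hmem hred hcon_ord hcon_ex hconk_ord hzero
  conk_inj := by
    intro Q Q' h
    apply Place.ext
    ext u
    rcases eq_or_ne u 0 with rfl | hu
    · simp [zero_mem]
    · rw [← PlaceAux.ord_nonneg_iff Q hu, ← PlaceAux.ord_nonneg_iff Q' hu, ← hconk_ord Q u,
        ← hconk_ord Q' u, h]
  ord_con := by
    intro u P hP
    obtain ⟨Q, rfl⟩ := hcon_ex P u (ne_of_lt hP)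
    rw [hcon_ord] at hP
    exact ⟨Q, rfl, hP⟩
  ord_conk := by
    intro Q u hu
    rw [hconk_ord]
    exact hu
  ιk_const := hconst

/-- The package `S26erigRed` for the reduction of places `H.r` of Deuring's dimension count. -/
theorem s26ero_red_of_hyp (R : RedData L F k Fb) {Pinf : Place L F} {Qinf : Place k Fb}
    {g n₀ : ℕ} (H : Hyp R Pinf Qinf g n₀)
    (con : Place K Γ → Place L F) (conk : Place K Γ → Place k Fb) (ιk : Γ →+* Fb)
    (hmem : ∀ u : Γ, algebraMap Γ F u ∈ R.O)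
    (hred : ∀ u : Γ, R.red ⟨algebraMap Γ F u, hmem u⟩ = ιk u)
    (hcon_ord : ∀ (Q : Place K Γ) (u : Γ), (con Q).ord (algebraMap Γ F u) = Q.ord u)
    (hcon_ex : ∀ (w : Place L F) (u : Γ), w.ord (algebraMap Γ F u) ≠ 0 → ∃ Q, w = con Q)
    (hconk_ord : ∀ (Q : Place K Γ) (u : Γ), (conk Q).ord (ιk u) = Q.ord u)
    (hzero : ∀ Q : Place K Γ, ∃ u : Γ, 0 < Q.ord u ∧ ∀ Q' : Place K Γ, 0 < Q'.ord u → Q' = Q)
    (hconst : ∀ (u : Γ) (b : k), ιk u = algebraMap k Fb b → ∃ a : K, u = algebraMap K Γ a) :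
    S26erigRed R H.r con conk ιk :=
  s26ero_red R H.r con conk ιk H.hpdF (fun u hu D hD Q => H.mapDomain_r_principal u hu D hD Q)
    hmem hred hcon_ord hcon_ex hconk_ord hzero hconst

/-- The package `S26erigRed` for `H.r`, with the curve fact `hzero` discharged by Riemann's
inequality on `Γ / K`. -/
theorem s26ero_red_of_hyp_riemann (R : RedData L F k Fb) {Pinf : Place L F} {Qinf : Place k Fb}
    {g n₀ : ℕ} (H : Hyp R Pinf Qinf g n₀)
    (con : Place K Γ → Place L F) (conk : Place K Γ → Place k Fb) (ιk : Γ →+* Fb)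
    (hmem : ∀ u : Γ, algebraMap Γ F u ∈ R.O)
    (hred : ∀ u : Γ, R.red ⟨algebraMap Γ F u, hmem u⟩ = ιk u)
    (hcon_ord : ∀ (Q : Place K Γ) (u : Γ), (con Q).ord (algebraMap Γ F u) = Q.ord u)
    (hcon_ex : ∀ (w : Place L F) (u : Γ), w.ord (algebraMap Γ F u) ≠ 0 → ∃ Q, w = con Q)
    (hconk_ord : ∀ (Q : Place K Γ) (u : Γ), (conk Q).ord (ιk u) = Q.ord u)
    (hpdΓ : HasPrincipalDivisors K Γ)
    (hresΓ : ∀ v : Place K Γ, Function.Bijective (algebraMap K v.ResidueField)) (gΓ : ℕ)
    (hriemΓ : ∀ 𝔞 : Divisor K Γ,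
      Divisor.degree 𝔞 + 1 - gΓ ≤ (Module.finrank K ↥(riemannRochSpace 𝔞) : ℤ))
    (hconst : ∀ (u : Γ) (b : k), ιk u = algebraMap k Fb b → ∃ a : K, u = algebraMap K Γ a) :
    S26erigRed R H.r con conk ιk :=
  s26ero_red_of_hyp R H con conk ιk hmem hred hcon_ord hcon_ex hconk_ord
    (s26ero_zero_of_pole (s26ero_pole_of_riemann hresΓ gΓ hriemΓ)) hconst

end Fermat.Agent.S26

namespace Fermat.Agent.S26

open AlgebraicCurve IsLocalRing Fermat.Agent.S24 Fermat.Agent.DEU

universe u v w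

/-- **The existential package `S26erigRedAt`** consumed by `s26erig_main` / `s26erig_main_ac`
at the valuation subring `V = R.A`: E-RED (`S26erigRed`) + E-SPEC (`r_* Δ` principal) + E-RR
(`L_k(Con_k E₀) = k`). -/
theorem s26ero_redAt {K : Type v} {Γ : Type w} {L F : Type u} [Field K] [Field Γ] [Field L]
    [Field F] [Algebra K Γ] [Algebra K L] [Algebra Γ F] [Algebra L F] [Algebra K F]
    [IsScalarTower K Γ F] [IsScalarTower K L F]
    {k Fb : Type u} [Field k] [Field Fb] [Algebra k Fb]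
    (con : Place K Γ → Place L F) (E₀ : Divisor K Γ) (Δ : Divisor L F) (V : ValuationSubring L)
    (R : RedData L F k Fb) (r : Place L F → Place k Fb) (conk : Place K Γ → Place k Fb)
    (ιk : Γ →+* Fb) (hA : R.A = V) (hred : S26erigRed R r con conk ιk)
    (hspec : ∃ φ : Fb, φ ≠ 0 ∧ ∀ Q : Place k Fb, Finsupp.mapDomain r Δ Q = Q.ord φ)
    (hE : ∀ w ∈ riemannRochSpace (Finsupp.mapDomain conk E₀), ∃ b : k, w = algebraMap k Fb b) :
    S26erigRedAt con E₀ Δ V :=
  ⟨k, Fb, inferInstance, inferInstance, inferInstance, R, r, conk, ιk, hA, hred, hspec, hE⟩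

end Fermat.Agent.S26
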