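/-
S26-E, piece E-RED, leaf `s26erob_*` (helper61): **linear disjointness**, i.e. the hypotheses
`hldF`, `hldk` of helper28's `s26era_hyp` (S26/ERedAsm.lean) and `hld` of helper17's
`s26erb_anchor` (S26/ERedBootA.lean), from the injectivity of the tensor map.

* `s26erob_li_core`        : `μ : L ⊗[K] Γ → F` injective (`L` on the LEFT) and `v : ι → Γ` linearly
                             independent over `K`  ⇒  `algebraMap Γ F ∘ v` linearly independent over `L`;
* `s26erob_mu_swap`        : `s26gspMu K L Γ F = s26gspMu K Γ L F ∘ comm`;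
* `s26erob_mu_swap_injective` : the injectivity of `μ` does not depend on the order of the factors;
* `s26erob_hldF`           : helper96's shape (`hld : Function.Injective (s26gspMu K Γ L F)`, the
                             curve on the left) ⇒ `hldF` for `ιF = algebraMap Γ F`;
* `s26erob_hldF'`          : the same for an arbitrary `ιF : Γ →+* F` equal to `algebraMap Γ F`;
* `s26erob_hldk`           : helper12's shape (`[Algebra (k ⊗[K] Γ) Fb]`,
                             `hFb : Function.Injective (algebraMap (k ⊗[K] Γ) Fb)`) ⇒ `hldk` for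
                             every `ιk` with `ιk γ = algebraMap _ Fb (1 ⊗ₜ γ)`;
* `s26erob_hld_frac`       : the same for a fraction ring (`[IsFractionRing (L ⊗[K] Γ) F]`).
-/
import Fermat.Agent.S26.ERRGaussPlace

set_option autoImplicit false
set_option linter.unusedSectionVars false
set_option linter.unusedVariables false

noncomputable section

namespace Fermat.Agent.S26

open TensorProduct

section Core

variable {K Γ L F : Type*} [Field K] [Field Γ] [Field L] [Field F]
  [Algebra K Γ] [Algebra K L] [Algebra K F] [Algebra Γ F] [Algebra L F]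
  [IsScalarTower K Γ F] [IsScalarTower K L F]

/-- **linear disjointness, core**: if `L ⊗[K] Γ → F` is injective, then a `K`-linearly independent
family of `Γ` stays linearly independent over `L` in `F`. -/
theorem s26erob_li_core (hinj : Function.Injective (s26gspMu K L Γ F))
    {ι : Type*} (v : ι → Γ) (hv : LinearIndependent K v) :
    LinearIndependent L (fun i => algebraMap Γ F (v i)) := by
  classical
  have h1 : LinearIndependent L (fun i => (1 : L) ⊗ₜ[K] v i) :=
    Module.Flat.linearIndependent_one_tmul hv
  rw [linearIndependent_iff'] at h1 ⊢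
  intro s c hc i hi
  refine h1 s c (hinj ?_) i hi
  rw [map_sum, map_zero, ← hc]
  refine Finset.sum_congr rfl (fun j _ => ?_)
  rw [TensorProduct.smul_tmul', smul_eq_mul, mul_one, s26gspMu_tmul, Algebra.smul_def]

/-- the multiplication map with the factors exchanged. -/
theorem s26erob_mu_swap (t : L ⊗[K] Γ) :
    s26gspMu K L Γ F t = s26gspMu K Γ L F (Algebra.TensorProduct.comm K L Γ t) := by
  induction t using TensorProduct.induction_on with
  | zero => simp
  | tmul c γ =>
    rw [Algebra.TensorProduct.comm_tmul, s26gspMu_tmul, s26gspMu_tmul, mul_comm]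
  | add x y hx hy => rw [map_add, map_add, map_add, hx, hy]

/-- the injectivity of the multiplication map does not depend on the order of the factors. -/
theorem s26erob_mu_swap_injective (hld : Function.Injective (s26gspMu K Γ L F)) :
    Function.Injective (s26gspMu K L Γ F) := by
  intro x y hxy
  have hx := s26erob_mu_swap (K := K) (Γ := Γ) (L := L) (F := F) x
  have hy := s26erob_mu_swap (K := K) (Γ := Γ) (L := L) (F := F) y
  exact (Algebra.TensorProduct.comm K L Γ).injective (hld (hx.symm.trans (hxy.trans hy)))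

/-- **`hldF`** in helper96's shape (the curve `Γ` on the left of the tensor product). -/
theorem s26erob_hldF (hld : Function.Injective (s26gspMu K Γ L F)) :
    ∀ (n : ℕ) (v : Fin n → Γ), LinearIndependent K v →
      LinearIndependent L (fun i => algebraMap Γ F (v i)) :=
  fun _ v hv => s26erob_li_core (s26erob_mu_swap_injective hld) v hv

/-- **`hldF`** for a ring homomorphism `ιF` which is the structure map. -/
theorem s26erob_hldF' (hld : Function.Injective (s26gspMu K Γ L F)) (ιF : Γ →+* F)
    (hιF : ∀ γ, ιF γ = algebraMap Γ F γ) :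
    ∀ (n : ℕ) (v : Fin n → Γ), LinearIndependent K v →
      LinearIndependent L (fun i => ιF (v i)) := by
  intro n v hv
  have h := s26erob_hldF hld n v hv
  have he : (fun i => ιF (v i)) = fun i => algebraMap Γ F (v i) := funext fun i => hιF _
  rw [he]
  exact h

end Core

section Frac

variable {K Γ k Fb : Type*} [Field K] [Field Γ] [Field k] [Field Fb]
  [Algebra K Γ] [Algebra K k] [Algebra k Fb] [Algebra (k ⊗[K] Γ) Fb]
  [IsScalarTower k (k ⊗[K] Γ) Fb]

/-- **`hldk`** in helper12's shape: `Fb ⊇ k ⊗[K] Γ`, `ιk γ = 1 ⊗ γ`. -/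
theorem s26erob_hldk (hFb : Function.Injective (algebraMap (k ⊗[K] Γ) Fb))
    (ιk : Γ →+* Fb) (hιk : ∀ γ, ιk γ = algebraMap (k ⊗[K] Γ) Fb ((1 : k) ⊗ₜ[K] γ))
    {ι : Type*} (v : ι → Γ) (hv : LinearIndependent K v) :
    LinearIndependent k (fun i => ιk (v i)) := by
  classical
  have h1 : LinearIndependent k (fun i => (1 : k) ⊗ₜ[K] v i) :=
    Module.Flat.linearIndependent_one_tmul hv
  rw [linearIndependent_iff'] at h1 ⊢
  intro s c hc i hi
  refine h1 s c (hFb ?_) i hi
  rw [map_sum, map_zero, ← hc]
  refine Finset.sum_congr rfl (fun j _ => ?_)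
  rw [hιk, Algebra.smul_def, Algebra.smul_def, map_mul,
    ← IsScalarTower.algebraMap_apply k (k ⊗[K] Γ) Fb]

/-- **`hld`** of `s26erb_anchor`, `Fin n`-indexed form. -/
theorem s26erob_hldk_fin (hFb : Function.Injective (algebraMap (k ⊗[K] Γ) Fb))
    (ιk : Γ →+* Fb) (hιk : ∀ γ, ιk γ = algebraMap (k ⊗[K] Γ) Fb ((1 : k) ⊗ₜ[K] γ)) :
    ∀ (n : ℕ) (v : Fin n → Γ), LinearIndependent K v →
      LinearIndependent k (fun i => ιk (v i)) :=
  fun _ v hv => s26erob_hldk hFb ιk hιk v hv

/-- the same for a fraction ring of `k ⊗[K] Γ`. -/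
theorem s26erob_hld_frac [IsFractionRing (k ⊗[K] Γ) Fb]
    (ιk : Γ →+* Fb) (hιk : ∀ γ, ιk γ = algebraMap (k ⊗[K] Γ) Fb ((1 : k) ⊗ₜ[K] γ)) :
    ∀ (n : ℕ) (v : Fin n → Γ), LinearIndependent K v →
      LinearIndependent k (fun i => ιk (v i)) :=
  s26erob_hldk_fin (IsFractionRing.injective (k ⊗[K] Γ) Fb) ιk hιk

end Frac

end Fermat.Agent.S26
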