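/-
S26, wall (E), piece **E-RED**, half B, part (Ba) (helper12, for helper17): **a `K`-rational
valuation ring**.  Mathlib only.

`K` algebraically closed, `L / K` ANY field extension.
* `S26erkRat K R` : the local subring `R` of `L` contains `K` and has residue field `K`
  (every `x ∈ R` is `≡ c mod 𝔪_R` for some `c ∈ K`).
* `s26erk_exists_ge` : every local subring `R₀` with `S26erkRat K R₀` is dominated by a VALUATION
  subring `V` with `S26erkRat K V` (Zorn in the sub-poset + Zariski's lemma).
* `s26erk_exists` : there is a valuation subring `V ⊇ K` of `L` with residue field `K`.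
* `s26erkAlgebra`, `s26erkRes V hV : ↥V →ₐ[K] K` : the residue map as a `K`-algebra retraction.
-/
import Mathlib

set_option autoImplicit false
set_option linter.style.haveILetI false

namespace Fermat.Agent.S26

open IsLocalRing

variable {K L : Type*} [Field K] [Field L] [Algebra K L]

/-- the local subring `R` of `L` contains `K` and every element of `R` is congruent to a constant
modulo the maximal ideal ("the residue field of `R` is `K`") -/
def S26erkRat (K : Type*) {L : Type*} [Field K] [Field L] [Algebra K L]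
    (R : LocalSubring L) : Prop :=
  ∃ hK : ∀ c : K, algebraMap K L c ∈ R.toSubring,
    ∀ x : R.toSubring, ∃ c : K, x - ⟨algebraMap K L c, hK c⟩ ∈ maximalIdeal R.toSubring

/-- upper bound of a nonempty chain of local subrings: the union -/
theorem s26erk_chain_ub (s : Set (LocalSubring L)) (H : IsChain (· ≤ ·) s) (hne : s.Nonempty) :
    ∃ U : LocalSubring L, (∀ A ∈ s, A ≤ U) ∧ ∀ x ∈ U.toSubring, ∃ A ∈ s, x ∈ A.toSubring := by
  obtain ⟨y, hys⟩ := hne
  have inst : Nonempty s := ⟨⟨y, hys⟩⟩
  have hdir := H.directed.mono_comp _ LocalSubring.toSubring_mono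
  refine ⟨@LocalSubring.mk _ _ (⨆ i : s, i.1.toSubring) ⟨?_⟩, ?_, ?_⟩
  · intro ⟨a, ha⟩ ⟨b, hb⟩ e
    obtain ⟨A, haA : a ∈ A.1.toSubring⟩ := (Subring.mem_iSup_of_directed hdir).mp ha
    obtain ⟨B, hbB : b ∈ B.1.toSubring⟩ := (Subring.mem_iSup_of_directed hdir).mp hb
    obtain ⟨C, hCA, hCB⟩ := hdir A B
    refine (C.1.2.2 (a := ⟨a, hCA haA⟩) (b := ⟨b, hCB hbB⟩) (Subtype.ext congr(($e).1))).imp ?_ ?_
    · exact fun h ↦ h.map (Subring.inclusion (le_iSup (fun i : s ↦ i.1.toSubring) C))
    · exact fun h ↦ h.map (Subring.inclusion (le_iSup (fun i : s ↦ i.1.toSubring) C))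
  · intro A hA
    refine ⟨le_iSup (fun i : s ↦ i.1.toSubring) ⟨A, hA⟩, ⟨?_⟩⟩
    rintro ⟨a, haA⟩ h
    obtain ⟨⟨b, hb⟩, e⟩ := isUnit_iff_exists_inv.mp h
    obtain ⟨B, hbB : b ∈ B.1.toSubring⟩ := (Subring.mem_iSup_of_directed hdir).mp hb
    obtain ⟨C, hCA, hCB⟩ := H.directed ⟨A, hA⟩ B
    apply hCA.2.1
    exact isUnit_iff_exists_inv.mpr ⟨⟨b, hCB.1 hbB⟩, Subtype.ext congr(($e).1)⟩
  · intro x hx
    obtain ⟨A, hxA⟩ := (Subring.mem_iSup_of_directed hdir).mp hx
    exact ⟨A.1, A.2, hxA⟩

/-- domination maps the maximal ideal into the maximal ideal -/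
theorem s26erk_mem_maximalIdeal_of_le {A B : LocalSubring L} (h : A ≤ B) (a : A.toSubring)
    (ha : a ∈ maximalIdeal A.toSubring) :
    (⟨a.1, h.1 a.2⟩ : B.toSubring) ∈ maximalIdeal B.toSubring := by
  have h3 := ((local_hom_TFAE (Subring.inclusion h.1)).out 0 3).mp h.2
  exact h3 ha

theorem s26erkRat_chain_ub (s : Set (LocalSubring L)) (hs : ∀ A ∈ s, S26erkRat K A)
    (H : IsChain (· ≤ ·) s) (hne : s.Nonempty) :
    ∃ U : LocalSubring L, S26erkRat K U ∧ ∀ A ∈ s, A ≤ U := by
  obtain ⟨U, hU, hmem⟩ := s26erk_chain_ub s H hne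
  refine ⟨U, ?_, hU⟩
  obtain ⟨y, hys⟩ := hne
  have hK : ∀ c : K, algebraMap K L c ∈ U.toSubring := fun c =>
    (hU y hys).1 ((hs y hys).choose c)
  refine ⟨hK, ?_⟩
  rintro ⟨x, hx⟩
  obtain ⟨A, hA, hxA⟩ := hmem x hx
  obtain ⟨hKA, hPA⟩ := hs A hA
  obtain ⟨c, hc⟩ := hPA ⟨x, hxA⟩
  exact ⟨c, s26erk_mem_maximalIdeal_of_le (hU A hA) _ hc⟩


section X


variable [IsAlgClosed K]

/-- **Lemma X1.**  `R` with residue field `K`, `S` the subring generated by `R` and `x`, `M` a
maximal ideal of `S` containing `𝔪_R`: then `S = K + M`. -/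
theorem s26erk_adjoin_const (R : LocalSubring L) (hR : S26erkRat K R) (x : L)
    (S : Subring L) (hS : S = Subring.closure ((R.toSubring : Set L) ∪ {x}))
    (M : Ideal ↥S) (hM : M.IsMaximal)
    (hRS : R.toSubring ≤ S)
    (hle : (maximalIdeal R.toSubring).map (Subring.inclusion hRS) ≤ M)
    (s : ↥S) :
    ∃ c : K, s - ⟨algebraMap K L c, hRS (hR.choose c)⟩ ∈ M := by
  obtain ⟨hK, hP⟩ := hR
  letI : Field (↥S ⧸ M) := Ideal.Quotient.field M
  let φ : K →+* ↥S ⧸ M :=
    (Ideal.Quotient.mk M).comp ((algebraMap K L).codRestrict S (fun c => hRS (hK c)))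
  letI : Algebra K (↥S ⧸ M) := φ.toAlgebra
  have hφ : ∀ c : K, algebraMap K (↥S ⧸ M) c =
      Ideal.Quotient.mk M ⟨algebraMap K L c, hRS (hK c)⟩ := fun c => rfl
  have hxS : x ∈ S := by
    rw [hS]
    exact Subring.subset_closure (Or.inr rfl)
  -- the image of `R` lies in `K`
  have hRK : ∀ r : R.toSubring, ∃ c : K,
      Ideal.Quotient.mk M ⟨r.1, hRS r.2⟩ = algebraMap K (↥S ⧸ M) c := by
    intro r
    obtain ⟨c, hc⟩ := hP r
    refine ⟨c, ?_⟩
    rw [hφ, Ideal.Quotient.eq]
    have : (Subring.inclusion hRS) (r - ⟨algebraMap K L c, hK c⟩) ∈ M :=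
      hle (Ideal.mem_map_of_mem _ hc)
    exact this
  have hgen : ∀ (y : L) (hy : y ∈ Subring.closure ((R.toSubring : Set L) ∪ {x})),
      Ideal.Quotient.mk M ⟨y, hS ▸ hy⟩ ∈
        Algebra.adjoin K {Ideal.Quotient.mk M (⟨x, hxS⟩ : ↥S)} := by
    intro y hy
    induction hy using Subring.closure_induction with
    | mem y hy =>
      rcases hy with hy | hy
      · obtain ⟨c, hc⟩ := hRK ⟨y, hy⟩
        rw [hc]
        exact Subalgebra.algebraMap_mem _ c
      · have hyx : y = x := hy
        subst hyx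
        exact Algebra.subset_adjoin rfl
    | zero => exact Subalgebra.zero_mem _
    | one => exact Subalgebra.one_mem _
    | add a b ha hb iha ihb => exact Subalgebra.add_mem _ iha ihb
    | neg a ha iha => exact Subalgebra.neg_mem _ iha
    | mul a b ha hb iha ihb => exact Subalgebra.mul_mem _ iha ihb
  have htop : Algebra.adjoin K {Ideal.Quotient.mk M (⟨x, hxS⟩ : ↥S)} = ⊤ := by
    rw [eq_top_iff]
    rintro y -
    obtain ⟨⟨s, hs⟩, rfl⟩ := Ideal.Quotient.mk_surjective y
    exact hgen s (hS ▸ hs)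
  haveI : Algebra.FiniteType K (↥S ⧸ M) :=
    ⟨⟨{Ideal.Quotient.mk M (⟨x, hxS⟩ : ↥S)}, by simpa using htop⟩⟩
  haveI : Module.Finite K (↥S ⧸ M) := finite_of_finite_type_of_isJacobsonRing K (↥S ⧸ M)
  have hsurj : Function.Surjective (algebraMap K (↥S ⧸ M)) :=
    (IsAlgClosed.algebraMap_bijective_of_isIntegral (k := K) (K := ↥S ⧸ M)).2
  obtain ⟨c, hc⟩ := hsurj (Ideal.Quotient.mk M s)
  refine ⟨c, ?_⟩
  rw [← Ideal.Quotient.eq, ← hc, hφ]


/-- **Lemma X2.**  The localization of `S = R[x]` at a maximal ideal over `𝔪_R` has residue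
field `K`. -/
theorem s26erk_ofPrime_rat (R : LocalSubring L) (hR : S26erkRat K R) (x : L)
    (S : Subring L) (hS : S = Subring.closure ((R.toSubring : Set L) ∪ {x}))
    (M : Ideal ↥S) (hM : M.IsMaximal) [M.IsPrime]
    (hRS : R.toSubring ≤ S)
    (hle : (maximalIdeal R.toSubring).map (Subring.inclusion hRS) ≤ M) :
    S26erkRat K (LocalSubring.ofPrime S M) := by
  have hST : S ≤ (LocalSubring.ofPrime S M).toSubring := LocalSubring.le_ofPrime S M
  have hKS : ∀ c : K, algebraMap K L c ∈ S := fun c => hRS (hR.choose c)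
  have hK : ∀ c : K, algebraMap K L c ∈ (LocalSubring.ofPrime S M).toSubring :=
    fun c => hST (hKS c)
  refine ⟨hK, ?_⟩
  intro y
  obtain ⟨⟨s, t⟩, hst⟩ := IsLocalization.surj M.primeCompl y
  obtain ⟨c, hc⟩ := s26erk_adjoin_const R hR x S hS M hM hRS hle s
  obtain ⟨d, hd⟩ := s26erk_adjoin_const R hR x S hS M hM hRS hle t.1
  have hd0 : d ≠ 0 := by
    rintro rfl
    have h0 : (⟨algebraMap K L 0, hRS (hR.choose 0)⟩ : ↥S) = 0 := Subtype.ext (map_zero _)
    rw [h0, sub_zero] at hd
    exact t.2 hd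
  refine ⟨c / d, ?_⟩
  -- `z = (s - c) - (c/d) (t - d) ∈ M`
  have hz : (s - ⟨algebraMap K L c, hRS (hR.choose c)⟩) -
      (⟨algebraMap K L (c / d), hKS (c / d)⟩ : ↥S) *
        (t.1 - ⟨algebraMap K L d, hRS (hR.choose d)⟩) ∈ M :=
    M.sub_mem hc (M.mul_mem_left _ hd)
  have hz' := Ideal.mem_map_of_mem (algebraMap ↥S ↥(LocalSubring.ofPrime S M).toSubring) hz
  rw [IsLocalization.AtPrime.map_eq_maximalIdeal M] at hz'
  have hu : IsUnit (algebraMap ↥S ↥(LocalSubring.ofPrime S M).toSubring t.1) :=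
    IsLocalization.map_units _ t
  rw [← Ideal.mul_unit_mem_iff_mem _ hu]
  convert hz' using 1
  apply Subtype.ext
  have hst' : (y : L) * (t.1 : L) = (s : L) := congrArg Subtype.val hst
  have hdL : algebraMap K L d ≠ 0 := by
    rwa [Ne, map_eq_zero]
  show ((y : L) - algebraMap K L (c / d)) * (t.1 : L) =
    ((s : L) - algebraMap K L c) - algebraMap K L (c / d) * ((t.1 : L) - algebraMap K L d)
  rw [map_div₀, ← hst']
  field_simp
  ring

/-- **Lemma Y.**  A local subring which is maximal among those with residue field `K` is maximal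
for domination. -/
theorem s26erk_isMax (R : LocalSubring L) (hR : Maximal (S26erkRat K) R) : IsMax R := by
  intro R' hRR'
  have key : ∀ x ∈ R'.toSubring, x ∈ R.toSubring := by
    intro x hx
    obtain ⟨S, hS⟩ : ∃ S : Subring L, S = Subring.closure ((R.toSubring : Set L) ∪ {x}) :=
      ⟨_, rfl⟩
    have hRS : R.toSubring ≤ S := fun r hr => hS ▸ Subring.subset_closure (Or.inl hr)
    have hxS : x ∈ S := hS ▸ Subring.subset_closure (Or.inr rfl)
    have hSR' : S ≤ R'.toSubring := by
      rw [hS]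
      exact Subring.closure_le.2 (Set.union_subset hRR'.1 (Set.singleton_subset_iff.2 hx))
    have hne : (maximalIdeal R.toSubring).map (Subring.inclusion hRS) ≠ ⊤ := by
      intro htop
      have h1 : (maximalIdeal R.toSubring).map (Subring.inclusion hRR'.1) ≤
          maximalIdeal R'.toSubring := ((local_hom_TFAE _).out 0 2).mp hRR'.2
      have h2 : (maximalIdeal R.toSubring).map (Subring.inclusion hRR'.1) = ⊤ := by
        have h3 : (Subring.inclusion hRR'.1) =
            (Subring.inclusion hSR').comp (Subring.inclusion hRS) := rfl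
        rw [h3, ← Ideal.map_map, htop, Ideal.map_top]
      exact (maximalIdeal.isMaximal R'.toSubring).ne_top (top_unique (h2 ▸ h1))
    obtain ⟨M, hM, hle⟩ := Ideal.exists_le_maximal _ hne
    haveI := hM.isPrime
    have hT : S26erkRat K (LocalSubring.ofPrime S M) :=
      s26erk_ofPrime_rat R hR.1 x S hS M hM hRS hle
    have hRT : R ≤ LocalSubring.ofPrime S M := by
      refine ⟨hRS.trans (LocalSubring.le_ofPrime ..), ((local_hom_TFAE _).out 2 0).mp ?_⟩
      conv_rhs => rw [← IsLocalization.AtPrime.map_eq_maximalIdeal M]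
      refine .trans ?_ (Ideal.map_mono hle)
      rw [Ideal.map_map]; rfl
    have hTR := hR.2 hT hRT
    exact hTR.1 (LocalSubring.le_ofPrime S M hxS)
  have : R' = R := LocalSubring.toSubring_injective (le_antisymm key hRR'.1)
  exact this ▸ le_rfl

/-- **Existence of a `K`-rational valuation ring with a given centre.** -/
theorem s26erk_exists_ge (R₀ : LocalSubring L) (h₀ : S26erkRat K R₀) :
    ∃ V : ValuationSubring L, R₀ ≤ V.toLocalSubring ∧ S26erkRat K V.toLocalSubring := by
  obtain ⟨m, hle, hmax⟩ := zorn_le_nonempty₀ {R : LocalSubring L | S26erkRat K R}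
    (fun c hcs hc y hy => s26erkRat_chain_ub c hcs hc ⟨y, hy⟩) R₀ h₀
  obtain ⟨V, hV⟩ := LocalSubring.exists_valuationRing_of_isMax (s26erk_isMax m hmax)
  exact ⟨V, hV ▸ hle, hV ▸ hmax.1⟩

end X

/-- the image of `K` in `L`, as a local subring -/
theorem s26erkRat_range : S26erkRat K (LocalSubring.range (algebraMap K L)) := by
  refine ⟨fun c => ⟨c, rfl⟩, ?_⟩
  rintro ⟨x, c, rfl⟩
  refine ⟨c, ?_⟩
  have : (⟨algebraMap K L c, ⟨c, rfl⟩⟩ : ↥(LocalSubring.range (algebraMap K L)).toSubring) -
      ⟨algebraMap K L c, ⟨c, rfl⟩⟩ = 0 := sub_self _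
  rw [this]
  exact Ideal.zero_mem _

/-- **(Ba).**  `K` algebraically closed, `L / K` any extension: there is a valuation subring of `L`
containing `K` with residue field `K`. -/
theorem s26erk_exists (K L : Type*) [Field K] [IsAlgClosed K] [Field L] [Algebra K L] :
    ∃ V : ValuationSubring L, S26erkRat K V.toLocalSubring :=
  let ⟨V, _, hV⟩ := s26erk_exists_ge _ (s26erkRat_range (K := K) (L := L))
  ⟨V, hV⟩

/-! ### The residue map of a `K`-rational valuation ring -/

section Res

/-- the `K`-algebra structure of a valuation subring containing `K` -/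
@[reducible] def s26erkAlgebra (K : Type*) {L : Type*} [Field K] [Field L] [Algebra K L]
    (V : ValuationSubring L) (hK : ∀ c : K, algebraMap K L c ∈ V) : Algebra K ↥V :=
  ((algebraMap K L).codRestrict V hK).toAlgebra

theorem s26erk_isScalarTower (K : Type*) {L : Type*} [Field K] [Field L] [Algebra K L]
    (V : ValuationSubring L) (hK : ∀ c : K, algebraMap K L c ∈ V) :
    letI := s26erkAlgebra K V hK
    IsScalarTower K ↥V L :=
  letI := s26erkAlgebra K V hK
  IsScalarTower.of_algebraMap_eq (fun _ => rfl)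

variable (V : ValuationSubring L) (hV : S26erkRat K V.toLocalSubring)

include hV in
theorem s26erk_algebraMap_mem (c : K) : algebraMap K L c ∈ V := hV.choose c

/-- the residue value of `x ∈ V` -/
noncomputable def s26erkVal (x : ↥V) : K := (hV.choose_spec x).choose

theorem s26erkVal_spec (x : ↥V) :
    x - ⟨algebraMap K L (s26erkVal V hV x), s26erk_algebraMap_mem V hV _⟩ ∈ maximalIdeal ↥V :=
  (hV.choose_spec x).choose_spec

theorem s26erk_const_not_mem (c : K) (hc : c ≠ 0) :
    (⟨algebraMap K L c, s26erk_algebraMap_mem V hV c⟩ : ↥V) ∉ maximalIdeal ↥V := by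
  intro h
  rw [mem_maximalIdeal, mem_nonunits_iff] at h
  apply h
  refine isUnit_iff_exists_inv.mpr ⟨⟨algebraMap K L c⁻¹, s26erk_algebraMap_mem V hV _⟩, ?_⟩
  apply Subtype.ext
  show algebraMap K L c * algebraMap K L c⁻¹ = 1
  rw [← map_mul, mul_inv_cancel₀ hc, map_one]

theorem s26erkVal_unique (x : ↥V) (c : K)
    (h : x - ⟨algebraMap K L c, s26erk_algebraMap_mem V hV c⟩ ∈ maximalIdeal ↥V) :
    s26erkVal V hV x = c := by
  by_contra hne
  have h1 := (maximalIdeal ↥V).sub_mem h (s26erkVal_spec V hV x)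
  have h2 : x - ⟨algebraMap K L c, s26erk_algebraMap_mem V hV c⟩ -
      (x - ⟨algebraMap K L (s26erkVal V hV x), s26erk_algebraMap_mem V hV _⟩) =
      ⟨algebraMap K L (s26erkVal V hV x - c), s26erk_algebraMap_mem V hV _⟩ := by
    apply Subtype.ext
    show (x : L) - algebraMap K L c - ((x : L) - algebraMap K L (s26erkVal V hV x)) =
      algebraMap K L (s26erkVal V hV x - c)
    rw [map_sub]
    ring
  rw [h2] at h1
  exact s26erk_const_not_mem V hV _ (sub_ne_zero.mpr hne) h1

theorem s26erkVal_const (c : K) :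
    s26erkVal V hV ⟨algebraMap K L c, s26erk_algebraMap_mem V hV c⟩ = c := by
  apply s26erkVal_unique
  rw [sub_self]
  exact Ideal.zero_mem _

/-- **the residue map `V → K`** of a `K`-rational valuation ring, as a `K`-algebra retraction -/
noncomputable def s26erkRes :
    letI := s26erkAlgebra K V hV.choose
    ↥V →ₐ[K] K :=
  letI := s26erkAlgebra K V hV.choose
  { toFun := s26erkVal V hV
    map_one' := by
      have := s26erkVal_const V hV (1 : K)
      convert this using 2
      exact Subtype.ext (map_one _).symm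
    map_zero' := by
      have := s26erkVal_const V hV (0 : K)
      convert this using 2
      exact Subtype.ext (map_zero _).symm
    map_mul' := by
      intro x y
      apply s26erkVal_unique
      have hx := s26erkVal_spec V hV x
      have hy := s26erkVal_spec V hV y
      have h := (maximalIdeal ↥V).add_mem ((maximalIdeal ↥V).mul_mem_left x hy)
        ((maximalIdeal ↥V).mul_mem_left
          ⟨algebraMap K L (s26erkVal V hV y), s26erk_algebraMap_mem V hV _⟩ hx)
      convert h using 1
      apply Subtype.ext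
      show (x : L) * (y : L) - algebraMap K L (s26erkVal V hV x * s26erkVal V hV y) =
        (x : L) * ((y : L) - algebraMap K L (s26erkVal V hV y)) +
          algebraMap K L (s26erkVal V hV y) * ((x : L) - algebraMap K L (s26erkVal V hV x))
      rw [map_mul]
      ring
    map_add' := by
      intro x y
      apply s26erkVal_unique
      have hx := s26erkVal_spec V hV x
      have hy := s26erkVal_spec V hV y
      have h := (maximalIdeal ↥V).add_mem hx hy
      convert h using 1
      apply Subtype.ext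
      show (x : L) + (y : L) - algebraMap K L (s26erkVal V hV x + s26erkVal V hV y) =
        (x : L) - algebraMap K L (s26erkVal V hV x) +
          ((y : L) - algebraMap K L (s26erkVal V hV y))
      rw [map_add]
      ring
    commutes' := fun c => s26erkVal_const V hV c }

theorem s26erkRes_apply (x : ↥V) :
    letI := s26erkAlgebra K V hV.choose
    s26erkRes V hV x = s26erkVal V hV x := rfl

theorem s26erkRes_surjective :
    letI := s26erkAlgebra K V hV.choose
    Function.Surjective (s26erkRes V hV) := fun c =>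
  ⟨⟨algebraMap K L c, s26erk_algebraMap_mem V hV c⟩, s26erkVal_const V hV c⟩

/-- the kernel of the residue map is the maximal ideal -/
theorem s26erkVal_eq_zero_iff (x : ↥V) : s26erkVal V hV x = 0 ↔ x ∈ maximalIdeal ↥V := by
  have h0 : (⟨algebraMap K L 0, s26erk_algebraMap_mem V hV 0⟩ : ↥V) = 0 :=
    Subtype.ext (map_zero _)
  constructor
  · intro h
    have := s26erkVal_spec V hV x
    rwa [h, h0, sub_zero] at this
  · intro h
    apply s26erkVal_unique
    rwa [h0, sub_zero]

/-- ... in terms of the non-units of `V` -/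
theorem s26erkVal_eq_zero_iff' (x : ↥V) : s26erkVal V hV x = 0 ↔ (x : L) ∈ V.nonunits := by
  rw [s26erkVal_eq_zero_iff, ValuationSubring.mem_nonunits_iff_exists_mem_maximalIdeal]
  exact ⟨fun h => ⟨x.2, h⟩, fun ⟨_, h⟩ => h⟩

end Res

/-- **(Ba), packaged.**  `K` algebraically closed, `L / K` any extension: there are a valuation
subring `V ⊇ K` of `L` and a `K`-algebra retraction `res : V → K` with kernel `𝔪_V`. -/
theorem s26erk_exists_res (K L : Type*) [Field K] [IsAlgClosed K] [Field L] [Algebra K L] :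
    ∃ (V : ValuationSubring L) (_ : Algebra K ↥V) (_ : IsScalarTower K ↥V L) (res : ↥V →ₐ[K] K),
      Function.Surjective res ∧ ∀ x : ↥V, res x = 0 ↔ (x : L) ∈ V.nonunits := by
  obtain ⟨V, hV⟩ := s26erk_exists K L
  exact ⟨V, s26erkAlgebra K V hV.choose, s26erk_isScalarTower K V hV.choose, s26erkRes V hV,
    s26erkRes_surjective V hV, s26erkVal_eq_zero_iff' V hV⟩

end Fermat.Agent.S26
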