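/-
S26, wall (E), piece **E-RED**, half B, part (Ba) (helper12, for helper17), part 2:
**the Gauss reduction of `Frac (L ⊗[K] Γ) / L` to `Γ / K`** along a `K`-rational valuation ring.

`K` a field, `Γ / K` a field, `L / K` a field with a valuation ring `V ⊇ K` and a `K`-algebra
retraction `res : V → K`; `F` a fraction field of `L ⊗[K] Γ`.  The special fibre is `Γ` ITSELF
(`k = K`, `Fb = Γ`, `K ⊗[K] Γ = Γ` by `Algebra.TensorProduct.lid`).

* `s26erkLid K Γ : Algebra (K ⊗[K] Γ) Γ` (a `def`, used by `letI`), `s26erkLid_tower`,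
  `s26erkLid_injective`.
* `s26erkData K Γ V res F hres : DEU.RedData L F K Γ`  (`= s26ergData` at `k = K`, `Fb = Γ`).
* `s26erk_iota_mem`, `s26erk_red_iota` : `red (ι t) = lid ((res ⊗ id) t)` for `t ∈ V ⊗[K] Γ`;
  `s26erk_fun_mem`, `s26erk_red_fun` : `red (1 ⊗ u) = u` for `u ∈ Γ`.
* `s26erk_q2` : `dim_L W ≤ dim_K red(W)`;  `s26erk_mem_or_inv_mem` : `O` is a valuation ring.
* **`s26erk_exists_data`** : `K` algebraically closed ⇒ such a `RedData` EXISTS, for every
  extension `L / K` (by `s26erk_exists_res`).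
-/
import Fermat.Agent.S26.ERedRat
import Fermat.Agent.S26.ERedGaussQ2

set_option autoImplicit false
set_option linter.unusedSectionVars false
set_option linter.style.haveILetI false

noncomputable section

namespace Fermat.Agent.S26

open TensorProduct Module

section Lid

variable (K : Type*) [Field K] (Γ : Type*) [Field Γ] [Algebra K Γ]

/-- `K ⊗[K] Γ = Γ`, as an algebra structure (NOT an instance: use `letI`) -/
@[reducible] def s26erkLid : Algebra (K ⊗[K] Γ) Γ :=
  (Algebra.TensorProduct.lid K Γ).toAlgHom.toRingHom.toAlgebra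

theorem s26erkLid_apply (t : K ⊗[K] Γ) :
    letI := s26erkLid K Γ
    algebraMap (K ⊗[K] Γ) Γ t = Algebra.TensorProduct.lid K Γ t := rfl

theorem s26erkLid_tower :
    letI := s26erkLid K Γ
    IsScalarTower K (K ⊗[K] Γ) Γ :=
  letI := s26erkLid K Γ
  IsScalarTower.of_algebraMap_eq (R := K) (S := K ⊗[K] Γ) (A := Γ) (fun c => by
    rw [s26erkLid_apply, Algebra.TensorProduct.algebraMap_apply,
      Algebra.TensorProduct.lid_tmul, Algebra.algebraMap_eq_smul_one]
    rfl)

theorem s26erkLid_injective :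
    letI := s26erkLid K Γ
    Function.Injective (algebraMap (K ⊗[K] Γ) Γ) :=
  (Algebra.TensorProduct.lid K Γ).injective

end Lid

variable (K : Type*) [Field K] {L : Type*} [Field L] [Algebra K L]
  (Γ : Type*) [Field Γ] [Algebra K Γ]
  (V : ValuationSubring L) [Algebra K ↥V] [IsScalarTower K ↥V L]
  (res : ↥V →ₐ[K] K)
  (F : Type*) [Field F] [Algebra L F] [Algebra (L ⊗[K] Γ) F]
  [IsScalarTower L (L ⊗[K] Γ) F] [IsFractionRing (L ⊗[K] Γ) F]

/-- **The Gauss reduction of `F = Frac (L ⊗[K] Γ)` over `L` to `Γ` over `K`**, along a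
`K`-rational valuation ring `V` of `L`. -/
def s26erkData (hres : Function.Surjective res) : DEU.RedData L F K Γ :=
  letI := s26erkLid K Γ
  haveI := s26erkLid_tower K Γ
  s26ergData K Γ V res F Γ hres (s26erkLid_injective K Γ)

variable {K Γ V res F}

@[simp] theorem s26erkData_A (hres : Function.Surjective res) :
    (s26erkData K Γ V res F hres).A = V := rfl

theorem s26erkData_res (hres : Function.Surjective res) (a : ↥V) :
    (s26erkData K Γ V res F hres).res a = res a := rfl

theorem s26erk_iota_mem (hres : Function.Surjective res) (t : ↥V ⊗[K] Γ) :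
    s26ergIota K Γ V F t ∈ (s26erkData K Γ V res F hres).O :=
  letI := s26erkLid K Γ
  haveI := s26erkLid_tower K Γ
  s26ergIota_mem_O t

/-- `red (ι t) = lid ((res ⊗ id) t)` -/
theorem s26erk_red_iota (hres : Function.Surjective res) (t : ↥V ⊗[K] Γ) :
    (s26erkData K Γ V res F hres).red ⟨s26ergIota K Γ V F t, s26erk_iota_mem hres t⟩ =
      Algebra.TensorProduct.lid K Γ (s26ergRho K Γ V res t) :=
  letI := s26erkLid K Γ
  haveI := s26erkLid_tower K Γ
  s26erg_red_iota t

theorem s26erk_fun_mem (hres : Function.Surjective res) (u : Γ) :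
    algebraMap (L ⊗[K] Γ) F ((1 : L) ⊗ₜ[K] u) ∈ (s26erkData K Γ V res F hres).O :=
  s26erk_iota_mem hres ((1 : ↥V) ⊗ₜ[K] u)

/-- **`red (1 ⊗ u) = u`** -/
theorem s26erk_red_fun (hres : Function.Surjective res) (u : Γ) :
    (s26erkData K Γ V res F hres).red
      ⟨algebraMap (L ⊗[K] Γ) F ((1 : L) ⊗ₜ[K] u), s26erk_fun_mem hres u⟩ = u := by
  have h := s26erk_red_iota (F := F) hres ((1 : ↥V) ⊗ₜ[K] u)
  rw [s26ergRho_tmul, map_one, Algebra.TensorProduct.lid_tmul, one_smul] at h
  exact h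

/-- **(Q2)**: `dim_L W ≤ dim_K red(W)` -/
theorem s26erk_q2 (hres : Function.Surjective res) (W : Submodule L F) (hW : Module.Finite L W) :
    finrank L W ≤ finrank K ↥((s26erkData K Γ V res F hres).redSpace W) :=
  letI := s26erkLid K Γ
  haveI := s26erkLid_tower K Γ
  s26erg_q2 hres (s26erkLid_injective K Γ) W hW

/-- `O` is a valuation ring of `F` -/
theorem s26erk_mem_or_inv_mem (hres : Function.Surjective res) (f : F) :
    f ∈ (s26erkData K Γ V res F hres).O ∨ f⁻¹ ∈ (s26erkData K Γ V res F hres).O :=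
  letI := s26erkLid K Γ
  haveI := s26erkLid_tower K Γ
  s26erg_mem_or_inv_mem (s26erkLid_injective K Γ) f

/-- **(Ba), final form.**  `K` algebraically closed, `L / K` ANY field extension, `F` a fraction
field of `L ⊗[K] Γ`: there is a reduction `(L, F) ⇝ (K, Γ)` which is the identity on `Γ`, with
`(Q2)`, whose ring of integral elements is a valuation ring of `F`. -/
theorem s26erk_exists_data (K : Type*) [Field K] [IsAlgClosed K] {L : Type*} [Field L]
    [Algebra K L] (Γ : Type*) [Field Γ] [Algebra K Γ]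
    (F : Type*) [Field F] [Algebra L F] [Algebra (L ⊗[K] Γ) F]
    [IsScalarTower L (L ⊗[K] Γ) F] [IsFractionRing (L ⊗[K] Γ) F] :
    ∃ R : DEU.RedData L F K Γ,
      (∀ c : K, ∃ h : algebraMap K L c ∈ R.A, R.res ⟨_, h⟩ = c) ∧
      (∀ u : Γ, ∃ h : algebraMap (L ⊗[K] Γ) F ((1 : L) ⊗ₜ[K] u) ∈ R.O, R.red ⟨_, h⟩ = u) ∧
      (∀ W : Submodule L F, Module.Finite L W → finrank L W ≤ finrank K ↥(R.redSpace W)) ∧
      ∀ f : F, f ∈ R.O ∨ f⁻¹ ∈ R.O := by
  obtain ⟨V, hV⟩ := s26erk_exists K L
  letI := s26erkAlgebra K V hV.choose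
  haveI := s26erk_isScalarTower K V hV.choose
  refine ⟨s26erkData K Γ V (s26erkRes V hV) F (s26erkRes_surjective V hV), ?_, ?_, ?_, ?_⟩
  · intro c
    exact ⟨hV.choose c, s26erkVal_const V hV c⟩
  · intro u
    exact ⟨s26erk_fun_mem _ u, s26erk_red_fun _ u⟩
  · exact fun W hW => s26erk_q2 _ W hW
  · exact fun f => s26erk_mem_or_inv_mem _ f

end Fermat.Agent.S26
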