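/-
S26-E, piece E-RED, part INST (helper93): the ADAPTER between

* THE shape of the constant extension (helper96, S26/ERRGaussPlace.lean): fields `K ⊆ Γ`, `K ⊆ L`,
  `F ⊇ Γ, L` with `[Algebra Γ F] [Algebra L F]`, `hld : Function.Injective (s26gspMu K Γ L F)`
  (`μ : Γ ⊗[K] L → F`), `hgen : S26gspGen K Γ L F`; the same for `k`, `Fb`;
* helper12's Gauss reduction `s26ergData` (S26/ERedGauss.lean), which wants `F` as a fraction ring of
  `L ⊗[K] Γ` (`[Algebra (L ⊗[K] Γ) F] [IsFractionRing (L ⊗[K] Γ) F]`, the other tensor order);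
* the shapes of `s26erb_anchor` / `s26era_hyp` / `s26etir_redAt` / `S26erigRed`.

Results (`V` a valuation subring of `L` containing `K` (`hKV`), `res : V →+* k` onto (`hres`),
`K`-linear (`hresK`)):
* `s26eriNu : L ⊗[K] Γ →ₐ[L] F`, `s26eriAlg`, `s26eri_tower`, `s26eri_isFractionRing hld hgen`;
* `s26eriData hld hgen hldk V hKV res hresK hres : DEU.RedData L F k Fb` with `A = V`
  (`s26eriData_A`, by `rfl`), `res` (`s26eriData_res`);
* `s26eri_mem`, `s26eri_red` : `Γ ⊆ O`, `red|Γ = algebraMap Γ Fb`;  `s26eri_mul_mem`,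
  `s26eri_red_mul` : the same for `l · γ`;  `s26eri_q2` : (Q2);
  `s26eri_mem_or_inv_mem` : `O` is a valuation ring;
* `s26eri_ord`, `s26eri_ex`, `s26eri_pole`, `s26eri_const`, `s26eri_ld` : the (RR-C) shapes for
  `con = s26gspCon hld hgen hall` and `ιF = algebraMap Γ F` (use them at `(k, Fb)` for `conk`);
* `s26eri_exists_data0` : the reduction `(L, F) ⇝ (K, Γ)` (instance 0, `K` algebraically closed).
-/
import Fermat.Agent.S26.ERedGaussQ2
import Fermat.Agent.S26.ERedRatData
import Fermat.Agent.S26.ERRGaussCon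
import Fermat.Agent.S26.ERedOut
import Fermat.Agent.S26.ERedOutB
import Fermat.Agent.S26.ERedAsm

set_option autoImplicit false
set_option linter.unusedSectionVars false
set_option linter.unusedVariables false
set_option linter.style.haveILetI false

noncomputable section

namespace Fermat.Agent.S26

open TensorProduct AlgebraicCurve Module Fermat.Agent.DEU

/-! ### `F` is a fraction ring of `L ⊗[K] Γ` -/

section Frac

variable (K Γ L F : Type*) [Field K] [Field Γ] [Field L] [Field F]
  [Algebra K Γ] [Algebra K L] [Algebra K F] [Algebra Γ F] [Algebra L F]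
  [IsScalarTower K Γ F] [IsScalarTower K L F]

/-- `ν : L ⊗[K] Γ → F`, `l ⊗ γ ↦ l γ` (the map `μ` of RR-C in the other tensor order). -/
def s26eriNu : L ⊗[K] Γ →ₐ[L] F :=
  Algebra.TensorProduct.productLeftAlgHom (Algebra.ofId L F) (IsScalarTower.toAlgHom K Γ F)

@[simp] theorem s26eriNu_tmul (l : L) (γ : Γ) :
    s26eriNu K Γ L F (l ⊗ₜ[K] γ) = algebraMap L F l * algebraMap Γ F γ := by
  simp [s26eriNu, Algebra.ofId_apply]

theorem s26eriNu_eq (x : L ⊗[K] Γ) :
    s26eriNu K Γ L F x = s26gspMu K Γ L F (TensorProduct.comm K L Γ x) := by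
  induction x using TensorProduct.induction_on with
  | zero => simp
  | tmul l γ => rw [s26eriNu_tmul, TensorProduct.comm_tmul, s26gspMu_tmul, mul_comm]
  | add x y hx hy => rw [map_add, map_add, map_add, hx, hy]

theorem s26eriNu_comm_symm (y : Γ ⊗[K] L) :
    s26eriNu K Γ L F ((TensorProduct.comm K L Γ).symm y) = s26gspMu K Γ L F y := by
  rw [s26eriNu_eq, LinearEquiv.apply_symm_apply]

variable {K Γ L F}

theorem s26eriNu_injective (hld : Function.Injective (s26gspMu K Γ L F)) :
    Function.Injective (s26eriNu K Γ L F) := by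
  intro x y h
  rw [s26eriNu_eq, s26eriNu_eq] at h
  exact (TensorProduct.comm K L Γ).injective (hld h)

variable (K Γ L F)

/-- the `L ⊗[K] Γ`-algebra structure of `F` -/
@[reducible] def s26eriAlg : Algebra (L ⊗[K] Γ) F := (s26eriNu K Γ L F).toRingHom.toAlgebra

theorem s26eriAlg_algebraMap (x : L ⊗[K] Γ) :
    letI := s26eriAlg K Γ L F
    algebraMap (L ⊗[K] Γ) F x = s26eriNu K Γ L F x := rfl

theorem s26eri_tower :
    letI := s26eriAlg K Γ L F
    IsScalarTower L (L ⊗[K] Γ) F := by
  letI := s26eriAlg K Γ L F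
  refine IsScalarTower.of_algebraMap_eq fun l => ?_
  rw [s26eriAlg_algebraMap, Algebra.TensorProduct.algebraMap_apply, s26eriNu_tmul, map_one,
    mul_one]
  rfl

variable {K Γ L F}

theorem s26eri_isFractionRing (hld : Function.Injective (s26gspMu K Γ L F))
    (hgen : S26gspGen K Γ L F) :
    letI := s26eriAlg K Γ L F
    IsFractionRing (L ⊗[K] Γ) F := by
  letI := s26eriAlg K Γ L F
  haveI : FaithfulSMul (L ⊗[K] Γ) F :=
    (faithfulSMul_iff_algebraMap_injective _ _).2 (s26eriNu_injective hld)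
  refine IsFractionRing.of_field (L ⊗[K] Γ) F fun z => ?_
  obtain ⟨A, B, hB, hz⟩ := hgen z
  refine ⟨(TensorProduct.comm K L Γ).symm A, (TensorProduct.comm K L Γ).symm B, ?_⟩
  rw [s26eriAlg_algebraMap, s26eriAlg_algebraMap, s26eriNu_comm_symm, s26eriNu_comm_symm,
    eq_div_iff hB, hz]

end Frac

/-! ### The Gauss reduction in THE shape -/

section Data

variable {K Γ L F k Fb : Type*} [Field K] [Field Γ] [Field L] [Field F] [Field k] [Field Fb]
  [Algebra K Γ] [Algebra K L] [Algebra K F] [Algebra Γ F] [Algebra L F]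
  [IsScalarTower K Γ F] [IsScalarTower K L F]
  [Algebra K k] [Algebra K Fb] [Algebra Γ Fb] [Algebra k Fb]
  [IsScalarTower K Γ Fb] [IsScalarTower K k Fb]

/-- the residue map as a `K`-algebra map -/
def s26eriRes (V : ValuationSubring L) (hKV : ∀ c : K, algebraMap K L c ∈ V) (res : ↥V →+* k)
    (hresK : ∀ c : K, res ⟨algebraMap K L c, hKV c⟩ = algebraMap K k c) :
    letI := s26erkAlgebra K V hKV
    ↥V →ₐ[K] k :=
  letI := s26erkAlgebra K V hKV
  { res with commutes' := hresK }

theorem s26eriRes_apply (V : ValuationSubring L) (hKV : ∀ c : K, algebraMap K L c ∈ V)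
    (res : ↥V →+* k) (hresK : ∀ c : K, res ⟨algebraMap K L c, hKV c⟩ = algebraMap K k c)
    (a : ↥V) :
    letI := s26erkAlgebra K V hKV
    s26eriRes V hKV res hresK a = res a := rfl

variable (hld : Function.Injective (s26gspMu K Γ L F)) (hgen : S26gspGen K Γ L F)
  (hldk : Function.Injective (s26gspMu K Γ k Fb))
  (V : ValuationSubring L) (hKV : ∀ c : K, algebraMap K L c ∈ V) (res : ↥V →+* k)
  (hresK : ∀ c : K, res ⟨algebraMap K L c, hKV c⟩ = algebraMap K k c)
  (hres : Function.Surjective res)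

/-- **The Gauss reduction of the constant curve `Γ` along `V ⊂ L`, in THE shape**
(`F = Frac (Γ ⊗[K] L)` through `hld`, `hgen`; `Γ ⊗[K] k ↪ Fb` through `hldk`). -/
def s26eriData : RedData L F k Fb :=
  letI := s26erkAlgebra K V hKV
  haveI := s26erk_isScalarTower K V hKV
  letI := s26eriAlg K Γ L F
  haveI := s26eri_tower K Γ L F
  haveI := s26eri_isFractionRing hld hgen
  letI := s26eriAlg K Γ k Fb
  haveI := s26eri_tower K Γ k Fb
  s26ergData K Γ V (s26eriRes V hKV res hresK) F Fb hres (s26eriNu_injective hldk)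

@[simp] theorem s26eriData_A : (s26eriData hld hgen hldk V hKV res hresK hres).A = V := rfl

theorem s26eriData_res (a : ↥V) :
    (s26eriData hld hgen hldk V hKV res hresK hres).res a = res a := rfl

/-- the elements `l · γ` (`l ∈ V`, `γ ∈ Γ`) are Gauss-integral -/
theorem s26eri_mul_mem (a : ↥V) (u : Γ) :
    algebraMap L F (a : L) * algebraMap Γ F u ∈
      (s26eriData hld hgen hldk V hKV res hresK hres).O := by
  letI := s26erkAlgebra K V hKV
  haveI := s26erk_isScalarTower K V hKV
  letI := s26eriAlg K Γ L F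
  haveI := s26eri_tower K Γ L F
  haveI := s26eri_isFractionRing hld hgen
  letI := s26eriAlg K Γ k Fb
  haveI := s26eri_tower K Γ k Fb
  have h := s26ergIota_mem_O (K := K) (Γ := Γ) (V := V) (res := s26eriRes V hKV res hresK)
    (F := F) (Fb := Fb) (a ⊗ₜ[K] u)
  have e : s26ergIota K Γ V F (a ⊗ₜ[K] u) = algebraMap L F (a : L) * algebraMap Γ F u := by
    show s26eriNu K Γ L F ((a : L) ⊗ₜ[K] u) = _
    rw [s26eriNu_tmul]
  rw [e] at h
  exact h

/-- … and reduce to `res l · γ` -/
theorem s26eri_red_mul (a : ↥V) (u : Γ) :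
    (s26eriData hld hgen hldk V hKV res hresK hres).red
      ⟨algebraMap L F (a : L) * algebraMap Γ F u, s26eri_mul_mem hld hgen hldk V hKV res hresK hres
        a u⟩ = algebraMap k Fb (res a) * algebraMap Γ Fb u := by
  letI := s26erkAlgebra K V hKV
  haveI := s26erk_isScalarTower K V hKV
  letI := s26eriAlg K Γ L F
  haveI := s26eri_tower K Γ L F
  haveI := s26eri_isFractionRing hld hgen
  letI := s26eriAlg K Γ k Fb
  haveI := s26eri_tower K Γ k Fb
  have h := s26erg_red_iota (K := K) (Γ := Γ) (V := V) (res := s26eriRes V hKV res hresK)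
    (F := F) (Fb := Fb) (a ⊗ₜ[K] u)
  have e : s26ergIota K Γ V F (a ⊗ₜ[K] u) = algebraMap L F (a : L) * algebraMap Γ F u := by
    show s26eriNu K Γ L F ((a : L) ⊗ₜ[K] u) = _
    rw [s26eriNu_tmul]
  have e' : s26ergBar K Γ V (s26eriRes V hKV res hresK) Fb (a ⊗ₜ[K] u) =
      algebraMap k Fb (res a) * algebraMap Γ Fb u := by
    show s26eriNu K Γ k Fb ((res a) ⊗ₜ[K] u) = _
    rw [s26eriNu_tmul]
  rw [← e', ← h]
  congr 1

/-- **`hmem` / `hO`**: the functions of `Γ` are Gauss-integral. -/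
theorem s26eri_mem (u : Γ) :
    algebraMap Γ F u ∈ (s26eriData hld hgen hldk V hKV res hresK hres).O := by
  have h := s26eri_mul_mem hld hgen hldk V hKV res hresK hres 1 u
  rwa [OneMemClass.coe_one, map_one, one_mul] at h

/-- **`hred`**: the functions of `Γ` reduce to themselves. -/
theorem s26eri_red (u : Γ) :
    (s26eriData hld hgen hldk V hKV res hresK hres).red
      ⟨algebraMap Γ F u, s26eri_mem hld hgen hldk V hKV res hresK hres u⟩ =
        algebraMap Γ Fb u := by
  have h := s26eri_red_mul hld hgen hldk V hKV res hresK hres 1 u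
  rw [map_one, map_one, one_mul] at h
  rw [← h]
  congr 1
  apply Subtype.ext
  simp

/-- **(Q2)** for the Gauss reduction in THE shape. -/
theorem s26eri_q2 (W : Submodule L F) (hW : Module.Finite L W) :
    finrank L W ≤
      finrank k ↥((s26eriData hld hgen hldk V hKV res hresK hres).redSpace W) := by
  letI := s26erkAlgebra K V hKV
  haveI := s26erk_isScalarTower K V hKV
  letI := s26eriAlg K Γ L F
  haveI := s26eri_tower K Γ L F
  haveI := s26eri_isFractionRing hld hgen
  letI := s26eriAlg K Γ k Fb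
  haveI := s26eri_tower K Γ k Fb
  exact s26erg_q2 (K := K) (Γ := Γ) (V := V) (res := s26eriRes V hKV res hresK) (F := F)
    (Fb := Fb) hres (s26eriNu_injective hldk) W hW

/-- `O` is a valuation ring of `F`. -/
theorem s26eri_mem_or_inv_mem (f : F) :
    f ∈ (s26eriData hld hgen hldk V hKV res hresK hres).O ∨
      f⁻¹ ∈ (s26eriData hld hgen hldk V hKV res hresK hres).O := by
  letI := s26erkAlgebra K V hKV
  haveI := s26erk_isScalarTower K V hKV
  letI := s26eriAlg K Γ L F
  haveI := s26eri_tower K Γ L F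
  haveI := s26eri_isFractionRing hld hgen
  letI := s26eriAlg K Γ k Fb
  haveI := s26eri_tower K Γ k Fb
  exact s26erg_mem_or_inv_mem (K := K) (Γ := Γ) (V := V) (res := s26eriRes V hKV res hresK)
    (F := F) (Fb := Fb) (s26eriNu_injective hldk) f

end Data

/-! ### The shapes of (RR-C) for `ιF = algebraMap Γ F` -/

section Shapes

variable {K Γ L F : Type*} [Field K] [Field Γ] [Field L] [Field F]
  [Algebra K Γ] [Algebra K L] [Algebra K F] [Algebra Γ F] [Algebra L F]
  [IsScalarTower K Γ F] [IsScalarTower K L F]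
  (hld : Function.Injective (s26gspMu K Γ L F)) (hgen : S26gspGen K Γ L F)
  (hall : ∀ P : Place K Γ, Function.Surjective (algebraMap K P.ResidueField))

/-- **`hcon_ord` / `hordF`** -/
theorem s26eri_ord (Q : Place K Γ) (u : Γ) :
    (s26gspCon hld hgen hall Q).ord (algebraMap Γ F u) = Q.ord u :=
  s26gspc_ord_algebraMap hld hgen hall Q u

/-- **`hcon_ex` / `hexF`**: a place of `F / L` which is nontrivial on `Γ` is a constant place. -/
theorem s26eri_ex (w : Place L F) (u : Γ) (h : w.ord (algebraMap Γ F u) ≠ 0) :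
    ∃ Q, w = s26gspCon hld hgen hall Q :=
  s26gspPlace_exists_of_nontrivial hld hgen hall w ⟨u, h⟩

/-- **`hpoleF`** (the pole shape of `s26erb_anchor`) -/
theorem s26eri_pole (u : Γ) (P : Place L F) (h : P.ord (algebraMap Γ F u) < 0) :
    ∃ Q, P = s26gspCon hld hgen hall Q :=
  s26eri_ex hld hgen hall P u (ne_of_lt h)

include hld in
/-- **`hconst` / `hΓL`**: `Γ ∩ L = K` in `F`. -/
theorem s26eri_const (u : Γ) (c : L) (h : algebraMap Γ F u = algebraMap L F c) :
    ∃ a : K, u = algebraMap K Γ a :=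
  s26gspc_hΓL hld u c h

include hld in
/-- **`hld`**: `K`-independent families of `Γ` stay independent over `L`. -/
theorem s26eri_ld (n : ℕ) (v : Fin n → Γ) (hv : LinearIndependent K v) :
    LinearIndependent L (fun i => algebraMap Γ F (v i)) :=
  s26erob_hldF hld n v hv

include hld hgen in
/-- **The reduction `(L, F) ⇝ (K, Γ)`** (instance 0) in THE shape: the identity on `Γ`, with
(Q2), whose ring of integral elements is a valuation ring of `F`. -/
theorem s26eri_exists_data0 [IsAlgClosed K] :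
    ∃ R₀ : RedData L F K Γ,
      (∀ c : K, ∃ h : algebraMap K L c ∈ R₀.A, R₀.res ⟨_, h⟩ = c) ∧
      (∃ hO₀ : ∀ u : Γ, algebraMap Γ F u ∈ R₀.O, ∀ u : Γ, R₀.red ⟨algebraMap Γ F u, hO₀ u⟩ = u) ∧
      (∀ W : Submodule L F, Module.Finite L W → finrank L W ≤ finrank K ↥(R₀.redSpace W)) ∧
      ∀ f : F, f ∈ R₀.O ∨ f⁻¹ ∈ R₀.O := by
  letI := s26eriAlg K Γ L F
  haveI := s26eri_tower K Γ L F
  haveI := s26eri_isFractionRing hld hgen
  obtain ⟨R₀, h1, h2, h3, h4⟩ := s26erk_exists_data K Γ F (L := L)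
  have e : ∀ u : Γ, algebraMap (L ⊗[K] Γ) F ((1 : L) ⊗ₜ[K] u) = algebraMap Γ F u := by
    intro u
    show s26eriNu K Γ L F ((1 : L) ⊗ₜ[K] u) = _
    rw [s26eriNu_tmul, map_one, one_mul]
  have hO₀ : ∀ u : Γ, algebraMap Γ F u ∈ R₀.O := fun u => by
    rw [← e u]
    exact (h2 u).choose
  refine ⟨R₀, h1, ⟨hO₀, fun u => ?_⟩, h3, h4⟩
  have h5 := (h2 u).choose_spec
  have h6 : (⟨algebraMap Γ F u, hO₀ u⟩ : R₀.O) =
      ⟨algebraMap (L ⊗[K] Γ) F ((1 : L) ⊗ₜ[K] u), (h2 u).choose⟩ := Subtype.ext (e u).symm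
  rw [h6]
  exact h5

end Shapes

end Fermat.Agent.S26
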