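import Fermat.Agent.DEU.Defs
import Fermat.Agent.S24.PlaceBasic

/-!
# S26-E-RED-EVAL: evaluation and surjectivity of a reduction of places, in `Type*`

`Type*` port of `W1/GeoEval.lean` (which lives in universe `0` and on `W1.PRData`), on top of a
`DEU.RedData K F k Fb` (`R.A ⊂ K` a valuation ring with residue map `R.res : R.A → k`, `R.O ⊂ F`
the Gauss ring with `R.red : R.O → Fb`), a map `r : Place K F → Place k Fb` and the single
identity

  `s26eredev_RDiv R r` : `r_*(div u) = div(ū)` for `u ∈ O` with `ū ≠ 0`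

(this is the second component of `DEU.Hyp.exists_reduction`).  No `PRData`, no genus, no Riemann.

Main results:

* `s26eredev_HasValueAt P f a` : `f(P) = a`, i.e. `f - a ∈ 𝔪_P`;
  `s26eredev_hasValueAt_unique`, `s26eredev_hasValueAt_iff_ord_pos`, `s26eredev_exists_value`;
* `s26eredev_res_eq_zero_iff` : `R.res a = 0 ↔ a ∈ 𝔪_A` (from the fields of `RedData`);
* `s26eredev_sum_ord_le`, `s26eredev_exists_ord_ne_zero` : consequences of `r_*(div u) = div ū`;
* **(E1)** `s26eredev_onto` : if `red` is onto then `r` is onto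
  (pointwise form `s26eredev_onto_at`);
* **(E2)** `s26eredev_eval` : `f ∈ O`, no pole of `f` reduces to `r P`, `P` of degree one
  ⇒ `f(P) ∈ A` and `f(P)‾ = f̄(r P)`;
  `s26eredev_eval_value` : the same for a given value `a = f(P)` (no hypothesis on the degree of
  `P`; `a ∈ A` is a conclusion); `s26eredev_eval_unique` : every value `b` of `f̄` at `r P` is
  `res (f(P))`; `s26eredev_eval_mem` : `f̄` is regular at `r P`;
* **(L1)** `s26eredev_disc` : the disc (`P ↦ t(P) - c` is a bijection `r⁻¹(Q) → 𝔪_A` if `t̄ - c̄`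
  has a simple zero at `Q` and poles of `t` reduce to poles of `t̄`).
-/

set_option autoImplicit false

open AlgebraicCurve Module

namespace Fermat.Agent.S26

open Fermat.Agent.S24 Fermat.Agent.DEU

/-! ### Values -/

section Values

variable {K F : Type*} [Field K] [Field F] [Algebra K F]

/-- `f(P) = a` : the function `f` is regular at the place `P` with value `a`. -/
def s26eredev_HasValueAt (P : Place K F) (f : F) (a : K) : Prop :=
  f - algebraMap K F a ∈ P.toValuationSubring.nonunits

theorem s26eredev_nonunits_sub {B : ValuationSubring F} {x y : F} (hx : x ∈ B.nonunits)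
    (hy : y ∈ B.nonunits) : x - y ∈ B.nonunits := by
  rw [ValuationSubring.mem_nonunits_iff_exists_mem_maximalIdeal] at hx hy ⊢
  obtain ⟨hx1, hx2⟩ := hx
  obtain ⟨hy1, hy2⟩ := hy
  exact ⟨sub_mem hx1 hy1, (IsLocalRing.maximalIdeal B).sub_mem hx2 hy2⟩

theorem s26eredev_nonunits_mul_mem {B : ValuationSubring F} {x y : F} (hx : x ∈ B)
    (hy : y ∈ B.nonunits) : x * y ∈ B.nonunits := by
  rw [ValuationSubring.mem_nonunits_iff_exists_mem_maximalIdeal] at hy ⊢
  obtain ⟨hy1, hy2⟩ := hy
  exact ⟨mul_mem hx hy1, (IsLocalRing.maximalIdeal B).mul_mem_left ⟨x, hx⟩ hy2⟩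

theorem s26eredev_nonunits_mem {B : ValuationSubring F} {x : F} (hx : x ∈ B.nonunits) :
    x ∈ B := by
  rw [ValuationSubring.mem_nonunits_iff_exists_mem_maximalIdeal] at hx
  exact hx.1

theorem s26eredev_zero_mem_nonunits (B : ValuationSubring F) : (0 : F) ∈ B.nonunits := by
  rw [ValuationSubring.mem_nonunits_iff_or]
  exact Or.inl rfl

/-- A constant lies in the maximal ideal of a place only if it is zero. -/
theorem s26eredev_algebraMap_mem_nonunits_iff (P : Place K F) (a : K) :
    algebraMap K F a ∈ P.toValuationSubring.nonunits ↔ a = 0 := by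
  constructor
  · intro h
    by_contra ha
    rw [ValuationSubring.mem_nonunits_iff_or] at h
    rcases h with h | h
    · exact ha ((map_eq_zero _).mp h)
    · apply h
      rw [← map_inv₀]
      exact P.algebraMap_mem' _
  · rintro rfl
    rw [map_zero]
    exact s26eredev_zero_mem_nonunits _

theorem s26eredev_hasValueAt_iff_ord_pos (P : Place K F) {f : F} {a : K}
    (h : f - algebraMap K F a ≠ 0) :
    s26eredev_HasValueAt P f a ↔ 0 < P.ord (f - algebraMap K F a) :=
  (PlaceAux.ord_pos_iff_mem_nonunits P h).symm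

theorem s26eredev_hasValueAt_of_eq (P : Place K F) {f : F} {a : K}
    (h : f - algebraMap K F a = 0) : s26eredev_HasValueAt P f a := by
  unfold s26eredev_HasValueAt
  rw [h]
  exact s26eredev_zero_mem_nonunits _

/-- the value of a constant -/
theorem s26eredev_hasValueAt_const (P : Place K F) (a : K) :
    s26eredev_HasValueAt P (algebraMap K F a) a :=
  s26eredev_hasValueAt_of_eq P (sub_self _)

theorem s26eredev_hasValueAt_unique (P : Place K F) {f : F} {a b : K}
    (ha : s26eredev_HasValueAt P f a) (hb : s26eredev_HasValueAt P f b) : a = b := by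
  have h := s26eredev_nonunits_sub hb ha
  have h2 : f - algebraMap K F b - (f - algebraMap K F a) = algebraMap K F (a - b) := by
    rw [map_sub]; ring
  rw [h2, s26eredev_algebraMap_mem_nonunits_iff] at h
  exact sub_eq_zero.mp h

theorem s26eredev_HasValueAt_mem (P : Place K F) {f : F} {a : K}
    (h : s26eredev_HasValueAt P f a) : f ∈ P.toValuationSubring := by
  have h1 := s26eredev_nonunits_mem h
  have h2 := add_mem h1 (P.algebraMap_mem' a)
  simpa using h2

/-- values are additive -/
theorem s26eredev_hasValueAt_add (P : Place K F) {f g : F} {a b : K}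
    (hf : s26eredev_HasValueAt P f a) (hg : s26eredev_HasValueAt P g b) :
    s26eredev_HasValueAt P (f + g) (a + b) := by
  unfold s26eredev_HasValueAt at hf hg ⊢
  rw [ValuationSubring.mem_nonunits_iff_exists_mem_maximalIdeal] at hf hg ⊢
  obtain ⟨hf1, hf2⟩ := hf
  obtain ⟨hg1, hg2⟩ := hg
  have h : f + g - algebraMap K F (a + b) = (f - algebraMap K F a) + (g - algebraMap K F b) := by
    rw [map_add]; ring
  rw [h]
  exact ⟨add_mem hf1 hg1, (IsLocalRing.maximalIdeal P.toValuationSubring).add_mem hf2 hg2⟩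

/-- values are multiplicative -/
theorem s26eredev_hasValueAt_mul (P : Place K F) {f g : F} {a b : K}
    (hf : s26eredev_HasValueAt P f a) (hg : s26eredev_HasValueAt P g b) :
    s26eredev_HasValueAt P (f * g) (a * b) := by
  have hgm : g ∈ P.toValuationSubring := s26eredev_HasValueAt_mem P hg
  unfold s26eredev_HasValueAt at hf hg ⊢
  have h : f * g - algebraMap K F (a * b) =
      g * (f - algebraMap K F a) + algebraMap K F a * (g - algebraMap K F b) := by
    rw [map_mul]; ring
  rw [h]
  have h1 := s26eredev_nonunits_mul_mem hgm hf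
  have h2 := s26eredev_nonunits_mul_mem (P.algebraMap_mem' a) hg
  rw [ValuationSubring.mem_nonunits_iff_exists_mem_maximalIdeal] at h1 h2 ⊢
  obtain ⟨h11, h12⟩ := h1
  obtain ⟨h21, h22⟩ := h2
  exact ⟨add_mem h11 h21, (IsLocalRing.maximalIdeal P.toValuationSubring).add_mem h12 h22⟩

/-- A function which is regular at a place whose residue field is `K` has a value there. -/
theorem s26eredev_exists_value (P : Place K F)
    (hres : Function.Surjective (algebraMap K P.ResidueField)) {f : F}
    (hf : f ∈ P.toValuationSubring) : ∃ a : K, s26eredev_HasValueAt P f a := by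
  obtain ⟨a, ha⟩ := hres (IsLocalRing.residue P.toValuationSubring ⟨f, hf⟩)
  refine ⟨a, ?_⟩
  unfold s26eredev_HasValueAt
  rw [ValuationSubring.mem_nonunits_iff_exists_mem_maximalIdeal]
  refine ⟨sub_mem hf (P.algebraMap_mem' a), ?_⟩
  rw [← IsLocalRing.residue_eq_zero_iff]
  have h1 : (⟨f - algebraMap K F a, sub_mem hf (P.algebraMap_mem' a)⟩ :
      P.toValuationSubring) = ⟨f, hf⟩ - algebraMap K P.toValuationSubring a := rfl
  rw [h1, map_sub, sub_eq_zero]
  rw [← ha]
  rfl

/-- regularity in terms of `ord` (including `f = 0`). -/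
theorem s26eredev_mem_of_not_ord_neg (P : Place K F) {f : F} (h : ¬ P.ord f < 0) :
    f ∈ P.toValuationSubring :=
  PlaceAux.mem_of_ord_nonneg P (not_lt.mp h)

theorem s26eredev_ord_nonneg_of_mem (P : Place K F) {f : F} (h : f ∈ P.toValuationSubring) :
    0 ≤ P.ord f := by
  rcases eq_or_ne f 0 with rfl | hf
  · simp
  · exact (PlaceAux.ord_nonneg_iff P hf).mpr h

end Values

/-! ### The push-forward of a divisor, pointwise -/

section MapDomain

variable {α β : Type*}

theorem s26eredev_mapDomain_apply [DecidableEq β] (r : α → β) (D : α →₀ ℤ) (Q : β) :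
    Finsupp.mapDomain r D Q = ∑ P ∈ D.support, if r P = Q then D P else 0 := by
  rw [Finsupp.mapDomain, Finsupp.sum, Finsupp.finsetSum_apply]
  refine Finset.sum_congr rfl fun P _ => ?_
  rw [Finsupp.single_apply]

end MapDomain

/-! ### Consequences of `r_*(div u) = div(ū)` -/

section PR

variable {K F k Fb : Type*} [Field K] [Field F] [Algebra K F] [Field k] [Field Fb]
  [Algebra k Fb]

/-- The key identity of a reduction of places: `r_*(div u) = div(ū)` for every `u ∈ O` with
nonzero reduction (second component of `DEU.Hyp.exists_reduction`). -/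
def s26eredev_RDiv (R : RedData K F k Fb) (r : Place K F → Place k Fb) : Prop :=
  ∀ u : R.O, R.red u ≠ 0 → ∀ D : Divisor K F, (∀ P : Place K F, D P = P.ord (u : F)) →
    ∀ Q : Place k Fb, Finsupp.mapDomain r D Q = Q.ord (R.red u)

/-- poles of `t` reduce to poles of `t̄` -/
def s26eredev_GoodFn (R : RedData K F k Fb) (r : Place K F → Place k Fb) (t : R.O) : Prop :=
  ∀ P : Place K F, P.ord (t : F) < 0 → (r P).ord (R.red t) < 0

variable {R : RedData K F k Fb} {r : Place K F → Place k Fb}

/-- the kernel of the residue map on constants is the maximal ideal of `A` -/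
theorem s26eredev_res_eq_zero_iff (R : RedData K F k Fb) (a : R.A) :
    R.res a = 0 ↔ (a : K) ∈ R.A.nonunits := by
  rw [ValuationSubring.coe_mem_nonunits_iff, IsLocalRing.mem_maximalIdeal, mem_nonunits_iff]
  constructor
  · intro h0 hu
    obtain ⟨b, hb⟩ := hu.exists_right_inv
    have := congrArg R.res hb
    rw [map_mul, h0, zero_mul, map_one] at this
    exact zero_ne_one this
  · intro hnu
    have hmax : (RingHom.ker R.res).IsMaximal :=
      RingHom.ker_isMaximal_of_surjective R.res R.res_surjective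
    have hker : RingHom.ker R.res = IsLocalRing.maximalIdeal R.A :=
      IsLocalRing.eq_maximalIdeal hmax
    have hmem : a ∈ IsLocalRing.maximalIdeal R.A := by
      rw [IsLocalRing.mem_maximalIdeal, mem_nonunits_iff]
      exact hnu
    rw [← hker] at hmem
    exact hmem

theorem s26eredev_coe_ne_zero {u : R.O} (hu : R.red u ≠ 0) : (u : F) ≠ 0 :=
  R.coe_ne_zero_of_red_ne_zero hu

/-- If no pole of `u` reduces to `Q`, then `Σ_{P ∈ T} ord_P u ≤ ord_Q ū` for every finite set `T`
of places reducing to `Q`. -/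
theorem s26eredev_sum_ord_le (hR : s26eredev_RDiv R r) (hpd : HasPrincipalDivisors K F)
    {u : R.O} (hu : R.red u ≠ 0) (Q : Place k Fb)
    (hno : ∀ P' : Place K F, P'.ord (u : F) < 0 → r P' ≠ Q)
    (T : Finset (Place K F)) (hT : ∀ P ∈ T, r P = Q) :
    ∑ P ∈ T, P.ord (u : F) ≤ Q.ord (R.red u) := by
  classical
  obtain ⟨D, hD, -⟩ := hpd.exists_divisor (u : F) (s26eredev_coe_ne_zero hu)
  rw [← hR u hu D hD Q, s26eredev_mapDomain_apply]
  have h1 : ∑ P ∈ T, P.ord (u : F) = ∑ P ∈ T ∩ D.support, (if r P = Q then D P else 0) := by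
    rw [← Finset.sum_filter_add_sum_filter_not T (fun P => P ∈ D.support)]
    have h2 : ∑ P ∈ T.filter (fun P => ¬ P ∈ D.support), P.ord (u : F) = 0 := by
      refine Finset.sum_eq_zero fun P hP => ?_
      rw [Finset.mem_filter, Finsupp.notMem_support_iff] at hP
      rw [← hD P, hP.2]
    rw [h2, add_zero, Finset.filter_mem_eq_inter]
    refine Finset.sum_congr rfl fun P hP => ?_
    rw [if_pos (hT P (Finset.mem_inter.mp hP).1), hD P]
  rw [h1]
  refine Finset.sum_le_sum_of_subset_of_nonneg Finset.inter_subset_right fun P _ _ => ?_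
  split_ifs with h
  · rw [hD P]
    by_contra hneg
    exact hno P (not_le.mp hneg) h
  · exact le_rfl

/-- If `ord_Q ū ≠ 0`, some zero or pole of `u` reduces to `Q`. -/
theorem s26eredev_exists_ord_ne_zero (hR : s26eredev_RDiv R r)
    (hpd : HasPrincipalDivisors K F) {u : R.O}
    (hu : R.red u ≠ 0) (Q : Place k Fb) (hQ : Q.ord (R.red u) ≠ 0) :
    ∃ P : Place K F, r P = Q ∧ P.ord (u : F) ≠ 0 := by
  classical
  obtain ⟨D, hD, -⟩ := hpd.exists_divisor (u : F) (s26eredev_coe_ne_zero hu)
  rw [← hR u hu D hD Q, s26eredev_mapDomain_apply] at hQ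
  obtain ⟨P, hP, hP2⟩ := Finset.exists_ne_zero_of_sum_ne_zero hQ
  by_cases h : r P = Q
  · rw [if_pos h] at hP2
    exact ⟨P, h, by rwa [← hD P]⟩
  · rw [if_neg h] at hP2
    exact absurd rfl hP2

/-- If `u ∈ O`, `ū ≠ 0` and `ord_P u ≠ 0`, then `ord_{r P} ū ≠ 0` provided `u` has no pole
over `r P` (zeros reduce to zeros). -/
theorem s26eredev_ord_pos_of_ord_pos (hR : s26eredev_RDiv R r)
    (hpd : HasPrincipalDivisors K F) {u : R.O} (hu : R.red u ≠ 0) (P : Place K F)
    (hno : ∀ P' : Place K F, P'.ord (u : F) < 0 → r P' ≠ r P) (hP : 0 < P.ord (u : F)) :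
    0 < (r P).ord (R.red u) := by
  have hle := s26eredev_sum_ord_le hR hpd hu (r P) hno {P} (by simp)
  rw [Finset.sum_singleton] at hle
  exact lt_of_lt_of_le hP hle

/-! ### (E1): `r` is onto -/

/-- **(E1), pointwise**: a place `Q` at which some `ū ≠ 0`, `u ∈ O`, has nonzero order is in the
image of `r`. -/
theorem s26eredev_onto_at (hR : s26eredev_RDiv R r) (hpd : HasPrincipalDivisors K F)
    (Q : Place k Fb) (hQ : ∃ u : R.O, R.red u ≠ 0 ∧ Q.ord (R.red u) ≠ 0) :
    ∃ P : Place K F, r P = Q := by
  obtain ⟨u, hu0, hu⟩ := hQ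
  obtain ⟨P, hP, -⟩ := s26eredev_exists_ord_ne_zero hR hpd hu0 Q hu
  exact ⟨P, hP⟩

/-- **(E1)**: if `red : O → Fb` is onto, then `r` is onto. -/
theorem s26eredev_onto (hR : s26eredev_RDiv R r) (hpd : HasPrincipalDivisors K F)
    (hsurj : Function.Surjective R.red) : Function.Surjective r := by
  intro Q
  -- a uniformiser at `Q`
  obtain ⟨π, hπ⟩ := IsDiscreteValuationRing.exists_irreducible Q.toValuationSubring
  have hord : Q.ord (π : Fb) = 1 := Q.ord_coe_irreducible hπ
  obtain ⟨u, hu⟩ := hsurj (π : Fb)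
  have hu0 : R.red u ≠ 0 := by
    rw [hu]
    intro h0
    rw [h0, Place.ord_zero] at hord
    exact zero_ne_one hord
  exact s26eredev_onto_at hR hpd Q ⟨u, hu0, by rw [hu, hord]; exact one_ne_zero⟩

/-! ### (E2): evaluation -/

/-- **(E2), with a given value**: `f ∈ O`, no pole of `f` reduces to `r P`, `f(P) = a`
⇒ `a ∈ A` and `f̄(r P) = ā`. -/
theorem s26eredev_eval_value (hR : s26eredev_RDiv R r) (hpd : HasPrincipalDivisors K F)
    (f : R.O) (P : Place K F)
    (hno : ∀ P' : Place K F, P'.ord (f : F) < 0 → r P' ≠ r P)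
    {a : K} (ha : s26eredev_HasValueAt P (f : F) a) :
    ∃ haA : a ∈ R.A, s26eredev_HasValueAt (r P) (R.red f) (R.res ⟨a, haA⟩) := by
  -- the value lies in `A`
  have haA : a ∈ R.A := by
    by_contra haA
    have ha0 : a ≠ 0 := fun h => haA (h ▸ R.A.zero_mem)
    have hbA : a⁻¹ ∈ R.A := (R.A.mem_or_inv_mem a).resolve_left haA
    have hbnon : a⁻¹ ∈ R.A.nonunits := by
      rw [ValuationSubring.mem_nonunits_iff_or]
      right
      rwa [inv_inv]
    -- `u = a⁻¹ f - 1`
    set u : R.O := R.const ⟨a⁻¹, hbA⟩ * f - 1 with hu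
    have hured : R.red u = -1 := by
      rw [hu, map_sub, map_mul, map_one, R.red_const,
        (s26eredev_res_eq_zero_iff R ⟨a⁻¹, hbA⟩).mpr hbnon, map_zero, zero_mul, zero_sub]
    have hu0 : R.red u ≠ 0 := by rw [hured]; exact neg_ne_zero.mpr one_ne_zero
    have hucoe : (u : F) = algebraMap K F a⁻¹ * (f : F) - 1 := rfl
    have hno' : ∀ P' : Place K F, P'.ord (u : F) < 0 → r P' ≠ r P := by
      intro P' hP'
      apply hno P'
      by_contra hnn
      have hfm : (f : F) ∈ P'.toValuationSubring := s26eredev_mem_of_not_ord_neg P' hnn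
      have hum : (u : F) ∈ P'.toValuationSubring := by
        rw [hucoe]
        exact sub_mem (mul_mem (P'.algebraMap_mem' _) hfm) (one_mem _)
      exact absurd (s26eredev_ord_nonneg_of_mem P' hum) (not_le.mpr hP')
    have hupos : 0 < P.ord (u : F) := by
      rw [PlaceAux.ord_pos_iff_mem_nonunits P (s26eredev_coe_ne_zero hu0)]
      have h3 : (u : F) = algebraMap K F a⁻¹ * ((f : F) - algebraMap K F a) := by
        rw [hucoe, mul_sub, ← map_mul, inv_mul_cancel₀ ha0, map_one]
      rw [h3]
      exact s26eredev_nonunits_mul_mem (P.algebraMap_mem' _) ha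
    have hle := s26eredev_sum_ord_le hR hpd hu0 (r P) hno' {P} (by simp)
    rw [Finset.sum_singleton, hured, PlaceAux.ord_neg, Place.ord_one] at hle
    omega
  refine ⟨haA, ?_⟩
  -- the reduction of the value
  set u : R.O := f - R.const ⟨a, haA⟩ with hu
  have hured : R.red u = R.red f - algebraMap k Fb (R.res ⟨a, haA⟩) := by
    rw [hu, map_sub, R.red_const]
  have hucoe : (u : F) = (f : F) - algebraMap K F a := rfl
  by_cases hu0 : R.red u = 0
  · apply s26eredev_hasValueAt_of_eq
    rw [← hured, hu0]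
  · have hno' : ∀ P' : Place K F, P'.ord (u : F) < 0 → r P' ≠ r P := by
      intro P' hP'
      apply hno P'
      by_contra hnn
      have hfm : (f : F) ∈ P'.toValuationSubring := s26eredev_mem_of_not_ord_neg P' hnn
      have hum : (u : F) ∈ P'.toValuationSubring := by
        rw [hucoe]
        exact sub_mem hfm (P'.algebraMap_mem' _)
      exact absurd (s26eredev_ord_nonneg_of_mem P' hum) (not_le.mpr hP')
    have hupos : 0 < P.ord (u : F) := by
      rw [PlaceAux.ord_pos_iff_mem_nonunits P (s26eredev_coe_ne_zero hu0)]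
      exact ha
    have hpos := s26eredev_ord_pos_of_ord_pos hR hpd hu0 P hno' hupos
    rw [PlaceAux.ord_pos_iff_mem_nonunits (r P) hu0, hured] at hpos
    exact hpos

/-- **(E2) evaluation**: if `f ∈ O`, no pole of `f` reduces to `r P` and `P` has degree one
(residue field `K`), then `f(P) ∈ A` and `f(P)‾ = f̄(r P)`. -/
theorem s26eredev_eval (hR : s26eredev_RDiv R r) (hpd : HasPrincipalDivisors K F)
    (f : R.O) (P : Place K F)
    (hresP : Function.Surjective (algebraMap K P.ResidueField))
    (hno : ∀ P' : Place K F, P'.ord (f : F) < 0 → r P' ≠ r P) :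
    ∃ a : R.A, s26eredev_HasValueAt P (f : F) (a : K) ∧
      s26eredev_HasValueAt (r P) (R.red f) (R.res a) := by
  -- `f` is regular at `P`
  have hreg : (f : F) ∈ P.toValuationSubring :=
    s26eredev_mem_of_not_ord_neg P fun h => hno P h rfl
  obtain ⟨a, ha⟩ := s26eredev_exists_value P hresP hreg
  obtain ⟨haA, hval⟩ := s26eredev_eval_value hR hpd f P hno ha
  exact ⟨⟨a, haA⟩, ha, hval⟩

/-- **(E2), uniqueness form**: under the hypotheses of (E2), *every* value `b` of `f̄` at `r P`
is the residue of the value of `f` at `P`. -/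
theorem s26eredev_eval_unique (hR : s26eredev_RDiv R r) (hpd : HasPrincipalDivisors K F)
    (f : R.O) (P : Place K F)
    (hno : ∀ P' : Place K F, P'.ord (f : F) < 0 → r P' ≠ r P)
    {a : R.A} (ha : s26eredev_HasValueAt P (f : F) (a : K))
    {b : k} (hb : s26eredev_HasValueAt (r P) (R.red f) b) : R.res a = b := by
  obtain ⟨haA, hval⟩ := s26eredev_eval_value hR hpd f P hno ha
  exact s26eredev_hasValueAt_unique (r P) hval hb

/-- **(E2), regularity**: under the hypotheses of (E2), `f̄` is regular at `r P`. -/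
theorem s26eredev_eval_mem (hR : s26eredev_RDiv R r) (hpd : HasPrincipalDivisors K F)
    (f : R.O) (P : Place K F)
    (hresP : Function.Surjective (algebraMap K P.ResidueField))
    (hno : ∀ P' : Place K F, P'.ord (f : F) < 0 → r P' ≠ r P) :
    (f : F) ∈ P.toValuationSubring ∧ R.red f ∈ (r P).toValuationSubring := by
  obtain ⟨a, ha1, ha2⟩ := s26eredev_eval hR hpd f P hresP hno
  exact ⟨s26eredev_HasValueAt_mem P ha1, s26eredev_HasValueAt_mem (r P) ha2⟩

/-! ### (L1): the disc -/

/-- **(L1) the disc**: if the poles of `t ∈ O` reduce to poles of `t̄` and `t̄ - c̄` has a simple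
zero at `Q`, then `P ↦ t(P) - c` is a bijection from `r⁻¹(Q)` to `𝔪_A`. -/
theorem s26eredev_disc (hR : s26eredev_RDiv R r) (hpd : HasPrincipalDivisors K F)
    (hres : ∀ P : Place K F, Function.Surjective (algebraMap K P.ResidueField))
    (t : R.O) (hgood : s26eredev_GoodFn R r t) (c : R.A) (Q : Place k Fb)
    (hQ : Q.ord (R.red t - algebraMap k Fb (R.res c)) = 1) :
    (∀ P : Place K F, r P = Q →
      ∃ z : K, z ∈ R.A.nonunits ∧ s26eredev_HasValueAt P (t : F) ((c : K) + z)) ∧
    (∀ z : K, z ∈ R.A.nonunits →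
      ∃! P : Place K F, r P = Q ∧ s26eredev_HasValueAt P (t : F) ((c : K) + z)) := by
  classical
  set tb : Fb := R.red t with htb
  have htb0 : tb - algebraMap k Fb (R.res c) ≠ 0 := by
    intro h0
    rw [h0, Place.ord_zero] at hQ
    exact zero_ne_one hQ
  have hcQ : s26eredev_HasValueAt Q tb (R.res c) := by
    rw [s26eredev_hasValueAt_iff_ord_pos Q htb0, hQ]
    exact one_pos
  -- no pole of `t` reduces to `Q`
  have hnoPole : ∀ P' : Place K F, P'.ord (t : F) < 0 → r P' ≠ Q := by
    intro P' hP' hrP'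
    have h1 := hgood P' hP'
    rw [hrP'] at h1
    exact absurd (s26eredev_ord_nonneg_of_mem Q (s26eredev_HasValueAt_mem Q hcQ))
      (not_le.mpr h1)
  refine ⟨fun P hP => ?_, fun z hz => ?_⟩
  · -- values on the disc lie in `c + 𝔪`
    obtain ⟨a, ha1, ha2⟩ := s26eredev_eval hR hpd t P (hres P)
      (fun P' hP' => by rw [hP]; exact hnoPole P' hP')
    rw [hP] at ha2
    have hac : R.res a = R.res c := s26eredev_hasValueAt_unique Q ha2 hcQ
    refine ⟨(a : K) - (c : K), ?_, ?_⟩
    · have h1 : R.res (a - c) = 0 := by rw [map_sub, hac, sub_self]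
      exact (s26eredev_res_eq_zero_iff R (a - c)).mp h1
    · have h2 : (c : K) + ((a : K) - (c : K)) = (a : K) := by ring
      rw [h2]
      exact ha1
  · -- exactly one point of the disc with `t = c + z`
    have hzA : z ∈ R.A := s26eredev_nonunits_mem hz
    set w : R.A := c + ⟨z, hzA⟩ with hw
    have hwres : R.res w = R.res c := by
      rw [hw, map_add, (s26eredev_res_eq_zero_iff R ⟨z, hzA⟩).mpr hz, add_zero]
    set u : R.O := t - R.const w with hu
    have hured : R.red u = tb - algebraMap k Fb (R.res c) := by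
      rw [hu, map_sub, R.red_const, hwres]
    have hu0 : R.red u ≠ 0 := by rw [hured]; exact htb0
    have hucoe : (u : F) = (t : F) - algebraMap K F ((c : K) + z) := rfl
    have hno' : ∀ P' : Place K F, P'.ord (u : F) < 0 → r P' ≠ Q := by
      intro P' hP'
      apply hnoPole P'
      by_contra hnn
      have hfm : (t : F) ∈ P'.toValuationSubring := s26eredev_mem_of_not_ord_neg P' hnn
      have hum : (u : F) ∈ P'.toValuationSubring := by
        rw [hucoe]
        exact sub_mem hfm (P'.algebraMap_mem' _)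
      exact absurd (s26eredev_ord_nonneg_of_mem P' hum) (not_le.mpr hP')
    have hval : ∀ P : Place K F,
        s26eredev_HasValueAt P (t : F) ((c : K) + z) ↔ 0 < P.ord (u : F) := by
      intro P
      rw [hucoe]
      exact s26eredev_hasValueAt_iff_ord_pos P (s26eredev_coe_ne_zero hu0)
    obtain ⟨P, hP1, hP2⟩ := s26eredev_exists_ord_ne_zero hR hpd hu0 Q
      (by rw [hured, hQ]; exact one_ne_zero)
    have hPpos : 0 < P.ord (u : F) := by
      rcases lt_trichotomy (P.ord (u : F)) 0 with h | h | h
      · exact absurd hP1 (hno' P h)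
      · exact absurd h hP2
      · exact h
    refine ⟨P, ⟨hP1, (hval P).mpr hPpos⟩, ?_⟩
    rintro P' ⟨hP'1, hP'2⟩
    by_contra hne
    have hP'pos : 0 < P'.ord (u : F) := (hval P').mp hP'2
    have hle := s26eredev_sum_ord_le hR hpd hu0 Q hno' {P', P} (by
      intro x hx
      rcases Finset.mem_insert.mp hx with rfl | hx
      · exact hP'1
      · rw [Finset.mem_singleton.mp hx]; exact hP1)
    rw [Finset.sum_pair hne, hured, hQ] at hle
    omega

end PR

end Fermat.Agent.S26
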