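/-
S26, wall (E), piece **E-RED**, half B, leaf (hres + hpd) (helper12, for helper17/helper28/helper93):
**the constant extension `Ω = Frac (𝔠 ⊗[K] 𝔎)` is a function field of one variable over `𝔎`**,
in helper96's shape (`Algebra 𝔠 Ω`, `Algebra 𝔎 Ω`, `hld`, `hgen`; `S26/ERRGaussAlg.lean`).

`x ∈ 𝔠` transcendental over `K`, `[𝔠 : K(x)] < ∞`.
* `s26erh_finiteDimensional` : `[Ω : 𝔎(x)] < ∞`;
* **`s26erh_hres`** : `𝔎` algebraically closed ⇒ every place of `Ω / 𝔎` has residue field `𝔎`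
  (fields `hresF`, `hresk` of `DEU.Hyp`);
* **`s26erh_hpd`** : `HasPrincipalDivisors 𝔎 Ω` (fields `hpdF`, `hpdk` of `DEU.Hyp`), any `𝔎`,
  any characteristic (helper79's `s26err_hasPrincipalDivisors`);
* `s26erh_hresK`, `s26erh_hpdK` : the same for `𝔠 / K` itself.
-/
import Fermat.Agent.S26.ERRGaussAlg
import Fermat.Agent.S26.ERR2c
import Fermat.Agent.S24.Residue

set_option autoImplicit false
set_option linter.unusedSectionVars false
set_option linter.style.haveILetI false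

open AlgebraicCurve TensorProduct IntermediateField

namespace Fermat.Agent.S26

variable {K 𝔠 𝔎 Ω : Type*} [Field K] [Field 𝔠] [Field 𝔎] [Field Ω]
  [Algebra K 𝔠] [Algebra K 𝔎] [Algebra K Ω] [Algebra 𝔠 Ω] [Algebra 𝔎 Ω]
  [IsScalarTower K 𝔠 Ω] [IsScalarTower K 𝔎 Ω]

/-- **`[Ω : 𝔎(x)] < ∞`** if `[𝔠 : K(x)] < ∞`. -/
theorem s26erh_finiteDimensional (hgen : S26gspGen K 𝔠 𝔎 Ω) (x : 𝔠)
    [FiniteDimensional K⟮x⟯ 𝔠] : FiniteDimensional 𝔎⟮algebraMap 𝔠 Ω x⟯ Ω := by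
  classical
  let b := Module.finBasis K⟮x⟯ 𝔠
  obtain ⟨S, hS⟩ : ∃ S : Set Ω, S = Set.range (fun i => algebraMap 𝔠 Ω (b i)) := ⟨_, rfl⟩
  haveI hSfin : Finite S := by
    rw [hS]
    exact (Set.finite_range _).to_subtype
  have halg : Algebra.IsAlgebraic K⟮x⟯ 𝔠 := Algebra.IsAlgebraic.of_finite _ _
  have hint : ∀ s ∈ S, IsIntegral 𝔎⟮algebraMap 𝔠 Ω x⟯ s := by
    intro s hs
    rw [hS] at hs
    obtain ⟨i, rfl⟩ := hs
    exact (s26gspc_isAlgebraic_algebraMap (halg.isAlgebraic (b i))).isIntegral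
  have hfd : FiniteDimensional 𝔎⟮algebraMap 𝔠 Ω x⟯
      (IntermediateField.adjoin 𝔎⟮algebraMap 𝔠 Ω x⟯ S) :=
    IntermediateField.finiteDimensional_adjoin hint
  have htop : IntermediateField.adjoin 𝔎⟮algebraMap 𝔠 Ω x⟯ S = ⊤ := by
    rw [eq_top_iff]
    rintro y -
    have hE : ∀ z : Ω, z ∈ 𝔎⟮algebraMap 𝔠 Ω x⟯ →
        z ∈ IntermediateField.adjoin 𝔎⟮algebraMap 𝔠 Ω x⟯ S := fun z hz =>
      IntermediateField.algebraMap_mem _ (⟨z, hz⟩ : 𝔎⟮algebraMap 𝔠 Ω x⟯)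
    have h𝔠 : ∀ f : 𝔠, algebraMap 𝔠 Ω f ∈ IntermediateField.adjoin 𝔎⟮algebraMap 𝔠 Ω x⟯ S := by
      intro f
      rw [← b.sum_repr f, map_sum]
      refine sum_mem (fun i _ => ?_)
      rw [Algebra.smul_def, map_mul]
      refine mul_mem (hE _ ?_) (IntermediateField.subset_adjoin _ S ?_)
      · exact s26gspc_mem_adjoin (b.repr f i).2
      · rw [hS]
        exact ⟨i, rfl⟩
    have h𝔎 : ∀ c : 𝔎, algebraMap 𝔎 Ω c ∈ IntermediateField.adjoin 𝔎⟮algebraMap 𝔠 Ω x⟯ S :=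
      fun c => hE _ (IntermediateField.algebraMap_mem _ c)
    have hμ : ∀ A : 𝔠 ⊗[K] 𝔎,
        s26gspMu K 𝔠 𝔎 Ω A ∈ IntermediateField.adjoin 𝔎⟮algebraMap 𝔠 Ω x⟯ S := by
      intro A
      induction A using TensorProduct.induction_on with
      | zero =>
        rw [map_zero]
        exact zero_mem _
      | tmul f c =>
        rw [s26gspMu_tmul]
        exact mul_mem (h𝔠 f) (h𝔎 c)
      | add a b ha hb =>
        rw [map_add]
        exact add_mem ha hb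
    obtain ⟨A, B, hB, hAB⟩ := hgen y
    have hy : y = s26gspMu K 𝔠 𝔎 Ω A / s26gspMu K 𝔠 𝔎 Ω B := by
      rw [eq_div_iff hB]
      exact hAB
    rw [hy]
    exact div_mem (hμ A) (hμ B)
  rw [htop] at hfd
  exact (IntermediateField.topEquiv (F := 𝔎⟮algebraMap 𝔠 Ω x⟯) (E := Ω)).toLinearEquiv.finiteDimensional

/-- **`hres`**: every place of `Ω / 𝔎` has residue field `𝔎` (`𝔎` algebraically closed). -/
theorem s26erh_hres [IsAlgClosed 𝔎] (hld : Function.Injective (s26gspMu K 𝔠 𝔎 Ω))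
    (hgen : S26gspGen K 𝔠 𝔎 Ω) {x : 𝔠} (hx : Transcendental K x)
    (halg : Algebra.IsAlgebraic K⟮x⟯ 𝔠) (v : Place 𝔎 Ω) :
    Function.Bijective (algebraMap 𝔎 v.ResidueField) :=
  Fermat.Agent.S24.algebraMap_residueField_bijective (algebraMap 𝔠 Ω x)
    (s26gspc_transcendental hld hx) (s26gspc_isAlgebraic hgen halg) v

/-- **`hpd`**: `Ω / 𝔎` has principal divisors (of degree `0`). -/
theorem s26erh_hpd (hld : Function.Injective (s26gspMu K 𝔠 𝔎 Ω))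
    (hgen : S26gspGen K 𝔠 𝔎 Ω) {x : 𝔠} (hx : Transcendental K x)
    [FiniteDimensional K⟮x⟯ 𝔠] : HasPrincipalDivisors 𝔎 Ω :=
  haveI := s26erh_finiteDimensional (𝔎 := 𝔎) (Ω := Ω) hgen x
  s26err_hasPrincipalDivisors (algebraMap 𝔠 Ω x) (s26gspc_transcendental hld hx)

/-- `hres` for `𝔠 / K` itself -/
theorem s26erh_hresK [IsAlgClosed K] {x : 𝔠} (hx : Transcendental K x)
    (halg : Algebra.IsAlgebraic K⟮x⟯ 𝔠) (v : Place K 𝔠) :
    Function.Bijective (algebraMap K v.ResidueField) :=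
  Fermat.Agent.S24.algebraMap_residueField_bijective x hx halg v

/-- `hpd` for `𝔠 / K` itself -/
theorem s26erh_hpdK {x : 𝔠} (hx : Transcendental K x)
    [FiniteDimensional K⟮x⟯ 𝔠] : HasPrincipalDivisors K 𝔠 :=
  s26err_hasPrincipalDivisors x hx

end Fermat.Agent.S26
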