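import Fermat.Agent.S26.ERedAsm
import Fermat.Agent.S26.ERedOut

/-!
# S26-E, leaf TI-REDAT (helper28, for the TI hub): `S26erigRedAt con E₀ Δ V` at ONE valuation ring

The hypotheses `hz` / `hy` of `s26erig_main_ac` (S26/ERig3.lean) ask, for a valuation subring `V`
of `L`, for the package `S26erigRedAt con E₀ Δ V` (S26/ERig.lean).  Here it is ASSEMBLED from

* a constant reduction `R : DEU.RedData L F k Fb` with `R.A = V` which is the identity on `Γ`
  (helper12's Gauss `RedData`, through helper93's adapter) with (Q2);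
* a second constant reduction `R₀ : DEU.RedData k Fb K Γ` back to `Γ/K` with (Q2)
  (helper12's `s26erk_exists_data` at `L := k`, `F := Fb`);
* the conorm shapes of (RR-C) over `L` and over `k` (`hordF`, `hexF`, `hordk`, `hexk`),
  linear disjointness (`hldF`, `hldk`), residue fields and principal divisors over `L`, `k`, `K`;
* the genus `γ` of `Γ/K` (`S26errfGenus`), `E₀ ≥ 0` with `dim L_K(E₀) = 1`;
* **(SPEC) as an explicit hypothesis**, for EVERY reduction of places `r` with the package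
  `S26erigRed R r con conk ιk` (the `r` of the conclusion is `H.r`, `H : DEU.Hyp …`, so the
  provider of (SPEC) may use nothing but `S26erigRed`, i.e. `r_* div u = div (red u)`).

Main results:

* `s26etir_con_injective` : a conorm map with `ord_{con Q} (ι u) = ord_Q u` is injective;
* `s26etir_const`         : `Γ ∩ k = K` in `Fb`, from linear disjointness;
* `s26etir_one_mem_rr`, `s26etir_const_of_finrank_one` : `L(D) = k·1` if `D ≥ 0`, `dim L(D) = 1`;
* `s26etir_hE0k`          : **(hE₀k)** `L_k(Con_k E₀)` consists of constants (via `s26era_rrd`);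
* `s26etir_hyp`           : `∃ n₀, DEU.Hyp R (con P₀) (conk P₀) γ n₀` in the frame of `ERedOut`;
* `s26etir_red`           : `∃ r, S26erigRed R r con conk ιk` (with `r = H.r`);
* **`s26etir_redAt`**     : `S26erigRedAt con E₀ Δ V`.
-/

set_option autoImplicit false
set_option linter.unusedSectionVars false
set_option linter.unusedVariables false
set_option linter.style.haveILetI false

open AlgebraicCurve Module

namespace Fermat.Agent.S26

open Fermat.Agent.S24 Fermat.Agent.DEU Fermat.Agent.ES.R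

/-! ### Small tools -/

section Tools

variable {K Γ k Fb : Type*} [Field K] [Field Γ] [Algebra K Γ] [Field k] [Field Fb] [Algebra k Fb]

/-- a conorm map which preserves the orders of the functions of `Γ` is injective -/
theorem s26etir_con_injective (ι : Γ →+* Fb) (conk : Place K Γ → Place k Fb)
    (hord : ∀ (Q : Place K Γ) (u : Γ), (conk Q).ord (ι u) = Q.ord u) :
    Function.Injective conk := by
  intro Q Q' h
  apply Place.ext
  ext u
  rcases eq_or_ne u 0 with rfl | hu
  · simp [zero_mem]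
  · rw [← PlaceAux.ord_nonneg_iff Q hu, ← PlaceAux.ord_nonneg_iff Q' hu, ← hord Q u,
      ← hord Q' u, h]

/-- `Γ ∩ k = K` in `Fb`, from linear disjointness -/
theorem s26etir_const (ιk : Γ →+* Fb)
    (hldk : ∀ (n : ℕ) (v : Fin n → Γ), LinearIndependent K v →
      LinearIndependent k (fun i => ιk (v i)))
    (u : Γ) (b : k) (h : ιk u = algebraMap k Fb b) : ∃ a : K, u = algebraMap K Γ a := by
  by_contra hne
  push Not at hne
  have hv : LinearIndependent K ![(1 : Γ), u] := by
    rw [LinearIndependent.pair_iff]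
    intro s t hst
    have ht : t = 0 := by
      by_contra ht
      apply hne (-(s / t))
      have h1 : t • u = -(s • (1 : Γ)) := eq_neg_of_add_eq_zero_right hst
      rw [Algebra.smul_def, Algebra.smul_def, mul_one] at h1
      have ht' : algebraMap K Γ t ≠ 0 := (map_ne_zero _).mpr ht
      rw [map_neg, map_div₀]
      field_simp
      rw [mul_comm]
      exact h1
    refine ⟨?_, ht⟩
    rw [ht, zero_smul, add_zero, Algebra.smul_def, mul_one] at hst
    exact (map_eq_zero _).mp hst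
  have hk := hldk 2 ![(1 : Γ), u] hv
  have h2 := Fintype.linearIndependent_iff.mp hk ![b, -1] (by
    rw [Fin.sum_univ_two]
    simp only [Matrix.cons_val_zero, Matrix.cons_val_one, map_one]
    rw [h, Algebra.smul_def, mul_one, neg_smul, one_smul, add_neg_cancel]) 1
  simp only [Matrix.cons_val_one] at h2
  exact one_ne_zero (neg_eq_zero.mp h2)

/-- `1 ∈ L(D)` for `D ≥ 0` -/
theorem s26etir_one_mem_rr {D : Divisor k Fb} (hD : 0 ≤ D) : (1 : Fb) ∈ riemannRochSpace D := by
  rw [mem_riemannRochSpace_iff]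
  intro v
  right
  rw [Place.ord_one]
  have : 0 ≤ D v := by simpa using Finsupp.le_def.mp hD v
  omega

/-- if `D ≥ 0` and `dim L(D) = 1` then `L(D)` consists of constants -/
theorem s26etir_const_of_finrank_one {D : Divisor k Fb} (hD : 0 ≤ D)
    (hdim : finrank k ↥(riemannRochSpace D) = 1) :
    ∀ w ∈ riemannRochSpace D, ∃ b : k, w = algebraMap k Fb b := by
  intro w hw
  have h1 : (1 : Fb) ∈ riemannRochSpace D := s26etir_one_mem_rr hD
  have hne : (⟨1, h1⟩ : ↥(riemannRochSpace D)) ≠ 0 := by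
    intro h0
    have := congrArg Subtype.val h0
    exact one_ne_zero this
  obtain ⟨c, hc⟩ := (finrank_eq_one_iff_of_nonzero' (⟨1, h1⟩ : ↥(riemannRochSpace D)) hne).mp
    hdim ⟨w, hw⟩
  refine ⟨c, ?_⟩
  have h2 : (c • (1 : Fb)) = w := congrArg Subtype.val hc
  rw [← h2, Algebra.smul_def, mul_one]

/-- **(hE₀k)**: `L_k(Con_k E₀)` consists of constants, if `E₀ ≥ 0`, `dim L_K(E₀) = 1`, and `Fb/k`
has a constant reduction back to `Γ/K` with (Q2). -/
theorem s26etir_hE0k [HasPrincipalDivisors K Γ]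
    (R₀ : RedData k Fb K Γ) (ιk : Γ →+* Fb)
    (hO₀ : ∀ u, ιk u ∈ R₀.O) (hred₀ : ∀ u, R₀.red ⟨ιk u, hO₀ u⟩ = u)
    (conk : Place K Γ → Place k Fb)
    (hordk : ∀ (Q : Place K Γ) (u : Γ), (conk Q).ord (ιk u) = Q.ord u)
    (hexk : ∀ (w : Place k Fb) (u : Γ), w.ord (ιk u) ≠ 0 → ∃ Q, w = conk Q)
    (hresK : ∀ v : Place K Γ, Function.Bijective (algebraMap K v.ResidueField))
    (hresk : ∀ v : Place k Fb, Function.Bijective (algebraMap k v.ResidueField))
    (hpdk : HasPrincipalDivisors k Fb)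
    (hldk : ∀ (n : ℕ) (v : Fin n → Γ), LinearIndependent K v →
      LinearIndependent k (fun i => ιk (v i)))
    (hq2₀ : ∀ V : Submodule k Fb, Module.Finite k V →
      finrank k V ≤ finrank K ↥(R₀.redSpace V))
    (γ : ℕ)
    (hriem : ∀ D : Divisor K Γ,
      Divisor.degree D + 1 - γ ≤ (finrank K ↥(riemannRochSpace D) : ℤ))
    (P₀ : Place K Γ) (E₀ : Divisor K Γ) (hE₀ : 0 ≤ E₀)
    (hE₀dim : finrank K ↥(riemannRochSpace E₀) = 1) :
    ∀ w ∈ riemannRochSpace (Finsupp.mapDomain conk E₀ : Divisor k Fb),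
      ∃ b : k, w = algebraMap k Fb b := by
  have hconk : Function.Injective conk := s26etir_con_injective ιk conk hordk
  have hpolek : ∀ (u : Γ) (P : Place k Fb), P.ord (ιk u) < 0 → ∃ Q, P = conk Q :=
    fun u P hP => hexk P u (ne_of_lt hP)
  have hdim := s26era_rrd R₀ ιk hO₀ hred₀ conk hconk hordk hpolek hresK hresk hpdk hldk hq2₀ γ
    hriem P₀ E₀
  rw [hE₀dim] at hdim
  have h0 : (0 : Divisor k Fb) ≤ Finsupp.mapDomain conk E₀ := by
    have := s26erb_mapDomain_mono conk hconk hE₀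
    rwa [Finsupp.mapDomain_zero] at this
  exact s26etir_const_of_finrank_one h0 hdim

end Tools

/-! ### The package at one valuation ring -/

section RedAt

universe u v w

variable {K : Type v} {Γ : Type w} {L F : Type u} [Field K] [Field Γ] [Field L] [Field F]
  [Algebra K Γ] [Algebra K L] [Algebra Γ F] [Algebra L F] [Algebra K F]
  [IsScalarTower K Γ F] [IsScalarTower K L F]
  {k Fb : Type u} [Field k] [Field Fb] [Algebra k Fb]

/-- **The `DEU.Hyp`** of the constant reduction `R`, in the frame of `S26/ERedOut.lean`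
(`ιF = algebraMap Γ F`, conorm shapes with `≠ 0`). -/
theorem s26etir_hyp [HasPrincipalDivisors K Γ]
    (R : RedData L F k Fb) (ιk : Γ →+* Fb)
    (hO : ∀ u : Γ, algebraMap Γ F u ∈ R.O)
    (hred : ∀ u : Γ, R.red ⟨algebraMap Γ F u, hO u⟩ = ιk u)
    (con : Place K Γ → Place L F)
    (hordF : ∀ (Q : Place K Γ) (u : Γ), (con Q).ord (algebraMap Γ F u) = Q.ord u)
    (hexF : ∀ (w : Place L F) (u : Γ), w.ord (algebraMap Γ F u) ≠ 0 → ∃ Q, w = con Q)
    (conk : Place K Γ → Place k Fb)
    (hordk : ∀ (Q : Place K Γ) (u : Γ), (conk Q).ord (ιk u) = Q.ord u)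
    (hexk : ∀ (w : Place k Fb) (u : Γ), w.ord (ιk u) ≠ 0 → ∃ Q, w = conk Q)
    (hresK : ∀ v : Place K Γ, Function.Bijective (algebraMap K v.ResidueField))
    (hresF : ∀ v : Place L F, Function.Bijective (algebraMap L v.ResidueField))
    (hresk : ∀ v : Place k Fb, Function.Bijective (algebraMap k v.ResidueField))
    (hpdF : HasPrincipalDivisors L F) (hpdk : HasPrincipalDivisors k Fb)
    (hldF : ∀ (n : ℕ) (v : Fin n → Γ), LinearIndependent K v →
      LinearIndependent L (fun i => algebraMap Γ F (v i)))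
    (hldk : ∀ (n : ℕ) (v : Fin n → Γ), LinearIndependent K v →
      LinearIndependent k (fun i => ιk (v i)))
    (hq2 : ∀ W : Submodule L F, Module.Finite L W → finrank L W ≤ finrank k ↥(R.redSpace W))
    (R₀ : RedData k Fb K Γ)
    (hO₀ : ∀ u, ιk u ∈ R₀.O) (hred₀ : ∀ u, R₀.red ⟨ιk u, hO₀ u⟩ = u)
    (hq2₀ : ∀ W : Submodule k Fb, Module.Finite k W →
      finrank k W ≤ finrank K ↥(R₀.redSpace W))
    (γ : ℕ) (hγ : S26errfGenus K Γ (γ : ℤ)) (P₀ : Place K Γ) :
    ∃ n₀ : ℕ, Hyp R (con P₀) (conk P₀) γ n₀ :=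
  s26era_hyp_gen R (algebraMap Γ F) ιk hO hred con
    (s26etir_con_injective (algebraMap Γ F) con hordF) hordF
    (fun u P hP => hexF P u (ne_of_lt hP)) conk (s26etir_con_injective ιk conk hordk) hordk
    (fun u P hP => hexk P u (ne_of_lt hP)) hresK hresF hresk hpdF hpdk hldF hldk hq2 R₀ hO₀
    hred₀ hq2₀ γ hγ P₀

/-- **E-RED at one valuation ring**: a reduction of places `r` with helper97's package
`S26erigRed R r con conk ιk`. -/
theorem s26etir_red [HasPrincipalDivisors K Γ]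
    (R : RedData L F k Fb) (ιk : Γ →+* Fb)
    (hO : ∀ u : Γ, algebraMap Γ F u ∈ R.O)
    (hred : ∀ u : Γ, R.red ⟨algebraMap Γ F u, hO u⟩ = ιk u)
    (con : Place K Γ → Place L F)
    (hordF : ∀ (Q : Place K Γ) (u : Γ), (con Q).ord (algebraMap Γ F u) = Q.ord u)
    (hexF : ∀ (w : Place L F) (u : Γ), w.ord (algebraMap Γ F u) ≠ 0 → ∃ Q, w = con Q)
    (conk : Place K Γ → Place k Fb)
    (hordk : ∀ (Q : Place K Γ) (u : Γ), (conk Q).ord (ιk u) = Q.ord u)
    (hexk : ∀ (w : Place k Fb) (u : Γ), w.ord (ιk u) ≠ 0 → ∃ Q, w = conk Q)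
    (hresK : ∀ v : Place K Γ, Function.Bijective (algebraMap K v.ResidueField))
    (hresF : ∀ v : Place L F, Function.Bijective (algebraMap L v.ResidueField))
    (hresk : ∀ v : Place k Fb, Function.Bijective (algebraMap k v.ResidueField))
    (hpdF : HasPrincipalDivisors L F) (hpdk : HasPrincipalDivisors k Fb)
    (hldF : ∀ (n : ℕ) (v : Fin n → Γ), LinearIndependent K v →
      LinearIndependent L (fun i => algebraMap Γ F (v i)))
    (hldk : ∀ (n : ℕ) (v : Fin n → Γ), LinearIndependent K v →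
      LinearIndependent k (fun i => ιk (v i)))
    (hq2 : ∀ W : Submodule L F, Module.Finite L W → finrank L W ≤ finrank k ↥(R.redSpace W))
    (R₀ : RedData k Fb K Γ)
    (hO₀ : ∀ u, ιk u ∈ R₀.O) (hred₀ : ∀ u, R₀.red ⟨ιk u, hO₀ u⟩ = u)
    (hq2₀ : ∀ W : Submodule k Fb, Module.Finite k W →
      finrank k W ≤ finrank K ↥(R₀.redSpace W))
    (γ : ℕ) (hγ : S26errfGenus K Γ (γ : ℤ)) (P₀ : Place K Γ) :
    ∃ r : Place L F → Place k Fb, S26erigRed R r con conk ιk ∧
      (∀ P, (r P).deg = P.deg) ∧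
      (∀ D : Divisor L F,
        R.redSpace (riemannRochSpace D) ≤ riemannRochSpace (Finsupp.mapDomain r D)) := by
  obtain ⟨n₀, H⟩ := s26etir_hyp R ιk hO hred con hordF hexF conk hordk hexk hresK hresF hresk
    hpdF hpdk hldF hldk hq2 R₀ hO₀ hred₀ hq2₀ γ hγ P₀
  exact ⟨H.r, s26ero_red_of_hyp_riemann R H con conk ιk hO hred hordF hexF hordk inferInstance
    hresK γ hγ.2.1 (s26etir_const ιk hldk), H.deg_r, H.redSpace_rr_le_mapDomain⟩

/-- **TI-REDAT**: the package `S26erigRedAt con E₀ Δ V` (= the hypotheses `hz`, `hy` of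
`s26erig_main_ac` at ONE valuation subring `V` of `L`), with (SPEC) as an explicit hypothesis for
every reduction of places satisfying `S26erigRed`. -/
theorem s26etir_redAt [HasPrincipalDivisors K Γ] (V : ValuationSubring L)
    (R : RedData L F k Fb) (hA : R.A = V) (ιk : Γ →+* Fb)
    (hO : ∀ u : Γ, algebraMap Γ F u ∈ R.O)
    (hred : ∀ u : Γ, R.red ⟨algebraMap Γ F u, hO u⟩ = ιk u)
    (con : Place K Γ → Place L F)
    (hordF : ∀ (Q : Place K Γ) (u : Γ), (con Q).ord (algebraMap Γ F u) = Q.ord u)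
    (hexF : ∀ (w : Place L F) (u : Γ), w.ord (algebraMap Γ F u) ≠ 0 → ∃ Q, w = con Q)
    (conk : Place K Γ → Place k Fb)
    (hordk : ∀ (Q : Place K Γ) (u : Γ), (conk Q).ord (ιk u) = Q.ord u)
    (hexk : ∀ (w : Place k Fb) (u : Γ), w.ord (ιk u) ≠ 0 → ∃ Q, w = conk Q)
    (hresK : ∀ v : Place K Γ, Function.Bijective (algebraMap K v.ResidueField))
    (hresF : ∀ v : Place L F, Function.Bijective (algebraMap L v.ResidueField))
    (hresk : ∀ v : Place k Fb, Function.Bijective (algebraMap k v.ResidueField))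
    (hpdF : HasPrincipalDivisors L F) (hpdk : HasPrincipalDivisors k Fb)
    (hldF : ∀ (n : ℕ) (v : Fin n → Γ), LinearIndependent K v →
      LinearIndependent L (fun i => algebraMap Γ F (v i)))
    (hldk : ∀ (n : ℕ) (v : Fin n → Γ), LinearIndependent K v →
      LinearIndependent k (fun i => ιk (v i)))
    (hq2 : ∀ W : Submodule L F, Module.Finite L W → finrank L W ≤ finrank k ↥(R.redSpace W))
    (R₀ : RedData k Fb K Γ)
    (hO₀ : ∀ u, ιk u ∈ R₀.O) (hred₀ : ∀ u, R₀.red ⟨ιk u, hO₀ u⟩ = u)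
    (hq2₀ : ∀ W : Submodule k Fb, Module.Finite k W →
      finrank k W ≤ finrank K ↥(R₀.redSpace W))
    (γ : ℕ) (hγ : S26errfGenus K Γ (γ : ℤ)) (P₀ : Place K Γ)
    (E₀ : Divisor K Γ) (hE₀ : 0 ≤ E₀) (hE₀dim : finrank K ↥(riemannRochSpace E₀) = 1)
    (Δ : Divisor L F)
    (hspec : ∀ r : Place L F → Place k Fb, S26erigRed R r con conk ιk →
      ∃ φ : Fb, φ ≠ 0 ∧ ∀ Q : Place k Fb, Finsupp.mapDomain r Δ Q = Q.ord φ) :
    S26erigRedAt con E₀ Δ V := by
  obtain ⟨r, hr, -, -⟩ := s26etir_red R ιk hO hred con hordF hexF conk hordk hexk hresK hresF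
    hresk hpdF hpdk hldF hldk hq2 R₀ hO₀ hred₀ hq2₀ γ hγ P₀
  exact s26ero_redAt con E₀ Δ V R r conk ιk hA hr (hspec r hr)
    (s26etir_hE0k R₀ ιk hO₀ hred₀ conk hordk hexk hresK hresk hpdk hldk hq2₀ γ hγ.2.1 P₀ E₀ hE₀
      hE₀dim)

end RedAt

end Fermat.Agent.S26
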