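/-
S26-E, formal part, leaf (T-pre) (helper46), PURE ALGEBRA.  Mathlib only.

`K` a field, `A₁ A₂ A₃ B₁ B₂ B₃ Ω` commutative `K`-algebras, `jᵢ : Aᵢ →ₐ[K] Ω`,
`φᵢ : Bᵢ →ₐ[K] Aᵢ` INJECTIVE.  If `(A₁ ⊗ A₂) ⊗ A₃ → Ω` is injective, so is
`(B₁ ⊗ B₂) ⊗ B₃ → Ω` for the `jᵢ ∘ φᵢ`.

* `s26etp_map_injective`  : `φ ⊗ ψ` is injective for injective `φ`, `ψ` (flatness over a field);
* `s26etp_productMap_comp`: `productMap (j₁ ∘ φ₁) (j₂ ∘ φ₂) = productMap j₁ j₂ ∘ (φ₁ ⊗ φ₂)`;
* `s26etp_indep2_pre`, `s26etp_indep3_pre` : the statements for two and three factors;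
* `s26etp_indep3_swap12`, `s26etp_indep3_swap23`, `s26etp_indep3_assoc` : permutations of the
  factors (through `TensorProduct.comm` and `TensorProduct.assoc`).
-/
import Mathlib.RingTheory.Flat.Basic
import Mathlib.RingTheory.TensorProduct.Maps
import Mathlib.Algebra.Algebra.Subalgebra.Basic
import Mathlib.LinearAlgebra.Basis.VectorSpace

set_option autoImplicit false
set_option linter.style.haveILetI false

noncomputable section

namespace Fermat.Agent.S26

open scoped TensorProduct

section alg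

variable {K : Type*} [Field K]
  {A₁ A₂ A₃ B₁ B₂ B₃ Ω : Type*} [CommRing A₁] [CommRing A₂] [CommRing A₃] [CommRing B₁]
  [CommRing B₂] [CommRing B₃] [CommRing Ω] [Algebra K A₁] [Algebra K A₂] [Algebra K A₃]
  [Algebra K B₁] [Algebra K B₂] [Algebra K B₃] [Algebra K Ω]

/-- the tensor product of two injective algebra homs over a field is injective -/
theorem s26etp_map_injective (φ : B₁ →ₐ[K] A₁) (ψ : B₂ →ₐ[K] A₂) (hφ : Function.Injective φ)
    (hψ : Function.Injective ψ) :
    Function.Injective (Algebra.TensorProduct.map φ ψ) := by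
  have h1 : Function.Injective (φ.toLinearMap.rTensor B₂) :=
    Module.Flat.rTensor_preserves_injective_linearMap (M := B₂) φ.toLinearMap hφ
  have h2 : Function.Injective (ψ.toLinearMap.lTensor A₁) :=
    Module.Flat.lTensor_preserves_injective_linearMap (M := A₁) ψ.toLinearMap hψ
  have e : ⇑(Algebra.TensorProduct.map φ ψ)
      = ⇑(ψ.toLinearMap.lTensor A₁) ∘ ⇑(φ.toLinearMap.rTensor B₂) := by
    funext x
    induction x using TensorProduct.induction_on with
    | zero => simp
    | tmul a b => rfl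
    | add x y hx hy =>
      rw [map_add, hx, hy, Function.comp_apply, Function.comp_apply, Function.comp_apply,
        map_add, map_add]
  rw [e]
  exact h2.comp h1

/-- `productMap` of composites -/
theorem s26etp_productMap_comp (j₁ : A₁ →ₐ[K] Ω) (j₂ : A₂ →ₐ[K] Ω) (φ : B₁ →ₐ[K] A₁)
    (ψ : B₂ →ₐ[K] A₂) :
    Algebra.TensorProduct.productMap (j₁.comp φ) (j₂.comp ψ)
      = (Algebra.TensorProduct.productMap j₁ j₂).comp (Algebra.TensorProduct.map φ ψ) := by
  apply Algebra.TensorProduct.ext'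
  intro a b
  simp

/-- **(T-pre) for two factors** -/
theorem s26etp_indep2_pre (j₁ : A₁ →ₐ[K] Ω) (j₂ : A₂ →ₐ[K] Ω) (φ : B₁ →ₐ[K] A₁)
    (ψ : B₂ →ₐ[K] A₂) (hφ : Function.Injective φ) (hψ : Function.Injective ψ)
    (h : Function.Injective (Algebra.TensorProduct.productMap j₁ j₂)) :
    Function.Injective (Algebra.TensorProduct.productMap (j₁.comp φ) (j₂.comp ψ)) := by
  rw [s26etp_productMap_comp]
  exact h.comp (s26etp_map_injective φ ψ hφ hψ)

/-- **(T-pre) for three factors** -/
theorem s26etp_indep3_pre (j₁ : A₁ →ₐ[K] Ω) (j₂ : A₂ →ₐ[K] Ω) (j₃ : A₃ →ₐ[K] Ω)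
    (φ₁ : B₁ →ₐ[K] A₁) (φ₂ : B₂ →ₐ[K] A₂) (φ₃ : B₃ →ₐ[K] A₃) (h₁ : Function.Injective φ₁)
    (h₂ : Function.Injective φ₂) (h₃ : Function.Injective φ₃)
    (h : Function.Injective
      (Algebra.TensorProduct.productMap (Algebra.TensorProduct.productMap j₁ j₂) j₃)) :
    Function.Injective
      (Algebra.TensorProduct.productMap
        (Algebra.TensorProduct.productMap (j₁.comp φ₁) (j₂.comp φ₂)) (j₃.comp φ₃)) := by
  rw [s26etp_productMap_comp j₁ j₂ φ₁ φ₂]
  exact s26etp_indep2_pre (Algebra.TensorProduct.productMap j₁ j₂) j₃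
    (Algebra.TensorProduct.map φ₁ φ₂) φ₃ (s26etp_map_injective φ₁ φ₂ h₁ h₂) h₃ h

/-- swap of the two factors -/
theorem s26etp_indep2_swap (j₁ : A₁ →ₐ[K] Ω) (j₂ : A₂ →ₐ[K] Ω)
    (h : Function.Injective (Algebra.TensorProduct.productMap j₁ j₂)) :
    Function.Injective (Algebra.TensorProduct.productMap j₂ j₁) := by
  have e : Algebra.TensorProduct.productMap j₂ j₁
      = (Algebra.TensorProduct.productMap j₁ j₂).comp
          (Algebra.TensorProduct.comm K A₂ A₁ : A₂ ⊗[K] A₁ →ₐ[K] A₁ ⊗[K] A₂) := by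
    apply Algebra.TensorProduct.ext'
    intro a b
    simp [mul_comm]
  rw [e]
  exact h.comp (Algebra.TensorProduct.comm K A₂ A₁).injective

/-- swap of the first two of three factors -/
theorem s26etp_indep3_swap12 (j₁ : A₁ →ₐ[K] Ω) (j₂ : A₂ →ₐ[K] Ω) (j₃ : A₃ →ₐ[K] Ω)
    (h : Function.Injective
      (Algebra.TensorProduct.productMap (Algebra.TensorProduct.productMap j₁ j₂) j₃)) :
    Function.Injective
      (Algebra.TensorProduct.productMap (Algebra.TensorProduct.productMap j₂ j₁) j₃) := by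
  have e : Algebra.TensorProduct.productMap (Algebra.TensorProduct.productMap j₂ j₁) j₃
      = (Algebra.TensorProduct.productMap (Algebra.TensorProduct.productMap j₁ j₂) j₃).comp
          (Algebra.TensorProduct.map
            (Algebra.TensorProduct.comm K A₂ A₁ : A₂ ⊗[K] A₁ →ₐ[K] A₁ ⊗[K] A₂)
            (AlgHom.id K A₃)) := by
    apply Algebra.TensorProduct.ext'
    intro x c
    induction x using TensorProduct.induction_on with
    | zero => simp
    | tmul a b => simp [mul_comm]
    | add x y hx hy =>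
      rw [TensorProduct.add_tmul, map_add, map_add, hx, hy]
  rw [e]
  exact h.comp (s26etp_map_injective _ _ (Algebra.TensorProduct.comm K A₂ A₁).injective
    Function.injective_id)

/-- reassociation: `(A₁ ⊗ A₂) ⊗ A₃ → Ω` injective iff `A₁ ⊗ (A₂ ⊗ A₃) → Ω` injective -/
theorem s26etp_indep3_assoc (j₁ : A₁ →ₐ[K] Ω) (j₂ : A₂ →ₐ[K] Ω) (j₃ : A₃ →ₐ[K] Ω) :
    Function.Injective
        (Algebra.TensorProduct.productMap (Algebra.TensorProduct.productMap j₁ j₂) j₃) ↔
      Function.Injective
        (Algebra.TensorProduct.productMap j₁ (Algebra.TensorProduct.productMap j₂ j₃)) := by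
  have e : Algebra.TensorProduct.productMap (Algebra.TensorProduct.productMap j₁ j₂) j₃
      = (Algebra.TensorProduct.productMap j₁ (Algebra.TensorProduct.productMap j₂ j₃)).comp
          (Algebra.TensorProduct.assoc K K K A₁ A₂ A₃ :
            (A₁ ⊗[K] A₂) ⊗[K] A₃ →ₐ[K] A₁ ⊗[K] (A₂ ⊗[K] A₃)) := by
    apply Algebra.TensorProduct.ext'
    intro x c
    induction x using TensorProduct.induction_on with
    | zero => simp
    | tmul a b => simp [mul_assoc]
    | add x y hx hy =>
      rw [TensorProduct.add_tmul, map_add, map_add, hx, hy]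
  rw [e]
  constructor
  · intro h
    have := h.comp (Algebra.TensorProduct.assoc K K K A₁ A₂ A₃).symm.injective
    convert this using 1
    funext x
    simp
  · intro h
    exact h.comp (Algebra.TensorProduct.assoc K K K A₁ A₂ A₃).injective

/-- swap of the last two of three factors -/
theorem s26etp_indep3_swap23 (j₁ : A₁ →ₐ[K] Ω) (j₂ : A₂ →ₐ[K] Ω) (j₃ : A₃ →ₐ[K] Ω)
    (h : Function.Injective
      (Algebra.TensorProduct.productMap (Algebra.TensorProduct.productMap j₁ j₂) j₃)) :
    Function.Injective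
      (Algebra.TensorProduct.productMap (Algebra.TensorProduct.productMap j₁ j₃) j₂) := by
  rw [s26etp_indep3_assoc] at h ⊢
  have e : Algebra.TensorProduct.productMap j₁ (Algebra.TensorProduct.productMap j₃ j₂)
      = (Algebra.TensorProduct.productMap j₁ (Algebra.TensorProduct.productMap j₂ j₃)).comp
          (Algebra.TensorProduct.map (AlgHom.id K A₁)
            (Algebra.TensorProduct.comm K A₃ A₂ : A₃ ⊗[K] A₂ →ₐ[K] A₂ ⊗[K] A₃)) := by
    apply Algebra.TensorProduct.ext'
    intro a x
    induction x using TensorProduct.induction_on with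
    | zero => simp
    | tmul b c => simp [mul_comm]
    | add x y hx hy =>
      rw [TensorProduct.tmul_add, map_add, map_add, hx, hy]
  rw [e]
  exact h.comp (s26etp_map_injective _ _ Function.injective_id
    (Algebra.TensorProduct.comm K A₃ A₂).injective)

end alg

end Fermat.Agent.S26

end
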