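/-
S26-E, piece E-M (helper5): INTERFACE.  Mathlib only.  Definitions + the Props of the piece.

`X` an integral locally noetherian scheme, `U ⊂ X` open, `D` = the reduced sum of the prime divisors
(points of coheight one) outside `U`.

* `S26emIsLocEq U c h` : `h ∈ O_{X,c}` is a LOCAL EQUATION of `D` at `c`:
  `h ≠ 0` and `ord_z h = [z ∉ U]` for every prime divisor `z` specialising to `c`.
* `S26emLF U`          : (LF) every point has a local equation.
* `s26emCentre φ`, `s26emEv φ` : for a LOCAL ring `R` and `φ : Spec R ⟶ X` (a "V-point"): the centre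
  `c = φ(closed point)` and the local homomorphism `O_{X,c} → R`.
* `s26emGen U φ : R`   : THE GENERATOR = the value at `φ` of a local equation at the centre
  (`m_v(P) = v (s26emGen U (sp_V P))` in the blueprint NOTES/S26-E.md; junk `1` without (LF) at `c`).
-/
import Mathlib.AlgebraicGeometry.OrderOfVanishing
import Mathlib.AlgebraicGeometry.Stalk

set_option autoImplicit false

noncomputable section

namespace Fermat.Agent.S26

open AlgebraicGeometry CategoryTheory

universe u

variable {X : Scheme.{u}}

open scoped Classical in
/-- `h ∈ O_{X,c}` is a local equation at `c` of the reduced divisor "sum of the prime divisors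
outside `U`". -/
def S26emIsLocEq [IsIntegral X] [IsLocallyNoetherian X] (U : X.Opens) (c : X)
    (h : X.presheaf.stalk c) : Prop :=
  h ≠ 0 ∧ ∀ z : X, Order.coheight z = 1 → z ⤳ c →
    Scheme.ord (algebraMap (X.presheaf.stalk c) X.functionField h) z = if z ∈ U then 0 else 1

/-- **(LF)** for `U`: every point has a local equation. -/
def S26emLF [IsIntegral X] [IsLocallyNoetherian X] (U : X.Opens) : Prop :=
  ∀ c : X, ∃ h : X.presheaf.stalk c, S26emIsLocEq U c h

/-- **what piece (a) (local equations; helper8) provides for `(X, U)`**: existence (LF),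
uniqueness up to a unit, and "unit iff the point lies in `U`". -/
structure S26emLocData [IsIntegral X] [IsLocallyNoetherian X] (U : X.Opens) : Prop where
  exists_locEq : ∀ c : X, ∃ h : X.presheaf.stalk c, S26emIsLocEq U c h
  associated : ∀ (c : X) (h h' : X.presheaf.stalk c),
    S26emIsLocEq U c h → S26emIsLocEq U c h' → Associated h h'
  isUnit_iff : ∀ (c : X) (h : X.presheaf.stalk c), S26emIsLocEq U c h → (IsUnit h ↔ c ∈ U)

/-- the centre of `φ : Spec R ⟶ X`, `R` local. -/
abbrev s26emCentre {R : CommRingCat.{u}} [IsLocalRing R] (φ : Spec R ⟶ X) : X :=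
  φ (IsLocalRing.closedPoint R)

/-- evaluation at the centre: the local homomorphism `O_{X,c} → R`. -/
def s26emEv {R : CommRingCat.{u}} [IsLocalRing R] (φ : Spec R ⟶ X) :
    X.presheaf.stalk (s26emCentre φ) →+* R :=
  (Scheme.stalkClosedPointTo φ).hom

instance s26emEv_isLocalHom {R : CommRingCat.{u}} [IsLocalRing R] (φ : Spec R ⟶ X) :
    IsLocalHom (s26emEv φ) :=
  Scheme.isLocalHom_stalkClosedPointTo φ

open scoped Classical in
/-- **the generator**: the value at `φ` of a local equation of `D` at the centre of `φ`. -/
def s26emGen [IsIntegral X] [IsLocallyNoetherian X] (U : X.Opens) {R : CommRingCat.{u}}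
    [IsLocalRing R] (φ : Spec R ⟶ X) : R :=
  if h : ∃ h : X.presheaf.stalk (s26emCentre φ), S26emIsLocEq U (s26emCentre φ) h then
    s26emEv φ h.choose
  else 1

end Fermat.Agent.S26

end
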