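import Mathlib
import Fermat.Prelude.Def_JacJ1Iface
import Fermat.Prelude.Def_GoodReductionJacobian_RelativeGroupLawKernel

/-!
# S26, Stage A, piece A1 (part 1): Yoneda for a `RelativeGroupLaw` — the morphisms

`G : RelativeGroupLaw R f`, `f : A ⟶ Spec R`.  Everything is natural in the test scheme, so the
operations are induced by morphisms of schemes over `Spec R`:

* `s26a1_inv_natural`                 : `inv` is natural (the prelude has `mul_natural`,
                                        `one_natural`, `nsmul_natural`);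
* `s26a1Unit G : Spec R ⟶ A`          : the unit section `e`;  `s26a1_one_eq : (G.one t).1 = t ≫ e`;
* `s26a1Inv G : A ⟶ A`                : the inverse;  `s26a1_inv_eq : (G.inv t x).1 = x.1 ≫ inv`;
* `s26a1Mul G : pullback f f ⟶ A`     : the multiplication;
                                        `s26a1_mul_eq : (G.mul t x y).1 = lift x.1 y.1 ≫ m`;
* `s26a1_nsmul_eq`                    : `(G.nsmul t n x).1 = x.1 ≫ G.schemeNsmul n`;
* `s26a1Trans G a : A ⟶ A`            : the translation `x ↦ x · a` by a point `a ∈ A(R)`,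
                                        `s26a1_trans_eq`, `s26a1_trans_comp`, `s26a1TransIso`;
* group theory of `nsmul` (`= x ^ n` in `G.pointGroup t`): `s26a1_nsmul_eq_pow`,
  `s26a1_schemeNsmul_comp : [m] ≫ [n] = [m * n]`, `s26a1_nsmul_mul` (commutative case),
  `s26a1_isTorsionPoint_iff_pow`.
-/

set_option autoImplicit false

noncomputable section

universe u

open CategoryTheory CategoryTheory.Limits AlgebraicGeometry NeronModelInfra GoodReductionJacobian

namespace Fermat.Agent.S26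

variable {R : Type u} [CommRing R] {A : Scheme.{u}} {f : A ⟶ Spec (CommRingCat.of R)}
  (G : RelativeGroupLaw R f)

/-! ## Naturality -/

theorem s26a1_comp_comp {T T' T'' : Scheme.{u}} {t : T ⟶ Spec (CommRingCat.of R)}
    {t' : T' ⟶ Spec (CommRingCat.of R)} {t'' : T'' ⟶ Spec (CommRingCat.of R)}
    (ψ : T' ⟶ T) (hψ : ψ ≫ t = t') (φ : T'' ⟶ T') (hφ : φ ≫ t' = t'')
    (x : SchemeHomOver t f) :
    schemeHomOverComp φ hφ (schemeHomOverComp ψ hψ x)
      = schemeHomOverComp (φ ≫ ψ) (by rw [Category.assoc, hψ, hφ]) x :=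
  Subtype.ext (by simp)

theorem s26a1_comp_id {T : Scheme.{u}} {t : T ⟶ Spec (CommRingCat.of R)}
    (x : SchemeHomOver t f) : schemeHomOverComp (𝟙 T) (Category.id_comp t) x = x :=
  Subtype.ext (by simp)

/-- `inv` is natural. -/
theorem s26a1_inv_natural {T T' : Scheme.{u}} (t : T ⟶ Spec (CommRingCat.of R))
    (t' : T' ⟶ Spec (CommRingCat.of R)) (ψ : T' ⟶ T) (hψ : ψ ≫ t = t')
    (x : SchemeHomOver t f) :
    schemeHomOverComp ψ hψ (G.inv t x) = G.inv t' (schemeHomOverComp ψ hψ x) := by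
  letI := G.pointGroup t'
  have h : G.mul t' (schemeHomOverComp ψ hψ (G.inv t x)) (schemeHomOverComp ψ hψ x) = G.one t' := by
    rw [← G.mul_natural t t' ψ hψ, G.inv_mul_cancel, G.one_natural t t' ψ hψ]
  exact eq_inv_of_mul_eq_one_left h

/-! ## The morphisms -/

/-- the unit section `e : Spec R ⟶ A` -/
def s26a1Unit : Spec (CommRingCat.of R) ⟶ A := (G.one (𝟙 (Spec (CommRingCat.of R)))).1

theorem s26a1Unit_comp : s26a1Unit G ≫ f = 𝟙 _ := (G.one (𝟙 (Spec (CommRingCat.of R)))).2

/-- `(G.one t).1 = t ≫ e` -/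
theorem s26a1_one_eq {T : Scheme.{u}} (t : T ⟶ Spec (CommRingCat.of R)) :
    (G.one t).1 = t ≫ s26a1Unit G := by
  have h := G.one_natural (𝟙 (Spec (CommRingCat.of R))) t t (Category.comp_id t)
  exact (congrArg Subtype.val h).symm

/-- the inverse `A ⟶ A` -/
def s26a1Inv : A ⟶ A := (G.inv f RelativeGroupLaw.idPoint).1

theorem s26a1Inv_comp : s26a1Inv G ≫ f = f := (G.inv f RelativeGroupLaw.idPoint).2

/-- a point is the pullback of the identity point along itself -/
theorem s26a1_point_eq {T : Scheme.{u}} {t : T ⟶ Spec (CommRingCat.of R)}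
    (x : SchemeHomOver t f) :
    schemeHomOverComp x.1 x.2 (RelativeGroupLaw.idPoint (f := f)) = x :=
  Subtype.ext (by simp)

/-- `(G.inv t x).1 = x.1 ≫ inv` -/
theorem s26a1_inv_eq {T : Scheme.{u}} (t : T ⟶ Spec (CommRingCat.of R))
    (x : SchemeHomOver t f) : (G.inv t x).1 = x.1 ≫ s26a1Inv G := by
  have h := s26a1_inv_natural G f t x.1 x.2 RelativeGroupLaw.idPoint
  rw [s26a1_point_eq] at h
  exact (congrArg Subtype.val h).symm

/-- `(G.nsmul t n x).1 = x.1 ≫ [n]` -/
theorem s26a1_nsmul_eq {T : Scheme.{u}} (t : T ⟶ Spec (CommRingCat.of R)) (n : ℕ)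
    (x : SchemeHomOver t f) : (G.nsmul t n x).1 = x.1 ≫ G.schemeNsmul n := by
  have h := G.nsmul_natural f t x.1 x.2 n RelativeGroupLaw.idPoint
  rw [s26a1_point_eq] at h
  exact (congrArg Subtype.val h).symm

/-- the first projection `A ×_R A ⟶ A` as a point over `A ×_R A` -/
def s26a1Fst : SchemeHomOver (pullback.fst f f ≫ f) f := ⟨pullback.fst f f, rfl⟩

/-- the second projection `A ×_R A ⟶ A` as a point over `A ×_R A` -/
def s26a1Snd : SchemeHomOver (pullback.fst f f ≫ f) f :=
  ⟨pullback.snd f f, pullback.condition.symm⟩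

/-- the multiplication `m : A ×_R A ⟶ A` -/
def s26a1Mul : pullback f f ⟶ A := (G.mul (pullback.fst f f ≫ f) s26a1Fst s26a1Snd).1

theorem s26a1Mul_comp : s26a1Mul G ≫ f = pullback.fst f f ≫ f :=
  (G.mul (pullback.fst f f ≫ f) s26a1Fst s26a1Snd).2

/-- the pair `(x, y) : T ⟶ A ×_R A` of two points -/
def s26a1Pair {T : Scheme.{u}} {t : T ⟶ Spec (CommRingCat.of R)}
    (x y : SchemeHomOver t f) : T ⟶ pullback f f :=
  pullback.lift x.1 y.1 (by rw [x.2, y.2])

theorem s26a1Pair_comp {T : Scheme.{u}} {t : T ⟶ Spec (CommRingCat.of R)}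
    (x y : SchemeHomOver t f) : s26a1Pair x y ≫ (pullback.fst f f ≫ f) = t := by
  rw [s26a1Pair, ← Category.assoc, pullback.lift_fst, x.2]

/-- `(G.mul t x y).1 = (x, y) ≫ m` -/
theorem s26a1_mul_eq {T : Scheme.{u}} (t : T ⟶ Spec (CommRingCat.of R))
    (x y : SchemeHomOver t f) : (G.mul t x y).1 = s26a1Pair x y ≫ s26a1Mul G := by
  have h := G.mul_natural (pullback.fst f f ≫ f) t (s26a1Pair x y) (s26a1Pair_comp x y)
    s26a1Fst s26a1Snd
  have h1 : schemeHomOverComp (s26a1Pair x y) (s26a1Pair_comp x y) (s26a1Fst (f := f)) = x :=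
    Subtype.ext (pullback.lift_fst _ _ _)
  have h2 : schemeHomOverComp (s26a1Pair x y) (s26a1Pair_comp x y) (s26a1Snd (f := f)) = y :=
    Subtype.ext (pullback.lift_snd _ _ _)
  rw [h1, h2] at h
  exact (congrArg Subtype.val h).symm

/-! ## `nsmul` is the power in the group of points -/

theorem s26a1_nsmul_eq_pow {T : Scheme.{u}} (t : T ⟶ Spec (CommRingCat.of R)) (n : ℕ)
    (x : SchemeHomOver t f) :
    letI := G.pointGroup t
    G.nsmul t n x = x ^ n := by
  letI := G.pointGroup t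
  induction n with
  | zero => rw [RelativeGroupLaw.nsmul_zero, pow_zero]; rfl
  | succ n ih => rw [RelativeGroupLaw.nsmul_succ, ih, pow_succ]; rfl

theorem s26a1_isTorsionPoint_iff_pow {T : Scheme.{u}} (t : T ⟶ Spec (CommRingCat.of R)) (n : ℕ)
    (x : SchemeHomOver t f) :
    letI := G.pointGroup t
    G.IsTorsionPoint t n x ↔ x ^ n = 1 := by
  rw [RelativeGroupLaw.isTorsionPoint_def, s26a1_nsmul_eq_pow]
  rfl

/-- `G.nsmul t n (G.nsmul t m x) = G.nsmul t (m * n) x` -/
theorem s26a1_nsmul_nsmul {T : Scheme.{u}} (t : T ⟶ Spec (CommRingCat.of R)) (m n : ℕ)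
    (x : SchemeHomOver t f) : G.nsmul t n (G.nsmul t m x) = G.nsmul t (m * n) x := by
  letI := G.pointGroup t
  have h := s26a1_nsmul_eq_pow G t
  rw [h, h, h, pow_mul]

/-- `[m] ≫ [n] = [m * n]` -/
theorem s26a1_schemeNsmul_comp (m n : ℕ) :
    G.schemeNsmul m ≫ G.schemeNsmul n = G.schemeNsmul (m * n) := by
  have h := s26a1_nsmul_eq G f n (G.nsmul f m RelativeGroupLaw.idPoint)
  rw [s26a1_nsmul_nsmul] at h
  exact h.symm

theorem s26a1_schemeNsmul_one : G.schemeNsmul 1 = 𝟙 A := by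
  show (G.nsmul f 1 RelativeGroupLaw.idPoint).1 = 𝟙 A
  rw [RelativeGroupLaw.nsmul_one_apply]

theorem s26a1_schemeNsmul_zero : G.schemeNsmul 0 = f ≫ s26a1Unit G := by
  show (G.nsmul f 0 RelativeGroupLaw.idPoint).1 = _
  rw [RelativeGroupLaw.nsmul_zero, s26a1_one_eq]

/-- in the commutative case `[n]` is a homomorphism on points -/
theorem s26a1_nsmul_mul (hc : G.IsCommutative) {T : Scheme.{u}}
    (t : T ⟶ Spec (CommRingCat.of R)) (n : ℕ) (x y : SchemeHomOver t f) :
    G.nsmul t n (G.mul t x y) = G.mul t (G.nsmul t n x) (G.nsmul t n y) := by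
  letI := G.pointGroup t
  have h := s26a1_nsmul_eq_pow G t
  rw [h, h, h]
  have hxy : Commute x y := hc t x y
  exact hxy.mul_pow n

theorem s26a1_nsmul_inv {T : Scheme.{u}}
    (t : T ⟶ Spec (CommRingCat.of R)) (n : ℕ) (x : SchemeHomOver t f) :
    G.nsmul t n (G.inv t x) = G.inv t (G.nsmul t n x) := by
  letI := G.pointGroup t
  have h := s26a1_nsmul_eq_pow G t
  rw [h, h]
  exact inv_pow x n

end Fermat.Agent.S26
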