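/-
S26-E, piece E-PT (helper51), part 1: points of `A` with values in `K`-algebras.

`f : A ⟶ Spec K`.  For a `K`-algebra `R` (all in universe `u`):

* `s26eptStr R : Spec R ⟶ Spec K`, `s26eptPts f R` = `A(R)` (the prelude's `SchemeHomOver`);
* `s26eptMap f φ : A(R) → A(R')` for `φ : R →ₐ[K] R'`; it is functorial and commutes with the group
  law of a `RelativeGroupLaw` (`s26eptMap_mul`, `_one`, `_inv`, `_nsmul`);
* for `R` local: `s26eptPt f P : A` (the image of the closed point, `|P|`),
  `s26eptEv f P : 𝒪_{A,|P|} →+* R` (local), `s26eptVal f P W hW : Γ(A, W) →+* R` (value of a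
  section at `P`), `s26eptEv_germ`, and functoriality `s26eptPt_map`, `s26eptVal_map` for local
  homomorphisms; for ARBITRARY `K`-algebra homomorphisms `φ` of local rings:
  `s26eptPt_map_specializes : |φ P| ⤳ |P|`, `s26eptVal_map : (φ P)(s) = φ (P(s))`,
  `s26eptEv_map : ev_{φ P} ∘ stalkSpecializes = φ ∘ ev_P`.
-/
import Fermat.Agent.S26.A1

set_option autoImplicit false
set_option linter.style.haveILetI false

noncomputable section

namespace Fermat.Agent.S26

open CategoryTheory CategoryTheory.Limits AlgebraicGeometry NeronModelInfra GoodReductionJacobian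

universe u

variable {K : Type u} [Field K] {A : Scheme.{u}} (f : A ⟶ Spec (CommRingCat.of K))

/-- the structure morphism `Spec R ⟶ Spec K` of a `K`-algebra -/
abbrev s26eptStr (K : Type u) [Field K] (R : Type u) [CommRing R] [Algebra K R] :
    Spec (CommRingCat.of R) ⟶ Spec (CommRingCat.of K) :=
  Spec.map (CommRingCat.ofHom (algebraMap K R))

/-- `A(R)`: the `R`-valued points of `A` over `K` -/
abbrev s26eptPts (R : Type u) [CommRing R] [Algebra K R] : Type u :=
  SchemeHomOver (s26eptStr K R) f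

section Functor

variable {R R' R'' : Type u} [CommRing R] [CommRing R'] [CommRing R'']
  [Algebra K R] [Algebra K R'] [Algebra K R'']

/-- the morphism `Spec R' ⟶ Spec R` of a `K`-algebra homomorphism -/
abbrev s26eptSpec (φ : R →ₐ[K] R') : Spec (CommRingCat.of R') ⟶ Spec (CommRingCat.of R) :=
  Spec.map (CommRingCat.ofHom (φ : R →+* R'))

theorem s26eptSpec_str (φ : R →ₐ[K] R') : s26eptSpec φ ≫ s26eptStr K R = s26eptStr K R' := by
  rw [s26eptSpec, s26eptStr, ← Spec.map_comp, ← CommRingCat.ofHom_comp]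
  congr 2
  ext c
  exact φ.commutes c

/-- functoriality of `A(R)` in the `K`-algebra `R` -/
def s26eptMap (φ : R →ₐ[K] R') (P : s26eptPts f R) : s26eptPts f R' :=
  schemeHomOverComp (s26eptSpec φ) (s26eptSpec_str φ) P

@[simp]
theorem s26eptMap_coe (φ : R →ₐ[K] R') (P : s26eptPts f R) :
    (s26eptMap f φ P).1 = s26eptSpec φ ≫ P.1 := rfl

theorem s26eptMap_id (P : s26eptPts f R) : s26eptMap f (AlgHom.id K R) P = P := by
  apply Subtype.ext
  rw [s26eptMap_coe]
  have : s26eptSpec (AlgHom.id K R) = 𝟙 _ := Spec.map_id _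
  rw [this, Category.id_comp]

theorem s26eptMap_comp (φ : R →ₐ[K] R') (φ' : R' →ₐ[K] R'') (P : s26eptPts f R) :
    s26eptMap f (φ'.comp φ) P = s26eptMap f φ' (s26eptMap f φ P) := by
  apply Subtype.ext
  rw [s26eptMap_coe, s26eptMap_coe, s26eptMap_coe, ← Category.assoc]
  congr 1
  rw [s26eptSpec, s26eptSpec, s26eptSpec, ← Spec.map_comp, ← CommRingCat.ofHom_comp]
  rfl

theorem s26eptMap_injective_of_epi (φ : R →ₐ[K] R') [Epi (s26eptSpec φ)] :
    Function.Injective (s26eptMap f φ) := by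
  intro P Q h
  apply Subtype.ext
  have := congrArg Subtype.val h
  rw [s26eptMap_coe, s26eptMap_coe] at this
  exact (cancel_epi _).mp this

variable (G : RelativeGroupLaw K f)

theorem s26eptMap_mul (φ : R →ₐ[K] R') (P Q : s26eptPts f R) :
    s26eptMap f φ (G.mul _ P Q) = G.mul _ (s26eptMap f φ P) (s26eptMap f φ Q) :=
  G.mul_natural _ _ _ (s26eptSpec_str φ) P Q

theorem s26eptMap_one (φ : R →ₐ[K] R') :
    s26eptMap f φ (G.one (s26eptStr K R)) = G.one (s26eptStr K R') :=
  G.one_natural _ _ _ (s26eptSpec_str φ)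

theorem s26eptMap_inv (φ : R →ₐ[K] R') (P : s26eptPts f R) :
    s26eptMap f φ (G.inv _ P) = G.inv _ (s26eptMap f φ P) :=
  s26a1_inv_natural G _ _ _ (s26eptSpec_str φ) P

theorem s26eptMap_nsmul (φ : R →ₐ[K] R') (n : ℕ) (P : s26eptPts f R) :
    s26eptMap f φ (G.nsmul _ n P) = G.nsmul _ n (s26eptMap f φ P) :=
  G.nsmul_natural _ _ _ (s26eptSpec_str φ) n P

/-- `A(R) → A(R')` as a group homomorphism -/
def s26eptMapHom (φ : R →ₐ[K] R') :
    letI := G.pointGroup (s26eptStr K R)
    letI := G.pointGroup (s26eptStr K R')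
    s26eptPts f R →* s26eptPts f R' :=
  letI := G.pointGroup (s26eptStr K R)
  letI := G.pointGroup (s26eptStr K R')
  { toFun := s26eptMap f φ
    map_one' := s26eptMap_one f G φ
    map_mul' := s26eptMap_mul f G φ }

end Functor

section Local

variable {R R' : Type u} [CommRing R] [CommRing R'] [Algebra K R] [Algebra K R']
  [IsLocalRing R] [IsLocalRing R']

/-- `|P|`: the image of the closed point of `Spec R` under `P ∈ A(R)`, `R` local -/
def s26eptPt (P : s26eptPts f R) : A := P.1 (IsLocalRing.closedPoint R)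

/-- `ev_P : 𝒪_{A,|P|} → R`, the local homomorphism of a point with values in a local ring -/
def s26eptEv (P : s26eptPts f R) : A.presheaf.stalk (s26eptPt f P) →+* R :=
  (Scheme.stalkClosedPointTo P.1).hom

instance s26eptEv_isLocalHom (P : s26eptPts f R) : IsLocalHom (s26eptEv f P) :=
  Scheme.isLocalHom_stalkClosedPointTo' P.1

/-- the value at `P` of a section over an open `W ∋ |P|` -/
def s26eptVal (P : s26eptPts f R) (W : A.Opens) (hW : s26eptPt f P ∈ W) : Γ(A, W) →+* R :=
  (s26eptEv f P).comp (A.presheaf.germ W (s26eptPt f P) hW).hom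

theorem s26eptEv_germ (P : s26eptPts f R) (W : A.Opens) (hW : s26eptPt f P ∈ W) (s : Γ(A, W)) :
    s26eptEv f P (A.presheaf.germ W (s26eptPt f P) hW s) = s26eptVal f P W hW s := rfl

/-- the value of a section in terms of the morphism `P` -/
theorem s26eptVal_eq (P : s26eptPts f R) (W : A.Opens) (hW : s26eptPt f P ∈ W) (s : Γ(A, W)) :
    s26eptVal f P W hW s =
      ((Spec (CommRingCat.of R)).presheaf.mapIso (eqToIso
          (Scheme.preimage_eq_top_of_closedPoint_mem P.1 hW).symm).op ≪≫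
        Scheme.ΓSpecIso (CommRingCat.of R)).hom ((P.1.app W).hom s) := by
  have h := Scheme.germ_stalkClosedPointTo P.1 W hW
  exact congrArg (fun g => g.hom s) h

/-- the point of `A` does not change under a local homomorphism -/
theorem s26eptPt_map (φ : R →ₐ[K] R') [IsLocalHom (φ : R →+* R')] (P : s26eptPts f R) :
    s26eptPt f (s26eptMap f φ P) = s26eptPt f P := by
  unfold s26eptPt
  rw [s26eptMap_coe]
  change P.1 ((s26eptSpec φ) (IsLocalRing.closedPoint R')) = _
  congr 1
  exact IsLocalRing.comap_closedPoint (φ : R →+* R')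

end Local

section Local2

variable {R R' : Type u} [CommRing R] [CommRing R'] [Algebra K R] [Algebra K R']
  [IsLocalRing R] [IsLocalRing R']

theorem s26ept_preimage_eq_top (P : s26eptPts f R) (W : A.Opens) (hW : s26eptPt f P ∈ W) :
    P.1 ⁻¹ᵁ W = ⊤ :=
  Scheme.preimage_eq_top_of_closedPoint_mem P.1 hW

/-- the value of a section at `P` in `appLE` form -/
theorem s26eptVal_eq_appLE (P : s26eptPts f R) (W : A.Opens) (hW : s26eptPt f P ∈ W)
    (s : Γ(A, W)) :
    s26eptVal f P W hW s =
      (Scheme.ΓSpecIso (CommRingCat.of R)).hom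
        ((P.1.appLE W ⊤ (s26ept_preimage_eq_top f P W hW).ge).hom s) := by
  rw [s26eptVal_eq]
  rfl

/-- under ANY `K`-algebra homomorphism `φ : R → R'` of local rings, the point of `φ P` is a
generisation of the point of `P`: every open containing `|P|` contains `|φ P|` -/
theorem s26eptPt_map_mem (φ : R →ₐ[K] R') (P : s26eptPts f R) (W : A.Opens)
    (hW : s26eptPt f P ∈ W) : s26eptPt f (s26eptMap f φ P) ∈ W := by
  have h := s26ept_preimage_eq_top f P W hW
  show (s26eptSpec φ ≫ P.1) (IsLocalRing.closedPoint R') ∈ W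
  have : (s26eptSpec φ) (IsLocalRing.closedPoint R') ∈ P.1 ⁻¹ᵁ W := by rw [h]; trivial
  exact this

theorem s26eptPt_map_specializes (φ : R →ₐ[K] R') (P : s26eptPts f R) :
    s26eptPt f (s26eptMap f φ P) ⤳ s26eptPt f P := by
  rw [specializes_iff_forall_open]
  intro W hWo hW
  exact s26eptPt_map_mem f φ P ⟨W, hWo⟩ hW

/-- **functoriality of values**: `(φ P)(s) = φ (P(s))` -/
theorem s26eptVal_map (φ : R →ₐ[K] R') (P : s26eptPts f R) (W : A.Opens)
    (hW : s26eptPt f P ∈ W) (s : Γ(A, W)) :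
    s26eptVal f (s26eptMap f φ P) W (s26eptPt_map_mem f φ P W hW) s = φ (s26eptVal f P W hW s) := by
  rw [s26eptVal_eq_appLE, s26eptVal_eq_appLE]
  have e₂ : (⊤ : (Spec (CommRingCat.of R')).Opens) ≤ (s26eptSpec φ) ⁻¹ᵁ ⊤ := le_of_eq rfl
  have h1 : P.1.appLE W ⊤ (s26ept_preimage_eq_top f P W hW).ge ≫ (s26eptSpec φ).appLE ⊤ ⊤ e₂ =
      (s26eptMap f φ P).1.appLE W ⊤
        (s26ept_preimage_eq_top f _ W (s26eptPt_map_mem f φ P W hW)).ge :=
    Scheme.Hom.appLE_comp_appLE (s26eptSpec φ) P.1 W ⊤ ⊤ _ e₂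
  rw [← h1]
  have h2 : (s26eptSpec φ).appLE ⊤ ⊤ e₂ ≫ (Scheme.ΓSpecIso (CommRingCat.of R')).hom =
      (Scheme.ΓSpecIso (CommRingCat.of R)).hom ≫ CommRingCat.ofHom (φ : R →+* R') := by
    have := Scheme.ΓSpecIso_naturality (CommRingCat.ofHom (φ : R →+* R'))
    rw [← this]
    congr 1
  have h3 := congrArg (fun g => g.hom ((P.1.appLE W ⊤ (s26ept_preimage_eq_top f P W hW).ge).hom s)) h2
  exact h3

/-- **functoriality of `ev`**: `ev_{φ P} ∘ (specialisation map) = φ ∘ ev_P` -/
theorem s26eptEv_map (φ : R →ₐ[K] R') (P : s26eptPts f R) (x : A.presheaf.stalk (s26eptPt f P)) :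
    s26eptEv f (s26eptMap f φ P) (A.presheaf.stalkSpecializes (s26eptPt_map_specializes f φ P) x) =
      φ (s26eptEv f P x) := by
  obtain ⟨W, hW, s, rfl⟩ := A.presheaf.exists_germ_eq x
  have h := s26eptVal_map f φ P W hW s
  rw [← s26eptEv_germ, ← s26eptEv_germ] at h
  rw [← h]
  congr 1
  exact congrArg (fun g => g.hom s) (A.presheaf.germ_stalkSpecializes hW
    (s26eptPt_map_specializes f φ P))

end Local2

end Fermat.Agent.S26
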