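/-
S26-E, piece E-PT (helper51), part 2: specialisation along valuation rings.

`f : A ⟶ Spec K` proper, `Ω ⊇ K` a field, `V` a valuation ring with fraction field `Ω`, `K ⊆ V`
(type classes: `[ValuationRing V] [Algebra V Ω] [IsFractionRing V Ω] [Algebra K V]
[IsScalarTower K V Ω]`; e.g. `V = v.toValuationSubring` for a prelude `Place K Ω`).

* `s26eptEquiv f Ω V : A(V) ≃ A(Ω)` (valuative criterion), `s26eptLift f Ω V P : A(V)`,
  `s26eptLift_eq_iff`, group law: `s26eptLift_mul/_one/_inv/_nsmul`;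
* `s26eptSp f Ω V : A(Ω) → A(k_V)` (specialisation; `s26eptSp_mul/_one/_inv/_nsmul`);
* `s26eptCentre f Ω V P : A` (centre), `s26eptEvV f Ω V P : 𝒪_{A,c} →+* V` (local),
  `s26eptPt_sp : |sp P| = c_V(P)`, `s26eptCentre_specializes : |P| ⤳ c_V(P)`,
  `s26eptValV_compat`, `s26eptEvV_compat : (evV x : Ω) = ev_P (stalkSpecializes x)`.
-/
import Fermat.Agent.S26.EPT

set_option autoImplicit false
set_option linter.style.haveILetI false

noncomputable section

namespace Fermat.Agent.S26

open CategoryTheory CategoryTheory.Limits AlgebraicGeometry NeronModelInfra GoodReductionJacobian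

universe u

variable {K : Type u} [Field K] {A : Scheme.{u}} (f : A ⟶ Spec (CommRingCat.of K))

section Val

variable (Ω : Type u) [Field Ω] [Algebra K Ω]
  (V : Type u) [CommRing V] [IsDomain V] [ValuationRing V] [Algebra V Ω] [IsFractionRing V Ω]
  [Algebra K V] [IsScalarTower K V Ω]

/-- the inclusion `V → Ω` as a `K`-algebra homomorphism -/
abbrev s26eptIncl : V →ₐ[K] Ω := IsScalarTower.toAlgHom K V Ω

/-- the valuative square of a point `P ∈ A(Ω)` and a valuation ring `V` of `Ω` over `K` -/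
def s26eptSq (P : s26eptPts f Ω) : ValuativeCommSq f where
  R := V
  K := Ω
  i₁ := P.1
  i₂ := s26eptStr K V
  commSq := ⟨by
    rw [P.2]
    exact (s26eptSpec_str (s26eptIncl (K := K) Ω V)).symm⟩

variable {Ω V}

/-- **valuative criterion, existence**: every `Ω`-point of the proper `A` extends to `V` -/
theorem s26ept_exists_lift [IsProper f] (P : s26eptPts f Ω) :
    ∃ Q : s26eptPts f V, s26eptMap f (s26eptIncl Ω V) Q = P := by
  have hvc : ValuativeCriterion f := by
    have h : IsProper f := inferInstance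
    rw [IsProper.eq_valuativeCriterion] at h
    exact h.1.1.1
  have hl := hvc.existence (s26eptSq f Ω V P)
  obtain ⟨⟨l⟩⟩ := hl
  exact ⟨⟨l.l, l.fac_right⟩, Subtype.ext l.fac_left⟩

/-- **valuative criterion, uniqueness** -/
theorem s26eptMap_incl_injective [IsSeparated f] :
    Function.Injective (s26eptMap f (s26eptIncl (K := K) Ω V)) := by
  intro Q Q' h
  have hu := (IsSeparated.valuativeCriterion f) (s26eptSq f Ω V (s26eptMap f (s26eptIncl Ω V) Q))
  have e : (⟨Q.1, rfl, Q.2⟩ : (s26eptSq f Ω V (s26eptMap f (s26eptIncl Ω V) Q)).commSq.LiftStruct) =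
      ⟨Q'.1, (congrArg Subtype.val h).symm, Q'.2⟩ := Subsingleton.elim _ _
  exact Subtype.ext (congrArg CommSq.LiftStruct.l e)

variable (Ω V)

/-- `A(V) ≃ A(Ω)` for a valuation ring `V ⊇ K` of `Ω` and `A` proper over `K` -/
def s26eptEquiv [IsProper f] : s26eptPts f V ≃ s26eptPts f Ω :=
  Equiv.ofBijective (s26eptMap f (s26eptIncl Ω V))
    ⟨s26eptMap_incl_injective f, fun P => s26ept_exists_lift f P⟩

/-- the extension of `P ∈ A(Ω)` to `V` -/
def s26eptLift [IsProper f] (P : s26eptPts f Ω) : s26eptPts f V :=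
  (s26eptEquiv f Ω V).symm P

theorem s26eptMap_lift [IsProper f] (P : s26eptPts f Ω) :
    s26eptMap f (s26eptIncl Ω V) (s26eptLift f Ω V P) = P :=
  (s26eptEquiv f Ω V).apply_symm_apply P

theorem s26eptLift_map [IsProper f] (Q : s26eptPts f V) :
    s26eptLift f Ω V (s26eptMap f (s26eptIncl Ω V) Q) = Q :=
  (s26eptEquiv f Ω V).symm_apply_apply Q

theorem s26eptLift_eq_iff [IsProper f] (P : s26eptPts f Ω) (Q : s26eptPts f V) :
    s26eptLift f Ω V P = Q ↔ s26eptMap f (s26eptIncl Ω V) Q = P := by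
  constructor
  · rintro rfl; exact s26eptMap_lift f Ω V P
  · rintro rfl; exact s26eptLift_map f Ω V Q

end Val

section Val2

variable (Ω : Type u) [Field Ω] [Algebra K Ω]
  (V : Type u) [CommRing V] [IsDomain V] [ValuationRing V] [Algebra V Ω] [IsFractionRing V Ω]
  [Algebra K V] [IsScalarTower K V Ω]

variable (G : RelativeGroupLaw K f) [IsProper f]

theorem s26eptLift_mul (P Q : s26eptPts f Ω) :
    s26eptLift f Ω V (G.mul _ P Q) = G.mul _ (s26eptLift f Ω V P) (s26eptLift f Ω V Q) := by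
  rw [s26eptLift_eq_iff, s26eptMap_mul, s26eptMap_lift, s26eptMap_lift]

theorem s26eptLift_one : s26eptLift f Ω V (G.one _) = G.one _ := by
  rw [s26eptLift_eq_iff, s26eptMap_one]

theorem s26eptLift_inv (P : s26eptPts f Ω) :
    s26eptLift f Ω V (G.inv _ P) = G.inv _ (s26eptLift f Ω V P) := by
  rw [s26eptLift_eq_iff, s26eptMap_inv, s26eptMap_lift]

theorem s26eptLift_nsmul (n : ℕ) (P : s26eptPts f Ω) :
    s26eptLift f Ω V (G.nsmul _ n P) = G.nsmul _ n (s26eptLift f Ω V P) := by
  rw [s26eptLift_eq_iff, s26eptMap_nsmul, s26eptMap_lift]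

/-- the residue map `V → k_V` as a `K`-algebra homomorphism -/
abbrev s26eptRes : V →ₐ[K] IsLocalRing.ResidueField V :=
  IsScalarTower.toAlgHom K V (IsLocalRing.ResidueField V)

/-- **specialisation** `sp_V : A(Ω) → A(k_V)` along a valuation ring `V ⊇ K` of `Ω` -/
def s26eptSp (P : s26eptPts f Ω) : s26eptPts f (IsLocalRing.ResidueField V) :=
  s26eptMap f (s26eptRes V) (s26eptLift f Ω V P)

theorem s26eptSp_mul (P Q : s26eptPts f Ω) :
    s26eptSp f Ω V (G.mul _ P Q) = G.mul _ (s26eptSp f Ω V P) (s26eptSp f Ω V Q) := by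
  unfold s26eptSp
  rw [s26eptLift_mul, s26eptMap_mul]

theorem s26eptSp_one : s26eptSp f Ω V (G.one _) = G.one _ := by
  unfold s26eptSp
  rw [s26eptLift_one, s26eptMap_one]

theorem s26eptSp_inv (P : s26eptPts f Ω) :
    s26eptSp f Ω V (G.inv _ P) = G.inv _ (s26eptSp f Ω V P) := by
  unfold s26eptSp
  rw [s26eptLift_inv, s26eptMap_inv]

theorem s26eptSp_nsmul (n : ℕ) (P : s26eptPts f Ω) :
    s26eptSp f Ω V (G.nsmul _ n P) = G.nsmul _ n (s26eptSp f Ω V P) := by
  unfold s26eptSp
  rw [s26eptLift_nsmul, s26eptMap_nsmul]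

/-- the **centre** `c_V(P) ∈ A` of `P ∈ A(Ω)` along `V` -/
def s26eptCentre (P : s26eptPts f Ω) : A := s26eptPt f (s26eptLift f Ω V P)

/-- `𝒪_{A, c_V(P)} → V`, a local homomorphism -/
def s26eptEvV (P : s26eptPts f Ω) : A.presheaf.stalk (s26eptCentre f Ω V P) →+* V :=
  s26eptEv f (s26eptLift f Ω V P)

instance s26eptEvV_isLocalHom (P : s26eptPts f Ω) : IsLocalHom (s26eptEvV f Ω V P) :=
  s26eptEv_isLocalHom f _

/-- the point of the specialisation is the centre -/
theorem s26eptPt_sp (P : s26eptPts f Ω) :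
    s26eptPt f (s26eptSp f Ω V P) = s26eptCentre f Ω V P := by
  haveI : IsLocalHom ((s26eptRes (K := K) V : V →ₐ[K] IsLocalRing.ResidueField V) : V →+* _) := by
    show IsLocalHom (IsLocalRing.residue V)
    infer_instance
  exact s26eptPt_map f (s26eptRes V) _

omit [IsProper f] in
theorem s26eptVal_congr {R : Type u} [CommRing R] [Algebra K R] [IsLocalRing R]
    {P P' : s26eptPts f R} (h : P = P') (W : A.Opens) (hW : s26eptPt f P ∈ W)
    (hW' : s26eptPt f P' ∈ W) (s : Γ(A, W)) :
    s26eptVal f P W hW s = s26eptVal f P' W hW' s := by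
  subst h
  rfl

/-- every open containing the centre contains `|P|` -/
theorem s26eptCentre_mem (P : s26eptPts f Ω) (W : A.Opens)
    (hW : s26eptCentre f Ω V P ∈ W) : s26eptPt f P ∈ W := by
  have h := s26eptPt_map_mem f (s26eptIncl Ω V) (s26eptLift f Ω V P) W hW
  rwa [s26eptMap_lift] at h

/-- `|P|` specialises to the centre -/
theorem s26eptCentre_specializes (P : s26eptPts f Ω) :
    s26eptPt f P ⤳ s26eptCentre f Ω V P := by
  rw [specializes_iff_forall_open]
  intro W hWo hW
  exact s26eptCentre_mem f Ω V P ⟨W, hWo⟩ hW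

/-- the value at `P` of a section defined near the centre lies in `V` -/
theorem s26eptValV_compat (P : s26eptPts f Ω) (W : A.Opens)
    (hW : s26eptCentre f Ω V P ∈ W) (s : Γ(A, W)) :
    s26eptVal f P W (s26eptCentre_mem f Ω V P W hW) s =
      algebraMap V Ω (s26eptVal f (s26eptLift f Ω V P) W hW s) := by
  have h := s26eptVal_map f (s26eptIncl Ω V) (s26eptLift f Ω V P) W hW s
  rw [← s26eptVal_congr f (s26eptMap_lift f Ω V P).symm W (s26eptCentre_mem f Ω V P W hW)
    (s26eptPt_map_mem f (s26eptIncl Ω V) (s26eptLift f Ω V P) W hW) s] at h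
  exact h

/-- **`ev_P (𝒪_{A,c_V(P)}) ⊆ V`**: `ev_P ∘ stalkSpecializes = (V ↪ Ω) ∘ evV` -/
theorem s26eptEvV_compat (P : s26eptPts f Ω) (x : A.presheaf.stalk (s26eptCentre f Ω V P)) :
    s26eptEv f P (A.presheaf.stalkSpecializes (s26eptCentre_specializes f Ω V P) x) =
      algebraMap V Ω (s26eptEvV f Ω V P x) := by
  obtain ⟨W, hW, s, rfl⟩ := A.presheaf.exists_germ_eq x
  have h := s26eptValV_compat f Ω V P W hW s
  have e1 : s26eptEv f P (A.presheaf.stalkSpecializes (s26eptCentre_specializes f Ω V P)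
      (A.presheaf.germ W (s26eptCentre f Ω V P) hW s)) =
      s26eptVal f P W (s26eptCentre_mem f Ω V P W hW) s := by
    rw [← s26eptEv_germ]
    congr 1
    exact congrArg (fun g => g.hom s) (A.presheaf.germ_stalkSpecializes hW
      (s26eptCentre_specializes f Ω V P))
  rw [e1, h]
  rfl

/-- the centre lies in an open `W` iff the value of ... : `evV` of a non-unit is a non-unit -/
theorem s26eptEvV_isUnit_iff (P : s26eptPts f Ω) (x : A.presheaf.stalk (s26eptCentre f Ω V P)) :
    IsUnit (s26eptEvV f Ω V P x) ↔ IsUnit x :=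
  ⟨fun h => IsLocalHom.map_nonunit (f := s26eptEvV f Ω V P) x h, fun h => h.map _⟩

end Val2

end Fermat.Agent.S26
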