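/-
S26 — GEOMETRIC INTERFACE of the captain (helper77): concrete definitions (`s26F`, `s26L`,
`s26IsPull`) and the Props of the geometric pieces.  Piece table: NOTES/S26-pieces.md.
Definitions and statements only.

Standing data: `K` algebraically closed, `f : A ⟶ Spec K`, `G : RelativeGroupLaw K f` commutative,
`AbelianSchemePropertyBundle K f`, `SmoothOfRelativeDimension g f`.
-/
import Fermat.Agent.S26.Plan

set_option autoImplicit false
noncomputable section
namespace Fermat.Agent.S26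
open CategoryTheory CategoryTheory.Limits AlgebraicGeometry NeronModelInfra GoodReductionJacobian
universe u
variable {K : Type u} [Field K] {A : Scheme.{u}} (f : A ⟶ Spec (CommRingCat.of K))

/-- The function field of `A`, as a type carrying its `K`-algebra structure. -/
def s26F (_f : A ⟶ Spec (CommRingCat.of K)) [IsIntegral A] : Type u := A.functionField

instance s26F_field [IsIntegral A] : Field (s26F f) := inferInstanceAs (Field A.functionField)

/-- The structure map `K → K(A)`. -/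
def s26algMap [IsIntegral A] : K →+* s26F f :=
  ((@Scheme.germToFunctionField A _ ⊤ ⟨⟨genericPoint A, trivial⟩⟩).hom.comp (f.appTop).hom).comp
    (Scheme.ΓSpecIso (CommRingCat.of K)).inv.hom

instance s26F_algebra [IsIntegral A] : Algebra K (s26F f) := (s26algMap f).toAlgebra

/-- the germ map `Γ(A, V) → K(A)` with values in `s26F f`. -/
def s26germ [IsIntegral A] (V : A.Opens) [Nonempty V] : Γ(A, V) →+* s26F f :=
  (A.germToFunctionField V).hom

/-- order of a function at a point (junk unless `coheight z = 1`). -/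
def s26ord [IsIntegral A] [IsLocallyNoetherian A] (x : s26F f) (z : A) : ℤ :=
  Scheme.ord (X := A) x z

/-- The condition "regular on `U`, poles of order `≤ m` outside". -/
def s26Lset [IsIntegral A] [IsLocallyNoetherian A] (U : A.Opens) (m : ℕ) : Set (s26F f) :=
  {x | ∀ z : A, Order.coheight z = 1 → (z ∈ U → 0 ≤ s26ord f x z) ∧ -(m : ℤ) ≤ s26ord f x z}

/-- `L(U, m)`. -/
def s26L [IsIntegral A] [IsLocallyNoetherian A] (U : A.Opens) (m : ℕ) : Submodule K (s26F f) :=
  Submodule.span K (s26Lset f U m)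

/-- `φ` is the pull-back of functions along `ψ : A ⟶ A`. -/
def s26IsPull [IsIntegral A] (ψ : A ⟶ A) (φ : s26F f →ₐ[K] s26F f) : Prop :=
  ∀ (V : A.Opens) (_ : Nonempty V) (_ : Nonempty (ψ ⁻¹ᵁ V)) (s : Γ(A, V)),
    φ (s26germ f V s) = s26germ f (ψ ⁻¹ᵁ V) ((ψ.app V).hom s)

/-- The standing hypotheses, bundled. -/
structure S26Hyp (K : Type u) [Field K] {A : Scheme.{u}} (f : A ⟶ Spec (CommRingCat.of K))
    (G : RelativeGroupLaw K f) (g : ℕ) : Prop where
  algClosed : IsAlgClosed K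
  comm : G.IsCommutative
  bundle : AbelianSchemePropertyBundle K f
  smooth : SmoothOfRelativeDimension g f

/-- The zero point of `A`, as a point of the underlying space. -/
def s26zero (G : RelativeGroupLaw K f) : A :=
  (G.one (𝟙 (Spec (CommRingCat.of K)))).1 (Classical.arbitrary (Spec (CommRingCat.of K)))

/-- The inverse morphism `[-1] : A ⟶ A`. -/
def s26neg (G : RelativeGroupLaw K f) : A ⟶ A :=
  (G.inv f RelativeGroupLaw.idPoint).1

/-- `U` is an admissible open: affine, symmetric, contains `0`. -/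
def S26IsAdm (G : RelativeGroupLaw K f) (U : A.Opens) : Prop :=
  IsAffineOpen U ∧ s26zero f G ∈ U ∧ (s26neg f G) ⁻¹ᵁ U = U

/-! ### A2: the scheme `A` -/

/-- **A2**: `A` is integral, noetherian, separated, and its local rings at the prime divisors
are discrete valuation rings. -/
def s26_StmtA2 : Prop :=
  ∀ (K : Type u) [Field K] {A : Scheme.{u}} (f : A ⟶ Spec (CommRingCat.of K))
    (G : RelativeGroupLaw K f) (g : ℕ), S26Hyp K f G g →
    ∃ _ : IsIntegral A, IsNoetherian A ∧ IsSeparated f ∧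
      ∀ z : A, Order.coheight z = 1 → IsDiscreteValuationRing (A.presheaf.stalk z)

/-- **A2-U**: admissible opens exist. -/
def s26_StmtAdm : Prop :=
  ∀ (K : Type u) [Field K] {A : Scheme.{u}} (f : A ⟶ Spec (CommRingCat.of K))
    (G : RelativeGroupLaw K f) (g : ℕ), S26Hyp K f G g → ∃ U : A.Opens, S26IsAdm f G U

/-! ### F1, A1–A5: the pull-back by `[N]` and its degree -/

/-- **F1 + A-stage (deg)**: for `(N : K) ≠ 0` the pull-back `[N]^*` exists on `K(A)`, and
`[K(A) : [N]^* K(A)] = #A[N](K)`; `𝔉 / [N]^* 𝔉` is finite separable. -/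
def s26_StmtDeg : Prop :=
  ∀ (K : Type u) [Field K] {A : Scheme.{u}} (f : A ⟶ Spec (CommRingCat.of K))
    (G : RelativeGroupLaw K f) (g : ℕ), S26Hyp K f G g → ∀ [IsIntegral A],
    ∀ N : ℕ, (N : K) ≠ 0 →
      ∃ φ : s26F f →ₐ[K] s26F f, s26IsPull f (G.schemeNsmul N) φ ∧
        Module.Finite φ.fieldRange (s26F f) ∧ Algebra.IsSeparable φ.fieldRange (s26F f) ∧
        Module.finrank φ.fieldRange (s26F f) =
          Nat.card {x : SchemeHomOver (𝟙 (Spec (CommRingCat.of K))) f //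
            G.IsTorsionPoint (𝟙 (Spec (CommRingCat.of K))) N x}

/-- **F1-fun**: pull-backs are unique and compose: if `φ` pulls back along `ψ` and `φ'` along
`ψ'` then `φ.comp φ'` pulls back along `ψ ≫ ψ'`. -/
def s26_StmtPullComp : Prop :=
  ∀ (K : Type u) [Field K] {A : Scheme.{u}} (f : A ⟶ Spec (CommRingCat.of K)) [IsIntegral A]
    (ψ ψ' : A ⟶ A) (φ φ' : s26F f →ₐ[K] s26F f),
    s26IsPull f ψ φ → s26IsPull f ψ' φ' →
      (∀ φ₂ : s26F f →ₐ[K] s26F f, s26IsPull f ψ φ₂ → φ₂ = φ) ∧ s26IsPull f (ψ ≫ ψ') (φ.comp φ')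

/-! ### F2: the spaces `L(U, m)` -/

/-- **F2**: `s26Lset` is already a subspace (so `x ∈ s26L ↔ x ∈ s26Lset`), and products add the
pole orders. -/
def s26_StmtL : Prop :=
  ∀ (K : Type u) [Field K] {A : Scheme.{u}} (f : A ⟶ Spec (CommRingCat.of K))
    (G : RelativeGroupLaw K f) (g : ℕ), S26Hyp K f G g →
    ∀ [IsIntegral A] [IsLocallyNoetherian A] (U : A.Opens),
      (∀ m (x : s26F f), x ∈ s26L f U m ↔ x ∈ s26Lset f U m) ∧
      (∀ a b, ∀ x ∈ s26L f U a, ∀ y ∈ s26L f U b, x * y ∈ s26L f U (a + b))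

/-! ### F3: finite étale covers and `L` -/

/-- **F3**: for `(N : K) ≠ 0`, `φ = [N]^*`, `U` admissible: (b1) `φ (L(U,m)) ⊆ L([N]⁻¹U, m)`,
(b3) `⋃_c L([N]⁻¹U, c)` spans `K(A)` over `φ K(A)`, (c2) the trace of `L([N]⁻¹U, m)` lies in
`φ (L(U, m))`. -/
def s26_StmtCover : Prop :=
  ∀ (K : Type u) [Field K] {A : Scheme.{u}} (f : A ⟶ Spec (CommRingCat.of K))
    (G : RelativeGroupLaw K f) (g : ℕ), S26Hyp K f G g →
    ∀ [IsIntegral A] [IsLocallyNoetherian A] (U : A.Opens), S26IsAdm f G U →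
    ∀ (N : ℕ), (N : K) ≠ 0 → ∀ φ : s26F f →ₐ[K] s26F f, s26IsPull f (G.schemeNsmul N) φ →
      (∀ m, ∀ x ∈ s26L f U m, φ x ∈ s26L f ((G.schemeNsmul N) ⁻¹ᵁ U) m) ∧
      (∀ x : s26F f, ∃ c, x ∈ Submodule.span φ.fieldRange
        ((s26L f ((G.schemeNsmul N) ⁻¹ᵁ U) c : Submodule K (s26F f)) : Set (s26F f))) ∧
      (∀ m, ∀ x ∈ s26L f ((G.schemeNsmul N) ⁻¹ᵁ U) m, ∃ y ∈ s26L f U m,
        ((Algebra.trace φ.fieldRange (s26F f) x : φ.fieldRange) : s26F f) = φ y)

/-! ### G1: growth -/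

/-- **G1**: `dim L(U, m)` is finite and of exact order `m^g`. -/
def s26_StmtGrowth : Prop :=
  ∀ (K : Type u) [Field K] {A : Scheme.{u}} (f : A ⟶ Spec (CommRingCat.of K))
    (G : RelativeGroupLaw K f) (g : ℕ), S26Hyp K f G g →
    ∀ [IsIntegral A] [IsLocallyNoetherian A] (U : A.Opens), S26IsAdm f G U →
      (∀ (V : A.Opens), Nonempty V → ∀ m, Module.Finite K (s26L f V m)) ∧
      ∃ c₁ c₂ : ℕ, ∀ m, 1 ≤ m →
        m ^ g ≤ c₁ * Module.finrank K (s26L f U m) ∧
        Module.finrank K (s26L f U m) ≤ c₂ * m ^ g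

/-! ### E: the theorem of the cube (THE WALL) -/

open scoped Classical in
/-- **E**: for `(N : K) ≠ 0` and `U` admissible there are `c ≥ 1` and `θ ∈ K(A)ˣ` with
`div θ = c ([N]^* D − N² D)`, `D` = the sum of the prime divisors outside `U`. -/
def s26_StmtCube : Prop :=
  ∀ (K : Type u) [Field K] {A : Scheme.{u}} (f : A ⟶ Spec (CommRingCat.of K))
    (G : RelativeGroupLaw K f) (g : ℕ), S26Hyp K f G g →
    ∀ [IsIntegral A] [IsLocallyNoetherian A] (U : A.Opens), S26IsAdm f G U →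
    ∀ (N : ℕ), (N : K) ≠ 0 →
      ∃ (c : ℕ) (θ : s26F f), 0 < c ∧ θ ≠ 0 ∧ ∀ z : A, Order.coheight z = 1 →
        s26ord f θ z =
          (c : ℤ) * ((if z ∈ (G.schemeNsmul N) ⁻¹ᵁ U then 0 else 1) -
            (N : ℤ) ^ 2 * (if z ∈ U then 0 else 1))

end Fermat.Agent.S26
end
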