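/-
S26-E — PLAN of the sub-captain (helper73): the concrete interface of the theorem of the cube.
Definitions and the Props of the pieces; blueprint NOTES/S26-E.md, statements NOTES/S26-PlanE.md.

Built on: E-PT (helper51: `s26eptPts`, `s26eptMap`, `s26eptLift`), E-M interface (helper5:
`S26emIsLocEq`, `S26emLocData`, `s26emGen`), E-R (helper80: `S26erOver`, `S26erIsRel`).

* `s26eGen f U P V : Ω`     : THE GENERATOR of `D = A ∖ U` at the point `P ∈ A(Ω)` along the
  valuation subring `V ⊇ K` of `Ω`  (`m_V(P) = v (s26eGen f U P V)`; `1` if `V` is not over `K`).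
* `S26eRel f U n P F`       : the RELATION `Σ_i n_i [P_i] ≈ 0` in `Ω`, realised by `F ∈ Ω`.
* `s26eEta f : A(𝔉)`        : the tautological generic point, `𝔉 = s26F f`.
* `s26ePt f j : A(Ω)`       : the generic point of a `K`-embedding `j : 𝔉 → Ω`.
* `S26eIndep3 j₁ j₂ j₃`     : the three generic points are independent
  (`(𝔉 ⊗ 𝔉) ⊗ 𝔉 → Ω` is injective).
-/
import Fermat.Agent.S26.PlanGeo
import Fermat.Agent.S26.EPTVal
import Fermat.Agent.S26.EMPlan
import Fermat.Agent.S26.ERAbs
import Fermat.Agent.S26.F1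

set_option autoImplicit false
set_option linter.style.haveILetI false

noncomputable section

namespace Fermat.Agent.S26

open CategoryTheory CategoryTheory.Limits AlgebraicGeometry NeronModelInfra GoodReductionJacobian
open scoped TensorProduct

universe u

variable {K : Type u} [Field K] {A : Scheme.{u}} (f : A ⟶ Spec (CommRingCat.of K))

section Gen

variable {Ω : Type u} [Field Ω] [Algebra K Ω]

/-- the `K`-algebra structure of a valuation subring of `Ω` over `K` -/
@[reducible] def s26eAlgV (V : ValuationSubring Ω) (hV : S26erOver K V) : Algebra K V :=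
  ((algebraMap K Ω).codRestrict V.toSubring hV).toAlgebra

theorem s26eAlgV_tower (V : ValuationSubring Ω) (hV : S26erOver K V) :
    letI := s26eAlgV V hV
    IsScalarTower K V Ω :=
  letI := s26eAlgV V hV
  IsScalarTower.of_algebraMap_eq (fun _ => rfl)

/-- the `V`-point `Spec V ⟶ A` extending `P ∈ A(Ω)` (valuative criterion). -/
def s26eLiftV [IsProper f] (V : ValuationSubring Ω) (hV : S26erOver K V) (P : s26eptPts f Ω) :
    Spec (CommRingCat.of V) ⟶ A :=
  letI := s26eAlgV V hV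
  haveI := s26eAlgV_tower V hV
  (s26eptLift f Ω V P).1

open scoped Classical in
/-- **the generator** of `D = A ∖ U` at `P ∈ A(Ω)` along `V`: the value at `P` of a local
equation of `D` at the centre of `P` along `V`. -/
def s26eGen [IsIntegral A] [IsLocallyNoetherian A] [IsProper f] (U : A.Opens)
    (P : s26eptPts f Ω) (V : ValuationSubring Ω) : Ω :=
  if hV : S26erOver K V then ((s26emGen U (s26eLiftV f V hV P) : V) : Ω) else 1

/-- the generator family of the formal sum `Σ_i n_i [P_i]`. -/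
def s26eFam [IsIntegral A] [IsLocallyNoetherian A] [IsProper f] (U : A.Opens)
    {ι : Type} [Fintype ι] (n : ι → ℤ) (P : ι → s26eptPts f Ω) : ValuationSubring Ω → Ω :=
  fun V => ∏ i, s26eGen f U (P i) V ^ n i

/-- **the relation** `Σ_i n_i [P_i] ≈ 0` in `Ω`, realised by `F`. -/
def S26eRel [IsIntegral A] [IsLocallyNoetherian A] [IsProper f] (U : A.Opens)
    {ι : Type} [Fintype ι] (n : ι → ℤ) (P : ι → s26eptPts f Ω) (F : Ω) : Prop :=
  S26erIsRel K (s26eFam f U n P) F

end Gen

/-! ### The tautological generic point and the generic points of `K`-embeddings `𝔉 → Ω` -/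

theorem s26e_fromSpecStalk_comp (x : A) :
    A.fromSpecStalk x ≫ f =
      Spec.map ((Scheme.ΓSpecIso (CommRingCat.of K)).inv ≫ f.appTop ≫
        A.presheaf.germ ⊤ x trivial) := by
  rw [← cancel_mono (Spec (CommRingCat.of K)).toSpecΓ]
  rw [Category.assoc, Scheme.toSpecΓ_naturality, Scheme.fromSpecStalk_toSpecΓ_assoc,
    ← Spec.map_comp, ← SpecMap_ΓSpecIso_hom, ← Spec.map_comp]
  congr 1
  simp

/-- the tautological morphism `Spec 𝔉 ⟶ A`. -/
def s26eEtaHom [IsIntegral A] : Spec (CommRingCat.of (s26F f)) ⟶ A :=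
  A.fromSpecStalk (genericPoint A)

theorem s26eEtaHom_comp [IsIntegral A] :
    s26eEtaHom f ≫ f = s26eptStr K (s26F f) :=
  s26e_fromSpecStalk_comp f (genericPoint A)

/-- the tautological generic point `η ∈ A(𝔉)`. -/
def s26eEta [IsIntegral A] : s26eptPts f (s26F f) := ⟨s26eEtaHom f, s26eEtaHom_comp f⟩

section Pts

variable {Ω : Type u} [Field Ω] [Algebra K Ω]

/-- the generic point `η_j ∈ A(Ω)` of a `K`-embedding `j : 𝔉 → Ω`. -/
def s26ePt [IsIntegral A] (j : s26F f →ₐ[K] Ω) : s26eptPts f Ω := s26eptMap f j (s26eEta f)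

/-- **independence** of three generic points: `(𝔉 ⊗ 𝔉) ⊗ 𝔉 → Ω` is injective. -/
def S26eIndep3 [IsIntegral A] (j₁ j₂ j₃ : s26F f →ₐ[K] Ω) : Prop :=
  Function.Injective
    (Algebra.TensorProduct.productMap (Algebra.TensorProduct.productMap j₁ j₂) j₃)

variable (G : RelativeGroupLaw K f)

/-- the generator family of the CUBE
`[x+y+z] − [x+y] − [x+z] − [y+z] + [x] + [y] + [z]`. -/
def s26eCube [IsIntegral A] [IsLocallyNoetherian A] [IsProper f] (U : A.Opens)
    (x y z : s26eptPts f Ω) : ValuationSubring Ω → Ω := fun V =>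
  s26eGen f U (G.mul _ (G.mul _ x y) z) V * s26eGen f U x V * s26eGen f U y V *
      s26eGen f U z V /
    (s26eGen f U (G.mul _ x y) V * s26eGen f U (G.mul _ x z) V * s26eGen f U (G.mul _ y z) V)

end Pts

/-! ### The Props of the pieces (formal part) -/

/-- **(LF)** [E-LF1/2/3 + E-M (a)]: local equations of `D = A ∖ U` exist, are unique up to units,
and are units exactly on `U`. -/
def s26e_StmtLF : Prop :=
  ∀ (K : Type u) [Field K] {A : Scheme.{u}} (f : A ⟶ Spec (CommRingCat.of K))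
    (G : RelativeGroupLaw K f) (g : ℕ), S26Hyp K f G g →
    ∀ [IsIntegral A] [IsLocallyNoetherian A] (U : A.Opens), S26IsAdm f G U → S26emLocData U

/-- **(G-func)** [E-M (b), T5]: the generator is functorial in the field. -/
def s26e_StmtGenFunc : Prop :=
  ∀ (K : Type u) [Field K] {A : Scheme.{u}} (f : A ⟶ Spec (CommRingCat.of K))
    (G : RelativeGroupLaw K f) (g : ℕ), S26Hyp K f G g →
    ∀ [IsIntegral A] [IsLocallyNoetherian A] [IsProper f] (U : A.Opens), S26IsAdm f G U →
    S26emLocData U →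
    ∀ (Ω Ω' : Type u) [Field Ω] [Field Ω'] [Algebra K Ω] [Algebra K Ω'] (σ : Ω →ₐ[K] Ω')
      (P : s26eptPts f Ω) (V' : ValuationSubring Ω'), S26erOver K V' →
      V'.valuation (s26eGen f U (s26eptMap f σ P) V') =
        V'.valuation (σ (s26eGen f U P (V'.comap (σ : Ω →+* Ω'))))

/-- **(G-neg)** [E-M (b), T7 for `[-1]`]: `m_V(−P) = m_V(P)` (`U` is symmetric). -/
def s26e_StmtGenNeg : Prop :=
  ∀ (K : Type u) [Field K] {A : Scheme.{u}} (f : A ⟶ Spec (CommRingCat.of K))
    (G : RelativeGroupLaw K f) (g : ℕ), S26Hyp K f G g →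
    ∀ [IsIntegral A] [IsLocallyNoetherian A] [IsProper f] (U : A.Opens), S26IsAdm f G U →
    S26emLocData U →
    ∀ (Ω : Type u) [Field Ω] [Algebra K Ω] (P : s26eptPts f Ω) (V : ValuationSubring Ω),
      S26erOver K V →
      V.valuation (s26eGen f U (G.inv _ P) V) = V.valuation (s26eGen f U P V)

/-- **(G-ne)** [E-M (b), T4]: the generator of a point with image in `U` is nonzero. -/
def s26e_StmtGenNe : Prop :=
  ∀ (K : Type u) [Field K] {A : Scheme.{u}} (f : A ⟶ Spec (CommRingCat.of K))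
    (G : RelativeGroupLaw K f) (g : ℕ), S26Hyp K f G g →
    ∀ [IsIntegral A] [IsLocallyNoetherian A] [IsProper f] (U : A.Opens), S26IsAdm f G U →
    S26emLocData U →
    ∀ (Ω : Type u) [Field Ω] [Algebra K Ω] (P : s26eptPts f Ω) (V : ValuationSubring Ω),
      S26erOver K V → s26eptPt f P ∈ U → s26eGen f U P V ≠ 0

open scoped Classical in
/-- **(INTERFACE)** [E-M (b), T8]: a relation `c ([Nη] − N² [η]) ≈ 0` in `𝔉`, realised by `F`,
says that `div F = c ([N]^* D − N² D)`. -/
def s26e_StmtIface : Prop :=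
  ∀ (K : Type u) [Field K] {A : Scheme.{u}} (f : A ⟶ Spec (CommRingCat.of K))
    (G : RelativeGroupLaw K f) (g : ℕ), S26Hyp K f G g →
    ∀ [IsIntegral A] [IsLocallyNoetherian A] [IsProper f] (U : A.Opens), S26IsAdm f G U →
    S26emLocData U →
    ∀ (N : ℕ), (N : K) ≠ 0 → ∀ (c : ℕ) (F : s26F f),
      S26erIsRel K (fun V => (s26eGen f U (G.nsmul _ N (s26eEta f)) V /
        s26eGen f U (s26eEta f) V ^ (N ^ 2)) ^ c) F →
      F ≠ 0 ∧ ∀ z : A, Order.coheight z = 1 →
        s26ord f F z =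
          (c : ℤ) * ((if z ∈ (G.schemeNsmul N) ⁻¹ᵁ U then 0 else 1) -
            (N : ℤ) ^ 2 * (if z ∈ U then 0 else 1))

/-- **(T0)** [E-G3 (a)]: there is a field with an independent generic triple in which the
SECOND embedding has algebraically closed image. -/
def s26e_StmtT0 : Prop :=
  ∀ (K : Type u) [Field K] {A : Scheme.{u}} (f : A ⟶ Spec (CommRingCat.of K))
    (G : RelativeGroupLaw K f) (g : ℕ), S26Hyp K f G g → ∀ [IsIntegral A],
    ∃ (Ω : Type u) (_ : Field Ω) (_ : Algebra K Ω) (j₁ j₂ j₃ : s26F f →ₐ[K] Ω),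
      S26eIndep3 f j₁ j₂ j₃ ∧
      ∀ y : Ω, (j₂ : s26F f →+* Ω).IsIntegralElem y → y ∈ (j₂ : s26F f →+* Ω).range

/-- **(T-shear)** [E-G3 (b)]: `(x, y, z) ↦ (x + z, y, z)` preserves independent generic triples. -/
def s26e_StmtTShear : Prop :=
  ∀ (K : Type u) [Field K] {A : Scheme.{u}} (f : A ⟶ Spec (CommRingCat.of K))
    (G : RelativeGroupLaw K f) (g : ℕ), S26Hyp K f G g → ∀ [IsIntegral A],
    ∀ (Ω : Type u) [Field Ω] [Algebra K Ω] (j₁ j₂ j₃ : s26F f →ₐ[K] Ω),
      S26eIndep3 f j₁ j₂ j₃ →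
      ∃ j' : s26F f →ₐ[K] Ω, s26ePt f j' = G.mul _ (s26ePt f j₁) (s26ePt f j₃) ∧
        S26eIndep3 f j' j₂ j₃

/-- **(CUBE_gen)** [E-CRV, E-RR, E-RED, E-SPEC, E-RIG, E-VERT, E-NORM; E-ASM]: the theorem of the
cube for independent generic triples, with a uniform multiplier `c ≥ 1`. -/
def s26e_StmtCubeGen : Prop :=
  ∀ (K : Type u) [Field K] {A : Scheme.{u}} (f : A ⟶ Spec (CommRingCat.of K))
    (G : RelativeGroupLaw K f) (g : ℕ), S26Hyp K f G g →
    ∀ [IsIntegral A] [IsLocallyNoetherian A] [IsProper f] (U : A.Opens), S26IsAdm f G U →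
    S26emLocData U →
    ∃ c : ℕ, 0 < c ∧
      ∀ (Ω : Type u) [Field Ω] [Algebra K Ω] (j₁ j₂ j₃ : s26F f →ₐ[K] Ω),
        S26eIndep3 f j₁ j₂ j₃ →
        ∃ F : Ω, S26erIsRel K
          (fun V => s26eCube f G U (s26ePt f j₁) (s26ePt f j₂) (s26ePt f j₃) V ^ c) F

end Fermat.Agent.S26

end
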