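/-
S26-E, piece E-CRV (helper32): THE INTERFACE — chains of pointed curves.

* `S26ecrvIsCurve K Γ` : `Γ` is a function field of one variable over `K` (finite separable over
  `K(t)`, `t` transcendental);
* `s26ecrvJL`, `s26ecrvJR` : the `K`-embeddings `Γ → W'`, `W → W'` into a fraction field `W'` of
  `Γ ⊗[K] W`;
* `S26ecrvChain f G W b` : the point `b ∈ A(W)` is the sum of the generic points of a chain of
  pointed curves `(Γ_i, ν_i, γ_{i0})`, `ν_i ∈ A(Γ_i)` specialising to `0` at the place `γ_{i0}`
  (residue field `K`), and `W` is the iterated fraction field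
  `W_0 = K`, `W_{k+1} = Frac (Γ_{k+1} ⊗[K] W_k)`, `b_{k+1} = ν_{k+1} + b_k`.
  Rule induction on `S26ecrvChain` is the induction `C(k) ⇒ C(k+1)` of the blueprint.
* `s26ecrv_StmtMain` : **(CRV)** there is a chain `(W, b)` with `b` GENERIC (`b = s26ePt f j`,
  `j : 𝔉 →ₐ[K] W`) and `W` FINITE over `j(𝔉)`.
-/
import Fermat.Agent.S26.PlanE
import Fermat.Prelude.Def_AlgebraicCurve_DivisorClassGroup

set_option autoImplicit false
set_option linter.style.haveILetI false

noncomputable section

namespace Fermat.Agent.S26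

open CategoryTheory CategoryTheory.Limits AlgebraicGeometry NeronModelInfra GoodReductionJacobian
open scoped TensorProduct

universe u

/-- `Γ` is a function field of one variable over `K`: finite separable over `K(t)` for a
transcendental `t`. -/
def S26ecrvIsCurve (K Γ : Type u) [Field K] [Field Γ] [Algebra K Γ] : Prop :=
  ∃ t : Γ, Transcendental K t ∧ Module.Finite (IntermediateField.adjoin K {t}) Γ ∧
    Algebra.IsSeparable (IntermediateField.adjoin K {t}) Γ

section J

variable (K : Type u) [Field K] (Γ W W' : Type u) [Field Γ] [Field W] [Field W'] [Algebra K Γ]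
  [Algebra K W] [Algebra K W'] [Algebra (Γ ⊗[K] W) W'] [IsScalarTower K (Γ ⊗[K] W) W']

/-- the `K`-algebra homomorphism `Γ → W'` for a `Γ ⊗[K] W`-algebra `W'` -/
def s26ecrvJL : Γ →ₐ[K] W' :=
  (IsScalarTower.toAlgHom K (Γ ⊗[K] W) W').comp Algebra.TensorProduct.includeLeft

/-- the `K`-algebra homomorphism `W → W'` for a `Γ ⊗[K] W`-algebra `W'` -/
def s26ecrvJR : W →ₐ[K] W' :=
  (IsScalarTower.toAlgHom K (Γ ⊗[K] W) W').comp Algebra.TensorProduct.includeRight

theorem s26ecrvJL_apply (x : Γ) : s26ecrvJL K Γ W W' x = algebraMap (Γ ⊗[K] W) W' (x ⊗ₜ 1) := rfl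

theorem s26ecrvJR_apply (x : W) : s26ecrvJR K Γ W W' x = algebraMap (Γ ⊗[K] W) W' (1 ⊗ₜ x) := rfl

theorem s26ecrv_productMap :
    Algebra.TensorProduct.productMap (s26ecrvJL K Γ W W') (s26ecrvJR K Γ W W') =
      IsScalarTower.toAlgHom K (Γ ⊗[K] W) W' := by
  apply Algebra.TensorProduct.ext'
  intro a b
  rw [Algebra.TensorProduct.productMap_apply_tmul, s26ecrvJL_apply, s26ecrvJR_apply, ← map_mul,
    Algebra.TensorProduct.tmul_mul_tmul, mul_one, one_mul]
  rfl

end J

variable {K : Type u} [Field K] {A : Scheme.{u}} (f : A ⟶ Spec (CommRingCat.of K))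
  (G : RelativeGroupLaw K f)

/-- **chains of pointed curves**: `S26ecrvChain f G W b` says that `b ∈ A(W)` is the sum of the
generic points of a chain of pointed curves and `W` the iterated fraction field of the tensor
products. -/
inductive S26ecrvChain : (W : Type u) → [Field W] → [Algebra K W] → s26eptPts f W → Prop
  | base : S26ecrvChain K (G.one (s26eptStr K K))
  | step {W : Type u} [Field W] [Algebra K W] {b : s26eptPts f W} (hb : S26ecrvChain W b)
      (Γ : Type u) [Field Γ] [Algebra K Γ] (hΓ : S26ecrvIsCurve K Γ)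
      (ν : s26eptPts f Γ) (γ₀ : AlgebraicCurve.Place K Γ)
      (hγ : Function.Bijective (algebraMap K (IsLocalRing.ResidueField γ₀.toValuationSubring)))
      (νV : s26eptPts f γ₀.toValuationSubring)
      (hν : s26eptMap f (s26eptIncl Γ γ₀.toValuationSubring) νV = ν)
      (hsp : s26eptMap f (s26eptRes γ₀.toValuationSubring) νV = G.one _)
      (W' : Type u) [Field W'] [Algebra K W'] [Algebra (Γ ⊗[K] W) W']
      [IsScalarTower K (Γ ⊗[K] W) W'] [IsFractionRing (Γ ⊗[K] W) W'] :
      S26ecrvChain W'
        (G.mul _ (s26eptMap f (s26ecrvJL K Γ W W') ν) (s26eptMap f (s26ecrvJR K Γ W W') b))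

/-- **(CRV)**: there is a chain of pointed curves whose sum point `b ∈ A(W)` is generic, with `W`
finite over the function field `𝔉` (embedded by `b`). -/
def s26ecrv_StmtMain : Prop :=
  ∀ (K : Type u) [Field K] {A : Scheme.{u}} (f : A ⟶ Spec (CommRingCat.of K))
    (G : RelativeGroupLaw K f) (g : ℕ), S26Hyp K f G g → ∀ [IsIntegral A],
    ∃ (W : Type u) (_ : Field W) (_ : Algebra K W) (b : s26eptPts f W) (j : s26F f →ₐ[K] W),
      S26ecrvChain f G W b ∧ b = s26ePt f j ∧
        (letI := (j : s26F f →+* W).toAlgebra; Module.Finite (s26F f) W)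

end Fermat.Agent.S26

end
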