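/-
S26-E, piece E-M part (b) (helper5): the GENERATOR on V-points.  Mathlib only (+ EMPlan).

`X` integral locally noetherian, `U ⊂ X` open, `hD : S26emLocData U` (piece (a)).
For a local ring `R` and `φ : Spec R ⟶ X`:
* `s26emGen_associated` : `s26emGen U φ ~ s26emEv φ h` for EVERY local equation `h` at the centre;
* `s26emGen_isUnit_iff` : `s26emGen U φ` is a unit of `R` iff the centre lies in `U`;
* `s26emGen_mem_maximalIdeal_iff`.
-/
import Fermat.Agent.S26.EMPlan

set_option autoImplicit false
set_option linter.style.haveILetI false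
set_option linter.unusedVariables false

noncomputable section

namespace Fermat.Agent.S26

open AlgebraicGeometry CategoryTheory

universe u

variable {X : Scheme.{u}} [IsIntegral X] [IsLocallyNoetherian X] {U : X.Opens}

/-- the chosen local equation at the centre is a local equation. -/
theorem s26emGen_spec (hD : S26emLocData U) {R : CommRingCat.{u}} [IsLocalRing R]
    (φ : Spec R ⟶ X) :
    ∃ h : X.presheaf.stalk (s26emCentre φ), S26emIsLocEq U (s26emCentre φ) h ∧
      s26emGen U φ = s26emEv φ h := by
  have hex := hD.exists_locEq (s26emCentre φ)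
  refine ⟨hex.choose, hex.choose_spec, ?_⟩
  unfold s26emGen
  rw [dif_pos hex]

/-- **well defined**: the generator is associated to the value of every local equation. -/
theorem s26emGen_associated (hD : S26emLocData U) {R : CommRingCat.{u}} [IsLocalRing R]
    (φ : Spec R ⟶ X) {h : X.presheaf.stalk (s26emCentre φ)}
    (hh : S26emIsLocEq U (s26emCentre φ) h) :
    Associated (s26emGen U φ) (s26emEv φ h) := by
  obtain ⟨h₀, hh₀, e⟩ := s26emGen_spec hD φ
  rw [e]
  exact (hD.associated _ _ _ hh₀ hh).map (s26emEv φ)

/-- the generator is a unit iff the centre lies in `U`. -/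
theorem s26emGen_isUnit_iff (hD : S26emLocData U) {R : CommRingCat.{u}} [IsLocalRing R]
    (φ : Spec R ⟶ X) : IsUnit (s26emGen U φ) ↔ s26emCentre φ ∈ U := by
  obtain ⟨h₀, hh₀, e⟩ := s26emGen_spec hD φ
  rw [e, isUnit_map_iff (s26emEv φ), hD.isUnit_iff _ _ hh₀]

/-- the generator lies in the maximal ideal iff the centre lies outside `U`. -/
theorem s26emGen_mem_maximalIdeal_iff (hD : S26emLocData U) {R : CommRingCat.{u}}
    [IsLocalRing R] (φ : Spec R ⟶ X) :
    s26emGen U φ ∈ IsLocalRing.maximalIdeal R ↔ s26emCentre φ ∉ U := by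
  rw [IsLocalRing.mem_maximalIdeal, mem_nonunits_iff, s26emGen_isUnit_iff hD]

end Fermat.Agent.S26

end
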