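/-
S26-E, piece E-M part (b) (helper5): FUNCTORIALITY of the generator in the local ring.

`ψ : R ⟶ S` ANY ring homomorphism of local rings (local or not), `φ : Spec R ⟶ X`.
* `s26em_centre_specializes` : the centre of `Spec.map ψ ≫ φ` is a generisation of the centre of `φ`;
* `s26emEv_comp`             : `ev_{ψ^*φ} ∘ (O_{X,c} → O_{X,c'}) = ψ ∘ ev_φ`;
* `s26em_locEq_specializes`  : a local equation at `c` is a local equation at every generisation;
* `s26emGen_map`             : `s26emGen U (Spec.map ψ ≫ φ) ~ ψ (s26emGen U φ)`   [(R1)];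
* `s26emGen_ne_zero`         : `R` a domain and the image of the generic point in `U` ⇒ generator `≠ 0`.
-/
import Fermat.Agent.S26.EMGen

set_option autoImplicit false
set_option linter.style.haveILetI false
set_option linter.unusedVariables false
set_option linter.unusedSectionVars false

noncomputable section

namespace Fermat.Agent.S26

open AlgebraicGeometry CategoryTheory

universe u

variable {X : Scheme.{u}}

section Ev

variable {R S : CommRingCat.{u}} [IsLocalRing R] [IsLocalRing S]

/-- the centre of `Spec.map ψ ≫ φ` is a generisation of the centre of `φ`. -/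
theorem s26em_centre_specializes (ψ : R ⟶ S) (φ : Spec R ⟶ X) :
    s26emCentre (Spec.map ψ ≫ φ) ⤳ s26emCentre φ := by
  unfold s26emCentre
  have h : (Spec.map ψ ≫ φ) (IsLocalRing.closedPoint S) =
      φ ((Spec.map ψ) (IsLocalRing.closedPoint S)) := rfl
  rw [h]
  exact (IsLocalRing.specializes_closedPoint _).map φ.continuous

/-- for a LOCAL homomorphism the centres agree. -/
theorem s26em_centre_eq (ψ : R ⟶ S) [IsLocalHom ψ.hom] (φ : Spec R ⟶ X) :
    s26emCentre (Spec.map ψ ≫ φ) = s26emCentre φ := by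
  unfold s26emCentre
  have h : (Spec.map ψ ≫ φ) (IsLocalRing.closedPoint S) =
      φ ((Spec.map ψ) (IsLocalRing.closedPoint S)) := rfl
  rw [h]
  congr 1
  exact IsLocalRing.comap_closedPoint ψ.hom

theorem s26em_aux_app (ψ : R ⟶ S) (V : (Spec R).Opens) (hV : V = ⊤)
    (hV' : (Spec.map ψ) ⁻¹ᵁ V = ⊤) :
    (Spec.map ψ).app V ≫
        ((Spec S).presheaf.mapIso (eqToIso hV'.symm).op ≪≫ Scheme.ΓSpecIso S).hom =
      ((Spec R).presheaf.mapIso (eqToIso hV.symm).op ≪≫ Scheme.ΓSpecIso R).hom ≫ ψ := by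
  subst hV
  simp only [Iso.trans_hom, Functor.mapIso_hom, Iso.op_hom, eqToIso.hom, eqToHom_op,
    eqToHom_refl, eqToHom_map]
  have := Scheme.ΓSpecIso_naturality ψ
  simp

/-- `ev_{ψ^*φ} ∘ (O_{X,c} → O_{X,c'}) = ψ ∘ ev_φ` as morphisms. -/
theorem s26em_stalkClosedPointTo_comp (ψ : R ⟶ S) (φ : Spec R ⟶ X) :
    X.presheaf.stalkSpecializes (s26em_centre_specializes ψ φ) ≫
        Scheme.stalkClosedPointTo (Spec.map ψ ≫ φ) =
      Scheme.stalkClosedPointTo φ ≫ ψ := by
  refine TopCat.Presheaf.stalk_hom_ext _ fun W hW => ?_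
  have hW' : s26emCentre (Spec.map ψ ≫ φ) ∈ W :=
    (s26em_centre_specializes ψ φ).mem_open W.2 hW
  rw [TopCat.Presheaf.germ_stalkSpecializes_assoc]
  rw [Scheme.germ_stalkClosedPointTo (Spec.map ψ ≫ φ) W hW',
    Scheme.germ_stalkClosedPointTo_assoc φ W hW]
  rw [Scheme.Hom.comp_app]
  refine (Category.assoc _ _ _).trans ?_
  exact congrArg (fun g => φ.app W ≫ g)
    (s26em_aux_app ψ (φ ⁻¹ᵁ W) (Scheme.preimage_eq_top_of_closedPoint_mem φ hW)
      (Scheme.preimage_eq_top_of_closedPoint_mem (Spec.map ψ ≫ φ) hW'))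

/-- `ev_{ψ^*φ} ∘ (O_{X,c} → O_{X,c'}) = ψ ∘ ev_φ`. -/
theorem s26emEv_comp (ψ : R ⟶ S) (φ : Spec R ⟶ X) (x : X.presheaf.stalk (s26emCentre φ)) :
    s26emEv (Spec.map ψ ≫ φ)
        ((X.presheaf.stalkSpecializes (s26em_centre_specializes ψ φ)).hom x) =
      ψ.hom (s26emEv φ x) := by
  have h := s26em_stalkClosedPointTo_comp ψ φ
  exact congrArg (fun g => g.hom x) h

end Ev

section Loc

variable [IsIntegral X] [IsLocallyNoetherian X] {U : X.Opens}

/-- the image in `K(X)` does not change under `O_{X,c} → O_{X,c'}`. -/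
theorem s26em_algebraMap_stalkSpecializes {c c' : X} (hs : c' ⤳ c) (h : X.presheaf.stalk c) :
    algebraMap (X.presheaf.stalk c') X.functionField ((X.presheaf.stalkSpecializes hs).hom h) =
      algebraMap (X.presheaf.stalk c) X.functionField h := by
  change (X.presheaf.stalkSpecializes hs ≫ X.presheaf.stalkSpecializes _).hom h = _
  rw [TopCat.Presheaf.stalkSpecializes_comp]
  rfl

/-- **generisation**: a local equation at `c` is a local equation at every generisation `c'`. -/
theorem s26em_locEq_specializes {c c' : X} {h : X.presheaf.stalk c} (hh : S26emIsLocEq U c h)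
    (hs : c' ⤳ c) : S26emIsLocEq U c' ((X.presheaf.stalkSpecializes hs).hom h) := by
  refine ⟨?_, ?_⟩
  · intro h0
    have h1 := s26em_algebraMap_stalkSpecializes hs h
    rw [h0, map_zero] at h1
    exact hh.1 ((IsFractionRing.injective (X.presheaf.stalk c) X.functionField)
      (h1.symm.trans (map_zero _).symm))
  · intro z hz hzc
    rw [s26em_algebraMap_stalkSpecializes hs h]
    exact hh.2 z hz (hzc.trans hs)

variable {R S : CommRingCat.{u}} [IsLocalRing R] [IsLocalRing S]

/-- **(R1) functoriality**: for ANY ring homomorphism `ψ : R ⟶ S` of local rings the generator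
of `Spec.map ψ ≫ φ` is the image of the generator of `φ`, up to a unit. -/
theorem s26emGen_map (hD : S26emLocData U) (ψ : R ⟶ S) (φ : Spec R ⟶ X) :
    Associated (s26emGen U (Spec.map ψ ≫ φ)) (ψ.hom (s26emGen U φ)) := by
  obtain ⟨h₀, hh₀, e⟩ := s26emGen_spec hD φ
  have h1 := s26em_locEq_specializes hh₀ (s26em_centre_specializes ψ φ)
  have h2 := s26emGen_associated hD (Spec.map ψ ≫ φ) h1
  rw [s26emEv_comp] at h2
  rw [e]
  exact h2

/-- if the centre of `Spec.map ψ ≫ φ` lies in `U` (e.g. `S` = the fraction field of `R` and the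
image of the generic point lies in `U`), the image of the generator is a unit. -/
theorem s26emGen_isUnit_map (hD : S26emLocData U) (ψ : R ⟶ S) (φ : Spec R ⟶ X)
    (hU : s26emCentre (Spec.map ψ ≫ φ) ∈ U) : IsUnit (ψ.hom (s26emGen U φ)) := by
  have h1 := (s26emGen_isUnit_iff hD (Spec.map ψ ≫ φ)).2 hU
  exact (s26emGen_map hD ψ φ).isUnit h1

/-- **the generator is not zero** if some generisation `Spec.map ψ ≫ φ` has its centre in `U`. -/
theorem s26emGen_ne_zero (hD : S26emLocData U) (ψ : R ⟶ S) (φ : Spec R ⟶ X)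
    (hU : s26emCentre (Spec.map ψ ≫ φ) ∈ U) : s26emGen U φ ≠ 0 := by
  intro h0
  have h1 := s26emGen_isUnit_map hD ψ φ hU
  rw [h0, map_zero] at h1
  exact not_isUnit_zero h1

end Loc

end Fermat.Agent.S26

end
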