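import Fermat.Agent.S26.F1Alg

/-!
# S26 / F1 (helper19), schemes: the pull-back of rational functions

`ψ : X ⟶ Y` a dominant morphism of integral schemes.

* `s26f1_map_genericPoint` : `ψ` maps the generic point to the generic point;
* `s26f1Pull ψ : K(Y) →+* K(X)` : the pull-back of rational functions;
* `s26f1Pull_germ` : `ψ^* (germ s) = germ (ψ^♯ s)`;
* `s26f1Pull_algebraMap` : compatibility with the stalk maps `O_{Y,ψz} → O_{X,z}`;
* `s26f1Pull_comp`, `s26f1Pull_id` : functoriality;
* `s26f1_stalk_dvr`, `s26f1_coheight`, `s26f1_ord` : for `ψ` flat, unramified, locally of finite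
  type and `z` a point of `X` with `O_{X,z}` a discrete valuation ring: `O_{Y,ψz}` is a discrete
  valuation ring, `coheight (ψ z) = 1`, `ord_z (ψ^* x) = ord_{ψ z} x`.
-/

set_option autoImplicit false
set_option linter.style.haveILetI false
set_option linter.unusedSectionVars false
set_option linter.overlappingInstances false

noncomputable section

namespace Fermat.Agent.S26

open AlgebraicGeometry CategoryTheory TopologicalSpace IsLocalRing

universe u

section Pull

variable {X Y Z : Scheme.{u}} [IsIntegral X] [IsIntegral Y] [IsIntegral Z]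

/-- A dominant morphism maps the generic point to the generic point. -/
theorem s26f1_map_genericPoint (ψ : X ⟶ Y) [IsDominant ψ] :
    ψ (genericPoint X) = genericPoint Y := by
  apply ((genericPoint_spec Y).eq _).symm
  have h := (genericPoint_spec X).image ψ.continuous
  rwa [Set.image_univ, ψ.denseRange.closure_range] at h

/-- **The pull-back of rational functions** along a dominant morphism. -/
def s26f1Pull (ψ : X ⟶ Y) [IsDominant ψ] : Y.functionField →+* X.functionField :=
  (ψ.stalkMap (genericPoint X)).hom.comp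
    (Y.presheaf.stalkSpecializes
      (specializes_of_eq (s26f1_map_genericPoint ψ))).hom

/-- Compatibility with the stalk maps. -/
theorem s26f1Pull_algebraMap (ψ : X ⟶ Y) [IsDominant ψ] (z : X)
    (r : Y.presheaf.stalk (ψ z)) :
    s26f1Pull ψ (algebraMap (Y.presheaf.stalk (ψ z)) Y.functionField r) =
      algebraMap (X.presheaf.stalk z) X.functionField ((ψ.stalkMap z).hom r) := by
  have h1 := Scheme.Hom.stalkSpecializes_stalkMap ψ (genericPoint X) z
    (genericPoint_specializes z)
  have h2 : algebraMap (X.presheaf.stalk z) X.functionField ((ψ.stalkMap z).hom r) =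
      (ψ.stalkMap z ≫ X.presheaf.stalkSpecializes (genericPoint_specializes z)).hom r := rfl
  rw [h2, ← h1]
  change (ψ.stalkMap (genericPoint X)).hom
    ((Y.presheaf.stalkSpecializes _ ≫ Y.presheaf.stalkSpecializes _).hom r) = _
  rw [TopCat.Presheaf.stalkSpecializes_comp]
  rfl

/-- Compatibility with germs. -/
theorem s26f1Pull_germ (ψ : X ⟶ Y) [IsDominant ψ] (V : Y.Opens) [Nonempty V]
    [Nonempty (ψ ⁻¹ᵁ V)] (s : Γ(Y, V)) :
    s26f1Pull ψ ((Y.germToFunctionField V).hom s) =
      (X.germToFunctionField (ψ ⁻¹ᵁ V)).hom ((ψ.app V).hom s) := by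
  have hx : ψ (genericPoint X) ∈ V := by
    rw [s26f1_map_genericPoint ψ]
    exact ((genericPoint_spec Y).mem_open_set_iff V.isOpen).mpr (by simpa using ‹Nonempty V›)
  have h1 := Scheme.Hom.germ_stalkMap_apply ψ V (genericPoint X) hx s
  change (ψ.stalkMap (genericPoint X)).hom
    ((Y.presheaf.germ V (genericPoint Y) _ ≫ Y.presheaf.stalkSpecializes _).hom s) = _
  rw [TopCat.Presheaf.germ_stalkSpecializes]
  exact h1

theorem s26f1Pull_injective (ψ : X ⟶ Y) [IsDominant ψ] : Function.Injective (s26f1Pull ψ) :=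
  (s26f1Pull ψ).injective

/-- A ring homomorphism `K(Y) → K(X)` is determined by its values on the germs of the sections
over ONE nonempty affine open. -/
theorem s26f1_hom_ext {V : Y.Opens} (hV : IsAffineOpen V) [Nonempty V]
    {φ₁ φ₂ : Y.functionField →+* X.functionField}
    (h : ∀ s : Γ(Y, V), φ₁ ((Y.germToFunctionField V).hom s) =
      φ₂ ((Y.germToFunctionField V).hom s)) : φ₁ = φ₂ := by
  haveI := functionField_isFractionRing_of_isAffineOpen Y V hV
  refine IsLocalization.ringHom_ext (nonZeroDivisors Γ(Y, V)) ?_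
  ext s
  exact h s

/-- Every rational function is a germ. -/
theorem s26f1_exists_germ (t : Y.functionField) :
    ∃ (V : Y.Opens) (_ : Nonempty V) (s : Γ(Y, V)), (Y.germToFunctionField V).hom s = t := by
  obtain ⟨V, hV, s, hs⟩ := Y.presheaf.exists_germ_eq t
  exact ⟨V, ⟨⟨_, hV⟩⟩, s, hs⟩

/-- the preimage of a nonempty open under a dominant map is nonempty -/
theorem s26f1_nonempty_preimage (ψ : X ⟶ Y) [IsDominant ψ] (V : Y.Opens) [Nonempty V] :
    Nonempty (ψ ⁻¹ᵁ V) := by
  refine ⟨⟨genericPoint X, ?_⟩⟩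
  change ψ (genericPoint X) ∈ V
  rw [s26f1_map_genericPoint ψ]
  exact ((genericPoint_spec Y).mem_open_set_iff V.isOpen).mpr (by simpa using ‹Nonempty V›)

/-- Uniqueness of the pull-back (dominant case). -/
theorem s26f1Pull_unique (ψ : X ⟶ Y) [IsDominant ψ] (φ : Y.functionField →+* X.functionField)
    (h : ∀ (V : Y.Opens) (_ : Nonempty V) (_ : Nonempty (ψ ⁻¹ᵁ V)) (s : Γ(Y, V)),
      φ ((Y.germToFunctionField V).hom s) =
        (X.germToFunctionField (ψ ⁻¹ᵁ V)).hom ((ψ.app V).hom s)) :
    φ = s26f1Pull ψ := by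
  ext t
  obtain ⟨V, hV, s, rfl⟩ := s26f1_exists_germ t
  haveI := s26f1_nonempty_preimage ψ V
  rw [h V hV inferInstance s, s26f1Pull_germ]

theorem s26f1Pull_id : s26f1Pull (𝟙 X) = RingHom.id X.functionField := by
  symm
  refine s26f1Pull_unique (𝟙 X) _ ?_
  intro V _ _ s
  rfl

theorem s26f1Pull_comp (ψ : X ⟶ Y) (χ : Y ⟶ Z) [IsDominant ψ] [IsDominant χ] :
    s26f1Pull (ψ ≫ χ) = (s26f1Pull ψ).comp (s26f1Pull χ) := by
  symm
  refine s26f1Pull_unique (ψ ≫ χ) _ ?_
  intro V _ _ s
  haveI := s26f1_nonempty_preimage χ V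
  haveI := s26f1_nonempty_preimage ψ (χ ⁻¹ᵁ V)
  rw [RingHom.comp_apply, s26f1Pull_germ, s26f1Pull_germ]
  rfl

end Pull

section Ord

variable {X Y : Scheme.{u}} [IsIntegral X] [IsIntegral Y]

/-- `𝔪_{ψ z} O_{X,z} = 𝔪_z` for an unramified morphism. -/
theorem s26f1_map_maximalIdeal (ψ : X ⟶ Y) [FormallyUnramified ψ] [LocallyOfFiniteType ψ]
    (z : X) :
    (maximalIdeal (Y.presheaf.stalk (ψ z))).map (ψ.stalkMap z).hom =
      maximalIdeal (X.presheaf.stalk z) := by
  algebraize [(ψ.stalkMap z).hom]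
  haveI : IsLocalHom (algebraMap (Y.presheaf.stalk (ψ z)) (X.presheaf.stalk z)) :=
    inferInstanceAs <| IsLocalHom (ψ.stalkMap z).hom
  haveI : Algebra.EssFiniteType (Y.presheaf.stalk (ψ z)) (X.presheaf.stalk z) := by
    rw [← RingHom.essFiniteType_algebraMap, RingHom.algebraMap_toAlgebra]
    exact LocallyOfFiniteType.stalkMap ψ z
  haveI : Algebra.FormallyUnramified (Y.presheaf.stalk (ψ z)) (X.presheaf.stalk z) := by
    rw [← RingHom.formallyUnramified_algebraMap, RingHom.algebraMap_toAlgebra]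
    exact FormallyUnramified.stalkMap ψ z
  exact Algebra.FormallyUnramified.map_maximalIdeal

variable [IsLocallyNoetherian X] [IsLocallyNoetherian Y]

/-- The local ring at `ψ z` is a discrete valuation ring if the one at `z` is. -/
theorem s26f1_stalk_dvr (ψ : X ⟶ Y) [Flat ψ] [FormallyUnramified ψ] [LocallyOfFiniteType ψ]
    (z : X) [IsDiscreteValuationRing (X.presheaf.stalk z)] :
    IsDiscreteValuationRing (Y.presheaf.stalk (ψ z)) :=
  s26f1_isDVR (ψ.stalkMap z).hom (Flat.stalkMap ψ z) (s26f1_map_maximalIdeal ψ z)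

/-- A point whose local ring is a discrete valuation ring has coheight one. -/
theorem s26f1_coheight_of_dvr (z : X) [IsDiscreteValuationRing (X.presheaf.stalk z)] :
    Order.coheight z = 1 := by
  have h1 := ringKrullDim_stalk_eq_coheight z
  rw [IsDiscreteValuationRing.ringKrullDim_eq_one] at h1
  exact_mod_cast h1.symm

/-- `ψ z` is a prime divisor. -/
theorem s26f1_coheight (ψ : X ⟶ Y) [Flat ψ] [FormallyUnramified ψ] [LocallyOfFiniteType ψ]
    (z : X) [IsDiscreteValuationRing (X.presheaf.stalk z)] :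
    Order.coheight (ψ z) = 1 := by
  haveI := s26f1_stalk_dvr ψ z
  exact s26f1_coheight_of_dvr (ψ z)

/-- **Orders of vanishing**: `ord_z (ψ^* x) = ord_{ψ z} x`. -/
theorem s26f1_ord (ψ : X ⟶ Y) [IsDominant ψ] [Flat ψ] [FormallyUnramified ψ]
    [LocallyOfFiniteType ψ] (z : X) [IsDiscreteValuationRing (X.presheaf.stalk z)]
    (x : Y.functionField) :
    Scheme.ord (s26f1Pull ψ x) z = Scheme.ord x (ψ z) := by
  haveI := s26f1_stalk_dvr ψ z
  have hz : Order.coheight z = 1 := s26f1_coheight_of_dvr z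
  have hw : Order.coheight (ψ z) = 1 := s26f1_coheight ψ z
  rw [Scheme.ord_eq_ordHom_of_coheight_eq_one hz, Scheme.ord_eq_ordHom_of_coheight_eq_one hw]
  congr 2
  exact s26f1_ordFrac_map (ψ.stalkMap z).hom (s26f1_map_maximalIdeal ψ z) (s26f1Pull ψ)
    (fun r => s26f1Pull_algebraMap ψ z r) x

end Ord

end Fermat.Agent.S26
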