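/-
S26-E, piece E-M part (b) (helper5): local equations and generators under an ÉTALE pull-back.

`ψ : X ⟶ Y` dominant, flat, unramified, locally of finite type (e.g. `[N]`, `(N : K) ≠ 0`, or an
automorphism such as `[-1]`), `U ⊂ Y` open.
* `s26em_locEq_pull` : `h` a local equation of `Y ∖ U` at `ψ c` ⇒ `ψ^* h` is a local equation of
  `X ∖ ψ⁻¹ U` at `c`.
* `s26emGen_comp`    : `s26emGen U (φ ≫ ψ) ~ s26emGen (ψ ⁻¹ᵁ U) φ` for every V-point `φ` of `X`:
  `m_v(ψ ∘ P)` w.r.t. `U`  =  `m_v(P)` w.r.t. `ψ⁻¹ U`.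
-/
import Fermat.Agent.S26.EMGen
import Fermat.Agent.S26.F1Gen

set_option autoImplicit false
set_option linter.style.haveILetI false
set_option linter.unusedVariables false
set_option linter.unusedSectionVars false

noncomputable section

namespace Fermat.Agent.S26

open AlgebraicGeometry CategoryTheory

universe u

variable {X Y : Scheme.{u}} [IsIntegral X] [IsIntegral Y] [IsLocallyNoetherian X]
  [IsLocallyNoetherian Y]

/-- **pull-back of local equations** along a flat unramified dominant morphism. -/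
theorem s26em_locEq_pull (ψ : X ⟶ Y) [IsDominant ψ] [Flat ψ] [FormallyUnramified ψ]
    [LocallyOfFiniteType ψ]
    (hdvr : ∀ z : X, Order.coheight z = 1 → IsDiscreteValuationRing (X.presheaf.stalk z))
    (U : Y.Opens) (c : X) {h : Y.presheaf.stalk (ψ c)} (hh : S26emIsLocEq U (ψ c) h) :
    S26emIsLocEq (ψ ⁻¹ᵁ U) c ((ψ.stalkMap c).hom h) := by
  have key : algebraMap (X.presheaf.stalk c) X.functionField ((ψ.stalkMap c).hom h) =
      s26f1Pull ψ (algebraMap (Y.presheaf.stalk (ψ c)) Y.functionField h) :=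
    (s26f1Pull_algebraMap ψ c h).symm
  refine ⟨?_, ?_⟩
  · intro h0
    have h1 : algebraMap (X.presheaf.stalk c) X.functionField ((ψ.stalkMap c).hom h) = 0 := by
      rw [h0, map_zero]
    rw [key, map_eq_zero_iff _ (s26f1Pull_injective ψ)] at h1
    exact hh.1 ((IsFractionRing.injective (Y.presheaf.stalk (ψ c)) Y.functionField)
      (h1.trans (map_zero _).symm))
  · intro z hz hzc
    haveI := hdvr z hz
    rw [key, s26f1_ord ψ z]
    have hw : Order.coheight (ψ z) = 1 := s26f1_coheight ψ z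
    have hsp : ψ z ⤳ ψ c := hzc.map ψ.continuous
    rw [hh.2 (ψ z) hw hsp]
    rfl

/-- **generators and pull-backs**: the generator of `φ ≫ ψ` for `U` is the generator of `φ` for
`ψ⁻¹ U`, up to a unit. -/
theorem s26emGen_comp (ψ : X ⟶ Y) [IsDominant ψ] [Flat ψ] [FormallyUnramified ψ]
    [LocallyOfFiniteType ψ]
    (hdvr : ∀ z : X, Order.coheight z = 1 → IsDiscreteValuationRing (X.presheaf.stalk z))
    {U : Y.Opens} (hD : S26emLocData U) (hD' : S26emLocData (ψ ⁻¹ᵁ U))
    {R : CommRingCat.{u}} [IsLocalRing R] (φ : Spec R ⟶ X) :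
    Associated (s26emGen U (φ ≫ ψ)) (s26emGen (ψ ⁻¹ᵁ U) φ) := by
  obtain ⟨h₀, hh₀, e⟩ := s26emGen_spec hD (φ ≫ ψ)
  have h1 : S26emIsLocEq (ψ ⁻¹ᵁ U) (s26emCentre φ) ((ψ.stalkMap (s26emCentre φ)).hom h₀) :=
    s26em_locEq_pull ψ hdvr U (s26emCentre φ) hh₀
  have h2 := s26emGen_associated hD' φ h1
  have h3 : s26emEv φ ((ψ.stalkMap (s26emCentre φ)).hom h₀) = s26emEv (φ ≫ ψ) h₀ := by
    unfold s26emEv
    rw [Scheme.stalkClosedPointTo_comp]
    rfl
  rw [e, ← h3]
  exact h2.symm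

end Fermat.Agent.S26

end
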