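/-
S26-E, piece E-M part (b) (helper5): the generator `m_V(P)` of a point `P ∈ A(Ω)` along a
valuation ring `V` of `Ω` (on helper51's E-PT), and the GENERATOR FAMILY for helper80's relations.

`f : A ⟶ Spec K` proper, `A` integral locally noetherian, `U ⊂ A` open, `hD : S26emLocData U`.
* `s26emV f Ω V U P : V`  :=  `s26emGen U (s26eptLift f Ω V P).1`
  (the blueprint's `m_v(P) = v (s26emV …)`);
* `s26emV_associated`   : `~ evV h` for every local equation `h` at the centre `c_V(P)`;
* `s26emV_isUnit_iff`   : unit iff `c_V(P) ∈ U`;      `s26emV_ne_zero` : `≠ 0` if `|P| ∈ U`;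
* `s26emV_of_point`     : **(LG) local generators**: if `P` comes from `Q ∈ A(S)`, `S` a local
  `K`-algebra mapping to `V` (by ANY `K`-algebra homomorphism `j`), then
  `s26emV … P ~ j (s26emGen U Q.1)`;
* `s26emV_comp`         : `ψ : A ⟶ A` over `K`, dominant flat unramified:
  `m_V(ψ ∘ P)` w.r.t. `U`  `~`  `m_V(P)` w.r.t. `ψ⁻¹ U`;
* `s26emV_nsmul`, `s26emV_inv` : the cases `ψ = [N]` and `ψ = [-1]`;
* `s26emFam f U P : ValuationSubring Ω → Ω` : the generator family (`1` at the `V` not over `K`).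
-/
import Fermat.Agent.S26.EMFun
import Fermat.Agent.S26.EMPull
import Fermat.Agent.S26.EPTVal
import Fermat.Agent.S26.ERAbs

set_option autoImplicit false
set_option linter.style.haveILetI false
set_option linter.unusedVariables false
set_option linter.unusedSectionVars false

noncomputable section

namespace Fermat.Agent.S26

open CategoryTheory CategoryTheory.Limits AlgebraicGeometry NeronModelInfra GoodReductionJacobian

universe u

variable {K : Type u} [Field K] {A : Scheme.{u}} (f : A ⟶ Spec (CommRingCat.of K))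

section Val

variable (Ω : Type u) [Field Ω] [Algebra K Ω]
  (V : Type u) [CommRing V] [IsDomain V] [ValuationRing V] [Algebra V Ω] [IsFractionRing V Ω]
  [Algebra K V] [IsScalarTower K V Ω]

variable [IsIntegral A] [IsLocallyNoetherian A] [IsProper f] (U : A.Opens)

/-- **the generator of `P ∈ A(Ω)` along `V`**: the value at the extension of `P` to `V` of a local
equation of `A ∖ U` at the centre. -/
def s26emV (P : s26eptPts f Ω) : V :=
  s26emGen U (R := CommRingCat.of V) (s26eptLift f Ω V P).1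

variable {U}

/-- well defined: the generator is associated to the value of every local equation at the
centre. -/
theorem s26emV_associated (hD : S26emLocData U) (P : s26eptPts f Ω)
    {h : A.presheaf.stalk (s26eptCentre f Ω V P)} (hh : S26emIsLocEq U (s26eptCentre f Ω V P) h) :
    Associated (s26emV f Ω V U P) (s26eptEvV f Ω V P h) :=
  s26emGen_associated hD (R := CommRingCat.of V) (s26eptLift f Ω V P).1 hh

/-- the generator is a unit of `V` iff the centre lies in `U`. -/
theorem s26emV_isUnit_iff (hD : S26emLocData U) (P : s26eptPts f Ω) :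
    IsUnit (s26emV f Ω V U P) ↔ s26eptCentre f Ω V P ∈ U :=
  s26emGen_isUnit_iff hD (R := CommRingCat.of V) (s26eptLift f Ω V P).1

/-- **(LG) local generators**: if `P` is the image of `Q ∈ A(S)`, `S` a local `K`-algebra with a
`K`-algebra homomorphism `j : S → V`, then the generator of `P` along `V` is `j` of the generator
of `Q`. -/
theorem s26emV_of_point (hD : S26emLocData U) {S : Type u} [CommRing S] [Algebra K S]
    [IsLocalRing S] (j : S →ₐ[K] V) (Q : s26eptPts f S) (P : s26eptPts f Ω)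
    (hQ : s26eptMap f ((s26eptIncl (K := K) Ω V).comp j) Q = P) :
    Associated (s26emV f Ω V U P) (j (s26emGen U (R := CommRingCat.of S) Q.1)) := by
  have h1 : s26eptLift f Ω V P = s26eptMap f j Q := by
    rw [s26eptLift_eq_iff, ← s26eptMap_comp]
    exact hQ
  unfold s26emV
  rw [h1, s26eptMap_coe]
  exact s26emGen_map hD (R := CommRingCat.of S) (S := CommRingCat.of V)
    (CommRingCat.ofHom (j : S →+* V)) Q.1

/-- the generator is not zero if `|P| ∈ U`. -/
theorem s26emV_ne_zero (hD : S26emLocData U) (P : s26eptPts f Ω) (hP : s26eptPt f P ∈ U) :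
    s26emV f Ω V U P ≠ 0 := by
  have h1 : s26eptMap f (s26eptIncl (K := K) Ω V) (s26eptLift f Ω V P) = P :=
    s26eptMap_lift f Ω V P
  have h2 : Spec.map (CommRingCat.ofHom ((s26eptIncl (K := K) Ω V : V →ₐ[K] Ω) : V →+* Ω)) ≫
      (s26eptLift f Ω V P).1 = P.1 := by
    rw [← s26eptMap_coe]
    exact congrArg Subtype.val h1
  refine s26emGen_ne_zero hD (R := CommRingCat.of V) (S := CommRingCat.of Ω)
    (CommRingCat.ofHom ((s26eptIncl (K := K) Ω V : V →ₐ[K] Ω) : V →+* Ω)) _ ?_
  rw [h2]
  exact hP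

/-- the composite `ψ ∘ P` of a point with an endomorphism of `A` over `K`. -/
def s26emPush (ψ : A ⟶ A) (hψ : ψ ≫ f = f) (P : s26eptPts f Ω) : s26eptPts f Ω :=
  ⟨P.1 ≫ ψ, by rw [Category.assoc, hψ]; exact P.2⟩

omit [IsIntegral A] [IsLocallyNoetherian A] in
theorem s26emPush_lift (ψ : A ⟶ A) (hψ : ψ ≫ f = f) (P : s26eptPts f Ω) :
    (s26eptLift f Ω V (s26emPush f Ω ψ hψ P)).1 = (s26eptLift f Ω V P).1 ≫ ψ := by
  have h1 : s26eptLift f Ω V (s26emPush f Ω ψ hψ P) =
      ⟨(s26eptLift f Ω V P).1 ≫ ψ, by rw [Category.assoc, hψ]; exact (s26eptLift f Ω V P).2⟩ := by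
    rw [s26eptLift_eq_iff]
    apply Subtype.ext
    rw [s26eptMap_coe]
    change _ ≫ (s26eptLift f Ω V P).1 ≫ ψ = P.1 ≫ ψ
    rw [← Category.assoc, ← s26eptMap_coe, s26eptMap_lift]
  rw [h1]

/-- **étale pull-back**: `m_V(ψ ∘ P)` with respect to `U` is `m_V(P)` with respect to
`ψ⁻¹ U`. -/
theorem s26emV_comp (ψ : A ⟶ A) (hψ : ψ ≫ f = f) [IsDominant ψ] [Flat ψ]
    [FormallyUnramified ψ] [LocallyOfFiniteType ψ]
    (hdvr : ∀ z : A, Order.coheight z = 1 → IsDiscreteValuationRing (A.presheaf.stalk z))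
    (hD : S26emLocData U) (hD' : S26emLocData (ψ ⁻¹ᵁ U)) (P : s26eptPts f Ω) :
    Associated (s26emV f Ω V U (s26emPush f Ω ψ hψ P)) (s26emV f Ω V (ψ ⁻¹ᵁ U) P) := by
  unfold s26emV
  rw [s26emPush_lift]
  exact s26emGen_comp ψ hdvr hD hD' (R := CommRingCat.of V) (s26eptLift f Ω V P).1

variable (G : RelativeGroupLaw K f)

/-- **multiplication by `N`** (étale, i.e. `(N : K) ≠ 0`): `m_V(N P)` with respect to `U` is
`m_V(P)` with respect to `[N]⁻¹ U`. -/
theorem s26emV_nsmul (N : ℕ) [IsDominant (G.schemeNsmul N)] [Flat (G.schemeNsmul N)]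
    [FormallyUnramified (G.schemeNsmul N)] [LocallyOfFiniteType (G.schemeNsmul N)]
    (hdvr : ∀ z : A, Order.coheight z = 1 → IsDiscreteValuationRing (A.presheaf.stalk z))
    (hD : S26emLocData U) (hD' : S26emLocData ((G.schemeNsmul N) ⁻¹ᵁ U)) (P : s26eptPts f Ω) :
    Associated (s26emV f Ω V U (G.nsmul _ N P)) (s26emV f Ω V ((G.schemeNsmul N) ⁻¹ᵁ U) P) := by
  have h1 : G.nsmul _ N P = s26emPush f Ω (G.schemeNsmul N) (G.schemeNsmul_over N) P :=
    Subtype.ext (s26a1_nsmul_eq G _ N P)
  rw [h1]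
  exact s26emV_comp f Ω V (G.schemeNsmul N) (G.schemeNsmul_over N) hdvr hD hD' P

/-- **symmetry**: `m_V(-P) = m_V(P)` if `U` is symmetric. -/
theorem s26emV_inv (hnn : s26a1Inv G ≫ s26a1Inv G = 𝟙 A)
    (hdvr : ∀ z : A, Order.coheight z = 1 → IsDiscreteValuationRing (A.presheaf.stalk z))
    (hD : S26emLocData U) (hU : (s26a1Inv G) ⁻¹ᵁ U = U) (P : s26eptPts f Ω) :
    Associated (s26emV f Ω V U (G.inv _ P)) (s26emV f Ω V U P) := by
  haveI : IsIso (s26a1Inv G) := ⟨⟨s26a1Inv G, hnn, hnn⟩⟩
  have h1 : G.inv _ P = s26emPush f Ω (s26a1Inv G) (s26a1Inv_comp G) P :=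
    Subtype.ext (s26a1_inv_eq G _ P)
  have hD' : S26emLocData ((s26a1Inv G) ⁻¹ᵁ U) := by rw [hU]; exact hD
  have h2 := s26emV_comp f Ω V (s26a1Inv G) (s26a1Inv_comp G) hdvr hD hD' P
  rw [h1]
  have h3 : s26emV f Ω V ((s26a1Inv G) ⁻¹ᵁ U) P = s26emV f Ω V U P := by rw [hU]
  rw [← h3]
  exact h2

end Val

section Fam

variable {Ω : Type u} [Field Ω] [Algebra K Ω]
variable [IsIntegral A] [IsLocallyNoetherian A] [IsProper f] (U : A.Opens)

/-- the `K`-algebra structure of a valuation subring over `K`. -/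
@[reducible] def s26emAlg (V : ValuationSubring Ω) (hV : S26erOver K V) : Algebra K V :=
  ((algebraMap K Ω).codRestrict V.toSubring hV).toAlgebra

theorem s26emAlg_tower (V : ValuationSubring Ω) (hV : S26erOver K V) :
    letI := s26emAlg V hV
    IsScalarTower K V Ω :=
  letI := s26emAlg V hV
  IsScalarTower.of_algebraMap_eq fun _ => rfl

open scoped Classical in
/-- **the generator family** of `P ∈ A(Ω)` for helper80's relations `S26erIsRel`:
`V ↦ m_V(P)` as an element of `Ω` (junk `1` at the `V` which are not over `K`). -/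
def s26emFam (P : s26eptPts f Ω) : ValuationSubring Ω → Ω := fun V =>
  if hV : S26erOver K V then
    letI := s26emAlg V hV
    haveI := s26emAlg_tower V hV
    ((s26emV f Ω V U P : V) : Ω)
  else 1

theorem s26emFam_eq (P : s26eptPts f Ω) (V : ValuationSubring Ω) (hV : S26erOver K V) :
    letI := s26emAlg V hV
    haveI := s26emAlg_tower V hV
    s26emFam f U P V = ((s26emV f Ω V U P : V) : Ω) := by
  unfold s26emFam
  rw [dif_pos hV]

end Fam

end Fermat.Agent.S26

end
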