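/-
S26-E — PLAN, stage 2 (helper73): CUBE_gen by curves.  Definitions and Props only.
Blueprint NOTES/S26-E.md §2; statements NOTES/S26-PlanE2.md.

* `s26eGen_eq_emFam`   : my `s26eGen` IS helper5's `s26emFam` (by `rfl`): use helper5's lemmas.
* `s26eSq f G U a y z` : the SQUARE family `[a+y+z] − [a+y] − [a+z] + [a]`.
* `S26eSpOne f G P`    : `P ∈ A(Ω)` specialises to the zero point along some valuation subring
  over `K` (POINT form `sp_V P = 0 ∈ A(k_V)`; `S26eSpZero` = the weaker CENTRE form).
* `S26eIsCurve K Γ`    : `Γ/K` is a function field of one variable (with a separating element).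
* `S26eChain f G W b`  : `b = ν_1 + … + ν_k ∈ A(W)`, `W` the function field of a product of
  pointed curves (helper32's interface, with homomorphisms instead of instances).
* Props `s26e_StmtTI` (translation invariance on the constant curve), `s26e_StmtCrv`
  (a chain with generic, finite end), `S26eC` (the statement C(W, b)),
  `s26e_StmtCubeUniv` (CUBE_gen for ONE independent triple: all that the formal part needs).
-/
import Fermat.Agent.S26.PlanE
import Fermat.Agent.S26.EMFam
import Fermat.Prelude.Def_AlgebraicCurve_DivisorClassGroup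

set_option autoImplicit false
set_option linter.style.haveILetI false

noncomputable section

namespace Fermat.Agent.S26

open CategoryTheory CategoryTheory.Limits AlgebraicGeometry NeronModelInfra GoodReductionJacobian
open scoped TensorProduct

universe u

variable {K : Type u} [Field K] {A : Scheme.{u}} (f : A ⟶ Spec (CommRingCat.of K))

theorem s26eGen_eq_emFam {Ω : Type u} [Field Ω] [Algebra K Ω] [IsIntegral A]
    [IsLocallyNoetherian A] [IsProper f] (U : A.Opens)
    (P : s26eptPts f Ω) (V : ValuationSubring Ω) : s26eGen f U P V = s26emFam f U P V := rfl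

section Defs

variable {Ω : Type u} [Field Ω] [Algebra K Ω] (G : RelativeGroupLaw K f)

/-- the generator family of the SQUARE `[a+y+z] − [a+y] − [a+z] + [a]`. -/
def s26eSq [IsIntegral A] [IsLocallyNoetherian A] [IsProper f] (U : A.Opens)
    (a y z : s26eptPts f Ω) : ValuationSubring Ω → Ω := fun V =>
  s26eGen f U (G.mul _ (G.mul _ a y) z) V * s26eGen f U a V /
    (s26eGen f U (G.mul _ a y) V * s26eGen f U (G.mul _ a z) V)

/-- `P ∈ A(Ω)` specialises to `0` along some valuation subring of `Ω` over `K`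
(CENTRE form: the centre is the zero point of `A`). -/
def S26eSpZero [IsProper f] (P : s26eptPts f Ω) : Prop :=
  ∃ (V : ValuationSubring Ω) (hV : S26erOver K V),
    s26emCentre (s26eLiftV f V hV P) = s26zero f G

/-- `P ∈ A(Γ)` specialises to `0` along the place `γ₀` of `Γ/K` (CENTRE form). -/
def S26eSpZeroAt [IsProper f] (P : s26eptPts f Ω) (γ₀ : AlgebraicCurve.Place K Ω) : Prop :=
  s26emCentre (s26eLiftV f γ₀.toValuationSubring γ₀.algebraMap_mem' P) = s26zero f G

/-- the specialisation of `P ∈ A(Ω)` along a valuation subring `V` over `K` is the zero point of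
`A(k_V)` (POINT form; it implies the centre form, `s26e_centre_of_spOne`). -/
def S26eSpOneV [IsProper f] (P : s26eptPts f Ω) (V : ValuationSubring Ω)
    (hV : S26erOver K V) : Prop :=
  letI := s26eAlgV V hV
  haveI := s26eAlgV_tower V hV
  s26eptSp f Ω V P = G.one _

/-- `P ∈ A(Ω)` specialises to the zero point along some valuation subring over `K`. -/
def S26eSpOne [IsProper f] (P : s26eptPts f Ω) : Prop :=
  ∃ (V : ValuationSubring Ω) (hV : S26erOver K V), S26eSpOneV f G P V hV

/-- `P ∈ A(Γ)` specialises to the zero point at the place `γ₀`. -/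
def S26eSpOneAt [IsProper f] (P : s26eptPts f Ω) (γ₀ : AlgebraicCurve.Place K Ω) : Prop :=
  S26eSpOneV f G P γ₀.toValuationSubring γ₀.algebraMap_mem'

end Defs

/-- `Γ/K` is a function field of one variable, with a separating element. -/
def S26eIsCurve (K : Type u) [Field K] (Γ : Type u) [Field Γ] [Algebra K Γ] : Prop :=
  ∃ t : Γ, Transcendental K t ∧ Module.Finite (IntermediateField.adjoin K {t}) Γ ∧
    Algebra.IsSeparable (IntermediateField.adjoin K {t}) Γ

/-- **chains of pointed curves** (helper32): `S26eChain f G W b` says that `W` is the function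
field of a product of curves `Γ_1, …, Γ_k` over `K`, each with a point `ν_i ∈ A(Γ_i)` which
specialises to `0` at a place `γ_{i0}`, and `b = ν_1 + … + ν_k ∈ A(W)`. -/
inductive S26eChain [IsProper f] (G : RelativeGroupLaw K f) :
    (W : Type u) → [Field W] → [Algebra K W] → s26eptPts f W → Prop
  | base (W : Type u) [Field W] [Algebra K W]
      (h : Function.Bijective (algebraMap K W)) : S26eChain G W (G.one _)
  | step (W : Type u) [Field W] [Algebra K W] (b : s26eptPts f W) (hb : S26eChain G W b)
      (Γ : Type u) [Field Γ] [Algebra K Γ] (hΓ : S26eIsCurve K Γ) (ν : s26eptPts f Γ)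
      (γ₀ : AlgebraicCurve.Place K Γ) (hν : S26eSpOneAt f G ν γ₀)
      (W' : Type u) [Field W'] [Algebra K W'] (ιΓ : Γ →ₐ[K] W') (ιW : W →ₐ[K] W')
      (hinj : Function.Injective (Algebra.TensorProduct.productMap ιΓ ιW))
      (hgen : ∀ x : W', ∃ s t : Γ ⊗[K] W, Algebra.TensorProduct.productMap ιΓ ιW t ≠ 0 ∧
        x = Algebra.TensorProduct.productMap ιΓ ιW s /
          Algebra.TensorProduct.productMap ιΓ ιW t) :
      S26eChain G W' (G.mul _ (s26eptMap f ιΓ ν) (s26eptMap f ιW b))

/-! ### Props -/

/-- **(TI)** [E-SPEC, E-RIG, E-VERT, E-RED, E-RR; hub helper82]: TRANSLATION INVARIANCE on the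
constant curve.  `Γ/K` a curve, `ν ∈ A(Γ)` with `ν(γ₀) = 0`; `W ⊇ K` any field, `b ∈ A(W)`
specialising to `0`; `Ω` any field containing `Γ`, `W` and two generic points `y, z`, all
independent.  Then some power of `Sq(ν + b; y, z) / Sq(b; y, z)` is a relation in `Ω`. -/
def s26e_StmtTI : Prop :=
  ∀ (K : Type u) [Field K] {A : Scheme.{u}} (f : A ⟶ Spec (CommRingCat.of K))
    (G : RelativeGroupLaw K f) (g : ℕ), S26Hyp K f G g →
    ∀ [IsIntegral A] [IsLocallyNoetherian A] [IsProper f] (U : A.Opens), S26IsAdm f G U →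
    S26emLocData U →
    ∀ (Γ : Type u) [Field Γ] [Algebra K Γ], S26eIsCurve K Γ →
    ∀ (ν : s26eptPts f Γ) (γ₀ : AlgebraicCurve.Place K Γ), S26eSpOneAt f G ν γ₀ →
    ∀ (W : Type u) [Field W] [Algebra K W] (b : s26eptPts f W), S26eSpOne f G b →
    ∀ (Ω : Type u) [Field Ω] [Algebra K Ω] (ιΓ : Γ →ₐ[K] Ω) (ιW : W →ₐ[K] Ω)
      (j₁ j₂ : s26F f →ₐ[K] Ω),
      Function.Injective (Algebra.TensorProduct.productMap
        (Algebra.TensorProduct.productMap (Algebra.TensorProduct.productMap ιΓ ιW) j₁) j₂) →
      ∃ (c : ℕ) (F : Ω), 0 < c ∧ S26erIsRel K (fun V =>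
        (s26eSq f G U (G.mul _ (s26eptMap f ιΓ ν) (s26eptMap f ιW b))
            (s26ePt f j₁) (s26ePt f j₂) V /
          s26eSq f G U (s26eptMap f ιW b) (s26ePt f j₁) (s26ePt f j₂) V) ^ c) F

/-- **C(W, b)**: some power of `Sq(b; y, z) / Sq(0; y, z)` is a relation in every field containing
`W` and two generic points `y, z`, all independent. -/
def S26eC [IsIntegral A] [IsLocallyNoetherian A] [IsProper f] (G : RelativeGroupLaw K f)
    (U : A.Opens) (W : Type u) [Field W] [Algebra K W] (b : s26eptPts f W) : Prop :=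
  ∀ (Ω : Type u) [Field Ω] [Algebra K Ω] (ιW : W →ₐ[K] Ω) (j₁ j₂ : s26F f →ₐ[K] Ω),
    Function.Injective (Algebra.TensorProduct.productMap
      (Algebra.TensorProduct.productMap ιW j₁) j₂) →
    ∃ (c : ℕ) (F : Ω), 0 < c ∧ S26erIsRel K (fun V =>
      (s26eSq f G U (s26eptMap f ιW b) (s26ePt f j₁) (s26ePt f j₂) V /
        s26eSq f G U (G.one _) (s26ePt f j₁) (s26ePt f j₂) V) ^ c) F

/-- **(C-IND)** [helper20]: `C(W, b)` along chains, from (TI). -/
def s26e_StmtCInd : Prop :=
  ∀ (K : Type u) [Field K] {A : Scheme.{u}} (f : A ⟶ Spec (CommRingCat.of K))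
    (G : RelativeGroupLaw K f) (g : ℕ), S26Hyp K f G g →
    ∀ [IsIntegral A] [IsLocallyNoetherian A] [IsProper f] (U : A.Opens), S26IsAdm f G U →
    S26emLocData U →
    ∀ (W : Type u) [Field W] [Algebra K W] (b : s26eptPts f W), S26eChain f G W b →
      S26eC f G U W b

/-- **(CRV)** [E-CRV, helper32 + helper83 + helper21]: there is a chain whose end `b` is a
generic point of `A`, `W` finite over `K(b)`. -/
def s26e_StmtCrv : Prop :=
  ∀ (K : Type u) [Field K] {A : Scheme.{u}} (f : A ⟶ Spec (CommRingCat.of K))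
    (G : RelativeGroupLaw K f) (g : ℕ), S26Hyp K f G g →
    ∀ [IsIntegral A] [IsProper f],
    ∃ (W : Type u) (_ : Field W) (_ : Algebra K W) (b : s26eptPts f W) (j : s26F f →ₐ[K] W),
      S26eChain f G W b ∧ s26ePt f j = b ∧ (j : s26F f →+* W).Finite

/-- **(CUBE_univ)** [helper75 + helper63, from (C-IND) + (CRV) + norm]: CUBE_gen for ONE
independent generic triple whose second embedding has algebraically closed image.
This is all that the formal part uses (the other triples come from (T)). -/
def s26e_StmtCubeUniv : Prop :=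
  ∀ (K : Type u) [Field K] {A : Scheme.{u}} (f : A ⟶ Spec (CommRingCat.of K))
    (G : RelativeGroupLaw K f) (g : ℕ), S26Hyp K f G g →
    ∀ [IsIntegral A] [IsLocallyNoetherian A] [IsProper f] (U : A.Opens), S26IsAdm f G U →
    S26emLocData U →
    ∀ (Ω : Type u) [Field Ω] [Algebra K Ω] (j₁ j₂ j₃ : s26F f →ₐ[K] Ω),
      S26eIndep3 f j₁ j₂ j₃ →
      ∃ (c : ℕ) (F : Ω), 0 < c ∧ S26erIsRel K
        (fun V => s26eCube f G U (s26ePt f j₁) (s26ePt f j₂) (s26ePt f j₃) V ^ c) F

end Fermat.Agent.S26

end
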