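/-
S26-E — PLAN, stage 2 (helper73): BRIDGE between helper32's chain interface
(`S26ecrvChain`, `s26ecrv_StmtMain`, S26/ECrvChain.lean) and PlanE2 (`S26eChain`, `s26e_StmtCrv`).

* `s26e_pt_one`            : the image point of the zero point of `A(R)` is `s26zero`;
* `s26e_spZeroAt_of_lift`  : helper32's step data `(νV, hν, hsp)` give `S26eSpZeroAt f G ν γ₀`;
* `s26e_chain_of_crvChain` : `S26ecrvChain f G W b → S26eChain f G W b`;
* `s26e_stmtCrv_of_main`   : `s26ecrv_StmtMain → s26e_StmtCrv`.
-/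
import Fermat.Agent.S26.PlanE2
import Fermat.Agent.S26.ECrvChain

set_option autoImplicit false
set_option linter.style.haveILetI false

noncomputable section

namespace Fermat.Agent.S26

open CategoryTheory CategoryTheory.Limits AlgebraicGeometry NeronModelInfra GoodReductionJacobian
open scoped TensorProduct

universe u

variable {K : Type u} [Field K] {A : Scheme.{u}} (f : A ⟶ Spec (CommRingCat.of K))
  (G : RelativeGroupLaw K f)

/-- the image point of the zero point of `A(R)`, `R` a local `K`-algebra, is the zero of `A`. -/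
theorem s26e_pt_one (R : Type u) [CommRing R] [Algebra K R] [IsLocalRing R] :
    s26eptPt f (G.one (s26eptStr K R)) = s26zero f G := by
  unfold s26eptPt s26zero
  rw [s26a1_one_eq G (s26eptStr K R)]
  change (s26a1Unit G) ((s26eptStr K R) (IsLocalRing.closedPoint R)) = _
  congr 1
  exact Subsingleton.elim _ _

variable [IsProper f]

/-- the POINT form of "specialises to `0`" implies the CENTRE form. -/
theorem s26e_centre_of_spOneV {Ω : Type u} [Field Ω] [Algebra K Ω] (P : s26eptPts f Ω)
    (V : ValuationSubring Ω) (hV : S26erOver K V) (h : S26eSpOneV f G P V hV) :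
    s26emCentre (s26eLiftV f V hV P) = s26zero f G := by
  letI := s26eAlgV V hV
  haveI := s26eAlgV_tower V hV
  have h3 := s26eptPt_sp f Ω V P
  have h2 : s26eptSp f Ω V P = G.one _ := h
  rw [h2, s26e_pt_one] at h3
  exact h3.symm

theorem s26e_spZero_of_spOne {Ω : Type u} [Field Ω] [Algebra K Ω] (P : s26eptPts f Ω)
    (h : S26eSpOne f G P) : S26eSpZero f G P := by
  obtain ⟨V, hV, h⟩ := h
  exact ⟨V, hV, s26e_centre_of_spOneV f G P V hV h⟩

theorem s26e_spZeroAt_of_spOneAt {Γ : Type u} [Field Γ] [Algebra K Γ] (ν : s26eptPts f Γ)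
    (γ₀ : AlgebraicCurve.Place K Γ) (h : S26eSpOneAt f G ν γ₀) : S26eSpZeroAt f G ν γ₀ :=
  s26e_centre_of_spOneV f G ν γ₀.toValuationSubring γ₀.algebraMap_mem' h

/-- helper32's step data give the specialisation to `0` in the sense of PlanE2. -/
theorem s26e_spOneAt_of_lift {Γ : Type u} [Field Γ] [Algebra K Γ] (ν : s26eptPts f Γ)
    (γ₀ : AlgebraicCurve.Place K Γ) (νV : s26eptPts f γ₀.toValuationSubring)
    (hν : s26eptMap f (s26eptIncl Γ γ₀.toValuationSubring) νV = ν)
    (hsp : s26eptMap f (s26eptRes γ₀.toValuationSubring) νV = G.one _) :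
    S26eSpOneAt f G ν γ₀ := by
  have h1 : s26eptLift f Γ γ₀.toValuationSubring ν = νV :=
    (s26eptLift_eq_iff f Γ γ₀.toValuationSubring ν νV).2 hν
  show s26eptSp f Γ γ₀.toValuationSubring ν = G.one _
  unfold s26eptSp
  rw [h1, hsp]

theorem s26e_spZeroAt_of_lift {Γ : Type u} [Field Γ] [Algebra K Γ] (ν : s26eptPts f Γ)
    (γ₀ : AlgebraicCurve.Place K Γ) (νV : s26eptPts f γ₀.toValuationSubring)
    (hν : s26eptMap f (s26eptIncl Γ γ₀.toValuationSubring) νV = ν)
    (hsp : s26eptMap f (s26eptRes γ₀.toValuationSubring) νV = G.one _) :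
    S26eSpZeroAt f G ν γ₀ :=
  s26e_spZeroAt_of_spOneAt f G ν γ₀ (s26e_spOneAt_of_lift f G ν γ₀ νV hν hsp)

/-- helper32's chains are chains in the sense of PlanE2. -/
theorem s26e_chain_of_crvChain {W : Type u} [Field W] [Algebra K W] {b : s26eptPts f W}
    (h : S26ecrvChain f G W b) : S26eChain f G W b := by
  induction h with
  | base => exact S26eChain.base K Function.bijective_id
  | @step W _ _ b hb Γ _ _ hΓ ν γ₀ hγ νV hν hsp W' _ _ _ _ _ ih =>
    refine S26eChain.step W b ih Γ hΓ ν γ₀ (s26e_spOneAt_of_lift f G ν γ₀ νV hν hsp) W'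
      (s26ecrvJL K Γ W W') (s26ecrvJR K Γ W W') ?_ ?_
    · rw [s26ecrv_productMap]
      exact IsFractionRing.injective (Γ ⊗[K] W) W'
    · intro x
      obtain ⟨s, t, ht, hx⟩ := IsFractionRing.div_surjective (A := Γ ⊗[K] W) x
      refine ⟨s, t, ?_, ?_⟩
      · rw [s26ecrv_productMap]
        exact (map_ne_zero_iff _ (IsFractionRing.injective (Γ ⊗[K] W) W')).2
          (nonZeroDivisors.ne_zero ht)
      · rw [s26ecrv_productMap]
        exact hx.symm

/-- (CRV) in helper32's form gives (CRV) in the form of PlanE2. -/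
theorem s26e_stmtCrv_of_main (h : s26ecrv_StmtMain.{u}) : s26e_StmtCrv.{u} := by
  intro K _ A f G g hyp _ _
  obtain ⟨W, iW, aW, b, j, hch, hb, hfin⟩ := h K f G g hyp
  refine ⟨W, iW, aW, b, j, s26e_chain_of_crvChain f G hch, hb.symm, ?_⟩
  letI := (j : s26F f →+* W).toAlgebra
  exact hfin

end Fermat.Agent.S26

end
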