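/-
S26-E (helper73): the C-INDUCTION.  `s26ecind_main : (TI) → (NV) → (SP-STEP) → (C-IND)`.

* `s26e_StmtNV`     : NON-VANISHING of the four generators of `Sq(b; y, z)` when `b` specialises
  to the zero point  [helper19, CZ];
* `s26e_StmtSpStep` : `S26eSpOne` is preserved by the step of a chain  [helper19, CZ];
* `s26ecind_main`   : rule induction on `S26eChain`: `C(W', ν + b) = TI · C(W, b)`.
-/
import Fermat.Agent.S26.PlanE3
import Fermat.Agent.S26.ETPreAlg

set_option autoImplicit false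
set_option linter.style.haveILetI false
set_option linter.unusedVariables false

noncomputable section

namespace Fermat.Agent.S26

open CategoryTheory CategoryTheory.Limits AlgebraicGeometry NeronModelInfra GoodReductionJacobian
open scoped TensorProduct

universe u

/-- **(NV)** [CZ]: if `b ∈ A(W)` specialises to the zero point, then in every field `Ω` containing
`W` and two generic points `y, z`, all independent, the four generators of `Sq(b; y, z)` do not
vanish. -/
def s26e_StmtNV : Prop :=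
  ∀ (K : Type u) [Field K] {A : Scheme.{u}} (f : A ⟶ Spec (CommRingCat.of K))
    (G : RelativeGroupLaw K f) (g : ℕ), S26Hyp K f G g →
    ∀ [IsIntegral A] [IsLocallyNoetherian A] [IsProper f] (U : A.Opens), S26IsAdm f G U →
    S26emLocData U →
    ∀ (W : Type u) [Field W] [Algebra K W] (b : s26eptPts f W), S26eSpOne f G b →
    ∀ (Ω : Type u) [Field Ω] [Algebra K Ω] (ιW : W →ₐ[K] Ω) (j₁ j₂ : s26F f →ₐ[K] Ω),
      Function.Injective (Algebra.TensorProduct.productMap
        (Algebra.TensorProduct.productMap ιW j₁) j₂) →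
      ∀ V : ValuationSubring Ω, S26erOver K V →
        s26eGen f U (G.mul _ (G.mul _ (s26eptMap f ιW b) (s26ePt f j₁)) (s26ePt f j₂)) V ≠ 0 ∧
        s26eGen f U (s26eptMap f ιW b) V ≠ 0 ∧
        s26eGen f U (G.mul _ (s26eptMap f ιW b) (s26ePt f j₁)) V ≠ 0 ∧
        s26eGen f U (G.mul _ (s26eptMap f ιW b) (s26ePt f j₂)) V ≠ 0

/-- **(SP-STEP)** [CZ]: the step of a chain preserves "specialises to the zero point". -/
def s26e_StmtSpStep : Prop :=
  ∀ (K : Type u) [Field K] {A : Scheme.{u}} (f : A ⟶ Spec (CommRingCat.of K))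
    (G : RelativeGroupLaw K f) (g : ℕ), S26Hyp K f G g → ∀ [IsProper f],
    ∀ (W : Type u) [Field W] [Algebra K W] (b : s26eptPts f W), S26eSpOne f G b →
    ∀ (Γ : Type u) [Field Γ] [Algebra K Γ] (ν : s26eptPts f Γ) (γ₀ : AlgebraicCurve.Place K Γ),
      S26eSpOneAt f G ν γ₀ →
    ∀ (W' : Type u) [Field W'] [Algebra K W'] (ιΓ : Γ →ₐ[K] W') (ιW : W →ₐ[K] W'),
      Function.Injective (Algebra.TensorProduct.productMap ιΓ ιW) →
      S26eSpOne f G (G.mul _ (s26eptMap f ιΓ ν) (s26eptMap f ιW b))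

variable {K : Type u} [Field K] {A : Scheme.{u}} (f : A ⟶ Spec (CommRingCat.of K))
  (G : RelativeGroupLaw K f)

/-- the zero point specialises to the zero point. -/
theorem s26ecind_spOne_one [IsProper f] (Ω : Type u) [Field Ω] [Algebra K Ω] :
    S26eSpOne f G (G.one (s26eptStr K Ω)) := by
  have hV : S26erOver K (⊤ : ValuationSubring Ω) := fun a => ValuationSubring.mem_top _
  refine ⟨⊤, hV, ?_⟩
  letI := s26eAlgV (⊤ : ValuationSubring Ω) hV
  haveI := s26eAlgV_tower (⊤ : ValuationSubring Ω) hV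
  exact s26eptSp_one f Ω (⊤ : ValuationSubring Ω) G

section Val

variable {Ω : Type u} [Field Ω]

/-- the valuation of a quotient of two elements with equal values and nonzero denominator -/
theorem s26ecind_val_pow_mul (V : ValuationSubring Ω) (a m o F₁ F₂ : Ω) (c₁ c₂ : ℕ)
    (hm : m ≠ 0)
    (h1 : V.valuation F₁ = V.valuation ((a / m) ^ c₁))
    (h2 : V.valuation F₂ = V.valuation ((m / o) ^ c₂)) :
    V.valuation (F₁ ^ c₂ * F₂ ^ c₁) = V.valuation ((a / o) ^ (c₁ * c₂)) := by
  rw [map_mul, map_pow, map_pow, h1, h2, ← map_pow, ← map_pow, ← map_mul]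
  congr 1
  rw [← pow_mul, ← pow_mul, mul_comm c₂ c₁, ← mul_pow]
  congr 1
  field_simp

end Val

section Main

variable [IsIntegral A] [IsLocallyNoetherian A] [IsProper f]

/-- `Sq(b; y, z)` does not vanish, from (NV). -/
theorem s26ecind_sq_ne_zero {Ω : Type u} [Field Ω] [Algebra K Ω] (U : A.Opens)
    (a y z : s26eptPts f Ω) (V : ValuationSubring Ω)
    (h : s26eGen f U (G.mul _ (G.mul _ a y) z) V ≠ 0 ∧ s26eGen f U a V ≠ 0 ∧
      s26eGen f U (G.mul _ a y) V ≠ 0 ∧ s26eGen f U (G.mul _ a z) V ≠ 0) :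
    s26eSq f G U a y z V ≠ 0 := by
  obtain ⟨h1, h2, h3, h4⟩ := h
  unfold s26eSq
  exact div_ne_zero (mul_ne_zero h1 h2) (mul_ne_zero h3 h4)

/-- **(C-IND)**: `C(W, b)` along chains, from (TI), (NV) and (SP-STEP). -/
theorem s26ecind_main (hTI : s26e_StmtTI.{u}) (hNV : s26e_StmtNV.{u})
    (hSp : s26e_StmtSpStep.{u}) : s26e_StmtCInd.{u} := by
  intro K _ A f G g hyp _ _ _ U hU hD W _ _ b hch
  have key : S26eC f G U W b ∧ S26eSpOne f G b := by
    induction hch with
    | base W h =>
      refine ⟨?_, s26ecind_spOne_one f G W⟩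
      intro Ω _ _ ιW j₁ j₂ hinj
      refine ⟨1, 1, one_pos, ?_⟩
      intro V hV
      have hnv := hNV K f G g hyp U hU hD W (G.one _) (s26ecind_spOne_one f G W) Ω ιW j₁ j₂
        hinj V hV
      have hne := s26ecind_sq_ne_zero f G U (s26eptMap f ιW (G.one _)) (s26ePt f j₁)
        (s26ePt f j₂) V hnv
      rw [s26eptMap_one] at hne ⊢
      show V.valuation 1 = V.valuation ((s26eSq f G U (G.one _) (s26ePt f j₁) (s26ePt f j₂) V /
        s26eSq f G U (G.one _) (s26ePt f j₁) (s26ePt f j₂) V) ^ 1)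
      rw [div_self hne, one_pow]
    | step W b hb Γ hΓ ν γ₀ hν W' ιΓ ιW hinj hgen ih =>
      obtain ⟨ihC, ihS⟩ := ih
      refine ⟨?_, hSp K f G g hyp W b ihS Γ ν γ₀ hν W' ιΓ ιW hinj⟩
      intro Ω _ _ ι' j₁ j₂ hind
      -- independence of `Γ, W, 𝔉, 𝔉` in `Ω`
      have hι' : Function.Injective ι' := (ι' : W' →+* Ω).injective
      have hιW : Function.Injective ιW := (ιW : W →+* W').injective
      have hid : Function.Injective (AlgHom.id K (s26F f)) := fun _ _ h => h
      have h4 : Function.Injective (Algebra.TensorProduct.productMap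
          (Algebra.TensorProduct.productMap
            (Algebra.TensorProduct.productMap (ι'.comp ιΓ) (ι'.comp ιW)) j₁) j₂) := by
        have e : Algebra.TensorProduct.productMap (ι'.comp ιΓ) (ι'.comp ιW) =
            ι'.comp (Algebra.TensorProduct.productMap ιΓ ιW) := by
          apply Algebra.TensorProduct.ext'
          intro x y
          simp
        rw [e]
        have := s26etp_indep3_pre ι' j₁ j₂ (Algebra.TensorProduct.productMap ιΓ ιW)
          (AlgHom.id K (s26F f)) (AlgHom.id K (s26F f)) hinj hid hid hind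
        simpa using this
      have h3 : Function.Injective (Algebra.TensorProduct.productMap
          (Algebra.TensorProduct.productMap (ι'.comp ιW) j₁) j₂) := by
        have := s26etp_indep3_pre ι' j₁ j₂ ιW
          (AlgHom.id K (s26F f)) (AlgHom.id K (s26F f)) hιW hid hid hind
        simpa using this
      obtain ⟨c₁, F₁, hc₁, hF₁⟩ := hTI K f G g hyp U hU hD Γ hΓ ν γ₀ hν W b ihS Ω
        (ι'.comp ιΓ) (ι'.comp ιW) j₁ j₂ h4
      obtain ⟨c₂, F₂, hc₂, hF₂⟩ := ihC Ω (ι'.comp ιW) j₁ j₂ h3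
      refine ⟨c₁ * c₂, F₁ ^ c₂ * F₂ ^ c₁, Nat.mul_pos hc₁ hc₂, ?_⟩
      intro V hV
      have hnv := hNV K f G g hyp U hU hD W b ihS Ω (ι'.comp ιW) j₁ j₂ h3 V hV
      have hm := s26ecind_sq_ne_zero f G U (s26eptMap f (ι'.comp ιW) b) (s26ePt f j₁)
        (s26ePt f j₂) V hnv
      have hpt : s26eptMap f ι' (G.mul _ (s26eptMap f ιΓ ν) (s26eptMap f ιW b)) =
          G.mul _ (s26eptMap f (ι'.comp ιΓ) ν) (s26eptMap f (ι'.comp ιW) b) := by
        rw [s26eptMap_mul, s26eptMap_comp, s26eptMap_comp]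
      rw [hpt]
      exact s26ecind_val_pow_mul V _ _ _ F₁ F₂ c₁ c₂ hm (hF₁ V hV) (hF₂ V hV)
  exact key.1

end Main

end Fermat.Agent.S26

end
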