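/-
S26-E, leaf CZ (helper19), ALGEBRA: existence of a COMMON valuation subring.

`Ω` a field over `K`, containing the fields `F_i` (`φ_i : F_i →ₐ[K] Ω`) INDEPENDENTLY (the product
map of the `φ_i` is injective); `R_i → F_i` injective `K`-algebras with "residue maps"
`π_i : R_i →ₐ[K] k_i`, `k_i` nontrivial.  Then some valuation subring `V ⊇ K` of `Ω` contains all
`φ_i (R_i)` and has all `φ_i (ker π_i)` in its maximal ideal.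

* `s26ecz_exists_val`   : the core (`τ : T → Ω` injective, `π : T → Q`, `Q` nontrivial);
* `s26ecz_exists_val₂`  : two factors;
* `s26ecz_exists_val₃`  : three factors;
* `s26ecz_exists_val₄`  : four factors.
-/
import Fermat.Agent.S26.ERigCore

set_option autoImplicit false

namespace Fermat.Agent.S26

open TensorProduct

section Core

variable {Ω : Type*} [Field Ω]

/-- the core: an injective `τ : T → Ω` and a ring homomorphism `π` from `T` to a nontrivial ring: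
some valuation subring of `Ω` contains `τ T` and has `τ (ker π)` in its maximal ideal. -/
theorem s26ecz_exists_val {T Q : Type*} [CommRing T] [CommRing Q] [Nontrivial Q]
    (τ : T →+* Ω) (hτ : Function.Injective τ) (π : T →+* Q) :
    ∃ V : ValuationSubring Ω, (∀ t, τ t ∈ V) ∧ ∀ t, π t = 0 → τ t ∈ V.nonunits := by
  have hI : RingHom.ker π ≠ ⊤ := RingHom.ker_ne_top π
  have hker : RingHom.ker τ ≤ RingHom.ker π := by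
    rw [(RingHom.injective_iff_ker_eq_bot τ).1 hτ]
    exact bot_le
  obtain ⟨V, h1, h2⟩ := s26erig_exists_valuation_over τ (RingHom.ker π) hI hker
  exact ⟨V, h1, fun t ht => h2 t ht⟩

end Core

section Tensor

variable {K : Type*} [Field K]

/-- the tensor product of two injective `K`-algebra homomorphisms is injective. -/
theorem s26ecz_map_injective {A B C D : Type*} [CommRing A] [CommRing B] [CommRing C]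
    [CommRing D] [Algebra K A] [Algebra K B] [Algebra K C] [Algebra K D]
    (f : A →ₐ[K] C) (g : B →ₐ[K] D) (hf : Function.Injective f) (hg : Function.Injective g) :
    Function.Injective (Algebra.TensorProduct.map f g) :=
  TensorProduct.map_injective_of_flat_flat f.toLinearMap g.toLinearMap hf hg

variable {Ω : Type*} [Field Ω] [Algebra K Ω]

/-- the core, for a `K`-algebra homomorphism `τ`: the valuation subring contains `K`. -/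
theorem s26ecz_exists_val' {T Q : Type*} [CommRing T] [CommRing Q] [Nontrivial Q] [Algebra K T]
    (τ : T →ₐ[K] Ω) (hτ : Function.Injective τ) (π : T →+* Q) :
    ∃ V : ValuationSubring Ω, (∀ c : K, algebraMap K Ω c ∈ V) ∧ (∀ t, τ t ∈ V) ∧
      ∀ t, π t = 0 → τ t ∈ V.nonunits := by
  obtain ⟨V, h1, h2⟩ := s26ecz_exists_val τ.toRingHom hτ π
  refine ⟨V, fun c => ?_, h1, h2⟩
  have := h1 (algebraMap K T c)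
  rwa [show τ.toRingHom (algebraMap K T c) = algebraMap K Ω c from τ.commutes c] at this

/-- **two factors.** -/
theorem s26ecz_exists_val₂ {R₁ R₂ F₁ F₂ k₁ k₂ : Type*}
    [CommRing R₁] [CommRing R₂] [CommRing F₁] [CommRing F₂] [CommRing k₁] [CommRing k₂]
    [Algebra K R₁] [Algebra K R₂] [Algebra K F₁] [Algebra K F₂] [Algebra K k₁] [Algebra K k₂]
    [Nontrivial k₁] [Nontrivial k₂]
    (ι₁ : R₁ →ₐ[K] F₁) (ι₂ : R₂ →ₐ[K] F₂)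
    (hι₁ : Function.Injective ι₁) (hι₂ : Function.Injective ι₂)
    (π₁ : R₁ →ₐ[K] k₁) (π₂ : R₂ →ₐ[K] k₂)
    (φ₁ : F₁ →ₐ[K] Ω) (φ₂ : F₂ →ₐ[K] Ω)
    (hinj : Function.Injective (Algebra.TensorProduct.productMap φ₁ φ₂)) :
    ∃ V : ValuationSubring Ω, (∀ c : K, algebraMap K Ω c ∈ V) ∧
      ((∀ r, φ₁ (ι₁ r) ∈ V) ∧ ∀ r, π₁ r = 0 → φ₁ (ι₁ r) ∈ V.nonunits) ∧
      ((∀ r, φ₂ (ι₂ r) ∈ V) ∧ ∀ r, π₂ r = 0 → φ₂ (ι₂ r) ∈ V.nonunits) := by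
  let τ : R₁ ⊗[K] R₂ →ₐ[K] Ω :=
    (Algebra.TensorProduct.productMap φ₁ φ₂).comp (Algebra.TensorProduct.map ι₁ ι₂)
  have hτ : Function.Injective τ := hinj.comp (s26ecz_map_injective ι₁ ι₂ hι₁ hι₂)
  let π : R₁ ⊗[K] R₂ →ₐ[K] k₁ ⊗[K] k₂ := Algebra.TensorProduct.map π₁ π₂
  obtain ⟨V, h1, h2⟩ := s26ecz_exists_val τ.toRingHom hτ π.toRingHom
  have e₁ : ∀ r, τ (r ⊗ₜ[K] (1 : R₂)) = φ₁ (ι₁ r) := fun r => by simp [τ]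
  have e₂ : ∀ r, τ ((1 : R₁) ⊗ₜ[K] r) = φ₂ (ι₂ r) := fun r => by simp [τ]
  refine ⟨V, fun c => ?_, ⟨fun r => ?_, fun r hr => ?_⟩, ⟨fun r => ?_, fun r hr => ?_⟩⟩
  · have := h1 (algebraMap K _ c)
    rwa [show τ.toRingHom (algebraMap K _ c) = algebraMap K Ω c from τ.commutes c] at this
  · rw [← e₁]; exact h1 _
  · rw [← e₁]
    exact h2 _ (by
      show π (r ⊗ₜ[K] (1 : R₂)) = 0
      simp [π, hr])
  · rw [← e₂]; exact h1 _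
  · rw [← e₂]
    exact h2 _ (by
      show π ((1 : R₁) ⊗ₜ[K] r) = 0
      simp [π, hr])

/-- **three factors.** -/
theorem s26ecz_exists_val₃ {R₁ R₂ R₃ F₁ F₂ F₃ k₁ k₂ k₃ : Type*}
    [CommRing R₁] [CommRing R₂] [CommRing R₃]
    [CommRing F₁] [CommRing F₂] [CommRing F₃]
    [CommRing k₁] [CommRing k₂] [CommRing k₃]
    [Algebra K R₁] [Algebra K R₂] [Algebra K R₃]
    [Algebra K F₁] [Algebra K F₂] [Algebra K F₃]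
    [Algebra K k₁] [Algebra K k₂] [Algebra K k₃]
    [Nontrivial k₁] [Nontrivial k₂] [Nontrivial k₃]
    (ι₁ : R₁ →ₐ[K] F₁) (ι₂ : R₂ →ₐ[K] F₂) (ι₃ : R₃ →ₐ[K] F₃)
    (hι₁ : Function.Injective ι₁) (hι₂ : Function.Injective ι₂)
    (hι₃ : Function.Injective ι₃)
    (π₁ : R₁ →ₐ[K] k₁) (π₂ : R₂ →ₐ[K] k₂) (π₃ : R₃ →ₐ[K] k₃)
    (φ₁ : F₁ →ₐ[K] Ω) (φ₂ : F₂ →ₐ[K] Ω) (φ₃ : F₃ →ₐ[K] Ω)
    (hinj : Function.Injective (Algebra.TensorProduct.productMap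
      (Algebra.TensorProduct.productMap φ₁ φ₂) φ₃)) :
    ∃ V : ValuationSubring Ω, (∀ c : K, algebraMap K Ω c ∈ V) ∧
      ((∀ r, φ₁ (ι₁ r) ∈ V) ∧ ∀ r, π₁ r = 0 → φ₁ (ι₁ r) ∈ V.nonunits) ∧
      ((∀ r, φ₂ (ι₂ r) ∈ V) ∧ ∀ r, π₂ r = 0 → φ₂ (ι₂ r) ∈ V.nonunits) ∧
      ((∀ r, φ₃ (ι₃ r) ∈ V) ∧ ∀ r, π₃ r = 0 → φ₃ (ι₃ r) ∈ V.nonunits) := by
  let τ : (R₁ ⊗[K] R₂) ⊗[K] R₃ →ₐ[K] Ω :=
    (Algebra.TensorProduct.productMap (Algebra.TensorProduct.productMap φ₁ φ₂) φ₃).comp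
      (Algebra.TensorProduct.map (Algebra.TensorProduct.map ι₁ ι₂) ι₃)
  have hτ : Function.Injective τ :=
    hinj.comp (s26ecz_map_injective _ _ (s26ecz_map_injective ι₁ ι₂ hι₁ hι₂) hι₃)
  let π : (R₁ ⊗[K] R₂) ⊗[K] R₃ →ₐ[K] (k₁ ⊗[K] k₂) ⊗[K] k₃ :=
    Algebra.TensorProduct.map (Algebra.TensorProduct.map π₁ π₂) π₃
  obtain ⟨V, h0, h1, h2⟩ := s26ecz_exists_val' (T := (R₁ ⊗[K] R₂) ⊗[K] R₃)
    (Q := (k₁ ⊗[K] k₂) ⊗[K] k₃) τ hτ (π : _ →+* _)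
  have e₁ : ∀ r, τ ((r ⊗ₜ[K] (1 : R₂)) ⊗ₜ[K] (1 : R₃)) = φ₁ (ι₁ r) :=
    fun r => by simp [τ]
  have e₂ : ∀ r, τ (((1 : R₁) ⊗ₜ[K] r) ⊗ₜ[K] (1 : R₃)) = φ₂ (ι₂ r) :=
    fun r => by simp [τ]
  have e₃ : ∀ r, τ (((1 : R₁) ⊗ₜ[K] (1 : R₂)) ⊗ₜ[K] r) = φ₃ (ι₃ r) :=
    fun r => by simp [τ]
  refine ⟨V, h0, ⟨fun r => ?_, fun r hr => ?_⟩, ⟨fun r => ?_, fun r hr => ?_⟩,
    ⟨fun r => ?_, fun r hr => ?_⟩⟩
  · rw [← e₁]; exact h1 _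
  · rw [← e₁]
    exact h2 _ (by
      show π ((r ⊗ₜ[K] (1 : R₂)) ⊗ₜ[K] (1 : R₃)) = 0
      simp [π, hr])
  · rw [← e₂]; exact h1 _
  · rw [← e₂]
    exact h2 _ (by
      show π (((1 : R₁) ⊗ₜ[K] r) ⊗ₜ[K] (1 : R₃)) = 0
      simp [π, hr])
  · rw [← e₃]; exact h1 _
  · rw [← e₃]
    exact h2 _ (by
      show π (((1 : R₁) ⊗ₜ[K] (1 : R₂)) ⊗ₜ[K] r) = 0
      simp [π, hr])

/-- **four factors.** -/
theorem s26ecz_exists_val₄ {R₁ R₂ R₃ R₄ F₁ F₂ F₃ F₄ k₁ k₂ k₃ k₄ : Type*}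
    [CommRing R₁] [CommRing R₂] [CommRing R₃] [CommRing R₄]
    [CommRing F₁] [CommRing F₂] [CommRing F₃] [CommRing F₄]
    [CommRing k₁] [CommRing k₂] [CommRing k₃] [CommRing k₄]
    [Algebra K R₁] [Algebra K R₂] [Algebra K R₃] [Algebra K R₄]
    [Algebra K F₁] [Algebra K F₂] [Algebra K F₃] [Algebra K F₄]
    [Algebra K k₁] [Algebra K k₂] [Algebra K k₃] [Algebra K k₄]
    [Nontrivial k₁] [Nontrivial k₂] [Nontrivial k₃] [Nontrivial k₄]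
    (ι₁ : R₁ →ₐ[K] F₁) (ι₂ : R₂ →ₐ[K] F₂) (ι₃ : R₃ →ₐ[K] F₃) (ι₄ : R₄ →ₐ[K] F₄)
    (hι₁ : Function.Injective ι₁) (hι₂ : Function.Injective ι₂)
    (hι₃ : Function.Injective ι₃) (hι₄ : Function.Injective ι₄)
    (π₁ : R₁ →ₐ[K] k₁) (π₂ : R₂ →ₐ[K] k₂) (π₃ : R₃ →ₐ[K] k₃) (π₄ : R₄ →ₐ[K] k₄)
    (φ₁ : F₁ →ₐ[K] Ω) (φ₂ : F₂ →ₐ[K] Ω) (φ₃ : F₃ →ₐ[K] Ω) (φ₄ : F₄ →ₐ[K] Ω)
    (hinj : Function.Injective (Algebra.TensorProduct.productMap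
      (Algebra.TensorProduct.productMap (Algebra.TensorProduct.productMap φ₁ φ₂) φ₃) φ₄)) :
    ∃ V : ValuationSubring Ω, (∀ c : K, algebraMap K Ω c ∈ V) ∧
      ((∀ r, φ₁ (ι₁ r) ∈ V) ∧ ∀ r, π₁ r = 0 → φ₁ (ι₁ r) ∈ V.nonunits) ∧
      ((∀ r, φ₂ (ι₂ r) ∈ V) ∧ ∀ r, π₂ r = 0 → φ₂ (ι₂ r) ∈ V.nonunits) ∧
      ((∀ r, φ₃ (ι₃ r) ∈ V) ∧ ∀ r, π₃ r = 0 → φ₃ (ι₃ r) ∈ V.nonunits) ∧
      ((∀ r, φ₄ (ι₄ r) ∈ V) ∧ ∀ r, π₄ r = 0 → φ₄ (ι₄ r) ∈ V.nonunits) := by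
  let τ : ((R₁ ⊗[K] R₂) ⊗[K] R₃) ⊗[K] R₄ →ₐ[K] Ω :=
    (Algebra.TensorProduct.productMap
      (Algebra.TensorProduct.productMap (Algebra.TensorProduct.productMap φ₁ φ₂) φ₃) φ₄).comp
      (Algebra.TensorProduct.map (Algebra.TensorProduct.map (Algebra.TensorProduct.map ι₁ ι₂) ι₃)
        ι₄)
  have hτ : Function.Injective τ :=
    hinj.comp (s26ecz_map_injective _ _
      (s26ecz_map_injective _ _ (s26ecz_map_injective ι₁ ι₂ hι₁ hι₂) hι₃) hι₄)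
  let π : ((R₁ ⊗[K] R₂) ⊗[K] R₃) ⊗[K] R₄ →ₐ[K] ((k₁ ⊗[K] k₂) ⊗[K] k₃) ⊗[K] k₄ :=
    Algebra.TensorProduct.map (Algebra.TensorProduct.map (Algebra.TensorProduct.map π₁ π₂) π₃) π₄
  obtain ⟨V, h0, h1, h2⟩ := s26ecz_exists_val' (T := ((R₁ ⊗[K] R₂) ⊗[K] R₃) ⊗[K] R₄)
    (Q := ((k₁ ⊗[K] k₂) ⊗[K] k₃) ⊗[K] k₄) τ hτ (π : _ →+* _)
  have e₁ : ∀ r, τ (((r ⊗ₜ[K] (1 : R₂)) ⊗ₜ[K] (1 : R₃)) ⊗ₜ[K] (1 : R₄)) = φ₁ (ι₁ r) :=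
    fun r => by simp [τ]
  have e₂ : ∀ r, τ ((((1 : R₁) ⊗ₜ[K] r) ⊗ₜ[K] (1 : R₃)) ⊗ₜ[K] (1 : R₄)) = φ₂ (ι₂ r) :=
    fun r => by simp [τ]
  have e₃ : ∀ r, τ ((((1 : R₁) ⊗ₜ[K] (1 : R₂)) ⊗ₜ[K] r) ⊗ₜ[K] (1 : R₄)) = φ₃ (ι₃ r) :=
    fun r => by simp [τ]
  have e₄ : ∀ r, τ ((((1 : R₁) ⊗ₜ[K] (1 : R₂)) ⊗ₜ[K] (1 : R₃)) ⊗ₜ[K] r) = φ₄ (ι₄ r) :=
    fun r => by simp [τ]
  refine ⟨V, h0, ⟨fun r => ?_, fun r hr => ?_⟩, ⟨fun r => ?_, fun r hr => ?_⟩,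
    ⟨fun r => ?_, fun r hr => ?_⟩, ⟨fun r => ?_, fun r hr => ?_⟩⟩
  · rw [← e₁]; exact h1 _
  · rw [← e₁]
    exact h2 _ (by
      show π (((r ⊗ₜ[K] (1 : R₂)) ⊗ₜ[K] (1 : R₃)) ⊗ₜ[K] (1 : R₄)) = 0
      simp [π, hr])
  · rw [← e₂]; exact h1 _
  · rw [← e₂]
    exact h2 _ (by
      show π ((((1 : R₁) ⊗ₜ[K] r) ⊗ₜ[K] (1 : R₃)) ⊗ₜ[K] (1 : R₄)) = 0
      simp [π, hr])
  · rw [← e₃]; exact h1 _
  · rw [← e₃]
    exact h2 _ (by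
      show π ((((1 : R₁) ⊗ₜ[K] (1 : R₂)) ⊗ₜ[K] r) ⊗ₜ[K] (1 : R₄)) = 0
      simp [π, hr])
  · rw [← e₄]; exact h1 _
  · rw [← e₄]
    exact h2 _ (by
      show π ((((1 : R₁) ⊗ₜ[K] (1 : R₂)) ⊗ₜ[K] (1 : R₃)) ⊗ₜ[K] r) = 0
      simp [π, hr])

end Tensor

end Fermat.Agent.S26
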