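/-
S26-E, piece E-PT (helper51), part 3a: functoriality of specialisation, "(SPF)".

`(Ω, V) → (Ω', V')`: `ι : Ω →ₐ[K] Ω'`, `j : V →ₐ[K] V'` with `(j x : Ω') = ι (x : Ω)`.
* `s26eptLift_funct : lift' (ι P) = j (lift P)`;
* for `j` local (`V'` dominates `V`): `s26eptCentre_funct : c_{V'}(ι P) = c_V(P)`,
  `s26eptSp_funct : sp_{V'}(ι P) = j̄ (sp_V P)`, `s26eptValV_funct` (values near the centre).
The trivial valuation ring `V = Ω` is allowed (Mathlib has all instances).
-/
import Fermat.Agent.S26.EPTVal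

set_option autoImplicit false
set_option linter.style.haveILetI false

noncomputable section

namespace Fermat.Agent.S26

open CategoryTheory CategoryTheory.Limits AlgebraicGeometry NeronModelInfra GoodReductionJacobian

universe u

variable {K : Type u} [Field K] {A : Scheme.{u}} (f : A ⟶ Spec (CommRingCat.of K))

section Funct

variable (Ω : Type u) [Field Ω] [Algebra K Ω]
  (V : Type u) [CommRing V] [IsDomain V] [ValuationRing V] [Algebra V Ω] [IsFractionRing V Ω]
  [Algebra K V] [IsScalarTower K V Ω]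
  (Ω' : Type u) [Field Ω'] [Algebra K Ω']
  (V' : Type u) [CommRing V'] [IsDomain V'] [ValuationRing V'] [Algebra V' Ω']
  [IsFractionRing V' Ω'] [Algebra K V'] [IsScalarTower K V' Ω']
  [IsProper f]

variable {Ω V Ω' V'}

/-- **(SPF), lift**: functoriality of the extension to the valuation ring in `(Ω, V) → (Ω', V')` -/
theorem s26eptLift_funct (ι : Ω →ₐ[K] Ω') (j : V →ₐ[K] V')
    (hj : ∀ x : V, algebraMap V' Ω' (j x) = ι (algebraMap V Ω x)) (P : s26eptPts f Ω) :
    s26eptLift f Ω' V' (s26eptMap f ι P) = s26eptMap f j (s26eptLift f Ω V P) := by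
  rw [s26eptLift_eq_iff, ← s26eptMap_comp]
  have : (s26eptIncl Ω' V').comp j = ι.comp (s26eptIncl (K := K) Ω V) := by
    ext x
    exact hj x
  rw [this, s26eptMap_comp, s26eptMap_lift]

/-- **(SPF), centre**: the centre does not change if `V'` dominates `V` -/
theorem s26eptCentre_funct (ι : Ω →ₐ[K] Ω') (j : V →ₐ[K] V') [IsLocalHom (j : V →+* V')]
    (hj : ∀ x : V, algebraMap V' Ω' (j x) = ι (algebraMap V Ω x)) (P : s26eptPts f Ω) :
    s26eptCentre f Ω' V' (s26eptMap f ι P) = s26eptCentre f Ω V P := by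
  unfold s26eptCentre
  rw [s26eptLift_funct f ι j hj P]
  exact s26eptPt_map f j _

/-- **(SPF)**: `sp_{V'} (ι P) = j̄ (sp_V P)` for `j : V → V'` local, compatible with `ι : Ω → Ω'` -/
theorem s26eptSp_funct (ι : Ω →ₐ[K] Ω') (j : V →ₐ[K] V') [IsLocalHom j]
    (hj : ∀ x : V, algebraMap V' Ω' (j x) = ι (algebraMap V Ω x)) (P : s26eptPts f Ω) :
    s26eptSp f Ω' V' (s26eptMap f ι P) =
      s26eptMap f (IsLocalRing.ResidueField.mapAlgHom j) (s26eptSp f Ω V P) := by
  unfold s26eptSp
  rw [s26eptLift_funct f ι j hj P, ← s26eptMap_comp, ← s26eptMap_comp]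
  congr 1

/-- **(SPF), values**: values of sections near the centre -/
theorem s26eptValV_funct (ι : Ω →ₐ[K] Ω') (j : V →ₐ[K] V') [IsLocalHom (j : V →+* V')]
    (hj : ∀ x : V, algebraMap V' Ω' (j x) = ι (algebraMap V Ω x)) (P : s26eptPts f Ω)
    (W : A.Opens) (hW : s26eptCentre f Ω V P ∈ W) (s : Γ(A, W)) :
    s26eptVal f (s26eptLift f Ω' V' (s26eptMap f ι P)) W
        (by
          show s26eptCentre f Ω' V' (s26eptMap f ι P) ∈ W
          rw [s26eptCentre_funct f ι j hj P]; exact hW) s =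
      j (s26eptVal f (s26eptLift f Ω V P) W hW s) := by
  rw [← s26eptVal_map f j (s26eptLift f Ω V P) W hW s]
  exact s26eptVal_congr f (s26eptLift_funct f ι j hj P) W _ _ s

end Funct

end Fermat.Agent.S26
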