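/-
S26-E, piece E-MR (helper68): the GLUE between the generator families of points (E-M, helper5:
`s26emFam`, on helper51's E-PT) and the relations calculus (E-R, helper80: `S26erIsRel`).

Part A (pure valuation theory, AlgHom form of E-R): for a `K`-algebra homomorphism of fields
`ι : Ω →ₐ[K] Ω'` (NO `Algebra Ω Ω'` instance): `s26emrPull ι 𝔡`, (R1) `s26emr_map`, its converse
`s26emr_of_map`, (R3) `s26emr_descend`, (R4) `s26emr_norm`, and the pull-back of products.

Part B (E-M × E-PT): the values of the generator family of a point: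
* `s26emr_val_map`   : `v'(𝔡_{ιP}(V')) = v'(ι 𝔡_P(V' ∩ Ω))`  (functoriality in the field);
* `s26emr_ne_zero`   : `𝔡_P(V) ≠ 0` if `|P| ∈ U`;
* `s26emr_val_le_one`, `s26emr_val_eq_one_iff` : `𝔡_P(V) ∈ V`, a unit iff the centre lies in `U`;
* `s26emr_val_nsmul`, `s26emr_val_inv` : `[N]` and `[-1]`.

Part C: transport of relations between points, for finite families `P : ι → A(Ω)` with exponents
`n : ι → ℤ`: `s26emrFam`, `s26emr_pt_map`, `s26emr_pt_of_map`, `s26emr_pt_descend`,
`s26emr_pt_norm`.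
-/
import Fermat.Agent.S26.EMFam
import Fermat.Agent.S26.EPTFun

set_option autoImplicit false
set_option linter.style.haveILetI false
set_option linter.unusedVariables false
set_option linter.unusedSectionVars false

noncomputable section

namespace Fermat.Agent.S26

open CategoryTheory CategoryTheory.Limits AlgebraicGeometry NeronModelInfra GoodReductionJacobian

universe u

/-! ## Part A: the relations calculus along a `K`-algebra homomorphism of fields -/

section PartA

variable {K : Type*} {Ω Ω' : Type*} [Field K] [Field Ω] [Field Ω'] [Algebra K Ω] [Algebra K Ω']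

/-- the pull-back of a generator family along `ι : Ω →ₐ[K] Ω'`. -/
def s26emrPull (ι : Ω →ₐ[K] Ω') (𝔡 : ValuationSubring Ω → Ω) : ValuationSubring Ω' → Ω' :=
  fun V' => ι (𝔡 (V'.comap (ι : Ω →+* Ω')))

theorem s26emrPull_eq (ι : Ω →ₐ[K] Ω') (𝔡 : ValuationSubring Ω → Ω) :
    letI := (ι : Ω →+* Ω').toAlgebra
    s26emrPull ι 𝔡 = s26erPull (Ω' := Ω') 𝔡 := rfl

theorem s26emr_tower (ι : Ω →ₐ[K] Ω') :
    letI := (ι : Ω →+* Ω').toAlgebra
    IsScalarTower K Ω Ω' :=
  letI := (ι : Ω →+* Ω').toAlgebra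
  IsScalarTower.of_algebraMap_eq fun a => (ι.commutes a).symm

theorem s26emrOver_comap (ι : Ω →ₐ[K] Ω') {V' : ValuationSubring Ω'} (h : S26erOver K V') :
    S26erOver K (V'.comap (ι : Ω →+* Ω')) := fun a => by
  rw [ValuationSubring.mem_comap]
  have : (ι : Ω →+* Ω') (algebraMap K Ω a) = algebraMap K Ω' a := ι.commutes a
  rw [this]
  exact h a

variable {𝔡 𝔡₁ 𝔡₂ : ValuationSubring Ω → Ω} {F : Ω}

/-- **(R1)** along `ι`. -/
theorem s26emr_map (ι : Ω →ₐ[K] Ω') (h : S26erIsRel K 𝔡 F) :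
    S26erIsRel K (s26emrPull ι 𝔡) (ι F) := by
  letI := (ι : Ω →+* Ω').toAlgebra
  haveI := s26emr_tower ι
  exact S26erIsRel.map (Ω' := Ω') h

/-- the converse of (R1) along `ι`. -/
theorem s26emr_of_map (ι : Ω →ₐ[K] Ω') (h : S26erIsRel K (s26emrPull ι 𝔡) (ι F)) :
    S26erIsRel K 𝔡 F := by
  letI := (ι : Ω →+* Ω').toAlgebra
  haveI := s26emr_tower ι
  exact S26erIsRel.of_map (Ω' := Ω') h

/-- **(R3), descent** along `ι`. -/
theorem s26emr_descend (ι : Ω →ₐ[K] Ω')
    (halg : ∀ y : Ω', (∃ p : Polynomial Ω, p ≠ 0 ∧ Polynomial.eval₂ (ι : Ω →+* Ω') y p = 0) →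
      y ∈ (ι : Ω →+* Ω').range)
    (h0 : 𝔡 ⊤ ≠ 0) {F' : Ω'} (h : S26erIsRel K (s26emrPull ι 𝔡) F') :
    ∃ F : Ω, ι F = F' ∧ S26erIsRel K 𝔡 F := by
  letI := (ι : Ω →+* Ω').toAlgebra
  haveI := s26emr_tower ι
  refine S26erIsRel.descend (Ω' := Ω') (fun y hy => halg y ?_) h0 h
  obtain ⟨p, hp, hpy⟩ := hy
  exact ⟨p, hp, hpy⟩

/-- **(R4), norm** along `ι` (the norm and the degree for the algebra structure of `ι`). -/
theorem s26emr_norm (ι : Ω →ₐ[K] Ω')
    (h0 : ∀ V : ValuationSubring Ω, S26erOver K V → 𝔡 V ≠ 0) {F' : Ω'}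
    (h : S26erIsRel K (s26emrPull ι 𝔡) F') :
    letI := (ι : Ω →+* Ω').toAlgebra
    S26erIsRel K (fun V => 𝔡 V ^ Module.finrank Ω Ω') (Algebra.norm Ω F') := by
  letI := (ι : Ω →+* Ω').toAlgebra
  haveI := s26emr_tower ι
  exact S26erIsRel.norm (Ω' := Ω') h0 h

theorem s26emrPull_mul (ι : Ω →ₐ[K] Ω') (𝔡₁ 𝔡₂ : ValuationSubring Ω → Ω) :
    s26emrPull ι (fun V => 𝔡₁ V * 𝔡₂ V) = fun V' => s26emrPull ι 𝔡₁ V' * s26emrPull ι 𝔡₂ V' := by
  funext V'
  simp only [s26emrPull, map_mul]

theorem s26emrPull_inv (ι : Ω →ₐ[K] Ω') (𝔡 : ValuationSubring Ω → Ω) :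
    s26emrPull ι (fun V => (𝔡 V)⁻¹) = fun V' => (s26emrPull ι 𝔡 V')⁻¹ := by
  funext V'
  simp only [s26emrPull, map_inv₀]

theorem s26emrPull_pow (ι : Ω →ₐ[K] Ω') (𝔡 : ValuationSubring Ω → Ω) (n : ℕ) :
    s26emrPull ι (fun V => 𝔡 V ^ n) = fun V' => s26emrPull ι 𝔡 V' ^ n := by
  funext V'
  simp only [s26emrPull, map_pow]

theorem s26emrPull_zpow (ι : Ω →ₐ[K] Ω') (𝔡 : ValuationSubring Ω → Ω) (n : ℤ) :
    s26emrPull ι (fun V => 𝔡 V ^ n) = fun V' => s26emrPull ι 𝔡 V' ^ n := by
  funext V'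
  simp only [s26emrPull, map_zpow₀]

theorem s26emrPull_prod (ι : Ω →ₐ[K] Ω') {I : Type*} (s : Finset I)
    (𝔡 : I → ValuationSubring Ω → Ω) :
    s26emrPull ι (fun V => ∏ i ∈ s, 𝔡 i V) = fun V' => ∏ i ∈ s, s26emrPull ι (𝔡 i) V' := by
  funext V'
  simp only [s26emrPull, map_prod]

/-- values of a finite product of powers. -/
theorem s26emr_val_prod_zpow {I : Type*} (s : Finset I) (V : ValuationSubring Ω) (a b : I → Ω)
    (n : I → ℤ) (h : ∀ i ∈ s, V.valuation (a i) = V.valuation (b i)) :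
    V.valuation (∏ i ∈ s, a i ^ n i) = V.valuation (∏ i ∈ s, b i ^ n i) := by
  rw [map_prod, map_prod]
  refine Finset.prod_congr rfl fun i hi => ?_
  rw [map_zpow₀, map_zpow₀, h i hi]

/-- associated elements of a valuation subring have the same value. -/
theorem s26emr_val_eq_of_associated (V : ValuationSubring Ω) {a b : V} (h : Associated a b) :
    V.valuation (a : Ω) = V.valuation (b : Ω) := by
  obtain ⟨u, rfl⟩ := h
  have h1 : V.valuation ((u : V) : Ω) = 1 := (V.valuation_eq_one_iff _).1 u.isUnit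
  rw [show ((a * (u : V) : V) : Ω) = (a : Ω) * ((u : V) : Ω) from rfl, map_mul, h1, mul_one]

end PartA

/-! ## Part B: the values of the generator family of a point -/

section PartB

variable {K : Type u} [Field K] {A : Scheme.{u}} (f : A ⟶ Spec (CommRingCat.of K))
variable {Ω Ω' : Type u} [Field Ω] [Algebra K Ω] [Field Ω'] [Algebra K Ω']
variable [IsIntegral A] [IsLocallyNoetherian A] [IsProper f] {U : A.Opens}

/-- the homomorphism `V' ∩ Ω → V'` induced by `ι`. -/
def s26emrJ (ι : Ω →ₐ[K] Ω') (V' : ValuationSubring Ω') (hV' : S26erOver K V') :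
    letI := s26emAlg (V'.comap (ι : Ω →+* Ω')) (s26emrOver_comap ι hV')
    letI := s26emAlg V' hV'
    (V'.comap (ι : Ω →+* Ω')) →ₐ[K] V' :=
  letI := s26emAlg (V'.comap (ι : Ω →+* Ω')) (s26emrOver_comap ι hV')
  letI := s26emAlg V' hV'
  { toFun := fun x => ⟨ι x.1, x.2⟩
    map_one' := Subtype.ext (map_one ι)
    map_mul' := fun x y => Subtype.ext (map_mul ι x.1 y.1)
    map_zero' := Subtype.ext (map_zero ι)
    map_add' := fun x y => Subtype.ext (map_add ι x.1 y.1)
    commutes' := fun a => Subtype.ext (ι.commutes a) }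

/-- **functoriality in the field**: the generator of the image of `P` in `A(Ω')` along `V'` has
the same value as the image of the generator of `P` along `V' ∩ Ω`. -/
theorem s26emr_val_map (hD : S26emLocData U) (ι : Ω →ₐ[K] Ω') (P : s26eptPts f Ω)
    (V' : ValuationSubring Ω') (hV' : S26erOver K V') :
    V'.valuation (s26emFam f U (s26eptMap f ι P) V') =
      V'.valuation (s26emrPull ι (s26emFam f U P) V') := by
  have hV : S26erOver K (V'.comap (ι : Ω →+* Ω')) := s26emrOver_comap ι hV'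
  letI := s26emAlg (V'.comap (ι : Ω →+* Ω')) hV
  haveI := s26emAlg_tower (V'.comap (ι : Ω →+* Ω')) hV
  letI := s26emAlg V' hV'
  haveI := s26emAlg_tower V' hV'
  have e1 := s26emFam_eq f U (s26eptMap f ι P) V' hV'
  have e2 := s26emFam_eq f U P (V'.comap (ι : Ω →+* Ω')) hV
  unfold s26emrPull
  rw [e1, e2]
  have hc : (s26eptIncl (K := K) Ω' V').comp (s26emrJ ι V' hV') =
      ι.comp (s26eptIncl (K := K) Ω (V'.comap (ι : Ω →+* Ω'))) := by
    ext x
    rfl
  have hQ : s26eptMap f ((s26eptIncl (K := K) Ω' V').comp (s26emrJ ι V' hV'))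
      (s26eptLift f Ω (V'.comap (ι : Ω →+* Ω')) P) = s26eptMap f ι P := by
    rw [hc, s26eptMap_comp, s26eptMap_lift]
  have h2 : Associated (s26emV f Ω' V' U (s26eptMap f ι P))
      (s26emrJ ι V' hV' (s26emV f Ω (V'.comap (ι : Ω →+* Ω')) U P)) :=
    s26emV_of_point f Ω' V' hD (s26emrJ ι V' hV')
      (s26eptLift f Ω (V'.comap (ι : Ω →+* Ω')) P) (s26eptMap f ι P) hQ
  exact s26emr_val_eq_of_associated V' h2

/-- the generator family of a point with `|P| ∈ U` does not vanish. -/
theorem s26emr_ne_zero (hD : S26emLocData U) (P : s26eptPts f Ω) (hP : s26eptPt f P ∈ U)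
    (V : ValuationSubring Ω) : s26emFam f U P V ≠ 0 := by
  by_cases hV : S26erOver K V
  · letI := s26emAlg V hV
    haveI := s26emAlg_tower V hV
    rw [s26emFam_eq f U P V hV]
    have h1 := s26emV_ne_zero f Ω V hD P hP
    intro h0
    exact h1 (Subtype.ext h0)
  · unfold s26emFam
    rw [dif_neg hV]
    exact one_ne_zero

/-- the generator lies in the valuation ring. -/
theorem s26emr_val_le_one (P : s26eptPts f Ω) (V : ValuationSubring Ω) :
    V.valuation (s26emFam f U P V) ≤ 1 := by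
  by_cases hV : S26erOver K V
  · letI := s26emAlg V hV
    haveI := s26emAlg_tower V hV
    rw [s26emFam_eq f U P V hV]
    exact (V.valuation_le_one_iff _).2 (s26emV f Ω V U P).2
  · unfold s26emFam
    rw [dif_neg hV, map_one]

/-- the generator is a unit of the valuation ring iff the centre of the point lies in `U`. -/
theorem s26emr_val_eq_one_iff (hD : S26emLocData U) (P : s26eptPts f Ω)
    (V : ValuationSubring Ω) (hV : S26erOver K V) :
    letI := s26emAlg V hV
    haveI := s26emAlg_tower V hV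
    V.valuation (s26emFam f U P V) = 1 ↔ s26eptCentre f Ω V P ∈ U := by
  letI := s26emAlg V hV
  haveI := s26emAlg_tower V hV
  rw [s26emFam_eq f U P V hV, ← s26emV_isUnit_iff f Ω V hD P]
  exact (V.valuation_eq_one_iff _).symm

variable (G : RelativeGroupLaw K f)

/-- **multiplication by `N`**: the generator of `N • P` with respect to `U` has the value of the
generator of `P` with respect to `[N]⁻¹ U`. -/
theorem s26emr_val_nsmul (N : ℕ) [IsDominant (G.schemeNsmul N)] [Flat (G.schemeNsmul N)]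
    [FormallyUnramified (G.schemeNsmul N)] [LocallyOfFiniteType (G.schemeNsmul N)]
    (hdvr : ∀ z : A, Order.coheight z = 1 → IsDiscreteValuationRing (A.presheaf.stalk z))
    (hD : S26emLocData U) (hD' : S26emLocData ((G.schemeNsmul N) ⁻¹ᵁ U)) (P : s26eptPts f Ω)
    (V : ValuationSubring Ω) :
    V.valuation (s26emFam f U (G.nsmul _ N P) V) =
      V.valuation (s26emFam f ((G.schemeNsmul N) ⁻¹ᵁ U) P V) := by
  by_cases hV : S26erOver K V
  · letI := s26emAlg V hV
    haveI := s26emAlg_tower V hV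
    rw [s26emFam_eq f U _ V hV, s26emFam_eq f _ P V hV]
    exact s26emr_val_eq_of_associated V (s26emV_nsmul f Ω V G N hdvr hD hD' P)
  · unfold s26emFam
    rw [dif_neg hV, dif_neg hV]

/-- **symmetry**: the generators of `-P` and `P` have the same value if `U` is symmetric. -/
theorem s26emr_val_inv (hnn : s26a1Inv G ≫ s26a1Inv G = 𝟙 A)
    (hdvr : ∀ z : A, Order.coheight z = 1 → IsDiscreteValuationRing (A.presheaf.stalk z))
    (hD : S26emLocData U) (hU : (s26a1Inv G) ⁻¹ᵁ U = U) (P : s26eptPts f Ω)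
    (V : ValuationSubring Ω) :
    V.valuation (s26emFam f U (G.inv _ P) V) = V.valuation (s26emFam f U P V) := by
  by_cases hV : S26erOver K V
  · letI := s26emAlg V hV
    haveI := s26emAlg_tower V hV
    rw [s26emFam_eq f U _ V hV, s26emFam_eq f _ P V hV]
    exact s26emr_val_eq_of_associated V (s26emV_inv f Ω V G hnn hdvr hD hU P)
  · unfold s26emFam
    rw [dif_neg hV, dif_neg hV]

end PartB

/-! ## Part C: relations between points -/

section PartC

variable {K : Type u} [Field K] {A : Scheme.{u}} (f : A ⟶ Spec (CommRingCat.of K))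
variable {Ω Ω' : Type u} [Field Ω] [Algebra K Ω] [Field Ω'] [Algebra K Ω']
variable [IsIntegral A] [IsLocallyNoetherian A] [IsProper f] (U : A.Opens)

/-- the generator family of the formal sum `Σ_{i ∈ s} n_i [P_i]`. -/
def s26emrFam {I : Type*} (s : Finset I) (P : I → s26eptPts f Ω) (n : I → ℤ) :
    ValuationSubring Ω → Ω :=
  fun V => ∏ i ∈ s, s26emFam f U (P i) V ^ n i

variable {U}

theorem s26emrFam_ne_zero (hD : S26emLocData U) {I : Type*} (s : Finset I)
    (P : I → s26eptPts f Ω) (n : I → ℤ) (hP : ∀ i ∈ s, s26eptPt f (P i) ∈ U)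
    (V : ValuationSubring Ω) : s26emrFam f U s P n V ≠ 0 := by
  unfold s26emrFam
  exact Finset.prod_ne_zero_iff.2 fun i hi => zpow_ne_zero _ (s26emr_ne_zero f hD (P i) (hP i hi) V)

/-- the family of the mapped points has the values of the pulled back family. -/
theorem s26emrFam_val_map (hD : S26emLocData U) (ι : Ω →ₐ[K] Ω') {I : Type*} (s : Finset I)
    (P : I → s26eptPts f Ω) (n : I → ℤ) (V' : ValuationSubring Ω') (hV' : S26erOver K V') :
    V'.valuation (s26emrFam f U s (fun i => s26eptMap f ι (P i)) n V') =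
      V'.valuation (s26emrPull ι (s26emrFam f U s P n) V') := by
  have e : s26emrPull ι (s26emrFam f U s P n) V' =
      ∏ i ∈ s, s26emrPull ι (s26emFam f U (P i)) V' ^ n i := by
    unfold s26emrPull s26emrFam
    rw [map_prod]
    exact Finset.prod_congr rfl fun i _ => map_zpow₀ _ _ _
  rw [e]
  unfold s26emrFam
  exact s26emr_val_prod_zpow s V' _ _ n fun i _ => s26emr_val_map f hD ι (P i) V' hV'

/-- **(R1) for points**: a relation between points of `A(Ω)` gives the relation between their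
images in `A(Ω')`. -/
theorem s26emr_pt_map (hD : S26emLocData U) (ι : Ω →ₐ[K] Ω') {I : Type*} (s : Finset I)
    (P : I → s26eptPts f Ω) (n : I → ℤ) {F : Ω} (h : S26erIsRel K (s26emrFam f U s P n) F) :
    S26erIsRel K (s26emrFam f U s (fun i => s26eptMap f ι (P i)) n) (ι F) :=
  (s26emr_map ι h).congr fun V' hV' => (s26emrFam_val_map f hD ι s P n V' hV').symm

/-- **the converse of (R1) for points**. -/
theorem s26emr_pt_of_map (hD : S26emLocData U) (ι : Ω →ₐ[K] Ω') {I : Type*} (s : Finset I)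
    (P : I → s26eptPts f Ω) (n : I → ℤ) {F : Ω}
    (h : S26erIsRel K (s26emrFam f U s (fun i => s26eptMap f ι (P i)) n) (ι F)) :
    S26erIsRel K (s26emrFam f U s P n) F :=
  s26emr_of_map ι (h.congr fun V' hV' => s26emrFam_val_map f hD ι s P n V' hV')

/-- **(R3), descent for points**: `Ω` algebraically closed in `Ω'` (along `ι`); a relation in
`Ω'` between the images of points of `A(Ω)` (with `|P_i| ∈ U`) comes from `Ω`. -/
theorem s26emr_pt_descend (hD : S26emLocData U) (ι : Ω →ₐ[K] Ω')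
    (halg : ∀ y : Ω', (∃ p : Polynomial Ω, p ≠ 0 ∧ Polynomial.eval₂ (ι : Ω →+* Ω') y p = 0) →
      y ∈ (ι : Ω →+* Ω').range)
    {I : Type*} (s : Finset I) (P : I → s26eptPts f Ω) (n : I → ℤ)
    (hP : ∀ i ∈ s, s26eptPt f (P i) ∈ U) {F' : Ω'}
    (h : S26erIsRel K (s26emrFam f U s (fun i => s26eptMap f ι (P i)) n) F') :
    ∃ F : Ω, ι F = F' ∧ S26erIsRel K (s26emrFam f U s P n) F :=
  s26emr_descend ι halg (s26emrFam_ne_zero f hD s P n hP ⊤)
    (h.congr fun V' hV' => s26emrFam_val_map f hD ι s P n V' hV')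

/-- **(R4), norm for points**: `Ω'` finite over `Ω` (along `ι`); a relation in `Ω'` between the
images of points of `A(Ω)` gives `[Ω' : Ω]` times the relation in `Ω`. -/
theorem s26emr_pt_norm (hD : S26emLocData U) (ι : Ω →ₐ[K] Ω') {I : Type*} (s : Finset I)
    (P : I → s26eptPts f Ω) (n : I → ℤ) (hP : ∀ i ∈ s, s26eptPt f (P i) ∈ U) {F' : Ω'}
    (h : S26erIsRel K (s26emrFam f U s (fun i => s26eptMap f ι (P i)) n) F') :
    letI := (ι : Ω →+* Ω').toAlgebra
    S26erIsRel K (fun V => s26emrFam f U s P n V ^ Module.finrank Ω Ω') (Algebra.norm Ω F') :=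
  s26emr_norm ι (fun V _ => s26emrFam_ne_zero f hD s P n hP V)
    (h.congr fun V' hV' => s26emrFam_val_map f hD ι s P n V' hV')

/-- (R2) for points: sums of exponents. -/
theorem s26emr_pt_add (hD : S26emLocData U) {I : Type*} (s : Finset I)
    (P : I → s26eptPts f Ω) (n m : I → ℤ) (hP : ∀ i ∈ s, s26eptPt f (P i) ∈ U) {F F₂ : Ω}
    (h : S26erIsRel K (s26emrFam f U s P n) F) (h₂ : S26erIsRel K (s26emrFam f U s P m) F₂) :
    S26erIsRel K (s26emrFam f U s P (n + m)) (F * F₂) := by
  refine (h.mul h₂).congr fun V _ => congrArg _ ?_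
  unfold s26emrFam
  rw [← Finset.prod_mul_distrib]
  exact Finset.prod_congr rfl fun i hi =>
    (zpow_add₀ (s26emr_ne_zero f hD (P i) (hP i hi) V) _ _).symm

/-- (R2) for points: multiples. -/
theorem s26emr_pt_zsmul {I : Type*} (s : Finset I)
    (P : I → s26eptPts f Ω) (n : I → ℤ) (c : ℤ) {F : Ω}
    (h : S26erIsRel K (s26emrFam f U s P n) F) :
    S26erIsRel K (s26emrFam f U s P (fun i => n i * c)) (F ^ c) := by
  refine (h.zpow c).congr fun V _ => congrArg _ ?_
  unfold s26emrFam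
  rw [← Finset.prod_zpow]
  exact Finset.prod_congr rfl fun i _ => (zpow_mul _ _ _).symm

end PartC

end Fermat.Agent.S26

end
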