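import Mathlib

/-!
# S26-E-SPEC, half (B1) (helper52, for helper95): KEY-val and the composite valuation ring

Mathlib only.

* `s26espb_comap_le`, **`s26espb_comap_eq`** (KEY-val): `j : Γ →+* F`, `W₁ W₂` valuation subrings
  of `F` with residue maps `ρ_i : ↥W_i →+* k′` (`ρ₁` kills the non-units of `W₁`; `k′` a nontrivial
  ring).  If every `u ∈ Γ` with `j u ∈ W₁` has `j u ∈ W₂` and `ρ₂ (j u) = ρ₁ (j u)` (EVAL), then
  `W₁.comap j = W₂.comap j`;  `s26espb_comap_eq'` is the same with `IsLocalHom ρ₁`.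
* `s26espbComp V res V̄ hker` : the COMPOSITE valuation subring `{x ∈ V | res x ∈ V̄}` of `F`
  (`res : ↥V →+* κ` killing the non-units of `V`, `V̄` a valuation subring of `κ`);
  `s26espb_mem_comp`, `s26espb_comp_le`, `s26espbCompIncl : ↥comp →+* ↥V`,
  `s26espbCompRes : ↥comp →+* ↥V̄`, `s26espb_compRes_coe`,
  `s26espb_compRes_surjective` (if `res` is surjective),
  `s26espb_comp_isUnit_iff`, `s26espb_comp_mem_nonunits_iff`, `s26espb_compRes_isLocalHom`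
  (if `res` is a local homomorphism, i.e. `ker res = 𝔪_V`),
  `s26espbCompResidue : ↥comp →+* ResidueField ↥V̄` with `s26espb_compResidue_isLocalHom`,
  `s26espb_compResidue_surjective`, `s26espb_compResidue_eq_zero_iff`.
-/

set_option autoImplicit false
set_option linter.style.haveILetI false
set_option linter.unusedSectionVars false

noncomputable section

namespace Fermat.Agent.S26

section KeyVal

variable {F Γ k' : Type*} [Field F] [Field Γ] [CommRing k'] [Nontrivial k']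

/-- (EVAL) gives `W₁ ∩ Γ ⊆ W₂ ∩ Γ`. -/
theorem s26espb_comap_le (j : Γ →+* F) (W₁ W₂ : ValuationSubring F)
    (hEVAL : ∀ u : Γ, j u ∈ W₁ → j u ∈ W₂) : W₁.comap j ≤ W₂.comap j := fun u hu => hEVAL u hu

/-- **(B1) KEY-val.**  `W₁ ∩ Γ = W₂ ∩ Γ` if the residue maps agree on `W₁ ∩ Γ`. -/
theorem s26espb_comap_eq (j : Γ →+* F) (W₁ W₂ : ValuationSubring F)
    (ρ₁ : ↥W₁ →+* k') (ρ₂ : ↥W₂ →+* k')
    (hker₁ : ∀ x : ↥W₁, (x : F) ∈ W₁.nonunits → ρ₁ x = 0)
    (hEVAL : ∀ (u : Γ) (h : j u ∈ W₁), ∃ h₂ : j u ∈ W₂, ρ₂ ⟨j u, h₂⟩ = ρ₁ ⟨j u, h⟩) :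
    W₁.comap j = W₂.comap j := by
  apply le_antisymm
  · exact fun u hu => (hEVAL u hu).1
  · intro u hu
    rw [ValuationSubring.mem_comap] at hu ⊢
    by_contra hu₁
    -- `u⁻¹ ∈ 𝔪(W₁)`
    have hu0 : j u ≠ 0 := fun h => hu₁ (h ▸ W₁.zero_mem)
    have hinv₁ : j u⁻¹ ∈ W₁ := by
      rw [map_inv₀]
      exact (W₁.mem_or_inv_mem (j u)).resolve_left hu₁
    have hnu₁ : j u⁻¹ ∈ W₁.nonunits := by
      rw [ValuationSubring.mem_nonunits_iff, map_inv₀, map_inv₀]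
      have h1 : 1 < W₁.valuation (j u) := by
        rw [← not_le, W₁.valuation_le_one_iff]
        exact hu₁
      exact inv_lt_one_of_one_lt₀ h1
    obtain ⟨hinv₂, hρ⟩ := hEVAL u⁻¹ hinv₁
    rw [hker₁ ⟨j u⁻¹, hinv₁⟩ hnu₁] at hρ
    -- but `u⁻¹` is a unit of `W₂`
    have h1 : (⟨j u⁻¹, hinv₂⟩ : ↥W₂) * ⟨j u, hu⟩ = 1 := by
      apply Subtype.ext
      show j u⁻¹ * j u = 1
      rw [map_inv₀, inv_mul_cancel₀ hu0]
    have h2 : ρ₂ ⟨j u⁻¹, hinv₂⟩ * ρ₂ ⟨j u, hu⟩ = 1 := by rw [← map_mul, h1, map_one]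
    rw [hρ, zero_mul] at h2
    exact zero_ne_one h2

/-- (B1) KEY-val with `IsLocalHom ρ₁`, `k′` a field. -/
theorem s26espb_comap_eq' {k'' : Type*} [Field k''] (j : Γ →+* F) (W₁ W₂ : ValuationSubring F)
    (ρ₁ : ↥W₁ →+* k'') (ρ₂ : ↥W₂ →+* k'') [IsLocalHom ρ₁]
    (hEVAL : ∀ (u : Γ) (h : j u ∈ W₁), ∃ h₂ : j u ∈ W₂, ρ₂ ⟨j u, h₂⟩ = ρ₁ ⟨j u, h⟩) :
    W₁.comap j = W₂.comap j := by
  refine s26espb_comap_eq j W₁ W₂ ρ₁ ρ₂ (fun x hx => ?_) hEVAL
  by_contra h0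
  have hu : IsUnit (ρ₁ x) := isUnit_iff_ne_zero.mpr h0
  have hx' : IsUnit x := isUnit_of_map_unit ρ₁ x hu
  have hv : W₁.valuation (x : F) = 1 := (W₁.valuation_eq_one_iff x).mp hx'
  rw [ValuationSubring.mem_nonunits_iff, hv] at hx
  exact lt_irrefl _ hx

/-- the residue maps agree on `W₁ ∩ Γ = W₂ ∩ Γ` (restatement of (EVAL) on the common ring) -/
theorem s26espb_res_eq (j : Γ →+* F) (W₁ W₂ : ValuationSubring F)
    (ρ₁ : ↥W₁ →+* k') (ρ₂ : ↥W₂ →+* k')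
    (hEVAL : ∀ (u : Γ) (h : j u ∈ W₁), ∃ h₂ : j u ∈ W₂, ρ₂ ⟨j u, h₂⟩ = ρ₁ ⟨j u, h⟩)
    (u : Γ) (h₁ : j u ∈ W₁) (h₂ : j u ∈ W₂) : ρ₂ ⟨j u, h₂⟩ = ρ₁ ⟨j u, h₁⟩ :=
  (hEVAL u h₁).2

end KeyVal

section Comp

variable {F κ : Type*} [Field F] [Field κ]

/-- `x : W` is a unit iff it is not in `W.nonunits` -/
theorem s26espb_isUnit_iff_notMem (W : ValuationSubring F) (x : ↥W) :
    IsUnit x ↔ (x : F) ∉ W.nonunits := by
  rw [W.valuation_eq_one_iff, ValuationSubring.mem_nonunits_iff, not_lt]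
  constructor
  · intro h
    exact h.ge
  · intro h
    exact le_antisymm ((W.valuation_le_one_iff _).mpr x.2) h

/-- a unit of `V` has invertible image -/
theorem s26espb_map_inv (V : ValuationSubring F) (res : ↥V →+* κ) {x : F} (hx : x ∈ V)
    (hxi : x⁻¹ ∈ V) (hx0 : x ≠ 0) : res ⟨x⁻¹, hxi⟩ = (res ⟨x, hx⟩)⁻¹ := by
  have h1 : (⟨x, hx⟩ : ↥V) * ⟨x⁻¹, hxi⟩ = 1 := Subtype.ext (mul_inv_cancel₀ hx0)
  have h2 : res ⟨x, hx⟩ * res ⟨x⁻¹, hxi⟩ = 1 := by rw [← map_mul, h1, map_one]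
  exact eq_inv_of_mul_eq_one_right h2

/-- an element of `V` with nonzero residue is a unit of `V` -/
theorem s26espb_inv_mem (V : ValuationSubring F) (res : ↥V →+* κ)
    (hker : ∀ x : ↥V, (x : F) ∈ V.nonunits → res x = 0) {x : F} (hx : x ∈ V)
    (hρ : res ⟨x, hx⟩ ≠ 0) : x⁻¹ ∈ V := by
  have hnu : x ∉ V.nonunits := fun h => hρ (hker ⟨x, hx⟩ h)
  rw [ValuationSubring.mem_nonunits_iff, not_lt] at hnu
  rw [← V.valuation_le_one_iff, map_inv₀]
  exact inv_le_one_of_one_le₀ hnu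

/-- **The composite valuation subring** `{x ∈ V | res x ∈ V̄}`. -/
def s26espbComp (V : ValuationSubring F) (res : ↥V →+* κ) (Vb : ValuationSubring κ)
    (hker : ∀ x : ↥V, (x : F) ∈ V.nonunits → res x = 0) : ValuationSubring F where
  carrier := {x | ∃ hx : x ∈ V, res ⟨x, hx⟩ ∈ Vb}
  mul_mem' := by
    rintro x y ⟨hx, hx'⟩ ⟨hy, hy'⟩
    refine ⟨V.mul_mem _ _ hx hy, ?_⟩
    have e : (⟨x * y, V.mul_mem _ _ hx hy⟩ : ↥V) = ⟨x, hx⟩ * ⟨y, hy⟩ := rfl
    rw [e, map_mul]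
    exact Vb.mul_mem _ _ hx' hy'
  one_mem' := by
    refine ⟨V.one_mem, ?_⟩
    have e : (⟨1, V.one_mem⟩ : ↥V) = 1 := rfl
    rw [e, map_one]
    exact Vb.one_mem
  add_mem' := by
    rintro x y ⟨hx, hx'⟩ ⟨hy, hy'⟩
    refine ⟨V.add_mem _ _ hx hy, ?_⟩
    have e : (⟨x + y, V.add_mem _ _ hx hy⟩ : ↥V) = ⟨x, hx⟩ + ⟨y, hy⟩ := rfl
    rw [e, map_add]
    exact Vb.add_mem _ _ hx' hy'
  zero_mem' := by
    refine ⟨V.zero_mem, ?_⟩
    have e : (⟨0, V.zero_mem⟩ : ↥V) = 0 := rfl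
    rw [e, map_zero]
    exact Vb.zero_mem
  neg_mem' := by
    rintro x ⟨hx, hx'⟩
    refine ⟨V.neg_mem _ hx, ?_⟩
    have e : (⟨-x, V.neg_mem _ hx⟩ : ↥V) = -⟨x, hx⟩ := rfl
    rw [e, map_neg]
    exact Vb.neg_mem _ hx'
  mem_or_inv_mem' := by
    intro x
    rcases eq_or_ne x 0 with rfl | hx0
    · left
      refine ⟨V.zero_mem, ?_⟩
      have e : (⟨0, V.zero_mem⟩ : ↥V) = 0 := rfl
      rw [e, map_zero]
      exact Vb.zero_mem
    have key : ∀ z : F, z ≠ 0 → z ∈ V →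
        (∃ hz : z ∈ V, res ⟨z, hz⟩ ∈ Vb) ∨ (∃ hz : z⁻¹ ∈ V, res ⟨z⁻¹, hz⟩ ∈ Vb) := by
      intro z hz0 hz
      by_cases hρ : res ⟨z, hz⟩ ∈ Vb
      · exact Or.inl ⟨hz, hρ⟩
      · have hρ0 : res ⟨z, hz⟩ ≠ 0 := fun h => hρ (h ▸ Vb.zero_mem)
        have hzi : z⁻¹ ∈ V := s26espb_inv_mem V res hker hz hρ0
        refine Or.inr ⟨hzi, ?_⟩
        rw [s26espb_map_inv V res hz hzi hz0]
        exact (Vb.mem_or_inv_mem _).resolve_left hρ
    rcases V.mem_or_inv_mem x with hx | hx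
    · exact key x hx0 hx
    · rcases key x⁻¹ (inv_ne_zero hx0) hx with h | h
      · exact Or.inr h
      · rw [inv_inv] at h
        exact Or.inl h

variable {V : ValuationSubring F} {res : ↥V →+* κ} {Vb : ValuationSubring κ}
  {hker : ∀ x : ↥V, (x : F) ∈ V.nonunits → res x = 0}

theorem s26espb_mem_comp {x : F} :
    x ∈ s26espbComp V res Vb hker ↔ ∃ hx : x ∈ V, res ⟨x, hx⟩ ∈ Vb := Iff.rfl

/-- `comp ≤ V` -/
theorem s26espb_comp_le : s26espbComp V res Vb hker ≤ V := fun _ hx => hx.1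

variable (V res Vb hker)

/-- the inclusion `comp → V` -/
def s26espbCompIncl : ↥(s26espbComp V res Vb hker) →+* ↥V :=
  Subring.inclusion (S := (s26espbComp V res Vb hker).toSubring) (T := V.toSubring)
    (fun _ hx => hx.1)

@[simp]
theorem s26espbCompIncl_coe (x : ↥(s26espbComp V res Vb hker)) :
    ((s26espbCompIncl V res Vb hker x : ↥V) : F) = (x : F) := rfl

/-- the residue map `comp → V̄` induced by `res` -/
def s26espbCompRes : ↥(s26espbComp V res Vb hker) →+* ↥Vb :=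
  (res.comp (s26espbCompIncl V res Vb hker)).codRestrict Vb.toSubring (fun x => x.2.2)

@[simp]
theorem s26espb_compRes_coe (x : ↥(s26espbComp V res Vb hker)) :
    ((s26espbCompRes V res Vb hker x : ↥Vb) : κ) = res ⟨(x : F), x.2.1⟩ := rfl

/-- `comp → V̄` is surjective if `res` is -/
theorem s26espb_compRes_surjective (hsurj : Function.Surjective res) :
    Function.Surjective (s26espbCompRes V res Vb hker) := by
  intro y
  obtain ⟨x, hx⟩ := hsurj (y : κ)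
  have hmem : (x : F) ∈ s26espbComp V res Vb hker := ⟨x.2, by
    have e : (⟨(x : F), x.2⟩ : ↥V) = x := rfl
    rw [e, hx]
    exact y.2⟩
  refine ⟨⟨(x : F), hmem⟩, Subtype.ext ?_⟩
  rw [s26espb_compRes_coe]
  exact hx

variable {V res Vb hker}

/-- the units of the composite: `x ∈ V^×` with `res x ∈ V̄^×` -/
theorem s26espb_comp_inv_mem_iff {x : F} (hx0 : x ≠ 0)
    (hx : x ∈ s26espbComp V res Vb hker) :
    x⁻¹ ∈ s26espbComp V res Vb hker ↔ (res ⟨x, hx.1⟩)⁻¹ ∈ Vb ∧ res ⟨x, hx.1⟩ ≠ 0 := by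
  constructor
  · rintro ⟨hxi, hxi'⟩
    rw [s26espb_map_inv V res hx.1 hxi hx0] at hxi'
    refine ⟨hxi', fun h0 => ?_⟩
    have h1 : (⟨x, hx.1⟩ : ↥V) * ⟨x⁻¹, hxi⟩ = 1 := Subtype.ext (mul_inv_cancel₀ hx0)
    have h2 : res ⟨x, hx.1⟩ * res ⟨x⁻¹, hxi⟩ = 1 := by rw [← map_mul, h1, map_one]
    rw [h0, zero_mul] at h2
    exact zero_ne_one h2
  · rintro ⟨h1, h0⟩
    have hxi : x⁻¹ ∈ V := s26espb_inv_mem V res hker hx.1 h0
    refine ⟨hxi, ?_⟩
    rw [s26espb_map_inv V res hx.1 hxi hx0]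
    exact h1

/-- the non-units of the composite: `res x` is a non-unit of `V̄` -/
theorem s26espb_comp_mem_nonunits_iff {x : F} (hx : x ∈ s26espbComp V res Vb hker) :
    x ∈ (s26espbComp V res Vb hker).nonunits ↔ res ⟨x, hx.1⟩ ∈ Vb.nonunits := by
  rcases eq_or_ne x 0 with rfl | hx0
  · have e : (⟨0, hx.1⟩ : ↥V) = 0 := rfl
    rw [e, map_zero]
    simp only [ValuationSubring.mem_nonunits_iff, map_zero, zero_lt_one]
  have hnu : ∀ (W : ValuationSubring F) (z : F), z ≠ 0 → z ∈ W → (z ∈ W.nonunits ↔ z⁻¹ ∉ W) := by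
    intro W z hz0 _
    rw [ValuationSubring.mem_nonunits_iff, ← W.valuation_le_one_iff, map_inv₀, not_le]
    have h0 : W.valuation z ≠ 0 := (Valuation.ne_zero_iff _).mpr hz0
    rw [one_lt_inv₀ (zero_lt_iff.mpr h0)]
  have hnu' : ∀ (W : ValuationSubring κ) (z : κ), z ≠ 0 → (z ∈ W.nonunits ↔ z⁻¹ ∉ W) := by
    intro W z hz0
    rw [ValuationSubring.mem_nonunits_iff, ← W.valuation_le_one_iff, map_inv₀, not_le]
    have h0 : W.valuation z ≠ 0 := (Valuation.ne_zero_iff _).mpr hz0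
    rw [one_lt_inv₀ (zero_lt_iff.mpr h0)]
  rw [hnu _ x hx0 hx, s26espb_comp_inv_mem_iff hx0 hx]
  by_cases h0 : res ⟨x, hx.1⟩ = 0
  · rw [h0]
    simp only [ne_eq, not_true_eq_false, and_false, not_false_eq_true,
      ValuationSubring.mem_nonunits_iff, map_zero, zero_lt_one]
  · rw [hnu' Vb _ h0]
    simp only [ne_eq, h0, not_false_eq_true, and_true]

/-- `x : comp` is a unit iff its residue in `V̄` is a unit -/
theorem s26espb_comp_isUnit_iff (x : ↥(s26espbComp V res Vb hker)) :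
    IsUnit x ↔ IsUnit (s26espbCompRes V res Vb hker x) := by
  have h1 : IsUnit x ↔ (x : F) ∉ (s26espbComp V res Vb hker).nonunits :=
    s26espb_isUnit_iff_notMem _ x
  have h2 : IsUnit (s26espbCompRes V res Vb hker x) ↔
      ((s26espbCompRes V res Vb hker x : ↥Vb) : κ) ∉ Vb.nonunits :=
    s26espb_isUnit_iff_notMem _ _
  rw [h1, h2, s26espb_comp_mem_nonunits_iff x.2, s26espb_compRes_coe]

variable (V res Vb hker)

/-- `comp → V̄` is a local homomorphism -/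
theorem s26espb_compRes_isLocalHom : IsLocalHom (s26espbCompRes V res Vb hker) :=
  ⟨fun x hx => (s26espb_comp_isUnit_iff x).mpr hx⟩

/-- the residue map of the composite, into the residue field of `V̄` -/
def s26espbCompResidue :
    ↥(s26espbComp V res Vb hker) →+* IsLocalRing.ResidueField ↥Vb :=
  (IsLocalRing.residue ↥Vb).comp (s26espbCompRes V res Vb hker)

theorem s26espb_compResidue_apply (x : ↥(s26espbComp V res Vb hker)) :
    s26espbCompResidue V res Vb hker x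
      = IsLocalRing.residue ↥Vb (s26espbCompRes V res Vb hker x) := rfl

/-- `comp → κ(V̄)` is a local homomorphism: its kernel is the maximal ideal of `comp` -/
theorem s26espb_compResidue_isLocalHom : IsLocalHom (s26espbCompResidue V res Vb hker) := by
  refine ⟨fun x hx => ?_⟩
  rw [s26espb_compResidue_apply] at hx
  have h1 : IsUnit (s26espbCompRes V res Vb hker x) :=
    isUnit_of_map_unit (IsLocalRing.residue ↥Vb) _ hx
  exact (s26espb_comp_isUnit_iff x).mpr h1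

theorem s26espb_compResidue_eq_zero_iff (x : ↥(s26espbComp V res Vb hker)) :
    s26espbCompResidue V res Vb hker x = 0 ↔ (x : F) ∈ (s26espbComp V res Vb hker).nonunits := by
  rw [s26espb_compResidue_apply, IsLocalRing.residue_eq_zero_iff, IsLocalRing.mem_maximalIdeal,
    mem_nonunits_iff, ← s26espb_comp_isUnit_iff, s26espb_isUnit_iff_notMem, not_not]

theorem s26espb_compResidue_surjective (hsurj : Function.Surjective res) :
    Function.Surjective (s26espbCompResidue V res Vb hker) :=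
  (IsLocalRing.residue_surjective).comp (s26espb_compRes_surjective V res Vb hker hsurj)

end Comp

end Fermat.Agent.S26
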