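/-
S26-E, hub TI, leaf **TI-NORM** (helper11): normalisation of the function `G` of (c) along the
section `γ₀`.  Part 1: valuation theory (Mathlib + the prelude `Place`).

Setting: `F / L` fields, `P₀ : Place L F` (the Gauss place over `γ₀`) with residue field `L`
(`hres`), `G ≠ 0` with `ord_{P₀} G = 0`.

* (N1) `s26etin_exists_const` : `∃ c : L, c ≠ 0 ∧ G / c − 1 ∈ 𝔪_{P₀}`;
* (N2) `s26etin_val_const`, `s26etin_val_div_const` : `W.valuation (G / c) = W.valuation G` for
  every valuation subring `W ⊇ L` (so (hHOR) survives the normalisation);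
* (N3) `s26etin_one_add_mem`, `s26etin_val_eq_one`, `s26etin_ev_eq_one` : for valuation subrings
  `W₀ ≤ V` (a composite): `G′ − 1 ∈ 𝔪_V ⇒ G′ ∈ W₀ˣ`, `W₀.valuation G′ = 1`, `ev G′ = 1` for every
  ring homomorphism `ev` on `W₀` killing `𝔪_V`;  `s26etin_comp_*` : the instance
  `W₀ = s26espbComp V res V̄ hker`, `ev = s26espbCompRes` (helper52, `S26/ESpecB1.lean`);
* `s26etin_normalise` : (N1) + (N2) + (N3) in one statement.
-/
import Fermat.Agent.S26.ERPl
import Fermat.Agent.S26.ESpecB1

set_option autoImplicit false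
set_option linter.style.haveILetI false
set_option linter.unusedSectionVars false
set_option linter.unusedVariables false

noncomputable section

open AlgebraicCurve

namespace Fermat.Agent.S26

section Const

variable {L F : Type*} [Field L] [Field F] [Algebra L F]

/-- a nonzero constant is a unit of every valuation subring containing the constants -/
theorem s26etin_val_const (W : ValuationSubring F) (hW : ∀ l : L, algebraMap L F l ∈ W)
    {c : L} (hc : c ≠ 0) : W.valuation (algebraMap L F c) = 1 := by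
  have h1 : W.valuation (algebraMap L F c) ≤ 1 := (W.valuation_le_one_iff _).mpr (hW c)
  have h2 : W.valuation (algebraMap L F c⁻¹) ≤ 1 := (W.valuation_le_one_iff _).mpr (hW c⁻¹)
  rw [map_inv₀, map_inv₀] at h2
  have h0 : W.valuation (algebraMap L F c) ≠ 0 :=
    (Valuation.ne_zero_iff _).mpr ((map_ne_zero _).mpr hc)
  exact le_antisymm h1 ((inv_le_one₀ (zero_lt_iff.mpr h0)).mp h2)

/-- **(N2)** dividing by a nonzero constant does not change the value at a valuation subring
containing the constants. -/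
theorem s26etin_val_div_const (W : ValuationSubring F) (hW : ∀ l : L, algebraMap L F l ∈ W)
    (G : F) {c : L} (hc : c ≠ 0) :
    W.valuation (G / algebraMap L F c) = W.valuation G := by
  rw [map_div₀, s26etin_val_const W hW hc, div_one]

/-- **(N1)** a function with `ord_{P₀} G = 0` at a place with residue field `L` is congruent to a
nonzero constant: `G / c ≡ 1` modulo `𝔪_{P₀}`. -/
theorem s26etin_exists_const (P₀ : Place L F)
    (hres : ∀ x ∈ P₀.toValuationSubring, ∃ c : L,
      x - algebraMap L F c ∈ P₀.toValuationSubring.nonunits)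
    {G : F} (hG : G ≠ 0) (hord : P₀.ord G = 0) :
    ∃ c : L, c ≠ 0 ∧ G / algebraMap L F c - 1 ∈ P₀.toValuationSubring.nonunits := by
  have hv : P₀.toValuationSubring.valuation G = 1 := (s26erp_ord_eq_zero_iff P₀ hG).mp hord
  have hmem : G ∈ P₀.toValuationSubring :=
    (P₀.toValuationSubring.valuation_le_one_iff G).mp hv.le
  obtain ⟨c, hc⟩ := hres G hmem
  have hc0 : c ≠ 0 := by
    rintro rfl
    rw [map_zero, sub_zero, ValuationSubring.mem_nonunits_iff, hv] at hc
    exact lt_irrefl _ hc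
  refine ⟨c, hc0, ?_⟩
  have hc0' : algebraMap L F c ≠ 0 := (map_ne_zero _).mpr hc0
  have e : G / algebraMap L F c - 1 = (G - algebraMap L F c) / algebraMap L F c := by
    rw [sub_div, div_self hc0']
  rw [e, ValuationSubring.mem_nonunits_iff, map_div₀,
    s26etin_val_const _ P₀.algebraMap_mem' hc0, div_one]
  rwa [ValuationSubring.mem_nonunits_iff] at hc

end Const

section Comp

variable {F : Type*} [Field F]

/-- **(N3)** `1 + 𝔪_V ⊆ W₀ˣ` for valuation subrings `W₀ ≤ V`. -/
theorem s26etin_val_eq_one (V W₀ : ValuationSubring F) (hle : W₀ ≤ V) {x : F}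
    (hx : x - 1 ∈ V.nonunits) : W₀.valuation x = 1 := by
  have hx' : x - 1 ∈ W₀.nonunits := (ValuationSubring.nonunits_le_nonunits.mpr hle) hx
  rw [ValuationSubring.mem_nonunits_iff] at hx'
  have h := Valuation.map_one_add_of_lt (v := W₀.valuation) hx'
  rwa [add_sub_cancel] at h

theorem s26etin_one_add_mem (V W₀ : ValuationSubring F) (hle : W₀ ≤ V) {x : F}
    (hx : x - 1 ∈ V.nonunits) : x ∈ W₀ ∧ x⁻¹ ∈ W₀ := by
  have h1 := s26etin_val_eq_one V W₀ hle hx
  refine ⟨(W₀.valuation_le_one_iff x).mp h1.le, (W₀.valuation_le_one_iff _).mp ?_⟩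
  rw [map_inv₀, h1, inv_one]

theorem s26etin_isUnit (V W₀ : ValuationSubring F) (hle : W₀ ≤ V) {x : F}
    (hx : x - 1 ∈ V.nonunits) :
    IsUnit (⟨x, (s26etin_one_add_mem V W₀ hle hx).1⟩ : ↥W₀) :=
  (W₀.valuation_eq_one_iff _).mpr (s26etin_val_eq_one V W₀ hle hx)

/-- the elements of `𝔪_V` lie in `W₀` -/
theorem s26etin_nonunits_mem (V W₀ : ValuationSubring F) (hle : W₀ ≤ V) {x : F}
    (hx : x ∈ V.nonunits) : x ∈ W₀ := by
  have hx' : x ∈ W₀.nonunits := (ValuationSubring.nonunits_le_nonunits.mpr hle) hx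
  rw [ValuationSubring.mem_nonunits_iff] at hx'
  exact (W₀.valuation_le_one_iff x).mp hx'.le

/-- **(N3)** `ev G′ = 1` for every ring homomorphism on `W₀` killing `𝔪_V`. -/
theorem s26etin_ev_eq_one (V W₀ : ValuationSubring F) (hle : W₀ ≤ V) {R : Type*} [Semiring R]
    (ev : ↥W₀ →+* R) (hev : ∀ x : ↥W₀, (x : F) ∈ V.nonunits → ev x = 0) {x : F}
    (hx : x - 1 ∈ V.nonunits) (hmem : x ∈ W₀) : ev ⟨x, hmem⟩ = 1 := by
  have e : (⟨x, hmem⟩ : ↥W₀) = 1 + ⟨x - 1, s26etin_nonunits_mem V W₀ hle hx⟩ := by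
    apply Subtype.ext
    show x = 1 + (x - 1)
    rw [add_sub_cancel]
  rw [e, map_add, map_one, hev _ hx, add_zero]

variable {κ : Type*} [Field κ]

/-- **(N3) at the composite** `W₀ = {x ∈ V | res x ∈ V̄}`: `G′ ≡ 1` mod `𝔪_V` is a unit of `W₀` of
value `1` with `ev G′ = 1`. -/
theorem s26etin_comp (V : ValuationSubring F) (res : ↥V →+* κ) (Vb : ValuationSubring κ)
    (hker : ∀ x : ↥V, (x : F) ∈ V.nonunits → res x = 0) {x : F} (hx : x - 1 ∈ V.nonunits) :
    ∃ hmem : x ∈ s26espbComp V res Vb hker,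
      IsUnit (⟨x, hmem⟩ : ↥(s26espbComp V res Vb hker)) ∧
      (s26espbComp V res Vb hker).valuation x = 1 ∧
      s26espbCompRes V res Vb hker ⟨x, hmem⟩ = 1 := by
  have hle : s26espbComp V res Vb hker ≤ V := s26espb_comp_le
  refine ⟨(s26etin_one_add_mem V _ hle hx).1, s26etin_isUnit V _ hle hx,
    s26etin_val_eq_one V _ hle hx, ?_⟩
  refine s26etin_ev_eq_one V _ hle (s26espbCompRes V res Vb hker) (fun y hy => ?_) hx _
  apply Subtype.ext
  rw [s26espb_compRes_coe]
  exact hker _ hy

end Comp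

section Main

variable {L F : Type*} [Field L] [Field F] [Algebra L F]

/-- **TI-NORM, (N1) + (N2) + (N3).**  `P₀` a place of `F / L` with residue field `L`, `G ≠ 0`
with `ord_{P₀} G = 0`.  There is a constant `c ≠ 0` such that `G′ = G / c` has the values of `G` at
all valuation subrings containing `L`, and is a unit of value `1` of every valuation subring
`W₀ ≤ O_{P₀}`, with `ev G′ = 1` for every ring homomorphism `ev` on `W₀` killing `𝔪_{P₀}`. -/
theorem s26etin_normalise (P₀ : Place L F)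
    (hres : ∀ x ∈ P₀.toValuationSubring, ∃ c : L,
      x - algebraMap L F c ∈ P₀.toValuationSubring.nonunits)
    {G : F} (hG : G ≠ 0) (hord : P₀.ord G = 0) :
    ∃ c : L, c ≠ 0 ∧ G / algebraMap L F c ≠ 0 ∧
      G / algebraMap L F c - 1 ∈ P₀.toValuationSubring.nonunits ∧
      (∀ W : ValuationSubring F, (∀ l : L, algebraMap L F l ∈ W) →
        W.valuation (G / algebraMap L F c) = W.valuation G) ∧
      ∀ W₀ : ValuationSubring F, W₀ ≤ P₀.toValuationSubring →
        W₀.valuation (G / algebraMap L F c) = 1 ∧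
        ∃ hmem : G / algebraMap L F c ∈ W₀,
          IsUnit (⟨G / algebraMap L F c, hmem⟩ : ↥W₀) ∧
          ∀ {R : Type*} [Semiring R] (ev : ↥W₀ →+* R),
            (∀ x : ↥W₀, (x : F) ∈ P₀.toValuationSubring.nonunits → ev x = 0) →
            ev ⟨G / algebraMap L F c, hmem⟩ = 1 := by
  obtain ⟨c, hc0, hc⟩ := s26etin_exists_const P₀ hres hG hord
  refine ⟨c, hc0, div_ne_zero hG ((map_ne_zero _).mpr hc0), hc,
    fun W hW => s26etin_val_div_const W hW G hc0, fun W₀ hle => ?_⟩
  refine ⟨s26etin_val_eq_one _ W₀ hle hc, (s26etin_one_add_mem _ W₀ hle hc).1,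
    s26etin_isUnit _ W₀ hle hc, fun ev hev => ?_⟩
  exact s26etin_ev_eq_one _ W₀ hle ev hev hc _

end Main

end Fermat.Agent.S26
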