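/-
S26-E, hub TI, leaf **TI-NORM** (helper11), part 2: **(N4)** the divisor `Δ` of (c) vanishes at the
Gauss place `P₀` over `γ₀`.

`ν ∈ A(Γ)` with `sp_{γ₀} ν = 0`, `a ∈ A(L)` a constant point with `|a| ∈ U`, `W` a valuation
subring of `F ⊇ Γ, L` over `K`, containing `L` and dominating `γ₀`.  Then

* `s26etin_centre_mul_of_sp_one` : `sp_V P = 0 ⇒ c_V(P + Q) = c_V(Q)`;
* `s26etin_sp_map_one`           : `sp_V P = 0 ⇒ sp_{V'} (ι P) = 0` if `V'` dominates `V`;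
* `s26etin_centre_const`         : the centre of a constant point `ι a`, `a ∈ A(L)`, `L ⊆ V` a
  field, is `|a|`;
* `s26etin_centre`               : **the centre of `ν + a` along `W` is `|a|`**;
* `s26etin_val_gen`              : `W.valuation (s26eGen f U (ν + a) W) = 1` if `|a| ∈ U`;
* `s26etin_val_sq`               : `W.valuation (s26eSq f G U (ν + b) y z W) = 1`
  (`b, y, z ∈ A(L)`, the four points `b + y + z`, `b`, `b + y`, `b + z` in `U`);
* `s26etin_ord_gen`, **`s26etin_ord_sq`** : the same as `P₀.ord … = 0` at a place `P₀` of `F / L`.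
-/
import Fermat.Agent.S26.PlanE2
import Fermat.Agent.S26.EMRel
import Fermat.Agent.S26.EPTFun
import Fermat.Agent.S26.ETiNorm

set_option autoImplicit false
set_option linter.style.haveILetI false
set_option linter.unusedSectionVars false
set_option linter.unusedVariables false

noncomputable section

namespace Fermat.Agent.S26

open CategoryTheory CategoryTheory.Limits AlgebraicGeometry NeronModelInfra GoodReductionJacobian
open AlgebraicCurve

universe u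

variable {K : Type u} [Field K] {A : Scheme.{u}} (f : A ⟶ Spec (CommRingCat.of K))

section Centre

variable (Ω : Type u) [Field Ω] [Algebra K Ω]
  (V : Type u) [CommRing V] [IsDomain V] [ValuationRing V] [Algebra V Ω] [IsFractionRing V Ω]
  [Algebra K V] [IsScalarTower K V Ω]
  (G : RelativeGroupLaw K f) [IsProper f]

/-- the centre of `P + Q` is the centre of `Q` if `P` specialises to `0` -/
theorem s26etin_centre_mul_of_sp_one (P Q : s26eptPts f Ω) (hP : s26eptSp f Ω V P = G.one _) :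
    s26eptCentre f Ω V (G.mul _ P Q) = s26eptCentre f Ω V Q := by
  rw [← s26eptPt_sp, ← s26eptPt_sp, s26eptSp_mul f Ω V G, hP, G.one_mul]

variable {Ω V}

/-- `sp_V P = 0 ⇒ sp_{V'} (ι P) = 0` if `V'` dominates `V` -/
theorem s26etin_sp_map_one {Ω' : Type u} [Field Ω'] [Algebra K Ω']
    {V' : Type u} [CommRing V'] [IsDomain V'] [ValuationRing V'] [Algebra V' Ω']
    [IsFractionRing V' Ω'] [Algebra K V'] [IsScalarTower K V' Ω']
    (ι : Ω →ₐ[K] Ω') (j : V →ₐ[K] V') [IsLocalHom j]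
    (hj : ∀ x : V, algebraMap V' Ω' (j x) = ι (algebraMap V Ω x)) (P : s26eptPts f Ω)
    (hP : s26eptSp f Ω V P = G.one _) : s26eptSp f Ω' V' (s26eptMap f ι P) = G.one _ := by
  rw [s26eptSp_funct f ι j hj P, hP, s26eptMap_one]

/-- a ring homomorphism from a field to a nontrivial ring is local -/
theorem s26etin_isLocalHom_of_field {L R : Type*} [Field L] [CommRing R] [Nontrivial R]
    (j : L →+* R) : IsLocalHom j := by
  refine ⟨fun x hx => ?_⟩
  rcases eq_or_ne x 0 with rfl | h0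
  · rw [map_zero] at hx
    exact absurd hx not_isUnit_zero
  · exact isUnit_iff_ne_zero.mpr h0

/-- the centre of a constant point `ι a`, `a ∈ A(L)`, `L ⊆ V` a field, is `|a|` -/
theorem s26etin_centre_const {L : Type u} [Field L] [Algebra K L] (ι : L →ₐ[K] Ω)
    (j : L →ₐ[K] V) (hj : ∀ x : L, algebraMap V Ω (j x) = ι x) (a : s26eptPts f L) :
    s26eptCentre f Ω V (s26eptMap f ι a) = s26eptPt f a := by
  have h1 : s26eptLift f Ω V (s26eptMap f ι a) = s26eptMap f j a := by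
    rw [s26eptLift_eq_iff, ← s26eptMap_comp]
    congr 1
    ext x
    exact hj x
  unfold s26eptCentre
  rw [h1]
  haveI : IsLocalHom ((j : L →ₐ[K] V) : L →+* V) := s26etin_isLocalHom_of_field _
  exact s26eptPt_map f j a

end Centre

section Main

variable {Γ L F : Type u} [Field Γ] [Field L] [Field F] [Algebra K Γ] [Algebra K L]
  [Algebra K F] (G : RelativeGroupLaw K f) [IsProper f]

/-- the homomorphism `γ₀ → W` induced by `ιΓ` -/
def s26etinJ (ιΓ : Γ →ₐ[K] F) (γ₀ : ValuationSubring Γ) (hγ₀ : S26erOver K γ₀)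
    (W : ValuationSubring F) (hW : S26erOver K W) (hWΓ : ∀ x : Γ, x ∈ γ₀ → ιΓ x ∈ W) :
    letI := s26eAlgV γ₀ hγ₀
    letI := s26eAlgV W hW
    ↥γ₀ →ₐ[K] ↥W :=
  letI := s26eAlgV γ₀ hγ₀
  letI := s26eAlgV W hW
  { toFun := fun x => ⟨ιΓ x.1, hWΓ x.1 x.2⟩
    map_one' := Subtype.ext (map_one ιΓ)
    map_mul' := fun x y => Subtype.ext (map_mul ιΓ x.1 y.1)
    map_zero' := Subtype.ext (map_zero ιΓ)
    map_add' := fun x y => Subtype.ext (map_add ιΓ x.1 y.1)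
    commutes' := fun c => Subtype.ext (ιΓ.commutes c) }

/-- the homomorphism `L → W` induced by `ιL` -/
def s26etinJL (ιL : L →ₐ[K] F) (W : ValuationSubring F) (hW : S26erOver K W)
    (hWL : ∀ l : L, ιL l ∈ W) :
    letI := s26eAlgV W hW
    L →ₐ[K] ↥W :=
  letI := s26eAlgV W hW
  { toFun := fun x => ⟨ιL x, hWL x⟩
    map_one' := Subtype.ext (map_one ιL)
    map_mul' := fun x y => Subtype.ext (map_mul ιL x y)
    map_zero' := Subtype.ext (map_zero ιL)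
    map_add' := fun x y => Subtype.ext (map_add ιL x y)
    commutes' := fun c => Subtype.ext (ιL.commutes c) }

/-- **(N4), centre.**  The centre of `ν + a` along `W` is `|a|`. -/
theorem s26etin_centre (ιΓ : Γ →ₐ[K] F) (ιL : L →ₐ[K] F)
    (γ₀ : ValuationSubring Γ) (hγ₀ : S26erOver K γ₀)
    (W : ValuationSubring F) (hW : S26erOver K W) (hWL : ∀ l : L, ιL l ∈ W)
    (hWΓ : ∀ x : Γ, x ∈ γ₀ → ιΓ x ∈ W) (hWΓ' : ∀ x : Γ, x ∈ γ₀.nonunits → ιΓ x ∈ W.nonunits)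
    (ν : s26eptPts f Γ) (hν : S26eSpOneV f G ν γ₀ hγ₀) (a : s26eptPts f L) :
    letI := s26eAlgV W hW
    haveI := s26eAlgV_tower W hW
    s26eptCentre f F W (G.mul _ (s26eptMap f ιΓ ν) (s26eptMap f ιL a)) = s26eptPt f a := by
  letI := s26eAlgV γ₀ hγ₀
  haveI := s26eAlgV_tower γ₀ hγ₀
  letI := s26eAlgV W hW
  haveI := s26eAlgV_tower W hW
  haveI : IsLocalHom (s26etinJ ιΓ γ₀ hγ₀ W hW hWΓ) := by
    refine ⟨fun x hx => ?_⟩
    rw [s26espb_isUnit_iff_notMem] at hx ⊢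
    exact fun h => hx (hWΓ' _ h)
  have h1 : s26eptSp f F W (s26eptMap f ιΓ ν) = G.one _ :=
    s26etin_sp_map_one f G ιΓ (s26etinJ ιΓ γ₀ hγ₀ W hW hWΓ) (fun _ => rfl) ν hν
  rw [s26etin_centre_mul_of_sp_one f F W G _ _ h1]
  exact s26etin_centre_const f ιL (s26etinJL ιL W hW hWL) (fun _ => rfl) a

variable [IsIntegral A] [IsLocallyNoetherian A] {U : A.Opens}

/-- **(N4), generator.**  The generator of `ν + a` along `W` is a unit if `|a| ∈ U`. -/
theorem s26etin_val_gen (hD : S26emLocData U) (ιΓ : Γ →ₐ[K] F) (ιL : L →ₐ[K] F)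
    (γ₀ : ValuationSubring Γ) (hγ₀ : S26erOver K γ₀)
    (W : ValuationSubring F) (hW : S26erOver K W) (hWL : ∀ l : L, ιL l ∈ W)
    (hWΓ : ∀ x : Γ, x ∈ γ₀ → ιΓ x ∈ W) (hWΓ' : ∀ x : Γ, x ∈ γ₀.nonunits → ιΓ x ∈ W.nonunits)
    (ν : s26eptPts f Γ) (hν : S26eSpOneV f G ν γ₀ hγ₀) (a : s26eptPts f L)
    (hU : s26eptPt f a ∈ U) :
    W.valuation (s26eGen f U (G.mul _ (s26eptMap f ιΓ ν) (s26eptMap f ιL a)) W) = 1 := by
  rw [s26eGen_eq_emFam, s26emr_val_eq_one_iff f hD _ W hW,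
    s26etin_centre f G ιΓ ιL γ₀ hγ₀ W hW hWL hWΓ hWΓ' ν hν a]
  exact hU

/-- **(N4), square.**  `W.valuation (Sq(ν + b; y, z)) = 1` for constant points `b, y, z ∈ A(L)`
with `b + y + z`, `b`, `b + y`, `b + z` in `U`. -/
theorem s26etin_val_sq (hD : S26emLocData U) (ιΓ : Γ →ₐ[K] F) (ιL : L →ₐ[K] F)
    (γ₀ : ValuationSubring Γ) (hγ₀ : S26erOver K γ₀)
    (W : ValuationSubring F) (hW : S26erOver K W) (hWL : ∀ l : L, ιL l ∈ W)
    (hWΓ : ∀ x : Γ, x ∈ γ₀ → ιΓ x ∈ W) (hWΓ' : ∀ x : Γ, x ∈ γ₀.nonunits → ιΓ x ∈ W.nonunits)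
    (ν : s26eptPts f Γ) (hν : S26eSpOneV f G ν γ₀ hγ₀) (b y z : s26eptPts f L)
    (hU₀ : s26eptPt f b ∈ U) (hU₁ : s26eptPt f (G.mul _ b y) ∈ U)
    (hU₂ : s26eptPt f (G.mul _ b z) ∈ U) (hU₃ : s26eptPt f (G.mul _ (G.mul _ b y) z) ∈ U) :
    W.valuation (s26eSq f G U (G.mul _ (s26eptMap f ιΓ ν) (s26eptMap f ιL b))
      (s26eptMap f ιL y) (s26eptMap f ιL z) W) = 1 := by
  have key : ∀ a : s26eptPts f L, s26eptPt f a ∈ U →
      W.valuation (s26eGen f U (G.mul _ (s26eptMap f ιΓ ν) (s26eptMap f ιL a)) W) = 1 :=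
    fun a ha => s26etin_val_gen f G hD ιΓ ιL γ₀ hγ₀ W hW hWL hWΓ hWΓ' ν hν a ha
  have e₁ : G.mul _ (G.mul _ (s26eptMap f ιΓ ν) (s26eptMap f ιL b)) (s26eptMap f ιL y) =
      G.mul _ (s26eptMap f ιΓ ν) (s26eptMap f ιL (G.mul _ b y)) := by
    rw [G.mul_assoc, s26eptMap_mul]
  have e₂ : G.mul _ (G.mul _ (s26eptMap f ιΓ ν) (s26eptMap f ιL b)) (s26eptMap f ιL z) =
      G.mul _ (s26eptMap f ιΓ ν) (s26eptMap f ιL (G.mul _ b z)) := by
    rw [G.mul_assoc, s26eptMap_mul]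
  have e₃ : G.mul _ (G.mul _ (G.mul _ (s26eptMap f ιΓ ν) (s26eptMap f ιL b))
      (s26eptMap f ιL y)) (s26eptMap f ιL z) =
      G.mul _ (s26eptMap f ιΓ ν) (s26eptMap f ιL (G.mul _ (G.mul _ b y) z)) := by
    rw [G.mul_assoc, G.mul_assoc, s26eptMap_mul, s26eptMap_mul, G.mul_assoc]
  unfold s26eSq
  rw [e₃, e₁, e₂, map_div₀, map_mul, map_mul, key _ hU₃, key _ hU₀, key _ hU₁, key _ hU₂]
  simp

end Main

section AtPlace

variable {Γ L F : Type u} [Field Γ] [Field L] [Field F] [Algebra K Γ] [Algebra K L]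
  [Algebra K F] [Algebra L F] [IsScalarTower K L F] (G : RelativeGroupLaw K f) [IsProper f]
  [IsIntegral A] [IsLocallyNoetherian A] {U : A.Opens}

/-- a place of `F / L` is over `K` -/
theorem s26etin_over (P₀ : Place L F) : S26erOver K P₀.toValuationSubring := fun c => by
  rw [IsScalarTower.algebraMap_apply K L F]
  exact P₀.algebraMap_mem' _

/-- **(N4)** `ord_{P₀}` of the generator of `ν + a` is `0`. -/
theorem s26etin_ord_gen (hD : S26emLocData U) (ιΓ : Γ →ₐ[K] F)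
    (γ₀ : ValuationSubring Γ) (hγ₀ : S26erOver K γ₀) (P₀ : Place L F)
    (hWΓ : ∀ x : Γ, x ∈ γ₀ → ιΓ x ∈ P₀.toValuationSubring)
    (hWΓ' : ∀ x : Γ, x ∈ γ₀.nonunits → ιΓ x ∈ P₀.toValuationSubring.nonunits)
    (ν : s26eptPts f Γ) (hν : S26eSpOneV f G ν γ₀ hγ₀) (a : s26eptPts f L)
    (hU : s26eptPt f a ∈ U) :
    P₀.ord (s26eGen f U (G.mul _ (s26eptMap f ιΓ ν)
      (s26eptMap f (IsScalarTower.toAlgHom K L F) a)) P₀.toValuationSubring) = 0 := by
  have h := s26etin_val_gen f G hD ιΓ (IsScalarTower.toAlgHom K L F) γ₀ hγ₀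
    P₀.toValuationSubring (s26etin_over P₀) (fun l => P₀.algebraMap_mem' l) hWΓ hWΓ' ν hν a hU
  have h0 : s26eGen f U (G.mul _ (s26eptMap f ιΓ ν)
      (s26eptMap f (IsScalarTower.toAlgHom K L F) a)) P₀.toValuationSubring ≠ 0 := by
    intro h0
    rw [h0, map_zero] at h
    exact zero_ne_one h
  exact (s26erp_ord_eq_zero_iff P₀ h0).mpr h

/-- **(N4)** `ord_{P₀} Sq(ν + b; y, z) = 0`: the divisor `Δ` of (c) vanishes at `P₀`. -/
theorem s26etin_ord_sq (hD : S26emLocData U) (ιΓ : Γ →ₐ[K] F)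
    (γ₀ : ValuationSubring Γ) (hγ₀ : S26erOver K γ₀) (P₀ : Place L F)
    (hWΓ : ∀ x : Γ, x ∈ γ₀ → ιΓ x ∈ P₀.toValuationSubring)
    (hWΓ' : ∀ x : Γ, x ∈ γ₀.nonunits → ιΓ x ∈ P₀.toValuationSubring.nonunits)
    (ν : s26eptPts f Γ) (hν : S26eSpOneV f G ν γ₀ hγ₀) (b y z : s26eptPts f L)
    (hU₀ : s26eptPt f b ∈ U) (hU₁ : s26eptPt f (G.mul _ b y) ∈ U)
    (hU₂ : s26eptPt f (G.mul _ b z) ∈ U) (hU₃ : s26eptPt f (G.mul _ (G.mul _ b y) z) ∈ U) :
    P₀.ord (s26eSq f G U (G.mul _ (s26eptMap f ιΓ ν)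
        (s26eptMap f (IsScalarTower.toAlgHom K L F) b))
      (s26eptMap f (IsScalarTower.toAlgHom K L F) y)
      (s26eptMap f (IsScalarTower.toAlgHom K L F) z) P₀.toValuationSubring) = 0 := by
  have h := s26etin_val_sq f G hD ιΓ (IsScalarTower.toAlgHom K L F) γ₀ hγ₀
    P₀.toValuationSubring (s26etin_over P₀) (fun l => P₀.algebraMap_mem' l) hWΓ hWΓ' ν hν b y z
    hU₀ hU₁ hU₂ hU₃
  have h0 : s26eSq f G U (G.mul _ (s26eptMap f ιΓ ν)
        (s26eptMap f (IsScalarTower.toAlgHom K L F) b))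
      (s26eptMap f (IsScalarTower.toAlgHom K L F) y)
      (s26eptMap f (IsScalarTower.toAlgHom K L F) z) P₀.toValuationSubring ≠ 0 := by
    intro h0
    rw [h0, map_zero] at h
    exact zero_ne_one h
  exact (s26erp_ord_eq_zero_iff P₀ h0).mpr h

end AtPlace

end Fermat.Agent.S26
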