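/-
S26-E, piece E-PT (helper51), part 3b: the centre is characterised by DOMINATION.

* `s26ept_over_iff`, `s26ept_over_of_injective` : when is `Spec R ⟶ A` a morphism over `K`;
* `s26ept_eq_SpecMap_ev : P = Spec(ev_P) ≫ (Spec 𝒪_{A,|P|} ⟶ A)`;
* `s26eptCentre_eq_of_dom` : if `|P| ⤳ c` and `g : 𝒪_{A,c} →+* V` is LOCAL with
  `(g x : Ω) = ev_P (stalkSpecializes x)`, then `c_V(P) = c` and the values of the extension of
  `P` to `V` at sections near `c` are given by `g`.
-/
import Fermat.Agent.S26.EPTVal

set_option autoImplicit false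
set_option linter.style.haveILetI false

noncomputable section

namespace Fermat.Agent.S26

open CategoryTheory CategoryTheory.Limits AlgebraicGeometry NeronModelInfra GoodReductionJacobian

universe u

variable {K : Type u} [Field K] {A : Scheme.{u}} (f : A ⟶ Spec (CommRingCat.of K))

section Mor

variable {R : Type u} [CommRing R] [Algebra K R]

/-- a morphism `Spec R ⟶ A` is over `K` iff the induced map `K → R` is the structure map:
criterion through global sections -/
theorem s26ept_over_iff (g : Spec (CommRingCat.of R) ⟶ A) :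
    g ≫ f = s26eptStr K R ↔
      ∀ c : K, (Scheme.ΓSpecIso (CommRingCat.of R)).hom
        ((g ≫ f).appTop.hom ((Scheme.ΓSpecIso (CommRingCat.of K)).inv.hom c)) = algebraMap K R c := by
  constructor
  · intro h c
    rw [h]
    have := Scheme.ΓSpecIso_naturality (CommRingCat.ofHom (algebraMap K R))
    have h2 := congrArg (fun q => q.hom ((Scheme.ΓSpecIso (CommRingCat.of K)).inv.hom c)) this
    simp only [CommRingCat.hom_comp, RingHom.coe_comp, Function.comp_apply] at h2
    rw [h2]
    simp
  · intro h
    obtain ⟨ψ, hψ⟩ := Spec.map_surjective (g ≫ f)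
    rw [← hψ] at h ⊢
    congr 1
    ext c
    have := Scheme.ΓSpecIso_naturality ψ
    have h2 := congrArg (fun q => q.hom ((Scheme.ΓSpecIso (CommRingCat.of K)).inv.hom c)) this
    simp only [CommRingCat.hom_comp, RingHom.coe_comp, Function.comp_apply] at h2
    have h3 := h c
    rw [h2] at h3
    simpa using h3

end Mor

section Dom

variable {R : Type u} [CommRing R] [Algebra K R] [IsLocalRing R]

/-- a point with values in a local ring is `Spec (ev_P)` followed by `Spec 𝒪_{A,|P|} ⟶ A` -/
theorem s26ept_eq_SpecMap_ev (P : s26eptPts f R) :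
    P.1 = Spec.map (CommRingCat.ofHom (s26eptEv f P)) ≫ A.fromSpecStalk (s26eptPt f P) :=
  (Scheme.Spec_stalkClosedPointTo_fromSpecStalk P.1).symm

omit [IsLocalRing R] in
/-- two `K`-morphisms `Spec R ⟶ Spec K` agree if they agree after an injective `R → R'` -/
theorem s26ept_over_of_injective {R' : Type u} [CommRing R'] [Algebra K R']
    (φ : R →ₐ[K] R') (hφ : Function.Injective φ) (g : Spec (CommRingCat.of R) ⟶ A)
    (h : (s26eptSpec φ ≫ g) ≫ f = s26eptStr K R') : g ≫ f = s26eptStr K R := by
  obtain ⟨ψ, hψ⟩ := Spec.map_surjective (g ≫ f)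
  rw [← hψ]
  rw [Category.assoc, ← hψ, s26eptSpec, ← Spec.map_comp] at h
  have h2 := Spec.map_injective h
  congr 1
  ext c
  apply hφ
  have h3 := congrArg (fun q => q.hom c) h2
  simp only [CommRingCat.hom_comp, CommRingCat.hom_ofHom, RingHom.coe_comp, Function.comp_apply]
    at h3
  rw [show φ (ψ.hom c) = (φ : R →+* R') (ψ.hom c) from rfl, h3]
  exact (φ.commutes c).symm

end Dom

section Dom2

variable (Ω : Type u) [Field Ω] [Algebra K Ω]
  (V : Type u) [CommRing V] [IsDomain V] [ValuationRing V] [Algebra V Ω] [IsFractionRing V Ω]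
  [Algebra K V] [IsScalarTower K V Ω] [IsProper f]

variable {Ω V}

/-- **characterisation of the centre by domination**: if `|P| ⤳ c` and `ev_P` maps `𝒪_{A,c}`
into `V` by a LOCAL homomorphism `g`, then `c` is the centre of `P` along `V`, and the values of
the extension of `P` to `V` are given by `g`. -/
theorem s26eptCentre_eq_of_dom (P : s26eptPts f Ω) (c : A) (h : s26eptPt f P ⤳ c)
    (g : A.presheaf.stalk c →+* V) [IsLocalHom g]
    (hg : ∀ x, algebraMap V Ω (g x) = s26eptEv f P (A.presheaf.stalkSpecializes h x)) :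
    s26eptCentre f Ω V P = c ∧ ∀ (W : A.Opens) (hW : c ∈ W)
      (hW' : s26eptPt f (s26eptLift f Ω V P) ∈ W) (s : Γ(A, W)),
      s26eptVal f (s26eptLift f Ω V P) W hW' s = g (A.presheaf.germ W c hW s) := by
  let Q₀ : Spec (CommRingCat.of V) ⟶ A := Spec.map (CommRingCat.ofHom g) ≫ A.fromSpecStalk c
  have hQP : s26eptSpec (s26eptIncl (K := K) Ω V) ≫ Q₀ = P.1 := by
    rw [s26ept_eq_SpecMap_ev f P]
    rw [← Scheme.SpecMap_stalkSpecializes_fromSpecStalk h]
    simp only [Q₀, s26eptSpec, ← Category.assoc, ← Spec.map_comp]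
    congr 2
    ext x
    exact hg x
  have hover : Q₀ ≫ f = s26eptStr K V :=
    s26ept_over_of_injective f (s26eptIncl Ω V) (IsFractionRing.injective V Ω) Q₀
      (by rw [hQP]; exact P.2)
  let Q : s26eptPts f V := ⟨Q₀, hover⟩
  have hlift : s26eptLift f Ω V P = Q := by
    rw [s26eptLift_eq_iff]
    exact Subtype.ext hQP
  have hpt : s26eptPt f Q = c := by
    show (Spec.map (CommRingCat.ofHom g) ≫ A.fromSpecStalk c) (IsLocalRing.closedPoint V) = c
    have h1 : (Spec.map (CommRingCat.ofHom g)) (IsLocalRing.closedPoint V) =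
        IsLocalRing.closedPoint (A.presheaf.stalk c) := IsLocalRing.comap_closedPoint g
    show (A.fromSpecStalk c) ((Spec.map (CommRingCat.ofHom g)) (IsLocalRing.closedPoint V)) = c
    rw [h1]
    exact Scheme.fromSpecStalk_closedPoint
  have hc : s26eptCentre f Ω V P = c := by
    unfold s26eptCentre
    rw [hlift]
    exact hpt
  refine ⟨hc, fun W hW hW' s => ?_⟩
  have hWQ : s26eptPt f Q ∈ W := by rw [hpt]; exact hW
  refine (s26eptVal_congr f hlift W hW' hWQ s).trans ?_
  haveI : IsLocalHom (CommRingCat.ofHom g).hom := ‹IsLocalHom g›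
  have key := Scheme.germ_stalkClosedPointTo_Spec_fromSpecStalk (X := A) (x := c)
    (CommRingCat.ofHom g) W hWQ
  exact congrArg (fun q => q.hom s) key

end Dom2

end Fermat.Agent.S26
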