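/-
S26-E, piece E-PT (helper51), part 4: GENERIC POINTS in the language of `PlanE.lean`.

* `s26eptEvGen f P hP : s26F f →ₐ[K] Ω`  : `ev_P` of a generic point `P ∈ A(Ω)` (`|P| = η_A`);
  `s26eptEvGen_germ`, `s26eptEvGen_stalk`.
* `s26eptPt_eta`, `s26eptPt_pt` : `s26eEta f`, `s26ePt f j` are generic;
  `s26eptEvGen_eta = id`, `s26eptEvGen_pt = j`, `s26eptVal_pt`, `s26eptEv_pt_stalk`.
* `s26ept_eq_pt : P = s26ePt f (ev_P)`; `s26eptGenEquiv : {generic points of A(Ω)} ≃ (𝔉 →ₐ[K] Ω)`.
* `s26eptEvV_pt` : `j (𝒪_{A,c}) ⊆ V` for the centre `c` of `s26ePt f j` along `V`;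
* `s26eptCentre_pt_of_dom`, `s26eptLift_pt_of_dom` : if `j` maps `𝒪_{A,z}` into `V` by a local
  homomorphism `g` then the centre is `z` and the `V`-point is `Spec g ≫ (Spec 𝒪_{A,z} ⟶ A)`.
-/
import Fermat.Agent.S26.EPTDom
import Fermat.Agent.S26.PlanE

set_option autoImplicit false
set_option linter.style.haveILetI false

noncomputable section

namespace Fermat.Agent.S26

open CategoryTheory CategoryTheory.Limits AlgebraicGeometry NeronModelInfra GoodReductionJacobian

universe u

variable {K : Type u} [Field K] {A : Scheme.{u}} (f : A ⟶ Spec (CommRingCat.of K))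

section Str

variable {R : Type u} [CommRing R] [Algebra K R] [IsLocalRing R]

/-- the value at `P` of the constant `c ∈ K` is `c` -/
theorem s26eptVal_const (P : s26eptPts f R) (hW : s26eptPt f P ∈ (⊤ : A.Opens)) (c : K) :
    s26eptVal f P ⊤ hW (f.appTop.hom ((Scheme.ΓSpecIso (CommRingCat.of K)).inv.hom c)) =
      algebraMap K R c := by
  rw [s26eptVal_eq_appLE]
  have h := (s26ept_over_iff f P.1).mp P.2 c
  rw [← h]
  rfl

end Str

section Gen

variable [IsIntegral A]

variable {Ω : Type u} [Field Ω] [Algebra K Ω]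

/-- the ring homomorphism `K(A) → Ω` of a generic point -/
def s26eptEvGenHom (P : s26eptPts f Ω) (hP : s26eptPt f P = genericPoint A) :
    s26F f →+* Ω :=
  (s26eptEv f P).comp (A.presheaf.stalkSpecializes (specializes_of_eq hP)).hom

theorem s26eptEvGenHom_germ (P : s26eptPts f Ω) (hP : s26eptPt f P = genericPoint A)
    (W : A.Opens) [Nonempty W] (hW : s26eptPt f P ∈ W) (s : Γ(A, W)) :
    s26eptEvGenHom f P hP (s26germ f W s) = s26eptVal f P W hW s := by
  show s26eptEv f P (A.presheaf.stalkSpecializes (specializes_of_eq hP)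
    ((A.germToFunctionField W).hom s)) = _
  rw [← s26eptEv_germ]
  congr 1
  exact congrArg (fun g => g.hom s) (A.presheaf.germ_stalkSpecializes _ (specializes_of_eq hP))

/-- **`ev_P : K(A) →ₐ[K] Ω`** for a generic point `P ∈ A(Ω)` -/
def s26eptEvGen (P : s26eptPts f Ω) (hP : s26eptPt f P = genericPoint A) : s26F f →ₐ[K] Ω :=
  { s26eptEvGenHom f P hP with
    commutes' := fun c => by
      have hmem : s26eptPt f P ∈ (⊤ : A.Opens) := TopologicalSpace.Opens.mem_top _
      haveI : Nonempty (⊤ : A.Opens) := ⟨⟨s26eptPt f P, hmem⟩⟩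
      have h1 := s26eptEvGenHom_germ f P hP ⊤ hmem
        (f.appTop.hom ((Scheme.ΓSpecIso (CommRingCat.of K)).inv.hom c))
      have h2 := s26eptVal_const f P hmem c
      exact h1.trans h2 }

theorem s26eptEvGen_germ (P : s26eptPts f Ω) (hP : s26eptPt f P = genericPoint A)
    (W : A.Opens) [Nonempty W] (hW : s26eptPt f P ∈ W) (s : Γ(A, W)) :
    s26eptEvGen f P hP (s26germ f W s) = s26eptVal f P W hW s :=
  s26eptEvGenHom_germ f P hP W hW s

end Gen

section Eta

variable [IsIntegral A]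

theorem s26eptPt_eta : s26eptPt f (s26eEta f) = genericPoint A :=
  Scheme.fromSpecStalk_closedPoint

variable {Ω : Type u} [Field Ω] [Algebra K Ω]

/-- the points `s26ePt f j` are generic -/
theorem s26eptPt_pt (j : s26F f →ₐ[K] Ω) : s26eptPt f (s26ePt f j) = genericPoint A :=
  (s26eptPt_map f j (s26eEta f)).trans (s26eptPt_eta f)

omit [IsIntegral A] in
/-- `ev` of the tautological point `Spec 𝒪_{A,x} ⟶ A` on germs -/
theorem s26ept_stalkClosedPointTo_fromSpecStalk_germ (x : A) (W : A.Opens)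
    (hW : (A.fromSpecStalk x) (IsLocalRing.closedPoint (A.presheaf.stalk x)) ∈ W)
    (hW' : x ∈ W) (s : Γ(A, W)) :
    (Scheme.stalkClosedPointTo (A.fromSpecStalk x)).hom (A.presheaf.germ W _ hW s) =
      A.presheaf.germ W x hW' s := by
  rw [Scheme.stalkClosedPointTo_fromSpecStalk]
  simp only [TopCat.Presheaf.stalkCongr_hom]
  have h : ∀ (h0 : x ⤳ (A.fromSpecStalk x) (IsLocalRing.closedPoint (A.presheaf.stalk x))),
      A.presheaf.germ W _ hW ≫ A.presheaf.stalkSpecializes h0 = A.presheaf.germ W x hW' :=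
    fun h0 => A.presheaf.germ_stalkSpecializes hW h0
  exact congrArg (fun g => g.hom s) (h _)

/-- values of sections at the tautological generic point are germs -/
theorem s26eptVal_eta (W : A.Opens) [Nonempty W] (hW : s26eptPt f (s26eEta f) ∈ W)
    (s : Γ(A, W)) : s26eptVal f (s26eEta f) W hW s = s26germ f W s :=
  s26ept_stalkClosedPointTo_fromSpecStalk_germ (genericPoint A) W hW _ s

/-- `ev` of the tautological generic point is the identity -/
theorem s26eptEvGen_eta : s26eptEvGen f (s26eEta f) (s26eptPt_eta f) = AlgHom.id K (s26F f) := by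
  ext x
  obtain ⟨W, hW, s, rfl⟩ := A.presheaf.exists_germ_eq (x : A.presheaf.stalk (genericPoint A))
  haveI : Nonempty W := ⟨⟨_, hW⟩⟩
  have hW' : s26eptPt f (s26eEta f) ∈ W := by rw [s26eptPt_eta]; exact hW
  have h1 := s26eptEvGen_germ f (s26eEta f) (s26eptPt_eta f) W hW' s
  rw [s26eptVal_eta] at h1
  exact h1

/-- values at `s26ePt f j` -/
theorem s26eptVal_pt (j : s26F f →ₐ[K] Ω) (W : A.Opens) [Nonempty W]
    (hW : s26eptPt f (s26ePt f j) ∈ W) (s : Γ(A, W)) :
    s26eptVal f (s26ePt f j) W hW s = j (s26germ f W s) := by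
  have hW' : s26eptPt f (s26eEta f) ∈ W := by
    rw [s26eptPt_eta]; rw [s26eptPt_pt] at hW; exact hW
  have h := s26eptVal_map f j (s26eEta f) W hW' s
  rw [s26eptVal_eta] at h
  exact h

/-- **`ev` of `s26ePt f j` is `j`** -/
theorem s26eptEvGen_pt (j : s26F f →ₐ[K] Ω) :
    s26eptEvGen f (s26ePt f j) (s26eptPt_pt f j) = j := by
  ext x
  obtain ⟨W, hW, s, rfl⟩ := A.presheaf.exists_germ_eq (x : A.presheaf.stalk (genericPoint A))
  haveI : Nonempty W := ⟨⟨_, hW⟩⟩
  have hW' : s26eptPt f (s26ePt f j) ∈ W := by rw [s26eptPt_pt]; exact hW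
  have h1 := s26eptEvGen_germ f (s26ePt f j) (s26eptPt_pt f j) W hW' s
  rw [s26eptVal_pt] at h1
  exact h1

/-- **every generic point is `s26ePt f j`** with `j = ev_P` -/
theorem s26ept_eq_pt (P : s26eptPts f Ω) (hP : s26eptPt f P = genericPoint A) :
    P = s26ePt f (s26eptEvGen f P hP) := by
  apply Subtype.ext
  rw [s26ept_eq_SpecMap_ev f P]
  show _ = Spec.map (CommRingCat.ofHom ((s26eptEvGen f P hP : s26F f →ₐ[K] Ω) : s26F f →+* Ω)) ≫
    A.fromSpecStalk (genericPoint A)
  rw [← Scheme.SpecMap_stalkSpecializes_fromSpecStalk (specializes_of_eq hP), ← Category.assoc,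
    ← Spec.map_comp]
  rfl

/-- generic points of `A(Ω)` = `K`-embeddings `K(A) → Ω` -/
def s26eptGenEquiv :
    {P : s26eptPts f Ω // s26eptPt f P = genericPoint A} ≃ (s26F f →ₐ[K] Ω) where
  toFun P := s26eptEvGen f P.1 P.2
  invFun j := ⟨s26ePt f j, s26eptPt_pt f j⟩
  left_inv P := Subtype.ext (s26ept_eq_pt f P.1 P.2).symm
  right_inv j := s26eptEvGen_pt f j

/-- `ev_P` of a generic point on the image of a stalk `𝒪_{A,z} → K(A)` -/
theorem s26eptEvGen_stalk (P : s26eptPts f Ω) (hP : s26eptPt f P = genericPoint A) (z : A)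
    (h : s26eptPt f P ⤳ z) (x : A.presheaf.stalk z) :
    s26eptEvGen f P hP (algebraMap (A.presheaf.stalk z) A.functionField x) =
      s26eptEv f P (A.presheaf.stalkSpecializes h x) := by
  show s26eptEv f P (A.presheaf.stalkSpecializes (specializes_of_eq hP)
    (A.presheaf.stalkSpecializes ((genericPoint_spec A).specializes trivial) x)) = _
  congr 1
  have h0 : A.presheaf.stalkSpecializes ((genericPoint_spec A).specializes trivial) ≫
      A.presheaf.stalkSpecializes (specializes_of_eq hP) = A.presheaf.stalkSpecializes h :=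
    A.presheaf.stalkSpecializes_comp _ _
  exact congrArg (fun g => g.hom x) h0

/-- every point specialises from a generic point -/
theorem s26eptPt_pt_specializes (j : s26F f →ₐ[K] Ω) (z : A) : s26eptPt f (s26ePt f j) ⤳ z := by
  rw [s26eptPt_pt]
  exact (genericPoint_spec A).specializes trivial

/-- `ev` of `s26ePt f j` on the image of a stalk is `j` -/
theorem s26eptEv_pt_stalk (j : s26F f →ₐ[K] Ω) (z : A) (h : s26eptPt f (s26ePt f j) ⤳ z)
    (x : A.presheaf.stalk z) :
    s26eptEv f (s26ePt f j) (A.presheaf.stalkSpecializes h x) =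
      j (algebraMap (A.presheaf.stalk z) A.functionField x) := by
  rw [← s26eptEvGen_stalk f (s26ePt f j) (s26eptPt_pt f j) z h x, s26eptEvGen_pt]

end Eta

section GenVal

variable [IsIntegral A] [IsProper f]

variable {Ω : Type u} [Field Ω] [Algebra K Ω]
  {V : Type u} [CommRing V] [IsDomain V] [ValuationRing V] [Algebra V Ω] [IsFractionRing V Ω]
  [Algebra K V] [IsScalarTower K V Ω]

/-- **`j (𝒪_{A,c}) ⊆ V`** for the centre `c` of the generic point `s26ePt f j` along `V`, and
`j` restricted to `𝒪_{A,c}` is the LOCAL homomorphism `evV` -/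
theorem s26eptEvV_pt (j : s26F f →ₐ[K] Ω)
    (x : A.presheaf.stalk (s26eptCentre f Ω V (s26ePt f j))) :
    algebraMap V Ω (s26eptEvV f Ω V (s26ePt f j) x) =
      j (algebraMap (A.presheaf.stalk (s26eptCentre f Ω V (s26ePt f j))) A.functionField x) := by
  rw [← s26eptEvV_compat, s26eptEv_pt_stalk]

/-- **the centre of a generic point by domination**: if `j` maps `𝒪_{A,z}` into `V` by a LOCAL
homomorphism `g`, then `z` is the centre of `s26ePt f j` along `V`, and the values of the
`V`-point are given by `g`. -/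
theorem s26eptCentre_pt_of_dom (j : s26F f →ₐ[K] Ω) (z : A)
    (g : A.presheaf.stalk z →+* V) [IsLocalHom g]
    (hg : ∀ x, algebraMap V Ω (g x) = j (algebraMap (A.presheaf.stalk z) A.functionField x)) :
    s26eptCentre f Ω V (s26ePt f j) = z ∧ ∀ (W : A.Opens) (hW : z ∈ W)
      (hW' : s26eptPt f (s26eptLift f Ω V (s26ePt f j)) ∈ W) (s : Γ(A, W)),
      s26eptVal f (s26eptLift f Ω V (s26ePt f j)) W hW' s = g (A.presheaf.germ W z hW s) :=
  s26eptCentre_eq_of_dom f (s26ePt f j) z (s26eptPt_pt_specializes f j z) g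
    (fun x => (hg x).trans (s26eptEv_pt_stalk f j z _ x).symm)

/-- the `V`-point of a generic point dominated at `z` is `Spec g` followed by
`Spec 𝒪_{A,z} ⟶ A` -/
theorem s26eptLift_pt_of_dom (j : s26F f →ₐ[K] Ω) (z : A)
    (g : A.presheaf.stalk z →+* V) [IsLocalHom g]
    (hg : ∀ x, algebraMap V Ω (g x) = j (algebraMap (A.presheaf.stalk z) A.functionField x)) :
    (s26eptLift f Ω V (s26ePt f j)).1 = Spec.map (CommRingCat.ofHom g) ≫ A.fromSpecStalk z := by
  let Q₀ : Spec (CommRingCat.of V) ⟶ A := Spec.map (CommRingCat.ofHom g) ≫ A.fromSpecStalk z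
  have h := s26eptPt_pt_specializes f j z
  have hQP : s26eptSpec (s26eptIncl (K := K) Ω V) ≫ Q₀ = (s26ePt f j).1 := by
    rw [s26ept_eq_SpecMap_ev f (s26ePt f j)]
    rw [← Scheme.SpecMap_stalkSpecializes_fromSpecStalk h]
    simp only [Q₀, s26eptSpec, ← Category.assoc, ← Spec.map_comp]
    congr 2
    ext x
    exact (hg x).trans (s26eptEv_pt_stalk f j z _ x).symm
  have hover : Q₀ ≫ f = s26eptStr K V :=
    s26ept_over_of_injective f (s26eptIncl Ω V) (IsFractionRing.injective V Ω) Q₀
      (by rw [hQP]; exact (s26ePt f j).2)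
  have hlift : s26eptLift f Ω V (s26ePt f j) = ⟨Q₀, hover⟩ := by
    rw [s26eptLift_eq_iff]
    exact Subtype.ext hQP
  rw [hlift]

end GenVal

end Fermat.Agent.S26
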