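/-
S26-E-G3 (a), helper19: PURE ALGEBRA for the field `Ω₃ = Frac (𝔉 ⊗ 𝔉 ⊗ 𝔉)`.

* `s26eg3d_repr_map`       coordinates of `(ψ ⊗ id) z` w.r.t. a `K`-basis of the right factor;
* `s26eg3d_map_injective`  `ψ` injective ⇒ `ψ ⊗ id` injective;
* `s26eg3d_exists_point`   `K` alg. closed, `A` a f.g. `K`-domain, `a ≠ 0` ⇒ a `K`-point `φ`, `φ a ≠ 0`;
* `s26eg3d_isDomain`       `K` alg. closed, `A`, `B` `K`-domains ⇒ `A ⊗[K] B` is a domain.

Mathlib only.
-/
import Mathlib

set_option autoImplicit false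

namespace Fermat.Agent.S26

open TensorProduct

section Coord

variable {K : Type*} [Field K] {A A' B : Type*} [CommRing A] [CommRing A'] [CommRing B]
  [Algebra K A] [Algebra K A'] [Algebra K B]

/-- The coordinates of `(ψ ⊗ id) z` in the basis `1 ⊗ b_s` are the images under `ψ` of the
coordinates of `z`. -/
theorem s26eg3d_repr_map {ι : Type*} (b : Module.Basis ι K B) (ψ : A →ₐ[K] A')
    (z : A ⊗[K] B) (s : ι) :
    (Algebra.TensorProduct.basis A' b).repr
        (Algebra.TensorProduct.map ψ (AlgHom.id K B) z) s =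
      ψ ((Algebra.TensorProduct.basis A b).repr z s) := by
  induction z using TensorProduct.induction_on with
  | zero => simp
  | tmul a m => simp [Algebra.TensorProduct.basis_repr_tmul]
  | add x y hx hy => simp [hx, hy]

/-- `ψ` injective ⇒ `ψ ⊗ id` injective (over a field). -/
theorem s26eg3d_map_injective (ψ : A →ₐ[K] A') (hψ : Function.Injective ψ) :
    Function.Injective (Algebra.TensorProduct.map ψ (AlgHom.id K B)) := by
  rw [injective_iff_map_eq_zero]
  intro z hz
  let b := Module.Basis.ofVectorSpace K B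
  apply (Algebra.TensorProduct.basis A b).repr.injective
  ext s
  have h := s26eg3d_repr_map b ψ z s
  rw [hz] at h
  simp only [map_zero, Finsupp.coe_zero, Pi.zero_apply] at h ⊢
  exact hψ (by rw [← h, map_zero])

/-- Every element of `A ⊗ B` comes from `A₀ ⊗ B` for a finitely generated subalgebra `A₀`. -/
theorem s26eg3d_range_mono {A₁ A₂ : Subalgebra K A} (h : A₁ ≤ A₂) {z : A ⊗[K] B}
    (hz : z ∈ (Algebra.TensorProduct.map A₁.val (AlgHom.id K B)).range) :
    z ∈ (Algebra.TensorProduct.map A₂.val (AlgHom.id K B)).range := by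
  obtain ⟨w, rfl⟩ := hz
  have key : ∀ w : ↥A₁ ⊗[K] B,
      Algebra.TensorProduct.map A₂.val (AlgHom.id K B)
          (Algebra.TensorProduct.map (Subalgebra.inclusion h) (AlgHom.id K B) w) =
        Algebra.TensorProduct.map A₁.val (AlgHom.id K B) w := by
    intro w
    induction w using TensorProduct.induction_on with
    | zero => simp
    | tmul a m => simp
    | add x y hx hy => rw [map_add, map_add, map_add, hx, hy]
  exact ⟨Algebra.TensorProduct.map (Subalgebra.inclusion h) (AlgHom.id K B) w, key w⟩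

theorem s26eg3d_exists_fg (z : A ⊗[K] B) :
    ∃ A₀ : Subalgebra K A, A₀.FG ∧
      z ∈ (Algebra.TensorProduct.map A₀.val (AlgHom.id K B)).range := by
  induction z using TensorProduct.induction_on with
  | zero => exact ⟨⊥, Subalgebra.fg_bot, zero_mem _⟩
  | tmul a m =>
    refine ⟨Algebra.adjoin K {a}, ?_,
      ⟨(⟨a, Algebra.subset_adjoin (Set.mem_singleton a)⟩ : Algebra.adjoin K {a}) ⊗ₜ m, by simp⟩⟩
    have := Subalgebra.fg_adjoin_finset (R := K) ({a} : Finset A)
    simpa using this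
  | add x y hx hy =>
    obtain ⟨A₁, h₁, hx⟩ := hx
    obtain ⟨A₂, h₂, hy⟩ := hy
    exact ⟨A₁ ⊔ A₂, h₁.sup h₂,
      add_mem (s26eg3d_range_mono le_sup_left hx) (s26eg3d_range_mono le_sup_right hy)⟩

end Coord

section Domain

variable {K : Type*} [Field K] [IsAlgClosed K] {A B : Type*} [CommRing A] [CommRing B]
  [Algebra K A] [Algebra K B]

/-- `K`-points separate: in a finitely generated `K`-domain over an algebraically closed field,
every nonzero element is nonzero at some `K`-point. -/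
theorem s26eg3d_exists_point [Algebra.FiniteType K A] [IsDomain A] {a : A} (ha : a ≠ 0) :
    ∃ φ : A →ₐ[K] K, φ a ≠ 0 := by
  have : IsJacobsonRing A := isJacobsonRing_of_finiteType (A := K)
  have hj : (⊥ : Ideal A).jacobson = ⊥ := IsJacobsonRing.out inferInstance Ideal.isRadical_bot
  have h1 : a ∉ (⊥ : Ideal A).jacobson := by
    rw [hj]
    simpa using ha
  rw [Ideal.jacobson, Ideal.mem_sInf] at h1
  simp only [not_forall] at h1
  obtain ⟨m, ⟨-, hm⟩, ham⟩ := h1
  let _ := Ideal.Quotient.field m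
  have : Module.Finite K (A ⧸ m) := finite_of_finite_type_of_isJacobsonRing K (A ⧸ m)
  have hb : Function.Bijective (algebraMap K (A ⧸ m)) :=
    IsAlgClosed.algebraMap_bijective_of_isIntegral
  let e : K ≃ₐ[K] (A ⧸ m) := AlgEquiv.ofBijective (Algebra.ofId K (A ⧸ m)) hb
  refine ⟨(e.symm : (A ⧸ m) →ₐ[K] K).comp (Ideal.Quotient.mkₐ K m), ?_⟩
  intro h0
  apply ham
  rw [← Ideal.Quotient.eq_zero_iff_mem]
  have : e.symm (Ideal.Quotient.mk m a) = 0 := h0
  simpa using this

/-- The finitely generated case of `s26eg3d_isDomain`. -/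
theorem s26eg3d_mul_eq_zero_fg [Algebra.FiniteType K A] [IsDomain A] [IsDomain B]
    {x y : A ⊗[K] B} (h : x * y = 0) : x = 0 ∨ y = 0 := by
  by_contra hne
  obtain ⟨hx, hy⟩ := not_or.mp hne
  let b := Module.Basis.ofVectorSpace K B
  have hx' : (Algebra.TensorProduct.basis A b).repr x ≠ 0 := fun h0 =>
    hx ((Algebra.TensorProduct.basis A b).repr.injective (by rw [h0, map_zero]))
  have hy' : (Algebra.TensorProduct.basis A b).repr y ≠ 0 := fun h0 =>
    hy ((Algebra.TensorProduct.basis A b).repr.injective (by rw [h0, map_zero]))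
  obtain ⟨s, hs⟩ := Finsupp.ne_iff.mp hx'
  obtain ⟨t, ht⟩ := Finsupp.ne_iff.mp hy'
  simp only [Finsupp.coe_zero, Pi.zero_apply] at hs ht
  obtain ⟨φ, hφ⟩ := s26eg3d_exists_point (K := K) (mul_ne_zero hs ht)
  have hΦ : Algebra.TensorProduct.map φ (AlgHom.id K B) x *
      Algebra.TensorProduct.map φ (AlgHom.id K B) y = 0 := by
    rw [← map_mul, h, map_zero]
  have : NoZeroDivisors (K ⊗[K] B) :=
    (Algebra.TensorProduct.lid K B).toMulEquiv.noZeroDivisors
  rcases mul_eq_zero.mp hΦ with h1 | h1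
  · have h2 := s26eg3d_repr_map b φ x s
    rw [h1] at h2
    simp only [map_zero, Finsupp.coe_zero, Pi.zero_apply] at h2
    apply hφ
    rw [map_mul, ← h2, zero_mul]
  · have h2 := s26eg3d_repr_map b φ y t
    rw [h1] at h2
    simp only [map_zero, Finsupp.coe_zero, Pi.zero_apply] at h2
    apply hφ
    rw [map_mul, ← h2, mul_zero]

/-- **Tensor products of domains over an algebraically closed field are domains.** -/
theorem s26eg3d_isDomain [IsDomain A] [IsDomain B] : IsDomain (A ⊗[K] B) := by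
  have : NoZeroDivisors (A ⊗[K] B) := ⟨fun {x y} h => by
    obtain ⟨A₁, h₁, hx⟩ := s26eg3d_exists_fg x
    obtain ⟨A₂, h₂, hy⟩ := s26eg3d_exists_fg y
    obtain ⟨x₀, rfl⟩ := s26eg3d_range_mono (le_sup_left : A₁ ≤ A₁ ⊔ A₂) hx
    obtain ⟨y₀, rfl⟩ := s26eg3d_range_mono (le_sup_right : A₂ ≤ A₁ ⊔ A₂) hy
    have : Algebra.FiniteType K ↥(A₁ ⊔ A₂) := (Subalgebra.fg_iff_finiteType _).1 (h₁.sup h₂)
    have h0 : x₀ * y₀ = 0 :=
      s26eg3d_map_injective (B := B) (A₁ ⊔ A₂).val Subtype.val_injective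
        (by rw [map_mul, map_zero]; exact h)
    rcases s26eg3d_mul_eq_zero_fg h0 with h | h
    · left; rw [h]; exact map_zero _
    · right; rw [h]; exact map_zero _⟩
  exact NoZeroDivisors.to_isDomain _

end Domain

end Fermat.Agent.S26
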