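/-
S26-E, piece E-R (helper80): the `halg` input of (R3) `S26erIsRel.descend`.

`K` algebraically closed, `F` a field over `K`, `B` a `K`-domain, `Ω` a field containing `F` and
receiving `B`, such that `F ⊗[K] B → Ω` is injective.  Then every element of the fraction field
of the image which is algebraic over `F` lies in `F`:  **`F` is algebraically closed in
`Frac (F ⊗[K] B)`**.

* `s26erac_mem_range`   the model-free form (`y * μ b = μ a`, `b ≠ 0`);
* `s26erac_algClosed`   for `[IsFractionRing (F ⊗[K] B) Ω]`.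

Proof: `F' :=` integral closure of `F` in `Ω`; `F' ⊗[K] B` is a domain (helper19,
`s26eg3d_isDomain`), integral over `F ⊗[K] B`, so `F' ⊗[K] B → Ω` is injective
(`Ideal.eq_bot_of_comap_eq_bot`); an `F`-linear functional `φ` on `F'` killing `1` but not `y`
then gives `φ(y) • b = 0`.
-/
import Fermat.Agent.S26.EG3Dom

set_option autoImplicit false
set_option linter.style.haveILetI false
set_option linter.unusedSectionVars false

noncomputable section

namespace Fermat.Agent.S26

open TensorProduct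

section AlgCl

variable {K F B Ω : Type*} [Field K] [Field F] [CommRing B] [Field Ω]
  [Algebra K F] [Algebra K B] [Algebra K Ω] [Algebra F Ω] [IsScalarTower K F Ω]

/-- the multiplication map `F ⊗[K] B → Ω` -/
def s26eracMu (j : B →ₐ[K] Ω) : F ⊗[K] B →ₐ[K] Ω :=
  Algebra.TensorProduct.productMap (IsScalarTower.toAlgHom K F Ω) j

@[simp]
theorem s26eracMu_tmul (j : B →ₐ[K] Ω) (f : F) (b : B) :
    s26eracMu j (f ⊗ₜ[K] b) = algebraMap F Ω f * j b := by
  simp [s26eracMu]

variable (K F Ω) in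
/-- the algebraic closure of `F` in `Ω` -/
abbrev s26eracCl : Subalgebra F Ω := integralClosure F Ω

/-- `F → F'` as a `K`-algebra map -/
def s26eracInc : F →ₐ[K] s26eracCl F Ω :=
  (Algebra.ofId F (s26eracCl F Ω)).restrictScalars K

theorem s26eracInc_coe (f : F) : ((s26eracInc (K := K) (Ω := Ω) f : s26eracCl F Ω) : Ω) =
    algebraMap F Ω f := rfl

/-- `F ⊗[K] B → F' ⊗[K] B` -/
def s26eracIota : F ⊗[K] B →ₐ[K] (s26eracCl F Ω) ⊗[K] B :=
  Algebra.TensorProduct.map (s26eracInc (K := K) (Ω := Ω)) (AlgHom.id K B)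

@[simp]
theorem s26eracIota_tmul (f : F) (b : B) :
    s26eracIota (Ω := Ω) (f ⊗ₜ[K] b) = (s26eracInc (K := K) (Ω := Ω) f) ⊗ₜ[K] b := by
  simp [s26eracIota]

/-- the multiplication map `F' ⊗[K] B → Ω` -/
def s26eracMu' (j : B →ₐ[K] Ω) : (s26eracCl F Ω) ⊗[K] B →ₐ[K] Ω :=
  Algebra.TensorProduct.productMap ((s26eracCl F Ω).val.restrictScalars K) j

@[simp]
theorem s26eracMu'_tmul (j : B →ₐ[K] Ω) (x : s26eracCl F Ω) (b : B) :
    s26eracMu' j (x ⊗ₜ[K] b) = (x : Ω) * j b := by
  simp [s26eracMu']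

theorem s26eracMu'_iota (j : B →ₐ[K] Ω) (r : F ⊗[K] B) :
    s26eracMu' j (s26eracIota (Ω := Ω) r) = s26eracMu j r := by
  induction r using TensorProduct.induction_on with
  | zero => simp
  | tmul f b => simp [s26eracInc_coe]
  | add x y hx hy => rw [map_add, map_add, map_add, hx, hy]

/-- `F' ⊗[K] B` is integral over `F ⊗[K] B` -/
theorem s26erac_isIntegralElem (z : (s26eracCl F Ω) ⊗[K] B) :
    (s26eracIota (K := K) (F := F) (B := B) (Ω := Ω)).toRingHom.IsIntegralElem z := by
  induction z using TensorProduct.induction_on with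
  | zero => exact RingHom.isIntegralElem_zero _
  | tmul x b =>
    have h1 : (s26eracIota (K := K) (F := F) (B := B) (Ω := Ω)).toRingHom.IsIntegralElem
        (x ⊗ₜ[K] (1 : B)) := by
      obtain ⟨p, hp, hpx⟩ := (integralClosure.isIntegral x : IsIntegral F x)
      refine ⟨p.map (Algebra.TensorProduct.includeLeftRingHom : F →+* F ⊗[K] B),
        hp.map _, ?_⟩
      rw [Polynomial.eval₂_map]
      have hcomp : ((s26eracIota (K := K) (F := F) (B := B) (Ω := Ω)).toRingHom.comp
          (Algebra.TensorProduct.includeLeftRingHom : F →+* F ⊗[K] B)) =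
          (Algebra.TensorProduct.includeLeftRingHom : s26eracCl F Ω →+* _).comp
            (algebraMap F (s26eracCl F Ω)) := by
        ext f
        simp [s26eracInc, Algebra.ofId_apply]
      have hx1 : x ⊗ₜ[K] (1 : B) =
          (Algebra.TensorProduct.includeLeftRingHom : s26eracCl F Ω →+* _) x := rfl
      rw [hcomp, hx1, ← Polynomial.hom_eval₂]
      have hpx' : Polynomial.eval₂ (algebraMap F (s26eracCl F Ω)) x p = 0 := hpx
      rw [hpx', map_zero]
    have h2 : (s26eracIota (K := K) (F := F) (B := B) (Ω := Ω)).toRingHom.IsIntegralElem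
        (s26eracIota (Ω := Ω) ((1 : F) ⊗ₜ[K] b)) :=
      RingHom.isIntegralElem_map _
    have h3 := RingHom.IsIntegralElem.mul _ h1 h2
    have h4 : (x ⊗ₜ[K] (1 : B)) * s26eracIota (Ω := Ω) ((1 : F) ⊗ₜ[K] b) = x ⊗ₜ[K] b := by
      simp [Algebra.TensorProduct.tmul_mul_tmul]
    rwa [h4] at h3
  | add x y hx hy => exact RingHom.IsIntegralElem.add _ hx hy

variable [IsAlgClosed K] [IsDomain B]

/-- `F' ⊗[K] B → Ω` is injective if `F ⊗[K] B → Ω` is -/
theorem s26eracMu'_injective (j : B →ₐ[K] Ω) (hμ : Function.Injective (s26eracMu (F := F) j)) :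
    Function.Injective (s26eracMu' (F := F) j) := by
  haveI : IsDomain ((s26eracCl F Ω) ⊗[K] B) := s26eg3d_isDomain
  haveI : IsDomain (F ⊗[K] B) := s26eg3d_isDomain
  letI : Algebra (F ⊗[K] B) ((s26eracCl F Ω) ⊗[K] B) :=
    (s26eracIota (K := K) (F := F) (B := B) (Ω := Ω)).toRingHom.toAlgebra
  haveI : Algebra.IsIntegral (F ⊗[K] B) ((s26eracCl F Ω) ⊗[K] B) :=
    ⟨fun z => s26erac_isIntegralElem z⟩
  have hker : RingHom.ker (s26eracMu' (F := F) j).toRingHom = ⊥ := by
    apply Ideal.eq_bot_of_comap_eq_bot (R := F ⊗[K] B)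
    ext r
    simp only [Ideal.mem_comap, RingHom.mem_ker, Ideal.mem_bot]
    have : (s26eracMu' (F := F) j).toRingHom
        (algebraMap (F ⊗[K] B) ((s26eracCl F Ω) ⊗[K] B) r) = s26eracMu j r :=
      s26eracMu'_iota j r
    rw [this]
    exact ⟨fun h => hμ (by rw [h, map_zero]), fun h => by rw [h, map_zero]⟩
  exact (RingHom.injective_iff_ker_eq_bot _).2 hker

/-- the functional computation -/
theorem s26erac_functional (φ : s26eracCl F Ω →ₗ[F] F) (r : F ⊗[K] B) (x : s26eracCl F Ω) :
    TensorProduct.map (φ.restrictScalars K) (LinearMap.id : B →ₗ[K] B)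
        (s26eracIota (Ω := Ω) r * (x ⊗ₜ[K] (1 : B))) =
      (φ x ⊗ₜ[K] (1 : B)) * r := by
  induction r using TensorProduct.induction_on with
  | zero => simp
  | tmul f b =>
    rw [s26eracIota_tmul, Algebra.TensorProduct.tmul_mul_tmul,
      Algebra.TensorProduct.tmul_mul_tmul, TensorProduct.map_tmul, mul_one, one_mul]
    have : s26eracInc (K := K) (Ω := Ω) f * x = f • x := by
      rw [Algebra.smul_def]; rfl
    rw [this, LinearMap.restrictScalars_apply, map_smul, smul_eq_mul, LinearMap.id_apply,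
      mul_comm]
  | add s t hs ht => rw [map_add, add_mul, map_add, hs, ht, mul_add]

/-- **`F` is algebraically closed in `Frac (F ⊗[K] B)`**, model-free form -/
theorem s26erac_mem_range (j : B →ₐ[K] Ω) (hμ : Function.Injective (s26eracMu (F := F) j))
    {y : Ω} (hy : IsIntegral F y) {a b : F ⊗[K] B} (hb : b ≠ 0)
    (hyab : y * s26eracMu j b = s26eracMu j a) : y ∈ (algebraMap F Ω).range := by
  by_contra hyF
  haveI : IsDomain (F ⊗[K] B) := s26eg3d_isDomain
  set y' : s26eracCl F Ω := ⟨y, hy⟩ with hy'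
  -- `y'` is not in the line `F · 1`
  have hnot : y' ∉ Submodule.span F ({1} : Set (s26eracCl F Ω)) := by
    intro hmem
    obtain ⟨f, hf⟩ := Submodule.mem_span_singleton.1 hmem
    apply hyF
    refine ⟨f, ?_⟩
    have h1 : ((f • (1 : s26eracCl F Ω) : s26eracCl F Ω) : Ω) = y := congrArg Subtype.val hf
    rw [← h1]
    simp [Algebra.smul_def]
  obtain ⟨φ, hφy, hφ1⟩ := Submodule.exists_le_ker_of_notMem hnot
  have hφone : φ 1 = 0 := hφ1 (Submodule.subset_span (Set.mem_singleton _))
  -- the equation in `F' ⊗ B`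
  have heq : s26eracIota (Ω := Ω) b * (y' ⊗ₜ[K] (1 : B)) =
      s26eracIota (Ω := Ω) a * ((1 : s26eracCl F Ω) ⊗ₜ[K] (1 : B)) := by
    apply s26eracMu'_injective j hμ
    rw [map_mul, map_mul, s26eracMu'_iota, s26eracMu'_iota, s26eracMu'_tmul, s26eracMu'_tmul,
      map_one, mul_one, mul_one, mul_comm, ← hyab]
    simp [hy']
  have h1 := s26erac_functional φ b y'
  have h2 := s26erac_functional φ a (1 : s26eracCl F Ω)
  rw [heq, h2, hφone, TensorProduct.zero_tmul, zero_mul] at h1
  rcases mul_eq_zero.1 h1.symm with h | h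
  · apply hφy
    have hinj : Function.Injective
        (Algebra.TensorProduct.includeLeftRingHom : F →+* F ⊗[K] B) := RingHom.injective _
    exact hinj (by rw [map_zero]; exact h)
  · exact hb h

/-- **`F` is algebraically closed in `Frac (F ⊗[K] B)`** -/
theorem s26erac_algClosed [Algebra (F ⊗[K] B) Ω] [IsFractionRing (F ⊗[K] B) Ω]
    (j : B →ₐ[K] Ω)
    (hj : ∀ r : F ⊗[K] B, algebraMap (F ⊗[K] B) Ω r = s26eracMu j r)
    (y : Ω) (hy : IsAlgebraic F y) : y ∈ (algebraMap F Ω).range := by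
  haveI : IsDomain (F ⊗[K] B) := s26eg3d_isDomain
  have hμ : Function.Injective (s26eracMu (F := F) j) := by
    intro r s hrs
    apply IsFractionRing.injective (F ⊗[K] B) Ω
    rw [hj, hj, hrs]
  obtain ⟨a, b, hb, hab⟩ := IsFractionRing.div_surjective (A := F ⊗[K] B) y
  have hb0 : (b : F ⊗[K] B) ≠ 0 := nonZeroDivisors.ne_zero hb
  have hb1 : algebraMap (F ⊗[K] B) Ω b ≠ 0 := by
    intro h
    apply hb0
    apply IsFractionRing.injective (F ⊗[K] B) Ω
    rw [h, map_zero]
  refine s26erac_mem_range j hμ hy.isIntegral hb0 (a := a) ?_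
  rw [← hj, ← hj, ← hab, div_mul_cancel₀ _ hb1]

end AlgCl

end Fermat.Agent.S26

end
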