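/-
S26-E, piece E-RIG (helper97): (c) WITHOUT the hypothesis `hcomp`.

The restriction `P ∩ Γ` of a place `P` of `F/L` to `Γ` is automatically a place of `Γ/K` when it is
not trivial (helper80's (B1-pl) `s26erpRestrict`), so "every valuation subring of `Γ/K` is a
place" is not needed.

* `s26erig_place_const'`, `s26erig_A'`, `s26erig_main'` : as in `ERigA.lean` / `ERig.lean`, minus
  `hcomp`.
-/
import Fermat.Agent.S26.ERig
import Fermat.Agent.S26.ERPl

set_option autoImplicit false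
set_option linter.unusedSectionVars false

namespace Fermat.Agent.S26

open AlgebraicCurve IsLocalRing Fermat.Agent.S24 Fermat.Agent.DEU

section A

variable {K Γ L F : Type*} [Field K] [Field Γ] [Field L] [Field F]
  [Algebra K Γ] [Algebra K L] [Algebra Γ F] [Algebra L F] [Algebra K F]
  [IsScalarTower K Γ F] [IsScalarTower K L F]

/-- every valuation subring of `Γ` which is the non-trivial restriction of a place of `F/L` is a
place of `Γ/K`. -/
theorem s26erig_hcomp_restrict (P : Place L F)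
    (hne : P.toValuationSubring.comap (algebraMap Γ F) ≠ ⊤) :
    ∃ Q : Place K Γ, Q.toValuationSubring = P.toValuationSubring.comap (algebraMap Γ F) :=
  ⟨s26erpRestrict (K := K) (Ω := Γ) (Ω' := F) (s26erpUnder (K := K) P) hne, rfl⟩

/-- **Step 5 without `hcomp`.** -/
theorem s26erig_place_const' (S : Finset (Place K Γ)) (P : Place L F)
    (hpole : ∀ Q : Place K Γ, Q ∉ S →
      ∃ u : Γ, u ∉ Q.toValuationSubring ∧ ∀ Q' ∈ S, u ∈ Q'.toValuationSubring)
    (hnc : ∃ u : Γ, (∀ Q' ∈ S, u ∈ Q'.toValuationSubring) ∧ ∀ a : K, u ≠ algebraMap K Γ a)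
    (hval : ∀ u : Γ, (∀ Q ∈ S, u ∈ Q.toValuationSubring) →
      algebraMap Γ F u ∈ P.toValuationSubring ∧
        ∃ c₀ : K, algebraMap Γ F u - algebraMap K F c₀ ∈ P.toValuationSubring.nonunits) :
    ∃ Q ∈ S, P.toValuationSubring.comap (algebraMap Γ F) = Q.toValuationSubring := by
  set W : ValuationSubring Γ := P.toValuationSubring.comap (algebraMap Γ F) with hW
  have hWtop : W ≠ ⊤ := by
    intro htop
    obtain ⟨u, hu, hunc⟩ := hnc
    obtain ⟨-, c₀, hc₀⟩ := hval u hu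
    have hne : u - algebraMap K Γ c₀ ≠ 0 := sub_ne_zero.2 (hunc c₀)
    have hinv : (u - algebraMap K Γ c₀)⁻¹ ∈ W := by rw [htop]; exact ValuationSubring.mem_top _
    rw [hW, ValuationSubring.mem_comap, map_inv₀, map_sub,
      ← IsScalarTower.algebraMap_apply] at hinv
    rw [ValuationSubring.mem_nonunits_iff_or] at hc₀
    rcases hc₀ with h0 | h0
    · apply hne
      have : algebraMap Γ F (u - algebraMap K Γ c₀) = 0 := by
        rw [map_sub, ← IsScalarTower.algebraMap_apply]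
        exact h0
      exact (map_eq_zero _).1 this
    · exact h0 hinv
  obtain ⟨Q, hQ⟩ := s26erig_hcomp_restrict (K := K) P hWtop
  refine ⟨Q, ?_, hQ.symm⟩
  by_contra hQS
  obtain ⟨u, huQ, huS⟩ := hpole Q hQS
  apply huQ
  rw [hQ, ValuationSubring.mem_comap]
  exact (hval u huS).1

/-- **E-RIG, steps 4–6, without `hcomp`.** -/
theorem s26erig_A' {R₀ M : Type*} [CommRing R₀] [IsLocalRing R₀] [Field M]
    (i : R₀ →+* M) (j : M →+* L)
    (hM : ∀ x : L, j.IsIntegralElem x → x ∈ j.range)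
    (hKR : ∀ a : K, ∃ r : R₀, j (i r) = algebraMap K L a)
    (E₀ : Divisor K Γ) (D : Divisor L F)
    (hresF : ∀ P : Place L F, ∀ x ∈ P.toValuationSubring, ∃ c : L,
      x - algebraMap L F c ∈ P.toValuationSubring.nonunits)
    (hresΓ : ∀ Q : Place K Γ, ∀ u ∈ Q.toValuationSubring, ∃ c₀ : K,
      u - algebraMap K Γ c₀ ∈ Q.toValuationSubring.nonunits)
    (hpole : ∀ Q : Place K Γ, Q ∉ E₀.support →
      ∃ u : Γ, u ∉ Q.toValuationSubring ∧ ∀ Q' ∈ E₀.support, u ∈ Q'.toValuationSubring)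
    (hnc : ∃ u : Γ, (∀ Q' ∈ E₀.support, u ∈ Q'.toValuationSubring) ∧
      ∀ a : K, u ≠ algebraMap K Γ a)
    (hz : ∀ P : Place L F, D P ≠ 0 → ∀ V : ValuationSubring L, (∀ r, j (i r) ∈ V) →
      (∀ r ∈ maximalIdeal R₀, j (i r) ∈ V.nonunits) → S26erigHV E₀.support P V)
    (hy : ∀ P : Place L F, D P ≠ 0 →
      ∃ V : ValuationSubring L, (∀ m, j m ∈ V) ∧ S26erigHV E₀.support P V)
    {k Fb : Type*} [Field k] [Field Fb] [Algebra k Fb]
    (con : Place K Γ → Place L F) (conk : Place K Γ → Place k Fb) (r : Place L F → Place k Fb)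
    (hcon : ∀ (P : Place L F) (Q : Place K Γ),
      P.toValuationSubring.comap (algebraMap Γ F) = Q.toValuationSubring → P = con Q)
    (hrc : ∀ Q, r (con Q) = conk Q) (hinj : Function.Injective conk)
    (hmult : Finsupp.mapDomain r D = Finsupp.mapDomain conk E₀) :
    D = Finsupp.mapDomain con E₀ := by
  refine s26erig_divisor_const con conk r hrc hinj D E₀ (fun P hP => ?_) hmult
  have h4 := s26erig_value_const i j hM hKR E₀.support P (hresF P)
    (fun Q _ => hresΓ Q) (hz P hP) (hy P hP)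
  obtain ⟨Q, -, hQ⟩ := s26erig_place_const' E₀.support P hpole hnc (fun u hu => by
    obtain ⟨h1, Q, -, c₀, -, h2⟩ := h4 u hu
    exact ⟨h1, c₀, h2⟩)
  exact ⟨Q, hcon P Q hQ⟩

end A

universe u v w

variable {K : Type v} {Γ : Type w} {L F : Type u} [Field K] [Field Γ] [Field L] [Field F]
  [Algebra K Γ] [Algebra K L] [Algebra Γ F] [Algebra L F] [Algebra K F]
  [IsScalarTower K Γ F] [IsScalarTower K L F]

/-- **E-RIG = (c), without `hcomp`.** -/
theorem s26erig_main' {R₀ M : Type*} [CommRing R₀] [IsLocalRing R₀] [Field M]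
    (i : R₀ →+* M) (j : M →+* L)
    (hM : ∀ x : L, j.IsIntegralElem x → x ∈ j.range)
    (hKR : ∀ a : K, ∃ r : R₀, j (i r) = algebraMap K L a)
    (E₀ : Divisor K Γ) (Δ : Divisor L F) (con : Place K Γ → Place L F)
    (hpdF : HasPrincipalDivisors L F)
    (hresF : ∀ P : Place L F, ∀ x ∈ P.toValuationSubring, ∃ c : L,
      x - algebraMap L F c ∈ P.toValuationSubring.nonunits)
    (hresΓ : ∀ Q : Place K Γ, ∀ u ∈ Q.toValuationSubring, ∃ c₀ : K,
      u - algebraMap K Γ c₀ ∈ Q.toValuationSubring.nonunits)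
    (hΓL : ∀ (u : Γ) (c : L), algebraMap Γ F u = algebraMap L F c →
      ∃ a : K, u = algebraMap K Γ a)
    (hpole : ∀ Q : Place K Γ, Q ∉ E₀.support →
      ∃ u : Γ, u ∉ Q.toValuationSubring ∧ ∀ Q' ∈ E₀.support, u ∈ Q'.toValuationSubring)
    (hnc : ∃ u : Γ, (∀ Q' ∈ E₀.support, u ∈ Q'.toValuationSubring) ∧
      ∀ a : K, u ≠ algebraMap K Γ a)
    (hcon : ∀ (P : Place L F) (Q : Place K Γ),
      P.toValuationSubring.comap (algebraMap Γ F) = Q.toValuationSubring → P = con Q)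
    (hRR : ∃ f : F, f ≠ 0 ∧ f ∈ riemannRochSpace (Δ + Finsupp.mapDomain con E₀))
    (hz : ∀ V : ValuationSubring L, (∀ r, j (i r) ∈ V) →
      (∀ r ∈ maximalIdeal R₀, j (i r) ∈ V.nonunits) → S26erigRedAt con E₀ Δ V)
    (hy : ∃ V : ValuationSubring L, (∀ m, j m ∈ V) ∧ S26erigRedAt con E₀ Δ V) :
    ∃ G : F, G ≠ 0 ∧ ∀ P : Place L F, P.ord G = Δ P := by
  classical
  obtain ⟨f, hf, hfRR⟩ := hRR
  obtain ⟨divf, hdivf, -⟩ := HasPrincipalDivisors.exists_divisor (K := L) f hf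
  set D : Divisor L F := divf + Δ + Finsupp.mapDomain con E₀ with hDdef
  have hD : ∀ P : Place L F, D P = P.ord f + Δ P + Finsupp.mapDomain con E₀ P := by
    intro P
    rw [hDdef, Finsupp.add_apply, Finsupp.add_apply, hdivf]
  have hD0 : ∀ P, 0 ≤ D P := by
    intro P
    rw [mem_riemannRochSpace_iff] at hfRR
    rcases hfRR P with h0 | h1
    · exact (hf h0).elim
    · rw [hD P]
      rw [Finsupp.add_apply] at h1
      omega
  have hpack : ∀ V : ValuationSubring L, (∀ a : K, algebraMap K L a ∈ V) →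
      S26erigRedAt con E₀ Δ V →
      (∀ P : Place L F, D P ≠ 0 → S26erigHV E₀.support P V) := by
    rintro V hKV ⟨k, Fb, _, _, _, R, r, conk, ιk, rfl, hred, hspec, hE₀k⟩ P hP
    have hmult := hred.mult E₀ Δ D f hf hD hD0 hspec hE₀k
    exact hred.hV hKV hΓL E₀ D hD0 hmult P hP
  have hKz : ∀ V : ValuationSubring L, (∀ r, j (i r) ∈ V) → ∀ a : K, algebraMap K L a ∈ V := by
    intro V hV a
    obtain ⟨r, hr⟩ := hKR a
    rw [← hr]
    exact hV r
  obtain ⟨V₁, hV₁M, hV₁⟩ := hy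
  have hKV₁ : ∀ a : K, algebraMap K L a ∈ V₁ := by
    intro a
    obtain ⟨r, hr⟩ := hKR a
    rw [← hr]
    exact hV₁M _
  have hHV₁ := hpack V₁ hKV₁ hV₁
  obtain ⟨k, Fb, _, _, _, R, r, conk, ιk, hRA, hred, hspec, hE₀k⟩ := hV₁
  have hmult := hred.mult E₀ Δ D f hf hD hD0 hspec hE₀k
  have hDcon : D = Finsupp.mapDomain con E₀ :=
    s26erig_A' i j hM hKR E₀ D hresF hresΓ hpole hnc
      (fun P hP V h1 h2 => hpack V (hKz V h1) (hz V h1 h2) P hP)
      (fun P hP => ⟨V₁, hV₁M, hHV₁ P hP⟩)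
      con conk r hcon hred.r_con hred.conk_inj hmult
  refine ⟨f⁻¹, inv_ne_zero hf, fun P => ?_⟩
  have h1 := hD P
  rw [hDcon] at h1
  rw [Place.ord_inv]
  omega

end Fermat.Agent.S26
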