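/-
S26-E, piece E-RIG (helper97): (c) with the curve facts PROVED.

For `K`, `L` algebraically closed and `x ∈ Γ` transcendental over `K` with `Γ / K(x)` algebraic,
`F / L(x)` algebraic, the hypotheses `hresΓ`, `hresF` (S24), `hnc` (from `x`), `hpole` (weak
approximation, S36/STB) of `s26erig_main'` hold.

* `s26erig_place_arch`, `s26erig_place_not_le` : places are archimedean and pairwise incomparable.
* `s26erig_hpole` : for a place `Q ∉ S` there is `u` regular on `S` with a pole at `Q`.
* `s26erig_hnc`   : there is a nonconstant `u` regular on `S`.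
* `s26erig_main_ac` : (c).
-/
import Fermat.Agent.S26.ERig2
import Fermat.Agent.S24.Residue
import Fermat.Agent.S36.WeakApproxN

set_option autoImplicit false
set_option linter.unusedSectionVars false

namespace Fermat.Agent.S26

open AlgebraicCurve IsLocalRing Fermat.Agent.S24 Fermat.Agent.DEU Fermat.Agent.STB
  Fermat.Agent.S36

section Curve

variable {K Γ : Type*} [Field K] [Field Γ] [Algebra K Γ]

/-- a place is archimedean. -/
theorem s26erig_place_arch (Q : Place K Γ) : StbArch Q.toValuationSubring := by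
  obtain ⟨π, ⟨hπ0, hπ1, hdisc⟩, -⟩ := s26erp_exists_disc Q
  exact stbArch_of_piDisc _ π ((ValuationSubring.mem_nonunits_iff _).2 hπ1) hπ0 hdisc

/-- distinct places are incomparable. -/
theorem s26erig_place_not_le {Q Q' : Place K Γ} (hne : Q ≠ Q') :
    ¬ Q.toValuationSubring ≤ Q'.toValuationSubring := by
  intro hle
  apply hne
  apply Place.ext
  refine le_antisymm hle ?_
  obtain ⟨ϖ, ⟨hϖ0, hϖ1, -⟩, -⟩ := s26erp_exists_disc Q'
  intro x hx
  by_contra hx1
  have hx0 : x ≠ 0 := fun h => hx1 (by rw [h]; exact zero_mem _)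
  have hxinv : x⁻¹ ∈ Q.toValuationSubring.nonunits := by
    rw [ValuationSubring.mem_nonunits_iff_or]
    right
    rw [inv_inv]
    exact hx1
  obtain ⟨N, hN⟩ := s26erig_place_arch Q ϖ⁻¹ x⁻¹ hxinv
  have h3 : ϖ⁻¹ * x⁻¹ ^ N ∈ Q'.toValuationSubring := hle (s26erig_nonunits_mem _ hN)
  have h4 : ϖ⁻¹ ∈ Q'.toValuationSubring := by
    have e : ϖ⁻¹ = ϖ⁻¹ * x⁻¹ ^ N * x ^ N := by
      rw [inv_pow]
      field_simp
    rw [e]
    exact mul_mem h3 (pow_mem hx N)
  have h5 : ϖ ∈ Q'.toValuationSubring.nonunits := (ValuationSubring.mem_nonunits_iff _).2 hϖ1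
  rw [ValuationSubring.mem_nonunits_iff_or] at h5
  rcases h5 with h5 | h5
  · exact hϖ0 h5
  · exact h5 h4

/-- an element of a valuation subring which is not in the maximal ideal has its inverse in the
subring. -/
theorem s26erig_inv_mem_of_not_nonunit (V : ValuationSubring Γ) {t : Γ}
    (ht : t ∉ V.nonunits) : t⁻¹ ∈ V := by
  by_contra h
  exact ht ((ValuationSubring.mem_nonunits_iff_or _).2 (Or.inr h))

/-- **`hpole`** by weak approximation: for a place `Q` outside the finite set `S` there is a
function regular on `S` with a pole at `Q`. -/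
theorem s26erig_hpole (S : Finset (Place K Γ)) (Q : Place K Γ) (hQ : Q ∉ S) :
    ∃ u : Γ, u ∉ Q.toValuationSubring ∧ ∀ Q' ∈ S, u ∈ Q'.toValuationSubring := by
  classical
  let κ := {c : Place K Γ // c ∈ insert Q S}
  let V : κ → ValuationSubring Γ := fun c => c.1.toValuationSubring
  have hinc : ∀ c c' : κ, c ≠ c' → ¬ V c ≤ V c' := fun c c' h =>
    s26erig_place_not_le (fun e => h (Subtype.ext e))
  have hA : ∀ c : κ, StbArch (V c) := fun c => s26erig_place_arch c.1
  obtain ⟨e, he1, he0⟩ := aqw_idem V hinc hA ⟨Q, Finset.mem_insert_self Q S⟩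
  by_cases ht : 1 - e = 0
  · -- then `S` is empty
    have hS : ∀ Q' ∈ S, False := by
      intro Q' hQ'
      have hne : (⟨Q', Finset.mem_insert_of_mem hQ'⟩ : κ) ≠ ⟨Q, Finset.mem_insert_self Q S⟩ := by
        intro h
        apply hQ
        have := congrArg Subtype.val h
        simp only at this
        rw [← this]
        exact hQ'
      have h1 : e ∈ Q'.toValuationSubring.nonunits :=
        he0 ⟨Q', Finset.mem_insert_of_mem hQ'⟩ hne
      have he : e = 1 := (sub_eq_zero.1 ht).symm
      rw [he] at h1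
      rw [ValuationSubring.mem_nonunits_iff, map_one] at h1
      exact lt_irrefl _ h1
    have hne : Q.toValuationSubring ≠ ⊤ := Q.ne_top'
    obtain ⟨u, hu⟩ : ∃ u : Γ, u ∉ Q.toValuationSubring := by
      by_contra hall
      apply hne
      ext u
      simp only [ValuationSubring.mem_top, iff_true]
      by_contra hu
      exact hall ⟨u, hu⟩
    exact ⟨u, hu, fun Q' hQ' => (hS Q' hQ').elim⟩
  · refine ⟨(1 - e)⁻¹, ?_, fun Q' hQ' => ?_⟩
    · have h1 : 1 - e ∈ Q.toValuationSubring.nonunits := by
        have h0 : e - 1 ∈ Q.toValuationSubring.nonunits := he1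
        have := Q.toValuationSubring.nonunits.neg_mem h0
        rwa [neg_sub] at this
      rw [ValuationSubring.mem_nonunits_iff_or] at h1
      rcases h1 with h1 | h1
      · exact (ht h1).elim
      · exact h1
    · have hne : (⟨Q', Finset.mem_insert_of_mem hQ'⟩ : κ) ≠ ⟨Q, Finset.mem_insert_self Q S⟩ := by
        intro h
        apply hQ
        have := congrArg Subtype.val h
        simp only at this
        rw [← this]
        exact hQ'
      have h1 : e ∈ Q'.toValuationSubring.nonunits :=
        he0 ⟨Q', Finset.mem_insert_of_mem hQ'⟩ hne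
      apply s26erig_inv_mem_of_not_nonunit
      intro h2
      have h3 : (1 : Γ) ∈ Q'.toValuationSubring.nonunits := by
        have := Q'.toValuationSubring.nonunits.add_mem h2 h1
        rwa [sub_add_cancel] at this
      rw [ValuationSubring.mem_nonunits_iff, map_one] at h3
      exact lt_irrefl _ h3

/-- **`hnc`**: a nonconstant function regular on the finite set `S`. -/
theorem s26erig_hnc [Infinite K] (S : Finset (Place K Γ)) (x : Γ) (hx : Transcendental K x) :
    ∃ u : Γ, (∀ Q' ∈ S, u ∈ Q'.toValuationSubring) ∧ ∀ a : K, u ≠ algebraMap K Γ a := by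
  classical
  -- the bad constants
  let B : Set K := ⋃ Q ∈ S, {c : K | x - algebraMap K Γ c ∈ Q.toValuationSubring.nonunits}
  have hB : B.Finite := by
    refine Set.Finite.biUnion S.finite_toSet (fun Q _ => ?_)
    refine Set.Subsingleton.finite ?_
    intro c hc c' hc'
    have hc1 : x - algebraMap K Γ c ∈ Q.toValuationSubring.nonunits := hc
    have hc2 : x - algebraMap K Γ c' ∈ Q.toValuationSubring.nonunits := hc'
    have h1 : algebraMap K Γ c' - algebraMap K Γ c ∈ Q.toValuationSubring.nonunits := by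
      have := Q.toValuationSubring.nonunits.sub_mem hc1 hc2
      have e : x - algebraMap K Γ c - (x - algebraMap K Γ c') =
          algebraMap K Γ c' - algebraMap K Γ c := by ring
      rwa [e] at this
    exact (s26erig_eq_of_sub_mem_nonunits (algebraMap K Γ) Q.toValuationSubring
      Q.algebraMap_mem' c' c h1).symm
  obtain ⟨c, hc⟩ := hB.exists_notMem
  have hxc : x - algebraMap K Γ c ≠ 0 := by
    intro h
    apply hx
    rw [sub_eq_zero.1 h]
    exact isAlgebraic_algebraMap c
  refine ⟨(x - algebraMap K Γ c)⁻¹, fun Q hQ => ?_, fun a ha => ?_⟩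
  · apply s26erig_inv_mem_of_not_nonunit
    intro h
    apply hc
    simp only [B, Set.mem_iUnion]
    exact ⟨Q, hQ, h⟩
  · apply hx
    have ha0 : a ≠ 0 := by
      rintro rfl
      rw [map_zero] at ha
      exact hxc (inv_eq_zero.1 ha)
    have hxa : x = algebraMap K Γ (a⁻¹ + c) := by
      rw [map_add, map_inv₀, ← ha, inv_inv, sub_add_cancel]
    rw [hxa]
    exact isAlgebraic_algebraMap _

end Curve

universe u v w

variable {K : Type v} {Γ : Type w} {L F : Type u} [Field K] [Field Γ] [Field L] [Field F]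
  [Algebra K Γ] [Algebra K L] [Algebra Γ F] [Algebra L F] [Algebra K F]
  [IsScalarTower K Γ F] [IsScalarTower K L F]

/-- **E-RIG = (c)**, for algebraically closed `K ⊆ L`, with the curve facts proved. -/
theorem s26erig_main_ac [IsAlgClosed K] [IsAlgClosed L]
    {R₀ M : Type*} [CommRing R₀] [IsLocalRing R₀] [Field M]
    (i : R₀ →+* M) (j : M →+* L)
    (hM : ∀ x : L, j.IsIntegralElem x → x ∈ j.range)
    (hKR : ∀ a : K, ∃ r : R₀, j (i r) = algebraMap K L a)
    (x : Γ) (hx : Transcendental K x)
    (halgΓ : Algebra.IsAlgebraic (IntermediateField.adjoin K {x}) Γ)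
    (hxF : Transcendental L (algebraMap Γ F x))
    (halgF : Algebra.IsAlgebraic (IntermediateField.adjoin L {algebraMap Γ F x}) F)
    (E₀ : Divisor K Γ) (Δ : Divisor L F) (con : Place K Γ → Place L F)
    (hpdF : HasPrincipalDivisors L F)
    (hΓL : ∀ (u : Γ) (c : L), algebraMap Γ F u = algebraMap L F c →
      ∃ a : K, u = algebraMap K Γ a)
    (hcon : ∀ (P : Place L F) (Q : Place K Γ),
      P.toValuationSubring.comap (algebraMap Γ F) = Q.toValuationSubring → P = con Q)
    (hRR : ∃ f : F, f ≠ 0 ∧ f ∈ riemannRochSpace (Δ + Finsupp.mapDomain con E₀))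
    (hz : ∀ V : ValuationSubring L, (∀ r, j (i r) ∈ V) →
      (∀ r ∈ maximalIdeal R₀, j (i r) ∈ V.nonunits) → S26erigRedAt con E₀ Δ V)
    (hy : ∃ V : ValuationSubring L, (∀ m, j m ∈ V) ∧ S26erigRedAt con E₀ Δ V) :
    ∃ G : F, G ≠ 0 ∧ ∀ P : Place L F, P.ord G = Δ P :=
  s26erig_main' i j hM hKR E₀ Δ con hpdF
    (fun P a ha => exists_sub_mem_nonunits (algebraMap Γ F x) hxF halgF P a ha)
    (fun Q u hu => exists_sub_mem_nonunits x hx halgΓ Q u hu)
    hΓL (fun Q hQ => s26erig_hpole E₀.support Q hQ)
    (s26erig_hnc E₀.support x hx) hcon hRR hz hy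

end Fermat.Agent.S26
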