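/-
S26-E, piece E-RIG (helper97), part V: the SYMMETRIC form of (c).

`s26erig_main_ac` (ERig3.lean) still asks for a field `M` algebraically closed in `L`, for
`hKR`, and for ONE valuation subring `V ⊇ M` with reduction data (`hy`).  Here these are
discharged:

* `s26erig_exists_centre` (RIG-V): `K` algebraically closed, `𝔉 ⊆ L` a subfield, `B` a local
  `K`-domain with `𝔉 ⊗[K] B → L` injective: there is a valuation subring `V` of `L` which
  contains every element of `L` integral over `𝔉` and dominates the image of `B`.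
  [helper80's `s26eracMu'_injective` + `s26erig_exists_valuation_over`.]
* `s26erig_main_sym`: (c) with the two hypotheses `hz`, `hy` in the SAME shape
  ("for every valuation subring of `L` dominating the image of the local ring of `z`
  (resp. `y`) there are reduction data"), and the independence of `z` and `y`.
-/
import Fermat.Agent.S26.ERig3
import Fermat.Agent.S26.ERAlgCl

set_option autoImplicit false
set_option linter.style.haveILetI false
set_option linter.unusedSectionVars false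

noncomputable section

namespace Fermat.Agent.S26

open TensorProduct IsLocalRing AlgebraicCurve

section RigV

variable {K 𝔉 B L : Type*} [Field K] [IsAlgClosed K] [Field 𝔉] [CommRing B] [IsDomain B]
  [IsLocalRing B] [Field L] [Algebra K 𝔉] [Algebra K B] [Algebra K L] [Algebra 𝔉 L]
  [IsScalarTower K 𝔉 L]

/-- **(RIG-V)**: a valuation subring of `L` containing the algebraic closure of `𝔉` in `L` and
dominating the image of the local domain `B`, when `𝔉 ⊗[K] B → L` is injective. -/
theorem s26erig_exists_centre (jy : B →ₐ[K] L)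
    (hμ : Function.Injective (s26eracMu (F := 𝔉) jy)) :
    ∃ V : ValuationSubring L, (∀ x : L, IsIntegral 𝔉 x → x ∈ V) ∧ (∀ b : B, jy b ∈ V) ∧
      ∀ b ∈ maximalIdeal B, jy b ∈ V.nonunits := by
  classical
  have hτ : Function.Injective (s26eracMu' (F := 𝔉) jy) := s26eracMu'_injective jy hμ
  let q : B →ₐ[K] ResidueField B := IsScalarTower.toAlgHom K B (ResidueField B)
  let π : (s26eracCl 𝔉 L) ⊗[K] B →ₐ[K] (s26eracCl 𝔉 L) ⊗[K] ResidueField B :=
    Algebra.TensorProduct.map (AlgHom.id K (s26eracCl 𝔉 L)) q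
  have hI : RingHom.ker π.toRingHom ≠ ⊤ := by
    haveI : Nontrivial ((s26eracCl 𝔉 L) ⊗[K] ResidueField B) :=
      Algebra.TensorProduct.nontrivial_of_algebraMap_injective_of_isDomain K
        (s26eracCl 𝔉 L) (ResidueField B) (algebraMap K (s26eracCl 𝔉 L)).injective
        (algebraMap K (ResidueField B)).injective
    exact RingHom.ker_ne_top _
  have hker : RingHom.ker (s26eracMu' (F := 𝔉) jy).toRingHom ≤ RingHom.ker π.toRingHom := by
    have h0 : RingHom.ker (s26eracMu' (F := 𝔉) jy).toRingHom = ⊥ :=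
      (RingHom.injective_iff_ker_eq_bot (s26eracMu' (F := 𝔉) jy).toRingHom).1 hτ
    rw [h0]
    exact bot_le
  obtain ⟨V, hV1, hV2⟩ := s26erig_exists_valuation_over
    (s26eracMu' (F := 𝔉) jy).toRingHom (RingHom.ker π.toRingHom) hI hker
  refine ⟨V, fun x hx => ?_, fun b => ?_, fun b hb => ?_⟩
  · have h := hV1 ((⟨x, hx⟩ : s26eracCl 𝔉 L) ⊗ₜ[K] (1 : B))
    have e : (s26eracMu' (F := 𝔉) jy).toRingHom
        ((⟨x, hx⟩ : s26eracCl 𝔉 L) ⊗ₜ[K] (1 : B)) = x := by
      change s26eracMu' (F := 𝔉) jy ((⟨x, hx⟩ : s26eracCl 𝔉 L) ⊗ₜ[K] (1 : B)) = x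
      rw [s26eracMu'_tmul, map_one, mul_one]
    rwa [e] at h
  · have h := hV1 ((1 : s26eracCl 𝔉 L) ⊗ₜ[K] b)
    have e : (s26eracMu' (F := 𝔉) jy).toRingHom ((1 : s26eracCl 𝔉 L) ⊗ₜ[K] b) = jy b := by
      change s26eracMu' (F := 𝔉) jy ((1 : s26eracCl 𝔉 L) ⊗ₜ[K] b) = jy b
      rw [s26eracMu'_tmul]
      simp
    rwa [e] at h
  · have hmem : (1 : s26eracCl 𝔉 L) ⊗ₜ[K] b ∈ RingHom.ker π.toRingHom := by
      rw [RingHom.mem_ker]
      change π ((1 : s26eracCl 𝔉 L) ⊗ₜ[K] b) = 0
      have hq : q b = 0 := by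
        change algebraMap B (ResidueField B) b = 0
        rw [IsLocalRing.ResidueField.algebraMap_eq, IsLocalRing.residue_eq_zero_iff]
        exact hb
      simp [π, hq]
    have h := hV2 _ hmem
    have e : (s26eracMu' (F := 𝔉) jy).toRingHom ((1 : s26eracCl 𝔉 L) ⊗ₜ[K] b) = jy b := by
      change s26eracMu' (F := 𝔉) jy ((1 : s26eracCl 𝔉 L) ⊗ₜ[K] b) = jy b
      rw [s26eracMu'_tmul]
      simp
    rwa [e] at h

end RigV

universe u v w

variable {K : Type v} {Γ : Type w} {L F : Type u} [Field K] [Field Γ] [Field L] [Field F]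
  [Algebra K Γ] [Algebra K L] [Algebra Γ F] [Algebra L F] [Algebra K F]
  [IsScalarTower K Γ F] [IsScalarTower K L F]

/-- **E-RIG = (c), symmetric form.**  `z` and `y` enter through the local rings `Rz`, `Ry`
(of `A` at `0`) and their images in `L`; `𝔉` is the field of `z`.  The two hypotheses `hz`,
`hy` have the same shape: reduction data along EVERY valuation subring of `L` which dominates
the image of `Rz` (resp. `Ry`). -/
theorem s26erig_main_sym [IsAlgClosed K] [IsAlgClosed L]
    {Rz Ry 𝔉 : Type*} [CommRing Rz] [IsLocalRing Rz] [CommRing Ry] [IsLocalRing Ry]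
    [IsDomain Ry] [Field 𝔉] [Algebra K Ry] [Algebra K 𝔉]
    (ιz : Rz →+* 𝔉) (jz : 𝔉 →ₐ[K] L) (jy : Ry →ₐ[K] L)
    (hKz : ∀ a : K, ∃ r : Rz, ιz r = algebraMap K 𝔉 a)
    (hind : Function.Injective (Algebra.TensorProduct.productMap jz jy))
    (x : Γ) (hx : Transcendental K x)
    (halgΓ : Algebra.IsAlgebraic (IntermediateField.adjoin K {x}) Γ)
    (hxF : Transcendental L (algebraMap Γ F x))
    (halgF : Algebra.IsAlgebraic (IntermediateField.adjoin L {algebraMap Γ F x}) F)
    (E₀ : Divisor K Γ) (Δ : Divisor L F) (con : Place K Γ → Place L F)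
    (hpdF : HasPrincipalDivisors L F)
    (hΓL : ∀ (u : Γ) (c : L), algebraMap Γ F u = algebraMap L F c →
      ∃ a : K, u = algebraMap K Γ a)
    (hcon : ∀ (P : Place L F) (Q : Place K Γ),
      P.toValuationSubring.comap (algebraMap Γ F) = Q.toValuationSubring → P = con Q)
    (hRR : ∃ f : F, f ≠ 0 ∧ f ∈ riemannRochSpace (Δ + Finsupp.mapDomain con E₀))
    (hz : ∀ V : ValuationSubring L, (∀ r, jz (ιz r) ∈ V) →
      (∀ r ∈ maximalIdeal Rz, jz (ιz r) ∈ V.nonunits) → S26erigRedAt con E₀ Δ V)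
    (hy : ∀ V : ValuationSubring L, (∀ r, jy r ∈ V) →
      (∀ r ∈ maximalIdeal Ry, jy r ∈ V.nonunits) → S26erigRedAt con E₀ Δ V) :
    ∃ G : F, G ≠ 0 ∧ ∀ P : Place L F, P.ord G = Δ P := by
  letI : Algebra 𝔉 L := jz.toRingHom.toAlgebra
  haveI : IsScalarTower K 𝔉 L := IsScalarTower.of_algebraMap_eq (fun a => (jz.commutes a).symm)
  have hjz : ∀ t : 𝔉, algebraMap 𝔉 L t = jz t := fun _ => rfl
  have hμ : Function.Injective (s26eracMu (F := 𝔉) jy) := by
    have e : s26eracMu (F := 𝔉) jy = Algebra.TensorProduct.productMap jz jy := by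
      apply Algebra.TensorProduct.ext'
      intro a b
      simp [s26eracMu, hjz]
    rw [e]
    exact hind
  obtain ⟨V, hV1, hV2, hV3⟩ := s26erig_exists_centre (𝔉 := 𝔉) jy hμ
  let M : IntermediateField 𝔉 L := algebraicClosure 𝔉 L
  let i : Rz →+* M := (algebraMap 𝔉 M).comp ιz
  let j : M →+* L := algebraMap M L
  have hji : ∀ r, j (i r) = jz (ιz r) := fun _ => rfl
  have hM : ∀ x : L, j.IsIntegralElem x → x ∈ j.range := by
    intro x hx
    have h1 : IsIntegral M x := hx
    have h2 : IsIntegral 𝔉 x := isIntegral_trans x h1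
    exact ⟨⟨x, mem_algebraicClosure_iff'.2 h2⟩, rfl⟩
  have hKR : ∀ a : K, ∃ r : Rz, j (i r) = algebraMap K L a := by
    intro a
    obtain ⟨r, hr⟩ := hKz a
    refine ⟨r, ?_⟩
    rw [hji, hr]
    exact jz.commutes a
  refine s26erig_main_ac i j hM hKR x hx halgΓ hxF halgF E₀ Δ con hpdF hΓL hcon hRR
    (fun W h1 h2 => hz W (fun r => by rw [← hji]; exact h1 r)
      (fun r hr => by rw [← hji]; exact h2 r hr))
    ⟨V, fun m => hV1 _ (mem_algebraicClosure_iff'.1 m.2), hy V hV2 hV3⟩

end Fermat.Agent.S26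

end
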