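/-
S26-E, TI hub leaf **TI-VAL** (helper25): the CONCRETE valuation data of (c) = E-RIG.

helper97's `s26erig_main_sym` (S26/ERigV.lean) is abstract in the local rings `Rz`, `Ry` and the
field `𝔉`.  Here they are `𝒪_{A,0}` and `K(A) = s26F f`, and the two hypotheses `hz`, `hy` are
translated into the language of POINTS (`S26eSpOneV`, PlanE2):

* `s26etivIota f G : 𝒪_{A,0} →+* s26F f`, injective; `s26etivIotaAlg` (as a `K`-algebra map for
  the `K`-algebra structure `s26elfwAlgebra` of the stalk); `s26etiv_hKz`;
* `s26etiv_over`    : a valuation subring of `L` containing `j(𝒪_{A,0})` is over `K`;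
* `s26etiv_centre`  : **(V1)** if `V` DOMINATES `j(𝒪_{A,0})` then the centre of `s26ePt f j`
                      along `V` is `0`;  `s26etiv_spOneV` : ... and `sp_V (s26ePt f j) = G.one`;
* `s26etiv_hind`    : `𝔉 ⊗ 𝔉 → L` injective ⇒ `𝔉 ⊗ 𝒪_{A,0} → L` injective;
* `s26etiv_main`    : **(c) in the language of points**: `s26erig_main_sym` with
                      `hz`, `hy : ∀ V over K, sp_V(z) = one → S26erigRedAt con E₀ Δ V`.
-/
import Fermat.Agent.S26.ERigV
import Fermat.Agent.S26.EPTGen
import Fermat.Agent.S26.EZero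
import Fermat.Agent.S26.PlanE3

set_option autoImplicit false
set_option linter.style.haveILetI false
set_option linter.unusedSectionVars false

noncomputable section

namespace Fermat.Agent.S26

open CategoryTheory CategoryTheory.Limits AlgebraicGeometry NeronModelInfra GoodReductionJacobian
open scoped TensorProduct

universe u

variable {K : Type u} [Field K] {A : Scheme.{u}} (f : A ⟶ Spec (CommRingCat.of K))
  (G : RelativeGroupLaw K f) [IsIntegral A]

/-- `ι : 𝒪_{A,0} → K(A)` -/
def s26etivIota : A.presheaf.stalk (s26zero f G) →+* s26F f :=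
  algebraMap (A.presheaf.stalk (s26zero f G)) A.functionField

theorem s26etivIota_injective : Function.Injective (s26etivIota f G) :=
  IsFractionRing.injective (A.presheaf.stalk (s26zero f G)) A.functionField

theorem s26etivIota_stalkMap (a : K) :
    s26etivIota f G (s26elfwStalkMap f (s26zero f G) a) = algebraMap K (s26F f) a := by
  haveI : Nonempty (⊤ : A.Opens) := ⟨⟨genericPoint A, trivial⟩⟩
  exact Scheme.algebraMap_germ_eq_germToFunctionField (X := A) (U := ⊤)
    (x := s26zero f G) trivial
    (f.appTop.hom ((Scheme.ΓSpecIso (CommRingCat.of K)).inv.hom a))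

/-- **(hKz)** -/
theorem s26etiv_hKz (a : K) :
    ∃ r : A.presheaf.stalk (s26zero f G), s26etivIota f G r = algebraMap K (s26F f) a :=
  ⟨_, s26etivIota_stalkMap f G a⟩

/-- `ι` as a `K`-algebra homomorphism, for the `K`-algebra structure `s26elfwAlgebra`. -/
def s26etivIotaAlg :
    letI := s26elfwAlgebra f (s26zero f G)
    A.presheaf.stalk (s26zero f G) →ₐ[K] s26F f :=
  letI := s26elfwAlgebra f (s26zero f G)
  { s26etivIota f G with commutes' := fun a => s26etivIota_stalkMap f G a }

section Val

variable {L : Type u} [Field L] [Algebra K L] (j : s26F f →ₐ[K] L) (V : ValuationSubring L)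

/-- a valuation subring containing `j(𝒪_{A,0})` is over `K`. -/
theorem s26etiv_over
    (h1 : ∀ r : A.presheaf.stalk (s26zero f G), j (s26etivIota f G r) ∈ V) :
    S26erOver K V := by
  intro a
  obtain ⟨r, hr⟩ := s26etiv_hKz f G a
  have h := h1 r
  rwa [hr, j.commutes] at h

/-- the homomorphism `𝒪_{A,0} → V` induced by `j` -/
def s26etivG (h1 : ∀ r : A.presheaf.stalk (s26zero f G), j (s26etivIota f G r) ∈ V) :
    A.presheaf.stalk (s26zero f G) →+* V :=
  ((j : s26F f →+* L).comp (s26etivIota f G)).codRestrict V.toSubring h1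

theorem s26etivG_coe
    (h1 : ∀ r : A.presheaf.stalk (s26zero f G), j (s26etivIota f G r) ∈ V)
    (r : A.presheaf.stalk (s26zero f G)) :
    ((s26etivG f G j V h1 r : V) : L) = j (s26etivIota f G r) := rfl

theorem s26etivG_isLocalHom
    (h1 : ∀ r : A.presheaf.stalk (s26zero f G), j (s26etivIota f G r) ∈ V)
    (h2 : ∀ r ∈ IsLocalRing.maximalIdeal (A.presheaf.stalk (s26zero f G)),
      j (s26etivIota f G r) ∈ V.nonunits) :
    IsLocalHom (s26etivG f G j V h1) := by
  constructor
  intro r hr
  by_contra hnu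
  have hm : r ∈ IsLocalRing.maximalIdeal (A.presheaf.stalk (s26zero f G)) :=
    (IsLocalRing.mem_maximalIdeal r).mpr hnu
  have h3 := h2 r hm
  rw [← s26etivG_coe f G j V h1 r, ValuationSubring.mem_nonunits_iff_exists_mem_maximalIdeal]
    at h3
  obtain ⟨ha, hmem⟩ := h3
  exact (IsLocalRing.mem_maximalIdeal _).mp hmem hr

variable [IsProper f]

/-- **(V1), centre form**: if `V` dominates `j(𝒪_{A,0})`, the centre of the generic point
`s26ePt f j` along `V` is the zero point of `A`. -/
theorem s26etiv_centre
    (h1 : ∀ r : A.presheaf.stalk (s26zero f G), j (s26etivIota f G r) ∈ V)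
    (h2 : ∀ r ∈ IsLocalRing.maximalIdeal (A.presheaf.stalk (s26zero f G)),
      j (s26etivIota f G r) ∈ V.nonunits) :
    s26emCentre (s26eLiftV f V (s26etiv_over f G j V h1) (s26ePt f j)) = s26zero f G := by
  letI := s26eAlgV V (s26etiv_over f G j V h1)
  haveI := s26eAlgV_tower V (s26etiv_over f G j V h1)
  haveI := s26etivG_isLocalHom f G j V h1 h2
  exact (s26eptCentre_pt_of_dom f j (s26zero f G) (s26etivG f G j V h1) (fun x => rfl)).1

/-- **(V1), point form**: if `V` dominates `j(𝒪_{A,0})`, then `sp_V (s26ePt f j) = G.one`. -/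
theorem s26etiv_spOneV [IsAlgClosed K]
    (h1 : ∀ r : A.presheaf.stalk (s26zero f G), j (s26etivIota f G r) ∈ V)
    (h2 : ∀ r ∈ IsLocalRing.maximalIdeal (A.presheaf.stalk (s26zero f G)),
      j (s26etivIota f G r) ∈ V.nonunits) :
    S26eSpOneV f G (s26ePt f j) V (s26etiv_over f G j V h1) :=
  s26ez_spOneV_of_centre f G (s26ePt f j) V (s26etiv_over f G j V h1)
    (s26etiv_centre f G j V h1 h2)

end Val

section Ind

variable {L : Type u} [Field L] [Algebra K L] (jz jy : s26F f →ₐ[K] L)

/-- the embedding of `y` restricted to `𝒪_{A,0}` -/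
def s26etivJy :
    letI := s26elfwAlgebra f (s26zero f G)
    A.presheaf.stalk (s26zero f G) →ₐ[K] L :=
  letI := s26elfwAlgebra f (s26zero f G)
  jy.comp (s26etivIotaAlg f G)

theorem s26etivJy_apply (r : A.presheaf.stalk (s26zero f G)) :
    s26etivJy f G jy r = jy (s26etivIota f G r) := rfl

/-- **(hind)**: `𝔉 ⊗ 𝔉 → L` injective ⇒ `𝔉 ⊗ 𝒪_{A,0} → L` injective. -/
theorem s26etiv_hind (h : Function.Injective (Algebra.TensorProduct.productMap jz jy)) :
    letI := s26elfwAlgebra f (s26zero f G)
    Function.Injective (Algebra.TensorProduct.productMap jz (s26etivJy f G jy)) := by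
  letI := s26elfwAlgebra f (s26zero f G)
  have h1 : Function.Injective
      (LinearMap.lTensor (s26F f) (s26etivIotaAlg f G).toLinearMap) :=
    Module.Flat.lTensor_preserves_injective_linearMap _ (s26etivIota_injective f G)
  have h2 : ∀ z, Algebra.TensorProduct.productMap jz (s26etivJy f G jy) z =
      Algebra.TensorProduct.productMap jz jy
        (LinearMap.lTensor (s26F f) (s26etivIotaAlg f G).toLinearMap z) := by
    intro z
    induction z using TensorProduct.induction_on with
    | zero => simp
    | tmul a b =>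
      simp only [Algebra.TensorProduct.productMap_apply_tmul, LinearMap.lTensor_tmul,
        AlgHom.toLinearMap_apply]
      rfl
    | add z₁ z₂ h₁ h₂ => rw [map_add, map_add, map_add, h₁, h₂]
  intro z₁ z₂ hz
  rw [h2, h2] at hz
  exact h1 (h hz)

end Ind

section Main

open AlgebraicCurve

universe w

variable {Γ : Type w} {L F : Type u} [Field Γ] [Field L] [Field F]
  [Algebra K Γ] [Algebra K L] [Algebra Γ F] [Algebra L F] [Algebra K F]
  [IsScalarTower K Γ F] [IsScalarTower K L F]

/-- **(c) = E-RIG in the language of points.**  `z = s26ePt f jz`, `y = s26ePt f jy` two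
independent generic points of `A` with values in `L`; reduction data are asked along the
valuation subrings `V` of `L` over `K` with `sp_V z = 0`, and along those with `sp_V y = 0`. -/
theorem s26etiv_main [IsAlgClosed K] [IsAlgClosed L] [IsProper f]
    (jz jy : s26F f →ₐ[K] L)
    (hind : Function.Injective (Algebra.TensorProduct.productMap jz jy))
    (x : Γ) (hx : Transcendental K x)
    (halgΓ : Algebra.IsAlgebraic (IntermediateField.adjoin K {x}) Γ)
    (hxF : Transcendental L (algebraMap Γ F x))
    (halgF : Algebra.IsAlgebraic (IntermediateField.adjoin L {algebraMap Γ F x}) F)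
    (E₀ : Divisor K Γ) (Δ : Divisor L F) (con : Place K Γ → Place L F)
    (hpdF : HasPrincipalDivisors L F)
    (hΓL : ∀ (u : Γ) (c : L), algebraMap Γ F u = algebraMap L F c →
      ∃ a : K, u = algebraMap K Γ a)
    (hcon : ∀ (P : Place L F) (Q : Place K Γ),
      P.toValuationSubring.comap (algebraMap Γ F) = Q.toValuationSubring → P = con Q)
    (hRR : ∃ φ : F, φ ≠ 0 ∧ φ ∈ riemannRochSpace (Δ + Finsupp.mapDomain con E₀))
    (hz : ∀ (V : ValuationSubring L) (hV : S26erOver K V),
      S26eSpOneV f G (s26ePt f jz) V hV → S26erigRedAt con E₀ Δ V)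
    (hy : ∀ (V : ValuationSubring L) (hV : S26erOver K V),
      S26eSpOneV f G (s26ePt f jy) V hV → S26erigRedAt con E₀ Δ V) :
    ∃ Φ : F, Φ ≠ 0 ∧ ∀ P : Place L F, P.ord Φ = Δ P := by
  letI := s26elfwAlgebra f (s26zero f G)
  exact s26erig_main_sym (s26etivIota f G) jz (s26etivJy f G jy) (s26etiv_hKz f G)
    (s26etiv_hind f G jz jy hind) x hx halgΓ hxF halgF E₀ Δ con hpdF hΓL hcon hRR
    (fun V h1 h2 => hz V (s26etiv_over f G jz V h1) (s26etiv_spOneV f G jz V h1 h2))
    (fun V h1 h2 => hy V (s26etiv_over f G jy V h1) (s26etiv_spOneV f G jy V h1 h2))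

end Main

end Fermat.Agent.S26
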