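/-
S26-E, **(NV)** = `s26e_StmtNV` (`S26/ECInd.lean`), independent DOUBLE (helper11) of helper19's CZ.

`b ∈ A(W)` specialises to the zero point along `V_b ⊂ W`; `Ω ⊇ W, 𝔉, 𝔉` independent, with the
generic points `y = η_{j₁}`, `z = η_{j₂}`.  Then

* `s26nv2_common`   : there is ONE valuation subring `V₀` of `Ω` over `K` which dominates `ιW V_b`,
  `j₁ 𝒪_{A,0}` and `j₂ 𝒪_{A,0}` (helper19's `s26ecz_exists_val₃`, `S26/ECZeroAlg.lean`);
* `s26nv2_sp_b`, `s26nv2_sp_pt` : `sp_{V₀} (ιW b) = 0`, `sp_{V₀} η_j = 0` (helper25's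
  `s26etiv_centre`, helper73's `s26env_spOneV_of_centre`);
* `s26nv2_sp_mul`   : the points specialising to `0` along `V₀` are stable under `G.mul`;
* `s26nv2_gen_ne_zero` : a point specialising to `0` along ONE `V₀` has image in `U`, so its
  generator does not vanish at ANY valuation subring (helper5's `s26emr_ne_zero`);
* **`s26nv2_stmtNV : s26e_StmtNV`**.
-/
import Fermat.Agent.S26.ECInd
import Fermat.Agent.S26.ECZeroAlg
import Fermat.Agent.S26.ENonVan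
import Fermat.Agent.S26.ETiVal
import Fermat.Agent.S26.EMRel
import Fermat.Agent.S26.ETiNormC

set_option autoImplicit false
set_option linter.style.haveILetI false
set_option linter.unusedSectionVars false
set_option linter.unusedVariables false

noncomputable section

namespace Fermat.Agent.S26

open CategoryTheory CategoryTheory.Limits AlgebraicGeometry NeronModelInfra GoodReductionJacobian
open scoped TensorProduct

universe u

variable {K : Type u} [Field K] {A : Scheme.{u}} (f : A ⟶ Spec (CommRingCat.of K))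
  (G : RelativeGroupLaw K f)

section Common

variable [IsIntegral A] {W Ω : Type u} [Field W] [Field Ω] [Algebra K W] [Algebra K Ω]

/-- **the common valuation subring**: `V₀ ⊂ Ω` over `K` dominating `ιW V_b`, `j₁ 𝒪_{A,0}` and
`j₂ 𝒪_{A,0}`. -/
theorem s26nv2_common (ιW : W →ₐ[K] Ω) (j₁ j₂ : s26F f →ₐ[K] Ω)
    (hinj : Function.Injective (Algebra.TensorProduct.productMap
      (Algebra.TensorProduct.productMap ιW j₁) j₂))
    (Vb : ValuationSubring W) (hVb : S26erOver K Vb) :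
    ∃ V₀ : ValuationSubring Ω, S26erOver K V₀ ∧
      ((∀ x : W, x ∈ Vb → ιW x ∈ V₀) ∧ ∀ x : W, x ∈ Vb.nonunits → ιW x ∈ V₀.nonunits) ∧
      ((∀ r : A.presheaf.stalk (s26zero f G), j₁ (s26etivIota f G r) ∈ V₀) ∧
        ∀ r ∈ IsLocalRing.maximalIdeal (A.presheaf.stalk (s26zero f G)),
          j₁ (s26etivIota f G r) ∈ V₀.nonunits) ∧
      ((∀ r : A.presheaf.stalk (s26zero f G), j₂ (s26etivIota f G r) ∈ V₀) ∧
        ∀ r ∈ IsLocalRing.maximalIdeal (A.presheaf.stalk (s26zero f G)),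
          j₂ (s26etivIota f G r) ∈ V₀.nonunits) := by
  letI := s26eAlgV Vb hVb
  haveI := s26eAlgV_tower Vb hVb
  letI := s26elfwAlgebra f (s26zero f G)
  obtain ⟨V₀, h0, ⟨h1a, h1b⟩, ⟨h2a, h2b⟩, ⟨h3a, h3b⟩⟩ :=
    s26ecz_exists_val₃ (K := K) (Ω := Ω)
      (s26eptIncl (K := K) W Vb) (s26etivIotaAlg f G) (s26etivIotaAlg f G)
      (fun x y h => Subtype.ext h) (s26etivIota_injective f G) (s26etivIota_injective f G)
      (s26eptRes (K := K) Vb)
      (IsScalarTower.toAlgHom K (A.presheaf.stalk (s26zero f G))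
        (IsLocalRing.ResidueField (A.presheaf.stalk (s26zero f G))))
      (IsScalarTower.toAlgHom K (A.presheaf.stalk (s26zero f G))
        (IsLocalRing.ResidueField (A.presheaf.stalk (s26zero f G))))
      ιW j₁ j₂ hinj
  refine ⟨V₀, h0, ⟨fun x hx => h1a ⟨x, hx⟩, fun x hx => ?_⟩, ⟨h2a, fun r hr => ?_⟩,
    ⟨h3a, fun r hr => ?_⟩⟩
  · have hxV : x ∈ Vb := by
      rw [ValuationSubring.mem_nonunits_iff] at hx
      exact (Vb.valuation_le_one_iff x).mp hx.le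
    refine h1b ⟨x, hxV⟩ ?_
    show IsLocalRing.residue ↥Vb ⟨x, hxV⟩ = 0
    rw [IsLocalRing.residue_eq_zero_iff, IsLocalRing.mem_maximalIdeal, mem_nonunits_iff,
      s26espb_isUnit_iff_notMem, not_not]
    exact hx
  · refine h2b r ?_
    show IsLocalRing.residue _ r = 0
    rwa [IsLocalRing.residue_eq_zero_iff]
  · refine h3b r ?_
    show IsLocalRing.residue _ r = 0
    rwa [IsLocalRing.residue_eq_zero_iff]

end Common

section Sp

variable [IsProper f] {W Ω : Type u} [Field W] [Field Ω] [Algebra K W] [Algebra K Ω]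

/-- `sp_{V_b} b = 0 ⇒ sp_{V₀} (ιW b) = 0` if `V₀` dominates `ιW V_b` -/
theorem s26nv2_sp_b (ιW : W →ₐ[K] Ω) (Vb : ValuationSubring W) (hVb : S26erOver K Vb)
    (V₀ : ValuationSubring Ω) (hV₀ : S26erOver K V₀)
    (h1 : ∀ x : W, x ∈ Vb → ιW x ∈ V₀) (h2 : ∀ x : W, x ∈ Vb.nonunits → ιW x ∈ V₀.nonunits)
    (b : s26eptPts f W) (hb : S26eSpOneV f G b Vb hVb) :
    S26eSpOneV f G (s26eptMap f ιW b) V₀ hV₀ := by
  letI := s26eAlgV Vb hVb
  haveI := s26eAlgV_tower Vb hVb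
  letI := s26eAlgV V₀ hV₀
  haveI := s26eAlgV_tower V₀ hV₀
  haveI : IsLocalHom (s26etinJ ιW Vb hVb V₀ hV₀ h1) := by
    refine ⟨fun x hx => ?_⟩
    rw [s26espb_isUnit_iff_notMem] at hx ⊢
    exact fun h => hx (h2 _ h)
  exact s26etin_sp_map_one f G ιW (s26etinJ ιW Vb hVb V₀ hV₀ h1) (fun _ => rfl) b hb

/-- `sp_{V₀} η_j = 0` if `V₀` dominates `j 𝒪_{A,0}` -/
theorem s26nv2_sp_pt [IsIntegral A] (j : s26F f →ₐ[K] Ω)
    (V₀ : ValuationSubring Ω) (hV₀ : S26erOver K V₀)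
    (h1 : ∀ r : A.presheaf.stalk (s26zero f G), j (s26etivIota f G r) ∈ V₀)
    (h2 : ∀ r ∈ IsLocalRing.maximalIdeal (A.presheaf.stalk (s26zero f G)),
      j (s26etivIota f G r) ∈ V₀.nonunits) :
    S26eSpOneV f G (s26ePt f j) V₀ hV₀ :=
  s26env_spOneV_of_centre f G (s26ePt f j) V₀ hV₀ (s26etiv_centre f G j V₀ h1 h2)

/-- the points specialising to `0` along `V₀` are stable under the group law -/
theorem s26nv2_sp_mul (V₀ : ValuationSubring Ω) (hV₀ : S26erOver K V₀) (P Q : s26eptPts f Ω)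
    (hP : S26eSpOneV f G P V₀ hV₀) (hQ : S26eSpOneV f G Q V₀ hV₀) :
    S26eSpOneV f G (G.mul _ P Q) V₀ hV₀ := by
  letI := s26eAlgV V₀ hV₀
  haveI := s26eAlgV_tower V₀ hV₀
  have hP' : s26eptSp f Ω V₀ P = G.one _ := hP
  have hQ' : s26eptSp f Ω V₀ Q = G.one _ := hQ
  show s26eptSp f Ω V₀ (G.mul _ P Q) = G.one _
  rw [s26eptSp_mul f Ω V₀ G, hP', hQ', G.one_mul]

variable [IsIntegral A] [IsLocallyNoetherian A] {U : A.Opens}

/-- a point specialising to `0` along ONE valuation subring has image in `U ∋ 0` -/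
theorem s26nv2_pt_mem (h0 : s26zero f G ∈ U) (V₀ : ValuationSubring Ω) (hV₀ : S26erOver K V₀)
    (P : s26eptPts f Ω) (hP : S26eSpOneV f G P V₀ hV₀) : s26eptPt f P ∈ U := by
  letI := s26eAlgV V₀ hV₀
  haveI := s26eAlgV_tower V₀ hV₀
  have hP' : s26eptSp f Ω V₀ P = G.one _ := hP
  have hc : s26eptCentre f Ω V₀ P = s26zero f G := by
    rw [← s26eptPt_sp, hP', s26e_pt_one]
  exact s26eptCentre_mem f Ω V₀ P U (by rw [hc]; exact h0)

/-- ... hence its generator does not vanish at ANY valuation subring. -/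
theorem s26nv2_gen_ne_zero (hD : S26emLocData U) (h0 : s26zero f G ∈ U)
    (V₀ : ValuationSubring Ω) (hV₀ : S26erOver K V₀)
    (P : s26eptPts f Ω) (hP : S26eSpOneV f G P V₀ hV₀) (V : ValuationSubring Ω) :
    s26eGen f U P V ≠ 0 := by
  rw [s26eGen_eq_emFam]
  exact s26emr_ne_zero f hD P (s26nv2_pt_mem f G h0 V₀ hV₀ P hP) V

end Sp

/-- **(NV)**. -/
theorem s26nv2_stmtNV : s26e_StmtNV.{u} := by
  intro K _ A f G g hyp _ _ _ U hU hD W _ _ b hb Ω _ _ ιW j₁ j₂ hinj V hV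
  obtain ⟨Vb, hVb, hsp⟩ := hb
  obtain ⟨V₀, hV₀, ⟨h1a, h1b⟩, ⟨h2a, h2b⟩, ⟨h3a, h3b⟩⟩ :=
    s26nv2_common f G ιW j₁ j₂ hinj Vb hVb
  have hb₀ := s26nv2_sp_b f G ιW Vb hVb V₀ hV₀ h1a h1b b hsp
  have hy₀ := s26nv2_sp_pt f G j₁ V₀ hV₀ h2a h2b
  have hz₀ := s26nv2_sp_pt f G j₂ V₀ hV₀ h3a h3b
  have h0 : s26zero f G ∈ U := hU.2.1
  exact ⟨s26nv2_gen_ne_zero f G hD h0 V₀ hV₀ _
      (s26nv2_sp_mul f G V₀ hV₀ _ _ (s26nv2_sp_mul f G V₀ hV₀ _ _ hb₀ hy₀) hz₀) V,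
    s26nv2_gen_ne_zero f G hD h0 V₀ hV₀ _ hb₀ V,
    s26nv2_gen_ne_zero f G hD h0 V₀ hV₀ _ (s26nv2_sp_mul f G V₀ hV₀ _ _ hb₀ hy₀) V,
    s26nv2_gen_ne_zero f G hD h0 V₀ hV₀ _ (s26nv2_sp_mul f G V₀ hV₀ _ _ hb₀ hz₀) V⟩

end Fermat.Agent.S26
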