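/-
S26-E (helper84, double of CZ): **(SP-STEP)** `s26espstep_main : s26e_StmtSpStep`.

The step of a chain preserves "specialises to the zero point":
`b ∈ A(W)` with `sp_{V_b} b = 0`, `ν ∈ A(Γ)` with `sp_{γ₀} ν = 0`, `Γ ⊗[K] W → W'` injective
⇒ `ν + b ∈ A(W')` specialises to the zero point along a valuation subring `V'` of `W'` which
dominates both `γ₀` and `V_b`.

* `s26espstep_exists_common` : the COMMON valuation subring (pure algebra): `T = B ⊗[K] V ↪ W'`,
  `I = ker (T → k_B ⊗[K] k_V)` is a proper ideal, `s26erig_exists_valuation_over`;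
* `s26espstepJ`              : the induced `K`-algebra homomorphism `V → V'` (local);
* `s26espstep_sp_one`        : `sp_V P = 0` ⇒ `sp_{V'} (ι P) = 0` (from `s26eptSp_funct`);
* `s26espstep_main`          : (SP-STEP).
-/
import Fermat.Agent.S26.ECInd
import Fermat.Agent.S26.ERigCore
import Fermat.Agent.S26.EPTFun

set_option autoImplicit false
set_option linter.style.haveILetI false
set_option linter.unusedVariables false
set_option linter.unusedSectionVars false

noncomputable section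

namespace Fermat.Agent.S26

open CategoryTheory CategoryTheory.Limits AlgebraicGeometry NeronModelInfra GoodReductionJacobian
open scoped TensorProduct

universe u

section Common

variable {K : Type*} [Field K] {Γ W W' : Type*} [Field Γ] [Field W] [Field W']
  [Algebra K Γ] [Algebra K W] [Algebra K W']

/-- **the common valuation subring**: if `Γ ⊗[K] W → W'` is injective, then for valuation
subrings `B` of `Γ` and `V` of `W` over `K` there is a valuation subring of `W'` which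
dominates the images of both. -/
theorem s26espstep_exists_common (ιΓ : Γ →ₐ[K] W') (ιW : W →ₐ[K] W')
    (hinj : Function.Injective (Algebra.TensorProduct.productMap ιΓ ιW))
    (B : ValuationSubring Γ) (hB : ∀ a : K, algebraMap K Γ a ∈ B)
    (V : ValuationSubring W) (hV : ∀ a : K, algebraMap K W a ∈ V) :
    ∃ V' : ValuationSubring W', (∀ x ∈ B, ιΓ x ∈ V') ∧ (∀ x ∈ B.nonunits, ιΓ x ∈ V'.nonunits) ∧
      (∀ y ∈ V, ιW y ∈ V') ∧ (∀ y ∈ V.nonunits, ιW y ∈ V'.nonunits) := by
  classical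
  letI algB : Algebra K ↥B := ((algebraMap K Γ).codRestrict B.toSubring hB).toAlgebra
  haveI : IsScalarTower K ↥B Γ := IsScalarTower.of_algebraMap_eq (fun _ => rfl)
  letI algV : Algebra K ↥V := ((algebraMap K W).codRestrict V.toSubring hV).toAlgebra
  haveI : IsScalarTower K ↥V W := IsScalarTower.of_algebraMap_eq (fun _ => rfl)
  -- the chart
  let J : ↥B ⊗[K] ↥V →ₐ[K] Γ ⊗[K] W :=
    Algebra.TensorProduct.map (IsScalarTower.toAlgHom K ↥B Γ) (IsScalarTower.toAlgHom K ↥V W)
  have hJ : Function.Injective J := by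
    have h1 : Function.Injective (IsScalarTower.toAlgHom K ↥B Γ).toLinearMap :=
      fun x y h => Subtype.ext h
    have h2 : Function.Injective (IsScalarTower.toAlgHom K ↥V W).toLinearMap :=
      fun x y h => Subtype.ext h
    have h : (J : ↥B ⊗[K] ↥V → Γ ⊗[K] W) =
        (TensorProduct.map (IsScalarTower.toAlgHom K ↥B Γ).toLinearMap
          (IsScalarTower.toAlgHom K ↥V W).toLinearMap : ↥B ⊗[K] ↥V → Γ ⊗[K] W) := by
      funext x
      induction x using TensorProduct.induction_on with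
      | zero => simp
      | tmul r b => rfl
      | add x y hx hy => rw [map_add, map_add, hx, hy]
    rw [h]
    haveI : Module.Free K ↥V := Module.Free.of_divisionRing K ↥V
    haveI : Module.Flat K ↥V := Module.Flat.of_free
    haveI : Module.Free K Γ := Module.Free.of_divisionRing K Γ
    haveI : Module.Flat K Γ := Module.Flat.of_free
    exact TensorProduct.map_injective_of_flat_flat _ _ h1 h2
  let τ : ↥B ⊗[K] ↥V →ₐ[K] W' := (Algebra.TensorProduct.productMap ιΓ ιW).comp J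
  have hτ : Function.Injective τ := hinj.comp hJ
  have hτ_tmul : ∀ (x : ↥B) (y : ↥V), τ (x ⊗ₜ[K] y) = ιΓ (x : Γ) * ιW (y : W) := by
    intro x y
    show Algebra.TensorProduct.productMap ιΓ ιW (J (x ⊗ₜ[K] y)) = _
    show Algebra.TensorProduct.productMap ιΓ ιW
      ((IsScalarTower.toAlgHom K ↥B Γ x) ⊗ₜ[K] (IsScalarTower.toAlgHom K ↥V W y)) = _
    rw [Algebra.TensorProduct.productMap_apply_tmul]
    rfl
  -- the residue map
  let qB : ↥B →ₐ[K] IsLocalRing.ResidueField ↥B :=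
    IsScalarTower.toAlgHom K ↥B (IsLocalRing.ResidueField ↥B)
  let qV : ↥V →ₐ[K] IsLocalRing.ResidueField ↥V :=
    IsScalarTower.toAlgHom K ↥V (IsLocalRing.ResidueField ↥V)
  let π : ↥B ⊗[K] ↥V →ₐ[K] IsLocalRing.ResidueField ↥B ⊗[K] IsLocalRing.ResidueField ↥V :=
    Algebra.TensorProduct.map qB qV
  have hI : RingHom.ker π.toRingHom ≠ ⊤ := by
    haveI : Nontrivial (IsLocalRing.ResidueField ↥B ⊗[K] IsLocalRing.ResidueField ↥V) :=
      Algebra.TensorProduct.nontrivial_of_algebraMap_injective_of_isDomain K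
        (IsLocalRing.ResidueField ↥B) (IsLocalRing.ResidueField ↥V)
        (algebraMap K (IsLocalRing.ResidueField ↥B)).injective
        (algebraMap K (IsLocalRing.ResidueField ↥V)).injective
    exact RingHom.ker_ne_top _
  have hker : RingHom.ker τ.toRingHom ≤ RingHom.ker π.toRingHom := by
    have h0 : RingHom.ker τ.toRingHom = ⊥ :=
      (RingHom.injective_iff_ker_eq_bot τ.toRingHom).1 hτ
    rw [h0]
    exact bot_le
  obtain ⟨V', hV1, hV2⟩ := s26erig_exists_valuation_over τ.toRingHom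
    (RingHom.ker π.toRingHom) hI hker
  have eB : ∀ x : ↥B, τ.toRingHom (x ⊗ₜ[K] (1 : ↥V)) = ιΓ (x : Γ) := by
    intro x
    show τ (x ⊗ₜ[K] (1 : ↥V)) = _
    rw [hτ_tmul]
    show ιΓ (x : Γ) * ιW 1 = _
    rw [map_one, mul_one]
  have eV : ∀ y : ↥V, τ.toRingHom ((1 : ↥B) ⊗ₜ[K] y) = ιW (y : W) := by
    intro y
    show τ ((1 : ↥B) ⊗ₜ[K] y) = _
    rw [hτ_tmul]
    show ιΓ 1 * ιW (y : W) = _
    rw [map_one, one_mul]
  refine ⟨V', fun x hx => ?_, fun x hx => ?_, fun y hy => ?_, fun y hy => ?_⟩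
  · have h := hV1 ((⟨x, hx⟩ : ↥B) ⊗ₜ[K] (1 : ↥V))
    rwa [eB] at h
  · rw [ValuationSubring.mem_nonunits_iff_exists_mem_maximalIdeal] at hx
    obtain ⟨hx1, hx2⟩ := hx
    have hmem : ((⟨x, hx1⟩ : ↥B) ⊗ₜ[K] (1 : ↥V)) ∈ RingHom.ker π.toRingHom := by
      rw [RingHom.mem_ker]
      show π ((⟨x, hx1⟩ : ↥B) ⊗ₜ[K] (1 : ↥V)) = 0
      have hq : qB ⟨x, hx1⟩ = 0 := by
        show algebraMap ↥B (IsLocalRing.ResidueField ↥B) ⟨x, hx1⟩ = 0
        rw [IsLocalRing.ResidueField.algebraMap_eq, IsLocalRing.residue_eq_zero_iff]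
        exact hx2
      show (qB ⟨x, hx1⟩) ⊗ₜ[K] (qV 1) = 0
      rw [hq, TensorProduct.zero_tmul]
    have h := hV2 _ hmem
    rwa [eB] at h
  · have h := hV1 ((1 : ↥B) ⊗ₜ[K] (⟨y, hy⟩ : ↥V))
    rwa [eV] at h
  · rw [ValuationSubring.mem_nonunits_iff_exists_mem_maximalIdeal] at hy
    obtain ⟨hy1, hy2⟩ := hy
    have hmem : ((1 : ↥B) ⊗ₜ[K] (⟨y, hy1⟩ : ↥V)) ∈ RingHom.ker π.toRingHom := by
      rw [RingHom.mem_ker]
      show π ((1 : ↥B) ⊗ₜ[K] (⟨y, hy1⟩ : ↥V)) = 0
      have hq : qV ⟨y, hy1⟩ = 0 := by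
        show algebraMap ↥V (IsLocalRing.ResidueField ↥V) ⟨y, hy1⟩ = 0
        rw [IsLocalRing.ResidueField.algebraMap_eq, IsLocalRing.residue_eq_zero_iff]
        exact hy2
      show (qB 1) ⊗ₜ[K] (qV ⟨y, hy1⟩) = 0
      rw [hq, TensorProduct.tmul_zero]
    have h := hV2 _ hmem
    rwa [eV] at h

end Common

section Funct

variable {K : Type u} [Field K] {Ω Ω' : Type u} [Field Ω] [Field Ω'] [Algebra K Ω] [Algebra K Ω']

/-- the `K`-algebra homomorphism `V → V'` induced by `ι : Ω → Ω'` with `ι V ⊆ V'`. -/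
def s26espstepJ (ι : Ω →ₐ[K] Ω') (V : ValuationSubring Ω) (hV : S26erOver K V)
    (V' : ValuationSubring Ω') (hV' : S26erOver K V') (h : ∀ x ∈ V, ι x ∈ V') :
    letI := s26eAlgV V hV
    letI := s26eAlgV V' hV'
    ↥V →ₐ[K] ↥V' :=
  letI := s26eAlgV V hV
  letI := s26eAlgV V' hV'
  { toFun := fun x => ⟨ι (x : Ω), h _ x.2⟩
    map_one' := Subtype.ext (map_one ι)
    map_mul' := fun x y => Subtype.ext (map_mul ι (x : Ω) (y : Ω))
    map_zero' := Subtype.ext (map_zero ι)
    map_add' := fun x y => Subtype.ext (map_add ι (x : Ω) (y : Ω))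
    commutes' := fun a => Subtype.ext (ι.commutes a) }

theorem s26espstepJ_coe (ι : Ω →ₐ[K] Ω') (V : ValuationSubring Ω) (hV : S26erOver K V)
    (V' : ValuationSubring Ω') (hV' : S26erOver K V') (h : ∀ x ∈ V, ι x ∈ V') (x : ↥V) :
    ((s26espstepJ ι V hV V' hV' h x : ↥V') : Ω') = ι (x : Ω) := rfl

/-- the induced homomorphism is local if `V'` dominates `V`. -/
theorem s26espstepJ_isLocalHom (ι : Ω →ₐ[K] Ω') (V : ValuationSubring Ω) (hV : S26erOver K V)
    (V' : ValuationSubring Ω') (hV' : S26erOver K V') (h : ∀ x ∈ V, ι x ∈ V')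
    (h' : ∀ x ∈ V.nonunits, ι x ∈ V'.nonunits) :
    letI := s26eAlgV V hV
    letI := s26eAlgV V' hV'
    IsLocalHom (s26espstepJ ι V hV V' hV' h) := by
  letI := s26eAlgV V hV
  letI := s26eAlgV V' hV'
  refine ⟨fun x hx => ?_⟩
  by_contra hnx
  have h1 : (x : Ω) ∈ V.nonunits := by
    rw [ValuationSubring.mem_nonunits_iff_exists_mem_maximalIdeal]
    exact ⟨x.2, (IsLocalRing.mem_maximalIdeal _).2 hnx⟩
  have h2 := h' _ h1
  rw [ValuationSubring.mem_nonunits_iff_exists_mem_maximalIdeal] at h2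
  obtain ⟨h3, h4⟩ := h2
  exact (IsLocalRing.mem_maximalIdeal _).1 h4 hx

end Funct

section Sp

variable {K : Type u} [Field K] {A : Scheme.{u}} (f : A ⟶ Spec (CommRingCat.of K))
  (G : RelativeGroupLaw K f) [IsProper f]
  {Ω Ω' : Type u} [Field Ω] [Field Ω'] [Algebra K Ω] [Algebra K Ω']

/-- **specialisation to the zero point is preserved** under `(Ω, V) → (Ω', V')`, `V'`
dominating `V`. -/
theorem s26espstep_sp_one (ι : Ω →ₐ[K] Ω') (V : ValuationSubring Ω) (hV : S26erOver K V)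
    (V' : ValuationSubring Ω') (hV' : S26erOver K V') (h : ∀ x ∈ V, ι x ∈ V')
    (h' : ∀ x ∈ V.nonunits, ι x ∈ V'.nonunits) (P : s26eptPts f Ω)
    (hP : S26eSpOneV f G P V hV) : S26eSpOneV f G (s26eptMap f ι P) V' hV' := by
  unfold S26eSpOneV at hP ⊢
  letI := s26eAlgV V hV
  haveI := s26eAlgV_tower V hV
  letI := s26eAlgV V' hV'
  haveI := s26eAlgV_tower V' hV'
  haveI := s26espstepJ_isLocalHom ι V hV V' hV' h h'
  rw [s26eptSp_funct f ι (s26espstepJ ι V hV V' hV' h) (fun x => rfl) P, hP, s26eptMap_one]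

/-- the product of two points which specialise to the zero point along `V` does. -/
theorem s26espstep_sp_mul (V : ValuationSubring Ω) (hV : S26erOver K V) (P Q : s26eptPts f Ω)
    (hP : S26eSpOneV f G P V hV) (hQ : S26eSpOneV f G Q V hV) :
    S26eSpOneV f G (G.mul _ P Q) V hV := by
  unfold S26eSpOneV at hP hQ ⊢
  letI := s26eAlgV V hV
  haveI := s26eAlgV_tower V hV
  rw [s26eptSp_mul, hP, hQ, G.one_mul]

end Sp

/-- **(SP-STEP)**: the step of a chain preserves "specialises to the zero point". -/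
theorem s26espstep_main : s26e_StmtSpStep.{u} := by
  intro K _ A f G g hyp _ W _ _ b hb Γ _ _ ν γ₀ hν W' _ _ ιΓ ιW hinj
  obtain ⟨Vb, hVb, hsp⟩ := hb
  obtain ⟨V', h1, h2, h3, h4⟩ := s26espstep_exists_common ιΓ ιW hinj
    γ₀.toValuationSubring γ₀.algebraMap_mem' Vb hVb
  have hV' : S26erOver K V' := fun a => by
    have h := h1 _ (γ₀.algebraMap_mem' a)
    rwa [ιΓ.commutes] at h
  refine ⟨V', hV', ?_⟩
  exact s26espstep_sp_mul f G V' hV' _ _
    (s26espstep_sp_one f G ιΓ γ₀.toValuationSubring γ₀.algebraMap_mem' V' hV' h1 h2 ν hν)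
    (s26espstep_sp_one f G ιW Vb hVb V' hV' h3 h4 b hsp)

end Fermat.Agent.S26

end
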