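/-
S26, wall (E), piece **E-RED**, the `k`-SIDE at a general valuation ring (helper12, for
helper17/helper28/helper93).

PART 1 (reverse adapter): `Fb` a fraction field of `k ⊗[K] Γ` in helper12's shape
(`[Algebra k Fb] [Algebra (k ⊗[K] Γ) Fb] [IsScalarTower k (k ⊗[K] Γ) Fb] [IsFractionRing …]`)
gives helper96's shape: `s26erfIota K Γ k Fb : Γ →+* Fb` (`u ↦ 1 ⊗ u`), the algebra structures
`s26erfAlgΓ`, `s26erfAlgK` (defs, NOT instances), the towers, `s26erf_hld`, `s26erf_hgen`.

PART 2: **`s26erf_kside`** — `K`, `k` algebraically closed, `x ∈ Γ` transcendental over `K`,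
`[Γ : K(x)] < ∞`: there is `conk : Place K Γ → Place k Fb` (helper96's Gauss places), injective,
with `hordk`, `hexk`, `hresk`, `hpdk`, `hldk` (the `k`-side hypotheses of helper28's
`s26etir_redAt` for `ιk := s26erfIota K Γ k Fb`), and `R₀ : DEU.RedData k Fb K Γ` with
`hO₀`, `hred₀`, `hq2₀` (helper12's `s26erk_exists_data`).

PART 3: `k := IsLocalRing.ResidueField ↥V` for a valuation subring `V ⊇ K` of an algebraically
closed `L`: `s26erfRes : ↥V →ₐ[K] k`, surjective; `k` is algebraically closed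
(`Fermat.Agent.RED.isAlgClosed_residueField`).
-/
import Fermat.Agent.S26.ERedHres
import Fermat.Agent.S26.ERedRatData
import Fermat.Agent.RED.ResField

set_option autoImplicit false
set_option linter.unusedSectionVars false
set_option linter.style.haveILetI false

noncomputable section

namespace Fermat.Agent.S26

open AlgebraicCurve TensorProduct IntermediateField Module

section Adapter

variable (K : Type*) [Field K] (Γ : Type*) [Field Γ] [Algebra K Γ]
  (k : Type*) [Field k] [Algebra K k]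
  (Fb : Type*) [Field Fb] [Algebra k Fb] [Algebra (k ⊗[K] Γ) Fb]
  [IsScalarTower k (k ⊗[K] Γ) Fb]

/-- `ιk : Γ → Fb`, `u ↦ 1 ⊗ u` -/
def s26erfIota : Γ →+* Fb :=
  (algebraMap (k ⊗[K] Γ) Fb).comp
    (Algebra.TensorProduct.includeRight : Γ →ₐ[K] k ⊗[K] Γ).toRingHom

theorem s26erfIota_apply (u : Γ) :
    s26erfIota K Γ k Fb u = algebraMap (k ⊗[K] Γ) Fb ((1 : k) ⊗ₜ[K] u) := rfl

/-- `Γ → Fb` as an algebra structure (NOT an instance: use `letI`) -/
@[reducible] def s26erfAlgΓ : Algebra Γ Fb := (s26erfIota K Γ k Fb).toAlgebra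

/-- `K → k → Fb` as an algebra structure (NOT an instance: use `letI`) -/
@[reducible] def s26erfAlgK : Algebra K Fb := ((algebraMap k Fb).comp (algebraMap K k)).toAlgebra

theorem s26erf_tower_k :
    letI := s26erfAlgK K k Fb
    IsScalarTower K k Fb :=
  letI := s26erfAlgK K k Fb
  IsScalarTower.of_algebraMap_eq (fun _ => rfl)

theorem s26erf_tower_Γ :
    letI := s26erfAlgK K k Fb
    letI := s26erfAlgΓ K Γ k Fb
    IsScalarTower K Γ Fb :=
  letI := s26erfAlgK K k Fb
  letI := s26erfAlgΓ K Γ k Fb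
  IsScalarTower.of_algebraMap_eq (R := K) (S := Γ) (A := Fb) (fun c => by
    show algebraMap k Fb (algebraMap K k c) =
      algebraMap (k ⊗[K] Γ) Fb ((1 : k) ⊗ₜ[K] algebraMap K Γ c)
    rw [IsScalarTower.algebraMap_apply k (k ⊗[K] Γ) Fb, Algebra.TensorProduct.algebraMap_apply,
      Algebra.algebraMap_eq_smul_one c, Algebra.algebraMap_eq_smul_one (A := Γ) c,
      TensorProduct.tmul_smul, TensorProduct.smul_tmul']
    rfl)

/-- `μ = algebraMap ∘ comm` -/
theorem s26erf_mu_eq (t : Γ ⊗[K] k) :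
    letI := s26erfAlgK K k Fb
    letI := s26erfAlgΓ K Γ k Fb
    haveI := s26erf_tower_k K k Fb
    haveI := s26erf_tower_Γ K Γ k Fb
    s26gspMu K Γ k Fb t = algebraMap (k ⊗[K] Γ) Fb (Algebra.TensorProduct.comm K Γ k t) := by
  letI := s26erfAlgK K k Fb
  letI := s26erfAlgΓ K Γ k Fb
  haveI := s26erf_tower_k K k Fb
  haveI := s26erf_tower_Γ K Γ k Fb
  induction t using TensorProduct.induction_on with
  | zero => rw [map_zero, map_zero, map_zero]
  | tmul f c =>
    rw [s26gspMu_tmul, Algebra.TensorProduct.comm_tmul]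
    show algebraMap (k ⊗[K] Γ) Fb ((1 : k) ⊗ₜ[K] f) * algebraMap k Fb c = _
    rw [IsScalarTower.algebraMap_apply k (k ⊗[K] Γ) Fb, Algebra.TensorProduct.algebraMap_apply,
      ← map_mul, Algebra.TensorProduct.tmul_mul_tmul, one_mul, mul_one]
    rfl
  | add a b ha hb => rw [map_add, map_add, map_add, ha, hb]

variable [IsFractionRing (k ⊗[K] Γ) Fb]

/-- **`hld`** in helper96's shape -/
theorem s26erf_hld :
    letI := s26erfAlgK K k Fb
    letI := s26erfAlgΓ K Γ k Fb
    haveI := s26erf_tower_k K k Fb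
    haveI := s26erf_tower_Γ K Γ k Fb
    Function.Injective (s26gspMu K Γ k Fb) := by
  letI := s26erfAlgK K k Fb
  letI := s26erfAlgΓ K Γ k Fb
  haveI := s26erf_tower_k K k Fb
  haveI := s26erf_tower_Γ K Γ k Fb
  intro a b hab
  rw [s26erf_mu_eq, s26erf_mu_eq] at hab
  exact (Algebra.TensorProduct.comm K Γ k).injective
    (IsFractionRing.injective (k ⊗[K] Γ) Fb hab)

/-- **`hgen`** in helper96's shape -/
theorem s26erf_hgen :
    letI := s26erfAlgK K k Fb
    letI := s26erfAlgΓ K Γ k Fb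
    haveI := s26erf_tower_k K k Fb
    haveI := s26erf_tower_Γ K Γ k Fb
    S26gspGen K Γ k Fb := by
  letI := s26erfAlgK K k Fb
  letI := s26erfAlgΓ K Γ k Fb
  haveI := s26erf_tower_k K k Fb
  haveI := s26erf_tower_Γ K Γ k Fb
  intro y
  obtain ⟨a, b, hb, rfl⟩ := IsFractionRing.div_surjective (A := k ⊗[K] Γ) y
  have hb0 : algebraMap (k ⊗[K] Γ) Fb b ≠ 0 :=
    IsFractionRing.to_map_ne_zero_of_mem_nonZeroDivisors hb
  refine ⟨(Algebra.TensorProduct.comm K Γ k).symm a, (Algebra.TensorProduct.comm K Γ k).symm b,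
    ?_, ?_⟩
  · rw [s26erf_mu_eq, AlgEquiv.apply_symm_apply]
    exact hb0
  · rw [s26erf_mu_eq, s26erf_mu_eq, AlgEquiv.apply_symm_apply, AlgEquiv.apply_symm_apply,
      div_mul_cancel₀ _ hb0]

end Adapter

section KSide

variable (K : Type*) [Field K] (Γ : Type*) [Field Γ] [Algebra K Γ]
  (k : Type*) [Field k] [Algebra K k]
  (Fb : Type*) [Field Fb] [Algebra k Fb] [Algebra (k ⊗[K] Γ) Fb]
  [IsScalarTower k (k ⊗[K] Γ) Fb] [IsFractionRing (k ⊗[K] Γ) Fb]

/-- **The `k`-side of a constant reduction**: for `Fb = Frac (k ⊗[K] Γ)`, `K` and `k`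
algebraically closed, `Γ / K` a function field of one variable. -/
theorem s26erf_kside [IsAlgClosed K] [IsAlgClosed k]
    (x : Γ) (hx : Transcendental K x) [FiniteDimensional K⟮x⟯ Γ] :
    ∃ conk : Place K Γ → Place k Fb,
      Function.Injective conk ∧
      (∀ (Q : Place K Γ) (u : Γ), (conk Q).ord (s26erfIota K Γ k Fb u) = Q.ord u) ∧
      (∀ (w : Place k Fb) (u : Γ), w.ord (s26erfIota K Γ k Fb u) ≠ 0 → ∃ Q, w = conk Q) ∧
      (∀ v : Place k Fb, Function.Bijective (algebraMap k v.ResidueField)) ∧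
      HasPrincipalDivisors k Fb ∧
      (∀ (n : ℕ) (v : Fin n → Γ), LinearIndependent K v →
        LinearIndependent k (fun i => s26erfIota K Γ k Fb (v i))) ∧
      ∃ R₀ : DEU.RedData k Fb K Γ,
        (∀ u : Γ, ∃ h : s26erfIota K Γ k Fb u ∈ R₀.O, R₀.red ⟨_, h⟩ = u) ∧
        (∀ W : Submodule k Fb, Module.Finite k W → finrank k W ≤ finrank K ↥(R₀.redSpace W)) := by
  letI := s26erfAlgK K k Fb
  letI := s26erfAlgΓ K Γ k Fb
  haveI := s26erf_tower_k K k Fb
  haveI := s26erf_tower_Γ K Γ k Fb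
  have hld := s26erf_hld K Γ k Fb
  have hgen := s26erf_hgen K Γ k Fb
  have halg : Algebra.IsAlgebraic K⟮x⟯ Γ := Algebra.IsAlgebraic.of_finite _ _
  have hall : ∀ P : Place K Γ, Function.Surjective (algebraMap K P.ResidueField) :=
    fun P => (s26erh_hresK hx halg P).2
  obtain ⟨R₀, -, hR₀, hq2, -⟩ := s26erk_exists_data K (L := k) Γ Fb
  refine ⟨s26gspCon hld hgen hall, s26gspCon_injective hld hgen hall, ?_, ?_, ?_, ?_, ?_,
    R₀, hR₀, hq2⟩
  · intro Q u
    exact s26gspc_ord_algebraMap hld hgen hall Q u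
  · intro w u hu
    exact s26gspPlace_exists_of_nontrivial hld hgen hall w ⟨u, hu⟩
  · intro v
    exact s26erh_hres hld hgen hx halg v
  · exact s26erh_hpd hld hgen hx
  · intro n v hv
    exact s26gspc_linearIndependent hld hv

end KSide

section Residue

variable (K : Type*) [Field K] {L : Type*} [Field L] [Algebra K L]
  (V : ValuationSubring L) [Algebra K ↥V] [IsScalarTower K ↥V L]

/-- the residue map `V → k = V / 𝔪_V`, as a `K`-algebra homomorphism -/
def s26erfRes : ↥V →ₐ[K] IsLocalRing.ResidueField ↥V :=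
  IsScalarTower.toAlgHom K ↥V (IsLocalRing.ResidueField ↥V)

theorem s26erfRes_apply (a : ↥V) : s26erfRes K V a = IsLocalRing.residue ↥V a := rfl

theorem s26erfRes_surjective : Function.Surjective (s26erfRes K V) :=
  IsLocalRing.residue_surjective

theorem s26erfRes_eq_zero_iff (a : ↥V) : s26erfRes K V a = 0 ↔ (a : L) ∈ V.nonunits := by
  rw [s26erfRes_apply, IsLocalRing.residue_eq_zero_iff,
    ValuationSubring.mem_nonunits_iff_exists_mem_maximalIdeal]
  exact ⟨fun h => ⟨a.2, h⟩, fun ⟨_, h⟩ => h⟩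

/-- the residue field of a valuation ring of an algebraically closed field is algebraically
closed (`Fermat.Agent.RED.isAlgClosed_residueField`) -/
theorem s26erf_isAlgClosed [IsAlgClosed L] : IsAlgClosed (IsLocalRing.ResidueField ↥V) :=
  Fermat.Agent.RED.isAlgClosed_residueField V

end Residue


end Fermat.Agent.S26
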