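/-
S26-E, piece E-PT (helper51), part 3c: composition with endomorphisms, and composite valuations.

* `s26eptComp f ψ hψ P = P ≫ ψ` for `ψ : A ⟶ A` over `K`; `s26ept_nsmul_eq_comp : n • P = P ≫ [n]`,
  `s26ept_inv_eq_comp`, `s26eptPt_comp : |ψ P| = ψ |P|`, `s26eptVal_comp` (values of `ψ P` are
  values of pull-backs at `P`), `s26eptMap_comp_comm`;
* `s26eptLift_of_le` : **(i)** `W ⊆ V ⊆ Ω` ⇒ `lift_V P = (W → V)(lift_W P)`;
  `s26eptCentre_specializes_of_le : c_V(P) ⤳ c_W(P)`;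
* `s26eptLift_sp_compose`, `s26eptSp_sp_compose`, `s26eptCentre_sp_compose` : **(ii)** composite
  valuations `W = V ∘ W̄`: `lift_{W̄}(sp_V P) = (W → W̄)(lift_W P)`.
-/
import Fermat.Agent.S26.EPTFun

set_option autoImplicit false
set_option linter.style.haveILetI false

noncomputable section

namespace Fermat.Agent.S26

open CategoryTheory CategoryTheory.Limits AlgebraicGeometry NeronModelInfra GoodReductionJacobian

universe u

variable {K : Type u} [Field K] {A : Scheme.{u}} (f : A ⟶ Spec (CommRingCat.of K))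

section Comp

variable {R : Type u} [CommRing R] [Algebra K R]

/-- composition of a point with an endomorphism of `A` over `K` -/
def s26eptComp (ψ : A ⟶ A) (hψ : ψ ≫ f = f) (P : s26eptPts f R) : s26eptPts f R :=
  ⟨P.1 ≫ ψ, by rw [Category.assoc, hψ, P.2]⟩

@[simp]
theorem s26eptComp_coe (ψ : A ⟶ A) (hψ : ψ ≫ f = f) (P : s26eptPts f R) :
    (s26eptComp f ψ hψ P).1 = P.1 ≫ ψ := rfl

theorem s26ept_nsmul_eq_comp (G : RelativeGroupLaw K f) (n : ℕ) (P : s26eptPts f R) :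
    G.nsmul _ n P = s26eptComp f (G.schemeNsmul n) (G.schemeNsmul_over n) P :=
  Subtype.ext (s26a1_nsmul_eq G _ n P)

theorem s26ept_inv_eq_comp (G : RelativeGroupLaw K f) (P : s26eptPts f R) :
    G.inv _ P = s26eptComp f (s26a1Inv G) (s26a1Inv_comp G) P :=
  Subtype.ext (s26a1_inv_eq G _ P)

theorem s26eptMap_comp_comm {R' : Type u} [CommRing R'] [Algebra K R'] (φ : R →ₐ[K] R')
    (ψ : A ⟶ A) (hψ : ψ ≫ f = f) (P : s26eptPts f R) :
    s26eptMap f φ (s26eptComp f ψ hψ P) = s26eptComp f ψ hψ (s26eptMap f φ P) :=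
  Subtype.ext (by simp [Category.assoc])

variable [IsLocalRing R]

theorem s26eptPt_comp (ψ : A ⟶ A) (hψ : ψ ≫ f = f) (P : s26eptPts f R) :
    s26eptPt f (s26eptComp f ψ hψ P) = ψ (s26eptPt f P) := rfl

/-- the value of a section at `ψ ∘ P` is the value of its pull-back at `P` -/
theorem s26eptVal_comp (ψ : A ⟶ A) (hψ : ψ ≫ f = f) (P : s26eptPts f R) (W : A.Opens)
    (hW : s26eptPt f (s26eptComp f ψ hψ P) ∈ W) (hW' : s26eptPt f P ∈ ψ ⁻¹ᵁ W) (s : Γ(A, W)) :
    s26eptVal f (s26eptComp f ψ hψ P) W hW s =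
      s26eptVal f P (ψ ⁻¹ᵁ W) hW' ((ψ.app W).hom s) := by
  rw [s26eptVal_eq_appLE, s26eptVal_eq_appLE]
  have : (s26eptComp f ψ hψ P).1.appLE W ⊤
      (s26ept_preimage_eq_top f (s26eptComp f ψ hψ P) W hW).ge =
      ψ.app W ≫ P.1.appLE (ψ ⁻¹ᵁ W) ⊤ (s26ept_preimage_eq_top f P (ψ ⁻¹ᵁ W) hW').ge :=
    Scheme.Hom.comp_appLE P.1 ψ W ⊤ _
  exact congrArg (fun q => (Scheme.ΓSpecIso (CommRingCat.of R)).hom (q.hom s)) this

end Comp

section Compose

variable {Ω : Type u} [Field Ω] [Algebra K Ω]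
  {V : Type u} [CommRing V] [IsDomain V] [ValuationRing V] [Algebra V Ω] [IsFractionRing V Ω]
  [Algebra K V] [IsScalarTower K V Ω]
  {W : Type u} [CommRing W] [IsDomain W] [ValuationRing W] [Algebra W Ω] [IsFractionRing W Ω]
  [Algebra K W] [IsScalarTower K W Ω]
  [IsProper f]

/-- **(i)** `W ⊆ V ⊆ Ω`: the `V`-point of `P` is the image of the `W`-point -/
theorem s26eptLift_of_le (j : W →ₐ[K] V) (hj : ∀ x : W, algebraMap V Ω (j x) = algebraMap W Ω x)
    (P : s26eptPts f Ω) : s26eptLift f Ω V P = s26eptMap f j (s26eptLift f Ω W P) := by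
  have h := s26eptLift_funct f (AlgHom.id K Ω) j (fun x => by simpa using hj x) P
  rwa [s26eptMap_id] at h

/-- `|P| ⤳ c_V(P) ⤳ c_W(P)` for `W ⊆ V` -/
theorem s26eptCentre_specializes_of_le (j : W →ₐ[K] V)
    (hj : ∀ x : W, algebraMap V Ω (j x) = algebraMap W Ω x) (P : s26eptPts f Ω) :
    s26eptCentre f Ω V P ⤳ s26eptCentre f Ω W P := by
  unfold s26eptCentre
  rw [s26eptLift_of_le f j hj P]
  exact s26eptPt_map_specializes f j _

variable {Wb : Type u} [CommRing Wb] [IsDomain Wb] [ValuationRing Wb]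
  [Algebra Wb (IsLocalRing.ResidueField V)] [IsFractionRing Wb (IsLocalRing.ResidueField V)]
  [Algebra K Wb] [IsScalarTower K Wb (IsLocalRing.ResidueField V)]

/-- **(ii) composite valuations**: `W = V ∘ W̄` (`W̄` a valuation ring of `k_V`, `W` its preimage
in `V`): the `W̄`-point of `sp_V P` is the image of the `W`-point of `P`. -/
theorem s26eptLift_sp_compose (j₁ : W →ₐ[K] V) (j₂ : W →ₐ[K] Wb)
    (h₁ : ∀ x : W, algebraMap V Ω (j₁ x) = algebraMap W Ω x)
    (h₂ : ∀ x : W, algebraMap Wb (IsLocalRing.ResidueField V) (j₂ x) =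
      IsLocalRing.residue V (j₁ x)) (P : s26eptPts f Ω) :
    s26eptLift f (IsLocalRing.ResidueField V) Wb (s26eptSp f Ω V P) =
      s26eptMap f j₂ (s26eptLift f Ω W P) := by
  rw [s26eptLift_eq_iff, ← s26eptMap_comp]
  unfold s26eptSp
  rw [s26eptLift_of_le f j₁ h₁ P, ← s26eptMap_comp]
  congr 1
  ext x
  exact h₂ x

/-- **(ii)** for the special fibre: `sp_{W̄} (sp_V P) = (k_W → k_{W̄})^{-1}`-image of `sp_W P`,
in the form `k_W → k_{W̄}` induced by the LOCAL `j₂`. -/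
theorem s26eptSp_sp_compose (j₁ : W →ₐ[K] V) (j₂ : W →ₐ[K] Wb) [IsLocalHom j₂]
    (h₁ : ∀ x : W, algebraMap V Ω (j₁ x) = algebraMap W Ω x)
    (h₂ : ∀ x : W, algebraMap Wb (IsLocalRing.ResidueField V) (j₂ x) =
      IsLocalRing.residue V (j₁ x)) (P : s26eptPts f Ω) :
    s26eptSp f (IsLocalRing.ResidueField V) Wb (s26eptSp f Ω V P) =
      s26eptMap f (IsLocalRing.ResidueField.mapAlgHom j₂) (s26eptSp f Ω W P) := by
  show s26eptMap f (s26eptRes Wb) (s26eptLift f _ Wb (s26eptSp f Ω V P)) =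
    s26eptMap f _ (s26eptMap f (s26eptRes W) (s26eptLift f Ω W P))
  rw [s26eptLift_sp_compose f j₁ j₂ h₁ h₂ P, ← s26eptMap_comp, ← s26eptMap_comp]
  congr 1

/-- the centre of `sp_V P` along `W̄` is the centre of `P` along `W = V ∘ W̄` -/
theorem s26eptCentre_sp_compose (j₁ : W →ₐ[K] V) (j₂ : W →ₐ[K] Wb) [IsLocalHom (j₂ : W →+* Wb)]
    (h₁ : ∀ x : W, algebraMap V Ω (j₁ x) = algebraMap W Ω x)
    (h₂ : ∀ x : W, algebraMap Wb (IsLocalRing.ResidueField V) (j₂ x) =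
      IsLocalRing.residue V (j₁ x)) (P : s26eptPts f Ω) :
    s26eptCentre f (IsLocalRing.ResidueField V) Wb (s26eptSp f Ω V P) =
      s26eptCentre f Ω W P := by
  unfold s26eptCentre
  rw [s26eptLift_sp_compose f j₁ j₂ h₁ h₂ P]
  exact s26eptPt_map f j₂ _

end Compose

end Fermat.Agent.S26
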