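/-
S26-E, piece E-SPEC (helper95), part 3: the FRAME = definitions and the Props of the two leaves
(valuation side: helper58; scheme side "KEY": helper60).  The assembly is `S26/ESpec.lean`.

Setting (as in E-RIG, `S26/ERigB.lean`): `K ⊆ Γ` a function field of one variable, `L ⊇ K`,
`F = Frac(Γ·L)`, `R : DEU.RedData L F k Fb` a Gauss reduction along the valuation subring
`V' = R.A` of `L`, `r : Place L F → Place k Fb` the reduction of places.

* `s26espOG R : ValuationSubring F`   : the Gauss ring `R.O` as a valuation subring;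
  `s26espRed R : ↥(s26espOG R) →+* Fb` : the reduction map on it (local).
* `S26espValSide R r` (valuation side, NO schemes): for every place `Q` of `Fb/k` there is a
  valuation subring `W₂ ⊆ O_G` of `F` with a local homomorphism `ρ₂ : W₂ → k` extending `R.res`,
  and for every place `P` with `r P = Q` a valuation subring `W₁ ⊆ O_P` with a local
  homomorphism `ρ₁ : W₁ → k` extending `R.res`, such that (EVAL) holds on `Γ`:
  `u ∈ Γ ∩ W₁ ⇒ u ∈ W₂ ∧ ρ₂ u = ρ₁ u`.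
  [`W₁ = {f ∈ O_P | f(P) ∈ V'}`, `W₂ = {f ∈ O_G | red f ∈ O_Q}`: `s26espbComp` of `ESpecB1`.]
* `S26espSame f a a' V hV` : `sp_V a = sp_V a'` in `A(k_V)`.
* `S26espKeyA`, `S26espKeyB`, `S26espKeyC` : the scheme side (KEY), see the doc-strings.
-/
import Fermat.Agent.S26.PlanE
import Fermat.Agent.S26.ERigB
import Fermat.Agent.S26.ESpecB1

set_option autoImplicit false
set_option linter.style.haveILetI false
set_option linter.unusedVariables false
set_option linter.unusedSectionVars false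

noncomputable section

namespace Fermat.Agent.S26

open CategoryTheory CategoryTheory.Limits AlgebraicGeometry NeronModelInfra GoodReductionJacobian
open AlgebraicCurve Fermat.Agent.DEU

universe u

/-! ### The Gauss ring as a valuation subring -/

section Gauss

variable {L F k Fb : Type*} [Field L] [Field F] [Algebra L F] [Field k] [Field Fb] [Algebra k Fb]

theorem s26esp_mem_or_inv_mem (R : RedData L F k Fb) (x : F) : x ∈ R.O ∨ x⁻¹ ∈ R.O := by
  by_cases hx : x = 0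
  · left; rw [hx]; exact zero_mem _
  obtain ⟨c, hc, hmem, hred⟩ := R.exists_scale x hx
  have hinv : (algebraMap L F c * x)⁻¹ ∈ R.O := R.inv_mem ⟨_, hmem⟩ hred
  have hcF : algebraMap L F c ≠ 0 := by simpa using hc
  rcases R.A.mem_or_inv_mem c with h | h
  · right
    have e : x⁻¹ = algebraMap L F c * (algebraMap L F c * x)⁻¹ := by
      field_simp
    rw [e]
    exact mul_mem (R.algebraMap_mem ⟨c, h⟩) hinv
  · left
    have e : x = algebraMap L F c⁻¹ * (algebraMap L F c * x) := by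
      rw [map_inv₀]
      field_simp
    rw [e]
    exact mul_mem (R.algebraMap_mem ⟨c⁻¹, h⟩) hmem

/-- the Gauss ring `R.O` as a valuation subring of `F`. -/
def s26espOG (R : RedData L F k Fb) : ValuationSubring F :=
  { R.O with mem_or_inv_mem' := s26esp_mem_or_inv_mem R }

theorem s26esp_mem_OG (R : RedData L F k Fb) (x : F) : x ∈ s26espOG R ↔ x ∈ R.O := Iff.rfl

/-- the reduction map on the Gauss ring. -/
def s26espRed (R : RedData L F k Fb) : ↥(s26espOG R) →+* Fb where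
  toFun x := R.red ⟨(x : F), x.2⟩
  map_one' := R.red.map_one
  map_mul' x y := R.red.map_mul ⟨(x : F), x.2⟩ ⟨(y : F), y.2⟩
  map_zero' := R.red.map_zero
  map_add' x y := R.red.map_add ⟨(x : F), x.2⟩ ⟨(y : F), y.2⟩

theorem s26espRed_apply (R : RedData L F k Fb) (x : ↥(s26espOG R)) :
    s26espRed R x = R.red ⟨(x : F), x.2⟩ := rfl

instance s26espRed_isLocalHom (R : RedData L F k Fb) : IsLocalHom (s26espRed R) where
  map_nonunit x hx := by
    have hne : R.red ⟨(x : F), x.2⟩ ≠ 0 := hx.ne_zero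
    have hinv : ((x : F))⁻¹ ∈ s26espOG R := R.inv_mem ⟨(x : F), x.2⟩ hne
    have hx0 : (x : F) ≠ 0 := R.coe_ne_zero_of_red_ne_zero hne
    exact ⟨⟨x, ⟨_, hinv⟩, Subtype.ext (mul_inv_cancel₀ hx0), Subtype.ext (inv_mul_cancel₀ hx0)⟩,
      rfl⟩

end Gauss

/-! ### The valuation side (leaf of helper58) -/

section ValSide

variable {Γ L F k Fb : Type*} [Field Γ] [Field L] [Field F] [Algebra Γ F] [Algebra L F]
  [Field k] [Field Fb] [Algebra k Fb]

/-- **the valuation side of E-SPEC** at the reduction `(R, r)`: composite valuation rings with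
the same centre data on `Γ` and on `L`. -/
def S26espValSide (Γ : Type*) [Field Γ] [Algebra Γ F] (R : RedData L F k Fb)
    (r : Place L F → Place k Fb) : Prop :=
  ∀ Q : Place k Fb, ∃ (W₂ : ValuationSubring F) (ρ₂ : ↥W₂ →+* k),
    W₂ ≤ s26espOG R ∧ IsLocalHom ρ₂ ∧
    (∀ c : R.A, ∃ h : algebraMap L F (c : L) ∈ W₂, ρ₂ ⟨_, h⟩ = R.res c) ∧
    ∀ P : Place L F, r P = Q → ∃ (W₁ : ValuationSubring F) (ρ₁ : ↥W₁ →+* k),
      W₁ ≤ P.toValuationSubring ∧ IsLocalHom ρ₁ ∧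
      (∀ c : R.A, ∃ h : algebraMap L F (c : L) ∈ W₁, ρ₁ ⟨_, h⟩ = R.res c) ∧
      ∀ (u : Γ) (h₁ : algebraMap Γ F u ∈ W₁),
        ∃ h₂ : algebraMap Γ F u ∈ W₂, ρ₂ ⟨_, h₂⟩ = ρ₁ ⟨_, h₁⟩

end ValSide

/-! ### The scheme side (KEY; leaf of helper60) -/

section Key

variable {K : Type u} [Field K] {A : Scheme.{u}} (f : A ⟶ Spec (CommRingCat.of K))

/-- `sp_V a = sp_V a'` in `A(k_V)`. -/
def S26espSame [IsProper f] {L : Type u} [Field L] [Algebra K L] (a a' : s26eptPts f L)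
    (V : ValuationSubring L) (hV : S26erOver K V) : Prop :=
  letI := s26eAlgV V hV
  haveI := s26eAlgV_tower V hV
  s26eptSp f L V a = s26eptSp f L V a'

variable (G : RelativeGroupLaw K f)

/-- the point `ν_F + a_F ∈ A(F)` of `ν ∈ A(Γ)`, `a ∈ A(L)`. -/
def s26espSum {Γ L F : Type u} [Field Γ] [Field L] [Field F] [Algebra K Γ] [Algebra K L]
    [Algebra K F] (jΓ : Γ →ₐ[K] F) (jL : L →ₐ[K] F) (ν : s26eptPts f Γ) (a : s26eptPts f L) :
    s26eptPts f F :=
  G.mul _ (s26eptMap f jΓ ν) (s26eptMap f jL a)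

/-- **(KEY-A)**: two valuation subrings `W₁, W₂` of `F` over `K` with homomorphisms
`ρ_i : W_i → k` which agree on `L ∩ W_i ⊇ V'` (both extend `res`) and on `Γ ∩ W₁ ⊆ Γ ∩ W₂`
(EVAL), `ρ₁` local: the `k`-points `ρ₁(x_{W₁})` and `ρ₂(x_{W₂})` of `x = ν_F + a_F` agree. -/
def S26espKeyA : Prop :=
  ∀ [IsProper f] {Γ L F k : Type u} [Field Γ] [Field L] [Field F] [Field k]
    [Algebra K Γ] [Algebra K L] [Algebra K F] (jΓ : Γ →ₐ[K] F) (jL : L →ₐ[K] F)
    (V' : ValuationSubring L) (res : ↥V' →+* k)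
    (W₁ W₂ : ValuationSubring F) (hW₁ : S26erOver K W₁) (hW₂ : S26erOver K W₂)
    (ρ₁ : ↥W₁ →+* k) (ρ₂ : ↥W₂ →+* k) (_ : IsLocalHom ρ₁)
    (_ : ∀ c : ↥V', ∃ h : jL (c : L) ∈ W₁, ρ₁ ⟨_, h⟩ = res c)
    (_ : ∀ c : ↥V', ∃ h : jL (c : L) ∈ W₂, ρ₂ ⟨_, h⟩ = res c)
    (_ : ∀ (u : Γ) (h₁ : jΓ u ∈ W₁), ∃ h₂ : jΓ u ∈ W₂, ρ₂ ⟨_, h₂⟩ = ρ₁ ⟨_, h₁⟩)
    (ν : s26eptPts f Γ) (a : s26eptPts f L),
    Spec.map (CommRingCat.ofHom ρ₁) ≫ s26eLiftV f W₁ hW₁ (s26espSum f G jΓ jL ν a) =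
      Spec.map (CommRingCat.ofHom ρ₂) ≫ s26eLiftV f W₂ hW₂ (s26espSum f G jΓ jL ν a)

/-- **(KEY-B)**: `sp_{V'} a = sp_{V'} a'` ⇒ for every valuation subring `W` of `F` over `K`
with a homomorphism `ρ : W → k'` such that `ρ ∘ jL = θ ∘ res` on `V'` (`res : V' → k` killing
the non-units, `θ : k → k'`): the `k'`-points `ρ(x_W)` and `ρ(x'_W)` agree. -/
def S26espKeyB : Prop :=
  ∀ [IsProper f] {Γ L F k k' : Type u} [Field Γ] [Field L] [Field F] [Field k] [Field k']
    [Algebra K Γ] [Algebra K L] [Algebra K F] (jΓ : Γ →ₐ[K] F) (jL : L →ₐ[K] F)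
    (V' : ValuationSubring L) (hV' : S26erOver K V') (res : ↥V' →+* k)
    (_ : ∀ c : ↥V', (c : L) ∈ V'.nonunits → res c = 0) (θ : k →+* k')
    (W : ValuationSubring F) (hW : S26erOver K W) (ρ : ↥W →+* k')
    (_ : ∀ c : ↥V', ∃ h : jL (c : L) ∈ W, ρ ⟨_, h⟩ = θ (res c))
    (ν : s26eptPts f Γ) (a a' : s26eptPts f L), S26espSame f a a' V' hV' →
    Spec.map (CommRingCat.ofHom ρ) ≫ s26eLiftV f W hW (s26espSum f G jΓ jL ν a) =
      Spec.map (CommRingCat.ofHom ρ) ≫ s26eLiftV f W hW (s26espSum f G jΓ jL ν a')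

/-- **(KEY-C)**: `W ⊆ V` valuation subrings of `Ω` over `K` ⇒ `c_V(x) ⤳ c_W(x)`, and the
`V`-point is the image of the `W`-point. -/
def S26espKeyC : Prop :=
  ∀ [IsProper f] {Ω : Type u} [Field Ω] [Algebra K Ω] (V W : ValuationSubring Ω)
    (hV : S26erOver K V) (hW : S26erOver K W) (hWV : W ≤ V) (x : s26eptPts f Ω),
    Spec.map (CommRingCat.ofHom (ValuationSubring.inclusion W V hWV)) ≫ s26eLiftV f W hW x =
      s26eLiftV f V hV x

end Key

end Fermat.Agent.S26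

end
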