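/-
S26-E, piece E-SPEC, leaf K-A = the scheme side (KEY-A) (helper60), on E-PT (helper51) and the
frame `S26/ESpecFrame.lean` (helper95).

* `s26espk_lift_eq_of_common` : two valuation rings `W₁, W₂` of `F` over `K` with `K`-algebra
  homomorphisms `ρ_i : W_i → k`, and a valuation ring `V₀` of `Ω₀` mapping to both compatibly with
  `ι : Ω₀ → F`, with `ρ₁ ∘ j₁ = ρ₂ ∘ j₂`: for `P ∈ A(Ω₀)` the `k`-points
  `ρ₁ (lift_{W₁} (ι P))` and `ρ₂ (lift_{W₂} (ι P))` agree.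
* `s26espk_agree_of_le` : two ring homomorphisms into a field on valuation subrings `V_a ≤ V_b`
  of `L` which agree on a valuation subring `V' ≤ V_a` agree on `V_a` (`V' → V_a` is epi).
* `s26espk_part` : the part of (KEY-A) for one field.
* `s26espk_keyA : S26espKeyA f G` : **(KEY-A)** VERBATIM (`IsLocalHom ρ₁` is not used; the
  `L`-part needs neither `K ⊆ V'` nor `V' = W_i ∩ L`: the overrings of `V'` form a chain).
* `s26espk_keyC : S26espKeyC f`   : **(KEY-C)** VERBATIM.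
-/
import Fermat.Agent.S26.ESpecFrame
import Fermat.Agent.S26.EPTComp

set_option autoImplicit false
set_option linter.style.haveILetI false
set_option linter.unusedSectionVars false
set_option linter.unusedVariables false

noncomputable section

namespace Fermat.Agent.S26

open CategoryTheory CategoryTheory.Limits AlgebraicGeometry NeronModelInfra GoodReductionJacobian

universe u

variable {K : Type u} [Field K] {A : Scheme.{u}} (f : A ⟶ Spec (CommRingCat.of K))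

/-- **(KEY-C)** -/
theorem s26espk_keyC : S26espKeyC f := by
  intro _ Ω _ _ V W hV hW hWV x
  letI aV := s26eAlgV V hV
  haveI tV := s26eAlgV_tower V hV
  letI aW := s26eAlgV W hW
  haveI tW := s26eAlgV_tower W hW
  let j : ↥W →ₐ[K] ↥V :=
    { ValuationSubring.inclusion W V hWV with commutes' := fun c => rfl }
  have h := s26eptLift_of_le f (Ω := Ω) (V := ↥V) (W := ↥W) j (fun x => rfl) x
  have h' := congrArg Subtype.val h
  rw [s26eptMap_coe] at h'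
  exact h'.symm

section Common

variable {Ω₀ F k : Type u} [Field Ω₀] [Field F] [Field k] [Algebra K Ω₀] [Algebra K F]
  [Algebra K k] [IsProper f]
  {V₀ : Type u} [CommRing V₀] [IsDomain V₀] [ValuationRing V₀] [Algebra V₀ Ω₀]
  [IsFractionRing V₀ Ω₀] [Algebra K V₀] [IsScalarTower K V₀ Ω₀]
  {W₁ : Type u} [CommRing W₁] [IsDomain W₁] [ValuationRing W₁] [Algebra W₁ F]
  [IsFractionRing W₁ F] [Algebra K W₁] [IsScalarTower K W₁ F]
  {W₂ : Type u} [CommRing W₂] [IsDomain W₂] [ValuationRing W₂] [Algebra W₂ F]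
  [IsFractionRing W₂ F] [Algebra K W₂] [IsScalarTower K W₂ F]

/-- the `k`-points of a point coming from `Ω₀` along two valuation rings with a common
valuation ring on `Ω₀` and compatible residue maps agree -/
theorem s26espk_lift_eq_of_common (ι : Ω₀ →ₐ[K] F) (ρ₁ : W₁ →ₐ[K] k) (ρ₂ : W₂ →ₐ[K] k)
    (j₁ : V₀ →ₐ[K] W₁) (j₂ : V₀ →ₐ[K] W₂)
    (h₁ : ∀ x : V₀, algebraMap W₁ F (j₁ x) = ι (algebraMap V₀ Ω₀ x))
    (h₂ : ∀ x : V₀, algebraMap W₂ F (j₂ x) = ι (algebraMap V₀ Ω₀ x))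
    (hρ : ρ₁.comp j₁ = ρ₂.comp j₂) (P : s26eptPts f Ω₀) :
    s26eptMap f ρ₁ (s26eptLift f F W₁ (s26eptMap f ι P)) =
      s26eptMap f ρ₂ (s26eptLift f F W₂ (s26eptMap f ι P)) := by
  rw [s26eptLift_funct f ι j₁ h₁ P, s26eptLift_funct f ι j₂ h₂ P, ← s26eptMap_comp,
    ← s26eptMap_comp, hρ]

end Common

section Agree

variable {L F k : Type*} [Field L] [Field F] [Field k]

/-- two ring homomorphisms `ρ₁ : W₁ → k`, `ρ₂ : W₂ → k` which agree on the image of a valuation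
subring `V'` of `L` agree on the image of every element `c` of `L` whose image lies in both
`W₁` and `W₂` (`c ∈ V'` or `c⁻¹ ∈ V'`) -/
theorem s26espk_agree (jL : L →+* F) (V' : ValuationSubring L) (W₁ W₂ : ValuationSubring F)
    (ρ₁ : ↥W₁ →+* k) (ρ₂ : ↥W₂ →+* k)
    (hag : ∀ c : ↥V', ∃ (h₁ : jL (c : L) ∈ W₁) (h₂ : jL (c : L) ∈ W₂),
      ρ₁ ⟨_, h₁⟩ = ρ₂ ⟨_, h₂⟩)
    (c : L) (h₁ : jL c ∈ W₁) (h₂ : jL c ∈ W₂) : ρ₁ ⟨_, h₁⟩ = ρ₂ ⟨_, h₂⟩ := by
  rcases V'.mem_or_inv_mem c with hc | hc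
  · obtain ⟨h₁', h₂', e⟩ := hag ⟨c, hc⟩
    exact e
  · by_cases hc0 : c = 0
    · subst hc0
      have e1 : (⟨jL 0, h₁⟩ : ↥W₁) = 0 := Subtype.ext (map_zero jL)
      have e2 : (⟨jL 0, h₂⟩ : ↥W₂) = 0 := Subtype.ext (map_zero jL)
      rw [e1, e2, map_zero, map_zero]
    · obtain ⟨h₁', h₂', e⟩ := hag ⟨c⁻¹, hc⟩
      have m1 : (⟨jL c, h₁⟩ : ↥W₁) * ⟨jL c⁻¹, h₁'⟩ = 1 := by
        apply Subtype.ext
        show jL c * jL c⁻¹ = 1
        rw [← map_mul, mul_inv_cancel₀ hc0, map_one]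
      have m2 : (⟨jL c, h₂⟩ : ↥W₂) * ⟨jL c⁻¹, h₂'⟩ = 1 := by
        apply Subtype.ext
        show jL c * jL c⁻¹ = 1
        rw [← map_mul, mul_inv_cancel₀ hc0, map_one]
      have n1 := congrArg ρ₁ m1
      have n2 := congrArg ρ₂ m2
      rw [map_mul, map_one] at n1 n2
      rw [e] at n1
      have hne : ρ₂ ⟨jL c⁻¹, h₂'⟩ ≠ 0 := by
        intro h0
        rw [h0, mul_zero] at n2
        exact zero_ne_one n2
      exact mul_right_cancel₀ hne (n1.trans n2.symm)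

end Agree

section Part

variable {Ω₀ F k : Type u} [Field Ω₀] [Field F] [Field k] [Algebra K Ω₀] [Algebra K F]
  [Algebra K k] [IsProper f]

/-- the part of (KEY-A) for one of the two fields: a valuation subring `V₀` of `Ω₀` whose image
lies in `W₁` and in `W₂`, on which the residue maps agree -/
theorem s26espk_part (ι : Ω₀ →ₐ[K] F) (V₀ : ValuationSubring Ω₀) (W₁ W₂ : ValuationSubring F)
    [Algebra K ↥V₀] [IsScalarTower K ↥V₀ Ω₀] [Algebra K ↥W₁] [IsScalarTower K ↥W₁ F]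
    [Algebra K ↥W₂] [IsScalarTower K ↥W₂ F]
    (ρ₁ : ↥W₁ →ₐ[K] k) (ρ₂ : ↥W₂ →ₐ[K] k)
    (h1 : ∀ u ∈ V₀, ι u ∈ W₁) (h2 : ∀ u ∈ V₀, ι u ∈ W₂)
    (hag : ∀ (u : Ω₀) (hu : u ∈ V₀), ρ₁ ⟨ι u, h1 u hu⟩ = ρ₂ ⟨ι u, h2 u hu⟩)
    (P : s26eptPts f Ω₀) :
    s26eptMap f ρ₁ (s26eptLift f F ↥W₁ (s26eptMap f ι P)) =
      s26eptMap f ρ₂ (s26eptLift f F ↥W₂ (s26eptMap f ι P)) := by
  have hK0 : ∀ c : K, ((algebraMap K ↥V₀ c : ↥V₀) : Ω₀) = algebraMap K Ω₀ c := fun c =>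
    (IsScalarTower.algebraMap_apply K ↥V₀ Ω₀ c).symm
  have hK1 : ∀ c : K, ((algebraMap K ↥W₁ c : ↥W₁) : F) = algebraMap K F c := fun c =>
    (IsScalarTower.algebraMap_apply K ↥W₁ F c).symm
  have hK2 : ∀ c : K, ((algebraMap K ↥W₂ c : ↥W₂) : F) = algebraMap K F c := fun c =>
    (IsScalarTower.algebraMap_apply K ↥W₂ F c).symm
  let j₁ : ↥V₀ →ₐ[K] ↥W₁ :=
    { toFun := fun u => ⟨ι u.1, h1 u.1 u.2⟩
      map_one' := Subtype.ext (map_one ι)
      map_mul' := fun x y => Subtype.ext (map_mul ι _ _)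
      map_zero' := Subtype.ext (map_zero ι)
      map_add' := fun x y => Subtype.ext (map_add ι _ _)
      commutes' := fun c => Subtype.ext (by
        show ι ((algebraMap K ↥V₀ c : ↥V₀) : Ω₀) = ((algebraMap K ↥W₁ c : ↥W₁) : F)
        rw [hK0, hK1, ι.commutes]) }
  let j₂ : ↥V₀ →ₐ[K] ↥W₂ :=
    { toFun := fun u => ⟨ι u.1, h2 u.1 u.2⟩
      map_one' := Subtype.ext (map_one ι)
      map_mul' := fun x y => Subtype.ext (map_mul ι _ _)
      map_zero' := Subtype.ext (map_zero ι)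
      map_add' := fun x y => Subtype.ext (map_add ι _ _)
      commutes' := fun c => Subtype.ext (by
        show ι ((algebraMap K ↥V₀ c : ↥V₀) : Ω₀) = ((algebraMap K ↥W₂ c : ↥W₂) : F)
        rw [hK0, hK2, ι.commutes]) }
  refine s26espk_lift_eq_of_common f ι ρ₁ ρ₂ j₁ j₂ (fun x => rfl) (fun x => rfl) ?_ P
  ext u
  exact hag u.1 u.2

end Part

section KeyA

variable (G : RelativeGroupLaw K f)

/-- **(KEY-A)** -/
theorem s26espk_keyA : S26espKeyA f G := by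
  intro _ Γ L F k _ _ _ _ _ _ _ jΓ jL V' res W₁ W₂ hW₁ hW₂ ρ₁ ρ₂ hloc hL₁ hL₂ hΓ ν a
  letI a₁ := s26eAlgV W₁ hW₁
  haveI t₁ := s26eAlgV_tower W₁ hW₁
  letI a₂ := s26eAlgV W₂ hW₂
  haveI t₂ := s26eAlgV_tower W₂ hW₂
  letI ak : Algebra K k := (ρ₁.comp (algebraMap K ↥W₁)).toAlgebra
  let ρ₁' : ↥W₁ →ₐ[K] k := { ρ₁ with commutes' := fun c => rfl }
  have hK₂ : ∀ c : K, ρ₂ (algebraMap K ↥W₂ c) = algebraMap K k c := by
    intro c
    have hm : jΓ (algebraMap K Γ c) ∈ W₁ := by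
      rw [jΓ.commutes]
      exact hW₁ c
    obtain ⟨h₂, e⟩ := hΓ (algebraMap K Γ c) hm
    have e1 : (⟨jΓ (algebraMap K Γ c), h₂⟩ : ↥W₂) = algebraMap K ↥W₂ c :=
      Subtype.ext (jΓ.commutes c)
    have e2 : (⟨jΓ (algebraMap K Γ c), hm⟩ : ↥W₁) = algebraMap K ↥W₁ c :=
      Subtype.ext (jΓ.commutes c)
    rw [e1, e2] at e
    exact e
  let ρ₂' : ↥W₂ →ₐ[K] k := { ρ₂ with commutes' := hK₂ }
  -- the Γ-part
  have hΓK : S26erOver K (W₁.comap (jΓ : Γ →+* F)) := fun c => by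
    rw [ValuationSubring.mem_comap]
    show jΓ (algebraMap K Γ c) ∈ W₁
    rw [jΓ.commutes]
    exact hW₁ c
  have partΓ : s26eptMap f ρ₁' (s26eptLift f F ↥W₁ (s26eptMap f jΓ ν)) =
      s26eptMap f ρ₂' (s26eptLift f F ↥W₂ (s26eptMap f jΓ ν)) := by
    letI aΓ := s26eAlgV (W₁.comap (jΓ : Γ →+* F)) hΓK
    haveI tΓ := s26eAlgV_tower (W₁.comap (jΓ : Γ →+* F)) hΓK
    exact s26espk_part f jΓ (W₁.comap (jΓ : Γ →+* F)) W₁ W₂ ρ₁' ρ₂'
      (fun u hu => hu) (fun u hu => (hΓ u hu).fst) (fun u hu => ((hΓ u hu).snd).symm) ν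
  -- the L-part
  have hag : ∀ c : ↥V', ∃ (h₁ : jL (c : L) ∈ W₁) (h₂ : jL (c : L) ∈ W₂),
      ρ₁ ⟨_, h₁⟩ = ρ₂ ⟨_, h₂⟩ := fun c =>
    ⟨(hL₁ c).fst, (hL₂ c).fst, ((hL₁ c).snd).trans ((hL₂ c).snd).symm⟩
  have hV'1 : V' ≤ W₁.comap (jL : L →+* F) := fun c hc => (hL₁ ⟨c, hc⟩).fst
  have hV'2 : V' ≤ W₂.comap (jL : L →+* F) := fun c hc => (hL₂ ⟨c, hc⟩).fst
  have hL1K : S26erOver K (W₁.comap (jL : L →+* F)) := fun c => by
    rw [ValuationSubring.mem_comap]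
    show jL (algebraMap K L c) ∈ W₁
    rw [jL.commutes]
    exact hW₁ c
  have hL2K : S26erOver K (W₂.comap (jL : L →+* F)) := fun c => by
    rw [ValuationSubring.mem_comap]
    show jL (algebraMap K L c) ∈ W₂
    rw [jL.commutes]
    exact hW₂ c
  have partL : s26eptMap f ρ₁' (s26eptLift f F ↥W₁ (s26eptMap f jL a)) =
      s26eptMap f ρ₂' (s26eptLift f F ↥W₂ (s26eptMap f jL a)) := by
    rcases le_total (⟨W₁.comap (jL : L →+* F), hV'1⟩ : {S // V' ≤ S})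
      ⟨W₂.comap (jL : L →+* F), hV'2⟩ with hle | hle
    · have hle' : W₁.comap (jL : L →+* F) ≤ W₂.comap (jL : L →+* F) := hle
      letI aL := s26eAlgV (W₁.comap (jL : L →+* F)) hL1K
      haveI tL := s26eAlgV_tower (W₁.comap (jL : L →+* F)) hL1K
      exact s26espk_part f jL (W₁.comap (jL : L →+* F)) W₁ W₂ ρ₁' ρ₂'
        (fun u hu => hu) (fun u hu => hle' hu)
        (fun u hu => s26espk_agree (jL : L →+* F) V' W₁ W₂ ρ₁ ρ₂ hag u hu (hle' hu)) a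
    · have hle' : W₂.comap (jL : L →+* F) ≤ W₁.comap (jL : L →+* F) := hle
      letI aL := s26eAlgV (W₂.comap (jL : L →+* F)) hL2K
      haveI tL := s26eAlgV_tower (W₂.comap (jL : L →+* F)) hL2K
      exact s26espk_part f jL (W₂.comap (jL : L →+* F)) W₁ W₂ ρ₁' ρ₂'
        (fun u hu => hle' hu) (fun u hu => hu)
        (fun u hu => s26espk_agree (jL : L →+* F) V' W₁ W₂ ρ₁ ρ₂ hag u (hle' hu) hu) a
  have key : s26eptMap f ρ₁' (s26eptLift f F ↥W₁ (s26espSum f G jΓ jL ν a)) =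
      s26eptMap f ρ₂' (s26eptLift f F ↥W₂ (s26espSum f G jΓ jL ν a)) := by
    unfold s26espSum
    rw [s26eptLift_mul, s26eptLift_mul, s26eptMap_mul, s26eptMap_mul, partΓ, partL]
  have h' := congrArg Subtype.val key
  rw [s26eptMap_coe, s26eptMap_coe] at h'
  exact h'

end KeyA

end Fermat.Agent.S26

end
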