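/-
S26-E-SPEC, leaf (KEY-B) (helper58): `S26espKeyB f G` of `S26/ESpecFrame.lean` (helper95).

`sp_{V'} a = sp_{V'} a'` ⇒ for every valuation subring `W` of `F` over `K` with a homomorphism
`ρ : W → k'` such that `ρ ∘ jL = θ ∘ res` on `V'`: the `k'`-points `ρ(x_W)`, `ρ(x'_W)` of
`x = ν_F + a_F`, `x' = ν_F + a'_F` agree.

* `s26espc_keyB_core` : the statement in helper51's type-class style (`V`, `W` types):
    `ρ (lift_W (ν · ι a)) = ρ (lift_W (ν · ι a'))` for `ρ : W →ₐ[K] k'` with `ρ ∘ j` killing the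
    non-units of `V`  [lift is multiplicative and functorial; `ρ ∘ j` factors through `k_V`].
* `s26espc_keyB`      : `S26espKeyB f G`, as stated.
-/
import Fermat.Agent.S26.ESpecFrame
import Fermat.Agent.S26.EPTFun

set_option autoImplicit false
set_option linter.style.haveILetI false
set_option linter.unusedVariables false
set_option linter.unusedSectionVars false

noncomputable section

namespace Fermat.Agent.S26

open CategoryTheory CategoryTheory.Limits AlgebraicGeometry NeronModelInfra GoodReductionJacobian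

universe u

variable {K : Type u} [Field K] {A : Scheme.{u}} (f : A ⟶ Spec (CommRingCat.of K))

section Core

variable {L : Type u} [Field L] [Algebra K L]
  {V : Type u} [CommRing V] [IsDomain V] [ValuationRing V] [Algebra V L] [IsFractionRing V L]
  [Algebra K V] [IsScalarTower K V L]
  {F : Type u} [Field F] [Algebra K F]
  {W : Type u} [CommRing W] [IsDomain W] [ValuationRing W] [Algebra W F] [IsFractionRing W F]
  [Algebra K W] [IsScalarTower K W F]
  {k' : Type u} [Field k'] [Algebra K k']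
  [IsProper f] (G : RelativeGroupLaw K f)

/-- a `K`-algebra homomorphism `V → k'` into a field which kills the non-units factors through
the residue field. -/
theorem s26espc_exists_factor (σ : V →ₐ[K] k') (hσ : ∀ c : V, ¬ IsUnit c → σ c = 0) :
    ∃ τ : IsLocalRing.ResidueField V →ₐ[K] k', σ = τ.comp (s26eptRes V) := by
  haveI : IsLocalHom (σ : V →+* k') := ⟨fun c hc => by
    by_contra hcu
    exact hc.ne_zero (hσ c hcu)⟩
  let τ₀ : IsLocalRing.ResidueField V →+* k' := IsLocalRing.ResidueField.lift (σ : V →+* k')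
  have hτ₀ : ∀ y : V, τ₀ (IsLocalRing.residue V y) = σ y := fun y =>
    IsLocalRing.ResidueField.lift_residue_apply (σ : V →+* k') y
  refine ⟨{ τ₀ with
    commutes' := fun c => ?_ }, ?_⟩
  · have h1 : algebraMap K (IsLocalRing.ResidueField V) c =
        IsLocalRing.residue V (algebraMap K V c) := rfl
    show τ₀ (algebraMap K (IsLocalRing.ResidueField V) c) = algebraMap K k' c
    rw [h1, hτ₀]
    exact σ.commutes c
  · ext y
    exact (hτ₀ y).symm

/-- **(KEY-B), core**: `sp_V a = sp_V a'` ⇒ `ρ (lift_W (ν · ι a)) = ρ (lift_W (ν · ι a'))` for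
every `K`-algebra homomorphism `ρ : W → k'` into a field with `ρ ∘ j` killing the non-units of
`V` (`j : V → W` compatible with `ι : L → F`). -/
theorem s26espc_keyB_core (ι : L →ₐ[K] F) (j : V →ₐ[K] W)
    (hj : ∀ x : V, algebraMap W F (j x) = ι (algebraMap V L x))
    (ρ : W →ₐ[K] k') (hρ : ∀ c : V, ¬ IsUnit c → ρ (j c) = 0)
    (ν : s26eptPts f F) (a a' : s26eptPts f L)
    (hsp : s26eptSp f L V a = s26eptSp f L V a') :
    s26eptMap f ρ (s26eptLift f F W (G.mul _ ν (s26eptMap f ι a))) =
      s26eptMap f ρ (s26eptLift f F W (G.mul _ ν (s26eptMap f ι a'))) := by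
  obtain ⟨τ, hτ⟩ := s26espc_exists_factor (ρ.comp j) hρ
  have key : ∀ b : s26eptPts f L, s26eptMap f ρ (s26eptLift f F W (s26eptMap f ι b)) =
      s26eptMap f τ (s26eptSp f L V b) := by
    intro b
    rw [s26eptLift_funct f ι j hj b, ← s26eptMap_comp, hτ, s26eptMap_comp]
    rfl
  rw [s26eptLift_mul, s26eptLift_mul, s26eptMap_mul, s26eptMap_mul, key a, key a', hsp]

/-- **(KEY-B), core**, the other order `ι a · ν`. -/
theorem s26espc_keyB_core' (ι : L →ₐ[K] F) (j : V →ₐ[K] W)
    (hj : ∀ x : V, algebraMap W F (j x) = ι (algebraMap V L x))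
    (ρ : W →ₐ[K] k') (hρ : ∀ c : V, ¬ IsUnit c → ρ (j c) = 0)
    (ν : s26eptPts f F) (a a' : s26eptPts f L)
    (hsp : s26eptSp f L V a = s26eptSp f L V a') :
    s26eptMap f ρ (s26eptLift f F W (G.mul _ (s26eptMap f ι a) ν)) =
      s26eptMap f ρ (s26eptLift f F W (G.mul _ (s26eptMap f ι a') ν)) := by
  obtain ⟨τ, hτ⟩ := s26espc_exists_factor (ρ.comp j) hρ
  have key : ∀ b : s26eptPts f L, s26eptMap f ρ (s26eptLift f F W (s26eptMap f ι b)) =
      s26eptMap f τ (s26eptSp f L V b) := by
    intro b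
    rw [s26eptLift_funct f ι j hj b, ← s26eptMap_comp, hτ, s26eptMap_comp]
    rfl
  rw [s26eptLift_mul, s26eptLift_mul, s26eptMap_mul, s26eptMap_mul, key a, key a', hsp]

end Core

/-- **(KEY-B)**, as stated in `S26/ESpecFrame.lean`. -/
theorem s26espc_keyB (G : RelativeGroupLaw K f) : S26espKeyB f G := by
  intro _ Γ L F k k' _ _ _ _ _ _ _ _ jΓ jL V' hV' res hres θ W hW ρ hρ ν a a' hsame
  letI := s26eAlgV V' hV'
  haveI := s26eAlgV_tower V' hV'
  letI := s26eAlgV W hW
  haveI := s26eAlgV_tower W hW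
  letI : Algebra K k' := (ρ.comp (algebraMap K ↥W)).toAlgebra
  let ρK : ↥W →ₐ[K] k' := { ρ with commutes' := fun _ => rfl }
  let j : ↥V' →ₐ[K] ↥W :=
    { toFun := fun c => ⟨jL (c : L), (hρ c).choose⟩
      map_one' := Subtype.ext (map_one jL)
      map_mul' := fun x y => Subtype.ext (map_mul jL _ _)
      map_zero' := Subtype.ext (map_zero jL)
      map_add' := fun x y => Subtype.ext (map_add jL _ _)
      commutes' := fun c => Subtype.ext (jL.commutes c) }
  have hj : ∀ x : ↥V', algebraMap ↥W F (j x) = jL (algebraMap ↥V' L x) := fun _ => rfl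
  have hρK : ∀ c : ↥V', ¬ IsUnit c → ρK (j c) = 0 := by
    intro c hc
    have h1 : ρ ⟨jL (c : L), (hρ c).choose⟩ = θ (res c) := (hρ c).choose_spec
    have h2 : res c = 0 := by
      apply hres c
      rw [ValuationSubring.coe_mem_nonunits_iff, IsLocalRing.mem_maximalIdeal, mem_nonunits_iff]
      exact hc
    show ρ ⟨jL (c : L), (hρ c).choose⟩ = 0
    rw [h1, h2, map_zero]
  have h := s26espc_keyB_core f G jL j hj ρK hρK (s26eptMap f jΓ ν) a a' hsame
  exact congrArg Subtype.val h

end Fermat.Agent.S26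

end
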