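/-
S26-E, piece E-SPEC (helper95), part 1: the ABSTRACT CORE on the landed DEU reduction
(`Fermat/Agent/DEU/Main3.lean`).  No scheme, no interface.

Setting: `R : DEU.RedData L F k Fb`, `H : DEU.Hyp R Pinf Qinf g n₀`, `r := H.r : Place L F → Place k Fb`.

* `s26espec_mapDomain_congr` : `(r_* D)(Q)` only depends on `D` on the fibre `r ⁻¹ Q`.
* `s26espec_ord_const_mul`   : `ord_P (c · f) = ord_P f` for a constant `c ≠ 0`.
* `s26espec_abs` : **abstract (SPEC)**.  `D` a divisor of `F / L`, `Φ₀ ∈ Fˣ`; if for every place `Q`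
  of `Fb / k` there is a Gauss unit `ε` with reduction `1` such that `D P = ord_P (Φ₀ ε)` for
  every place `P` over `Q`, then `r_* D` is the principal divisor of `G = red (c Φ₀)`
  (`c` any constant making `c Φ₀` a Gauss unit).
* `s26espec_abs_isPrincipal` : the same, as `Divisor.IsPrincipal`.
* `s26espec_abs_degree`      : under the same hypothesis `deg D = 0`.

In the application (blueprint NOTES/S26-E.md §2 (b)):  `D = (ν + a)^* 𝔇 − (ν + a')^* 𝔇` with
`sp_V a = sp_V a'`, `Φ₀ = ev_{ν+a}(h₀) / ev_{ν+a'}(h₀)` for a local equation `h₀` of `𝔇` at the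
centre of the Gauss valuation, and `Φ₀ ε = ev_{ν+a}(h) / ev_{ν+a'}(h)` for a local equation `h` at the
centre of `Q`.
-/
import Fermat.Agent.DEU.Main3

set_option autoImplicit false

namespace Fermat.Agent.S26

open AlgebraicCurve Fermat.Agent.DEU

variable {L F k Fb : Type*} [Field L] [Field F] [Algebra L F] [Field k] [Field Fb] [Algebra k Fb]

/-- `(f_* D)(Q)` only depends on the values of `D` on the fibre of `f` over `Q`. -/
theorem s26espec_mapDomain_congr {α β : Type*} (f : α → β) (D Z : α →₀ ℤ) (Q : β)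
    (h : ∀ P, f P = Q → D P = Z P) :
    Finsupp.mapDomain f D Q = Finsupp.mapDomain f Z Q := by
  classical
  have key : ∀ E : α →₀ ℤ, (∀ P, f P = Q → E P = 0) → Finsupp.mapDomain f E Q = 0 := by
    intro E hE
    rw [Finsupp.mapDomain, Finsupp.sum_apply]
    refine Finset.sum_eq_zero fun P _ => ?_
    show (Finsupp.single (f P) (E P)) Q = 0
    rw [Finsupp.single_apply]
    split_ifs with hP
    · exact hE P hP
    · rfl
  have hsub : Finsupp.mapDomain f (D - Z) Q = 0 :=
    key (D - Z) fun P hP => by rw [Finsupp.sub_apply, h P hP, sub_self]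
  have hadd : Finsupp.mapDomain f D = Finsupp.mapDomain f (D - Z) + Finsupp.mapDomain f Z := by
    rw [← Finsupp.mapDomain_add, sub_add_cancel]
  rw [hadd, Finsupp.add_apply, hsub, zero_add]

/-- a nonzero constant has order `0` at every place -/
theorem s26espec_ord_const_mul (P : Place L F) {c : L} (hc : c ≠ 0) {f : F} (hf : f ≠ 0) :
    P.ord (algebraMap L F c * f) = P.ord f := by
  have hc' : algebraMap L F c ≠ 0 := by simpa using hc
  rw [Place.ord_mul P hc' hf, Fermat.Agent.S24.PlaceAux.ord_algebraMap, zero_add]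

variable {R : RedData L F k Fb} {Pinf : Place L F} {Qinf : Place k Fb} {g n₀ : ℕ}

/-- **Abstract (SPEC).**  If `D` is, on every fibre of the reduction map `r`, the divisor of
`Φ₀ · ε` with `ε` a Gauss unit reducing to `1`, then `r_* D` is the divisor of the reduction of
the normalised `Φ₀`. -/
theorem s26espec_abs (H : Hyp R Pinf Qinf g n₀) (D : Divisor L F) {Φ₀ : F} (hΦ₀ : Φ₀ ≠ 0)
    (hloc : ∀ Q : Place k Fb, ∃ ε : R.O, R.red ε = 1 ∧
      ∀ P : Place L F, H.r P = Q → D P = P.ord (Φ₀ * (ε : F))) :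
    ∃ (c : L) (_ : c ≠ 0) (hmem : algebraMap L F c * Φ₀ ∈ R.O),
      R.red ⟨algebraMap L F c * Φ₀, hmem⟩ ≠ 0 ∧
      ∀ Q : Place k Fb,
        Finsupp.mapDomain H.r D Q = Q.ord (R.red ⟨algebraMap L F c * Φ₀, hmem⟩) := by
  obtain ⟨c, hc, hmem, hred⟩ := R.exists_scale Φ₀ hΦ₀
  refine ⟨c, hc, hmem, hred, fun Q => ?_⟩
  obtain ⟨ε, hε, hD⟩ := hloc Q
  set u : R.O := ⟨algebraMap L F c * Φ₀, hmem⟩ * ε with hu
  have hured : R.red u = R.red ⟨algebraMap L F c * Φ₀, hmem⟩ := by
    rw [hu, map_mul, hε, mul_one]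
  have hu0 : R.red u ≠ 0 := by rw [hured]; exact hred
  have hε0 : (ε : F) ≠ 0 := R.coe_ne_zero_of_red_ne_zero (by rw [hε]; exact one_ne_zero)
  have huF : (u : F) = algebraMap L F c * (Φ₀ * (ε : F)) := by
    rw [hu, Subring.coe_mul, mul_assoc]
  have huF0 : (u : F) ≠ 0 := R.coe_ne_zero_of_red_ne_zero hu0
  have := H.hpdF
  obtain ⟨Z, hZ, -⟩ := HasPrincipalDivisors.exists_divisor (K := L) (u : F) huF0
  have h1 := H.mapDomain_r_principal u hu0 Z hZ Q
  rw [hured] at h1
  rw [← h1]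
  refine s26espec_mapDomain_congr H.r D Z Q fun P hP => ?_
  rw [hD P hP, hZ P, huF, s26espec_ord_const_mul P hc (mul_ne_zero hΦ₀ hε0)]

/-- **Abstract (SPEC)**, principal form. -/
theorem s26espec_abs_isPrincipal (H : Hyp R Pinf Qinf g n₀) (D : Divisor L F) {Φ₀ : F}
    (hΦ₀ : Φ₀ ≠ 0)
    (hloc : ∀ Q : Place k Fb, ∃ ε : R.O, R.red ε = 1 ∧
      ∀ P : Place L F, H.r P = Q → D P = P.ord (Φ₀ * (ε : F))) :
    Divisor.IsPrincipal (Finsupp.mapDomain H.r D) := by
  obtain ⟨c, _, hmem, hred, h⟩ := s26espec_abs H D hΦ₀ hloc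
  exact ⟨_, hred, h⟩

/-- `r_*` preserves degrees. -/
theorem s26espec_degree_mapDomain (H : Hyp R Pinf Qinf g n₀) (D : Divisor L F) :
    Divisor.degree (Finsupp.mapDomain H.r D) = Divisor.degree D := by
  rw [← H.rhoExt_eq_mapDomain, H.degree_rhoExt]

/-- a principal divisor has degree `0` -/
theorem s26espec_degree_of_isPrincipal [HasPrincipalDivisors k Fb] {E : Divisor k Fb}
    (hE : Divisor.IsPrincipal E) : Divisor.degree E = 0 := by
  obtain ⟨f, hf, hE⟩ := hE
  obtain ⟨Z, hZ, hdeg⟩ := HasPrincipalDivisors.exists_divisor (K := k) f hf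
  have : E = Z := Finsupp.ext fun v => by rw [hE v, hZ v]
  rw [this, hdeg]

/-- **Abstract (SPEC)**: the degree is `0`. -/
theorem s26espec_abs_degree (H : Hyp R Pinf Qinf g n₀) (D : Divisor L F) {Φ₀ : F}
    (hΦ₀ : Φ₀ ≠ 0)
    (hloc : ∀ Q : Place k Fb, ∃ ε : R.O, R.red ε = 1 ∧
      ∀ P : Place L F, H.r P = Q → D P = P.ord (Φ₀ * (ε : F))) :
    Divisor.degree D = 0 := by
  have := H.hpdk
  rw [← s26espec_degree_mapDomain H D]
  exact s26espec_degree_of_isPrincipal (s26espec_abs_isPrincipal H D hΦ₀ hloc)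

end Fermat.Agent.S26
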