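/-
S26-E, piece E-SPEC (helper95), part 2: the LOCAL theorem on generators.  Mathlib only (+ E-M).

`X` integral locally noetherian, `U ⊂ X` open, `hD : S26emLocData U` (local equations of
`D = X ∖ U`).  All points are morphisms `Spec R ⟶ X`, `R` a local ring.

* `s26espEvAt φ c hc : 𝒪_{X,c} →+* R` : evaluation at `φ` of the germs at a specialisation `c`
  of the centre of `φ`;  `s26espEvAt_map` (functoriality in `R`), `s26espEvAt_congr`,
  `s26espEvAt_spec` (change of `c`), `s26espEvAt_associated` (`s26emGen U φ ~ evAt φ c h` for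
  every local equation `h` at `c`), `s26espEvAt_isUnit` (centre in `U` ⇒ the value is a unit).
* **`s26esp_loc`** : `F` a field, `O` a local ring with `ι : O → F` and `ρ : O → Fb`
  ("Gauss ring" and its reduction), two `O`-points `x, x'` with THE SAME REDUCTION
  `ρ^* x = ρ^* x'`, generic points in `U`, `c₀` a common specialisation of their centres.
  Then there is `Φ₀ ∈ Fˣ` such that for every specialisation `c₂` of `c₀` there is `ε ∈ O` with
  `ρ ε = 1` such that for EVERY local ring `Pl → F` and `Pl`-points `x_P, x'_P` of the same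
  `F`-points whose centres specialise to `c₂`:
      `gen(x_P) = u · (Φ₀ · ε) · gen(x'_P)`,  `u ∈ Plˣ`.
  (In E-SPEC: `O` = Gauss ring of `F = L(Γ)`, `Pl = O_P` for the places `P` over a place `Q` of
  the reduced curve, `c₂` = the centre along the composite valuation `W₂(Q)`.)
-/
import Fermat.Agent.S26.EMFun

set_option autoImplicit false
set_option linter.style.haveILetI false
set_option linter.unusedVariables false
set_option linter.unusedSectionVars false

noncomputable section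

namespace Fermat.Agent.S26

open AlgebraicGeometry CategoryTheory

universe u

variable {X : Scheme.{u}}

section EvAt

variable {R S : CommRingCat.{u}} [IsLocalRing R] [IsLocalRing S]

/-- evaluation at `φ` of the germs at a specialisation `c` of the centre of `φ`. -/
def s26espEvAt (φ : Spec R ⟶ X) (c : X) (hc : s26emCentre φ ⤳ c) : X.presheaf.stalk c →+* R :=
  (s26emEv φ).comp (X.presheaf.stalkSpecializes hc).hom

theorem s26espEvAt_apply (φ : Spec R ⟶ X) (c : X) (hc : s26emCentre φ ⤳ c)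
    (x : X.presheaf.stalk c) :
    s26espEvAt φ c hc x = s26emEv φ ((X.presheaf.stalkSpecializes hc).hom x) := rfl

/-- the evaluation only depends on the morphism. -/
theorem s26espEvAt_congr {φ φ' : Spec R ⟶ X} (e : φ = φ') (c : X) (hc : s26emCentre φ ⤳ c)
    (hc' : s26emCentre φ' ⤳ c) (x : X.presheaf.stalk c) :
    s26espEvAt φ c hc x = s26espEvAt φ' c hc' x := by
  subst e
  rfl

/-- change of the point `c`: `evAt φ c₂ = evAt φ c₁ ∘ (𝒪_{c₂} → 𝒪_{c₁})`. -/
theorem s26espEvAt_spec (φ : Spec R ⟶ X) {c₁ c₂ : X} (h₁ : s26emCentre φ ⤳ c₁) (h₁₂ : c₁ ⤳ c₂)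
    (h₂ : s26emCentre φ ⤳ c₂) (x : X.presheaf.stalk c₂) :
    s26espEvAt φ c₂ h₂ x = s26espEvAt φ c₁ h₁ ((X.presheaf.stalkSpecializes h₁₂).hom x) := by
  rw [s26espEvAt_apply, s26espEvAt_apply]
  congr 1
  change _ = (X.presheaf.stalkSpecializes h₁₂ ≫ X.presheaf.stalkSpecializes h₁).hom x
  rw [TopCat.Presheaf.stalkSpecializes_comp]

/-- **functoriality**: `evAt (ψ^* φ) c = ψ ∘ evAt φ c`. -/
theorem s26espEvAt_map (ψ : R ⟶ S) (φ : Spec R ⟶ X) (c : X) (hc : s26emCentre φ ⤳ c)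
    (hc' : s26emCentre (Spec.map ψ ≫ φ) ⤳ c) (x : X.presheaf.stalk c) :
    s26espEvAt (Spec.map ψ ≫ φ) c hc' x = ψ.hom (s26espEvAt φ c hc x) := by
  rw [s26espEvAt_apply, s26espEvAt_apply, ← s26emEv_comp]
  congr 1
  change _ = (X.presheaf.stalkSpecializes hc ≫
    X.presheaf.stalkSpecializes (s26em_centre_specializes ψ φ)).hom x
  rw [TopCat.Presheaf.stalkSpecializes_comp]

/-- functoriality, for a morphism given by an equation. -/
theorem s26espEvAt_map' (ψ : R ⟶ S) (φ : Spec R ⟶ X) (φ' : Spec S ⟶ X)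
    (e : Spec.map ψ ≫ φ = φ') (c : X) (hc : s26emCentre φ ⤳ c) (hc' : s26emCentre φ' ⤳ c)
    (x : X.presheaf.stalk c) :
    s26espEvAt φ' c hc' x = ψ.hom (s26espEvAt φ c hc x) := by
  subst e
  exact s26espEvAt_map ψ φ c hc hc' x

variable [IsIntegral X] [IsLocallyNoetherian X] {U : X.Opens}

/-- the generator is associated to the value of every local equation at a specialisation of
the centre. -/
theorem s26espEvAt_associated (hD : S26emLocData U) (φ : Spec R ⟶ X) {c : X}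
    (hc : s26emCentre φ ⤳ c) {h : X.presheaf.stalk c} (hh : S26emIsLocEq U c h) :
    Associated (s26emGen U φ) (s26espEvAt φ c hc h) :=
  s26emGen_associated hD φ (s26em_locEq_specializes hh hc)

/-- if the centre lies in `U`, the value of a local equation is a unit. -/
theorem s26espEvAt_isUnit (hD : S26emLocData U) (φ : Spec R ⟶ X) {c : X}
    (hc : s26emCentre φ ⤳ c) {h : X.presheaf.stalk c} (hh : S26emIsLocEq U c h)
    (hU : s26emCentre φ ∈ U) : IsUnit (s26espEvAt φ c hc h) :=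
  (s26espEvAt_associated hD φ hc hh).isUnit ((s26emGen_isUnit_iff hD φ).2 hU)

end EvAt

section Loc

variable [IsIntegral X] [IsLocallyNoetherian X] {U : X.Opens}

/-- **E-SPEC, the local theorem.** -/
theorem s26esp_loc (hD : S26emLocData U) {F : Type u} [Field F]
    {O Fb : CommRingCat.{u}} [IsLocalRing O] [IsLocalRing Fb]
    (ι : O ⟶ CommRingCat.of F) (ρ : O ⟶ Fb)
    (xG xG' : Spec O ⟶ X) (hρ : Spec.map ρ ≫ xG = Spec.map ρ ≫ xG')
    (hU : s26emCentre (Spec.map ι ≫ xG) ∈ U) (hU' : s26emCentre (Spec.map ι ≫ xG') ∈ U)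
    (c₀ : X) (h0 : s26emCentre xG ⤳ c₀) (h0' : s26emCentre xG' ⤳ c₀) :
    ∃ Φ₀ : F, Φ₀ ≠ 0 ∧ ∀ c₂ : X, c₀ ⤳ c₂ → ∃ ε : O, ρ.hom ε = 1 ∧
      ∀ (Pl : CommRingCat.{u}) [IsLocalRing Pl] (ιP : Pl ⟶ CommRingCat.of F)
        (xP xP' : Spec Pl ⟶ X),
        Spec.map ιP ≫ xP = Spec.map ι ≫ xG → Spec.map ιP ≫ xP' = Spec.map ι ≫ xG' →
        s26emCentre xP ⤳ c₂ → s26emCentre xP' ⤳ c₂ →
        ∃ u : Pl, IsUnit u ∧
          (ιP.hom (s26emGen U xP) : F) =
            ιP.hom u * (Φ₀ * ι.hom ε) * ιP.hom (s26emGen U xP') := by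
  classical
  -- specialisation relations for the `F`-points
  have hF0 : s26emCentre (Spec.map ι ≫ xG) ⤳ c₀ := (s26em_centre_specializes ι xG).trans h0
  have hF0' : s26emCentre (Spec.map ι ≫ xG') ⤳ c₀ := (s26em_centre_specializes ι xG').trans h0'
  have hρ0 : s26emCentre (Spec.map ρ ≫ xG) ⤳ c₀ := (s26em_centre_specializes ρ xG).trans h0
  have hρ0' : s26emCentre (Spec.map ρ ≫ xG') ⤳ c₀ := (s26em_centre_specializes ρ xG').trans h0'
  -- the reductions of the two evaluations agree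
  have hred : ∀ y : X.presheaf.stalk c₀,
      ρ.hom (s26espEvAt xG c₀ h0 y) = ρ.hom (s26espEvAt xG' c₀ h0' y) := by
    intro y
    rw [← s26espEvAt_map ρ xG c₀ h0 hρ0 y, ← s26espEvAt_map ρ xG' c₀ h0' hρ0' y]
    exact s26espEvAt_congr hρ c₀ hρ0 hρ0' y
  -- values of local equations at the `F`-points are nonzero
  have hne : ∀ (c : X) (hc : c₀ ⤳ c) (h : X.presheaf.stalk c), S26emIsLocEq U c h →
      (ι.hom (s26espEvAt xG c₀ h0 ((X.presheaf.stalkSpecializes hc).hom h)) : F) ≠ 0 := by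
    intro c hc h hh
    have h1 := s26espEvAt_isUnit hD (Spec.map ι ≫ xG) hF0 (s26em_locEq_specializes hh hc) hU
    rw [s26espEvAt_map ι xG c₀ h0 hF0] at h1
    exact h1.ne_zero
  have hne' : ∀ (c : X) (hc : c₀ ⤳ c) (h : X.presheaf.stalk c), S26emIsLocEq U c h →
      (ι.hom (s26espEvAt xG' c₀ h0' ((X.presheaf.stalkSpecializes hc).hom h)) : F) ≠ 0 := by
    intro c hc h hh
    have h1 := s26espEvAt_isUnit hD (Spec.map ι ≫ xG') hF0' (s26em_locEq_specializes hh hc) hU'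
    rw [s26espEvAt_map ι xG' c₀ h0' hF0'] at h1
    exact h1.ne_zero
  -- a local equation at `c₀`
  obtain ⟨h₀, hh₀⟩ := hD.exists_locEq c₀
  set n : F := ι.hom (s26espEvAt xG c₀ h0 h₀) with hn
  set n' : F := ι.hom (s26espEvAt xG' c₀ h0' h₀) with hn'
  have hn0 : n ≠ 0 := by
    have := hne c₀ specializes_rfl h₀ hh₀
    rwa [← s26espEvAt_spec xG h0 specializes_rfl h0] at this
  have hn0' : n' ≠ 0 := by
    have := hne' c₀ specializes_rfl h₀ hh₀
    rwa [← s26espEvAt_spec xG' h0' specializes_rfl h0'] at this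
  refine ⟨n / n', div_ne_zero hn0 hn0', ?_⟩
  intro c₂ hc₂
  obtain ⟨h, hh⟩ := hD.exists_locEq c₂
  -- `h|_{c₀} = h₀ · w`
  obtain ⟨w, hw⟩ := hD.associated c₀ h₀ _ hh₀ (s26em_locEq_specializes hh hc₂)
  set e : Oˣ := Units.map (s26espEvAt xG c₀ h0 : _ →* O) w with he
  set e' : Oˣ := Units.map (s26espEvAt xG' c₀ h0' : _ →* O) w with he'
  have hee : ρ.hom (e : O) = ρ.hom (e' : O) := hred (w : X.presheaf.stalk c₀)
  have hρε : ρ.hom ((e * e'⁻¹ : Oˣ) : O) = 1 := by
    have h1 : ρ.hom ((e * e'⁻¹ : Oˣ) : O) * ρ.hom (e' : O) = ρ.hom (e' : O) := by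
      rw [← map_mul, Units.val_mul, mul_assoc, Units.inv_mul, mul_one, hee]
    have h2 : IsUnit (ρ.hom (e' : O)) := e'.isUnit.map ρ.hom
    exact h2.mul_left_injective (by show _ * _ = 1 * _; rw [h1, one_mul])
  refine ⟨((e * e'⁻¹ : Oˣ) : O), hρε, ?_⟩
  intro Pl _ ιP xP xP' hP hP' hcP hcP'
  -- the values of `h` at the two points
  obtain ⟨v, hv⟩ := s26espEvAt_associated hD xP hcP hh
  obtain ⟨v', hv'⟩ := s26espEvAt_associated hD xP' hcP' hh
  have hG2 : s26emCentre xG ⤳ c₂ := h0.trans hc₂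
  have hG2' : s26emCentre xG' ⤳ c₂ := h0'.trans hc₂
  have hFP : s26emCentre (Spec.map ιP ≫ xP) ⤳ c₂ := (s26em_centre_specializes ιP xP).trans hcP
  have hFP' : s26emCentre (Spec.map ιP ≫ xP') ⤳ c₂ :=
    (s26em_centre_specializes ιP xP').trans hcP'
  have hFG : s26emCentre (Spec.map ι ≫ xG) ⤳ c₂ := hF0.trans hc₂
  have hFG' : s26emCentre (Spec.map ι ≫ xG') ⤳ c₂ := hF0'.trans hc₂
  have key : (ιP.hom (s26espEvAt xP c₂ hcP h) : F) = n * ι.hom (e : O) := by
    rw [← s26espEvAt_map ιP xP c₂ hcP hFP h, s26espEvAt_congr hP c₂ hFP hFG h,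
      s26espEvAt_map ι xG c₂ hG2 hFG h, s26espEvAt_spec xG h0 hc₂ hG2 h, ← hw, map_mul, map_mul]
    rfl
  have key' : (ιP.hom (s26espEvAt xP' c₂ hcP' h) : F) = n' * ι.hom (e' : O) := by
    rw [← s26espEvAt_map ιP xP' c₂ hcP' hFP' h, s26espEvAt_congr hP' c₂ hFP' hFG' h,
      s26espEvAt_map ι xG' c₂ hG2' hFG' h, s26espEvAt_spec xG' h0' hc₂ hG2' h, ← hw, map_mul,
      map_mul]
    rfl
  rw [← hv, map_mul] at key
  rw [← hv', map_mul] at key'
  refine ⟨((v' * v⁻¹ : Plˣ) : Pl), (v' * v⁻¹).isUnit, ?_⟩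
  have hvne : (ιP.hom (v : Pl) : F) ≠ 0 := (v.isUnit.map ιP.hom).ne_zero
  have hv'ne : (ιP.hom (v' : Pl) : F) ≠ 0 := (v'.isUnit.map ιP.hom).ne_zero
  have he'ne : (ι.hom (e' : O) : F) ≠ 0 := (e'.isUnit.map ι.hom).ne_zero
  have hvinv : (ιP.hom ((v⁻¹ : Plˣ) : Pl) : F) = (ιP.hom (v : Pl))⁻¹ := by
    apply eq_inv_of_mul_eq_one_left
    rw [← map_mul, Units.inv_mul, map_one]
  have heinv : (ι.hom ((e'⁻¹ : Oˣ) : O) : F) = (ι.hom (e' : O))⁻¹ := by
    apply eq_inv_of_mul_eq_one_left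
    rw [← map_mul, Units.inv_mul, map_one]
  have hgen : (ιP.hom (s26emGen U xP) : F) = n * ι.hom (e : O) * (ιP.hom (v : Pl))⁻¹ := by
    rw [← key]
    field_simp
  have hgen' : (ιP.hom (s26emGen U xP') : F) = n' * ι.hom (e' : O) * (ιP.hom (v' : Pl))⁻¹ := by
    rw [← key']
    field_simp
  rw [hgen, hgen', Units.val_mul, Units.val_mul, map_mul, map_mul, hvinv, heinv]
  field_simp

end Loc

end Fermat.Agent.S26

end
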