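/-
S26-E, piece E-SPEC (helper95), part 4: the ASSEMBLY.

`s26espec_pair` : in the frame of `S26/ESpecFrame.lean` (Gauss reduction `R` along `V' = R.A`,
reduction of places `r` with `r_* div u = div (red u)`), for `ν ∈ A(Γ)` and `a, a' ∈ A(L)` with
`sp_{V'} a = sp_{V'} a'`:

      `r_* ( (ν + a)^* D − (ν + a')^* D )  =  div φ`,   `φ ∈ Fbˣ`,

where `(ν + a)^* D` is the divisor `P ↦ ord_P (s26eGen f U (ν_F + a_F) O_P)` of `F/L`
(= `hspec` of E-RIG's `S26erigRedAt`).  Inputs: the valuation side `S26espValSide` (leaf V) and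
the scheme side `S26espKeyA/B/C` (leaf K), as hypotheses.
-/
import Fermat.Agent.S26.ESpecFrame
import Fermat.Agent.S26.ESpecLoc
import Fermat.Agent.S26.ESpecAbs

set_option autoImplicit false
set_option linter.style.haveILetI false
set_option linter.unusedVariables false
set_option linter.unusedSectionVars false

noncomputable section

namespace Fermat.Agent.S26

open CategoryTheory CategoryTheory.Limits AlgebraicGeometry NeronModelInfra GoodReductionJacobian
open AlgebraicCurve Fermat.Agent.DEU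

universe u

/-! ### The abstract (SPEC) for a reduction map `r` (no `DEU.Hyp`) -/

section Abs

variable {L F k Fb : Type*} [Field L] [Field F] [Algebra L F] [Field k] [Field Fb] [Algebra k Fb]

/-- **Abstract (SPEC)**, for any map `r` of places with `r_* div u = div (red u)`. -/
theorem s26espec_abs_r (R : RedData L F k Fb) (r : Place L F → Place k Fb)
    (hpd : HasPrincipalDivisors L F)
    (hR : ∀ u : R.O, R.red u ≠ 0 → ∀ D : Divisor L F, (∀ P : Place L F, D P = P.ord (u : F)) →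
      ∀ Q : Place k Fb, Finsupp.mapDomain r D Q = Q.ord (R.red u))
    (D : Divisor L F) {Φ₀ : F} (hΦ₀ : Φ₀ ≠ 0)
    (hloc : ∀ Q : Place k Fb, ∃ ε : R.O, R.red ε = 1 ∧
      ∀ P : Place L F, r P = Q → D P = P.ord (Φ₀ * (ε : F))) :
    ∃ φ : Fb, φ ≠ 0 ∧ ∀ Q : Place k Fb, Finsupp.mapDomain r D Q = Q.ord φ := by
  obtain ⟨c, hc, hmem, hred⟩ := R.exists_scale Φ₀ hΦ₀
  refine ⟨R.red ⟨algebraMap L F c * Φ₀, hmem⟩, hred, fun Q => ?_⟩
  obtain ⟨ε, hε, hD⟩ := hloc Q
  set u : R.O := ⟨algebraMap L F c * Φ₀, hmem⟩ * ε with hu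
  have hured : R.red u = R.red ⟨algebraMap L F c * Φ₀, hmem⟩ := by
    rw [hu, map_mul, hε, mul_one]
  have hu0 : R.red u ≠ 0 := by rw [hured]; exact hred
  have hε0 : (ε : F) ≠ 0 := R.coe_ne_zero_of_red_ne_zero (by rw [hε]; exact one_ne_zero)
  have huF : (u : F) = algebraMap L F c * (Φ₀ * (ε : F)) := by
    rw [hu, Subring.coe_mul, mul_assoc]
  have huF0 : (u : F) ≠ 0 := R.coe_ne_zero_of_red_ne_zero hu0
  obtain ⟨Z, hZ, -⟩ := HasPrincipalDivisors.exists_divisor (K := L) (u : F) huF0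
  have h1 := hR u hu0 Z hZ Q
  rw [hured] at h1
  rw [← h1]
  refine s26espec_mapDomain_congr r D Z Q fun P hP => ?_
  rw [hD P hP, hZ P, huF, s26espec_ord_const_mul P hc (mul_ne_zero hΦ₀ hε0)]

end Abs

/-! ### The assembly -/

section Main

variable {K : Type u} [Field K] {A : Scheme.{u}} (f : A ⟶ Spec (CommRingCat.of K))

/-- the `V`-point of `P` restricts to `P`. -/
theorem s26esp_liftV_incl [IsProper f] {Ω : Type u} [Field Ω] [Algebra K Ω]
    (V : ValuationSubring Ω) (hV : S26erOver K V) (P : s26eptPts f Ω) :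
    Spec.map (CommRingCat.ofHom V.subtype) ≫ s26eLiftV f V hV P = P.1 := by
  letI := s26eAlgV V hV
  haveI := s26eAlgV_tower V hV
  have h1 : s26eptMap f (s26eptIncl (K := K) Ω V) (s26eptLift f Ω V P) = P :=
    s26eptMap_lift f Ω V P
  have h2 := congrArg Subtype.val h1
  rw [s26eptMap_coe] at h2
  exact h2

/-- the generator along `V` over `K`, as the value of `s26emGen`. -/
theorem s26esp_gen_eq [IsIntegral A] [IsLocallyNoetherian A] [IsProper f] (U : A.Opens)
    {Ω : Type u} [Field Ω] [Algebra K Ω] (V : ValuationSubring Ω) (hV : S26erOver K V)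
    (P : s26eptPts f Ω) :
    s26eGen f U P V = ((s26emGen U (s26eLiftV f V hV P) : V) : Ω) := by
  unfold s26eGen
  rw [dif_pos hV]

/-- **E-SPEC.**  `sp_{V'} a = sp_{V'} a'` ⇒ `r_* ((ν + a)^* D − (ν + a')^* D)` is principal. -/
theorem s26espec_pair [IsIntegral A] [IsLocallyNoetherian A] [IsProper f]
    (G : RelativeGroupLaw K f) {U : A.Opens} (hD : S26emLocData U)
    (hA : S26espKeyA f G) (hB : S26espKeyB f G) (hC : S26espKeyC f)
    {Γ L F k Fb : Type u} [Field Γ] [Field L] [Field F] [Field k] [Field Fb]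
    [Algebra K Γ] [Algebra K L] [Algebra Γ F] [Algebra L F] [Algebra K F]
    [IsScalarTower K Γ F] [IsScalarTower K L F] [Algebra k Fb]
    (R : RedData L F k Fb) (hK : S26erOver K R.A) (r : Place L F → Place k Fb)
    (hpd : HasPrincipalDivisors L F)
    (hR : ∀ u : R.O, R.red u ≠ 0 → ∀ D : Divisor L F, (∀ P : Place L F, D P = P.ord (u : F)) →
      ∀ Q : Place k Fb, Finsupp.mapDomain r D Q = Q.ord (R.red u))
    (hval : S26espValSide Γ R r)
    (ν : s26eptPts f Γ) (a a' : s26eptPts f L) (hsp : S26espSame f a a' R.A hK)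
    (hU : s26eptPt f (s26espSum f G (IsScalarTower.toAlgHom K Γ F)
      (IsScalarTower.toAlgHom K L F) ν a) ∈ U)
    (hU' : s26eptPt f (s26espSum f G (IsScalarTower.toAlgHom K Γ F)
      (IsScalarTower.toAlgHom K L F) ν a') ∈ U)
    (D D' : Divisor L F)
    (hDx : ∀ P : Place L F, D P = P.ord (s26eGen f U (s26espSum f G
      (IsScalarTower.toAlgHom K Γ F) (IsScalarTower.toAlgHom K L F) ν a) P.toValuationSubring))
    (hDx' : ∀ P : Place L F, D' P = P.ord (s26eGen f U (s26espSum f G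
      (IsScalarTower.toAlgHom K Γ F) (IsScalarTower.toAlgHom K L F) ν a') P.toValuationSubring)) :
    ∃ φ : Fb, φ ≠ 0 ∧ ∀ Q : Place k Fb, Finsupp.mapDomain r (D - D') Q = Q.ord φ := by
  classical
  set jΓ : Γ →ₐ[K] F := IsScalarTower.toAlgHom K Γ F with hjΓ
  set jL : L →ₐ[K] F := IsScalarTower.toAlgHom K L F with hjL
  set x : s26eptPts f F := s26espSum f G jΓ jL ν a with hx
  set x' : s26eptPts f F := s26espSum f G jΓ jL ν a' with hx'
  -- valuation subrings containing the image of `V'` are over `K`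
  have hKW : ∀ W : ValuationSubring F, (∀ c : R.A, algebraMap L F (c : L) ∈ W) →
      S26erOver K W := by
    intro W hW b
    have := hW ⟨algebraMap K L b, hK b⟩
    rwa [← IsScalarTower.algebraMap_apply] at this
  have hOG : S26erOver K (s26espOG R) := hKW _ (fun c => R.algebraMap_mem c)
  have hOP : ∀ P : Place L F, S26erOver K P.toValuationSubring := by
    intro P b
    rw [IsScalarTower.algebraMap_apply K L F]
    exact P.algebraMap_mem' _
  have hres0 : ∀ c : R.A, (c : L) ∈ R.A.nonunits → R.res c = 0 :=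
    fun c hc => (s26erig_res_eq_zero_iff R c).2 hc
  -- the Gauss points
  set xG := s26eLiftV f (s26espOG R) hOG x with hxG
  set xG' := s26eLiftV f (s26espOG R) hOG x' with hxG'
  set ι : CommRingCat.of ↥(s26espOG R) ⟶ CommRingCat.of F :=
    CommRingCat.ofHom (s26espOG R).subtype with hι
  set ρ : CommRingCat.of ↥(s26espOG R) ⟶ CommRingCat.of Fb :=
    CommRingCat.ofHom (s26espRed R) with hρdef
  haveI : IsLocalHom ρ.hom := s26espRed_isLocalHom R
  have hιG : Spec.map ι ≫ xG = x.1 := s26esp_liftV_incl f _ hOG x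
  have hιG' : Spec.map ι ≫ xG' = x'.1 := s26esp_liftV_incl f _ hOG x'
  have hρ : Spec.map ρ ≫ xG = Spec.map ρ ≫ xG' :=
    hB jΓ jL R.A hK R.res hres0 (algebraMap k Fb) (s26espOG R) hOG (s26espRed R)
      (fun c => ⟨R.algebraMap_mem c, R.red_algebraMap c⟩) ν a a' hsp
  have hUG : s26emCentre (Spec.map ι ≫ xG) ∈ U := by rw [hιG]; exact hU
  have hUG' : s26emCentre (Spec.map ι ≫ xG') ∈ U := by rw [hιG']; exact hU'
  have h0' : s26emCentre xG' ⤳ s26emCentre xG := by
    have e1 := s26em_centre_eq ρ xG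
    have e2 := s26em_centre_eq ρ xG'
    rw [hρ] at e1
    rw [← e1, e2]
  obtain ⟨Φ₀, hΦ₀, hloc⟩ := s26esp_loc hD ι ρ xG xG' hρ hUG hUG' (s26emCentre xG)
    specializes_rfl h0'
  refine s26espec_abs_r R r hpd hR (D - D') hΦ₀ ?_
  intro Q
  obtain ⟨W₂, ρ₂, hW₂le, hρ₂loc, hL₂, hPQ⟩ := hval Q
  have hW₂K : S26erOver K W₂ := hKW W₂ (fun c => (hL₂ c).1)
  have hc₂ : s26emCentre xG ⤳ s26emCentre (s26eLiftV f W₂ hW₂K x) := by
    have e := hC (s26espOG R) W₂ hOG hW₂K hW₂le x
    have := s26em_centre_specializes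
      (CommRingCat.ofHom (ValuationSubring.inclusion W₂ (s26espOG R) hW₂le))
      (s26eLiftV f W₂ hW₂K x)
    rwa [e] at this
  obtain ⟨ε, hε, hPl⟩ := hloc _ hc₂
  refine ⟨⟨(ε : F), ε.2⟩, hε, ?_⟩
  intro P hrP
  obtain ⟨W₁, ρ₁, hW₁le, hρ₁loc, hL₁, hEV⟩ := hPQ P hrP
  have hW₁K : S26erOver K W₁ := hKW W₁ (fun c => (hL₁ c).1)
  haveI : IsLocalHom (CommRingCat.ofHom ρ₁).hom := hρ₁loc
  haveI : IsLocalHom (CommRingCat.ofHom ρ₂).hom := hρ₂loc
  have hA1 := hA jΓ jL R.A R.res W₁ W₂ hW₁K hW₂K ρ₁ ρ₂ hρ₁loc hL₁ hL₂ hEV ν a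
  have hB1 := hB jΓ jL R.A hK R.res hres0 (RingHom.id k) W₁ hW₁K ρ₁ hL₁ ν a a' hsp
  have hc1 : s26emCentre (s26eLiftV f W₁ hW₁K x) = s26emCentre (s26eLiftV f W₂ hW₂K x) := by
    rw [← s26em_centre_eq (CommRingCat.ofHom ρ₁) (s26eLiftV f W₁ hW₁K x), hA1,
      s26em_centre_eq (CommRingCat.ofHom ρ₂) (s26eLiftV f W₂ hW₂K x)]
  have hc1' : s26emCentre (s26eLiftV f W₁ hW₁K x') = s26emCentre (s26eLiftV f W₂ hW₂K x) := by
    rw [← s26em_centre_eq (CommRingCat.ofHom ρ₁) (s26eLiftV f W₁ hW₁K x'), ← hB1,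
      s26em_centre_eq (CommRingCat.ofHom ρ₁) (s26eLiftV f W₁ hW₁K x), hc1]
  set xP := s26eLiftV f P.toValuationSubring (hOP P) x with hxP
  set xP' := s26eLiftV f P.toValuationSubring (hOP P) x' with hxP'
  have hPc : s26emCentre xP ⤳ s26emCentre (s26eLiftV f W₂ hW₂K x) := by
    rw [← hc1]
    have e := hC P.toValuationSubring W₁ (hOP P) hW₁K hW₁le x
    have := s26em_centre_specializes
      (CommRingCat.ofHom (ValuationSubring.inclusion W₁ P.toValuationSubring hW₁le))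
      (s26eLiftV f W₁ hW₁K x)
    rwa [e] at this
  have hPc' : s26emCentre xP' ⤳ s26emCentre (s26eLiftV f W₂ hW₂K x) := by
    rw [← hc1']
    have e := hC P.toValuationSubring W₁ (hOP P) hW₁K hW₁le x'
    have := s26em_centre_specializes
      (CommRingCat.ofHom (ValuationSubring.inclusion W₁ P.toValuationSubring hW₁le))
      (s26eLiftV f W₁ hW₁K x')
    rwa [e] at this
  set ιP : CommRingCat.of ↥P.toValuationSubring ⟶ CommRingCat.of F :=
    CommRingCat.ofHom P.toValuationSubring.subtype with hιP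
  have hιP : Spec.map ιP ≫ xP = Spec.map ι ≫ xG := by
    rw [hιG]; exact s26esp_liftV_incl f _ (hOP P) x
  have hιP' : Spec.map ιP ≫ xP' = Spec.map ι ≫ xG' := by
    rw [hιG']; exact s26esp_liftV_incl f _ (hOP P) x'
  obtain ⟨v, hv, key⟩ := hPl (CommRingCat.of ↥P.toValuationSubring) ιP xP xP' hιP hιP' hPc hPc'
  -- orders
  have hgen : s26eGen f U x P.toValuationSubring = ιP.hom (s26emGen U xP) :=
    s26esp_gen_eq f U _ (hOP P) x
  have hgen' : s26eGen f U x' P.toValuationSubring = ιP.hom (s26emGen U xP') :=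
    s26esp_gen_eq f U _ (hOP P) x'
  have hne' : (ιP.hom (s26emGen U xP') : F) ≠ 0 := by
    have h1 : s26emGen U xP' ≠ 0 := by
      refine s26emGen_ne_zero hD ιP xP' ?_
      rw [hιP', hιG']
      exact hU'
    intro h0
    exact h1 (Subtype.ext h0)
  have hvF : (ιP.hom v : F) ≠ 0 := by
    intro h0
    have : v = 0 := Subtype.ext h0
    rw [this] at hv
    exact not_isUnit_zero hv
  have hεF : (ι.hom ε : F) ≠ 0 :=
    R.coe_ne_zero_of_red_ne_zero (f := ⟨(ε : F), ε.2⟩) (by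
      have : R.red ⟨(ε : F), ε.2⟩ = 1 := hε
      rw [this]; exact one_ne_zero)
  have hvord : P.ord (ιP.hom v : F) = 0 := Place.ord_coe_unit P hv.unit
  rw [Finsupp.sub_apply, hDx P, hDx' P, hgen, hgen', key,
    P.ord_mul (mul_ne_zero hvF (mul_ne_zero hΦ₀ hεF)) hne',
    P.ord_mul hvF (mul_ne_zero hΦ₀ hεF), hvord, zero_add, add_sub_cancel_right]
  rfl

end Main

end Fermat.Agent.S26

end
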