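/-
S26-E-SPEC, piece (B2) FIN (helper58): FINITE SUPPORT of the pulled-back divisor.
On helper5's interface `S26/EMPlan.lean`, `S26/EMGen.lean`, `S26/EMFun.lean`; Mathlib + the Prelude
file `Def_AlgebraicCurve_DivisorClassGroup` only.

`X` integral, locally noetherian, quasi-compact, `U ⊂ X` open, `hD : S26emLocData U`.
`F / L` a function field with principal divisors, `x : Spec F ⟶ X` an `F`-point, and for every
place `P` of `F / L` an extension `φ P : Spec O_P ⟶ X` of `x`.

* `s26espf_genericPoint_mem_of_locData` : `hD` forces the generic point of `X` to lie in `U`.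
* `s26espf_finite_divisors_compl` : a nonempty open misses only finitely many prime divisors.
* `s26espf_nbhd`        : **(LF-nbhd)** every `c` has an open neighbourhood `W` and a rational
                          function `θ` which is a local equation of `D` at EVERY point of `W`.
* `s26espf_ord_eq`      : **(T2)** for a V-point `φ` extending `x` and a local equation `h` at the
                          centre of `φ`: `ord_P (gen φ) = ord_P (ev_x h')` for the element `h'` of
                          `O_{X,|x|}` with the same image in `K(X)` as `h`.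
* `s26espf_finite_ord`  : `{P | ord_P g ≠ 0}` is finite.
* `s26espf_finite_gen`  : **(FIN)**, general form: ANY family of local rings `R P` with ring
                          homomorphisms `ψ P : R P ⟶ F` sending units to elements of order `0`.
* `s26espf_finite`      : **(FIN)** for `R P = ↥P.toValuationSubring`:
                          `{P | P.ord (s26emGen U (φ P) : F) ≠ 0}.Finite`.
-/
import Fermat.Agent.S26.EMFun
import Fermat.Prelude.Def_AlgebraicCurve_DivisorClassGroup

set_option autoImplicit false
set_option linter.style.haveILetI false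
set_option linter.unusedVariables false
set_option linter.unusedSectionVars false

noncomputable section

namespace Fermat.Agent.S26

open AlgebraicGeometry CategoryTheory TopologicalSpace

universe u v

section Geo

variable {X : Scheme.{u}} [IsIntegral X]

/-- the generic point lies in every nonempty open. -/
theorem s26espf_genericPoint_mem (V : X.Opens) (hV : (V : Set X).Nonempty) :
    genericPoint X ∈ V :=
  ((genericPoint_spec X).mem_open_set_iff V.isOpen).mpr (by simpa using hV)

/-- A nonempty open subset of a noetherian integral scheme misses only finitely many points of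
coheight one. -/
theorem s26espf_finite_divisors_compl [IsLocallyNoetherian X] [CompactSpace X] (V : X.Opens)
    (hV : (V : Set X).Nonempty) : {z : X | Order.coheight z = 1 ∧ z ∉ V}.Finite := by
  haveI : IsNoetherian X := {}
  obtain ⟨S, hSf, hSc, hSi, hS⟩ :=
    NoetherianSpace.exists_finite_set_isClosed_irreducible (s := ((V : Set X)ᶜ))
      V.isOpen.isClosed_compl
  have hgen : ∀ t ∈ S, ∃ c : X, IsGenericPoint c t :=
    fun t ht => QuasiSober.sober (hSi t ht) (hSc t ht)
  choose! g hg using hgen
  refine (hSf.image g).subset ?_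
  rintro z ⟨hz1, hzV⟩
  have hzZ : z ∈ ((V : Set X)ᶜ) := hzV
  rw [hS] at hzZ
  obtain ⟨t, htS, hzt⟩ := hzZ
  refine ⟨t, htS, ?_⟩
  have hgt : closure {g t} = t := hg t htS
  have hcz : g t ⤳ z := by
    rw [specializes_iff_mem_closure, hgt]
    exact hzt
  by_contra hne
  have hlt1 : z < g t := by
    refine lt_of_le_not_ge hcz ?_
    intro h
    exact hne (hcz.antisymm h).eq
  have hη : genericPoint X ∈ V := s26espf_genericPoint_mem V hV
  have hgtZ : g t ∈ ((V : Set X)ᶜ) := by
    rw [hS]
    exact ⟨t, htS, (hg t htS).mem⟩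
  have hlt2 : g t < genericPoint X := by
    refine lt_of_le_not_ge (genericPoint_specializes (g t)) ?_
    intro h
    have h' : g t ⤳ genericPoint X := h
    have : genericPoint X ∈ ((V : Set X)ᶜ) :=
      h'.mem_closed V.isOpen.isClosed_compl hgtZ
    exact this hη
  have h1 := Order.coheight_add_one_le hlt1
  have h2 := Order.coheight_add_one_le hlt2
  rw [hz1] at h1
  have h3 : (1 : ℕ∞) ≤ Order.coheight (g t) := le_trans le_add_self h2
  have h4 : (1 : ℕ∞) + 1 ≤ 1 := le_trans (by gcongr) h1
  exact absurd h4 (by decide)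

variable [IsLocallyNoetherian X] {U : X.Opens}

/-- the data of piece (a) force the generic point to lie in `U` (a local equation at the generic
point is a unit of the function field). -/
theorem s26espf_genericPoint_mem_of_locData (hD : S26emLocData U) : genericPoint X ∈ U := by
  obtain ⟨h, hh⟩ := hD.exists_locEq (genericPoint X)
  have hu : IsUnit h := by
    have h0 : (h : X.functionField) ≠ 0 := hh.1
    exact isUnit_iff_ne_zero.mpr h0
  exact (hD.isUnit_iff _ h hh).1 hu

open scoped Classical in
/-- an element of `O_{X,c'}` with nonzero image `θ` in `K(X)` is a local equation at `c'` as soon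
as `θ` has the right order at all prime divisors through `c'`. -/
theorem s26espf_isLocEq_of_algebraMap {c' : X} {h' : X.presheaf.stalk c'} {θ : X.functionField}
    (he : algebraMap (X.presheaf.stalk c') X.functionField h' = θ) (hθ : θ ≠ 0)
    (hord : ∀ z : X, Order.coheight z = 1 → z ⤳ c' →
      Scheme.ord θ z = if z ∈ U then 0 else 1) :
    S26emIsLocEq U c' h' := by
  refine ⟨?_, ?_⟩
  · intro h0
    apply hθ
    rw [← he, h0, map_zero]
  · intro z hz hzc
    rw [he]
    convert hord z hz hzc

/-- **(LF-nbhd)**: every point `c` has an open neighbourhood `W` and a rational function `θ`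
which is (the image of) a local equation of `D` at every point of `W`. -/
theorem s26espf_nbhd [CompactSpace X] (hD : S26emLocData U) (c : X) :
    ∃ (W : X.Opens) (θ : X.functionField), c ∈ W ∧
      ∀ c' ∈ W, ∃ h' : X.presheaf.stalk c',
        algebraMap (X.presheaf.stalk c') X.functionField h' = θ ∧ S26emIsLocEq U c' h' := by
  classical
  obtain ⟨h, hh⟩ := hD.exists_locEq c
  obtain ⟨W₀, hcW₀, s, hs⟩ := X.presheaf.exists_germ_eq h
  haveI : Nonempty W₀ := ⟨⟨c, hcW₀⟩⟩
  set θ : X.functionField := (X.germToFunctionField W₀).hom s with hθ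
  have hcθ : algebraMap (X.presheaf.stalk c) X.functionField h = θ := by
    rw [← hs]
    exact Scheme.algebraMap_germ_eq_germToFunctionField X hcW₀ s
  have hθ0 : θ ≠ 0 := by
    intro h0
    apply hh.1
    apply IsFractionRing.injective (X.presheaf.stalk c) X.functionField
    rw [hcθ, h0, map_zero]
  obtain ⟨U', -, f', hne, hf', hunit⟩ := exists_isUnit_germ_eq X θ hθ0
  have hηU : genericPoint X ∈ U := s26espf_genericPoint_mem_of_locData hD
  have hηU' : genericPoint X ∈ U' := by
    obtain ⟨⟨y, hy⟩⟩ := hne
    exact s26espf_genericPoint_mem U' ⟨y, hy⟩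
  -- the bad prime divisors
  set B : Set X :=
    {z | Order.coheight z = 1 ∧ Scheme.ord θ z ≠ if z ∈ U then 0 else 1} with hB
  have hBfin : B.Finite := by
    refine (s26espf_finite_divisors_compl (U' ⊓ U) ⟨genericPoint X, hηU', hηU⟩).subset ?_
    rintro z ⟨hz1, hz2⟩
    refine ⟨hz1, fun hzV => hz2 ?_⟩
    have hzU : z ∈ U := hzV.2
    have hzU' : z ∈ U' := hzV.1
    rw [if_pos hzU, ← hf']
    exact Scheme.ord_of_isUnit hunit hzU'
  set Z : Set X := ⋃ z ∈ B, closure {z} with hZ
  have hZc : IsClosed Z := hBfin.isClosed_biUnion fun z _ => isClosed_closure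
  have hordc : ∀ z : X, Order.coheight z = 1 → z ⤳ c →
      Scheme.ord θ z = if z ∈ U then 0 else 1 := by
    intro z hz hzc
    have := hh.2 z hz hzc
    rw [hcθ] at this
    convert this
  refine ⟨W₀ ⊓ ⟨Zᶜ, hZc.isOpen_compl⟩, θ, ⟨hcW₀, ?_⟩, ?_⟩
  · intro hcZ
    obtain ⟨z, hzB, hcz⟩ := Set.mem_iUnion₂.1 hcZ
    exact hzB.2 (hordc z hzB.1 (specializes_iff_mem_closure.2 hcz))
  · rintro c' ⟨hc'W₀, hc'Z⟩
    have he : algebraMap (X.presheaf.stalk c') X.functionField
        ((X.presheaf.germ W₀ c' hc'W₀).hom s) = θ :=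
      Scheme.algebraMap_germ_eq_germToFunctionField X hc'W₀ s
    refine ⟨(X.presheaf.germ W₀ c' hc'W₀).hom s, he, ?_⟩
    refine s26espf_isLocEq_of_algebraMap he hθ0 fun z hz hzc' => ?_
    by_contra hne'
    exact hc'Z (Set.mem_iUnion₂.2 ⟨z, ⟨hz, hne'⟩, specializes_iff_mem_closure.1 hzc'⟩)

end Geo

section Place

open AlgebraicCurve

variable {X : Scheme.{u}} [IsIntegral X] [IsLocallyNoetherian X] {U : X.Opens}
variable {L : Type v} {F : Type u} [Field L] [Field F] [Algebra L F]

/-- `{P | ord_P g ≠ 0}` is finite. -/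
theorem s26espf_finite_ord [HasPrincipalDivisors L F] (g : F) :
    {P : Place L F | P.ord g ≠ 0}.Finite := by
  rcases eq_or_ne g 0 with rfl | hg
  · refine Set.finite_empty.subset ?_
    intro P hP
    exact (hP (Place.ord_zero P)).elim
  · obtain ⟨D, hDv, -⟩ := HasPrincipalDivisors.exists_divisor (K := L) g hg
    refine D.support.finite_toSet.subset ?_
    intro P hP
    rw [Finset.mem_coe, Finsupp.mem_support_iff, hDv P]
    exact hP

/-- **(T2)**: `ψ : R ⟶ F` a ring homomorphism from a local ring sending units to elements of order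
`0` at `P`, `φ : Spec R ⟶ X` an extension of `x : Spec F ⟶ X`.  If `h` is a local equation at the
centre of `φ` and `h' ∈ O_{X,|x|}` has the same image in `K(X)`, then
`ord_P (ψ (gen φ)) = ord_P (ev_x h')`. -/
theorem s26espf_ord_eq (hD : S26emLocData U) (P : Place L F)
    {R : CommRingCat.{u}} [IsLocalRing R] (ψ : R ⟶ CommRingCat.of F)
    (hψ : ∀ v : R, IsUnit v → P.ord (ψ.hom v) = 0)
    (φ : Spec R ⟶ X) (x : Spec (CommRingCat.of F) ⟶ X) (hφ : Spec.map ψ ≫ φ = x)
    {h : X.presheaf.stalk (s26emCentre φ)} (hh : S26emIsLocEq U (s26emCentre φ) h)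
    {h' : X.presheaf.stalk (s26emCentre x)}
    (he : algebraMap (X.presheaf.stalk (s26emCentre x)) X.functionField h' =
      algebraMap (X.presheaf.stalk (s26emCentre φ)) X.functionField h) :
    P.ord (ψ.hom (s26emGen U φ)) = P.ord (s26emEv x h') := by
  subst hφ
  have h1 : (X.presheaf.stalkSpecializes (s26em_centre_specializes ψ φ)).hom h = h' := by
    apply IsFractionRing.injective (X.presheaf.stalk (s26emCentre (Spec.map ψ ≫ φ)))
      X.functionField
    rw [s26em_algebraMap_stalkSpecializes, he]
  have h2 := s26emEv_comp ψ φ h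
  rw [h1] at h2
  rw [h2]
  obtain ⟨u, hu⟩ := s26emGen_associated hD φ hh
  rw [← hu, map_mul]
  have hu0 : ψ.hom (u : R) ≠ 0 := (u.isUnit.map ψ.hom).ne_zero
  by_cases hg : ψ.hom (s26emGen U φ) = 0
  · rw [hg, zero_mul]
  · rw [Place.ord_mul P hg hu0, hψ _ u.isUnit, add_zero]

/-- **(FIN)**, general form. -/
theorem s26espf_finite_gen [CompactSpace X] [HasPrincipalDivisors L F] (hD : S26emLocData U)
    (x : Spec (CommRingCat.of F) ⟶ X)
    (R : Place L F → CommRingCat.{u}) [∀ P, IsLocalRing (R P)]
    (ψ : ∀ P, R P ⟶ CommRingCat.of F)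
    (hψ : ∀ (P : Place L F) (v : R P), IsUnit v → P.ord ((ψ P).hom v) = 0)
    (φ : ∀ P, Spec (R P) ⟶ X) (hφ : ∀ P, Spec.map (ψ P) ≫ φ P = x) :
    {P : Place L F | P.ord ((ψ P).hom (s26emGen U (φ P))) ≠ 0}.Finite := by
  classical
  choose W θ hcW hW using fun c => s26espf_nbhd hD c
  obtain ⟨t, ht⟩ := CompactSpace.elim_nhds_subcover (fun c => (W c : Set X))
    (fun c => (W c).isOpen.mem_nhds (hcW c))
  have hT : ∀ c : X, {P : Place L F | ∃ h'' : X.presheaf.stalk (s26emCentre x),
      algebraMap (X.presheaf.stalk (s26emCentre x)) X.functionField h'' = θ c ∧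
        P.ord (s26emEv x h'') ≠ 0}.Finite := by
    intro c
    by_cases hex : ∃ h₀ : X.presheaf.stalk (s26emCentre x),
        algebraMap (X.presheaf.stalk (s26emCentre x)) X.functionField h₀ = θ c
    · obtain ⟨h₀, hh₀⟩ := hex
      refine (s26espf_finite_ord (L := L) (s26emEv x h₀)).subset ?_
      rintro P ⟨h'', he'', hP⟩
      have : h'' = h₀ := by
        apply IsFractionRing.injective (X.presheaf.stalk (s26emCentre x)) X.functionField
        rw [he'', hh₀]
      rw [this] at hP
      exact hP
    · refine Set.finite_empty.subset ?_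
      rintro P ⟨h'', he'', -⟩
      exact (hex ⟨h'', he''⟩).elim
  refine (t.finite_toSet.biUnion (fun c _ => hT c)).subset ?_
  intro P hP
  have hc : s26emCentre (φ P) ∈ ⋃ c ∈ t, (W c : Set X) := by
    rw [ht]
    trivial
  obtain ⟨c, hct, hcP⟩ := Set.mem_iUnion₂.1 hc
  obtain ⟨h, heq, hloc⟩ := hW c _ hcP
  have hsp : s26emCentre x ⤳ s26emCentre (φ P) := by
    have := s26em_centre_specializes (ψ P) (φ P)
    rwa [hφ P] at this
  have hxW : s26emCentre x ∈ W c := hsp.mem_open (W c).isOpen hcP
  obtain ⟨h', heq', -⟩ := hW c _ hxW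
  have key := s26espf_ord_eq hD P (ψ P) (hψ P) (φ P) x (hφ P) hloc (heq'.trans heq.symm)
  refine Set.mem_iUnion₂.2 ⟨c, hct, h', heq', ?_⟩
  rw [← key]
  exact hP

/-- **(FIN)**: finite support of `P ↦ ord_P (s26emGen U (φ P))`, for extensions `φ P` of an
`F`-point `x` to the valuation rings of the places of `F / L`. -/
theorem s26espf_finite [CompactSpace X] [HasPrincipalDivisors L F] (hD : S26emLocData U)
    (x : Spec (CommRingCat.of F) ⟶ X)
    (φ : ∀ P : Place L F, Spec (CommRingCat.of ↥P.toValuationSubring) ⟶ X)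
    (hφ : ∀ P : Place L F,
      Spec.map (CommRingCat.ofHom P.toValuationSubring.subtype) ≫ φ P = x) :
    {P : Place L F |
      P.ord ((s26emGen U (φ P) : ↥P.toValuationSubring) : F) ≠ 0}.Finite := by
  refine s26espf_finite_gen hD x (fun P => CommRingCat.of ↥P.toValuationSubring)
    (fun P => CommRingCat.ofHom P.toValuationSubring.subtype) ?_ φ hφ
  intro P v hv
  exact Place.ord_coe_unit P hv.unit

/-- a function `Place L F → ℤ` with finite support is a divisor. -/
theorem s26espf_exists_divisor_of_finite (m : Place L F → ℤ) (hm : {P | m P ≠ 0}.Finite) :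
    ∃ D : Divisor L F, ∀ P : Place L F, D P = m P :=
  ⟨Finsupp.ofSupportFinite m hm, fun _ => rfl⟩

/-- **(FIN)**, general form, as a divisor: `P ↦ ord_P (ψ_P (gen (φ P)))` is a divisor. -/
theorem s26espf_exists_divisor_gen [CompactSpace X] [HasPrincipalDivisors L F]
    (hD : S26emLocData U) (x : Spec (CommRingCat.of F) ⟶ X)
    (R : Place L F → CommRingCat.{u}) [∀ P, IsLocalRing (R P)]
    (ψ : ∀ P, R P ⟶ CommRingCat.of F)
    (hψ : ∀ (P : Place L F) (v : R P), IsUnit v → P.ord ((ψ P).hom v) = 0)
    (φ : ∀ P, Spec (R P) ⟶ X) (hφ : ∀ P, Spec.map (ψ P) ≫ φ P = x) :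
    ∃ D : Divisor L F, ∀ P : Place L F, D P = P.ord ((ψ P).hom (s26emGen U (φ P))) :=
  s26espf_exists_divisor_of_finite _ (s26espf_finite_gen hD x R ψ hψ φ hφ)

/-- **(FIN)** as a divisor: the pulled-back divisor `x^* D = Σ_P ord_P (gen (φ P)) · P`. -/
theorem s26espf_exists_divisor [CompactSpace X] [HasPrincipalDivisors L F]
    (hD : S26emLocData U) (x : Spec (CommRingCat.of F) ⟶ X)
    (φ : ∀ P : Place L F, Spec (CommRingCat.of ↥P.toValuationSubring) ⟶ X)
    (hφ : ∀ P : Place L F,
      Spec.map (CommRingCat.ofHom P.toValuationSubring.subtype) ≫ φ P = x) :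
    ∃ D : Divisor L F, ∀ P : Place L F,
      D P = P.ord ((s26emGen U (φ P) : ↥P.toValuationSubring) : F) :=
  s26espf_exists_divisor_of_finite _ (s26espf_finite hD x φ hφ)

/-- the order of the generator is `≥ 0`, and `= 0` iff the centre lies in `U` (for the valuation
ring of a place). -/
theorem s26espf_ord_eq_zero_iff (hD : S26emLocData U) (P : Place L F)
    (φ : Spec (CommRingCat.of ↥P.toValuationSubring) ⟶ X)
    (hne : s26emGen U φ ≠ 0) :
    P.ord ((s26emGen U φ : ↥P.toValuationSubring) : F) = 0 ↔ s26emCentre φ ∈ U := by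
  rw [← s26emGen_isUnit_iff hD φ]
  constructor
  · intro h0
    have h1 : P.adicValuation ((s26emGen U φ : ↥P.toValuationSubring) : F) = 1 := by
      have hne' : ((s26emGen U φ : ↥P.toValuationSubring) : F) ≠ 0 := by
        intro h
        exact hne (Subtype.ext h)
      have h2 : WithZero.log (P.adicValuation ((s26emGen U φ : ↥P.toValuationSubring) : F))
          = 0 := by
        unfold Place.ord at h0
        exact neg_eq_zero.mp h0
      have h3 := P.adicValuation_ne_zero hne'
      rw [← WithZero.exp_log h3, h2]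
      rfl
    exact (P.adicValuation_coe_eq_one_iff _).1 h1
  · intro hu
    exact Place.ord_coe_unit P hu.unit

end Place

end Fermat.Agent.S26

end
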