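/-
S26-E, piece E-SPEC (helper95), part 5: the VALUATION SIDE.  No schemes.

`s26espv_valSide` : `S26espValSide Γ R r` (S26/ESpecFrame.lean) from the reduction package
`S26erigRed R r con conk ιk` (S26/ERigB.lean) and "the residue fields of the places of `F/L` and
`Fb/k` are the constants".

* `s26espvVal P hres : ↥O_P →+* K` : the value map `f ↦ f(P)` of a place with residue field `K`
  (`s26espvVal_spec`, `_unique`, `_algebraMap`, `_eq_zero_iff`, local).
* `W₁(P) = {f ∈ O_P | f(P) ∈ V'}`, `ρ₁ = res ∘ (f ↦ f(P))`;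
  `W₂(Q) = {f ∈ O_G | red f ∈ O_Q}`, `ρ₂ = (g ↦ g(Q)) ∘ red`   (composites of `ESpecB1`).
* (EVAL) on `Γ`: `s26espv_eval` — `u ∈ Γ` regular at `P` with `u(P) ∈ V'` ⇒ `ιk u` is regular at
  `r P` with value `res (u(P))`;  the poles of `u` do not reduce to `r P` (`s26espv_no_pole`).
-/
import Fermat.Agent.S26.ESpecFrame
import Fermat.Agent.S26.ERedEval

set_option autoImplicit false
set_option linter.style.haveILetI false
set_option linter.unusedVariables false
set_option linter.unusedSectionVars false

noncomputable section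

namespace Fermat.Agent.S26

open AlgebraicCurve Fermat.Agent.DEU Fermat.Agent.S24

/-! ### The value map of a place with residue field the constants -/

section Value

variable {K F : Type*} [Field K] [Field F] [Algebra K F]

/-- the value map `f ↦ f(P)` of a place whose residue field is `K`. -/
def s26espvVal (P : Place K F) (hres : Function.Surjective (algebraMap K P.ResidueField)) :
    ↥P.toValuationSubring →+* K :=
  ((RingEquiv.ofBijective (algebraMap K P.ResidueField)
    ⟨(algebraMap K P.ResidueField).injective, hres⟩).symm : P.ResidueField →+* K).comp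
    (IsLocalRing.residue ↥P.toValuationSubring)

theorem s26espvVal_residue (P : Place K F)
    (hres : Function.Surjective (algebraMap K P.ResidueField)) (x : ↥P.toValuationSubring) :
    algebraMap K P.ResidueField (s26espvVal P hres x) =
      IsLocalRing.residue ↥P.toValuationSubring x := by
  unfold s26espvVal
  exact (RingEquiv.ofBijective (algebraMap K P.ResidueField)
    ⟨(algebraMap K P.ResidueField).injective, hres⟩).apply_symm_apply _

theorem s26espvVal_spec (P : Place K F)
    (hres : Function.Surjective (algebraMap K P.ResidueField)) (x : ↥P.toValuationSubring) :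
    s26eredev_HasValueAt P (x : F) (s26espvVal P hres x) := by
  unfold s26eredev_HasValueAt
  rw [ValuationSubring.mem_nonunits_iff_exists_mem_maximalIdeal]
  refine ⟨sub_mem x.2 (P.algebraMap_mem' _), ?_⟩
  rw [← IsLocalRing.residue_eq_zero_iff]
  have h1 : (⟨(x : F) - algebraMap K F (s26espvVal P hres x),
      sub_mem x.2 (P.algebraMap_mem' _)⟩ : P.toValuationSubring) =
      x - algebraMap K P.toValuationSubring (s26espvVal P hres x) := rfl
  rw [h1, map_sub, sub_eq_zero, ← s26espvVal_residue P hres x]
  rfl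

theorem s26espvVal_unique (P : Place K F)
    (hres : Function.Surjective (algebraMap K P.ResidueField)) (x : ↥P.toValuationSubring)
    {a : K} (h : s26eredev_HasValueAt P (x : F) a) : s26espvVal P hres x = a :=
  s26eredev_hasValueAt_unique P (s26espvVal_spec P hres x) h

theorem s26espvVal_algebraMap (P : Place K F)
    (hres : Function.Surjective (algebraMap K P.ResidueField)) (a : K)
    (h : algebraMap K F a ∈ P.toValuationSubring) :
    s26espvVal P hres ⟨algebraMap K F a, h⟩ = a :=
  s26espvVal_unique P hres _ (s26eredev_hasValueAt_const P a)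

theorem s26espvVal_eq_zero_iff (P : Place K F)
    (hres : Function.Surjective (algebraMap K P.ResidueField)) (x : ↥P.toValuationSubring) :
    s26espvVal P hres x = 0 ↔ (x : F) ∈ P.toValuationSubring.nonunits := by
  constructor
  · intro h
    have := s26espvVal_spec P hres x
    rw [h] at this
    unfold s26eredev_HasValueAt at this
    rwa [map_zero, sub_zero] at this
  · intro h
    refine s26espvVal_unique P hres x ?_
    unfold s26eredev_HasValueAt
    rwa [map_zero, sub_zero]

theorem s26espvVal_isLocalHom (P : Place K F)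
    (hres : Function.Surjective (algebraMap K P.ResidueField)) :
    IsLocalHom (s26espvVal P hres) := by
  refine ⟨fun x hx => ?_⟩
  rw [s26espb_isUnit_iff_notMem]
  intro hnon
  have := (s26espvVal_eq_zero_iff P hres x).2 hnon
  rw [this] at hx
  exact not_isUnit_zero hx

/-- the value of the inverse. -/
theorem s26espv_hasValueAt_inv (P : Place K F) {f : F} {a : K} (ha : a ≠ 0)
    (h : s26eredev_HasValueAt P f a) : s26eredev_HasValueAt P f⁻¹ a⁻¹ := by
  have hfmem : f ∈ P.toValuationSubring := s26eredev_HasValueAt_mem P h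
  have hfnon : f ∉ P.toValuationSubring.nonunits := by
    intro hnon
    have h0 : s26eredev_HasValueAt P f 0 := by
      unfold s26eredev_HasValueAt
      rwa [map_zero, sub_zero]
    exact ha (s26eredev_hasValueAt_unique P h h0)
  have hf0 : f ≠ 0 := fun h0 => hfnon (h0 ▸ s26eredev_zero_mem_nonunits _)
  have hfinv : f⁻¹ ∈ P.toValuationSubring := by
    by_contra hn
    exact hfnon ((ValuationSubring.mem_nonunits_iff_or _).2 (Or.inr hn))
  have haF : algebraMap K F a ≠ 0 := by simpa using ha
  unfold s26eredev_HasValueAt at h ⊢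
  have e : f⁻¹ - algebraMap K F a⁻¹ =
      (-(f⁻¹ * algebraMap K F a⁻¹)) * (f - algebraMap K F a) := by
    rw [map_inv₀]
    field_simp
    ring
  rw [e]
  exact s26eredev_nonunits_mul_mem
    (neg_mem (mul_mem hfinv (P.algebraMap_mem' _))) h

end Value

/-! ### (EVAL) on `Γ` -/

section Eval

variable {K Γ L F k Fb : Type*} [Field K] [Field Γ] [Field L] [Field F] [Field k] [Field Fb]
  [Algebra K Γ] [Algebra K L] [Algebra Γ F] [Algebra L F] [Algebra K F]
  [IsScalarTower K Γ F] [IsScalarTower K L F] [Algebra k Fb]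

variable {R : RedData L F k Fb} {r : Place L F → Place k Fb}
  {con : Place K Γ → Place L F} {conk : Place K Γ → Place k Fb} {ιk : Γ →+* Fb}

/-- the core of "no pole of `u` reduces to `r P`": the shifted function `u - c`
(`c ∈ {0, 1}`), whose value `a - c` at `P` is a `V'`-unit. -/
theorem s26espv_no_pole_aux (h : S26erigRed R r con conk ιk) (P : Place L F) (u : Γ)
    (γ : Place K Γ) (hγ : γ.ord u < 0) (hrγ : conk γ = r P)
    (cΓ : Γ) (hcΓ : cΓ ∈ γ.toValuationSubring) (cL : L)
    (hc : algebraMap Γ F cΓ = algebraMap L F cL)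
    (a : L) (ha : s26eredev_HasValueAt P (algebraMap Γ F u) a)
    (hu : ∃ b : R.A, ((b : L) = (a - cL)⁻¹) ∧ R.res b ≠ 0) (hne : a - cL ≠ 0) : False := by
  have := h.hpdF
  obtain ⟨b, hb, hbres⟩ := hu
  set w : Γ := u - cΓ with hw
  have hu0 : u ≠ 0 := by
    rintro rfl
    rw [Place.ord_zero] at hγ
    exact lt_irrefl _ hγ
  have hunot : u ∉ γ.toValuationSubring := by
    intro hmem
    have := (PlaceAux.ord_nonneg_iff γ hu0).2 hmem
    omega
  have hwnot : w ∉ γ.toValuationSubring := by
    intro hmem
    apply hunot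
    have : u = w + cΓ := by rw [hw]; ring
    rw [this]
    exact add_mem hmem hcΓ
  have hw0 : w ≠ 0 := fun h0 => hwnot (h0 ▸ zero_mem _)
  have hword : γ.ord w < 0 := by
    by_contra hge
    exact hwnot ((PlaceAux.ord_nonneg_iff γ hw0).1 (not_lt.1 hge))
  set u' : Γ := w⁻¹ with hu'
  have hu'0 : u' ≠ 0 := inv_ne_zero hw0
  have hu'ord : 0 < γ.ord u' := by
    rw [hu', Place.ord_inv]
    omega
  -- `ιk u'` vanishes at `r P`
  have hιpos : 0 < (r P).ord (ιk u') := by
    rw [← hrγ]
    exact h.ord_conk γ u' hu'ord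
  have hι0 : ιk u' ≠ 0 := by
    intro h0
    rw [h0, Place.ord_zero] at hιpos
    exact lt_irrefl _ hιpos
  have hιnon : ιk u' ∈ (r P).toValuationSubring.nonunits :=
    (PlaceAux.ord_pos_iff_mem_nonunits (r P) hι0).1 hιpos
  -- the value of `u'` at `P`
  have hwval : s26eredev_HasValueAt P (algebraMap Γ F w) (a - cL) := by
    unfold s26eredev_HasValueAt at ha ⊢
    have e : algebraMap Γ F w - algebraMap L F (a - cL) =
        algebraMap Γ F u - algebraMap L F a := by
      rw [hw, map_sub, map_sub, hc]
      ring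
    rw [e]
    exact ha
  have hu'val : s26eredev_HasValueAt P (algebraMap Γ F u') (a - cL)⁻¹ := by
    rw [hu', map_inv₀]
    exact s26espv_hasValueAt_inv P hne hwval
  -- no pole of `u'` reduces to `r P`
  have hno' : ∀ P' : Place L F, P'.ord (algebraMap Γ F u') < 0 → r P' ≠ r P := by
    intro P' hP' hrr
    obtain ⟨γ', rfl, hγ'⟩ := h.ord_con u' P' hP'
    have hγγ : γ' = γ := by
      apply h.conk_inj
      rw [← h.r_con, hrr, hrγ]
    rw [hγγ] at hγ'
    omega
  obtain ⟨hmemA, hval⟩ := s26eredev_eval_value h.r_principal h.hpdF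
    ⟨algebraMap Γ F u', h.mem_O u'⟩ P hno' hu'val
  rw [h.red_Γ] at hval
  unfold s26eredev_HasValueAt at hval
  have hconst : algebraMap k Fb (R.res ⟨(a - cL)⁻¹, hmemA⟩) ∈
      (r P).toValuationSubring.nonunits := by
    have := s26eredev_nonunits_sub hιnon hval
    rwa [sub_sub_cancel] at this
  have hzero := (s26eredev_algebraMap_mem_nonunits_iff (r P) _).1 hconst
  apply hbres
  have e : b = ⟨(a - cL)⁻¹, hmemA⟩ := Subtype.ext hb
  rw [e]
  exact hzero

/-- **no pole of `u ∈ Γ` reduces to `r P`** if `u` is regular at `P` with value in `V'`. -/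
theorem s26espv_no_pole (h : S26erigRed R r con conk ιk) (P : Place L F) (u : Γ)
    (a : R.A) (ha : s26eredev_HasValueAt P (algebraMap Γ F u) (a : L)) :
    ∀ P' : Place L F, P'.ord (algebraMap Γ F u) < 0 → r P' ≠ r P := by
  intro P' hP' hrr
  obtain ⟨γ, rfl, hγ⟩ := h.ord_con u P' hP'
  have hrγ : conk γ = r P := by rw [← h.r_con, hrr]
  by_cases h0 : R.res a = 0
  · -- shift by `1`
    have hres1 : R.res (a - 1) ≠ 0 := by
      rw [map_sub, h0, map_one, zero_sub]
      exact neg_ne_zero.2 one_ne_zero
    have hne : ((a : L) - 1) ≠ 0 := by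
      intro hz
      apply hres1
      have : a - 1 = 0 := Subtype.ext hz
      rw [this, map_zero]
    have hinv : ((a : L) - 1)⁻¹ ∈ R.A := by
      by_contra hn
      have hnon : (((a - 1 : R.A)) : L) ∈ R.A.nonunits :=
        (ValuationSubring.mem_nonunits_iff_or _).2 (Or.inr hn)
      exact hres1 ((s26erig_res_eq_zero_iff R _).2 hnon)
    refine s26espv_no_pole_aux h P u γ hγ hrγ 1 (one_mem _) 1 (by rw [map_one, map_one])
      (a : L) ha ⟨⟨_, hinv⟩, rfl, ?_⟩ hne
    intro hz
    have hmul : (⟨((a : L) - 1)⁻¹, hinv⟩ : R.A) * (a - 1) = 1 :=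
      Subtype.ext (inv_mul_cancel₀ hne)
    have := congrArg R.res hmul
    rw [map_mul, hz, zero_mul, map_one] at this
    exact zero_ne_one this
  · -- no shift
    have hne : ((a : L) - 0) ≠ 0 := by
      rw [sub_zero]
      intro hz
      apply h0
      have : a = 0 := Subtype.ext hz
      rw [this, map_zero]
    have hinv : ((a : L) - 0)⁻¹ ∈ R.A := by
      rw [sub_zero]
      by_contra hn
      have hnon : (a : L) ∈ R.A.nonunits :=
        (ValuationSubring.mem_nonunits_iff_or _).2 (Or.inr hn)
      exact h0 ((s26erig_res_eq_zero_iff R _).2 hnon)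
    refine s26espv_no_pole_aux h P u γ hγ hrγ 0 (zero_mem _) 0 (by rw [map_zero, map_zero])
      (a : L) ha ⟨⟨_, hinv⟩, rfl, ?_⟩ hne
    intro hz
    have hmul : (⟨((a : L) - 0)⁻¹, hinv⟩ : R.A) * a = 1 := by
      apply Subtype.ext
      show ((a : L) - 0)⁻¹ * (a : L) = 1
      have := inv_mul_cancel₀ hne
      simpa using this
    have := congrArg R.res hmul
    rw [map_mul, hz, zero_mul, map_one] at this
    exact zero_ne_one this

/-- **(EVAL) on `Γ`**: `u ∈ Γ` regular at `P` with value `a ∈ V'` ⇒ `ιk u` has the value `res a`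
at `r P`. -/
theorem s26espv_eval (h : S26erigRed R r con conk ιk) (P : Place L F) (u : Γ)
    (a : R.A) (ha : s26eredev_HasValueAt P (algebraMap Γ F u) (a : L)) :
    s26eredev_HasValueAt (r P) (R.red ⟨algebraMap Γ F u, h.mem_O u⟩) (R.res a) := by
  have := h.hpdF
  obtain ⟨hmemA, hval⟩ := s26eredev_eval_value h.r_principal h.hpdF
    ⟨algebraMap Γ F u, h.mem_O u⟩ P (s26espv_no_pole h P u a ha) ha
  exact hval

end Eval

/-! ### The valuation side -/

section ValSide

variable {K Γ L F k Fb : Type*} [Field K] [Field Γ] [Field L] [Field F] [Field k] [Field Fb]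
  [Algebra K Γ] [Algebra K L] [Algebra Γ F] [Algebra L F] [Algebra K F]
  [IsScalarTower K Γ F] [IsScalarTower K L F] [Algebra k Fb]

variable {R : RedData L F k Fb} {r : Place L F → Place k Fb}
  {con : Place K Γ → Place L F} {conk : Place K Γ → Place k Fb} {ιk : Γ →+* Fb}

theorem s26espv_red_eq_zero (R : RedData L F k Fb) (x : ↥(s26espOG R))
    (hx : (x : F) ∈ (s26espOG R).nonunits) : s26espRed R x = 0 := by
  by_contra hne
  have hu : IsUnit x := (s26espRed_isLocalHom R).map_nonunit x (IsUnit.mk0 _ hne)
  exact ((s26espb_isUnit_iff_notMem _ x).1 hu) hx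

theorem s26espv_res_isLocalHom (R : RedData L F k Fb) : IsLocalHom R.res := by
  refine ⟨fun a ha => ?_⟩
  rw [s26espb_isUnit_iff_notMem]
  intro hnon
  have := (s26erig_res_eq_zero_iff R a).2 hnon
  rw [this] at ha
  exact not_isUnit_zero ha

/-- **the valuation side of E-SPEC.** -/
theorem s26espv_valSide (h : S26erigRed R r con conk ιk)
    (hresF : ∀ P : Place L F, Function.Surjective (algebraMap L P.ResidueField))
    (hresk : ∀ Q : Place k Fb, Function.Surjective (algebraMap k Q.ResidueField)) :
    S26espValSide Γ R r := by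
  intro Q
  have hlocQ := s26espvVal_isLocalHom Q (hresk Q)
  have hlocR := s26espv_res_isLocalHom R
  have hloc₂ := s26espb_compRes_isLocalHom (s26espOG R) (s26espRed R) Q.toValuationSubring
    (s26espv_red_eq_zero R)
  refine ⟨s26espbComp (s26espOG R) (s26espRed R) Q.toValuationSubring (s26espv_red_eq_zero R),
    (s26espvVal Q (hresk Q)).comp (s26espbCompRes (s26espOG R) (s26espRed R)
      Q.toValuationSubring (s26espv_red_eq_zero R)),
    s26espb_comp_le, ⟨fun x hx => hloc₂.map_nonunit x (hlocQ.map_nonunit _ hx)⟩, ?_, ?_⟩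
  · -- constants
    intro c
    have hred : s26espRed R ⟨algebraMap L F (c : L), R.algebraMap_mem c⟩ =
        algebraMap k Fb (R.res c) := R.red_algebraMap c
    have hmem : algebraMap L F (c : L) ∈ s26espbComp (s26espOG R) (s26espRed R)
        Q.toValuationSubring (s26espv_red_eq_zero R) :=
      ⟨R.algebraMap_mem c, by rw [hred]; exact Q.algebraMap_mem' _⟩
    refine ⟨hmem, ?_⟩
    refine s26espvVal_unique Q (hresk Q) _ ?_
    show s26eredev_HasValueAt Q
      (s26espRed R ⟨algebraMap L F (c : L), R.algebraMap_mem c⟩) (R.res c)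
    rw [hred]
    exact s26eredev_hasValueAt_const Q _
  · intro P hrP
    have hlocP := s26espvVal_isLocalHom P (hresF P)
    have hker₁ : ∀ x : ↥P.toValuationSubring, (x : F) ∈ P.toValuationSubring.nonunits →
        s26espvVal P (hresF P) x = 0 :=
      fun x hx => (s26espvVal_eq_zero_iff P (hresF P) x).2 hx
    have hloc₁ := s26espb_compRes_isLocalHom P.toValuationSubring (s26espvVal P (hresF P))
      R.A hker₁
    refine ⟨s26espbComp P.toValuationSubring (s26espvVal P (hresF P)) R.A hker₁,
      R.res.comp (s26espbCompRes P.toValuationSubring (s26espvVal P (hresF P)) R.A hker₁),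
      s26espb_comp_le, ⟨fun x hx => hloc₁.map_nonunit x (hlocR.map_nonunit _ hx)⟩, ?_, ?_⟩
    · -- constants
      intro c
      have hval : s26espvVal P (hresF P) ⟨algebraMap L F (c : L), P.algebraMap_mem' _⟩ =
          (c : L) := s26espvVal_algebraMap P (hresF P) (c : L) _
      have hmem : algebraMap L F (c : L) ∈ s26espbComp P.toValuationSubring
          (s26espvVal P (hresF P)) R.A hker₁ :=
        ⟨P.algebraMap_mem' _, by rw [hval]; exact c.2⟩
      refine ⟨hmem, ?_⟩
      show R.res (s26espbCompRes P.toValuationSubring (s26espvVal P (hresF P)) R.A hker₁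
        ⟨algebraMap L F (c : L), hmem⟩) = R.res c
      congr 1
      exact Subtype.ext hval
    · -- (EVAL)
      intro u h₁
      obtain ⟨huP, haA⟩ := h₁
      have ha : s26eredev_HasValueAt P (algebraMap Γ F u)
          ((⟨s26espvVal P (hresF P) ⟨algebraMap Γ F u, huP⟩, haA⟩ : R.A) : L) :=
        s26espvVal_spec P (hresF P) ⟨algebraMap Γ F u, huP⟩
      have hev := s26espv_eval h P u ⟨_, haA⟩ ha
      rw [hrP] at hev
      have hmemQ : R.red ⟨algebraMap Γ F u, h.mem_O u⟩ ∈ Q.toValuationSubring :=
        s26eredev_HasValueAt_mem Q hev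
      have hmem : algebraMap Γ F u ∈ s26espbComp (s26espOG R) (s26espRed R)
          Q.toValuationSubring (s26espv_red_eq_zero R) := ⟨h.mem_O u, hmemQ⟩
      refine ⟨hmem, ?_⟩
      exact s26espvVal_unique Q (hresk Q) _ hev

end ValSide

end Fermat.Agent.S26

end
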