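/-
S26-E, piece E-SPEC (helper95), part 6: the forms used by (TI): FOUR points and the SQUARE.

In the frame of `S26/ESpec.lean` (Gauss reduction `R` along `V' = R.A`, reduction package
`S26erigRed R r con conk ιk`, residue fields of the places = constants):

* `s26espec_pair'`  : `s26espec_pair` with the valuation side plugged in (`s26espv_valSide`);
* `s26espec_four`   : for `Δ(P) = (ord_P gen x₁ − ord_P gen x₁') − (ord_P gen x₂ − ord_P gen x₂')`,
  `x_i = ν_F + (a_i)_F`, `sp_{V'} a_i = sp_{V'} a_i'`:  `r_* Δ = div φ`;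
* `s26espec_sq`     : for the square family `Sq(ν_F + b_F; y_F, z_F)` of `PlanE2` and
  `sp_{V'} z = 1`:  `Δ(P) = ord_P Sq(…)(O_P)` ⇒ `r_* Δ = div φ`
  (= `hspec` of `S26erigRedAt` / `s26etir_redAt`, for every `r` with `S26erigRed`).
The scheme side `S26espKeyA/B/C` is still a hypothesis here; `S26/ESpecFinal.lean` plugs it in.
-/
import Fermat.Agent.S26.ESpec
import Fermat.Agent.S26.ESpecVal
import Fermat.Agent.S26.ESpecB2
import Fermat.Agent.S26.PlanE2

set_option autoImplicit false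
set_option linter.style.haveILetI false
set_option linter.unusedVariables false
set_option linter.unusedSectionVars false

noncomputable section

namespace Fermat.Agent.S26

open CategoryTheory CategoryTheory.Limits AlgebraicGeometry NeronModelInfra GoodReductionJacobian
open AlgebraicCurve Fermat.Agent.DEU

universe u

section Main

variable {K : Type u} [Field K] {A : Scheme.{u}} (f : A ⟶ Spec (CommRingCat.of K))

/-- a place of `F/L` is over `K`. -/
theorem s26esp_place_over {L F : Type u} [Field L] [Field F] [Algebra K L] [Algebra L F]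
    [Algebra K F] [IsScalarTower K L F] (P : Place L F) : S26erOver K P.toValuationSubring := by
  intro b
  rw [IsScalarTower.algebraMap_apply K L F]
  exact P.algebraMap_mem' _

/-- **(FIN)** for a point of `A(F)`: `P ↦ ord_P (s26eGen f U x O_P)` is a divisor of `F/L`. -/
theorem s26esp_exists_divisor [IsIntegral A] [IsLocallyNoetherian A] [IsProper f]
    {U : A.Opens} (hD : S26emLocData U) {L F : Type u} [Field L] [Field F] [Algebra K L]
    [Algebra L F] [Algebra K F] [IsScalarTower K L F] (hpd : HasPrincipalDivisors L F)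
    (x : s26eptPts f F) :
    ∃ D : Divisor L F, ∀ P : Place L F, D P = P.ord (s26eGen f U x P.toValuationSubring) := by
  haveI : CompactSpace A := QuasiCompact.compactSpace_of_compactSpace f
  obtain ⟨D, hDP⟩ := s26espf_exists_divisor (L := L) (F := F) hD x.1
    (fun P => s26eLiftV f P.toValuationSubring (s26esp_place_over P) x)
    (fun P => s26esp_liftV_incl f _ (s26esp_place_over P) x)
  refine ⟨D, fun P => ?_⟩
  rw [hDP P, s26esp_gen_eq f U _ (s26esp_place_over P) x]

/-- the generator at a place is not zero if `|x| ∈ U`. -/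
theorem s26esp_gen_ne_zero [IsIntegral A] [IsLocallyNoetherian A] [IsProper f]
    {U : A.Opens} (hD : S26emLocData U) {Ω : Type u} [Field Ω] [Algebra K Ω]
    (V : ValuationSubring Ω) (hV : S26erOver K V) (x : s26eptPts f Ω)
    (hU : s26eptPt f x ∈ U) : s26eGen f U x V ≠ 0 := by
  rw [s26esp_gen_eq f U V hV x]
  have h1 : s26emGen U (s26eLiftV f V hV x) ≠ 0 := by
    refine s26emGen_ne_zero hD (CommRingCat.ofHom V.subtype) (s26eLiftV f V hV x) ?_
    rw [s26esp_liftV_incl f V hV x]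
    exact hU
  intro h0
  exact h1 (Subtype.ext h0)

variable [IsIntegral A] [IsLocallyNoetherian A] [IsProper f]
  (G : RelativeGroupLaw K f) {U : A.Opens} (hD : S26emLocData U)
  (hA : S26espKeyA f G) (hB : S26espKeyB f G) (hC : S26espKeyC f)
  {Γ L F k Fb : Type u} [Field Γ] [Field L] [Field F] [Field k] [Field Fb]
  [Algebra K Γ] [Algebra K L] [Algebra Γ F] [Algebra L F] [Algebra K F]
  [IsScalarTower K Γ F] [IsScalarTower K L F] [Algebra k Fb]
  (R : RedData L F k Fb) (hK : S26erOver K R.A) (r : Place L F → Place k Fb)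
  {con : Place K Γ → Place L F} {conk : Place K Γ → Place k Fb} {ιk : Γ →+* Fb}
  (h : S26erigRed R r con conk ιk)
  (hresF : ∀ P : Place L F, Function.Surjective (algebraMap L P.ResidueField))
  (hresk : ∀ Q : Place k Fb, Function.Surjective (algebraMap k Q.ResidueField))

include hD hA hB hC h hresF hresk in
/-- **E-SPEC for one pair**, on the reduction package. -/
theorem s26espec_pair' (ν : s26eptPts f Γ) (a a' : s26eptPts f L)
    (hsp : S26espSame f a a' R.A hK)
    (hU : s26eptPt f (s26espSum f G (IsScalarTower.toAlgHom K Γ F)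
      (IsScalarTower.toAlgHom K L F) ν a) ∈ U)
    (hU' : s26eptPt f (s26espSum f G (IsScalarTower.toAlgHom K Γ F)
      (IsScalarTower.toAlgHom K L F) ν a') ∈ U)
    (D D' : Divisor L F)
    (hDx : ∀ P : Place L F, D P = P.ord (s26eGen f U (s26espSum f G
      (IsScalarTower.toAlgHom K Γ F) (IsScalarTower.toAlgHom K L F) ν a) P.toValuationSubring))
    (hDx' : ∀ P : Place L F, D' P = P.ord (s26eGen f U (s26espSum f G
      (IsScalarTower.toAlgHom K Γ F) (IsScalarTower.toAlgHom K L F) ν a') P.toValuationSubring)) :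
    ∃ φ : Fb, φ ≠ 0 ∧ ∀ Q : Place k Fb, Finsupp.mapDomain r (D - D') Q = Q.ord φ :=
  s26espec_pair f G hD hA hB hC R hK r h.hpdF h.r_principal
    (s26espv_valSide h hresF hresk) ν a a' hsp hU hU' D D' hDx hDx'

include hD hA hB hC h hresF hresk in
/-- **E-SPEC for four points.** -/
theorem s26espec_four (ν : s26eptPts f Γ) (a₁ a₁' a₂ a₂' : s26eptPts f L)
    (hsp₁ : S26espSame f a₁ a₁' R.A hK) (hsp₂ : S26espSame f a₂ a₂' R.A hK)
    (x₁ x₁' x₂ x₂' : s26eptPts f F)
    (hx₁ : x₁ = s26espSum f G (IsScalarTower.toAlgHom K Γ F) (IsScalarTower.toAlgHom K L F) ν a₁)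
    (hx₁' : x₁' = s26espSum f G (IsScalarTower.toAlgHom K Γ F)
      (IsScalarTower.toAlgHom K L F) ν a₁')
    (hx₂ : x₂ = s26espSum f G (IsScalarTower.toAlgHom K Γ F) (IsScalarTower.toAlgHom K L F) ν a₂)
    (hx₂' : x₂' = s26espSum f G (IsScalarTower.toAlgHom K Γ F)
      (IsScalarTower.toAlgHom K L F) ν a₂')
    (hU₁ : s26eptPt f x₁ ∈ U) (hU₁' : s26eptPt f x₁' ∈ U)
    (hU₂ : s26eptPt f x₂ ∈ U) (hU₂' : s26eptPt f x₂' ∈ U)
    (Δ : Divisor L F)
    (hΔ : ∀ P : Place L F, Δ P =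
      (P.ord (s26eGen f U x₁ P.toValuationSubring) -
        P.ord (s26eGen f U x₁' P.toValuationSubring)) -
      (P.ord (s26eGen f U x₂ P.toValuationSubring) -
        P.ord (s26eGen f U x₂' P.toValuationSubring))) :
    ∃ φ : Fb, φ ≠ 0 ∧ ∀ Q : Place k Fb, Finsupp.mapDomain r Δ Q = Q.ord φ := by
  subst hx₁ hx₁' hx₂ hx₂'
  obtain ⟨D₁, hD₁⟩ := s26esp_exists_divisor f hD h.hpdF
    (s26espSum f G (IsScalarTower.toAlgHom K Γ F) (IsScalarTower.toAlgHom K L F) ν a₁)
  obtain ⟨D₁', hD₁'⟩ := s26esp_exists_divisor f hD h.hpdF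
    (s26espSum f G (IsScalarTower.toAlgHom K Γ F) (IsScalarTower.toAlgHom K L F) ν a₁')
  obtain ⟨D₂, hD₂⟩ := s26esp_exists_divisor f hD h.hpdF
    (s26espSum f G (IsScalarTower.toAlgHom K Γ F) (IsScalarTower.toAlgHom K L F) ν a₂)
  obtain ⟨D₂', hD₂'⟩ := s26esp_exists_divisor f hD h.hpdF
    (s26espSum f G (IsScalarTower.toAlgHom K Γ F) (IsScalarTower.toAlgHom K L F) ν a₂')
  obtain ⟨φ₁, hφ₁, h₁⟩ := s26espec_pair' f G hD hA hB hC R hK r h hresF hresk ν a₁ a₁' hsp₁
    hU₁ hU₁' D₁ D₁' hD₁ hD₁'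
  obtain ⟨φ₂, hφ₂, h₂⟩ := s26espec_pair' f G hD hA hB hC R hK r h hresF hresk ν a₂ a₂' hsp₂
    hU₂ hU₂' D₂ D₂' hD₂ hD₂'
  have hΔeq : Δ = (D₁ - D₁') - (D₂ - D₂') := by
    ext P
    rw [hΔ P, Finsupp.sub_apply, Finsupp.sub_apply, Finsupp.sub_apply, hD₁ P, hD₁' P, hD₂ P,
      hD₂' P]
  refine ⟨φ₁ / φ₂, div_ne_zero hφ₁ hφ₂, fun Q => ?_⟩
  have hsub : Finsupp.mapDomain r ((D₁ - D₁') - (D₂ - D₂')) =
      Finsupp.mapDomain r (D₁ - D₁') - Finsupp.mapDomain r (D₂ - D₂') := by
    have hadd : Finsupp.mapDomain r (D₁ - D₁') =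
        Finsupp.mapDomain r ((D₁ - D₁') - (D₂ - D₂')) + Finsupp.mapDomain r (D₂ - D₂') := by
      rw [← Finsupp.mapDomain_add, sub_add_cancel]
    rw [hadd, add_sub_cancel_right]
  rw [hΔeq, hsub, Finsupp.sub_apply, h₁ Q, h₂ Q, div_eq_mul_inv,
    Q.ord_mul hφ₁ (inv_ne_zero hφ₂), Q.ord_inv]
  ring

omit [IsIntegral A] [IsLocallyNoetherian A] in
/-- `sp_V z = 1` ⇒ `sp_V (a · z) = sp_V a`. -/
theorem s26espSame_mul_of_spOne {L' : Type u} [Field L'] [Algebra K L'] (a z : s26eptPts f L')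
    (V : ValuationSubring L') (hV : S26erOver K V) (hz : S26eSpOneV f G z V hV) :
    S26espSame f (G.mul _ a z) a V hV := by
  unfold S26espSame
  unfold S26eSpOneV at hz
  letI := s26eAlgV V hV
  haveI := s26eAlgV_tower V hV
  rw [s26eptSp_mul, hz, G.mul_one]

omit [IsIntegral A] [IsLocallyNoetherian A] [IsProper f] in
/-- `(ν_F · b_F) · c_F = ν_F · (b · c)_F`. -/
theorem s26espSum_mul (ν : s26eptPts f Γ) (b c : s26eptPts f L) :
    G.mul _ (s26espSum f G (IsScalarTower.toAlgHom K Γ F) (IsScalarTower.toAlgHom K L F) ν b)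
        (s26eptMap f (IsScalarTower.toAlgHom K L F) c) =
      s26espSum f G (IsScalarTower.toAlgHom K Γ F) (IsScalarTower.toAlgHom K L F) ν
        (G.mul _ b c) := by
  unfold s26espSum
  rw [s26eptMap_mul, G.mul_assoc]

/-- the order of the square family at a place. -/
theorem s26esp_ord_sq {L' F' : Type u} [Field L'] [Field F'] [Algebra K L'] [Algebra L' F']
    [Algebra K F'] [IsScalarTower K L' F'] (hD : S26emLocData U) (P : Place L' F')
    (a y z : s26eptPts f F')
    (h1 : s26eptPt f (G.mul _ (G.mul _ a y) z) ∈ U) (h2 : s26eptPt f a ∈ U)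
    (h3 : s26eptPt f (G.mul _ a y) ∈ U) (h4 : s26eptPt f (G.mul _ a z) ∈ U) :
    P.ord (s26eSq f G U a y z P.toValuationSubring) =
      P.ord (s26eGen f U (G.mul _ (G.mul _ a y) z) P.toValuationSubring) +
        P.ord (s26eGen f U a P.toValuationSubring) -
      (P.ord (s26eGen f U (G.mul _ a y) P.toValuationSubring) +
        P.ord (s26eGen f U (G.mul _ a z) P.toValuationSubring)) := by
  have g1 := s26esp_gen_ne_zero f hD P.toValuationSubring (s26esp_place_over P) _ h1
  have g2 := s26esp_gen_ne_zero f hD P.toValuationSubring (s26esp_place_over P) _ h2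
  have g3 := s26esp_gen_ne_zero f hD P.toValuationSubring (s26esp_place_over P) _ h3
  have g4 := s26esp_gen_ne_zero f hD P.toValuationSubring (s26esp_place_over P) _ h4
  unfold s26eSq
  rw [div_eq_mul_inv, P.ord_mul (mul_ne_zero g1 g2) (inv_ne_zero (mul_ne_zero g3 g4)),
    P.ord_mul g1 g2, P.ord_inv, P.ord_mul g3 g4]
  ring

include hD hA hB hC h hresF hresk in
/-- **E-SPEC for the square** `Sq(ν_F + b_F; y_F, z_F)`, `sp_{V'} z = 1`. -/
theorem s26espec_sq (ν : s26eptPts f Γ) (b y z : s26eptPts f L)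
    (hz : S26eSpOneV f G z R.A hK)
    (h1 : s26eptPt f (G.mul _ (G.mul _ (s26espSum f G (IsScalarTower.toAlgHom K Γ F)
      (IsScalarTower.toAlgHom K L F) ν b) (s26eptMap f (IsScalarTower.toAlgHom K L F) y))
      (s26eptMap f (IsScalarTower.toAlgHom K L F) z)) ∈ U)
    (h2 : s26eptPt f (s26espSum f G (IsScalarTower.toAlgHom K Γ F)
      (IsScalarTower.toAlgHom K L F) ν b) ∈ U)
    (h3 : s26eptPt f (G.mul _ (s26espSum f G (IsScalarTower.toAlgHom K Γ F)
      (IsScalarTower.toAlgHom K L F) ν b) (s26eptMap f (IsScalarTower.toAlgHom K L F) y)) ∈ U)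
    (h4 : s26eptPt f (G.mul _ (s26espSum f G (IsScalarTower.toAlgHom K Γ F)
      (IsScalarTower.toAlgHom K L F) ν b) (s26eptMap f (IsScalarTower.toAlgHom K L F) z)) ∈ U)
    (Δ : Divisor L F)
    (hΔ : ∀ P : Place L F, Δ P = P.ord (s26eSq f G U
      (s26espSum f G (IsScalarTower.toAlgHom K Γ F) (IsScalarTower.toAlgHom K L F) ν b)
      (s26eptMap f (IsScalarTower.toAlgHom K L F) y)
      (s26eptMap f (IsScalarTower.toAlgHom K L F) z) P.toValuationSubring)) :
    ∃ φ : Fb, φ ≠ 0 ∧ ∀ Q : Place k Fb, Finsupp.mapDomain r Δ Q = Q.ord φ := by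
  refine s26espec_four f G hD hA hB hC R hK r h hresF hresk ν
    (G.mul _ (G.mul _ b y) z) (G.mul _ b y) (G.mul _ b z) b
    (s26espSame_mul_of_spOne f G _ z R.A hK hz) (s26espSame_mul_of_spOne f G _ z R.A hK hz)
    _ _ _ _ ?_ ?_ ?_ rfl h1 h3 h4 h2 Δ ?_
  · rw [← s26espSum_mul, ← s26espSum_mul]
  · rw [← s26espSum_mul]
  · rw [← s26espSum_mul]
  · intro P
    rw [hΔ P, s26esp_ord_sq f G hD P _ _ _ h1 h2 h3 h4]
    ring

include hD hA hB hC h hresF hresk in
/-- **E-SPEC for the square**, `sp_{V'} y = 1` (`G` commutative). -/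
theorem s26espec_sq' (hcomm : G.IsCommutative) (ν : s26eptPts f Γ) (b y z : s26eptPts f L)
    (hy : S26eSpOneV f G y R.A hK)
    (h1 : s26eptPt f (G.mul _ (G.mul _ (s26espSum f G (IsScalarTower.toAlgHom K Γ F)
      (IsScalarTower.toAlgHom K L F) ν b) (s26eptMap f (IsScalarTower.toAlgHom K L F) y))
      (s26eptMap f (IsScalarTower.toAlgHom K L F) z)) ∈ U)
    (h2 : s26eptPt f (s26espSum f G (IsScalarTower.toAlgHom K Γ F)
      (IsScalarTower.toAlgHom K L F) ν b) ∈ U)
    (h3 : s26eptPt f (G.mul _ (s26espSum f G (IsScalarTower.toAlgHom K Γ F)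
      (IsScalarTower.toAlgHom K L F) ν b) (s26eptMap f (IsScalarTower.toAlgHom K L F) y)) ∈ U)
    (h4 : s26eptPt f (G.mul _ (s26espSum f G (IsScalarTower.toAlgHom K Γ F)
      (IsScalarTower.toAlgHom K L F) ν b) (s26eptMap f (IsScalarTower.toAlgHom K L F) z)) ∈ U)
    (Δ : Divisor L F)
    (hΔ : ∀ P : Place L F, Δ P = P.ord (s26eSq f G U
      (s26espSum f G (IsScalarTower.toAlgHom K Γ F) (IsScalarTower.toAlgHom K L F) ν b)
      (s26eptMap f (IsScalarTower.toAlgHom K L F) y)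
      (s26eptMap f (IsScalarTower.toAlgHom K L F) z) P.toValuationSubring)) :
    ∃ φ : Fb, φ ≠ 0 ∧ ∀ Q : Place k Fb, Finsupp.mapDomain r Δ Q = Q.ord φ := by
  have hswap : G.mul _ (G.mul _ (s26espSum f G (IsScalarTower.toAlgHom K Γ F)
      (IsScalarTower.toAlgHom K L F) ν b) (s26eptMap f (IsScalarTower.toAlgHom K L F) y))
      (s26eptMap f (IsScalarTower.toAlgHom K L F) z) =
      G.mul _ (G.mul _ (s26espSum f G (IsScalarTower.toAlgHom K Γ F)
      (IsScalarTower.toAlgHom K L F) ν b) (s26eptMap f (IsScalarTower.toAlgHom K L F) z))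
      (s26eptMap f (IsScalarTower.toAlgHom K L F) y) := by
    rw [G.mul_assoc, G.mul_assoc, hcomm _ (s26eptMap f (IsScalarTower.toAlgHom K L F) y)]
  refine s26espec_four f G hD hA hB hC R hK r h hresF hresk ν
    (G.mul _ (G.mul _ b z) y) (G.mul _ b z) (G.mul _ b y) b
    (s26espSame_mul_of_spOne f G _ y R.A hK hy) (s26espSame_mul_of_spOne f G _ y R.A hK hy)
    _ _ _ _ ?_ ?_ ?_ rfl h1 h4 h3 h2 Δ ?_
  · rw [hswap, ← s26espSum_mul, ← s26espSum_mul]
  · rw [← s26espSum_mul]
  · rw [← s26espSum_mul]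
  · intro P
    rw [hΔ P, s26esp_ord_sq f G hD P _ _ _ h1 h2 h3 h4]
    ring

end Main

end Fermat.Agent.S26

end
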