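/-
S26-E, (TI) hub, leaf TI-HRR (helper8): the hypothesis `hRR` of `s26erig_main_ac`
(`S26/ERig3.lean`), the degree of `Δ`, and the divisor `E₀` — abstract, in the setting of
`S26/ERedAsm.lean`.

`Γ/K` a function field, `F/L` and `Fb/k` constant extensions, `con : Place K Γ → Place L F`,
`conk : Place K Γ → Place k Fb` the conorms, `r : Place L F → Place k Fb` a reduction of places.

* `s26etirr_exists_ne_zero` : `1 ≤ dim W ⇒ ∃ f ≠ 0, f ∈ W`;
* `s26etirr_hRR`            : **(hRR)** Riemann's inequality for `F/L` with the constant `γ`,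
  `deg E₀ = γ`, `deg Con E₀ = deg E₀`, `deg Δ = 0`  ⇒  `L_F(Δ + Con E₀) ≠ 0`;
* `s26etirr_degree_principal` : a principal divisor has degree `0`;
* `s26etirr_degree_zero`    : **(deg)** `r_* Δ` principal on `Fb/k`, all places of `F/L` and of
  `Fb/k` of degree one  ⇒  `deg Δ = 0`  (ANY map `r` of places);
* `s26etirr_degree_zero_hyp`: the same for `r = H.r`, `H : DEU.Hyp R Pinf Qinf g n₀`;
* `s26etirr_hRR_of_spec`    : (hRR) with `deg Δ = 0` replaced by "`r_* Δ` is principal";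
* `s26etirr_one_mem`        : `1 ∈ L(Con_k E₀)` for `E₀ ≥ 0`;
* `s26etirr_hE0k`           : **(E₀, residue side)** `E₀ ≥ 0`, `dim_k L_k(Con_k E₀) ≤ 1`  ⇒
  `L_k(Con_k E₀)` consists of constants (= `hE₀k` of `S26erigRedAt`);
* `s26etirr_hE0k_of_semi`   : the same from `dim_K L_K(E₀) = 1` and the semicontinuity
  `dim_k L_k(Con_k E₀) ≤ dim_K L_K(E₀)` (RR-D: `s26era_semi_anchor`, helper28 / helper65);
* `s26etirr_exists_E0`      : **(E₀)** `K` algebraically closed, `Γ/K` a function field: there are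
  `γ : ℕ` and `E₀ ≥ 0` with Riemann's inequality for `Γ/K` with `γ`, `deg E₀ = γ`,
  `dim_K L_K(E₀) = 1` (helper42's `s26errg_main`, restated with `γ : ℕ`).
-/
import Fermat.Agent.S26.ERedAsm
import Fermat.Agent.S26.ERRGFinal

set_option autoImplicit false
set_option linter.unusedSectionVars false
set_option linter.unusedVariables false
set_option linter.style.haveILetI false

open AlgebraicCurve Module

namespace Fermat.Agent.S26

open Fermat.Agent.S24 Fermat.Agent.DEU Fermat.Agent.ES.R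

variable {K Γ L F : Type*} [Field K] [Field Γ] [Algebra K Γ] [Field L] [Field F] [Algebra L F]

/-- a subspace of positive dimension contains a nonzero vector -/
theorem s26etirr_exists_ne_zero (W : Submodule L F) (h : (1 : ℤ) ≤ (finrank L ↥W : ℤ)) :
    ∃ f : F, f ≠ 0 ∧ f ∈ W := by
  have hpos : 0 < finrank L ↥W := by
    have : (0 : ℤ) < (finrank L ↥W : ℤ) := by linarith
    exact_mod_cast this
  haveI : Nontrivial ↥W := Module.nontrivial_of_finrank_pos (R := L) hpos
  obtain ⟨w, hw⟩ := exists_ne (0 : ↥W)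
  exact ⟨(w : F), fun h0 => hw (Subtype.ext h0), w.2⟩

/-- **(hRR)**: `L_F(Δ + Con E₀) ≠ 0`. -/
theorem s26etirr_hRR (hpdF : HasPrincipalDivisors L F) (γ : ℕ)
    (hriemF : ∀ D : Divisor L F,
      Divisor.degree D + 1 - γ ≤ (Module.finrank L ↥(riemannRochSpace D) : ℤ))
    (con : Place K Γ → Place L F) (E₀ : Divisor K Γ) (hE₀ : Divisor.degree E₀ = γ)
    (hdeg : Divisor.degree (Finsupp.mapDomain con E₀ : Divisor L F) = Divisor.degree E₀)
    (Δ : Divisor L F) (hΔ : Divisor.degree Δ = 0) :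
    ∃ f : F, f ≠ 0 ∧ f ∈ riemannRochSpace (Δ + Finsupp.mapDomain con E₀) := by
  refine s26etirr_exists_ne_zero _ ?_
  have h := hriemF (Δ + Finsupp.mapDomain con E₀)
  rw [map_add, hΔ, hdeg, hE₀] at h
  linarith

section Deg

variable {k Fb : Type*} [Field k] [Field Fb] [Algebra k Fb]

/-- a principal divisor has degree `0` -/
theorem s26etirr_degree_principal (hpdk : HasPrincipalDivisors k Fb) (E : Divisor k Fb)
    (hE : ∃ φ : Fb, φ ≠ 0 ∧ ∀ Q : Place k Fb, E Q = Q.ord φ) : Divisor.degree E = 0 := by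
  obtain ⟨φ, hφ, hE⟩ := hE
  obtain ⟨Z, hZ, hdeg⟩ := hpdk.exists_divisor φ hφ
  have : E = Z := Finsupp.ext fun v => by rw [hE v, hZ v]
  rw [this, hdeg]

/-- **(deg)**: if `r_* Δ` is principal then `deg Δ = 0` (all places of degree one). -/
theorem s26etirr_degree_zero (r : Place L F → Place k Fb)
    (hresF : ∀ v : Place L F, Function.Bijective (algebraMap L v.ResidueField))
    (hresk : ∀ v : Place k Fb, Function.Bijective (algebraMap k v.ResidueField))
    (hpdk : HasPrincipalDivisors k Fb) (Δ : Divisor L F)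
    (hspec : ∃ φ : Fb, φ ≠ 0 ∧ ∀ Q : Place k Fb, Finsupp.mapDomain r Δ Q = Q.ord φ) :
    Divisor.degree Δ = 0 := by
  rw [← s26era_degree_con r hresF hresk Δ]
  exact s26etirr_degree_principal hpdk _ hspec

/-- **(deg)** for the reduction of places `H.r` of Deuring's dimension count. -/
theorem s26etirr_degree_zero_hyp {R : RedData L F k Fb} {Pinf : Place L F} {Qinf : Place k Fb}
    {g n₀ : ℕ} (H : Hyp R Pinf Qinf g n₀) (Δ : Divisor L F)
    (hspec : ∃ φ : Fb, φ ≠ 0 ∧ ∀ Q : Place k Fb, Finsupp.mapDomain H.r Δ Q = Q.ord φ) :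
    Divisor.degree Δ = 0 :=
  s26etirr_degree_zero H.r H.hresF H.hresk H.hpdk Δ hspec

/-- **(hRR)** with `deg Δ = 0` replaced by "`r_* Δ` is principal" for ONE reduction of places. -/
theorem s26etirr_hRR_of_spec (hpdF : HasPrincipalDivisors L F) (γ : ℕ)
    (hriemF : ∀ D : Divisor L F,
      Divisor.degree D + 1 - γ ≤ (Module.finrank L ↥(riemannRochSpace D) : ℤ))
    (con : Place K Γ → Place L F) (E₀ : Divisor K Γ) (hE₀ : Divisor.degree E₀ = γ)
    (hresK : ∀ v : Place K Γ, Function.Bijective (algebraMap K v.ResidueField))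
    (hresF : ∀ v : Place L F, Function.Bijective (algebraMap L v.ResidueField))
    (r : Place L F → Place k Fb)
    (hresk : ∀ v : Place k Fb, Function.Bijective (algebraMap k v.ResidueField))
    (hpdk : HasPrincipalDivisors k Fb) (Δ : Divisor L F)
    (hspec : ∃ φ : Fb, φ ≠ 0 ∧ ∀ Q : Place k Fb, Finsupp.mapDomain r Δ Q = Q.ord φ) :
    ∃ f : F, f ≠ 0 ∧ f ∈ riemannRochSpace (Δ + Finsupp.mapDomain con E₀) :=
  s26etirr_hRR hpdF γ hriemF con E₀ hE₀ (s26era_degree_con con hresK hresF E₀) Δ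
    (s26etirr_degree_zero r hresF hresk hpdk Δ hspec)

/-- **(hRR)** for `r = H.r`. -/
theorem s26etirr_hRR_of_hyp {R : RedData L F k Fb} {Pinf : Place L F} {Qinf : Place k Fb}
    {g n₀ : ℕ} (H : Hyp R Pinf Qinf g n₀) (γ : ℕ)
    (hriemF : ∀ D : Divisor L F,
      Divisor.degree D + 1 - γ ≤ (Module.finrank L ↥(riemannRochSpace D) : ℤ))
    (con : Place K Γ → Place L F) (E₀ : Divisor K Γ) (hE₀ : Divisor.degree E₀ = γ)
    (hresK : ∀ v : Place K Γ, Function.Bijective (algebraMap K v.ResidueField))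
    (Δ : Divisor L F)
    (hspec : ∃ φ : Fb, φ ≠ 0 ∧ ∀ Q : Place k Fb, Finsupp.mapDomain H.r Δ Q = Q.ord φ) :
    ∃ f : F, f ≠ 0 ∧ f ∈ riemannRochSpace (Δ + Finsupp.mapDomain con E₀) :=
  s26etirr_hRR_of_spec H.hpdF γ hriemF con E₀ hE₀ hresK H.hresF H.r H.hresk H.hpdk Δ hspec

/-! ### The divisor `E₀` on the residue side -/

/-- the conorm of an effective divisor is effective -/
theorem s26etirr_con_nonneg (conk : Place K Γ → Place k Fb) {E₀ : Divisor K Γ} (hE₀ : 0 ≤ E₀) :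
    0 ≤ (Finsupp.mapDomain conk E₀ : Divisor k Fb) := by
  classical
  rw [Finsupp.le_def]
  intro Q
  rw [Finsupp.mapDomain, Finsupp.sum_apply, Finsupp.coe_zero, Pi.zero_apply]
  refine Finset.sum_nonneg fun P _ => ?_
  show 0 ≤ (Finsupp.single (conk P) (E₀ P)) Q
  rw [Finsupp.single_apply]
  split_ifs
  · simpa using Finsupp.le_def.mp hE₀ P
  · exact le_refl _

/-- `1 ∈ L(D)` for `D ≥ 0` -/
theorem s26etirr_one_mem {D : Divisor k Fb} (hD : 0 ≤ D) : (1 : Fb) ∈ riemannRochSpace D := by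
  rw [mem_riemannRochSpace_iff]
  intro v
  right
  rw [Place.ord_one]
  have : 0 ≤ D v := by simpa using Finsupp.le_def.mp hD v
  linarith

/-- **(E₀, residue side)**: `dim_k L_k(Con_k E₀) ≤ 1` ⇒ `L_k(Con_k E₀)` consists of constants. -/
theorem s26etirr_hE0k (conk : Place K Γ → Place k Fb) (E₀ : Divisor K Γ) (hE₀ : 0 ≤ E₀)
    (hfin : Module.Finite k ↥(riemannRochSpace (Finsupp.mapDomain conk E₀ : Divisor k Fb)))
    (hle : finrank k ↥(riemannRochSpace (Finsupp.mapDomain conk E₀ : Divisor k Fb)) ≤ 1) :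
    ∀ w ∈ riemannRochSpace (Finsupp.mapDomain conk E₀ : Divisor k Fb),
      ∃ b : k, w = algebraMap k Fb b := by
  intro w hw
  set W : Submodule k Fb := riemannRochSpace (Finsupp.mapDomain conk E₀ : Divisor k Fb) with hW
  have h1 : (1 : Fb) ∈ W := s26etirr_one_mem (s26etirr_con_nonneg conk hE₀)
  have hne : (⟨1, h1⟩ : ↥W) ≠ 0 := fun h => one_ne_zero (congrArg Subtype.val h)
  have hpos : 0 < finrank k ↥W := by
    haveI : Nontrivial ↥W := ⟨⟨_, _, hne⟩⟩
    exact Module.finrank_pos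
  have hone : finrank k ↥W = 1 := le_antisymm hle hpos
  obtain ⟨b, hb⟩ := (finrank_eq_one_iff_of_nonzero' (⟨1, h1⟩ : ↥W) hne).mp hone ⟨w, hw⟩
  refine ⟨b, ?_⟩
  have := congrArg Subtype.val hb
  simp only [Submodule.coe_smul] at this
  rw [← this, Algebra.smul_def, mul_one]

/-- **(E₀, residue side)** from `dim_K L_K(E₀) = 1` and the semicontinuity (RR-D). -/
theorem s26etirr_hE0k_of_semi (conk : Place K Γ → Place k Fb) (E₀ : Divisor K Γ) (hE₀ : 0 ≤ E₀)
    (hdim : finrank K ↥(riemannRochSpace E₀) = 1)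
    (hfin : Module.Finite k ↥(riemannRochSpace (Finsupp.mapDomain conk E₀ : Divisor k Fb)))
    (hsemi : finrank k ↥(riemannRochSpace (Finsupp.mapDomain conk E₀ : Divisor k Fb)) ≤
      finrank K ↥(riemannRochSpace E₀)) :
    ∀ w ∈ riemannRochSpace (Finsupp.mapDomain conk E₀ : Divisor k Fb),
      ∃ b : k, w = algebraMap k Fb b :=
  s26etirr_hE0k conk E₀ hE₀ hfin (hsemi.trans hdim.le)

/-- **(E₀, residue side)** with finiteness from `HasPrincipalDivisors k Fb` and rational places. -/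
theorem s26etirr_hE0k_of_semi' (conk : Place K Γ → Place k Fb) (E₀ : Divisor K Γ) (hE₀ : 0 ≤ E₀)
    (hdim : finrank K ↥(riemannRochSpace E₀) = 1)
    (hpdk : HasPrincipalDivisors k Fb)
    (hresk : ∀ v : Place k Fb, Function.Bijective (algebraMap k v.ResidueField))
    (Q₀ : Place k Fb)
    (hsemi : finrank k ↥(riemannRochSpace (Finsupp.mapDomain conk E₀ : Divisor k Fb)) ≤
      finrank K ↥(riemannRochSpace E₀)) :
    ∀ w ∈ riemannRochSpace (Finsupp.mapDomain conk E₀ : Divisor k Fb),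
      ∃ b : k, w = algebraMap k Fb b :=
  haveI := hpdk
  s26etirr_hE0k_of_semi conk E₀ hE₀ hdim (rr_finite Q₀ hresk _) hsemi

end Deg

/-! ### The divisor `E₀` of `Γ/K` -/

open IntermediateField in
/-- **(E₀)**: over an algebraically closed `K`, a function field `Γ/K` has a Riemann constant
`γ : ℕ` and an effective divisor `E₀` of degree `γ` with `L_K(E₀) = K`. -/
theorem s26etirr_exists_E0 [IsAlgClosed K] (x : Γ) (hx : Transcendental K x)
    [FiniteDimensional K⟮x⟯ Γ] :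
    ∃ (γ : ℕ) (E₀ : Divisor K Γ),
      (∀ D : Divisor K Γ,
        Divisor.degree D + 1 - γ ≤ (finrank K ↥(riemannRochSpace D) : ℤ)) ∧
      0 ≤ E₀ ∧ Divisor.degree E₀ = γ ∧ finrank K ↥(riemannRochSpace E₀) = 1 := by
  obtain ⟨γ, hγ, -, ⟨E₀, hE0, hdeg, hdim⟩, -⟩ := s26errg_main (K := K) x hx
  obtain ⟨hγ0, hriem, -⟩ := hγ
  refine ⟨γ.toNat, E₀, ?_, hE0, ?_, hdim⟩
  · intro D
    rw [Int.toNat_of_nonneg hγ0]
    exact hriem D
  · rw [Int.toNat_of_nonneg hγ0]
    exact hdeg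

end Fermat.Agent.S26
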