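import Fermat.Agent.S26.ETiRedAt
import Fermat.Agent.S26.ERRGaussCon
import Fermat.Agent.S26.ERedHres
import Fermat.Agent.S26.ERedOutB
import Fermat.Agent.S26.ERRGFinal

/-!
# S26-E, leaf TI-REDAT, the GAUSS layer (helper28): `S26erigRedAt (s26gspCon …) E₀ Δ V`

Both constant extensions in helper96's shape (S26/ERRGaussPlace.lean):

* `F/L` : `[Algebra Γ F] [Algebra L F]`, `hld : Injective (s26gspMu K Γ L F)`,
  `hgen : S26gspGen K Γ L F`; `con := s26gspCon hld hgen hall`;
* `Fb/k`: `[Algebra Γ Fb] [Algebra k Fb]`, `hldk`, `hgenk`; `conk := s26gspCon hldk hgenk hall`;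
  `ιk := algebraMap Γ Fb`;
* `K`, `L`, `k` algebraically closed, `x ∈ Γ` transcendental over `K` with `[Γ : K(x)] < ∞`.

Everything of `s26etir_redAt` (S26/ETiRedAt.lean) which is a property of the two constant
extensions is DISCHARGED here (RR-C shapes helper96, `hres`/`hpd` helper12 + helper79, linear
disjointness helper61, genus helper42).  What is left:

* the Gauss reduction `R : RedData L F k Fb` with `R.A = V`, identity on `Γ`, (Q2)
  (helper12's `s26ergData` through helper93's adapter `s26eriData`);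
* the reduction `R₀ : RedData k Fb K Γ` back to `Γ/K`, identity on `Γ`, (Q2)
  (helper12's `s26erk_exists_data`);
* `E₀ ≥ 0` with `dim L_K(E₀) = 1`;
* (SPEC) for every reduction of places `r` with `S26erigRed R r con conk ιk`.

Main results: `s26etir_hex` (every place with `ord u ≠ 0`, `u ∈ Γ`, is a Gauss place),
`s26etir_red_shape` (`∃ r, S26erigRed …`), **`s26etir_redAt_shape`**.
-/

set_option autoImplicit false
set_option linter.unusedSectionVars false
set_option linter.unusedVariables false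
set_option linter.style.haveILetI false

open AlgebraicCurve Module IntermediateField

namespace Fermat.Agent.S26

open Fermat.Agent.S24 Fermat.Agent.DEU Fermat.Agent.ES.R

section Hex

variable {K 𝔠 𝔎 Ω : Type*} [Field K] [Field 𝔠] [Field 𝔎] [Field Ω]
  [Algebra K 𝔠] [Algebra K 𝔎] [Algebra K Ω] [Algebra 𝔠 Ω] [Algebra 𝔎 Ω]
  [IsScalarTower K 𝔠 Ω] [IsScalarTower K 𝔎 Ω]

/-- a place of `Ω/𝔎` at which some function of `𝔠` has a zero or a pole is a Gauss place -/
theorem s26etir_hex (hld : Function.Injective (s26gspMu K 𝔠 𝔎 Ω)) (hgen : S26gspGen K 𝔠 𝔎 Ω)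
    (hall : ∀ P : Place K 𝔠, Function.Surjective (algebraMap K P.ResidueField))
    (w : Place 𝔎 Ω) (u : 𝔠) (h : w.ord (algebraMap 𝔠 Ω u) ≠ 0) :
    ∃ Q, w = s26gspCon hld hgen hall Q := by
  by_contra hne
  push Not at hne
  exact h (s26gspc_ord_eq_zero hld hgen hall w hne u)

end Hex

section Shape

universe u

variable {K Γ L F k Fb : Type u} [Field K] [Field Γ] [Field L] [Field F] [Field k] [Field Fb]
  [Algebra K Γ] [Algebra K L] [Algebra K F] [Algebra Γ F] [Algebra L F]
  [IsScalarTower K Γ F] [IsScalarTower K L F]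
  [Algebra K k] [Algebra K Fb] [Algebra Γ Fb] [Algebra k Fb]
  [IsScalarTower K Γ Fb] [IsScalarTower K k Fb]

/-- **E-RED at one valuation ring, Gauss shape**: a reduction of places `r` with helper97's
package `S26erigRed R r con conk ιk` for the Gauss place maps `con`, `conk`. -/
theorem s26etir_red_shape [IsAlgClosed K] [IsAlgClosed L] [IsAlgClosed k]
    (hld : Function.Injective (s26gspMu K Γ L F)) (hgen : S26gspGen K Γ L F)
    (hldk : Function.Injective (s26gspMu K Γ k Fb)) (hgenk : S26gspGen K Γ k Fb)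
    (hall : ∀ P : Place K Γ, Function.Surjective (algebraMap K P.ResidueField))
    {x : Γ} (hx : Transcendental K x) [FiniteDimensional K⟮x⟯ Γ]
    (R : RedData L F k Fb)
    (hO : ∀ u : Γ, algebraMap Γ F u ∈ R.O)
    (hred : ∀ u : Γ, R.red ⟨algebraMap Γ F u, hO u⟩ = algebraMap Γ Fb u)
    (hq2 : ∀ W : Submodule L F, Module.Finite L W → finrank L W ≤ finrank k ↥(R.redSpace W))
    (R₀ : RedData k Fb K Γ)
    (hO₀ : ∀ u : Γ, algebraMap Γ Fb u ∈ R₀.O)
    (hred₀ : ∀ u : Γ, R₀.red ⟨algebraMap Γ Fb u, hO₀ u⟩ = u)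
    (hq2₀ : ∀ W : Submodule k Fb, Module.Finite k W →
      finrank k W ≤ finrank K ↥(R₀.redSpace W)) :
    ∃ r : Place L F → Place k Fb,
      S26erigRed R r (s26gspCon hld hgen hall) (s26gspCon hldk hgenk hall) (algebraMap Γ Fb) ∧
      (∀ P, (r P).deg = P.deg) ∧
      (∀ D : Divisor L F,
        R.redSpace (riemannRochSpace D) ≤ riemannRochSpace (Finsupp.mapDomain r D)) := by
  haveI : HasPrincipalDivisors K Γ := s26erh_hpdK hx
  have halg : Algebra.IsAlgebraic K⟮x⟯ Γ := Algebra.IsAlgebraic.of_finite _ _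
  obtain ⟨γ, hγ, -, -, -⟩ := s26errg_main (K := K) x hx
  obtain ⟨P₀⟩ := s26err_nonempty_place (K := K) x hx
  have hγ0 : 0 ≤ γ := hγ.1
  lift γ to ℕ using hγ0
  exact s26etir_red R (algebraMap Γ Fb) hO hred (s26gspCon hld hgen hall)
    (s26gspc_ord_algebraMap hld hgen hall) (s26etir_hex hld hgen hall)
    (s26gspCon hldk hgenk hall) (s26gspc_ord_algebraMap hldk hgenk hall)
    (s26etir_hex hldk hgenk hall)
    (fun v => s26erh_hresK hx halg v) (fun v => s26erh_hres hld hgen hx halg v)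
    (fun v => s26erh_hres hldk hgenk hx halg v) (s26erh_hpd hld hgen hx)
    (s26erh_hpd hldk hgenk hx) (s26erob_hldF hld) (s26erob_hldF hldk) hq2 R₀ hO₀ hred₀ hq2₀ γ hγ
    P₀

/-- **TI-REDAT, Gauss shape**: the package `S26erigRedAt (s26gspCon hld hgen hall) E₀ Δ V`
(= `hz` / `hy` of `s26erig_main_ac` at ONE valuation subring `V` of `L`). -/
theorem s26etir_redAt_shape [IsAlgClosed K] [IsAlgClosed L] [IsAlgClosed k]
    (hld : Function.Injective (s26gspMu K Γ L F)) (hgen : S26gspGen K Γ L F)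
    (hldk : Function.Injective (s26gspMu K Γ k Fb)) (hgenk : S26gspGen K Γ k Fb)
    (hall : ∀ P : Place K Γ, Function.Surjective (algebraMap K P.ResidueField))
    {x : Γ} (hx : Transcendental K x) [FiniteDimensional K⟮x⟯ Γ]
    (V : ValuationSubring L) (R : RedData L F k Fb) (hA : R.A = V)
    (hO : ∀ u : Γ, algebraMap Γ F u ∈ R.O)
    (hred : ∀ u : Γ, R.red ⟨algebraMap Γ F u, hO u⟩ = algebraMap Γ Fb u)
    (hq2 : ∀ W : Submodule L F, Module.Finite L W → finrank L W ≤ finrank k ↥(R.redSpace W))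
    (R₀ : RedData k Fb K Γ)
    (hO₀ : ∀ u : Γ, algebraMap Γ Fb u ∈ R₀.O)
    (hred₀ : ∀ u : Γ, R₀.red ⟨algebraMap Γ Fb u, hO₀ u⟩ = u)
    (hq2₀ : ∀ W : Submodule k Fb, Module.Finite k W →
      finrank k W ≤ finrank K ↥(R₀.redSpace W))
    (E₀ : Divisor K Γ) (hE₀ : 0 ≤ E₀) (hE₀dim : finrank K ↥(riemannRochSpace E₀) = 1)
    (Δ : Divisor L F)
    (hspec : ∀ r : Place L F → Place k Fb,
      S26erigRed R r (s26gspCon hld hgen hall) (s26gspCon hldk hgenk hall) (algebraMap Γ Fb) →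
      ∃ φ : Fb, φ ≠ 0 ∧ ∀ Q : Place k Fb, Finsupp.mapDomain r Δ Q = Q.ord φ) :
    S26erigRedAt (s26gspCon hld hgen hall) E₀ Δ V := by
  haveI : HasPrincipalDivisors K Γ := s26erh_hpdK hx
  have halg : Algebra.IsAlgebraic K⟮x⟯ Γ := Algebra.IsAlgebraic.of_finite _ _
  obtain ⟨γ, hγ, -, -, -⟩ := s26errg_main (K := K) x hx
  obtain ⟨P₀⟩ := s26err_nonempty_place (K := K) x hx
  have hγ0 : 0 ≤ γ := hγ.1
  lift γ to ℕ using hγ0
  exact s26etir_redAt V R hA (algebraMap Γ Fb) hO hred (s26gspCon hld hgen hall)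
    (s26gspc_ord_algebraMap hld hgen hall) (s26etir_hex hld hgen hall)
    (s26gspCon hldk hgenk hall) (s26gspc_ord_algebraMap hldk hgenk hall)
    (s26etir_hex hldk hgenk hall)
    (fun v => s26erh_hresK hx halg v) (fun v => s26erh_hres hld hgen hx halg v)
    (fun v => s26erh_hres hldk hgenk hx halg v) (s26erh_hpd hld hgen hx)
    (s26erh_hpd hldk hgenk hx) (s26erob_hldF hld) (s26erob_hldF hldk) hq2 R₀ hO₀ hred₀ hq2₀ γ hγ
    P₀ E₀ hE₀ hE₀dim Δ hspec

end Shape

end Fermat.Agent.S26
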