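/-
S26-E, the (TI) hub, leaf **(c) INSTANCE TOP** (helper97): the existence of the function of
step (c) of NOTES/S26-E.md §2 for the SQUARE family, in helper96's Gauss shape
(`[Algebra Γ F] [Algebra L F]`, `hld`, `hgen`).

`K`, `L` algebraically closed, `Γ/K` a function field of one variable, `F = Frac (Γ ⊗[K] L)`,
`ν ∈ A(Γ)`, `b ∈ A(L)`, `y = s26ePt f jy`, `z = s26ePt f jz ∈ A(L)` independent generic points,
the four points of the square `Sq(ν_F + b_F; y_F, z_F)` with image in `U`.  Then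

    `∃ G₀ ∈ Fˣ, ∀ P : Place L F, ord_P G₀ = ord_P (Sq(ν_F + b_F; y_F, z_F)(O_P))`.

* `s26etic_at`  : at ONE valuation subring `V` of `L` over `K` with `sp_V z = one` or
  `sp_V y = one`: the reduction package `S26erigRedAt con E₀ Δ V`, and `deg Δ = 0`
  [helper93 `s26eriData` (Gauss reduction, `k = k_V`, `Fb = s26etifOm K Γ k`), helper28
  `s26etir_redAt_shape`, helper95 `s26espec_sq`, `s26espec_sq'`, helper60/helper58 KEY A/B/C];
* `s26etic_exists_spOne` : a valuation subring of `L` over `K` with `sp_V z = one`;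
* `s26etic_top` : the statement above [helper25 `s26etiv_main`, helper96 `s26gspf_hRR`,
  helper8 `s26etirr_exists_E0`, `s26etirr_degree_zero`].
-/
import Fermat.Agent.S26.ETiVal
import Fermat.Agent.S26.ETiRedAtG
import Fermat.Agent.S26.ERedInst
import Fermat.Agent.S26.ERedFb
import Fermat.Agent.S26.ESpecSq
import Fermat.Agent.S26.ESpecKey
import Fermat.Agent.S26.ESpecKeyB
import Fermat.Agent.S26.ETiRR
import Fermat.Agent.S26.ERRGaussHPD
import Fermat.Agent.S26.ETiFields

set_option autoImplicit false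
set_option linter.style.haveILetI false
set_option linter.unusedSectionVars false
set_option linter.unusedVariables false

noncomputable section

namespace Fermat.Agent.S26

open CategoryTheory CategoryTheory.Limits AlgebraicGeometry NeronModelInfra GoodReductionJacobian
open AlgebraicCurve IsLocalRing IntermediateField Module Fermat.Agent.DEU
open scoped TensorProduct

universe u

variable {K : Type u} [Field K] {A : Scheme.{u}} (f : A ⟶ Spec (CommRingCat.of K))
  (G : RelativeGroupLaw K f) [IsIntegral A] [IsLocallyNoetherian A] [IsProper f]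
  {U : A.Opens}
  {Γ L F : Type u} [Field Γ] [Field L] [Field F]
  [Algebra K Γ] [Algebra K L] [Algebra K F] [Algebra Γ F] [Algebra L F]
  [IsScalarTower K Γ F] [IsScalarTower K L F]

/-- **(c) at one valuation ring**: the reduction package along `V`, and `deg Δ = 0`. -/
theorem s26etic_at [IsAlgClosed K] [IsAlgClosed L] (hcomm : G.IsCommutative)
    (hD : S26emLocData U)
    (hld : Function.Injective (s26gspMu K Γ L F)) (hgen : S26gspGen K Γ L F)
    (hall : ∀ P : Place K Γ, Function.Surjective (algebraMap K P.ResidueField))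
    {x : Γ} (hx : Transcendental K x) [FiniteDimensional K⟮x⟯ Γ]
    (ν : s26eptPts f Γ) (b y z : s26eptPts f L)
    (h1 : s26eptPt f (G.mul _ (G.mul _ (s26espSum f G (IsScalarTower.toAlgHom K Γ F)
      (IsScalarTower.toAlgHom K L F) ν b) (s26eptMap f (IsScalarTower.toAlgHom K L F) y))
      (s26eptMap f (IsScalarTower.toAlgHom K L F) z)) ∈ U)
    (h2 : s26eptPt f (s26espSum f G (IsScalarTower.toAlgHom K Γ F)
      (IsScalarTower.toAlgHom K L F) ν b) ∈ U)
    (h3 : s26eptPt f (G.mul _ (s26espSum f G (IsScalarTower.toAlgHom K Γ F)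
      (IsScalarTower.toAlgHom K L F) ν b) (s26eptMap f (IsScalarTower.toAlgHom K L F) y)) ∈ U)
    (h4 : s26eptPt f (G.mul _ (s26espSum f G (IsScalarTower.toAlgHom K Γ F)
      (IsScalarTower.toAlgHom K L F) ν b) (s26eptMap f (IsScalarTower.toAlgHom K L F) z)) ∈ U)
    (E₀ : Divisor K Γ) (hE₀ : 0 ≤ E₀) (hE₀dim : finrank K ↥(riemannRochSpace E₀) = 1)
    (Δ : Divisor L F)
    (hΔ : ∀ P : Place L F, Δ P = P.ord (s26eSq f G U
      (s26espSum f G (IsScalarTower.toAlgHom K Γ F) (IsScalarTower.toAlgHom K L F) ν b)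
      (s26eptMap f (IsScalarTower.toAlgHom K L F) y)
      (s26eptMap f (IsScalarTower.toAlgHom K L F) z) P.toValuationSubring))
    (V : ValuationSubring L) (hV : S26erOver K V)
    (hzy : S26eSpOneV f G z V hV ∨ S26eSpOneV f G y V hV) :
    S26erigRedAt (s26gspCon hld hgen hall) E₀ Δ V ∧ Divisor.degree Δ = 0 := by
  classical
  letI : Algebra K ↥V := s26eAlgV V hV
  haveI : IsScalarTower K ↥V L := s26eAlgV_tower V hV
  haveI : IsAlgClosed (ResidueField ↥V) := s26erf_isAlgClosed V
  have hldk : Function.Injective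
      (s26gspMu K Γ (ResidueField ↥V) (s26etifOm K Γ (ResidueField ↥V))) :=
    s26etif_mu_injective (K := K) (Γ := Γ) (𝔎 := ResidueField ↥V)
  have hgenk : S26gspGen K Γ (ResidueField ↥V) (s26etifOm K Γ (ResidueField ↥V)) :=
    fun ω => s26etif_gen (K := K) (Γ := Γ) (𝔎 := ResidueField ↥V) ω
  have hresK : ∀ c : K, (residue ↥V) ⟨algebraMap K L c, hV c⟩ =
      algebraMap K (ResidueField ↥V) c := fun c => rfl
  have hres : Function.Surjective (residue ↥V) := residue_surjective
  have halg : Algebra.IsAlgebraic K⟮x⟯ Γ := Algebra.IsAlgebraic.of_finite _ _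
  have hresF : ∀ P : Place L F, Function.Bijective (algebraMap L P.ResidueField) :=
    fun v => s26erh_hres hld hgen hx halg v
  have hresk : ∀ Q : Place (ResidueField ↥V) (s26etifOm K Γ (ResidueField ↥V)),
      Function.Bijective (algebraMap (ResidueField ↥V) Q.ResidueField) :=
    fun v => s26erh_hres hldk hgenk hx halg v
  obtain ⟨R₀, -, ⟨hO₀, hred₀⟩, hq2₀, -⟩ := s26eri_exists_data0 (K := K) (Γ := Γ) hldk hgenk
  have hspec : ∀ r : Place L F → Place (ResidueField ↥V) (s26etifOm K Γ (ResidueField ↥V)),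
      S26erigRed (s26eriData hld hgen hldk V hV (residue ↥V) hresK hres) r
        (s26gspCon hld hgen hall) (s26gspCon hldk hgenk hall)
        (algebraMap Γ (s26etifOm K Γ (ResidueField ↥V))) →
      ∃ φ : s26etifOm K Γ (ResidueField ↥V), φ ≠ 0 ∧
        ∀ Q : Place (ResidueField ↥V) (s26etifOm K Γ (ResidueField ↥V)),
          Finsupp.mapDomain r Δ Q = Q.ord φ := by
    intro r hr
    rcases hzy with hz | hy
    · exact s26espec_sq f G hD (s26espk_keyA f G) (s26espc_keyB f G) (s26espk_keyC f)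
        (s26eriData hld hgen hldk V hV (residue ↥V) hresK hres) hV r hr
        (fun P => (hresF P).2) (fun Q => (hresk Q).2) ν b y z hz h1 h2 h3 h4 Δ hΔ
    · exact s26espec_sq' f G hD (s26espk_keyA f G) (s26espc_keyB f G) (s26espk_keyC f)
        (s26eriData hld hgen hldk V hV (residue ↥V) hresK hres) hV r hr
        (fun P => (hresF P).2) (fun Q => (hresk Q).2) hcomm ν b y z hy h1 h2 h3 h4 Δ hΔ
  refine ⟨s26etir_redAt_shape hld hgen hldk hgenk hall hx V
    (s26eriData hld hgen hldk V hV (residue ↥V) hresK hres) rfl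
    (s26eri_mem hld hgen hldk V hV (residue ↥V) hresK hres)
    (s26eri_red hld hgen hldk V hV (residue ↥V) hresK hres)
    (s26eri_q2 hld hgen hldk V hV (residue ↥V) hresK hres)
    R₀ hO₀ hred₀ hq2₀ E₀ hE₀ hE₀dim Δ hspec, ?_⟩
  obtain ⟨r, hr, -, -⟩ := s26etir_red_shape hld hgen hldk hgenk hall hx
    (s26eriData hld hgen hldk V hV (residue ↥V) hresK hres)
    (s26eri_mem hld hgen hldk V hV (residue ↥V) hresK hres)
    (s26eri_red hld hgen hldk V hV (residue ↥V) hresK hres)
    (s26eri_q2 hld hgen hldk V hV (residue ↥V) hresK hres) R₀ hO₀ hred₀ hq2₀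
  exact s26etirr_degree_zero r hresF hresk (s26erh_hpd hldk hgenk hx) Δ (hspec r hr)

omit [IsLocallyNoetherian A] in
/-- a valuation subring of `L` over `K` along which the generic point `s26ePt f j` specialises
to the zero point. -/
theorem s26etic_exists_spOne [IsAlgClosed K] (j : s26F f →ₐ[K] L) :
    ∃ (V : ValuationSubring L) (hV : S26erOver K V), S26eSpOneV f G (s26ePt f j) V hV := by
  have hinj : Function.Injective ((j : s26F f →+* L).comp (s26etivIota f G)) :=
    (j : s26F f →+* L).injective.comp (s26etivIota_injective f G)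
  have hker : RingHom.ker ((j : s26F f →+* L).comp (s26etivIota f G)) ≤
      maximalIdeal (A.presheaf.stalk (s26zero f G)) := by
    rw [(RingHom.injective_iff_ker_eq_bot _).1 hinj]
    exact bot_le
  obtain ⟨V, h1, h2⟩ := s26erig_exists_valuation_over
    ((j : s26F f →+* L).comp (s26etivIota f G))
    (maximalIdeal (A.presheaf.stalk (s26zero f G)))
    (Ideal.IsMaximal.ne_top (maximalIdeal.isMaximal _)) hker
  exact ⟨V, s26etiv_over f G j V h1, s26etiv_spOneV f G j V h1 h2⟩

/-- the order of the square family at the places of `F/L` is a divisor. -/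
theorem s26etic_exists_Delta (hD : S26emLocData U) (hpd : HasPrincipalDivisors L F)
    (a y z : s26eptPts f F)
    (h1 : s26eptPt f (G.mul _ (G.mul _ a y) z) ∈ U) (h2 : s26eptPt f a ∈ U)
    (h3 : s26eptPt f (G.mul _ a y) ∈ U) (h4 : s26eptPt f (G.mul _ a z) ∈ U) :
    ∃ Δ : Divisor L F, ∀ P : Place L F,
      Δ P = P.ord (s26eSq f G U a y z P.toValuationSubring) := by
  obtain ⟨D₁, hD₁⟩ := s26esp_exists_divisor f hD hpd (G.mul _ (G.mul _ a y) z)
  obtain ⟨D₂, hD₂⟩ := s26esp_exists_divisor f hD hpd a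
  obtain ⟨D₃, hD₃⟩ := s26esp_exists_divisor f hD hpd (G.mul _ a y)
  obtain ⟨D₄, hD₄⟩ := s26esp_exists_divisor f hD hpd (G.mul _ a z)
  refine ⟨D₁ + D₂ - (D₃ + D₄), fun P => ?_⟩
  rw [s26esp_ord_sq f G hD P a y z h1 h2 h3 h4, Finsupp.sub_apply, Finsupp.add_apply,
    Finsupp.add_apply, hD₁, hD₂, hD₃, hD₄]

/-- **(c) INSTANCE TOP.**  The function of step (c) for the square family
`Sq(ν_F + b_F; y_F, z_F)`: its divisor on the constant curve `F/L` is the order of the family. -/
theorem s26etic_top [IsAlgClosed K] [IsAlgClosed L] (hcomm : G.IsCommutative)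
    (hD : S26emLocData U)
    (hld : Function.Injective (s26gspMu K Γ L F)) (hgen : S26gspGen K Γ L F)
    {x : Γ} (hx : Transcendental K x) [FiniteDimensional K⟮x⟯ Γ]
    (ν : s26eptPts f Γ) (b : s26eptPts f L)
    (jy jz : s26F f →ₐ[K] L)
    (hind : Function.Injective (Algebra.TensorProduct.productMap jz jy))
    (h1 : s26eptPt f (G.mul _ (G.mul _ (s26espSum f G (IsScalarTower.toAlgHom K Γ F)
      (IsScalarTower.toAlgHom K L F) ν b)
      (s26eptMap f (IsScalarTower.toAlgHom K L F) (s26ePt f jy)))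
      (s26eptMap f (IsScalarTower.toAlgHom K L F) (s26ePt f jz))) ∈ U)
    (h2 : s26eptPt f (s26espSum f G (IsScalarTower.toAlgHom K Γ F)
      (IsScalarTower.toAlgHom K L F) ν b) ∈ U)
    (h3 : s26eptPt f (G.mul _ (s26espSum f G (IsScalarTower.toAlgHom K Γ F)
      (IsScalarTower.toAlgHom K L F) ν b)
      (s26eptMap f (IsScalarTower.toAlgHom K L F) (s26ePt f jy))) ∈ U)
    (h4 : s26eptPt f (G.mul _ (s26espSum f G (IsScalarTower.toAlgHom K Γ F)
      (IsScalarTower.toAlgHom K L F) ν b)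
      (s26eptMap f (IsScalarTower.toAlgHom K L F) (s26ePt f jz))) ∈ U) :
    ∃ G₀ : F, G₀ ≠ 0 ∧ ∀ P : Place L F, P.ord G₀ = P.ord (s26eSq f G U
      (s26espSum f G (IsScalarTower.toAlgHom K Γ F) (IsScalarTower.toAlgHom K L F) ν b)
      (s26eptMap f (IsScalarTower.toAlgHom K L F) (s26ePt f jy))
      (s26eptMap f (IsScalarTower.toAlgHom K L F) (s26ePt f jz)) P.toValuationSubring) := by
  have hall : ∀ P : Place K Γ, Function.Surjective (algebraMap K P.ResidueField) :=
    fun P => s26gspf_hall hx P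
  have hpdF : HasPrincipalDivisors L F := s26gspf_hasPrincipalDivisors hld hgen hx
  have halg : Algebra.IsAlgebraic K⟮x⟯ Γ := Algebra.IsAlgebraic.of_finite _ _
  obtain ⟨Δ, hΔ⟩ := s26etic_exists_Delta f G hD hpdF _ _ _ h1 h2 h3 h4
  obtain ⟨γ, E₀, hriem, hE₀, hdegE₀, hdimE₀⟩ := s26etirr_exists_E0 (K := K) x hx
  have hat := s26etic_at f G hcomm hD hld hgen hall hx ν b (s26ePt f jy) (s26ePt f jz)
    h1 h2 h3 h4 E₀ hE₀ hdimE₀ Δ hΔ
  obtain ⟨V₀, hV₀, hz₀⟩ := s26etic_exists_spOne f G jz
  have hdeg : Divisor.degree Δ = 0 := (hat V₀ hV₀ (Or.inl hz₀)).2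
  have hRR := s26gspf_hRR hld hgen hall hx (γ : ℤ) hriem E₀ (le_of_eq hdegE₀.symm) Δ
    (le_of_eq hdeg.symm)
  obtain ⟨Φ, hΦ, hΦP⟩ := s26etiv_main f G jz jy hind x hx halg
    (s26gspc_transcendental hld hx) (s26gspc_isAlgebraic hgen halg) E₀ Δ
    (s26gspCon hld hgen hall) hpdF (s26gspc_hΓL hld) (s26gspc_hcon hld hgen hall) hRR
    (fun V hV hz => (hat V hV (Or.inl hz)).1) (fun V hV hy => (hat V hV (Or.inr hy)).1)
  exact ⟨Φ, hΦ, fun P => (hΦP P).trans (hΔ P)⟩

end Fermat.Agent.S26

end
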