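/-
S26-E-TI, leaf TI-NV8 (helper24): NON-VANISHING of the EIGHT generators in the setting of
`s26e_StmtTI`, from `s26e_StmtNV` and `s26e_StmtSpStep` (S26/ECInd.lean; proved by helper19's CZ).

Setting of `s26e_StmtTI`: `Γ`, `ν ∈ A(Γ)`, `γ₀`, `W`, `b ∈ A(W)`, `Ω ⊇ Γ, W, 𝔉, 𝔉` with
`((Γ ⊗ W) ⊗ 𝔉) ⊗ 𝔉 → Ω` injective; `p = ν + b`, `y = η_{j₁}`, `z = η_{j₂}`.

Pure algebra:
* `s26etinv_clear`, `s26etinv_loc_injective` : **localisation of independence**: `T ⊗ B → Ω`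
  injective, `W'` the field of fractions of the image of `T` ⇒ `W' ⊗ B → Ω` injective.
Fields:
* `s26etinvW ιΓ ιW : IntermediateField K Ω` : the compositum `W' = K(ιΓ Γ, ιW W)`, with
  `s26etinvPhi : Γ ⊗ W →ₐ[K] W'`, `s26etinvL : Γ →ₐ[K] W'`, `s26etinvR : W →ₐ[K] W'`,
  `s26etinv_frac` (every element of `W'` is a fraction), `s26etinv_indep3`.
Main:
* `s26etinv_b`    : the four generators of `Sq(b; y, z)` do not vanish;
* `s26etinv_p`    : the four generators of `Sq(ν + b; y, z)` do not vanish;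
* `s26etinv_main` : both; `s26etinv_sq_ne_zero` : the two square families do not vanish;
* `s26etinv_mem_of_gen_ne_zero` : `gen(P, ⊤) ≠ 0 ⇒ |P| ∈ U`;
* `s26etinv_mem_U` : the eight points have image in `U`.
-/
import Fermat.Agent.S26.ECInd
import Fermat.Agent.S26.EMRel
import Mathlib.RingTheory.Flat.Basic
import Mathlib.FieldTheory.IntermediateField.Adjoin.Basic

set_option autoImplicit false
set_option linter.style.haveILetI false
set_option linter.unusedSectionVars false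
set_option linter.unusedVariables false

noncomputable section

namespace Fermat.Agent.S26

open CategoryTheory CategoryTheory.Limits AlgebraicGeometry NeronModelInfra GoodReductionJacobian
open scoped TensorProduct
open Algebra.TensorProduct

section Alg

variable {K : Type*} [Field K] {T B W' Ω : Type*} [CommRing T] [CommRing B] [Field W']
  [CommRing Ω] [Algebra K T] [Algebra K B] [Algebra K W'] [Algebra K Ω]

/-- clearing denominators in `W' ⊗ B`, `W'` the field of fractions of the image of `T` -/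
theorem s26etinv_clear (φ : T →ₐ[K] W')
    (hφ : ∀ w : W', ∃ s t : T, φ t ≠ 0 ∧ w = φ s / φ t) (ξ : W' ⊗[K] B) :
    ∃ t : T, φ t ≠ 0 ∧ ∃ ξ₀ : T ⊗[K] B,
      (φ t ⊗ₜ[K] (1 : B)) * ξ = Algebra.TensorProduct.map φ (AlgHom.id K B) ξ₀ := by
  induction ξ using TensorProduct.induction_on with
  | zero => exact ⟨1, by rw [map_one]; exact one_ne_zero, 0, by rw [mul_zero, map_zero]⟩
  | tmul w b =>
    obtain ⟨s, t, ht, rfl⟩ := hφ w
    refine ⟨t, ht, s ⊗ₜ[K] b, ?_⟩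
    rw [Algebra.TensorProduct.tmul_mul_tmul, one_mul, Algebra.TensorProduct.map_tmul,
      AlgHom.id_apply, mul_div_cancel₀ _ ht]
  | add x y hx hy =>
    obtain ⟨t₁, ht₁, x₀, e₁⟩ := hx
    obtain ⟨t₂, ht₂, y₀, e₂⟩ := hy
    refine ⟨t₁ * t₂, by rw [map_mul]; exact mul_ne_zero ht₁ ht₂,
      (t₂ ⊗ₜ[K] (1 : B)) * x₀ + (t₁ ⊗ₜ[K] (1 : B)) * y₀, ?_⟩
    have h12 : (φ (t₁ * t₂) ⊗ₜ[K] (1 : B)) =
        (φ t₂ ⊗ₜ[K] (1 : B)) * (φ t₁ ⊗ₜ[K] (1 : B)) := by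
      rw [Algebra.TensorProduct.tmul_mul_tmul, one_mul, map_mul, mul_comm]
    have h21 : (φ (t₁ * t₂) ⊗ₜ[K] (1 : B)) =
        (φ t₁ ⊗ₜ[K] (1 : B)) * (φ t₂ ⊗ₜ[K] (1 : B)) := by
      rw [Algebra.TensorProduct.tmul_mul_tmul, one_mul, map_mul]
    have hm : ∀ t : T, Algebra.TensorProduct.map φ (AlgHom.id K B) (t ⊗ₜ[K] (1 : B)) =
        φ t ⊗ₜ[K] (1 : B) := fun t => by
      rw [Algebra.TensorProduct.map_tmul, map_one]
    have R : Algebra.TensorProduct.map φ (AlgHom.id K B)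
        ((t₂ ⊗ₜ[K] (1 : B)) * x₀ + (t₁ ⊗ₜ[K] (1 : B)) * y₀) =
        (φ t₂ ⊗ₜ[K] (1 : B)) * ((φ t₁ ⊗ₜ[K] (1 : B)) * x) +
          (φ t₁ ⊗ₜ[K] (1 : B)) * ((φ t₂ ⊗ₜ[K] (1 : B)) * y) := by
      rw [map_add, map_mul, map_mul, hm, hm, ← e₁, ← e₂]
    have L1 : (φ (t₁ * t₂) ⊗ₜ[K] (1 : B)) * x =
        (φ t₂ ⊗ₜ[K] (1 : B)) * ((φ t₁ ⊗ₜ[K] (1 : B)) * x) := by
      rw [h12, mul_assoc]
    have L2 : (φ (t₁ * t₂) ⊗ₜ[K] (1 : B)) * y =
        (φ t₁ ⊗ₜ[K] (1 : B)) * ((φ t₂ ⊗ₜ[K] (1 : B)) * y) := by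
      rw [h21, mul_assoc]
    rw [mul_add, L1, L2, R]

/-- **localisation of independence**: if `T ⊗ B → Ω` is injective and `W'` is the field of
fractions of the image of `T`, then `W' ⊗ B → Ω` is injective. -/
theorem s26etinv_loc_injective (φ : T →ₐ[K] W')
    (hφ : ∀ w : W', ∃ s t : T, φ t ≠ 0 ∧ w = φ s / φ t) (ι' : W' →ₐ[K] Ω) (j : B →ₐ[K] Ω)
    (h : Function.Injective (productMap (ι'.comp φ) j)) :
    Function.Injective (productMap ι' j) := by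
  rw [injective_iff_map_eq_zero]
  intro ξ hξ
  obtain ⟨t, ht, ξ₀, e⟩ := s26etinv_clear φ hφ ξ
  have e1 : productMap (ι'.comp φ) j =
      (productMap ι' j).comp (Algebra.TensorProduct.map φ (AlgHom.id K B)) := by
    apply Algebra.TensorProduct.ext'
    intro a b
    simp
  have h0 : productMap (ι'.comp φ) j ξ₀ = 0 := by
    rw [e1, AlgHom.comp_apply, ← e, map_mul, hξ, mul_zero]
  have hξ₀ : ξ₀ = 0 := (injective_iff_map_eq_zero _).1 h ξ₀ h0
  rw [hξ₀, map_zero] at e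
  have : ((φ t)⁻¹ ⊗ₜ[K] (1 : B)) * ((φ t ⊗ₜ[K] (1 : B)) * ξ) = ξ := by
    rw [← mul_assoc, Algebra.TensorProduct.tmul_mul_tmul, inv_mul_cancel₀ ht, one_mul,
      ← Algebra.TensorProduct.one_def, one_mul]
  rw [← this, e, mul_zero]

end Alg

section Fields

variable {K : Type*} [Field K] {Γ W Ω : Type*} [Field Γ] [Algebra K Γ] [Field W] [Algebra K W]
  [Field Ω] [Algebra K Ω] (ιΓ : Γ →ₐ[K] Ω) (ιW : W →ₐ[K] Ω)

/-- the compositum of `Γ` and `W` in `Ω` -/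
def s26etinvW : IntermediateField K Ω :=
  IntermediateField.adjoin K (Set.range (productMap ιΓ ιW))

/-- `Γ ⊗ W → W'` -/
def s26etinvPhi : Γ ⊗[K] W →ₐ[K] ↥(s26etinvW ιΓ ιW) :=
  (productMap ιΓ ιW).codRestrict (s26etinvW ιΓ ιW).toSubalgebra
    (fun x => IntermediateField.subset_adjoin K _ ⟨x, rfl⟩)

theorem s26etinvPhi_coe (x : Γ ⊗[K] W) :
    ((s26etinvPhi ιΓ ιW x : ↥(s26etinvW ιΓ ιW)) : Ω) = productMap ιΓ ιW x := rfl

theorem s26etinv_val_comp_phi :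
    (s26etinvW ιΓ ιW).val.comp (s26etinvPhi ιΓ ιW) = productMap ιΓ ιW :=
  AlgHom.ext fun _ => rfl

/-- every element of `W'` is a fraction of elements of the image of `Γ ⊗ W` -/
theorem s26etinv_frac (w : ↥(s26etinvW ιΓ ιW)) :
    ∃ s t : Γ ⊗[K] W, s26etinvPhi ιΓ ιW t ≠ 0 ∧
      w = s26etinvPhi ιΓ ιW s / s26etinvPhi ιΓ ιW t := by
  have hw : (w : Ω) ∈ IntermediateField.adjoin K (Set.range (productMap ιΓ ιW)) := w.2
  rw [IntermediateField.mem_adjoin_iff_div] at hw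
  obtain ⟨r, hr, s, hs, e⟩ := hw
  have hadj : Algebra.adjoin K (Set.range (productMap ιΓ ιW)) = (productMap ιΓ ιW).range := by
    rw [← AlgHom.coe_range]
    exact Algebra.adjoin_eq _
  rw [hadj] at hr hs
  obtain ⟨a, rfl⟩ := hr
  obtain ⟨c, rfl⟩ := hs
  have e' : (w : Ω) = productMap ιΓ ιW a / productMap ιΓ ιW c := e
  by_cases hc : productMap ιΓ ιW c = 0
  · refine ⟨0, 1, ?_, ?_⟩
    · rw [map_one]
      exact one_ne_zero
    · apply Subtype.ext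
      rw [e', hc, div_zero, map_zero, zero_div]
      rfl
  · refine ⟨a, c, ?_, ?_⟩
    · intro h0
      apply hc
      exact congrArg (fun z : ↥(s26etinvW ιΓ ιW) => (z : Ω)) h0
    · apply Subtype.ext
      rw [e']
      rfl

/-- `Γ → W'` -/
def s26etinvL : Γ →ₐ[K] ↥(s26etinvW ιΓ ιW) :=
  (s26etinvPhi ιΓ ιW).comp (includeLeft : Γ →ₐ[K] Γ ⊗[K] W)

/-- `W → W'` -/
def s26etinvR : W →ₐ[K] ↥(s26etinvW ιΓ ιW) :=
  (s26etinvPhi ιΓ ιW).comp (includeRight : W →ₐ[K] Γ ⊗[K] W)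

theorem s26etinv_val_comp_L : (s26etinvW ιΓ ιW).val.comp (s26etinvL ιΓ ιW) = ιΓ := by
  ext γ
  show productMap ιΓ ιW (γ ⊗ₜ[K] (1 : W)) = ιΓ γ
  rw [productMap_apply_tmul, map_one, mul_one]

theorem s26etinv_val_comp_R : (s26etinvW ιΓ ιW).val.comp (s26etinvR ιΓ ιW) = ιW := by
  ext w
  show productMap ιΓ ιW ((1 : Γ) ⊗ₜ[K] w) = ιW w
  rw [productMap_apply_tmul, map_one, one_mul]

theorem s26etinv_productMap_LR :
    productMap (s26etinvL ιΓ ιW) (s26etinvR ιΓ ιW) = s26etinvPhi ιΓ ιW := by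
  apply Algebra.TensorProduct.ext'
  intro a c
  rw [productMap_apply_tmul]
  show s26etinvPhi ιΓ ιW (a ⊗ₜ[K] (1 : W)) * s26etinvPhi ιΓ ιW ((1 : Γ) ⊗ₜ[K] c) = _
  rw [← map_mul, Algebra.TensorProduct.tmul_mul_tmul, mul_one, one_mul]

theorem s26etinvPhi_injective (h : Function.Injective (productMap ιΓ ιW)) :
    Function.Injective (s26etinvPhi ιΓ ιW) := fun x y hxy =>
  h (congrArg (fun z : ↥(s26etinvW ιΓ ιW) => (z : Ω)) hxy)

theorem s26etinv_productMap_LR_injective (h : Function.Injective (productMap ιΓ ιW)) :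
    Function.Injective (productMap (s26etinvL ιΓ ιW) (s26etinvR ιΓ ιW)) := by
  rw [s26etinv_productMap_LR]
  exact s26etinvPhi_injective ιΓ ιW h

variable {B₁ B₂ : Type*} [Field B₁] [Algebra K B₁] [Field B₂] [Algebra K B₂]
  (j₁ : B₁ →ₐ[K] Ω) (j₂ : B₂ →ₐ[K] Ω)

/-- the restriction of the four-fold independence to `Γ ⊗ W` -/
theorem s26etinv_inj2
    (h4 : Function.Injective (productMap (productMap (productMap ιΓ ιW) j₁) j₂)) :
    Function.Injective (productMap ιΓ ιW) := by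
  have hB₁ : Function.Injective (algebraMap K B₁) := (algebraMap K B₁).injective
  have hB₂ : Function.Injective (algebraMap K B₂) := (algebraMap K B₂).injective
  have h1 : Function.Injective (includeLeft : Γ ⊗[K] W →ₐ[K] (Γ ⊗[K] W) ⊗[K] B₁) :=
    Algebra.TensorProduct.includeLeft_injective hB₁
  have h2 : Function.Injective
      (includeLeft : (Γ ⊗[K] W) ⊗[K] B₁ →ₐ[K] ((Γ ⊗[K] W) ⊗[K] B₁) ⊗[K] B₂) :=
    Algebra.TensorProduct.includeLeft_injective hB₂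
  intro x y hxy
  apply h1
  apply h2
  apply h4
  show productMap (productMap (productMap ιΓ ιW) j₁) j₂ ((x ⊗ₜ[K] (1 : B₁)) ⊗ₜ[K] (1 : B₂)) =
    productMap (productMap (productMap ιΓ ιW) j₁) j₂ ((y ⊗ₜ[K] (1 : B₁)) ⊗ₜ[K] (1 : B₂))
  rw [productMap_apply_tmul, productMap_apply_tmul, productMap_apply_tmul,
    productMap_apply_tmul, map_one, map_one, mul_one, mul_one, mul_one, mul_one]
  exact hxy

/-- the restriction of the four-fold independence to `(W ⊗ B₁) ⊗ B₂` -/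
theorem s26etinv_indep3_right
    (h4 : Function.Injective (productMap (productMap (productMap ιΓ ιW) j₁) j₂)) :
    Function.Injective (productMap (productMap ιW j₁) j₂) := by
  have hΓ : Function.Injective (algebraMap K Γ) := (algebraMap K Γ).injective
  have hR : Function.Injective (includeRight : W →ₐ[K] Γ ⊗[K] W) :=
    Algebra.TensorProduct.includeRight_injective hΓ
  have h := s26etp_indep3_pre (productMap ιΓ ιW) j₁ j₂ (includeRight : W →ₐ[K] Γ ⊗[K] W)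
    (AlgHom.id K B₁) (AlgHom.id K B₂) hR (fun _ _ h => h) (fun _ _ h => h) h4
  have e : (productMap ιΓ ιW).comp (includeRight : W →ₐ[K] Γ ⊗[K] W) = ιW := by
    ext w
    show productMap ιΓ ιW ((1 : Γ) ⊗ₜ[K] w) = ιW w
    rw [productMap_apply_tmul, map_one, one_mul]
  rw [e, AlgHom.comp_id, AlgHom.comp_id] at h
  exact h

/-- **the compositum is independent of the two generic points** -/
theorem s26etinv_indep3
    (h4 : Function.Injective (productMap (productMap (productMap ιΓ ιW) j₁) j₂)) :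
    Function.Injective (productMap (productMap (s26etinvW ιΓ ιW).val j₁) j₂) := by
  rw [s26etp_indep3_assoc]
  apply s26etinv_loc_injective (s26etinvPhi ιΓ ιW) (s26etinv_frac ιΓ ιW)
  rw [s26etinv_val_comp_phi, ← s26etp_indep3_assoc]
  exact h4

end Fields


section Conc

universe u

variable {K : Type u} [Field K] {A : Scheme.{u}} (f : A ⟶ Spec (CommRingCat.of K))
  (G : RelativeGroupLaw K f)

section Top

variable {Ω : Type u} [Field Ω] [Algebra K Ω]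
variable [IsIntegral A] [IsLocallyNoetherian A] [IsProper f] {U : A.Opens}

/-- the valuation of `⊤` is trivial -/
theorem s26etinv_val_top {a : Ω} (h0 : a ≠ 0) : (⊤ : ValuationSubring Ω).valuation a = 1 := by
  have h1 : (⊤ : ValuationSubring Ω).valuation a ≤ 1 :=
    ((⊤ : ValuationSubring Ω).valuation_le_one_iff a).2 (ValuationSubring.mem_top _)
  have h2 : (⊤ : ValuationSubring Ω).valuation a⁻¹ ≤ 1 :=
    ((⊤ : ValuationSubring Ω).valuation_le_one_iff _).2 (ValuationSubring.mem_top _)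
  rw [map_inv₀] at h2
  have hv0 : (⊤ : ValuationSubring Ω).valuation a ≠ 0 :=
    ((⊤ : ValuationSubring Ω).valuation.ne_zero_iff).2 h0
  exact le_antisymm h1 ((inv_le_one₀ (zero_lt_iff.2 hv0)).1 h2)

/-- a point whose generator at the trivial valuation ring does not vanish has image in `U` -/
theorem s26etinv_mem_of_gen_ne_zero (hD : S26emLocData U) (P : s26eptPts f Ω)
    (h : s26eGen f U P (⊤ : ValuationSubring Ω) ≠ 0) : s26eptPt f P ∈ U := by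
  have hV : S26erOver K (⊤ : ValuationSubring Ω) := fun a => ValuationSubring.mem_top _
  letI := s26emAlg (⊤ : ValuationSubring Ω) hV
  haveI := s26emAlg_tower (⊤ : ValuationSubring Ω) hV
  have h1 : (⊤ : ValuationSubring Ω).valuation (s26emFam f U P ⊤) = 1 := s26etinv_val_top h
  have h2 := (s26emr_val_eq_one_iff f hD P ⊤ hV).1 h1
  exact s26eptCentre_mem f Ω (⊤ : ValuationSubring Ω) P U h2

end Top

section Main

variable (hNV : s26e_StmtNV.{u}) (hSp : s26e_StmtSpStep.{u})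
  (g : ℕ) (hyp : S26Hyp K f G g) [IsIntegral A] [IsLocallyNoetherian A] [IsProper f]
  (U : A.Opens) (hU : S26IsAdm f G U) (hD : S26emLocData U)
  {Γ : Type u} [Field Γ] [Algebra K Γ] (ν : s26eptPts f Γ) (γ₀ : AlgebraicCurve.Place K Γ)
  (hν : S26eSpOneAt f G ν γ₀)
  {W : Type u} [Field W] [Algebra K W] (b : s26eptPts f W) (hb : S26eSpOne f G b)
  {Ω : Type u} [Field Ω] [Algebra K Ω] (ιΓ : Γ →ₐ[K] Ω) (ιW : W →ₐ[K] Ω)
  (j₁ j₂ : s26F f →ₐ[K] Ω)
  (h4 : Function.Injective (productMap (productMap (productMap ιΓ ιW) j₁) j₂))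

include hNV hyp hU hD hb h4 in
/-- the four generators of `Sq(b; y, z)` do not vanish -/
theorem s26etinv_b (V : ValuationSubring Ω) (hV : S26erOver K V) :
    s26eGen f U (G.mul _ (G.mul _ (s26eptMap f ιW b) (s26ePt f j₁)) (s26ePt f j₂)) V ≠ 0 ∧
    s26eGen f U (s26eptMap f ιW b) V ≠ 0 ∧
    s26eGen f U (G.mul _ (s26eptMap f ιW b) (s26ePt f j₁)) V ≠ 0 ∧
    s26eGen f U (G.mul _ (s26eptMap f ιW b) (s26ePt f j₂)) V ≠ 0 :=
  hNV K f G g hyp U hU hD W b hb Ω ιW j₁ j₂ (s26etinv_indep3_right ιΓ ιW j₁ j₂ h4) V hV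

include hSp hyp hν hb h4 in
/-- `ν + b ∈ A(W')` specialises to the zero point -/
theorem s26etinv_spOne :
    S26eSpOne f G (G.mul _ (s26eptMap f (s26etinvL ιΓ ιW) ν)
      (s26eptMap f (s26etinvR ιΓ ιW) b)) :=
  hSp K f G g hyp W b hb Γ ν γ₀ hν ↥(s26etinvW ιΓ ιW) (s26etinvL ιΓ ιW) (s26etinvR ιΓ ιW)
    (s26etinv_productMap_LR_injective ιΓ ιW (s26etinv_inj2 ιΓ ιW j₁ j₂ h4))

/-- the image of `ν + b ∈ A(W')` in `A(Ω)` -/
theorem s26etinv_map_p :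
    s26eptMap f (s26etinvW ιΓ ιW).val (G.mul _ (s26eptMap f (s26etinvL ιΓ ιW) ν)
      (s26eptMap f (s26etinvR ιΓ ιW) b)) =
      G.mul _ (s26eptMap f ιΓ ν) (s26eptMap f ιW b) := by
  have e : s26eptMap f (s26etinvW ιΓ ιW).val (G.mul _ (s26eptMap f (s26etinvL ιΓ ιW) ν)
      (s26eptMap f (s26etinvR ιΓ ιW) b)) =
      G.mul _ (s26eptMap f ((s26etinvW ιΓ ιW).val.comp (s26etinvL ιΓ ιW)) ν)
        (s26eptMap f ((s26etinvW ιΓ ιW).val.comp (s26etinvR ιΓ ιW)) b) := by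
    rw [s26eptMap_mul, s26eptMap_comp, s26eptMap_comp]
  rw [e, s26etinv_val_comp_L, s26etinv_val_comp_R]

include hNV hSp hyp hU hD hν hb h4 in
/-- the four generators of `Sq(ν + b; y, z)` do not vanish -/
theorem s26etinv_p (V : ValuationSubring Ω) (hV : S26erOver K V) :
    s26eGen f U (G.mul _ (G.mul _ (G.mul _ (s26eptMap f ιΓ ν) (s26eptMap f ιW b))
      (s26ePt f j₁)) (s26ePt f j₂)) V ≠ 0 ∧
    s26eGen f U (G.mul _ (s26eptMap f ιΓ ν) (s26eptMap f ιW b)) V ≠ 0 ∧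
    s26eGen f U (G.mul _ (G.mul _ (s26eptMap f ιΓ ν) (s26eptMap f ιW b)) (s26ePt f j₁)) V ≠ 0 ∧
    s26eGen f U (G.mul _ (G.mul _ (s26eptMap f ιΓ ν) (s26eptMap f ιW b)) (s26ePt f j₂)) V ≠ 0 := by
  have h := hNV K f G g hyp U hU hD ↥(s26etinvW ιΓ ιW) _
    (s26etinv_spOne f G hSp g hyp ν γ₀ hν b hb ιΓ ιW j₁ j₂ h4) Ω (s26etinvW ιΓ ιW).val j₁ j₂
    (s26etinv_indep3 ιΓ ιW j₁ j₂ h4) V hV
  rw [s26etinv_map_p] at h
  exact h

include hNV hSp hyp hU hD hν hb h4 in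
/-- **TI-NV8**: the eight generators do not vanish. -/
theorem s26etinv_main (V : ValuationSubring Ω) (hV : S26erOver K V) :
    (s26eGen f U (G.mul _ (G.mul _ (G.mul _ (s26eptMap f ιΓ ν) (s26eptMap f ιW b))
        (s26ePt f j₁)) (s26ePt f j₂)) V ≠ 0 ∧
      s26eGen f U (G.mul _ (s26eptMap f ιΓ ν) (s26eptMap f ιW b)) V ≠ 0 ∧
      s26eGen f U (G.mul _ (G.mul _ (s26eptMap f ιΓ ν) (s26eptMap f ιW b)) (s26ePt f j₁)) V ≠ 0 ∧
      s26eGen f U (G.mul _ (G.mul _ (s26eptMap f ιΓ ν) (s26eptMap f ιW b)) (s26ePt f j₂)) V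
        ≠ 0) ∧
    (s26eGen f U (G.mul _ (G.mul _ (s26eptMap f ιW b) (s26ePt f j₁)) (s26ePt f j₂)) V ≠ 0 ∧
      s26eGen f U (s26eptMap f ιW b) V ≠ 0 ∧
      s26eGen f U (G.mul _ (s26eptMap f ιW b) (s26ePt f j₁)) V ≠ 0 ∧
      s26eGen f U (G.mul _ (s26eptMap f ιW b) (s26ePt f j₂)) V ≠ 0) :=
  ⟨s26etinv_p f G hNV hSp g hyp U hU hD ν γ₀ hν b hb ιΓ ιW j₁ j₂ h4 V hV,
    s26etinv_b f G hNV g hyp U hU hD b hb ιΓ ιW j₁ j₂ h4 V hV⟩

include hNV hSp hyp hU hD hν hb h4 in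
/-- the two square families of (TI) do not vanish -/
theorem s26etinv_sq_ne_zero (V : ValuationSubring Ω) (hV : S26erOver K V) :
    s26eSq f G U (G.mul _ (s26eptMap f ιΓ ν) (s26eptMap f ιW b)) (s26ePt f j₁) (s26ePt f j₂) V
      ≠ 0 ∧
    s26eSq f G U (s26eptMap f ιW b) (s26ePt f j₁) (s26ePt f j₂) V ≠ 0 :=
  ⟨s26ecind_sq_ne_zero f G U _ _ _ V
      (s26etinv_p f G hNV hSp g hyp U hU hD ν γ₀ hν b hb ιΓ ιW j₁ j₂ h4 V hV),
    s26ecind_sq_ne_zero f G U _ _ _ V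
      (s26etinv_b f G hNV g hyp U hU hD b hb ιΓ ιW j₁ j₂ h4 V hV)⟩

include hNV hSp hyp hU hD hν hb h4 in
/-- **the eight points have image in `U`.** -/
theorem s26etinv_mem_U :
    (s26eptPt f (G.mul _ (G.mul _ (G.mul _ (s26eptMap f ιΓ ν) (s26eptMap f ιW b))
        (s26ePt f j₁)) (s26ePt f j₂)) ∈ U ∧
      s26eptPt f (G.mul _ (s26eptMap f ιΓ ν) (s26eptMap f ιW b)) ∈ U ∧
      s26eptPt f (G.mul _ (G.mul _ (s26eptMap f ιΓ ν) (s26eptMap f ιW b)) (s26ePt f j₁)) ∈ U ∧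
      s26eptPt f (G.mul _ (G.mul _ (s26eptMap f ιΓ ν) (s26eptMap f ιW b)) (s26ePt f j₂)) ∈ U) ∧
    (s26eptPt f (G.mul _ (G.mul _ (s26eptMap f ιW b) (s26ePt f j₁)) (s26ePt f j₂)) ∈ U ∧
      s26eptPt f (s26eptMap f ιW b) ∈ U ∧
      s26eptPt f (G.mul _ (s26eptMap f ιW b) (s26ePt f j₁)) ∈ U ∧
      s26eptPt f (G.mul _ (s26eptMap f ιW b) (s26ePt f j₂)) ∈ U) := by
  have hV : S26erOver K (⊤ : ValuationSubring Ω) := fun a => ValuationSubring.mem_top _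
  obtain ⟨⟨p1, p2, p3, p4⟩, ⟨b1, b2, b3, b4⟩⟩ :=
    s26etinv_main f G hNV hSp g hyp U hU hD ν γ₀ hν b hb ιΓ ιW j₁ j₂ h4 ⊤ hV
  exact ⟨⟨s26etinv_mem_of_gen_ne_zero f hD _ p1, s26etinv_mem_of_gen_ne_zero f hD _ p2,
      s26etinv_mem_of_gen_ne_zero f hD _ p3, s26etinv_mem_of_gen_ne_zero f hD _ p4⟩,
    ⟨s26etinv_mem_of_gen_ne_zero f hD _ b1, s26etinv_mem_of_gen_ne_zero f hD _ b2,
      s26etinv_mem_of_gen_ne_zero f hD _ b3, s26etinv_mem_of_gen_ne_zero f hD _ b4⟩⟩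

end Main

end Conc

end Fermat.Agent.S26
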