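/-
S26-E, the (TI) hub (helper82): the INTERMEDIATE statement of translation invariance.

`s26e_StmtTI` (S26/PlanE2.lean) is stated in an arbitrary field `Ω` containing `Γ`, `W` and two
generic points, all independent.  The pieces (c) = E-RIG and (d) = E-VERT work in
`F = Frac (Γ ⊗[K] L)` with `L` ALGEBRAICALLY CLOSED (helper97, helper38, helper12).

* `s26eti_StmtTIF` : (TI) over `F = Frac (Γ ⊗[K] L)`, `L ⊇ W, 𝔉, 𝔉` algebraically closed:
  the family `Sq(ν + b; y, z) / Sq(b; y, z)` itself (no power) is a relation in `F`.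
  [target of the (c) + (d) instance; ledger NOTES/S26-E-TI.md]

The reduction `s26eti_StmtTIF → s26e_StmtTI` (fields: S26/ETiFields.lean helper33; descent:
S26/ETiDesc.lean helper21, S26/EMRel.lean helper68) is `S26/ETiTop.lean`.
-/
import Fermat.Agent.S26.PlanE2

set_option autoImplicit false
set_option linter.style.haveILetI false

noncomputable section

namespace Fermat.Agent.S26

open CategoryTheory CategoryTheory.Limits AlgebraicGeometry NeronModelInfra GoodReductionJacobian
open scoped TensorProduct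

universe u

/-- **(TI) over `F = Frac (Γ ⊗[K] L)`**, `L` algebraically closed.  `Γ/K` a curve, `ν ∈ A(Γ)` with
`ν(γ₀) = 0`; `W ⊇ K` a field, `b ∈ A(W)` specialising to `0`; `L` an algebraically closed field
containing `W` and two generic points `y, z`, all independent; `F` a field generated by `Γ` and
`L`, linearly disjoint over `K`.  Then `Sq(ν + b; y, z) / Sq(b; y, z)` is a relation in `F`. -/
def s26eti_StmtTIF : Prop :=
  ∀ (K : Type u) [Field K] {A : Scheme.{u}} (f : A ⟶ Spec (CommRingCat.of K))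
    (G : RelativeGroupLaw K f) (g : ℕ), S26Hyp K f G g →
    ∀ [IsIntegral A] [IsLocallyNoetherian A] [IsProper f] (U : A.Opens), S26IsAdm f G U →
    S26emLocData U →
    ∀ (Γ : Type u) [Field Γ] [Algebra K Γ], S26eIsCurve K Γ →
    ∀ (ν : s26eptPts f Γ) (γ₀ : AlgebraicCurve.Place K Γ), S26eSpOneAt f G ν γ₀ →
    ∀ (W : Type u) [Field W] [Algebra K W] (b : s26eptPts f W), S26eSpOne f G b →
    ∀ (L : Type u) [Field L] [Algebra K L] [IsAlgClosed L] (ιW : W →ₐ[K] L)
      (j₁ j₂ : s26F f →ₐ[K] L),
      Function.Injective (Algebra.TensorProduct.productMap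
        (Algebra.TensorProduct.productMap ιW j₁) j₂) →
    ∀ (F : Type u) [Field F] [Algebra K F] (ιΓ : Γ →ₐ[K] F) (ιL : L →ₐ[K] F),
      Function.Injective (Algebra.TensorProduct.productMap ιΓ ιL) →
      (∀ x : F, ∃ s t : Γ ⊗[K] L, Algebra.TensorProduct.productMap ιΓ ιL t ≠ 0 ∧
        x = Algebra.TensorProduct.productMap ιΓ ιL s /
          Algebra.TensorProduct.productMap ιΓ ιL t) →
      ∃ Gf : F, S26erIsRel K (fun V =>
        s26eSq f G U (G.mul _ (s26eptMap f ιΓ ν) (s26eptMap f (ιL.comp ιW) b))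
            (s26ePt f (ιL.comp j₁)) (s26ePt f (ιL.comp j₂)) V /
          s26eSq f G U (s26eptMap f (ιL.comp ιW) b)
            (s26ePt f (ιL.comp j₁)) (s26ePt f (ιL.comp j₂)) V) Gf

end Fermat.Agent.S26

end
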