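/-
S26-E, the (TI) hub (helper82): the intermediate statement of translation invariance in the
CONCRETE model `F = s26etifOm K Γ L = FractionRing (Γ ⊗[K] L)` (helper33, S26/ETiFields.lean).

* `s26eti_StmtTIFc` : (TI) over `F = Frac (Γ ⊗[K] L)`, `L` algebraically closed, in helper33's
  model: the family `Sq(ν + b; y, z) / Sq(b; y, z)` is a relation in `F`.
  This is the statement delivered by the (c) + (d) instance (helper57, helper97) and consumed by
  the reduction `S26/ETiTop.lean`.
* `s26eti_tifc_of_tif : s26eti_StmtTIF → s26eti_StmtTIFc` (the abstract form implies the concrete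
  one).
-/
import Fermat.Agent.S26.ETiPlan
import Fermat.Agent.S26.ETiFields

set_option autoImplicit false
set_option linter.style.haveILetI false

noncomputable section

namespace Fermat.Agent.S26

open CategoryTheory CategoryTheory.Limits AlgebraicGeometry NeronModelInfra GoodReductionJacobian
open scoped TensorProduct

universe u

/-- **(TI) over `F = s26etifOm K Γ L`**, `L` algebraically closed (concrete model). -/
def s26eti_StmtTIFc : Prop :=
  ∀ (K : Type u) [Field K] [IsAlgClosed K] {A : Scheme.{u}} (f : A ⟶ Spec (CommRingCat.of K))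
    (G : RelativeGroupLaw K f) (g : ℕ), S26Hyp K f G g →
    ∀ [IsIntegral A] [IsLocallyNoetherian A] [IsProper f] (U : A.Opens), S26IsAdm f G U →
    S26emLocData U →
    ∀ (Γ : Type u) [Field Γ] [Algebra K Γ], S26eIsCurve K Γ →
    ∀ (ν : s26eptPts f Γ) (γ₀ : AlgebraicCurve.Place K Γ), S26eSpOneAt f G ν γ₀ →
    ∀ (W : Type u) [Field W] [Algebra K W] (b : s26eptPts f W), S26eSpOne f G b →
    ∀ (L : Type u) [Field L] [Algebra K L] [IsAlgClosed L] (ιW : W →ₐ[K] L)
      (j₁ j₂ : s26F f →ₐ[K] L),
      Function.Injective (Algebra.TensorProduct.productMap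
        (Algebra.TensorProduct.productMap ιW j₁) j₂) →
      ∃ Gf : s26etifOm K Γ L, S26erIsRel K (fun V =>
        s26eSq f G U (G.mul _ (s26eptMap f (s26etifL K Γ L) ν)
              (s26eptMap f ((s26etifR K Γ L).comp ιW) b))
            (s26ePt f ((s26etifR K Γ L).comp j₁)) (s26ePt f ((s26etifR K Γ L).comp j₂)) V /
          s26eSq f G U (s26eptMap f ((s26etifR K Γ L).comp ιW) b)
            (s26ePt f ((s26etifR K Γ L).comp j₁)) (s26ePt f ((s26etifR K Γ L).comp j₂)) V) Gf

end Fermat.Agent.S26

end
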