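/-
S26-E, piece TI-DESC (helper21, for the TI hub helper82): DESCENT of a relation from an
ALGEBRAIC extension.  On `S26/ERAbs.lean` (relations calculus) + Mathlib only.

* `s26etid_pull_pull`   : pulling back a generator family is transitive.
* `s26etid_descend`     : `F/Ω` algebraic; a relation in `F` for a family pulled back from `Ω` gives
  `c` times the relation in `Ω`, for some `c > 0` (`c = [Ω(G) : Ω]`, the relation is realised by
  the norm of `G` from `Ω(G)`).
* `s26etid_isAlgebraic_algebraMap` : `L/𝔎` algebraic, `𝔎 ⊆ Ω`, `L, Ω ⊆ F` ⇒ the elements of `L` are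
  algebraic over `Ω`.
* `s26etid_isAlgebraic_of_adjoin`  : `z` algebraic over `L(S)`, `L` and `S` algebraic over `Ω`
  ⇒ `z` algebraic over `Ω`.
* `s26etid_isAlgebraic`       : `F` algebraic over `L(S)`, `L/𝔎` algebraic, `S` algebraic over
  `Ω ⊇ 𝔎` ⇒ `F/Ω` algebraic.
* `s26etid_isAlgebraic_curve` : the shape of `s26erig_main_ac`: `F` algebraic over `L(x)`, `x ∈ Γ`,
  `Γ ⊆ Ω` ⇒ `F/Ω` algebraic.
* `s26etid_isAlgebraic_of_gen` : `F = Ω(L)` ⇒ `F/Ω` algebraic.
* `s26etid_descend_curve`     : the two together.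
-/
import Fermat.Agent.S26.ERAbs
import Mathlib.FieldTheory.AlgebraicClosure
import Mathlib.FieldTheory.IntermediateField.Adjoin.Basic

set_option autoImplicit false
set_option linter.style.haveILetI false

noncomputable section

namespace Fermat.Agent.S26

section Pull

variable {Ω E F : Type*} [Field Ω] [Field E] [Field F] [Algebra Ω E] [Algebra E F] [Algebra Ω F]
  [IsScalarTower Ω E F]

/-- pulling back a generator family is transitive -/
theorem s26etid_pull_pull (𝔡 : ValuationSubring Ω → Ω) :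
    s26erPull (Ω := E) (Ω' := F) (s26erPull (Ω := Ω) (Ω' := E) 𝔡) =
      s26erPull (Ω := Ω) (Ω' := F) 𝔡 := by
  funext V
  unfold s26erPull
  rw [ValuationSubring.comap_comap, ← IsScalarTower.algebraMap_eq,
    ← IsScalarTower.algebraMap_apply]

end Pull

section Desc

variable {K Ω F : Type*} [Field K] [Field Ω] [Field F] [Algebra K Ω] [Algebra K F] [Algebra Ω F]
  [IsScalarTower K Ω F]

/-- **(TI-DESC)**: a relation in an algebraic extension `F` of `Ω`, for a generator family pulled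
back from `Ω`, gives a positive multiple of the relation in `Ω`. -/
theorem s26etid_descend [Algebra.IsAlgebraic Ω F] (𝔡 : ValuationSubring Ω → Ω)
    (h0 : ∀ V, S26erOver K V → 𝔡 V ≠ 0) (G : F) (h : S26erIsRel K (s26erPull 𝔡) G) :
    ∃ (c : ℕ) (G₀ : Ω), 0 < c ∧ S26erIsRel K (fun V => 𝔡 V ^ c) G₀ := by
  have hG : IsIntegral Ω G := (Algebra.IsAlgebraic.isAlgebraic G).isIntegral
  let E : IntermediateField Ω F := IntermediateField.adjoin Ω {G}
  haveI : FiniteDimensional Ω E := IntermediateField.adjoin.finiteDimensional hG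
  let G' : E := ⟨G, IntermediateField.mem_adjoin_simple_self Ω G⟩
  have hG' : algebraMap E F G' = G := rfl
  haveI : IsScalarTower K E F := IsScalarTower.of_algebraMap_eq (fun _ => rfl)
  haveI : IsScalarTower K Ω E := IsScalarTower.of_algebraMap_eq (fun a => Subtype.ext
    (IsScalarTower.algebraMap_apply K Ω F a))
  have h1 : S26erIsRel K (s26erPull (Ω := E) (Ω' := F) (s26erPull (Ω := Ω) (Ω' := E) 𝔡))
      (algebraMap E F G') := by
    rw [s26etid_pull_pull, hG']
    exact h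
  have h2 : S26erIsRel K (s26erPull (Ω := Ω) (Ω' := E) 𝔡) G' := h1.of_map
  have h3 := S26erIsRel.norm h0 h2
  exact ⟨Module.finrank Ω E, Algebra.norm Ω G', Module.finrank_pos, h3⟩

end Desc

section Alg

variable {𝔎 L Ω F : Type*} [Field 𝔎] [Field L] [Field Ω] [Field F]
  [Algebra 𝔎 L] [Algebra 𝔎 Ω] [Algebra 𝔎 F] [Algebra L F] [Algebra Ω F]
  [IsScalarTower 𝔎 L F] [IsScalarTower 𝔎 Ω F]

/-- the image of an algebraic extension `L` of `𝔎` is algebraic over `Ω ⊇ 𝔎` -/
theorem s26etid_isAlgebraic_algebraMap [Algebra.IsAlgebraic 𝔎 L] (l : L) :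
    IsAlgebraic Ω (algebraMap L F l) :=
  ((Algebra.IsAlgebraic.isAlgebraic (R := 𝔎) l).algebraMap (A := F)).tower_top Ω

omit [Field 𝔎] [Algebra 𝔎 L] [Algebra 𝔎 Ω] [Algebra 𝔎 F] [IsScalarTower 𝔎 L F]
  [IsScalarTower 𝔎 Ω F] in
/-- an element algebraic over a subfield `L(S)` all of whose generators are algebraic over `Ω`
is algebraic over `Ω` -/
theorem s26etid_isAlgebraic_of_adjoin (hL : ∀ l : L, IsAlgebraic Ω (algebraMap L F l))
    (S : Set F) (hS : ∀ s ∈ S, IsAlgebraic Ω s) {z : F}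
    (hz : IsAlgebraic (IntermediateField.adjoin L S) z) : IsAlgebraic Ω z := by
  let M : IntermediateField Ω F := algebraicClosure Ω F
  have hle : (IntermediateField.adjoin L S).toSubfield ≤ M.toSubfield := by
    rw [IntermediateField.adjoin_toSubfield, Subfield.closure_le]
    rintro y (⟨l, rfl⟩ | hy)
    · exact mem_algebraicClosure_iff.2 (hL l)
    · exact mem_algebraicClosure_iff.2 (hS y hy)
  let φ : (IntermediateField.adjoin L S) →+* M := Subfield.inclusion hle
  have h1 : IsIntegral M z :=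
    IsIntegral.map_of_comp_eq φ (RingHom.id F) (by ext; rfl) hz.isIntegral
  exact (isIntegral_trans (R := Ω) (A := M) z h1).isAlgebraic

/-- **`F/Ω` is algebraic**: `L/𝔎` algebraic, `𝔎 ⊆ Ω`, and `F` algebraic over `L(S)` with `S`
algebraic over `Ω`. -/
theorem s26etid_isAlgebraic [Algebra.IsAlgebraic 𝔎 L] (S : Set F)
    (hS : ∀ s ∈ S, IsAlgebraic Ω s)
    (halgF : Algebra.IsAlgebraic (IntermediateField.adjoin L S) F) : Algebra.IsAlgebraic Ω F :=
  ⟨fun z => s26etid_isAlgebraic_of_adjoin (fun l => s26etid_isAlgebraic_algebraMap (𝔎 := 𝔎) l)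
    S hS (halgF.isAlgebraic z)⟩

/-- the shape of `s26erig_main_ac`: `F` algebraic over `L(x)` with `x ∈ Γ ⊆ Ω`. -/
theorem s26etid_isAlgebraic_curve [Algebra.IsAlgebraic 𝔎 L] {Γ : Type*} [CommRing Γ]
    [Algebra Γ Ω] [Algebra Γ F] [IsScalarTower Γ Ω F] (x : Γ)
    (halgF : Algebra.IsAlgebraic (IntermediateField.adjoin L {algebraMap Γ F x}) F) :
    Algebra.IsAlgebraic Ω F := by
  refine s26etid_isAlgebraic (𝔎 := 𝔎) {algebraMap Γ F x} ?_ halgF
  rintro s rfl
  rw [IsScalarTower.algebraMap_apply Γ Ω F]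
  exact isAlgebraic_algebraMap _

/-- `F` generated as a field by `Ω` and (the image of) `L` ⇒ `F/Ω` algebraic. -/
theorem s26etid_isAlgebraic_of_gen [Algebra.IsAlgebraic 𝔎 L]
    (hgen : IntermediateField.adjoin Ω (Set.range (algebraMap L F)) = ⊤) :
    Algebra.IsAlgebraic Ω F := by
  have h1 : Algebra.IsAlgebraic Ω (IntermediateField.adjoin Ω (Set.range (algebraMap L F))) :=
    IntermediateField.isAlgebraic_adjoin (by
      rintro _ ⟨l, rfl⟩
      exact (s26etid_isAlgebraic_algebraMap (𝔎 := 𝔎) (Ω := Ω) l).isIntegral)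
  rw [hgen] at h1
  exact ⟨fun z => by
    have := (Algebra.IsAlgebraic.isAlgebraic (R := Ω) (⟨z, IntermediateField.mem_top⟩ :
      (⊤ : IntermediateField Ω F))).algebraMap (A := F)
    exact this⟩

end Alg

section Both

variable {K 𝔎 L Γ Ω F : Type*} [Field K] [Field 𝔎] [Field L] [CommRing Γ] [Field Ω] [Field F]
  [Algebra K Ω] [Algebra K F] [Algebra Ω F] [IsScalarTower K Ω F]
  [Algebra 𝔎 L] [Algebra 𝔎 Ω] [Algebra 𝔎 F] [Algebra L F] [IsScalarTower 𝔎 L F]
  [IsScalarTower 𝔎 Ω F] [Algebra.IsAlgebraic 𝔎 L]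
  [Algebra Γ Ω] [Algebra Γ F] [IsScalarTower Γ Ω F]

include 𝔎 in

/-- **(TI-DESC), in the situation of the hub**: `Ω ⊇ Γ, 𝔎`, `F ⊇ Ω, L` algebraic over `L(x)`,
`L/𝔎` algebraic: a relation in `F` for a family pulled back from `Ω` gives a positive multiple of
the relation in `Ω`. -/
theorem s26etid_descend_curve (x : Γ)
    (halgF : Algebra.IsAlgebraic (IntermediateField.adjoin L {algebraMap Γ F x}) F)
    (𝔡 : ValuationSubring Ω → Ω) (h0 : ∀ V, S26erOver K V → 𝔡 V ≠ 0) (G : F)
    (h : S26erIsRel K (s26erPull 𝔡) G) :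
    ∃ (c : ℕ) (G₀ : Ω), 0 < c ∧ S26erIsRel K (fun V => 𝔡 V ^ c) G₀ := by
  haveI : Algebra.IsAlgebraic Ω F := s26etid_isAlgebraic_curve (𝔎 := 𝔎) x halgF
  exact s26etid_descend 𝔡 h0 G h

end Both

end Fermat.Agent.S26

end
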