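/-
S26-E, (TI) hub, leaf TOP-A (helper21, for helper82): the FAMILY ALGEBRA of the Sq-ratio
`Sq(p; y, z) / Sq(b; y, z)` and the TRANSPORT of its relation along field embeddings.

* `s26ettaSqR f G U p b y z` : the generator family `V ↦ Sq(p; y, z)(V) / Sq(b; y, z)(V)`.
* `s26ettaPts`, `s26ettaExp` : the 8 points and their exponents `±1`.
* (A1) `s26etta_sqR_eq` : `SqR = s26emrFam f U Finset.univ Pts n` (EXACT equality of functions).
* (A2) `s26etta_pts_map`, `s26etta_pt_map` : `s26eptMap f ι` commutes with `Pts` and `s26ePt`.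
* (A3) `s26etta_up`   : a relation for `SqR ^ c` in `Ω₀` maps to the relation in `Ω ⊇ Ω₀`.
* (A4) `s26etta_down` : `F/Ω₀` algebraic: a relation for `SqR` in `F` gives a relation for
  `SqR ^ c`, `c > 0`, in `Ω₀`.
-/
import Fermat.Agent.S26.PlanE2
import Fermat.Agent.S26.EMRel
import Fermat.Agent.S26.ETiDesc

set_option autoImplicit false
set_option linter.style.haveILetI false
set_option linter.unusedVariables false
set_option linter.unusedSectionVars false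

noncomputable section

namespace Fermat.Agent.S26

open CategoryTheory CategoryTheory.Limits AlgebraicGeometry NeronModelInfra GoodReductionJacobian

universe u

variable {K : Type u} [Field K] {A : Scheme.{u}} (f : A ⟶ Spec (CommRingCat.of K))

section Alg

variable {Ω : Type u} [Field Ω] [Algebra K Ω] (G : RelativeGroupLaw K f)

/-- the 8 points of the Sq-ratio `Sq(p; y, z) / Sq(b; y, z)`. -/
def s26ettaPts (p b y z : s26eptPts f Ω) : Fin 8 → s26eptPts f Ω :=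
  ![G.mul _ (G.mul _ p y) z, p, G.mul _ p y, G.mul _ p z,
    G.mul _ (G.mul _ b y) z, b, G.mul _ b y, G.mul _ b z]

/-- the exponents of the 8 points. -/
def s26ettaExp : Fin 8 → ℤ := ![1, 1, -1, -1, -1, -1, 1, 1]

variable [IsIntegral A] [IsLocallyNoetherian A] [IsProper f] (U : A.Opens)

/-- the generator family of the Sq-ratio. -/
def s26ettaSqR (p b y z : s26eptPts f Ω) : ValuationSubring Ω → Ω := fun V =>
  s26eSq f G U p y z V / s26eSq f G U b y z V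

theorem s26ettaSqR_apply (p b y z : s26eptPts f Ω) (V : ValuationSubring Ω) :
    s26ettaSqR f G U p b y z V = s26eSq f G U p y z V / s26eSq f G U b y z V := rfl

/-- **(A1)**: the Sq-ratio is the generator family of the 8 points with exponents `±1`. -/
theorem s26etta_sqR_eq (p b y z : s26eptPts f Ω) :
    s26ettaSqR f G U p b y z =
      s26emrFam f U Finset.univ (s26ettaPts f G p b y z) s26ettaExp := by
  funext V
  unfold s26ettaSqR s26eSq s26emrFam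
  rw [Fin.prod_univ_eight]
  simp only [s26eGen_eq_emFam, s26ettaPts, s26ettaExp, Matrix.cons_val_zero, Matrix.cons_val_one,
    Matrix.cons_val, zpow_one, zpow_neg_one]
  simp only [div_eq_mul_inv, mul_inv, inv_inv]
  ring

/-- powers of a family of points: exponents multiply. -/
theorem s26etta_fam_pow {I : Type*} (s : Finset I) (P : I → s26eptPts f Ω) (n : I → ℤ) (c : ℕ) :
    (fun V => s26emrFam f U s P n V ^ c) = s26emrFam f U s P (fun i => n i * (c : ℤ)) := by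
  funext V
  unfold s26emrFam
  rw [← Finset.prod_pow]
  exact Finset.prod_congr rfl fun i _ => by rw [zpow_mul, zpow_natCast]

/-- the power of the Sq-ratio as a family of points. -/
theorem s26etta_sqR_pow_eq (p b y z : s26eptPts f Ω) (c : ℕ) :
    (fun V => s26ettaSqR f G U p b y z V ^ c) =
      s26emrFam f U Finset.univ (s26ettaPts f G p b y z) (fun i => s26ettaExp i * (c : ℤ)) := by
  rw [← s26etta_fam_pow, s26etta_sqR_eq]

/-- the Sq-ratio does not vanish if the 8 points have image in `U`. -/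
theorem s26etta_sqR_ne_zero (hD : S26emLocData U) (p b y z : s26eptPts f Ω)
    (hU : ∀ i, s26eptPt f (s26ettaPts f G p b y z i) ∈ U) (V : ValuationSubring Ω) :
    s26ettaSqR f G U p b y z V ≠ 0 := by
  rw [s26etta_sqR_eq]
  exact s26emrFam_ne_zero f hD _ _ _ (fun i _ => hU i) V

end Alg

section Map

variable {Ω Ω' : Type u} [Field Ω] [Algebra K Ω] [Field Ω'] [Algebra K Ω']
  (G : RelativeGroupLaw K f)

/-- **(A2)**: `s26eptMap f ι` commutes with the generic points. -/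
theorem s26etta_pt_map [IsIntegral A] (ι : Ω →ₐ[K] Ω') (j : s26F f →ₐ[K] Ω) :
    s26eptMap f ι (s26ePt f j) = s26ePt f (ι.comp j) := by
  unfold s26ePt
  rw [s26eptMap_comp]

/-- **(A2)**: `s26eptMap f ι` commutes with the 8 points. -/
theorem s26etta_pts_map (ι : Ω →ₐ[K] Ω') (p b y z : s26eptPts f Ω) :
    (fun i => s26eptMap f ι (s26ettaPts f G p b y z i)) =
      s26ettaPts f G (s26eptMap f ι p) (s26eptMap f ι b) (s26eptMap f ι y) (s26eptMap f ι z) := by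
  funext i
  fin_cases i <;> simp [s26ettaPts, s26eptMap_mul]

variable [IsIntegral A] [IsLocallyNoetherian A] [IsProper f] {U : A.Opens}

/-- the Sq-ratio of the mapped points has the values of the pulled back Sq-ratio. -/
theorem s26etta_val_map (hD : S26emLocData U) (ι : Ω →ₐ[K] Ω') (p b y z : s26eptPts f Ω)
    (V' : ValuationSubring Ω') (hV' : S26erOver K V') :
    V'.valuation (s26ettaSqR f G U (s26eptMap f ι p) (s26eptMap f ι b) (s26eptMap f ι y)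
        (s26eptMap f ι z) V') =
      V'.valuation (s26emrPull ι (s26ettaSqR f G U p b y z) V') := by
  rw [s26etta_sqR_eq, s26etta_sqR_eq, ← s26etta_pts_map]
  exact s26emrFam_val_map f hD ι _ _ _ V' hV'

/-- **(A3), UP**: a relation for a power of the Sq-ratio in `Ω` maps to the relation for the
mapped points in `Ω'`. -/
theorem s26etta_up (hD : S26emLocData U) (ι : Ω →ₐ[K] Ω') (p b y z : s26eptPts f Ω) (c : ℕ)
    {F₀ : Ω} (h : S26erIsRel K (fun V => s26ettaSqR f G U p b y z V ^ c) F₀) :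
    S26erIsRel K (fun V => s26ettaSqR f G U (s26eptMap f ι p) (s26eptMap f ι b)
      (s26eptMap f ι y) (s26eptMap f ι z) V ^ c) (ι F₀) := by
  rw [s26etta_sqR_pow_eq] at h
  rw [s26etta_sqR_pow_eq, ← s26etta_pts_map]
  exact s26emr_pt_map f hD ι _ _ _ h

/-- **(A3), UP**, for generic points `y = η_{j₁}`, `z = η_{j₂}`. -/
theorem s26etta_up_pt (hD : S26emLocData U) (ι : Ω →ₐ[K] Ω') (p b : s26eptPts f Ω)
    (j₁ j₂ : s26F f →ₐ[K] Ω) (c : ℕ) {F₀ : Ω}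
    (h : S26erIsRel K (fun V => s26ettaSqR f G U p b (s26ePt f j₁) (s26ePt f j₂) V ^ c) F₀) :
    S26erIsRel K (fun V => s26ettaSqR f G U (s26eptMap f ι p) (s26eptMap f ι b)
      (s26ePt f (ι.comp j₁)) (s26ePt f (ι.comp j₂)) V ^ c) (ι F₀) := by
  rw [← s26etta_pt_map, ← s26etta_pt_map]
  exact s26etta_up f G hD ι p b _ _ c h

/-- **(A4), DOWN**: `Ω'` algebraic over `Ω` (along `ι`), the 8 points with image in `U`: a
relation for the Sq-ratio of the mapped points in `Ω'` gives a relation for a positive power of the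
Sq-ratio in `Ω`. -/
theorem s26etta_down (hD : S26emLocData U) (ι : Ω →ₐ[K] Ω')
    (halg : letI := (ι : Ω →+* Ω').toAlgebra; Algebra.IsAlgebraic Ω Ω')
    (p b y z : s26eptPts f Ω) (hU : ∀ i, s26eptPt f (s26ettaPts f G p b y z i) ∈ U) (Gf : Ω')
    (h : S26erIsRel K (s26ettaSqR f G U (s26eptMap f ι p) (s26eptMap f ι b) (s26eptMap f ι y)
      (s26eptMap f ι z)) Gf) :
    ∃ (c : ℕ) (F₀ : Ω), 0 < c ∧ S26erIsRel K (fun V => s26ettaSqR f G U p b y z V ^ c) F₀ := by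
  letI := (ι : Ω →+* Ω').toAlgebra
  haveI := s26emr_tower ι
  haveI : Algebra.IsAlgebraic Ω Ω' := halg
  have h1 : S26erIsRel K (s26erPull (Ω' := Ω') (s26ettaSqR f G U p b y z)) Gf :=
    h.congr fun V' hV' => s26etta_val_map f G hD ι p b y z V' hV'
  exact s26etid_descend (s26ettaSqR f G U p b y z)
    (fun V _ => s26etta_sqR_ne_zero f G U hD p b y z hU V) Gf h1

/-- **(A4), DOWN**, for generic points `y = η_{j₁}`, `z = η_{j₂}`. -/
theorem s26etta_down_pt (hD : S26emLocData U) (ι : Ω →ₐ[K] Ω')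
    (halg : letI := (ι : Ω →+* Ω').toAlgebra; Algebra.IsAlgebraic Ω Ω')
    (p b : s26eptPts f Ω) (j₁ j₂ : s26F f →ₐ[K] Ω)
    (hU : ∀ i, s26eptPt f (s26ettaPts f G p b (s26ePt f j₁) (s26ePt f j₂) i) ∈ U) (Gf : Ω')
    (h : S26erIsRel K (s26ettaSqR f G U (s26eptMap f ι p) (s26eptMap f ι b)
      (s26ePt f (ι.comp j₁)) (s26ePt f (ι.comp j₂))) Gf) :
    ∃ (c : ℕ) (F₀ : Ω), 0 < c ∧
      S26erIsRel K (fun V => s26ettaSqR f G U p b (s26ePt f j₁) (s26ePt f j₂) V ^ c) F₀ := by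
  rw [← s26etta_pt_map, ← s26etta_pt_map] at h
  exact s26etta_down f G hD ι halg p b _ _ hU Gf h

end Map

/-! ### the literal shapes of `s26e_StmtTI` / `s26eti_StmtTIF` -/

section TI

variable {Ω Ω' : Type u} [Field Ω] [Algebra K Ω] [Field Ω'] [Algebra K Ω']
  (G : RelativeGroupLaw K f)
  {Γ W : Type u} [Field Γ] [Algebra K Γ] [Field W] [Algebra K W]
variable [IsIntegral A] [IsLocallyNoetherian A] [IsProper f] {U : A.Opens}

/-- a property of the 8 points, as 8 properties. -/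
theorem s26etta_forall_pts (p b y z : s26eptPts f Ω) (Q : s26eptPts f Ω → Prop) :
    (∀ i, Q (s26ettaPts f G p b y z i)) ↔
      Q (G.mul _ (G.mul _ p y) z) ∧ Q p ∧ Q (G.mul _ p y) ∧ Q (G.mul _ p z) ∧
        Q (G.mul _ (G.mul _ b y) z) ∧ Q b ∧ Q (G.mul _ b y) ∧ Q (G.mul _ b z) := by
  constructor
  · intro h
    exact ⟨h 0, h 1, h 2, h 3, h 4, h 5, h 6, h 7⟩
  · rintro ⟨h0, h1, h2, h3, h4, h5, h6, h7⟩ i
    fin_cases i
    exacts [h0, h1, h2, h3, h4, h5, h6, h7]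

/-- **(A3), UP, in the shape of `s26e_StmtTI`**: from `Ω` to `Ω' ⊇ Ω`. -/
theorem s26etta_up_ti (hD : S26emLocData U) (ι : Ω →ₐ[K] Ω')
    (ιΓ : Γ →ₐ[K] Ω) (ιW : W →ₐ[K] Ω) (j₁ j₂ : s26F f →ₐ[K] Ω)
    (ιΓ' : Γ →ₐ[K] Ω') (ιW' : W →ₐ[K] Ω') (j₁' j₂' : s26F f →ₐ[K] Ω')
    (hΓ : ι.comp ιΓ = ιΓ') (hW : ι.comp ιW = ιW') (h₁ : ι.comp j₁ = j₁') (h₂ : ι.comp j₂ = j₂')
    (ν : s26eptPts f Γ) (b : s26eptPts f W) (c : ℕ) {F₀ : Ω}
    (h : S26erIsRel K (fun V =>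
      (s26eSq f G U (G.mul _ (s26eptMap f ιΓ ν) (s26eptMap f ιW b))
          (s26ePt f j₁) (s26ePt f j₂) V /
        s26eSq f G U (s26eptMap f ιW b) (s26ePt f j₁) (s26ePt f j₂) V) ^ c) F₀) :
    S26erIsRel K (fun V =>
      (s26eSq f G U (G.mul _ (s26eptMap f ιΓ' ν) (s26eptMap f ιW' b))
          (s26ePt f j₁') (s26ePt f j₂') V /
        s26eSq f G U (s26eptMap f ιW' b) (s26ePt f j₁') (s26ePt f j₂') V) ^ c) (ι F₀) := by
  have h' := s26etta_up_pt f G hD ι (G.mul _ (s26eptMap f ιΓ ν) (s26eptMap f ιW b))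
    (s26eptMap f ιW b) j₁ j₂ c h
  rw [s26eptMap_mul, ← s26eptMap_comp, ← s26eptMap_comp, hΓ, hW, h₁, h₂] at h'
  exact h'

/-- **(A4), DOWN, in the shape of `s26eti_StmtTIF` ⇒ `s26e_StmtTI`**: from `Ω'` algebraic over
`Ω` to `Ω`. -/
theorem s26etta_down_ti (hD : S26emLocData U) (ι : Ω →ₐ[K] Ω')
    (halg : letI := (ι : Ω →+* Ω').toAlgebra; Algebra.IsAlgebraic Ω Ω')
    (ιΓ : Γ →ₐ[K] Ω) (ιW : W →ₐ[K] Ω) (j₁ j₂ : s26F f →ₐ[K] Ω)
    (ιΓ' : Γ →ₐ[K] Ω') (ιW' : W →ₐ[K] Ω') (j₁' j₂' : s26F f →ₐ[K] Ω')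
    (hΓ : ι.comp ιΓ = ιΓ') (hW : ι.comp ιW = ιW') (h₁ : ι.comp j₁ = j₁') (h₂ : ι.comp j₂ = j₂')
    (ν : s26eptPts f Γ) (b : s26eptPts f W)
    (hU : ∀ i, s26eptPt f (s26ettaPts f G (G.mul _ (s26eptMap f ιΓ ν) (s26eptMap f ιW b))
      (s26eptMap f ιW b) (s26ePt f j₁) (s26ePt f j₂) i) ∈ U) (Gf : Ω')
    (h : S26erIsRel K (fun V =>
      s26eSq f G U (G.mul _ (s26eptMap f ιΓ' ν) (s26eptMap f ιW' b))
          (s26ePt f j₁') (s26ePt f j₂') V /
        s26eSq f G U (s26eptMap f ιW' b) (s26ePt f j₁') (s26ePt f j₂') V) Gf) :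
    ∃ (c : ℕ) (F₀ : Ω), 0 < c ∧ S26erIsRel K (fun V =>
      (s26eSq f G U (G.mul _ (s26eptMap f ιΓ ν) (s26eptMap f ιW b))
          (s26ePt f j₁) (s26ePt f j₂) V /
        s26eSq f G U (s26eptMap f ιW b) (s26ePt f j₁) (s26ePt f j₂) V) ^ c) F₀ := by
  refine s26etta_down_pt f G hD ι halg (G.mul _ (s26eptMap f ιΓ ν) (s26eptMap f ιW b))
    (s26eptMap f ιW b) j₁ j₂ hU Gf ?_
  rw [s26eptMap_mul, ← s26eptMap_comp, ← s26eptMap_comp, hΓ, hW, h₁, h₂]
  exact h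

/-- **DOWN then UP**: the whole transport of the reduction `s26eti_StmtTIF → s26e_StmtTI`.
`Ω₀ ⊆ Ω` (along `ι₀`), `Ω₀ ⊆ Ω'` algebraic (along `ι`); a relation for the Sq-ratio in `Ω'` gives
a relation for a positive power of the Sq-ratio in `Ω`. -/
theorem s26etta_transport {Ω₀ : Type u} [Field Ω₀] [Algebra K Ω₀] (hD : S26emLocData U)
    (ι : Ω₀ →ₐ[K] Ω')
    (halg : letI := (ι : Ω₀ →+* Ω').toAlgebra; Algebra.IsAlgebraic Ω₀ Ω')
    (ι₀ : Ω₀ →ₐ[K] Ω)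
    (ιΓ₀ : Γ →ₐ[K] Ω₀) (ιW₀ : W →ₐ[K] Ω₀) (k₁ k₂ : s26F f →ₐ[K] Ω₀)
    (ιΓ : Γ →ₐ[K] Ω) (ιW : W →ₐ[K] Ω) (j₁ j₂ : s26F f →ₐ[K] Ω)
    (hΓ : ι₀.comp ιΓ₀ = ιΓ) (hW : ι₀.comp ιW₀ = ιW) (h₁ : ι₀.comp k₁ = j₁) (h₂ : ι₀.comp k₂ = j₂)
    (ιΓ' : Γ →ₐ[K] Ω') (ιW' : W →ₐ[K] Ω') (j₁' j₂' : s26F f →ₐ[K] Ω')
    (hΓ' : ι.comp ιΓ₀ = ιΓ') (hW' : ι.comp ιW₀ = ιW') (h₁' : ι.comp k₁ = j₁')
    (h₂' : ι.comp k₂ = j₂')
    (ν : s26eptPts f Γ) (b : s26eptPts f W)
    (hU : ∀ i, s26eptPt f (s26ettaPts f G (G.mul _ (s26eptMap f ιΓ₀ ν) (s26eptMap f ιW₀ b))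
      (s26eptMap f ιW₀ b) (s26ePt f k₁) (s26ePt f k₂) i) ∈ U) (Gf : Ω')
    (h : S26erIsRel K (fun V =>
      s26eSq f G U (G.mul _ (s26eptMap f ιΓ' ν) (s26eptMap f ιW' b))
          (s26ePt f j₁') (s26ePt f j₂') V /
        s26eSq f G U (s26eptMap f ιW' b) (s26ePt f j₁') (s26ePt f j₂') V) Gf) :
    ∃ (c : ℕ) (F : Ω), 0 < c ∧ S26erIsRel K (fun V =>
      (s26eSq f G U (G.mul _ (s26eptMap f ιΓ ν) (s26eptMap f ιW b))
          (s26ePt f j₁) (s26ePt f j₂) V /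
        s26eSq f G U (s26eptMap f ιW b) (s26ePt f j₁) (s26ePt f j₂) V) ^ c) F := by
  obtain ⟨c, F₀, hc, hF₀⟩ := s26etta_down_ti f G hD ι halg ιΓ₀ ιW₀ k₁ k₂ ιΓ' ιW' j₁' j₂'
    hΓ' hW' h₁' h₂' ν b hU Gf h
  exact ⟨c, ι₀ F₀, hc, s26etta_up_ti f G hD ι₀ ιΓ₀ ιW₀ k₁ k₂ ιΓ ιW j₁ j₂ hΓ hW h₁ h₂ ν b c hF₀⟩

end TI

end Fermat.Agent.S26

end
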