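/-
S26-E, (TI), step (c) in the MODEL (helper97): the output of `s26etic_top` (S26/ETiC.lean) in the
LITERAL setting of `s26eti_StmtTIFc` (S26/ETiPlanC.lean), `F = s26etifOm K Γ L`.

* `s26eticm_ind2`  : `(W ⊗ 𝔉) ⊗ 𝔉 → L` injective ⇒ `productMap j₂ j₁ : 𝔉 ⊗ 𝔉 → L` injective.
* `s26eticm_inj4`  : `(W ⊗ 𝔉) ⊗ 𝔉 → L` injective ⇒ the four-fold independence of
  `Γ, W, y, z` in `F = Frac (Γ ⊗ L)`.
* `s26eticm_mem_U` : the eight points `ν + b + y_J`, `b + y_J` have image in `U`.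
* `s26eticm_top`   : `∃ G₀ ≠ 0, ∀ P : Place L F, ord_P G₀ = ord_P (Sq(ν + b; y, z)(P))`.
-/
import Fermat.Agent.S26.ETiC
import Fermat.Agent.S26.ETiPlanC
import Fermat.Agent.S26.ETiTopA
import Fermat.Agent.S26.ETiTopB
import Fermat.Agent.S26.ETiNV
import Fermat.Agent.S26.ENV
import Fermat.Agent.S26.ESpStep

set_option autoImplicit false
set_option linter.style.haveILetI false
set_option linter.unusedVariables false
set_option linter.unusedSectionVars false

noncomputable section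

namespace Fermat.Agent.S26

open CategoryTheory CategoryTheory.Limits AlgebraicGeometry NeronModelInfra GoodReductionJacobian
open AlgebraicCurve IntermediateField
open scoped TensorProduct

universe u

section Alg

variable {K : Type*} [Field K] {W 𝔉 L : Type*} [Field W] [Field 𝔉] [Field L] [Algebra K W]
  [Algebra K 𝔉] [Algebra K L]

/-- the embedding `𝔉 ⊗ 𝔉 → (W ⊗ 𝔉) ⊗ 𝔉`, `a ⊗ c ↦ (1 ⊗ c) ⊗ a` -/
def s26eticmEmb (K W 𝔉 : Type*) [Field K] [Field W] [Field 𝔉] [Algebra K W] [Algebra K 𝔉] :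
    𝔉 ⊗[K] 𝔉 →ₐ[K] (W ⊗[K] 𝔉) ⊗[K] 𝔉 :=
  (Algebra.TensorProduct.map
    (Algebra.TensorProduct.includeRight : 𝔉 →ₐ[K] W ⊗[K] 𝔉) (AlgHom.id K 𝔉)).comp
    (Algebra.TensorProduct.comm K 𝔉 𝔉 : 𝔉 ⊗[K] 𝔉 →ₐ[K] 𝔉 ⊗[K] 𝔉)

theorem s26eticmEmb_injective : Function.Injective (s26eticmEmb K W 𝔉) := by
  unfold s26eticmEmb
  rw [AlgHom.coe_comp]
  refine Function.Injective.comp ?_ (Algebra.TensorProduct.comm K 𝔉 𝔉).injective
  apply s26ettb_map_left_injective
  exact Algebra.TensorProduct.includeRight_injective (algebraMap K W).injective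

theorem s26eticm_prod_comp_emb (ιW : W →ₐ[K] L) (j₁ j₂ : 𝔉 →ₐ[K] L) :
    (Algebra.TensorProduct.productMap (Algebra.TensorProduct.productMap ιW j₁) j₂).comp
      (s26eticmEmb K W 𝔉) = Algebra.TensorProduct.productMap j₂ j₁ := by
  apply Algebra.TensorProduct.ext'
  intro a c
  simp [s26eticmEmb, Algebra.TensorProduct.productMap_apply_tmul, mul_comm]

/-- independence of `W, y, z` ⇒ independence of `z, y`. -/
theorem s26eticm_ind2 (ιW : W →ₐ[K] L) (j₁ j₂ : 𝔉 →ₐ[K] L)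
    (hinj : Function.Injective (Algebra.TensorProduct.productMap
      (Algebra.TensorProduct.productMap ιW j₁) j₂)) :
    Function.Injective (Algebra.TensorProduct.productMap j₂ j₁) := by
  rw [← s26eticm_prod_comp_emb ιW j₁ j₂, AlgHom.coe_comp]
  exact hinj.comp s26eticmEmb_injective

end Alg

section Inj4

variable (K Γ : Type u) [Field K] [Field Γ] [Algebra K Γ] [IsAlgClosed K]
  {W 𝔉 L : Type u} [Field W] [Field 𝔉] [Field L] [Algebra K W] [Algebra K 𝔉] [Algebra K L]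

/-- independence of `W, y, z` in `L` ⇒ independence of `Γ, W, y, z` in `F = Frac (Γ ⊗ L)`. -/
theorem s26eticm_inj4 (ιW : W →ₐ[K] L) (j₁ j₂ : 𝔉 →ₐ[K] L)
    (hinj : Function.Injective (Algebra.TensorProduct.productMap
      (Algebra.TensorProduct.productMap ιW j₁) j₂)) :
    Function.Injective (Algebra.TensorProduct.productMap (Algebra.TensorProduct.productMap
      (Algebra.TensorProduct.productMap (s26etifL K Γ L) ((s26etifR K Γ L).comp ιW))
      ((s26etifR K Γ L).comp j₁)) ((s26etifR K Γ L).comp j₂)) := by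
  have e : Algebra.TensorProduct.productMap (s26etifL K Γ L)
      (Algebra.TensorProduct.productMap
        (Algebra.TensorProduct.productMap ((s26etifR K Γ L).comp ιW) ((s26etifR K Γ L).comp j₁))
        ((s26etifR K Γ L).comp j₂)) =
      (Algebra.TensorProduct.productMap (s26etifL K Γ L) (s26etifR K Γ L)).comp
        (Algebra.TensorProduct.map (AlgHom.id K Γ)
          (Algebra.TensorProduct.productMap (Algebra.TensorProduct.productMap ιW j₁) j₂)) := by
    rw [s26ettb_productMap_comp_map, s26ettb_comp_productMap, s26ettb_comp_productMap]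
    rfl
  have hT : Function.Injective (Algebra.TensorProduct.productMap (s26etifL K Γ L)
      (Algebra.TensorProduct.productMap
        (Algebra.TensorProduct.productMap ((s26etifR K Γ L).comp ιW) ((s26etifR K Γ L).comp j₁))
        ((s26etifR K Γ L).comp j₂))) := by
    rw [e, AlgHom.coe_comp]
    exact (s26ettb_F_injective K Γ L).comp (s26ettb_map_right_injective _ hinj)
  intro x y hxy
  obtain ⟨x', rfl⟩ := (s26ettbAssoc (K := K) Γ (W := W) (𝔉 := 𝔉)).surjective x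
  obtain ⟨y', rfl⟩ := (s26ettbAssoc (K := K) Γ (W := W) (𝔉 := 𝔉)).surjective y
  rw [s26ettb_prod4_assoc, s26ettb_prod4_assoc] at hxy
  rw [hT hxy]

end Inj4

section Main

variable (K : Type u) [Field K] [IsAlgClosed K] {A : Scheme.{u}} (f : A ⟶ Spec (CommRingCat.of K))
  (G : RelativeGroupLaw K f) (g : ℕ) (hyp : S26Hyp K f G g)
  [IsIntegral A] [IsLocallyNoetherian A] [IsProper f] (U : A.Opens) (hU : S26IsAdm f G U)
  (hD : S26emLocData U)
  (Γ : Type u) [Field Γ] [Algebra K Γ] (hΓ : S26eIsCurve K Γ)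
  (ν : s26eptPts f Γ) (γ₀ : AlgebraicCurve.Place K Γ) (hν : S26eSpOneAt f G ν γ₀)
  (W : Type u) [Field W] [Algebra K W] (b : s26eptPts f W) (hb : S26eSpOne f G b)
  (L : Type u) [Field L] [Algebra K L] [IsAlgClosed L] (ιW : W →ₐ[K] L)
  (j₁ j₂ : s26F f →ₐ[K] L)
  (hinj : Function.Injective (Algebra.TensorProduct.productMap
    (Algebra.TensorProduct.productMap ιW j₁) j₂))

include hyp hU hD hν hb hinj in
/-- the eight points of the configuration of `s26eti_StmtTIFc` have image in `U`. -/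
theorem s26eticm_mem_U :
    (s26eptPt f (G.mul _ (G.mul _ (G.mul _ (s26eptMap f (s26etifL K Γ L) ν)
          (s26eptMap f ((s26etifR K Γ L).comp ιW) b))
        (s26ePt f ((s26etifR K Γ L).comp j₁))) (s26ePt f ((s26etifR K Γ L).comp j₂))) ∈ U ∧
      s26eptPt f (G.mul _ (s26eptMap f (s26etifL K Γ L) ν)
        (s26eptMap f ((s26etifR K Γ L).comp ιW) b)) ∈ U ∧
      s26eptPt f (G.mul _ (G.mul _ (s26eptMap f (s26etifL K Γ L) ν)
          (s26eptMap f ((s26etifR K Γ L).comp ιW) b))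
        (s26ePt f ((s26etifR K Γ L).comp j₁))) ∈ U ∧
      s26eptPt f (G.mul _ (G.mul _ (s26eptMap f (s26etifL K Γ L) ν)
          (s26eptMap f ((s26etifR K Γ L).comp ιW) b))
        (s26ePt f ((s26etifR K Γ L).comp j₂))) ∈ U) ∧
    (s26eptPt f (G.mul _ (G.mul _ (s26eptMap f ((s26etifR K Γ L).comp ιW) b)
        (s26ePt f ((s26etifR K Γ L).comp j₁))) (s26ePt f ((s26etifR K Γ L).comp j₂))) ∈ U ∧
      s26eptPt f (s26eptMap f ((s26etifR K Γ L).comp ιW) b) ∈ U ∧
      s26eptPt f (G.mul _ (s26eptMap f ((s26etifR K Γ L).comp ιW) b)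
        (s26ePt f ((s26etifR K Γ L).comp j₁))) ∈ U ∧
      s26eptPt f (G.mul _ (s26eptMap f ((s26etifR K Γ L).comp ιW) b)
        (s26ePt f ((s26etifR K Γ L).comp j₂))) ∈ U) :=
  s26etinv_mem_U f G s26nv2_stmtNV s26espstep_main g hyp U hU hD ν γ₀ hν b hb
    (s26etifL K Γ L) ((s26etifR K Γ L).comp ιW) ((s26etifR K Γ L).comp j₁)
    ((s26etifR K Γ L).comp j₂) (s26eticm_inj4 K Γ ιW j₁ j₂ hinj)

include hyp hU hD hΓ hν hb hinj in
/-- **(c) in the model**: the function of step (c) for the family `Sq(ν + b; y, z)` of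
`s26eti_StmtTIFc`. -/
theorem s26eticm_top :
    ∃ G₀ : s26etifOm K Γ L, G₀ ≠ 0 ∧ ∀ P : Place L (s26etifOm K Γ L),
      P.ord G₀ = P.ord (s26eSq f G U (G.mul _ (s26eptMap f (s26etifL K Γ L) ν)
          (s26eptMap f ((s26etifR K Γ L).comp ιW) b))
        (s26ePt f ((s26etifR K Γ L).comp j₁)) (s26ePt f ((s26etifR K Γ L).comp j₂))
        P.toValuationSubring) := by
  obtain ⟨x, hx, hfin, -⟩ := hΓ
  haveI : FiniteDimensional K⟮x⟯ Γ := hfin
  obtain ⟨⟨p1, p2, p3, p4⟩, -⟩ :=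
    s26eticm_mem_U K f G g hyp U hU hD Γ ν γ₀ hν W b hb L ιW j₁ j₂ hinj
  have eb : s26eptMap f ((s26etifR K Γ L).comp ιW) b =
      s26eptMap f (s26etifR K Γ L) (s26eptMap f ιW b) := s26eptMap_comp f ιW (s26etifR K Γ L) b
  have e1 : s26ePt f ((s26etifR K Γ L).comp j₁) =
      s26eptMap f (s26etifR K Γ L) (s26ePt f j₁) := (s26etta_pt_map f (s26etifR K Γ L) j₁).symm
  have e2 : s26ePt f ((s26etifR K Γ L).comp j₂) =
      s26eptMap f (s26etifR K Γ L) (s26ePt f j₂) := (s26etta_pt_map f (s26etifR K Γ L) j₂).symm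
  rw [eb] at p1 p2 p3 p4 ⊢
  rw [e1] at p1 p3 ⊢
  rw [e2] at p1 p4 ⊢
  exact s26etic_top f G hyp.comm hD (s26etif_mu_injective (K := K) (Γ := Γ) (𝔎 := L))
    (fun ω => s26etif_gen ω) hx ν (s26eptMap f ιW b) j₁ j₂
    (s26eticm_ind2 ιW j₁ j₂ hinj) p1 p2 p3 p4

end Main

end Fermat.Agent.S26

end
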