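/-
S26-E-VERT (helper38): the CHARTS `T = R ⊗[K] B` of `F = Frac (L ⊗[K] Γ)`.

Setting (as in helper12's `ERedGauss.lean`): `K` a field, `Γ / K` the function field of the curve,
`L / K` the field of constants, `F` a fraction field of `L ⊗[K] Γ`.  A CHART is given by two
`K`-algebras `R`, `B` with `Frac R = L`, `Frac B = Γ` (in the application `R = V` or `L`, `V` a
valuation subring of `L`, and `B` = a valuation subring of `Γ` or `Γ` itself).

* `s26evxJ : R ⊗[K] B →ₐ[K] L ⊗[K] Γ` (injective), `s26evxIota : R ⊗[K] B →+* F` (injective);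
* `s26evx_clear` : every element of `L ⊗[K] Γ` is `J t / (r ⊗ b)`, `r ∈ R ∖ 0`, `b ∈ B ∖ 0`;
* `s26evxAlg : Algebra (R ⊗[K] B) F` (a `def`, use `letI`), `s26evx_isFractionRing`;
* `s26evx_isDomain : IsDomain (R ⊗[K] B)`;
* `s26evx_iota_mem` : a subring of `F` containing the images of `R` and `B` contains `ι(T)`;
* `s26evxCentre W hW` : the centre of a valuation subring `W ⊇ ι(T)` of `F`, a prime of `T`;
  `s26evx_mem_centre_iff`, `s26evx_val_eq_one`.
-/
import Fermat.Agent.S26.EVertInst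
import Mathlib.RingTheory.Valuation.ValuationSubring
import Mathlib.RingTheory.Localization.FractionRing

set_option autoImplicit false
set_option linter.unusedSectionVars false

noncomputable section

namespace Fermat.Agent.S26

open IsLocalRing TensorProduct

variable (K : Type*) [Field K] (L : Type*) [Field L] [Algebra K L]
  (Γ : Type*) [Field Γ] [Algebra K Γ]
  (R : Type*) [CommRing R] [Algebra K R] [Algebra R L] [IsScalarTower K R L] [IsFractionRing R L]
  (B : Type*) [CommRing B] [Algebra K B] [Algebra B Γ] [IsScalarTower K B Γ] [IsFractionRing B Γ]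

/-- `R ⊗[K] B → L ⊗[K] Γ` -/
def s26evxJ : R ⊗[K] B →ₐ[K] L ⊗[K] Γ :=
  Algebra.TensorProduct.map (IsScalarTower.toAlgHom K R L) (IsScalarTower.toAlgHom K B Γ)

@[simp] theorem s26evxJ_tmul (r : R) (b : B) :
    s26evxJ K L Γ R B (r ⊗ₜ[K] b) = (algebraMap R L r) ⊗ₜ[K] (algebraMap B Γ b) := rfl

theorem s26evxJ_injective : Function.Injective (s26evxJ K L Γ R B) := by
  have h1 : Function.Injective (IsScalarTower.toAlgHom K R L).toLinearMap :=
    IsFractionRing.injective R L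
  have h2 : Function.Injective (IsScalarTower.toAlgHom K B Γ).toLinearMap :=
    IsFractionRing.injective B Γ
  have h : (s26evxJ K L Γ R B : R ⊗[K] B → L ⊗[K] Γ) =
      (TensorProduct.map (IsScalarTower.toAlgHom K R L).toLinearMap
        (IsScalarTower.toAlgHom K B Γ).toLinearMap : R ⊗[K] B → L ⊗[K] Γ) := by
    funext x
    induction x using TensorProduct.induction_on with
    | zero => simp
    | tmul r b => rfl
    | add x y hx hy => rw [map_add, map_add, hx, hy]
  rw [h]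
  exact TensorProduct.map_injective_of_flat_flat _ _ h1 h2

/-- clearing the denominator of an element of a fraction field -/
theorem s26evx_clear_one (A : Type*) [CommRing A] {E : Type*} [Field E] [Algebra A E]
    [IsFractionRing A E] (l : E) :
    ∃ r₁ r₂ : A, r₂ ≠ 0 ∧ algebraMap A E r₂ * l = algebraMap A E r₁ := by
  have : IsDomain A := (IsFractionRing.injective A E).isDomain _
  obtain ⟨a, c, hc, rfl⟩ := IsFractionRing.div_surjective (A := A) l
  have hc0 : c ≠ 0 := nonZeroDivisors.ne_zero hc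
  have hcE : algebraMap A E c ≠ 0 := by
    simpa using (IsFractionRing.injective A E).ne hc0
  exact ⟨a, c, hc0, by field_simp⟩

/-- **clearing denominators**: every `x ∈ L ⊗[K] Γ` is `J t / (r ⊗ b)`. -/
theorem s26evx_clear (x : L ⊗[K] Γ) :
    ∃ (t : R ⊗[K] B) (r : R) (b : B), r ≠ 0 ∧ b ≠ 0 ∧
      ((algebraMap R L r) ⊗ₜ[K] (algebraMap B Γ b)) * x = s26evxJ K L Γ R B t := by
  have : IsDomain R := (IsFractionRing.injective R L).isDomain _
  have : IsDomain B := (IsFractionRing.injective B Γ).isDomain _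
  induction x using TensorProduct.induction_on with
  | zero => exact ⟨0, 1, 1, one_ne_zero, one_ne_zero, by simp⟩
  | tmul l γ =>
    obtain ⟨r₁, r₂, hr₂, hl⟩ := s26evx_clear_one R l
    obtain ⟨b₁, b₂, hb₂, hγ⟩ := s26evx_clear_one B γ
    refine ⟨r₁ ⊗ₜ[K] b₁, r₂, b₂, hr₂, hb₂, ?_⟩
    rw [Algebra.TensorProduct.tmul_mul_tmul, hl, hγ, s26evxJ_tmul]
  | add x y hx hy =>
    obtain ⟨t, r, b, hr, hb, h⟩ := hx
    obtain ⟨t', r', b', hr', hb', h'⟩ := hy
    refine ⟨(r' ⊗ₜ[K] b') * t + (r ⊗ₜ[K] b) * t', r * r', b * b', mul_ne_zero hr hr',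
      mul_ne_zero hb hb', ?_⟩
    have e1 : s26evxJ K L Γ R B ((r' ⊗ₜ[K] b') * t + (r ⊗ₜ[K] b) * t') =
        s26evxJ K L Γ R B (r' ⊗ₜ[K] b') * s26evxJ K L Γ R B t +
          s26evxJ K L Γ R B (r ⊗ₜ[K] b) * s26evxJ K L Γ R B t' := by
      rw [map_add, map_mul, map_mul]
    rw [e1, ← h, ← h', s26evxJ_tmul, s26evxJ_tmul, map_mul (algebraMap R L),
      map_mul (algebraMap B Γ), ← Algebra.TensorProduct.tmul_mul_tmul]
    ring

variable (F : Type*) [Field F] [Algebra (L ⊗[K] Γ) F] [IsFractionRing (L ⊗[K] Γ) F]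

/-- `ι : R ⊗[K] B → F` -/
def s26evxIota : R ⊗[K] B →+* F :=
  (algebraMap (L ⊗[K] Γ) F).comp (s26evxJ K L Γ R B).toRingHom

theorem s26evxIota_apply (t : R ⊗[K] B) :
    s26evxIota K L Γ R B F t = algebraMap (L ⊗[K] Γ) F (s26evxJ K L Γ R B t) := rfl

theorem s26evxIota_injective : Function.Injective (s26evxIota K L Γ R B F) :=
  (IsFractionRing.injective (L ⊗[K] Γ) F).comp (s26evxJ_injective K L Γ R B)

/-- the algebra structure of `F` over the chart (a `def`: use `letI`) -/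
@[reducible] def s26evxAlg : Algebra (R ⊗[K] B) F := (s26evxIota K L Γ R B F).toAlgebra

include L Γ F in
theorem s26evx_isDomain : IsDomain (R ⊗[K] B) :=
  (s26evxIota_injective K L Γ R B F).isDomain _

theorem s26evx_tmul_ne_zero {r : R} {b : B} (hr : r ≠ 0) (hb : b ≠ 0) :
    algebraMap (L ⊗[K] Γ) F ((algebraMap R L r) ⊗ₜ[K] (algebraMap B Γ b)) ≠ 0 := by
  have hr' : algebraMap R L r ≠ 0 := by
    simpa using (IsFractionRing.injective R L).ne hr
  have hb' : algebraMap B Γ b ≠ 0 := by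
    simpa using (IsFractionRing.injective B Γ).ne hb
  have h1 : IsUnit ((algebraMap R L r) ⊗ₜ[K] (algebraMap B Γ b)) := by
    refine ⟨⟨(algebraMap R L r) ⊗ₜ[K] (algebraMap B Γ b),
      (algebraMap R L r)⁻¹ ⊗ₜ[K] (algebraMap B Γ b)⁻¹, ?_, ?_⟩, rfl⟩
    · rw [Algebra.TensorProduct.tmul_mul_tmul, mul_inv_cancel₀ hr', mul_inv_cancel₀ hb']
      rfl
    · rw [Algebra.TensorProduct.tmul_mul_tmul, inv_mul_cancel₀ hr', inv_mul_cancel₀ hb']
      rfl
  exact (h1.map (algebraMap (L ⊗[K] Γ) F)).ne_zero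

/-- every element of `F` is a quotient of two elements of the chart -/
theorem s26evx_exists_div (z : F) :
    ∃ x y : R ⊗[K] B, s26evxIota K L Γ R B F y ≠ 0 ∧
      z = s26evxIota K L Γ R B F x / s26evxIota K L Γ R B F y := by
  have : IsDomain (L ⊗[K] Γ) := (IsFractionRing.injective (L ⊗[K] Γ) F).isDomain _
  obtain ⟨a, c, hc, rfl⟩ := IsFractionRing.div_surjective (A := L ⊗[K] Γ) z
  have hc0 : c ≠ 0 := nonZeroDivisors.ne_zero hc
  have hcF : algebraMap (L ⊗[K] Γ) F c ≠ 0 := by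
    intro h0
    exact hc0 ((IsFractionRing.injective (L ⊗[K] Γ) F) (by rw [h0, map_zero]))
  obtain ⟨t, r, b, hr, hb, h⟩ := s26evx_clear K L Γ R B a
  obtain ⟨t', r', b', hr', hb', h'⟩ := s26evx_clear K L Γ R B c
  have h1 := s26evx_tmul_ne_zero K L Γ R B F hr hb
  have h2 := s26evx_tmul_ne_zero K L Γ R B F hr' hb'
  have e1 : s26evxIota K L Γ R B F t =
      algebraMap (L ⊗[K] Γ) F ((algebraMap R L r) ⊗ₜ[K] (algebraMap B Γ b)) *
        algebraMap (L ⊗[K] Γ) F a := by
    rw [s26evxIota_apply, ← h, map_mul]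
  have e2 : s26evxIota K L Γ R B F t' =
      algebraMap (L ⊗[K] Γ) F ((algebraMap R L r') ⊗ₜ[K] (algebraMap B Γ b')) *
        algebraMap (L ⊗[K] Γ) F c := by
    rw [s26evxIota_apply, ← h', map_mul]
  have e3 : s26evxIota K L Γ R B F (r' ⊗ₜ[K] b') =
      algebraMap (L ⊗[K] Γ) F ((algebraMap R L r') ⊗ₜ[K] (algebraMap B Γ b')) := rfl
  have e4 : s26evxIota K L Γ R B F (r ⊗ₜ[K] b) =
      algebraMap (L ⊗[K] Γ) F ((algebraMap R L r) ⊗ₜ[K] (algebraMap B Γ b)) := rfl
  refine ⟨t * (r' ⊗ₜ[K] b'), t' * (r ⊗ₜ[K] b), ?_, ?_⟩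
  · rw [map_mul, e2, e4]
    exact mul_ne_zero (mul_ne_zero h2 hcF) h1
  · rw [map_mul, map_mul, e1, e2, e3, e4]
    field_simp

theorem s26evx_isFractionRing :
    letI := s26evxAlg K L Γ R B F
    IsFractionRing (R ⊗[K] B) F := by
  letI := s26evxAlg K L Γ R B F
  haveI : FaithfulSMul (R ⊗[K] B) F :=
    (faithfulSMul_iff_algebraMap_injective _ _).2 (s26evxIota_injective K L Γ R B F)
  refine IsFractionRing.of_field _ _ (fun z => ?_)
  obtain ⟨x, y, -, h⟩ := s26evx_exists_div K L Γ R B F z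
  exact ⟨x, y, h⟩

/-- a subring of `F` containing the images of `R` and of `B` contains the image of the chart -/
theorem s26evx_iota_mem (S : Subring F)
    (hR : ∀ r : R, algebraMap (L ⊗[K] Γ) F ((algebraMap R L r) ⊗ₜ[K] (1 : Γ)) ∈ S)
    (hB : ∀ b : B, algebraMap (L ⊗[K] Γ) F ((1 : L) ⊗ₜ[K] (algebraMap B Γ b)) ∈ S)
    (t : R ⊗[K] B) : s26evxIota K L Γ R B F t ∈ S := by
  induction t using TensorProduct.induction_on with
  | zero => rw [map_zero]; exact S.zero_mem
  | tmul r b =>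
    have h : s26evxIota K L Γ R B F (r ⊗ₜ[K] b) =
        algebraMap (L ⊗[K] Γ) F ((algebraMap R L r) ⊗ₜ[K] (1 : Γ)) *
          algebraMap (L ⊗[K] Γ) F ((1 : L) ⊗ₜ[K] (algebraMap B Γ b)) := by
      rw [← map_mul, Algebra.TensorProduct.tmul_mul_tmul, mul_one, one_mul]
      rfl
    rw [h]
    exact S.mul_mem (hR r) (hB b)
  | add x y hx hy => rw [map_add]; exact S.add_mem hx hy

variable {K L Γ R B F}

/-- the chart, as a ring homomorphism into a valuation subring containing its image -/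
def s26evxToW (W : ValuationSubring F) (hW : ∀ t : R ⊗[K] B, s26evxIota K L Γ R B F t ∈ W) :
    R ⊗[K] B →+* ↥W :=
  (s26evxIota K L Γ R B F).codRestrict W.toSubring hW

/-- the centre on the chart of a valuation subring `W ⊇ ι(T)` of `F` -/
def s26evxCentre (W : ValuationSubring F) (hW : ∀ t : R ⊗[K] B, s26evxIota K L Γ R B F t ∈ W) :
    Ideal (R ⊗[K] B) :=
  Ideal.comap (s26evxToW W hW) (maximalIdeal ↥W)

instance s26evxCentre_isPrime (W : ValuationSubring F)
    (hW : ∀ t : R ⊗[K] B, s26evxIota K L Γ R B F t ∈ W) : (s26evxCentre W hW).IsPrime :=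
  Ideal.comap_isPrime _ _

theorem s26evx_mem_centre_iff (W : ValuationSubring F)
    (hW : ∀ t : R ⊗[K] B, s26evxIota K L Γ R B F t ∈ W) (t : R ⊗[K] B) :
    t ∈ s26evxCentre W hW ↔ W.valuation (s26evxIota K L Γ R B F t) < 1 := by
  unfold s26evxCentre
  rw [Ideal.mem_comap]
  exact W.valuation_lt_one_iff (s26evxToW W hW t)

theorem s26evx_val_eq_one (W : ValuationSubring F)
    (hW : ∀ t : R ⊗[K] B, s26evxIota K L Γ R B F t ∈ W) {t : R ⊗[K] B}
    (ht : t ∉ s26evxCentre W hW) : W.valuation (s26evxIota K L Γ R B F t) = 1 := by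
  rw [s26evx_mem_centre_iff, not_lt] at ht
  exact le_antisymm ((W.valuation_le_one_iff _).2 (hW t)) ht

end Fermat.Agent.S26
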