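/-
S26-E-VERT, piece (W0) (helper68, for helper38 / helper57 / helper71): THE COMPOSITE VALUATION
`W₀ = V ∘ γ₀` of `F = Frac (L ⊗[K] Γ)`.

Part 1 (abstract, in the setting of helper12's `ERedGauss.lean`): the Gauss ring `O` of a valuation
ring `V' ⊂ L'` on `F = Frac (L' ⊗[K] Γ')` as a `ValuationSubring` (`s26evsGauss`), its reduction
`O → Fb`, and for a valuation subring `Vb` of `Fb` the composite `s26evsComp` with its local
residue homomorphism `s26evsCompEv : ↥comp →+* ↥Vb`.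
-/
import Fermat.Agent.S26.ERedGaussQ2
import Fermat.Agent.S26.ESpecB1
import Fermat.Agent.S26.EVertChart

set_option autoImplicit false
set_option linter.style.haveILetI false
set_option linter.unusedSectionVars false
set_option linter.unusedVariables false

noncomputable section

namespace Fermat.Agent.S26

open TensorProduct

section Abstract

variable {K : Type*} [Field K] {L : Type*} [Field L] [Algebra K L]
  {Γ : Type*} [Field Γ] [Algebra K Γ]
  {V : ValuationSubring L} [Algebra K ↥V] [IsScalarTower K ↥V L]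
  {k : Type*} [Field k] [Algebra K k] {res : ↥V →ₐ[K] k}
  {F : Type*} [Field F] [Algebra L F] [Algebra (L ⊗[K] Γ) F]
  [IsScalarTower L (L ⊗[K] Γ) F] [IsFractionRing (L ⊗[K] Γ) F]
  {Fb : Type*} [Field Fb] [Algebra k Fb] [Algebra (k ⊗[K] Γ) Fb]
  [IsScalarTower k (k ⊗[K] Γ) Fb]

variable (K Γ V res F Fb) in
/-- the Gauss ring of `V` on `F`, as a valuation subring. -/
def s26evsGauss (hFb : Function.Injective (algebraMap (k ⊗[K] Γ) Fb)) : ValuationSubring F :=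
  { s26ergO K Γ V res F Fb with
    mem_or_inv_mem' := fun f => s26erg_mem_or_inv_mem (K := K) (Γ := Γ) (V := V) (res := res)
      (Fb := Fb) hFb f }

theorem s26evs_mem_gauss (hFb : Function.Injective (algebraMap (k ⊗[K] Γ) Fb)) (x : F) :
    x ∈ s26evsGauss K Γ V res F Fb hFb ↔ x ∈ s26ergO K Γ V res F Fb := Iff.rfl

variable (K Γ V res F Fb) in
/-- the reduction on the Gauss ring. -/
def s26evsRed (hFb : Function.Injective (algebraMap (k ⊗[K] Γ) Fb)) :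
    ↥(s26evsGauss K Γ V res F Fb hFb) →+* Fb :=
  (s26ergRed K Γ V res F Fb).comp
    (Subring.inclusion (S := (s26evsGauss K Γ V res F Fb hFb).toSubring)
      (T := s26ergO K Γ V res F Fb) (fun _ h => h))

theorem s26evsRed_apply (hFb : Function.Injective (algebraMap (k ⊗[K] Γ) Fb))
    (x : ↥(s26evsGauss K Γ V res F Fb hFb)) :
    s26evsRed K Γ V res F Fb hFb x = s26ergRed K Γ V res F Fb ⟨(x : F), x.2⟩ := rfl

theorem s26evs_hker (hFb : Function.Injective (algebraMap (k ⊗[K] Γ) Fb))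
    (x : ↥(s26evsGauss K Γ V res F Fb hFb))
    (hx : (x : F) ∈ (s26evsGauss K Γ V res F Fb hFb).nonunits) :
    s26evsRed K Γ V res F Fb hFb x = 0 := by
  by_contra h0
  rw [s26evsRed_apply] at h0
  have hinv : ((x : F))⁻¹ ∈ s26ergO K Γ V res F Fb := s26erg_inv_mem ⟨(x : F), x.2⟩ h0
  rw [ValuationSubring.mem_nonunits_iff] at hx
  have h1 : (s26evsGauss K Γ V res F Fb hFb).valuation ((x : F))⁻¹ ≤ 1 :=
    (ValuationSubring.valuation_le_one_iff _ _).2 hinv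
  rw [map_inv₀] at h1
  have hx0 : (s26evsGauss K Γ V res F Fb hFb).valuation (x : F) ≠ 0 := by
    intro h
    rw [h, inv_zero] at h1
    rw [h] at hx
    have hxz : (x : F) = 0 := (Valuation.zero_iff _).1 h
    apply h0
    have : (⟨(x : F), x.2⟩ : s26ergO K Γ V res F Fb) = 0 := Subtype.ext hxz
    rw [this, map_zero]
  have h2 := (inv_le_one₀ (zero_lt_iff.2 hx0)).1 h1
  exact absurd hx (not_lt.2 h2)

variable (K Γ V res F Fb) in
/-- **the composite** of the Gauss ring of `V` with a valuation subring `Vb` of `Fb`. -/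
def s26evsComp (hFb : Function.Injective (algebraMap (k ⊗[K] Γ) Fb)) (Vb : ValuationSubring Fb) :
    ValuationSubring F :=
  s26espbComp (s26evsGauss K Γ V res F Fb hFb) (s26evsRed K Γ V res F Fb hFb) Vb
    (s26evs_hker hFb)

theorem s26evs_mem_comp_iff (hFb : Function.Injective (algebraMap (k ⊗[K] Γ) Fb))
    (Vb : ValuationSubring Fb) (x : F) :
    x ∈ s26evsComp K Γ V res F Fb hFb Vb ↔
      ∃ hx : x ∈ s26ergO K Γ V res F Fb, s26ergRed K Γ V res F Fb ⟨x, hx⟩ ∈ Vb := Iff.rfl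

variable (K Γ V res F Fb) in
/-- the residue homomorphism of the composite. -/
def s26evsCompEv (hFb : Function.Injective (algebraMap (k ⊗[K] Γ) Fb))
    (Vb : ValuationSubring Fb) : ↥(s26evsComp K Γ V res F Fb hFb Vb) →+* ↥Vb :=
  s26espbCompRes (s26evsGauss K Γ V res F Fb hFb) (s26evsRed K Γ V res F Fb hFb) Vb
    (s26evs_hker hFb)

theorem s26evsCompEv_coe (hFb : Function.Injective (algebraMap (k ⊗[K] Γ) Fb))
    (Vb : ValuationSubring Fb) (x : ↥(s26evsComp K Γ V res F Fb hFb Vb)) :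
    ((s26evsCompEv K Γ V res F Fb hFb Vb x : ↥Vb) : Fb) =
      s26ergRed K Γ V res F Fb ⟨(x : F), x.2.1⟩ := rfl

theorem s26evsCompEv_isLocalHom (hFb : Function.Injective (algebraMap (k ⊗[K] Γ) Fb))
    (Vb : ValuationSubring Fb) : IsLocalHom (s26evsCompEv K Γ V res F Fb hFb Vb) :=
  s26espb_compRes_isLocalHom _ _ _ _

theorem s26evs_iota_mem_comp_iff (hFb : Function.Injective (algebraMap (k ⊗[K] Γ) Fb))
    (Vb : ValuationSubring Fb) (t : ↥V ⊗[K] Γ) :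
    s26ergIota K Γ V F t ∈ s26evsComp K Γ V res F Fb hFb Vb ↔
      s26ergBar K Γ V res Fb t ∈ Vb := by
  rw [s26evs_mem_comp_iff]
  constructor
  · rintro ⟨hx, h⟩
    have e := s26erg_red_iota (K := K) (Γ := Γ) (V := V) (res := res) (F := F) (Fb := Fb) t
    have e' : s26ergRed K Γ V res F Fb ⟨s26ergIota K Γ V F t, hx⟩ = s26ergBar K Γ V res Fb t := e
    rwa [e'] at h
  · intro h
    refine ⟨s26ergIota_mem_O t, ?_⟩
    rw [s26erg_red_iota]
    exact h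

theorem s26evsCompEv_iota (hFb : Function.Injective (algebraMap (k ⊗[K] Γ) Fb))
    (Vb : ValuationSubring Fb) (t : ↥V ⊗[K] Γ)
    (ht : s26ergIota K Γ V F t ∈ s26evsComp K Γ V res F Fb hFb Vb) :
    ((s26evsCompEv K Γ V res F Fb hFb Vb ⟨s26ergIota K Γ V F t, ht⟩ : ↥Vb) : Fb) =
      s26ergBar K Γ V res Fb t := by
  rw [s26evsCompEv_coe]
  exact s26erg_red_iota (K := K) (Γ := Γ) (V := V) (res := res) (F := F) (Fb := Fb) t

theorem s26evsCompEv_of_eq (hFb : Function.Injective (algebraMap (k ⊗[K] Γ) Fb))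
    (Vb : ValuationSubring Fb) (x : ↥(s26evsComp K Γ V res F Fb hFb Vb)) (t : ↥V ⊗[K] Γ)
    (h : (x : F) = s26ergIota K Γ V F t) :
    ((s26evsCompEv K Γ V res F Fb hFb Vb x : ↥Vb) : Fb) = s26ergBar K Γ V res Fb t := by
  obtain ⟨x, hx⟩ := x
  simp only at h
  subst h
  exact s26evsCompEv_iota hFb Vb t hx

theorem s26evsRed_of_eq (hFb : Function.Injective (algebraMap (k ⊗[K] Γ) Fb))
    (x : ↥(s26evsGauss K Γ V res F Fb hFb)) (t : ↥V ⊗[K] Γ)
    (h : (x : F) = s26ergIota K Γ V F t) :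
    s26evsRed K Γ V res F Fb hFb x = s26ergBar K Γ V res Fb t := by
  obtain ⟨x, hx⟩ := x
  simp only at h
  subst h
  rw [s26evsRed_apply]
  exact s26erg_red_iota (K := K) (Γ := Γ) (V := V) (res := res) (F := F) (Fb := Fb) t

end Abstract

/-! ## Part 2: the instance `W₀ = V ∘ γ₀` -/

section Swap

variable (K : Type*) [Field K] (L : Type*) [Field L] [Algebra K L]
  (Γ : Type*) [Field Γ] [Algebra K Γ]
  (F : Type*) [Field F] [Algebra (L ⊗[K] Γ) F] [IsFractionRing (L ⊗[K] Γ) F]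

/-- `L → F`. -/
def s26evsL : L →+* F :=
  (algebraMap (L ⊗[K] Γ) F).comp (Algebra.TensorProduct.includeLeftRingHom)

/-- `Γ → F`. -/
def s26evsR : Γ →+* F :=
  (algebraMap (L ⊗[K] Γ) F).comp
    (Algebra.TensorProduct.includeRight : Γ →ₐ[K] L ⊗[K] Γ).toRingHom

theorem s26evsL_apply (l : L) :
    s26evsL K L Γ F l = algebraMap (L ⊗[K] Γ) F (l ⊗ₜ[K] (1 : Γ)) := rfl

theorem s26evsR_apply (γ : Γ) :
    s26evsR K L Γ F γ = algebraMap (L ⊗[K] Γ) F ((1 : L) ⊗ₜ[K] γ) := rfl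

/-- the swapped structure: `F` as an algebra over `Γ ⊗[K] L` (a `def`: use `letI`). -/
@[reducible] def s26evsAlgSw : Algebra (Γ ⊗[K] L) F :=
  ((algebraMap (L ⊗[K] Γ) F).comp
    ((Algebra.TensorProduct.comm K Γ L : Γ ⊗[K] L ≃ₐ[K] L ⊗[K] Γ) : Γ ⊗[K] L →+* L ⊗[K] Γ)).toAlgebra

/-- `F` as an algebra over `Γ` (a `def`: use `letI`). -/
@[reducible] def s26evsAlgR : Algebra Γ F := (s26evsR K L Γ F).toAlgebra

theorem s26evs_algebraMap_sw (x : Γ ⊗[K] L) :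
    letI := s26evsAlgSw K L Γ F
    algebraMap (Γ ⊗[K] L) F x =
      algebraMap (L ⊗[K] Γ) F (Algebra.TensorProduct.comm K Γ L x) := rfl

theorem s26evs_tower_sw :
    letI := s26evsAlgSw K L Γ F
    letI := s26evsAlgR K L Γ F
    IsScalarTower Γ (Γ ⊗[K] L) F := by
  letI := s26evsAlgSw K L Γ F
  letI := s26evsAlgR K L Γ F
  refine IsScalarTower.of_algebraMap_eq fun γ => ?_
  rw [s26evs_algebraMap_sw, Algebra.TensorProduct.algebraMap_apply, Algebra.algebraMap_self,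
    RingHom.id_apply, Algebra.TensorProduct.comm_tmul]
  rfl

theorem s26evs_isFractionRing_sw :
    letI := s26evsAlgSw K L Γ F
    IsFractionRing (Γ ⊗[K] L) F := by
  letI := s26evsAlgSw K L Γ F
  have hinj : Function.Injective (algebraMap (Γ ⊗[K] L) F) :=
    (IsFractionRing.injective (L ⊗[K] Γ) F).comp (Algebra.TensorProduct.comm K Γ L).injective
  haveI : FaithfulSMul (Γ ⊗[K] L) F := (faithfulSMul_iff_algebraMap_injective _ _).2 hinj
  refine IsFractionRing.of_field _ _ (fun z => ?_)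
  haveI : IsDomain (L ⊗[K] Γ) := (IsFractionRing.injective (L ⊗[K] Γ) F).isDomain _
  obtain ⟨a, c, -, rfl⟩ := IsFractionRing.div_surjective (A := L ⊗[K] Γ) z
  refine ⟨(Algebra.TensorProduct.comm K Γ L).symm a, (Algebra.TensorProduct.comm K Γ L).symm c, ?_⟩
  rw [s26evs_algebraMap_sw, s26evs_algebraMap_sw, AlgEquiv.apply_symm_apply,
    AlgEquiv.apply_symm_apply]

/-- `L` as an algebra over `K ⊗[K] L` (a `def`: use `letI`). -/
@[reducible] def s26evsAlgLid : Algebra (K ⊗[K] L) L :=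
  ((Algebra.TensorProduct.lid K L : K ⊗[K] L ≃ₐ[K] L) : K ⊗[K] L →+* L).toAlgebra

theorem s26evs_algebraMap_lid (x : K ⊗[K] L) :
    letI := s26evsAlgLid K L
    algebraMap (K ⊗[K] L) L x = Algebra.TensorProduct.lid K L x := rfl

theorem s26evs_tower_lid :
    letI := s26evsAlgLid K L
    IsScalarTower K (K ⊗[K] L) L := by
  letI := s26evsAlgLid K L
  refine IsScalarTower.of_algebraMap_eq (R := K) (S := K ⊗[K] L) (A := L) fun a => ?_
  rw [s26evs_algebraMap_lid, Algebra.TensorProduct.algebraMap_apply, Algebra.algebraMap_self,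
    RingHom.id_apply, Algebra.TensorProduct.lid_tmul, Algebra.algebraMap_eq_smul_one]

theorem s26evs_hFb :
    letI := s26evsAlgLid K L
    Function.Injective (algebraMap (K ⊗[K] L) L) :=
  (Algebra.TensorProduct.lid K L).injective

end Swap

section W0

variable (K : Type*) [Field K] (L : Type*) [Field L] [Algebra K L]
  (Γ : Type*) [Field Γ] [Algebra K Γ]
  (F : Type*) [Field F] [Algebra (L ⊗[K] Γ) F] [IsFractionRing (L ⊗[K] Γ) F]
  (V : ValuationSubring L) [Algebra K ↥V] [IsScalarTower K ↥V L]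
  (B₀ : ValuationSubring Γ) [Algebra K ↥B₀] [IsScalarTower K ↥B₀ Γ] (e : ↥B₀ →ₐ[K] K)

/-- **the Gauss ring over `γ₀`**: the valuation subring of `F` of the place of `F / L` over the
place `γ₀ = (B₀, e)` of `Γ / K`. -/
def s26evsO : ValuationSubring F :=
  letI := s26evsAlgSw K L Γ F
  letI := s26evsAlgR K L Γ F
  haveI := s26evs_tower_sw K L Γ F
  haveI := s26evs_isFractionRing_sw K L Γ F
  letI := s26evsAlgLid K L
  haveI := s26evs_tower_lid K L
  s26evsGauss K L B₀ e F L (s26evs_hFb K L)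

/-- **the composite valuation subring `W₀ = V ∘ γ₀`** of `F`. -/
def s26evsW0 : ValuationSubring F :=
  letI := s26evsAlgSw K L Γ F
  letI := s26evsAlgR K L Γ F
  haveI := s26evs_tower_sw K L Γ F
  haveI := s26evs_isFractionRing_sw K L Γ F
  letI := s26evsAlgLid K L
  haveI := s26evs_tower_lid K L
  s26evsComp K L B₀ e F L (s26evs_hFb K L) V

/-- **the residue homomorphism `W₀ → V`**. -/
def s26evsEv : ↥(s26evsW0 K L Γ F V B₀ e) →+* ↥V :=
  letI := s26evsAlgSw K L Γ F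
  letI := s26evsAlgR K L Γ F
  haveI := s26evs_tower_sw K L Γ F
  haveI := s26evs_isFractionRing_sw K L Γ F
  letI := s26evsAlgLid K L
  haveI := s26evs_tower_lid K L
  s26evsCompEv K L B₀ e F L (s26evs_hFb K L) V

theorem s26evsEv_isLocalHom : IsLocalHom (s26evsEv K L Γ F V B₀ e) :=
  letI := s26evsAlgSw K L Γ F
  letI := s26evsAlgR K L Γ F
  haveI := s26evs_tower_sw K L Γ F
  haveI := s26evs_isFractionRing_sw K L Γ F
  letI := s26evsAlgLid K L
  haveI := s26evs_tower_lid K L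
  s26evsCompEv_isLocalHom (s26evs_hFb K L) V

theorem s26evsW0_le : s26evsW0 K L Γ F V B₀ e ≤ s26evsO K L Γ F B₀ e := fun _ hx => hx.1

/-- the swap `V ⊗ B₀ → B₀ ⊗ L`. -/
def s26evsSigma : ↥V ⊗[K] ↥B₀ →ₐ[K] ↥B₀ ⊗[K] L :=
  (Algebra.TensorProduct.map (AlgHom.id K ↥B₀) (IsScalarTower.toAlgHom K ↥V L)).comp
    (Algebra.TensorProduct.comm K ↥V ↥B₀).toAlgHom

theorem s26evsSigma_tmul (v : ↥V) (b : ↥B₀) :
    s26evsSigma K L Γ V B₀ (v ⊗ₜ[K] b) = b ⊗ₜ[K] (v : L) := rfl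

/-- the chart `V ⊗ B₀ → F` of helper38 factors through the swap. -/
theorem s26evs_iota_sigma (t : ↥V ⊗[K] ↥B₀) :
    letI := s26evsAlgSw K L Γ F
    letI := s26evsAlgR K L Γ F
    s26ergIota K L B₀ F (s26evsSigma K L Γ V B₀ t) = s26evxIota K L Γ ↥V ↥B₀ F t := by
  letI := s26evsAlgSw K L Γ F
  letI := s26evsAlgR K L Γ F
  induction t using TensorProduct.induction_on with
  | zero => rw [map_zero, map_zero, map_zero]
  | tmul v b => rfl
  | add x y hx hy => rw [map_add, map_add, map_add, hx, hy]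

/-- the reduction of the swap is the section `id ⊗ e`. -/
theorem s26evs_bar_sigma (t : ↥V ⊗[K] ↥B₀) :
    letI := s26evsAlgLid K L
    s26ergBar K L B₀ e L (s26evsSigma K L Γ V B₀ t) = ((s26eviSec e t : ↥V) : L) := by
  letI := s26evsAlgLid K L
  induction t using TensorProduct.induction_on with
  | zero =>
    rw [map_zero, map_zero, map_zero]
    rfl
  | tmul v b =>
    rw [s26eviSec_tmul, s26evsSigma_tmul]
    show Algebra.TensorProduct.lid K L (e b ⊗ₜ[K] (v : L)) = _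
    rw [Algebra.TensorProduct.lid_tmul, Algebra.smul_def, Algebra.smul_def,
      IsScalarTower.algebraMap_apply K ↥V L]
    rfl
  | add x y hx hy =>
    rw [map_add, map_add, map_add, hx, hy]
    rfl

/-- the reduction `O → L` of the Gauss ring over `γ₀`. -/
def s26evsORed : ↥(s26evsO K L Γ F B₀ e) →+* L :=
  letI := s26evsAlgSw K L Γ F
  letI := s26evsAlgR K L Γ F
  haveI := s26evs_tower_sw K L Γ F
  haveI := s26evs_isFractionRing_sw K L Γ F
  letI := s26evsAlgLid K L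
  haveI := s26evs_tower_lid K L
  s26evsRed K L B₀ e F L (s26evs_hFb K L)

theorem s26evs_mem_W0_iff (x : F) :
    x ∈ s26evsW0 K L Γ F V B₀ e ↔
      ∃ hx : x ∈ s26evsO K L Γ F B₀ e, s26evsORed K L Γ F B₀ e ⟨x, hx⟩ ∈ V := Iff.rfl

theorem s26evsEv_coe (x : ↥(s26evsW0 K L Γ F V B₀ e)) :
    ((s26evsEv K L Γ F V B₀ e x : ↥V) : L) =
      s26evsORed K L Γ F B₀ e ⟨(x : F), s26evsW0_le K L Γ F V B₀ e x.2⟩ := rfl

/-- non-units of `O` have reduction `0`. -/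
theorem s26evsORed_nonunits (x : ↥(s26evsO K L Γ F B₀ e))
    (hx : (x : F) ∈ (s26evsO K L Γ F B₀ e).nonunits) : s26evsORed K L Γ F B₀ e x = 0 :=
  letI := s26evsAlgSw K L Γ F
  letI := s26evsAlgR K L Γ F
  haveI := s26evs_tower_sw K L Γ F
  haveI := s26evs_isFractionRing_sw K L Γ F
  letI := s26evsAlgLid K L
  haveI := s26evs_tower_lid K L
  s26evs_hker (s26evs_hFb K L) x hx

/-- the elements of `L` lie in `O`, with reduction the identity. -/
theorem s26evs_L_mem_O (l : L) : s26evsL K L Γ F l ∈ s26evsO K L Γ F B₀ e :=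
  letI := s26evsAlgSw K L Γ F
  letI := s26evsAlgR K L Γ F
  haveI := s26evs_tower_sw K L Γ F
  haveI := s26evs_isFractionRing_sw K L Γ F
  letI := s26evsAlgLid K L
  haveI := s26evs_tower_lid K L
  s26ergIota_mem_O (K := K) (Γ := L) (V := B₀) (res := e) (F := F) (Fb := L) ((1 : ↥B₀) ⊗ₜ[K] l)

theorem s26evsORed_L (l : L) :
    s26evsORed K L Γ F B₀ e ⟨s26evsL K L Γ F l, s26evs_L_mem_O K L Γ F B₀ e l⟩ = l := by
  letI := s26evsAlgSw K L Γ F
  letI := s26evsAlgR K L Γ F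
  haveI := s26evs_tower_sw K L Γ F
  haveI := s26evs_isFractionRing_sw K L Γ F
  letI := s26evsAlgLid K L
  haveI := s26evs_tower_lid K L
  have h := s26evsRed_of_eq (K := K) (Γ := L) (V := B₀) (res := e) (F := F) (Fb := L)
    (s26evs_hFb K L) ⟨s26evsL K L Γ F l, s26evs_L_mem_O K L Γ F B₀ e l⟩ ((1 : ↥B₀) ⊗ₜ[K] l) rfl
  refine h.trans ?_
  show Algebra.TensorProduct.lid K L (e 1 ⊗ₜ[K] l) = l
  rw [map_one, Algebra.TensorProduct.lid_tmul, one_smul]

/-- the elements of `B₀` lie in `O`, with reduction `e`. -/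
theorem s26evs_R_mem_O (b : ↥B₀) : s26evsR K L Γ F (b : Γ) ∈ s26evsO K L Γ F B₀ e :=
  letI := s26evsAlgSw K L Γ F
  letI := s26evsAlgR K L Γ F
  haveI := s26evs_tower_sw K L Γ F
  haveI := s26evs_isFractionRing_sw K L Γ F
  letI := s26evsAlgLid K L
  haveI := s26evs_tower_lid K L
  s26ergIota_mem_O (K := K) (Γ := L) (V := B₀) (res := e) (F := F) (Fb := L) (b ⊗ₜ[K] (1 : L))

theorem s26evsORed_R (b : ↥B₀) :
    s26evsORed K L Γ F B₀ e ⟨s26evsR K L Γ F (b : Γ), s26evs_R_mem_O K L Γ F B₀ e b⟩ =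
      algebraMap K L (e b) := by
  letI := s26evsAlgSw K L Γ F
  letI := s26evsAlgR K L Γ F
  haveI := s26evs_tower_sw K L Γ F
  haveI := s26evs_isFractionRing_sw K L Γ F
  letI := s26evsAlgLid K L
  haveI := s26evs_tower_lid K L
  have h := s26evsRed_of_eq (K := K) (Γ := L) (V := B₀) (res := e) (F := F) (Fb := L)
    (s26evs_hFb K L) ⟨s26evsR K L Γ F (b : Γ), s26evs_R_mem_O K L Γ F B₀ e b⟩
    (b ⊗ₜ[K] (1 : L)) rfl
  refine h.trans ?_
  show Algebra.TensorProduct.lid K L (e b ⊗ₜ[K] (1 : L)) = _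
  rw [Algebra.TensorProduct.lid_tmul, Algebra.algebraMap_eq_smul_one]

/-- **(a)**: the chart `V ⊗ B₀` lies in `W₀`. -/
theorem s26evs_iota_mem (t : ↥V ⊗[K] ↥B₀) :
    s26evxIota K L Γ ↥V ↥B₀ F t ∈ s26evsW0 K L Γ F V B₀ e := by
  letI := s26evsAlgSw K L Γ F
  letI := s26evsAlgR K L Γ F
  haveI := s26evs_tower_sw K L Γ F
  haveI := s26evs_isFractionRing_sw K L Γ F
  letI := s26evsAlgLid K L
  haveI := s26evs_tower_lid K L
  rw [← s26evs_iota_sigma K L Γ F V B₀ t]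
  refine (s26evs_iota_mem_comp_iff (K := K) (Γ := L) (V := B₀) (res := e) (F := F) (Fb := L)
    (s26evs_hFb K L) V _).2 ?_
  rw [s26evs_bar_sigma K L Γ V B₀ e t]
  exact (s26eviSec e t).2

/-- **(b)**: the residue homomorphism on the chart is the section `id ⊗ e`. -/
theorem s26evsEv_iota (t : ↥V ⊗[K] ↥B₀) :
    s26evsEv K L Γ F V B₀ e ⟨s26evxIota K L Γ ↥V ↥B₀ F t, s26evs_iota_mem K L Γ F V B₀ e t⟩ =
      s26eviSec e t := by
  letI := s26evsAlgSw K L Γ F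
  letI := s26evsAlgR K L Γ F
  haveI := s26evs_tower_sw K L Γ F
  haveI := s26evs_isFractionRing_sw K L Γ F
  letI := s26evsAlgLid K L
  haveI := s26evs_tower_lid K L
  apply Subtype.ext
  have h := s26evsCompEv_of_eq (K := K) (Γ := L) (V := B₀) (res := e) (F := F) (Fb := L)
    (s26evs_hFb K L) V
    ⟨s26evxIota K L Γ ↥V ↥B₀ F t, s26evs_iota_mem K L Γ F V B₀ e t⟩
    (s26evsSigma K L Γ V B₀ t) (s26evs_iota_sigma K L Γ F V B₀ t).symm
  exact h.trans (s26evs_bar_sigma K L Γ V B₀ e t)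

/-- the ∃-package, in the shape of `hSEC` of `s26evm_main` (without its last clause). -/
theorem s26evs_exists :
    ∃ (W₀ : ValuationSubring F) (hT : ∀ t, s26evxIota K L Γ ↥V ↥B₀ F t ∈ W₀)
      (ev : ↥W₀ →+* ↥V), IsLocalHom ev ∧ ∀ t, ev ⟨_, hT t⟩ = s26eviSec e t :=
  ⟨s26evsW0 K L Γ F V B₀ e, s26evs_iota_mem K L Γ F V B₀ e, s26evsEv K L Γ F V B₀ e,
    s26evsEv_isLocalHom K L Γ F V B₀ e, s26evsEv_iota K L Γ F V B₀ e⟩

/-! ### (c) and the key of VERT-SEC -/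

theorem s26evsO_inv_mem (x : ↥(s26evsO K L Γ F B₀ e)) (hx : s26evsORed K L Γ F B₀ e x ≠ 0) :
    ((x : F))⁻¹ ∈ s26evsO K L Γ F B₀ e :=
  s26espb_inv_mem (s26evsO K L Γ F B₀ e) (s26evsORed K L Γ F B₀ e)
    (s26evsORed_nonunits K L Γ F B₀ e) x.2 hx

theorem s26evsORed_inv {x : F} (hx : x ∈ s26evsO K L Γ F B₀ e)
    (hxi : x⁻¹ ∈ s26evsO K L Γ F B₀ e) (hx0 : x ≠ 0) :
    s26evsORed K L Γ F B₀ e ⟨x⁻¹, hxi⟩ = (s26evsORed K L Γ F B₀ e ⟨x, hx⟩)⁻¹ :=
  s26espb_map_inv (s26evsO K L Γ F B₀ e) (s26evsORed K L Γ F B₀ e) hx hxi hx0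

theorem s26evs_L_mem_W0_iff (l : L) : s26evsL K L Γ F l ∈ s26evsW0 K L Γ F V B₀ e ↔ l ∈ V := by
  rw [s26evs_mem_W0_iff]
  constructor
  · rintro ⟨hx, h⟩
    have e1 := s26evsORed_L K L Γ F B₀ e l
    have e2 : s26evsORed K L Γ F B₀ e ⟨s26evsL K L Γ F l, hx⟩ = l := e1
    rwa [e2] at h
  · intro h
    refine ⟨s26evs_L_mem_O K L Γ F B₀ e l, ?_⟩
    rw [s26evsORed_L]
    exact h

/-- **(c)**: `W₀ ∩ L = V`. -/
theorem s26evs_comap_left : (s26evsW0 K L Γ F V B₀ e).comap (s26evsL K L Γ F) = V := by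
  ext l
  rw [ValuationSubring.mem_comap]
  exact s26evs_L_mem_W0_iff K L Γ F V B₀ e l

theorem s26evsEv_L (v : ↥V) :
    s26evsEv K L Γ F V B₀ e
      ⟨s26evsL K L Γ F (v : L), (s26evs_L_mem_W0_iff K L Γ F V B₀ e _).2 v.2⟩ = v := by
  apply Subtype.ext
  rw [s26evsEv_coe]
  exact s26evsORed_L K L Γ F B₀ e (v : L)

theorem s26evs_K_mem (a : K) : algebraMap K L a ∈ V := by
  rw [IsScalarTower.algebraMap_apply K ↥V L]
  exact (algebraMap K ↥V a).2

theorem s26evs_R_mem_W0 (b : ↥B₀) : s26evsR K L Γ F (b : Γ) ∈ s26evsW0 K L Γ F V B₀ e := by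
  rw [s26evs_mem_W0_iff]
  refine ⟨s26evs_R_mem_O K L Γ F B₀ e b, ?_⟩
  rw [s26evsORed_R]
  exact s26evs_K_mem K L V _

theorem s26evsEv_R (b : ↥B₀) :
    s26evsEv K L Γ F V B₀ e ⟨s26evsR K L Γ F (b : Γ), s26evs_R_mem_W0 K L Γ F V B₀ e b⟩ =
      algebraMap K ↥V (e b) := by
  apply Subtype.ext
  rw [s26evsEv_coe]
  refine (s26evsORed_R K L Γ F B₀ e b).trans ?_
  rw [IsScalarTower.algebraMap_apply K ↥V L]
  rfl

/-- `e` kills the non-units of `B₀`. -/
theorem s26evs_e_nonunit (b : ↥B₀) (hb : ¬ IsUnit b) : e b = 0 := by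
  by_contra h0
  have h1 : e (b - algebraMap K ↥B₀ (e b)) = 0 := by
    rw [map_sub, AlgHom.commutes, Algebra.algebraMap_self, RingHom.id_apply, sub_self]
  have h2 : ¬ IsUnit (b - algebraMap K ↥B₀ (e b)) := by
    intro hu
    have := hu.map e
    rw [h1] at this
    exact not_isUnit_zero this
  have h3 : IsUnit (algebraMap K ↥B₀ (e b)) := (isUnit_iff_ne_zero.2 h0).map _
  have h4 : b - algebraMap K ↥B₀ (e b) ∈ IsLocalRing.maximalIdeal ↥B₀ :=
    (IsLocalRing.mem_maximalIdeal _).2 h2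
  have h5 : b ∈ IsLocalRing.maximalIdeal ↥B₀ := (IsLocalRing.mem_maximalIdeal _).2 hb
  have h6 : algebraMap K ↥B₀ (e b) ∈ IsLocalRing.maximalIdeal ↥B₀ := by
    have := Ideal.sub_mem _ h5 h4
    rwa [sub_sub_cancel] at this
  exact (IsLocalRing.mem_maximalIdeal _).1 h6 h3

theorem s26evs_R_mem_O_iff (γ : Γ) : s26evsR K L Γ F γ ∈ s26evsO K L Γ F B₀ e ↔ γ ∈ B₀ := by
  constructor
  · intro h
    by_contra hγ
    have hγ0 : γ ≠ 0 := fun h0 => hγ (h0 ▸ B₀.zero_mem)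
    have hinv : γ⁻¹ ∈ B₀ := (B₀.mem_or_inv_mem γ).resolve_left hγ
    have hnu : ¬ IsUnit (⟨γ⁻¹, hinv⟩ : ↥B₀) := by
      intro hu
      obtain ⟨u, hu⟩ := hu
      apply hγ
      have h1 : ((u⁻¹ : (↥B₀)ˣ) : ↥B₀) * ⟨γ⁻¹, hinv⟩ = 1 := by rw [← hu, Units.inv_mul]
      have h2 : (((u⁻¹ : (↥B₀)ˣ) : ↥B₀) : Γ) * γ⁻¹ = 1 := congrArg Subtype.val h1
      have h3 : (((u⁻¹ : (↥B₀)ˣ) : ↥B₀) : Γ) = γ := by
        field_simp at h2
        exact h2
      rw [← h3]
      exact ((u⁻¹ : (↥B₀)ˣ) : ↥B₀).2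
    have he := s26evs_e_nonunit K Γ B₀ e _ hnu
    have hred := s26evsORed_R K L Γ F B₀ e ⟨γ⁻¹, hinv⟩
    rw [he, map_zero] at hred
    have hmul : (⟨s26evsR K L Γ F γ, h⟩ : ↥(s26evsO K L Γ F B₀ e)) *
        ⟨s26evsR K L Γ F ((⟨γ⁻¹, hinv⟩ : ↥B₀) : Γ), s26evs_R_mem_O K L Γ F B₀ e _⟩ = 1 := by
      apply Subtype.ext
      show s26evsR K L Γ F γ * s26evsR K L Γ F γ⁻¹ = 1
      rw [← map_mul, mul_inv_cancel₀ hγ0, map_one]
    have := congrArg (s26evsORed K L Γ F B₀ e) hmul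
    rw [map_mul, hred, mul_zero, map_one] at this
    exact zero_ne_one this
  · intro h
    exact s26evs_R_mem_O K L Γ F B₀ e ⟨γ, h⟩

/-- **(c′)**: `W₀ ∩ Γ = B₀`. -/
theorem s26evs_comap_right : (s26evsW0 K L Γ F V B₀ e).comap (s26evsR K L Γ F) = B₀ := by
  ext γ
  rw [ValuationSubring.mem_comap]
  constructor
  · intro h
    exact (s26evs_R_mem_O_iff K L Γ F B₀ e γ).1 (s26evsW0_le K L Γ F V B₀ e h)
  · intro h
    exact s26evs_R_mem_W0 K L Γ F V B₀ e ⟨γ, h⟩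

/-- an element of `W₀` with residue `1` has value `1`. -/
theorem s26evs_val_eq_one_of_ev (x : ↥(s26evsW0 K L Γ F V B₀ e))
    (hx : s26evsEv K L Γ F V B₀ e x = 1) : (s26evsW0 K L Γ F V B₀ e).valuation (x : F) = 1 := by
  haveI := s26evsEv_isLocalHom K L Γ F V B₀ e
  have hu : IsUnit x := isUnit_of_map_unit (s26evsEv K L Γ F V B₀ e) x (by rw [hx]; exact isUnit_one)
  exact ((s26evsW0 K L Γ F V B₀ e).valuation_eq_one_iff x).1 hu

/-- **(W0-key)**: an element of `W₀` with nonzero residue has the value of its residue. -/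
theorem s26evs_key (x : ↥(s26evsW0 K L Γ F V B₀ e)) (hx : s26evsEv K L Γ F V B₀ e x ≠ 0) :
    (s26evsW0 K L Γ F V B₀ e).valuation (x : F) =
      (s26evsW0 K L Γ F V B₀ e).valuation
        (s26evsL K L Γ F ((s26evsEv K L Γ F V B₀ e x : ↥V) : L)) := by
  set l : L := ((s26evsEv K L Γ F V B₀ e x : ↥V) : L) with hl
  have hl0 : l ≠ 0 := fun h => hx (Subtype.ext h)
  have hlV : l ∈ V := (s26evsEv K L Γ F V B₀ e x).2
  have hxO : (x : F) ∈ s26evsO K L Γ F B₀ e := s26evsW0_le K L Γ F V B₀ e x.2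
  have hred : s26evsORed K L Γ F B₀ e ⟨(x : F), hxO⟩ = l := (s26evsEv_coe K L Γ F V B₀ e x).symm
  -- `u = x * jL l⁻¹` is a unit of `W₀`
  have hjl : s26evsL K L Γ F l ≠ 0 := (map_ne_zero _).2 hl0
  have hu_mem : (x : F) * s26evsL K L Γ F l⁻¹ ∈ s26evsO K L Γ F B₀ e :=
    (s26evsO K L Γ F B₀ e).mul_mem _ _ hxO (s26evs_L_mem_O K L Γ F B₀ e l⁻¹)
  have hu_red : s26evsORed K L Γ F B₀ e ⟨(x : F) * s26evsL K L Γ F l⁻¹, hu_mem⟩ = 1 := by
    have e1 : (⟨(x : F) * s26evsL K L Γ F l⁻¹, hu_mem⟩ : ↥(s26evsO K L Γ F B₀ e)) =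
        ⟨(x : F), hxO⟩ * ⟨s26evsL K L Γ F l⁻¹, s26evs_L_mem_O K L Γ F B₀ e l⁻¹⟩ := rfl
    rw [e1, map_mul, hred, s26evsORed_L, mul_inv_cancel₀ hl0]
  have hu_W : (x : F) * s26evsL K L Γ F l⁻¹ ∈ s26evsW0 K L Γ F V B₀ e :=
    (s26evs_mem_W0_iff K L Γ F V B₀ e _).2 ⟨hu_mem, by rw [hu_red]; exact V.one_mem⟩
  have hu_ev : s26evsEv K L Γ F V B₀ e ⟨(x : F) * s26evsL K L Γ F l⁻¹, hu_W⟩ = 1 := by
    apply Subtype.ext
    rw [s26evsEv_coe]
    exact hu_red
  have hval := s26evs_val_eq_one_of_ev K L Γ F V B₀ e ⟨_, hu_W⟩ hu_ev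
  have hval' : (s26evsW0 K L Γ F V B₀ e).valuation ((x : F) * s26evsL K L Γ F l⁻¹) = 1 := hval
  rw [map_mul, map_inv₀ (s26evsL K L Γ F), map_inv₀] at hval'
  have hne : (s26evsW0 K L Γ F V B₀ e).valuation (s26evsL K L Γ F l) ≠ 0 :=
    (Valuation.ne_zero_iff _).2 hjl
  exact (mul_inv_eq_one₀ hne).1 hval'

end W0

end Fermat.Agent.S26

end
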