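/-
S26-E, TI hub leaf **VERT-SEC** (helper71), part 2: the hypothesis `hSEC` of helper38's
`s26evm_main` LITERALLY, at helper68's composite `W₀ = V ∘ γ₀` (`S26/EVertSec.lean`).

`F = Frac (L ⊗[K] Γ)` with an `Algebra K F` structure and `K`-algebra homomorphisms
`jL : L → F`, `jΓ : Γ → F` which are the two inclusions (`hjL`, `hjΓ`).

* `s26etis_over`     : `W₀` is a valuation subring over `K`;
* `s26etis_alpha`, `s26etis_beta` : the hypotheses `hα`, `hβ` of `S26/ETiSec.lean` at `W₀`;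
* `s26etis_sq_ne_zero` : `Sq(b; y, z) W ≠ 0` at every `W` over `K` (4 points with image in `U`);
* `s26etis_hSEC_val` : `w₀(Sq(ν + b; y, z) / Sq(b; y, z)) = 1` at `W₀ = s26evsW0 …`;
* **`s26etis_hSEC`** : `hSEC` of `s26evm_main` for `𝔡 W = Sq(ν + b; y, z) W / Sq(b; y, z) W`, from
  `hG : ∀ V, w₀(G) = 1`;
* `s26etis_isLocalHom_e`, `s26etis_spOne` : the hypothesis `e_* (lift ν) = 0` from `S26eSpOneV`
  (PlanE2) for any `K`-point `e : B₀ → K`.
-/
import Fermat.Agent.S26.ETiSec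
import Fermat.Agent.S26.EVertSec

set_option autoImplicit false
set_option linter.style.haveILetI false
set_option linter.unusedVariables false
set_option linter.unusedSectionVars false

noncomputable section

namespace Fermat.Agent.S26

open CategoryTheory CategoryTheory.Limits AlgebraicGeometry NeronModelInfra GoodReductionJacobian
open scoped TensorProduct

universe u

variable {K : Type u} [Field K] {A : Scheme.{u}} (f : A ⟶ Spec (CommRingCat.of K))

section W0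

variable (G : RelativeGroupLaw K f) [IsIntegral A] [IsLocallyNoetherian A] [IsProper f]
  {U : A.Opens}
variable {L Γ F : Type u} [Field L] [Algebra K L] [Field Γ] [Algebra K Γ] [Field F]
  [Algebra (L ⊗[K] Γ) F] [IsFractionRing (L ⊗[K] Γ) F] [Algebra K F]
  (jL : L →ₐ[K] F) (jΓ : Γ →ₐ[K] F)
  (hjL : ∀ l, jL l = s26evsL K L Γ F l) (hjΓ : ∀ γ, jΓ γ = s26evsR K L Γ F γ)
  (V : ValuationSubring L) [Algebra K ↥V] [IsScalarTower K ↥V L]
  (B₀ : ValuationSubring Γ) [Algebra K ↥B₀] [IsScalarTower K ↥B₀ Γ] (e : ↥B₀ →ₐ[K] K)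

include hjL in
/-- `W₀` is over `K`. -/
theorem s26etis_over : S26erOver K (s26evsW0 K L Γ F V B₀ e) := by
  intro k
  have h1 : algebraMap K F k = s26evsL K L Γ F (algebraMap K L k) := by
    rw [← hjL, AlgHom.commutes]
  rw [h1, s26evs_L_mem_W0_iff]
  exact s26evs_K_mem K L V k

include hjL in
/-- the hypothesis `hα` of `s26etis_sq_val` at `W₀`. -/
theorem s26etis_alpha (v : ↥V) :
    ∃ h : jL (v : L) ∈ s26evsW0 K L Γ F V B₀ e,
      s26evsEv K L Γ F V B₀ e ⟨jL (v : L), h⟩ = v := by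
  have hm : jL (v : L) ∈ s26evsW0 K L Γ F V B₀ e := by
    rw [hjL]
    exact (s26evs_L_mem_W0_iff K L Γ F V B₀ e _).2 v.2
  refine ⟨hm, ?_⟩
  have e1 : (⟨jL (v : L), hm⟩ : ↥(s26evsW0 K L Γ F V B₀ e)) =
      ⟨s26evsL K L Γ F (v : L), (s26evs_L_mem_W0_iff K L Γ F V B₀ e _).2 v.2⟩ :=
    Subtype.ext (hjL _)
  rw [e1]
  exact s26evsEv_L K L Γ F V B₀ e v

include hjΓ in
/-- the hypothesis `hβ` of `s26etis_sq_val` at `W₀`. -/
theorem s26etis_beta (b : ↥B₀) :
    ∃ h : jΓ (b : Γ) ∈ s26evsW0 K L Γ F V B₀ e,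
      s26evsEv K L Γ F V B₀ e ⟨jΓ (b : Γ), h⟩ = algebraMap K ↥V (e b) := by
  have hm : jΓ (b : Γ) ∈ s26evsW0 K L Γ F V B₀ e := by
    rw [hjΓ]
    exact s26evs_R_mem_W0 K L Γ F V B₀ e b
  refine ⟨hm, ?_⟩
  have e1 : (⟨jΓ (b : Γ), hm⟩ : ↥(s26evsW0 K L Γ F V B₀ e)) =
      ⟨s26evsR K L Γ F (b : Γ), s26evs_R_mem_W0 K L Γ F V B₀ e b⟩ :=
    Subtype.ext (hjΓ _)
  rw [e1]
  exact s26evsEv_R K L Γ F V B₀ e b

omit [Algebra (L ⊗[K] Γ) F] [IsFractionRing (L ⊗[K] Γ) F] in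
/-- `Sq(b; y, z) W ≠ 0` at every valuation subring over `K`. -/
theorem s26etis_sq_ne_zero (hD : S26emLocData U) (b y z : s26eptPts f L)
    (hb : s26eptPt f b ∈ U) (hby : s26eptPt f (G.mul _ b y) ∈ U)
    (hbz : s26eptPt f (G.mul _ b z) ∈ U) (hbyz : s26eptPt f (G.mul _ (G.mul _ b y) z) ∈ U)
    (W : ValuationSubring F) (hW : S26erOver K W) :
    s26eSq f G U (s26eptMap f jL b) (s26eptMap f jL y) (s26eptMap f jL z) W ≠ 0 := by
  have key : ∀ a : s26eptPts f L, s26eptPt f a ∈ U → s26eGen f U (s26eptMap f jL a) W ≠ 0 :=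
    fun a ha => s26emFam_ne_zero f hD (s26eptMap f jL a) (s26eptPt_map_mem f jL a U ha) W hW
  unfold s26eSq
  have e4 : G.mul _ (G.mul _ (s26eptMap f jL b) (s26eptMap f jL y)) (s26eptMap f jL z) =
      s26eptMap f jL (G.mul _ (G.mul _ b y) z) := by
    rw [s26eptMap_mul, s26eptMap_mul]
  have e5 : G.mul _ (s26eptMap f jL b) (s26eptMap f jL y) = s26eptMap f jL (G.mul _ b y) := by
    rw [s26eptMap_mul]
  have e6 : G.mul _ (s26eptMap f jL b) (s26eptMap f jL z) = s26eptMap f jL (G.mul _ b z) := by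
    rw [s26eptMap_mul]
  rw [e4, e5, e6]
  exact div_ne_zero (mul_ne_zero (key _ hbyz) (key _ hb)) (mul_ne_zero (key _ hby) (key _ hbz))

include hjL hjΓ in
/-- **the value clause of `hSEC`** at `W₀ = s26evsW0 …`. -/
theorem s26etis_hSEC_val (hD : S26emLocData U)
    (ν : s26eptPts f Γ) (hν : s26eptMap f e (s26eptLift f Γ ↥B₀ ν) = G.one _)
    (b y z : s26eptPts f L) (hb : s26eptPt f b ∈ U) (hby : s26eptPt f (G.mul _ b y) ∈ U)
    (hbz : s26eptPt f (G.mul _ b z) ∈ U) (hbyz : s26eptPt f (G.mul _ (G.mul _ b y) z) ∈ U) :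
    (s26evsW0 K L Γ F V B₀ e).valuation
      (s26eSq f G U (G.mul _ (s26eptMap f jΓ ν) (s26eptMap f jL b))
          (s26eptMap f jL y) (s26eptMap f jL z) (s26evsW0 K L Γ F V B₀ e) /
        s26eSq f G U (s26eptMap f jL b) (s26eptMap f jL y) (s26eptMap f jL z)
          (s26evsW0 K L Γ F V B₀ e)) = 1 := by
  haveI := s26evsEv_isLocalHom K L Γ F V B₀ e
  exact s26etis_ratio_val f G V B₀ e (s26evsW0 K L Γ F V B₀ e)
    (s26etis_over jL hjL V B₀ e) jL jΓ (s26evsEv K L Γ F V B₀ e) hD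
    (s26etis_alpha jL hjL V B₀ e) (s26etis_beta jΓ hjΓ V B₀ e) ν hν b y z hb hby hbz hbyz
    (s26etis_sq_ne_zero f G jL hD b y z hb hby hbz hbyz _ (s26etis_over jL hjL V B₀ e))

include hjL hjΓ in
/-- **`hSEC` of `s26evm_main`** for the family
`𝔡 W = Sq(ν + b; y, z) W / Sq(b; y, z) W`, from `hG : w₀(G) = 1` at the composites. -/
theorem s26etis_hSEC (hD : S26emLocData U)
    (ν : s26eptPts f Γ) (hν : s26eptMap f e (s26eptLift f Γ ↥B₀ ν) = G.one _)
    (b y z : s26eptPts f L) (hb : s26eptPt f b ∈ U) (hby : s26eptPt f (G.mul _ b y) ∈ U)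
    (hbz : s26eptPt f (G.mul _ b z) ∈ U) (hbyz : s26eptPt f (G.mul _ (G.mul _ b y) z) ∈ U)
    (Gf : F)
    (hG : ∀ (V : ValuationSubring L) [Algebra K ↥V] [IsScalarTower K ↥V L],
      (s26evsW0 K L Γ F V B₀ e).valuation Gf = 1) :
    ∀ (V : ValuationSubring L) [Algebra K ↥V] [IsScalarTower K ↥V L],
      ∃ (W₀ : ValuationSubring F) (hT : ∀ t, s26evxIota K L Γ ↥V ↥B₀ F t ∈ W₀)
        (ev : ↥W₀ →+* ↥V), IsLocalHom ev ∧
        (∀ t, ev ⟨_, hT t⟩ = s26eviSec e t) ∧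
        W₀.valuation Gf = W₀.valuation
          ((fun W : ValuationSubring F =>
            s26eSq f G U (G.mul _ (s26eptMap f jΓ ν) (s26eptMap f jL b))
                (s26eptMap f jL y) (s26eptMap f jL z) W /
              s26eSq f G U (s26eptMap f jL b) (s26eptMap f jL y) (s26eptMap f jL z) W) W₀) := by
  intro V _ _
  refine ⟨s26evsW0 K L Γ F V B₀ e, s26evs_iota_mem K L Γ F V B₀ e, s26evsEv K L Γ F V B₀ e,
    s26evsEv_isLocalHom K L Γ F V B₀ e, s26evsEv_iota K L Γ F V B₀ e, ?_⟩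
  rw [hG V]
  exact (s26etis_hSEC_val f G jL jΓ hjL hjΓ V B₀ e hD ν hν b y z hb hby hbz hbyz).symm

end W0

/-! ### The hypothesis `hν` from `S26eSpOneV` -/

section Sp

variable (G : RelativeGroupLaw K f) [IsProper f]
  {Γ : Type u} [Field Γ] [Algebra K Γ]
  (B₀ : ValuationSubring Γ) [Algebra K ↥B₀] [IsScalarTower K ↥B₀ Γ] (e : ↥B₀ →ₐ[K] K)

omit [IsScalarTower K ↥B₀ Γ] in
/-- a `K`-point of a local `K`-algebra is a local homomorphism. -/
theorem s26etis_isLocalHom_e : IsLocalHom (e : ↥B₀ →+* K) := by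
  constructor
  intro b hb
  by_contra hu
  have h0 : e b ≠ 0 := hb.ne_zero
  have h1 : e (b - algebraMap K ↥B₀ (e b)) = 0 := by
    rw [map_sub, AlgHom.commutes, Algebra.algebraMap_self, RingHom.id_apply, sub_self]
  have h2 : ¬ IsUnit (b - algebraMap K ↥B₀ (e b)) := by
    intro hu'
    have := hu'.map e
    rw [h1] at this
    exact not_isUnit_zero this
  have h3 : IsUnit (algebraMap K ↥B₀ (e b)) := (isUnit_iff_ne_zero.2 h0).map _
  have h4 : b - algebraMap K ↥B₀ (e b) ∈ IsLocalRing.maximalIdeal ↥B₀ :=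
    (IsLocalRing.mem_maximalIdeal _).2 h2
  have h5 : b ∈ IsLocalRing.maximalIdeal ↥B₀ := (IsLocalRing.mem_maximalIdeal _).2 hu
  have h6 : algebraMap K ↥B₀ (e b) ∈ IsLocalRing.maximalIdeal ↥B₀ := by
    have := Ideal.sub_mem _ h5 h4
    rwa [sub_sub_cancel] at this
  exact (IsLocalRing.mem_maximalIdeal _).1 h6 h3

/-- **`hν`**: if `ν` specialises to the zero point of `A(k_{B₀})`, then `e_* (lift ν) = 0` for every
`K`-point `e : B₀ → K`. -/
theorem s26etis_spOne_of_sp (ν : s26eptPts f Γ) (h : s26eptSp f Γ ↥B₀ ν = G.one _) :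
    s26eptMap f e (s26eptLift f Γ ↥B₀ ν) = G.one _ := by
  haveI := s26etis_isLocalHom_e B₀ e
  let ebar : IsLocalRing.ResidueField ↥B₀ →ₐ[K] K :=
    { IsLocalRing.ResidueField.lift (e : ↥B₀ →+* K) with
      commutes' := fun k => by
        show IsLocalRing.ResidueField.lift (e : ↥B₀ →+* K)
          (algebraMap K (IsLocalRing.ResidueField ↥B₀) k) = algebraMap K K k
        rw [IsScalarTower.algebraMap_apply K ↥B₀ (IsLocalRing.ResidueField ↥B₀)]
        exact (IsLocalRing.ResidueField.lift_residue_apply (e : ↥B₀ →+* K) _).trans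
          (e.commutes k) }
  have h1 : e = ebar.comp (s26eptRes (K := K) ↥B₀) := by
    ext b
    exact (IsLocalRing.ResidueField.lift_residue_apply (e : ↥B₀ →+* K) b).symm
  rw [h1, s26eptMap_comp]
  have h2 : s26eptMap f (s26eptRes (K := K) ↥B₀) (s26eptLift f Γ ↥B₀ ν) =
      s26eptSp f Γ ↥B₀ ν := rfl
  rw [h2, h, s26eptMap_one]

end Sp

section SpV

variable (G : RelativeGroupLaw K f) [IsProper f]
  {Γ : Type u} [Field Γ] [Algebra K Γ]

/-- **`hν` from `S26eSpOneV`** (PlanE2), for the `K`-structure `s26eAlgV` of `B₀`. -/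
theorem s26etis_spOne (B₀ : ValuationSubring Γ) (hB₀ : S26erOver K B₀)
    (e : letI := s26eAlgV B₀ hB₀; ↥B₀ →ₐ[K] K) (ν : s26eptPts f Γ)
    (h : S26eSpOneV f G ν B₀ hB₀) :
    letI := s26eAlgV B₀ hB₀
    haveI := s26eAlgV_tower B₀ hB₀
    s26eptMap f e (s26eptLift f Γ ↥B₀ ν) = G.one _ := by
  letI := s26eAlgV B₀ hB₀
  haveI := s26eAlgV_tower B₀ hB₀
  exact s26etis_spOne_of_sp f G B₀ e ν h

end SpV

end Fermat.Agent.S26

end
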