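/-
S26-E-TI, leaf VERT-HOR (helper24): the hypothesis (hHOR) of helper38's `s26evm_main`
(the relation at the valuation subrings of `F` which are TRIVIAL on the constant field `L`)
from the output of (c) (`s26erig_main_ac`: `∃ G₀ ≠ 0, ∀ P : Place L F, P.ord G₀ = Δ P`).

Setting: `L ⊆ F` fields, `F` a function field of one variable over `L` (`x ∈ F` transcendental,
`[F : L(x)] < ∞`); in the application `F = Frac (L ⊗[K] Γ)`.

Abstract part (Mathlib + prelude `Place` + helper79 `s26errPlaceOf` + helper80 `ERPl`):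
* `s26etih_val_eq_one`, `s26etih_val_top`, `s26etih_val_field` : units of a valuation subring;
* `s26etih_hor_abs` : **(hHOR), abstract**: if `ord_P G₀ = ord_P (𝔡 P)` at every place `P` of
  `F / L` and `𝔡 W ≠ 0`, then `W.valuation G₀ = W.valuation (𝔡 W)` for EVERY valuation subring
  `W ⊇ L` of `F` (`W = ⊤`: both values are `1`; `W ≠ ⊤`: `W` is a place).

Concrete part (generator families of points, helper5 / helper68 / helper73):
* `s26etih_val_const`    : a CONSTANT point `c ∈ A(L)` with `|c| ∈ U` has a UNIT generator at every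
  `W ⊇ ι L`;
* `s26etih_val_sq_const` : the square family of constant points has value `1` at such `W`;
* `s26etih_sq_ne_zero`   : the square family does not vanish (the four points have image in `U`);
* `s26etih_ord_sq`       : `ord_P` of the square family is the signed sum of the four `ord_P`;
* `s26etih_pt_map`       : `|ι c| = |c|` for a constant point;
* `s26etih_hor`          : **(hHOR)** for `𝔡 W = Sq(a; y, z)(W) / Sq(b; y, z)(W)`, `a ∈ A(F)`
  arbitrary (`a = ν + b` in the application), `b, y, z ∈ A(L)` constant (mapped to `A(F)` along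
  `ι : L →ₐ[K] F`, `ι = algebraMap L F`), from `ord_P G₀ = ord_P (Sq(a; y, z)(P))`;
* `s26etih_hor_sum`      : the same from `ord_P G₀ = Δ P`, `Δ P` = the signed sum of the four
  `ord_P (s26eGen f U (a + y_J) P)`.
-/
import Fermat.Agent.S26.PlanE2
import Fermat.Agent.S26.EMRel
import Fermat.Agent.S26.ERPl
import Fermat.Agent.S26.ERR2a

set_option autoImplicit false
set_option linter.style.haveILetI false
set_option linter.unusedSectionVars false
set_option linter.unusedVariables false

noncomputable section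

namespace Fermat.Agent.S26

open CategoryTheory CategoryTheory.Limits AlgebraicGeometry NeronModelInfra GoodReductionJacobian
open AlgebraicCurve IntermediateField

section Abs

variable {F : Type*} [Field F]

/-- an element of `W` whose inverse lies in `W` has value `1` -/
theorem s26etih_val_eq_one {W : ValuationSubring F} {a : F} (h0 : a ≠ 0) (ha : a ∈ W)
    (ha' : a⁻¹ ∈ W) : W.valuation a = 1 := by
  have h1 : W.valuation a ≤ 1 := (W.valuation_le_one_iff a).2 ha
  have h2 : W.valuation a⁻¹ ≤ 1 := (W.valuation_le_one_iff _).2 ha'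
  rw [map_inv₀] at h2
  have hv0 : W.valuation a ≠ 0 := (W.valuation.ne_zero_iff).2 h0
  exact le_antisymm h1 ((inv_le_one₀ (zero_lt_iff.2 hv0)).1 h2)

/-- the valuation of `⊤` is trivial -/
theorem s26etih_val_top {a : F} (h0 : a ≠ 0) : (⊤ : ValuationSubring F).valuation a = 1 :=
  s26etih_val_eq_one h0 (ValuationSubring.mem_top _) (ValuationSubring.mem_top _)

/-- the nonzero elements of a subfield contained in `W` are units of `W` -/
theorem s26etih_val_field {L : Type*} [Field L] (ι : L →+* F) {W : ValuationSubring F}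
    (hW : ∀ l : L, ι l ∈ W) {l : L} (hl : l ≠ 0) : W.valuation (ι l) = 1 :=
  s26etih_val_eq_one ((map_ne_zero ι).2 hl) (hW l) (by rw [← map_inv₀]; exact hW _)

variable {L : Type*} [Field L] [Algebra L F]

/-- **(hHOR), abstract form**: a function whose orders at the places of `F / L` are those of the
generator family `𝔡` has the values of `𝔡` at EVERY valuation subring of `F` containing `L`. -/
theorem s26etih_hor_abs (x : F) (hx : Transcendental L x) [FiniteDimensional L⟮x⟯ F]
    {G₀ : F} (hG : G₀ ≠ 0) (𝔡 : ValuationSubring F → F)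
    (h𝔡 : ∀ W : ValuationSubring F, (∀ l : L, algebraMap L F l ∈ W) → 𝔡 W ≠ 0)
    (hord : ∀ P : Place L F, P.ord G₀ = P.ord (𝔡 P.toValuationSubring))
    (W : ValuationSubring F) (hW : ∀ l : L, algebraMap L F l ∈ W) :
    W.valuation G₀ = W.valuation (𝔡 W) := by
  by_cases hne : W = ⊤
  · subst hne
    rw [s26etih_val_top hG, s26etih_val_top (h𝔡 ⊤ hW)]
  · exact (s26erp_val_eq_iff_ord_eq (s26errPlaceOf W hW hne x hx) hG (h𝔡 W hW)).2
      (hord (s26errPlaceOf W hW hne x hx))

end Abs

section Conc

universe u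

variable {K : Type u} [Field K] {A : Scheme.{u}} (f : A ⟶ Spec (CommRingCat.of K))
variable {L F : Type u} [Field L] [Algebra K L] [Field F] [Algebra K F]
variable [IsIntegral A] [IsLocallyNoetherian A] [IsProper f] {U : A.Opens}

/-- a valuation subring containing the image of `L` is over `K` -/
theorem s26etih_over (ι : L →ₐ[K] F) {W : ValuationSubring F} (hW : ∀ l : L, ι l ∈ W) :
    S26erOver K W := fun a => by
  rw [← ι.commutes a]
  exact hW _

/-- **constant points have unit generators**: `c ∈ A(L)`, `|c| ∈ U`, `W ⊇ ι L`. -/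
theorem s26etih_val_const (hD : S26emLocData U) (ι : L →ₐ[K] F) (c : s26eptPts f L)
    (hc : s26eptPt f c ∈ U) (W : ValuationSubring F) (hW : ∀ l : L, ι l ∈ W) :
    W.valuation (s26eGen f U (s26eptMap f ι c) W) = 1 := by
  rw [s26eGen_eq_emFam, s26emr_val_map f hD ι c W (s26etih_over ι hW)]
  exact s26etih_val_field (ι : L →+* F) hW (s26emr_ne_zero f hD c hc _)

variable (G : RelativeGroupLaw K f)

/-- the square family of CONSTANT points has value `1` at every `W ⊇ ι L` -/
theorem s26etih_val_sq_const (hD : S26emLocData U) (ι : L →ₐ[K] F) (b y z : s26eptPts f L)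
    (hb : s26eptPt f b ∈ U) (hby : s26eptPt f (G.mul _ b y) ∈ U)
    (hbz : s26eptPt f (G.mul _ b z) ∈ U) (hbyz : s26eptPt f (G.mul _ (G.mul _ b y) z) ∈ U)
    (W : ValuationSubring F) (hW : ∀ l : L, ι l ∈ W) :
    W.valuation (s26eSq f G U (s26eptMap f ι b) (s26eptMap f ι y) (s26eptMap f ι z) W) = 1 := by
  unfold s26eSq
  rw [← s26eptMap_mul, ← s26eptMap_mul, ← s26eptMap_mul, map_div₀, map_mul, map_mul,
    s26etih_val_const f hD ι _ hbyz W hW, s26etih_val_const f hD ι _ hb W hW,
    s26etih_val_const f hD ι _ hby W hW, s26etih_val_const f hD ι _ hbz W hW]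
  simp

/-- the square family does not vanish if its four points have image in `U` -/
theorem s26etih_sq_ne_zero (hD : S26emLocData U) (a y z : s26eptPts f F)
    (ha : s26eptPt f a ∈ U) (hay : s26eptPt f (G.mul _ a y) ∈ U)
    (haz : s26eptPt f (G.mul _ a z) ∈ U) (hayz : s26eptPt f (G.mul _ (G.mul _ a y) z) ∈ U)
    (W : ValuationSubring F) : s26eSq f G U a y z W ≠ 0 := by
  unfold s26eSq
  exact div_ne_zero
    (mul_ne_zero (s26emr_ne_zero f hD _ hayz W) (s26emr_ne_zero f hD _ ha W))
    (mul_ne_zero (s26emr_ne_zero f hD _ hay W) (s26emr_ne_zero f hD _ haz W))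

/-- `ord_P` of the square family = the signed sum of the orders of the four generators -/
theorem s26etih_ord_sq [Algebra L F] (hD : S26emLocData U) (a y z : s26eptPts f F)
    (ha : s26eptPt f a ∈ U) (hay : s26eptPt f (G.mul _ a y) ∈ U)
    (haz : s26eptPt f (G.mul _ a z) ∈ U) (hayz : s26eptPt f (G.mul _ (G.mul _ a y) z) ∈ U)
    (P : Place L F) :
    P.ord (s26eSq f G U a y z P.toValuationSubring) =
      P.ord (s26eGen f U (G.mul _ (G.mul _ a y) z) P.toValuationSubring) +
        P.ord (s26eGen f U a P.toValuationSubring) -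
        (P.ord (s26eGen f U (G.mul _ a y) P.toValuationSubring) +
          P.ord (s26eGen f U (G.mul _ a z) P.toValuationSubring)) := by
  have h1 : s26eGen f U (G.mul _ (G.mul _ a y) z) P.toValuationSubring ≠ 0 :=
    s26emr_ne_zero f hD _ hayz P.toValuationSubring
  have h2 : s26eGen f U a P.toValuationSubring ≠ 0 :=
    s26emr_ne_zero f hD _ ha P.toValuationSubring
  have h3 : s26eGen f U (G.mul _ a y) P.toValuationSubring ≠ 0 :=
    s26emr_ne_zero f hD _ hay P.toValuationSubring
  have h4 : s26eGen f U (G.mul _ a z) P.toValuationSubring ≠ 0 :=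
    s26emr_ne_zero f hD _ haz P.toValuationSubring
  unfold s26eSq
  rw [div_eq_mul_inv, P.ord_mul (mul_ne_zero h1 h2) (inv_ne_zero (mul_ne_zero h3 h4)),
    P.ord_inv, P.ord_mul h1 h2, P.ord_mul h3 h4, sub_eq_add_neg]

/-- the image point of a constant point does not change under a field extension -/
theorem s26etih_pt_map (ι : L →ₐ[K] F) (c : s26eptPts f L) :
    s26eptPt f (s26eptMap f ι c) = s26eptPt f c :=
  s26eptPt_map f ι c

variable [Algebra L F]

/-- **(hHOR)** for `𝔡 W = Sq(a; y, z)(W) / Sq(b; y, z)(W)`: `a ∈ A(F)` any point (in the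
application `a = ν + b`), `b, y, z ∈ A(L)` CONSTANT points (mapped to `A(F)` along `ι : L → F`),
all eight points with image in `U`; `G₀` with `ord_P G₀ = ord_P (Sq(a; y, z)(P))` at the places
of `F / L` (output of (c)). -/
theorem s26etih_hor (hD : S26emLocData U) (ι : L →ₐ[K] F)
    (hι : ∀ l : L, algebraMap L F l = ι l)
    (x : F) (hx : Transcendental L x) [FiniteDimensional L⟮x⟯ F]
    (a : s26eptPts f F) (b y z : s26eptPts f L)
    (ha : s26eptPt f a ∈ U)
    (hay : s26eptPt f (G.mul _ a (s26eptMap f ι y)) ∈ U)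
    (haz : s26eptPt f (G.mul _ a (s26eptMap f ι z)) ∈ U)
    (hayz : s26eptPt f (G.mul _ (G.mul _ a (s26eptMap f ι y)) (s26eptMap f ι z)) ∈ U)
    (hb : s26eptPt f b ∈ U) (hby : s26eptPt f (G.mul _ b y) ∈ U)
    (hbz : s26eptPt f (G.mul _ b z) ∈ U) (hbyz : s26eptPt f (G.mul _ (G.mul _ b y) z) ∈ U)
    {G₀ : F} (hG : G₀ ≠ 0)
    (hc : ∀ P : Place L F, P.ord G₀ =
      P.ord (s26eSq f G U a (s26eptMap f ι y) (s26eptMap f ι z) P.toValuationSubring))
    (W : ValuationSubring F) (hW : ∀ l : L, ι l ∈ W) :
    W.valuation G₀ =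
      W.valuation (s26eSq f G U a (s26eptMap f ι y) (s26eptMap f ι z) W /
        s26eSq f G U (s26eptMap f ι b) (s26eptMap f ι y) (s26eptMap f ι z) W) := by
  have hW' : ∀ l : L, algebraMap L F l ∈ W := fun l => by
    rw [hι l]
    exact hW l
  rw [map_div₀, s26etih_val_sq_const f G hD ι b y z hb hby hbz hbyz W hW, div_one]
  exact s26etih_hor_abs x hx hG (s26eSq f G U a (s26eptMap f ι y) (s26eptMap f ι z))
    (fun W' _ => s26etih_sq_ne_zero f G hD a _ _ ha hay haz hayz W') hc W hW'

/-- **(hHOR)**, divisor form: the same with `ord_P G₀ = Δ P`, `Δ P` the signed sum of the orders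
of the four generators of `a + y_J` (literal output of (c)). -/
theorem s26etih_hor_sum (hD : S26emLocData U) (ι : L →ₐ[K] F)
    (hι : ∀ l : L, algebraMap L F l = ι l)
    (x : F) (hx : Transcendental L x) [FiniteDimensional L⟮x⟯ F]
    (a : s26eptPts f F) (b y z : s26eptPts f L)
    (ha : s26eptPt f a ∈ U)
    (hay : s26eptPt f (G.mul _ a (s26eptMap f ι y)) ∈ U)
    (haz : s26eptPt f (G.mul _ a (s26eptMap f ι z)) ∈ U)
    (hayz : s26eptPt f (G.mul _ (G.mul _ a (s26eptMap f ι y)) (s26eptMap f ι z)) ∈ U)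
    (hb : s26eptPt f b ∈ U) (hby : s26eptPt f (G.mul _ b y) ∈ U)
    (hbz : s26eptPt f (G.mul _ b z) ∈ U) (hbyz : s26eptPt f (G.mul _ (G.mul _ b y) z) ∈ U)
    {G₀ : F} (hG : G₀ ≠ 0) (Δ : Place L F → ℤ)
    (hΔ : ∀ P : Place L F, Δ P =
      P.ord (s26eGen f U (G.mul _ (G.mul _ a (s26eptMap f ι y)) (s26eptMap f ι z))
          P.toValuationSubring) +
        P.ord (s26eGen f U a P.toValuationSubring) -
        (P.ord (s26eGen f U (G.mul _ a (s26eptMap f ι y)) P.toValuationSubring) +
          P.ord (s26eGen f U (G.mul _ a (s26eptMap f ι z)) P.toValuationSubring)))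
    (hc : ∀ P : Place L F, P.ord G₀ = Δ P)
    (W : ValuationSubring F) (hW : ∀ l : L, ι l ∈ W) :
    W.valuation G₀ =
      W.valuation (s26eSq f G U a (s26eptMap f ι y) (s26eptMap f ι z) W /
        s26eSq f G U (s26eptMap f ι b) (s26eptMap f ι y) (s26eptMap f ι z) W) :=
  s26etih_hor f G hD ι hι x hx a b y z ha hay haz hayz hb hby hbz hbyz hG
    (fun P => by rw [hc P, hΔ P, s26etih_ord_sq f G hD a _ _ ha hay haz hayz P]) W hW

end Conc

end Fermat.Agent.S26
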