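/-
S26-E, (TI) hub, leaf VERT-LG (helper31): the hypothesis (hLG) "LOCAL GENERATORS" of helper38's
`s26evm_main` for the SQUARE-RATIO family.

Setting: `K` a field, `L`, `Γ` fields over `K`, `F` a field over `K` with
`[Algebra (L ⊗[K] Γ) F] [IsScalarTower K (L ⊗[K] Γ) F]`; chart `T = ↥V ⊗[K] ↥B`
(`V ⊂ L`, `B ⊂ Γ` valuation subrings over `K`), `ι = s26evxIota : T → F`, `𝔫` a prime of `T`.

* `s26etilg_val_of_local` : CORE.  `S` a local `K`-algebra, `ιS : S →ₐ[K] F`, `Q ∈ A(S)` with image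
  `P ∈ A(F)`; for every valuation subring `W' ⊇ ιS(S)` : `w'(gen(P, W')) = w'(ιS (gen Q))`.
* `s26etilgLoc`           : `T_𝔫 →ₐ[K] F` (for `ι` nonzero outside `𝔫`), `s26etilgLoc_mem`.
* `s26etilg_point`        : ONE point `P` which comes from `A(T)`, `|P| ∈ U`:
  `∃ d ≠ 0, ∀ W' ⊇ ι(T) with T ∖ 𝔫 ⊆ W'ˣ, w'(gen(P, W')) = w'(d)`.
* `S26etilgGood P`        : `P ∈ A(F)` comes from `A(↥V ⊗[K] ↥B)` for EVERY chart;
  `s26etilgGood_left/_right/_mul/_one/_inv` (images of `A(L)`, `A(Γ)`, sums).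
* `s26etilg_hLG_of_good`  : (hLG) for `𝔡 W = Sq(a₁; y, z)(W) / Sq(a₂; y, z)(W)`, any GOOD
  `a₁ a₂ y z ∈ A(F)` whose 8 points have image in `U`.
* `s26etilg_hLG`          : the case `a₁ = ν + b`, `a₂ = b`, `ν ∈ A(Γ)`, `b, y, z ∈ A(L)`.
-/
import Fermat.Agent.S26.PlanE2
import Fermat.Agent.S26.EMRel
import Fermat.Agent.S26.EVertChart

set_option autoImplicit false
set_option linter.style.haveILetI false
set_option linter.unusedVariables false
set_option linter.unusedSectionVars false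

noncomputable section

namespace Fermat.Agent.S26

open CategoryTheory CategoryTheory.Limits AlgebraicGeometry NeronModelInfra GoodReductionJacobian
open scoped TensorProduct

universe u

variable {K : Type u} [Field K] {A : Scheme.{u}} (f : A ⟶ Spec (CommRingCat.of K))

section Core

variable {F : Type u} [Field F] [Algebra K F]
variable [IsIntegral A] [IsLocallyNoetherian A] [IsProper f] {U : A.Opens}

/-- **CORE**: if `P ∈ A(F)` is the image of `Q ∈ A(S)`, `S` a local `K`-algebra, then at every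
valuation subring `W'` of `F` containing the image of `S` the generator of `P` has the value of
the image of the generator of `Q`. -/
theorem s26etilg_val_of_local (hD : S26emLocData U) {S : Type u} [CommRing S] [Algebra K S]
    [IsLocalRing S] (ιS : S →ₐ[K] F) (Q : s26eptPts f S) (P : s26eptPts f F)
    (hQ : s26eptMap f ιS Q = P) (W' : ValuationSubring F) (hW' : ∀ s, ιS s ∈ W') :
    W'.valuation (s26eGen f U P W') =
      W'.valuation (ιS (s26emGen U (R := CommRingCat.of S) Q.1)) := by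
  have hV : S26erOver K W' := fun a => by
    have h := hW' (algebraMap K S a)
    rwa [ιS.commutes] at h
  letI := s26emAlg W' hV
  haveI := s26emAlg_tower W' hV
  let j : S →ₐ[K] W' :=
    { toFun := fun s => ⟨ιS s, hW' s⟩
      map_one' := Subtype.ext (map_one ιS)
      map_mul' := fun x y => Subtype.ext (map_mul ιS x y)
      map_zero' := Subtype.ext (map_zero ιS)
      map_add' := fun x y => Subtype.ext (map_add ιS x y)
      commutes' := fun a => Subtype.ext (ιS.commutes a) }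
  have hj : (s26eptIncl (K := K) F W').comp j = ιS := AlgHom.ext fun s => rfl
  have h1 := s26emV_of_point f F W' hD j Q P (by rw [hj]; exact hQ)
  have h2 := s26emr_val_eq_of_associated W' h1
  rw [s26eGen_eq_emFam, s26emFam_eq f U P W' hV]
  exact h2

/-- the image of the generator of a local model is not zero if `|P| ∈ U`. -/
theorem s26etilg_ne_zero_of_local (hD : S26emLocData U) {S : Type u} [CommRing S] [Algebra K S]
    [IsLocalRing S] (ιS : S →ₐ[K] F) (Q : s26eptPts f S) (P : s26eptPts f F)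
    (hQ : s26eptMap f ιS Q = P) (hU : s26eptPt f P ∈ U) :
    ιS (s26emGen U (R := CommRingCat.of S) Q.1) ≠ 0 := by
  have h1 : IsUnit ((CommRingCat.ofHom (ιS : S →+* F)).hom
      (s26emGen U (R := CommRingCat.of S) Q.1)) := by
    refine s26emGen_isUnit_map hD (R := CommRingCat.of S) (S := CommRingCat.of F)
      (CommRingCat.ofHom (ιS : S →+* F)) Q.1 ?_
    have h2 : Spec.map (CommRingCat.ofHom (ιS : S →+* F)) ≫ Q.1 = P.1 := by
      rw [← hQ, s26eptMap_coe]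
    rw [h2]
    exact hU
  exact h1.ne_zero

end Core

section Chart

variable {F : Type u} [Field F] [Algebra K F]
variable {T : Type u} [CommRing T] [Algebra K T]

/-- the map `T_𝔫 → F` of a chart `ι : T → F` which does not vanish outside `𝔫`. -/
def s26etilgLoc (ι : T →ₐ[K] F) (𝔫 : Ideal T) [𝔫.IsPrime] (hι : ∀ t, t ∉ 𝔫 → ι t ≠ 0) :
    Localization.AtPrime 𝔫 →ₐ[K] F :=
  IsLocalization.liftAlgHom (M := 𝔫.primeCompl) (f := ι)
    (fun y => (hι y.1 y.2).isUnit)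

theorem s26etilgLoc_algebraMap (ι : T →ₐ[K] F) (𝔫 : Ideal T) [𝔫.IsPrime]
    (hι : ∀ t, t ∉ 𝔫 → ι t ≠ 0) (t : T) :
    s26etilgLoc ι 𝔫 hι (algebraMap T (Localization.AtPrime 𝔫) t) = ι t := by
  unfold s26etilgLoc
  rw [IsLocalization.liftAlgHom_apply, IsLocalization.lift_eq]
  rfl

theorem s26etilgLoc_comp (ι : T →ₐ[K] F) (𝔫 : Ideal T) [𝔫.IsPrime]
    (hι : ∀ t, t ∉ 𝔫 → ι t ≠ 0) :
    (s26etilgLoc ι 𝔫 hι).comp (IsScalarTower.toAlgHom K T (Localization.AtPrime 𝔫)) = ι :=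
  AlgHom.ext fun t => s26etilgLoc_algebraMap ι 𝔫 hι t

/-- `T_𝔫` maps into every valuation subring `W' ⊇ ι(T)` in which `T ∖ 𝔫` are units. -/
theorem s26etilgLoc_mem (ι : T →ₐ[K] F) (𝔫 : Ideal T) [𝔫.IsPrime]
    (hι : ∀ t, t ∉ 𝔫 → ι t ≠ 0) (W' : ValuationSubring F) (hW : ∀ t, ι t ∈ W')
    (hu : ∀ t, t ∉ 𝔫 → W'.valuation (ι t) = 1) (s : Localization.AtPrime 𝔫) :
    s26etilgLoc ι 𝔫 hι s ∈ W' := by
  obtain ⟨t, m, rfl⟩ := IsLocalization.exists_mk'_eq 𝔫.primeCompl s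
  have h1 : s26etilgLoc ι 𝔫 hι (IsLocalization.mk' (Localization.AtPrime 𝔫) t m) * ι m.1 = ι t := by
    rw [← s26etilgLoc_algebraMap ι 𝔫 hι m.1, ← map_mul, IsLocalization.mk'_spec,
      s26etilgLoc_algebraMap]
  rw [← ValuationSubring.valuation_le_one_iff]
  have h2 := congrArg W'.valuation h1
  rw [map_mul, hu m.1 m.2, mul_one] at h2
  rw [h2]
  exact (W'.valuation_le_one_iff _).2 (hW t)

variable [IsIntegral A] [IsLocallyNoetherian A] [IsProper f] {U : A.Opens}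

/-- **ONE POINT**: a point `P ∈ A(F)` which comes from `A(T)` and has `|P| ∈ U` has a LOCAL
GENERATOR `d ≠ 0` at `𝔫`: `w'(gen(P, W')) = w'(d)` for every valuation subring `W' ⊇ ι(T)` of `F`
in which the elements of `T ∖ 𝔫` are units. -/
theorem s26etilg_point (hD : S26emLocData U) (ι : T →ₐ[K] F) (𝔫 : Ideal T) [𝔫.IsPrime]
    (hι : ∀ t, t ∉ 𝔫 → ι t ≠ 0) (P : s26eptPts f F)
    (hP : ∃ Q : s26eptPts f T, s26eptMap f ι Q = P) (hU : s26eptPt f P ∈ U) :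
    ∃ d : F, d ≠ 0 ∧ ∀ W' : ValuationSubring F, (∀ t, ι t ∈ W') →
      (∀ t, t ∉ 𝔫 → W'.valuation (ι t) = 1) →
      W'.valuation (s26eGen f U P W') = W'.valuation d := by
  obtain ⟨Q, hQ⟩ := hP
  have hQ' : s26eptMap f (s26etilgLoc ι 𝔫 hι)
      (s26eptMap f (IsScalarTower.toAlgHom K T (Localization.AtPrime 𝔫)) Q) = P := by
    rw [← s26eptMap_comp, s26etilgLoc_comp]
    exact hQ
  refine ⟨_, s26etilg_ne_zero_of_local f hD (s26etilgLoc ι 𝔫 hι) _ P hQ' hU, ?_⟩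
  intro W' hW hu
  exact s26etilg_val_of_local f hD (s26etilgLoc ι 𝔫 hι) _ P hQ' W'
    (s26etilgLoc_mem ι 𝔫 hι W' hW hu)


/-- `P ∈ A(F)` comes from `A(T)` along the chart `ι`. -/
def S26etilgFrom (ι : T →ₐ[K] F) (P : s26eptPts f F) : Prop :=
  ∃ Q : s26eptPts f T, s26eptMap f ι Q = P

omit [IsIntegral A] [IsLocallyNoetherian A] [IsProper f] in
theorem S26etilgFrom.mul (G : RelativeGroupLaw K f) {ι : T →ₐ[K] F} {P P' : s26eptPts f F}
    (h : S26etilgFrom f ι P) (h' : S26etilgFrom f ι P') : S26etilgFrom f ι (G.mul _ P P') := by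
  obtain ⟨Q, rfl⟩ := h
  obtain ⟨Q', rfl⟩ := h'
  exact ⟨G.mul _ Q Q', s26eptMap_mul f G ι Q Q'⟩

omit [IsIntegral A] [IsLocallyNoetherian A] [IsProper f] in
theorem S26etilgFrom.one (G : RelativeGroupLaw K f) (ι : T →ₐ[K] F) :
    S26etilgFrom f ι (G.one _) :=
  ⟨G.one _, s26eptMap_one f G ι⟩

omit [IsIntegral A] [IsLocallyNoetherian A] [IsProper f] in
theorem S26etilgFrom.inv (G : RelativeGroupLaw K f) {ι : T →ₐ[K] F} {P : s26eptPts f F}
    (h : S26etilgFrom f ι P) : S26etilgFrom f ι (G.inv _ P) := by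
  obtain ⟨Q, rfl⟩ := h
  exact ⟨G.inv _ Q, s26eptMap_inv f G ι Q⟩

/-- the 4 points of the square `Sq(a; y, z)` have image in `U`. -/
def S26etilgSqU (G : RelativeGroupLaw K f) (U : A.Opens) (a y z : s26eptPts f F) : Prop :=
  s26eptPt f (G.mul _ (G.mul _ a y) z) ∈ U ∧ s26eptPt f a ∈ U ∧
    s26eptPt f (G.mul _ a y) ∈ U ∧ s26eptPt f (G.mul _ a z) ∈ U

/-- **ONE SQUARE**: local generator of `Sq(a; y, z)` at `𝔫`. -/
theorem s26etilg_sq (hD : S26emLocData U) (G : RelativeGroupLaw K f) (ι : T →ₐ[K] F)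
    (𝔫 : Ideal T) [𝔫.IsPrime] (hι : ∀ t, t ∉ 𝔫 → ι t ≠ 0) (a y z : s26eptPts f F)
    (ha : S26etilgFrom f ι a) (hy : S26etilgFrom f ι y) (hz : S26etilgFrom f ι z)
    (hU : S26etilgSqU f G U a y z) :
    ∃ d : F, d ≠ 0 ∧ ∀ W' : ValuationSubring F, (∀ t, ι t ∈ W') →
      (∀ t, t ∉ 𝔫 → W'.valuation (ι t) = 1) →
      W'.valuation (s26eSq f G U a y z W') = W'.valuation d := by
  obtain ⟨d₁, hd₁, h₁⟩ := s26etilg_point f hD ι 𝔫 hι _ ((ha.mul f G hy).mul f G hz) hU.1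
  obtain ⟨d₂, hd₂, h₂⟩ := s26etilg_point f hD ι 𝔫 hι _ ha hU.2.1
  obtain ⟨d₃, hd₃, h₃⟩ := s26etilg_point f hD ι 𝔫 hι _ (ha.mul f G hy) hU.2.2.1
  obtain ⟨d₄, hd₄, h₄⟩ := s26etilg_point f hD ι 𝔫 hι _ (ha.mul f G hz) hU.2.2.2
  refine ⟨d₁ * d₂ / (d₃ * d₄), div_ne_zero (mul_ne_zero hd₁ hd₂) (mul_ne_zero hd₃ hd₄), ?_⟩
  intro W' hW hu
  unfold s26eSq
  rw [map_div₀, map_mul, map_mul, map_div₀, map_mul, map_mul, h₁ W' hW hu, h₂ W' hW hu,
    h₃ W' hW hu, h₄ W' hW hu]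

/-- **THE RATIO OF TWO SQUARES**: local generator of `Sq(a₁; y, z) / Sq(a₂; y, z)` at `𝔫`. -/
theorem s26etilg_ratio (hD : S26emLocData U) (G : RelativeGroupLaw K f) (ι : T →ₐ[K] F)
    (𝔫 : Ideal T) [𝔫.IsPrime] (hι : ∀ t, t ∉ 𝔫 → ι t ≠ 0) (a₁ a₂ y z : s26eptPts f F)
    (ha₁ : S26etilgFrom f ι a₁) (ha₂ : S26etilgFrom f ι a₂)
    (hy : S26etilgFrom f ι y) (hz : S26etilgFrom f ι z)
    (hU₁ : S26etilgSqU f G U a₁ y z) (hU₂ : S26etilgSqU f G U a₂ y z) :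
    ∃ D : F, D ≠ 0 ∧ ∀ W' : ValuationSubring F, (∀ t, ι t ∈ W') →
      (∀ t, t ∉ 𝔫 → W'.valuation (ι t) = 1) →
      W'.valuation (s26eSq f G U a₁ y z W' / s26eSq f G U a₂ y z W') = W'.valuation D := by
  obtain ⟨d₁, hd₁, h₁⟩ := s26etilg_sq f hD G ι 𝔫 hι a₁ y z ha₁ hy hz hU₁
  obtain ⟨d₂, hd₂, h₂⟩ := s26etilg_sq f hD G ι 𝔫 hι a₂ y z ha₂ hy hz hU₂
  refine ⟨d₁ / d₂, div_ne_zero hd₁ hd₂, ?_⟩
  intro W' hW hu
  rw [map_div₀, map_div₀, h₁ W' hW hu, h₂ W' hW hu]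

end Chart

section Concrete

variable {L Γ F : Type u} [Field L] [Algebra K L] [Field Γ] [Algebra K Γ] [Field F] [Algebra K F]
  [Algebra (L ⊗[K] Γ) F] [IsScalarTower K (L ⊗[K] Γ) F]

/-- the chart `↥V ⊗[K] ↥B → F` as a `K`-algebra homomorphism (`= s26evxIota`). -/
def s26etilgIota (F : Type u) [Field F] [Algebra K F] [Algebra (L ⊗[K] Γ) F]
    [IsScalarTower K (L ⊗[K] Γ) F]
    (V : ValuationSubring L) [Algebra K ↥V] [IsScalarTower K ↥V L]
    (B : ValuationSubring Γ) [Algebra K ↥B] [IsScalarTower K ↥B Γ] : ↥V ⊗[K] ↥B →ₐ[K] F :=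
  (IsScalarTower.toAlgHom K (L ⊗[K] Γ) F).comp (s26evxJ K L Γ ↥V ↥B)

theorem s26etilgIota_apply (V : ValuationSubring L) [Algebra K ↥V] [IsScalarTower K ↥V L]
    (B : ValuationSubring Γ) [Algebra K ↥B] [IsScalarTower K ↥B Γ] (t : ↥V ⊗[K] ↥B) :
    s26etilgIota F V B t = s26evxIota K L Γ ↥V ↥B F t := rfl

theorem s26etilgIota_tmul (V : ValuationSubring L) [Algebra K ↥V] [IsScalarTower K ↥V L]
    (B : ValuationSubring Γ) [Algebra K ↥B] [IsScalarTower K ↥B Γ] (v : ↥V) (b : ↥B) :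
    s26etilgIota F V B (v ⊗ₜ[K] b) =
      algebraMap (L ⊗[K] Γ) F ((v : L) ⊗ₜ[K] (b : Γ)) := rfl

/-- `P ∈ A(F)` comes from `A(↥V ⊗[K] ↥B)` for EVERY chart. -/
def S26etilgGood (L Γ : Type u) [Field L] [Algebra K L] [Field Γ] [Algebra K Γ]
    {F : Type u} [Field F] [Algebra K F] [Algebra (L ⊗[K] Γ) F] [IsScalarTower K (L ⊗[K] Γ) F]
    (P : s26eptPts f F) : Prop :=
  ∀ (V : ValuationSubring L) [Algebra K ↥V] [IsScalarTower K ↥V L]
    (B : ValuationSubring Γ) [Algebra K ↥B] [IsScalarTower K ↥B Γ],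
    S26etilgFrom f (s26etilgIota F V B) P

theorem S26etilgGood.mul (G : RelativeGroupLaw K f) {P P' : s26eptPts f F}
    (h : S26etilgGood f L Γ P) (h' : S26etilgGood f L Γ P') :
    S26etilgGood f L Γ (G.mul _ P P') :=
  fun V _ _ B _ _ => (h V B).mul f G (h' V B)

theorem S26etilgGood.one (G : RelativeGroupLaw K f) :
    S26etilgGood f L Γ (F := F) (G.one _) :=
  fun V _ _ B _ _ => S26etilgFrom.one f G _

theorem S26etilgGood.inv (G : RelativeGroupLaw K f) {P : s26eptPts f F}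
    (h : S26etilgGood f L Γ P) : S26etilgGood f L Γ (G.inv _ P) :=
  fun V _ _ B _ _ => (h V B).inv f G

/-- the image of a point of `A(L)` is good. -/
theorem s26etilgGood_left [IsProper f] (ιL : L →ₐ[K] F)
    (hL : ∀ l : L, ιL l = algebraMap (L ⊗[K] Γ) F (l ⊗ₜ[K] (1 : Γ))) (a : s26eptPts f L) :
    S26etilgGood f L Γ (s26eptMap f ιL a) := by
  intro V _ _ B _ _
  refine ⟨s26eptMap f (Algebra.TensorProduct.includeLeft : ↥V →ₐ[K] ↥V ⊗[K] ↥B)
    (s26eptLift f L ↥V a), ?_⟩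
  have e : (s26etilgIota F V B).comp
      (Algebra.TensorProduct.includeLeft : ↥V →ₐ[K] ↥V ⊗[K] ↥B) =
      ιL.comp (s26eptIncl (K := K) L ↥V) := by
    refine AlgHom.ext fun v => ?_
    rw [AlgHom.comp_apply, AlgHom.comp_apply, hL]
    rfl
  rw [← s26eptMap_comp, e, s26eptMap_comp, s26eptMap_lift]

/-- the image of a point of `A(Γ)` is good. -/
theorem s26etilgGood_right [IsProper f] (ιΓ : Γ →ₐ[K] F)
    (hΓ : ∀ γ : Γ, ιΓ γ = algebraMap (L ⊗[K] Γ) F ((1 : L) ⊗ₜ[K] γ)) (ν : s26eptPts f Γ) :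
    S26etilgGood f L Γ (s26eptMap f ιΓ ν) := by
  intro V _ _ B _ _
  refine ⟨s26eptMap f (Algebra.TensorProduct.includeRight : ↥B →ₐ[K] ↥V ⊗[K] ↥B)
    (s26eptLift f Γ ↥B ν), ?_⟩
  have e : (s26etilgIota F V B).comp
      (Algebra.TensorProduct.includeRight : ↥B →ₐ[K] ↥V ⊗[K] ↥B) =
      ιΓ.comp (s26eptIncl (K := K) Γ ↥B) := by
    refine AlgHom.ext fun b => ?_
    rw [AlgHom.comp_apply, AlgHom.comp_apply, hΓ]
    rfl
  rw [← s26eptMap_comp, e, s26eptMap_comp, s26eptMap_lift]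

variable [IsFractionRing (L ⊗[K] Γ) F]
variable [IsIntegral A] [IsLocallyNoetherian A] [IsProper f] {U : A.Opens}

/-- **(hLG) for good points**: the hypothesis (hLG) of `s26evm_main` for the family
`𝔡 W = Sq(a₁; y, z)(W) / Sq(a₂; y, z)(W)`, `a₁, a₂, y, z ∈ A(F)` good, the 8 points in `U`. -/
theorem s26etilg_hLG_of_good (hD : S26emLocData U) (G : RelativeGroupLaw K f)
    (a₁ a₂ y z : s26eptPts f F)
    (ha₁ : S26etilgGood f L Γ a₁) (ha₂ : S26etilgGood f L Γ a₂)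
    (hy : S26etilgGood f L Γ y) (hz : S26etilgGood f L Γ z)
    (hU₁ : S26etilgSqU f G U a₁ y z) (hU₂ : S26etilgSqU f G U a₂ y z) :
    ∀ (V : ValuationSubring L) [Algebra K ↥V] [IsScalarTower K ↥V L]
      (B : ValuationSubring Γ) [Algebra K ↥B] [IsScalarTower K ↥B Γ]
      (𝔫 : Ideal (↥V ⊗[K] ↥B)), 𝔫.IsPrime →
      ∃ D : F, D ≠ 0 ∧ ∀ W' : ValuationSubring F,
        (∀ t, s26evxIota K L Γ ↥V ↥B F t ∈ W') →
        (∀ t, t ∉ 𝔫 → W'.valuation (s26evxIota K L Γ ↥V ↥B F t) = 1) →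
        W'.valuation (s26eSq f G U a₁ y z W' / s26eSq f G U a₂ y z W') = W'.valuation D := by
  intro V _ _ B _ _ 𝔫 h𝔫
  haveI := h𝔫
  have hι : ∀ t, t ∉ 𝔫 → s26etilgIota F V B t ≠ 0 := by
    intro t ht h0
    have h1 : t = 0 := s26evxIota_injective K L Γ ↥V ↥B F (by rw [map_zero]; exact h0)
    exact ht (h1 ▸ 𝔫.zero_mem)
  exact s26etilg_ratio f hD G (s26etilgIota F V B) 𝔫 hι a₁ a₂ y z (ha₁ V B) (ha₂ V B)
    (hy V B) (hz V B) hU₁ hU₂

/-- **(hLG)**, the family of the hub: `a₁ = ν + b`, `a₂ = b` with `ν ∈ A(Γ)`, `b, y, z ∈ A(L)`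
(mapped to `A(F)` by the two inclusions `ιΓ`, `ιL`). -/
theorem s26etilg_hLG (hD : S26emLocData U) (G : RelativeGroupLaw K f)
    (ιL : L →ₐ[K] F) (hL : ∀ l : L, ιL l = algebraMap (L ⊗[K] Γ) F (l ⊗ₜ[K] (1 : Γ)))
    (ιΓ : Γ →ₐ[K] F) (hΓ : ∀ γ : Γ, ιΓ γ = algebraMap (L ⊗[K] Γ) F ((1 : L) ⊗ₜ[K] γ))
    (ν : s26eptPts f Γ) (b y z : s26eptPts f L)
    (hU₁ : S26etilgSqU f G U (G.mul _ (s26eptMap f ιΓ ν) (s26eptMap f ιL b))
      (s26eptMap f ιL y) (s26eptMap f ιL z))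
    (hU₂ : S26etilgSqU f G U (s26eptMap f ιL b) (s26eptMap f ιL y) (s26eptMap f ιL z)) :
    ∀ (V : ValuationSubring L) [Algebra K ↥V] [IsScalarTower K ↥V L]
      (B : ValuationSubring Γ) [Algebra K ↥B] [IsScalarTower K ↥B Γ]
      (𝔫 : Ideal (↥V ⊗[K] ↥B)), 𝔫.IsPrime →
      ∃ D : F, D ≠ 0 ∧ ∀ W' : ValuationSubring F,
        (∀ t, s26evxIota K L Γ ↥V ↥B F t ∈ W') →
        (∀ t, t ∉ 𝔫 → W'.valuation (s26evxIota K L Γ ↥V ↥B F t) = 1) →
        W'.valuation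
          (s26eSq f G U (G.mul _ (s26eptMap f ιΓ ν) (s26eptMap f ιL b))
              (s26eptMap f ιL y) (s26eptMap f ιL z) W' /
            s26eSq f G U (s26eptMap f ιL b) (s26eptMap f ιL y) (s26eptMap f ιL z) W') =
          W'.valuation D :=
  s26etilg_hLG_of_good f hD G _ _ _ _
    ((s26etilgGood_right f ιΓ hΓ ν).mul f G (s26etilgGood_left f ιL hL b))
    (s26etilgGood_left f ιL hL b) (s26etilgGood_left f ιL hL y) (s26etilgGood_left f ιL hL z)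
    hU₁ hU₂

end Concrete

end Fermat.Agent.S26

end
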