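/-
S26-E-VERT (helper38), CONTENT form (design: helper57's note of 01:50Z; blueprint v1 §2 (d)).

`R` a valuation ring (ANY rank, not noetherian in general), `T` a free `R`-algebra which is a domain
and such that `𝔪_R T` is a prime ideal (in the application `T = R ⊗_K B`, `B` a `K`-algebra domain,
`K` algebraically closed, so that `T ⧸ 𝔪_R T = k_R ⊗_K B` is a domain).

* `s26evcM R T`            : the ideal `𝔪_R T` ("the special fibre").
* `s26evc_repr_mem`        : the coordinates of an element of `𝔪_R T` lie in `𝔪_R`.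
* `s26evc_content`         : (C1) every `s ≠ 0` is `ρ • s'`, `ρ ≠ 0`, `s'` primitive (`s' ∉ 𝔪_R T`).
* `s26evc_content_unique`  : contents are unique up to units of `R`:
  `c • x = ρ • y`, `x, y` primitive, `c ≠ 0` ⇒ `ρ = u c`, `u` a unit, and `x = u • y`.
* `s26evc_main`            : (C3) `𝔫 ⊇ 𝔪_R T` a prime of `T`, `H ∈ Frac T` with
  `H = a / (ρ b)`, `H⁻¹ = a' / (ρ' b')`, `b, b' ∉ 𝔫`, `ρ, ρ' ≠ 0`  ("`H` is a unit of `T_𝔫[1/(R∖0)]`":
  no zero or pole along the horizontal places through the centre `𝔫`).  Then `a = c • a₁` with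
  `c ∈ R ∖ 0` and `a₁ ∉ 𝔫`, i.e. `H = (c/ρ) · (a₁/b)` = (element of `𝔎ˣ`) · (unit of `T_𝔫`).
* `s26evc_valuation`       : (C4) hence `w(H) = w(c) / w(ρ)` for every valuation subring `W` of
  `Frac T` containing `T` in which the elements of `T ∖ 𝔫` are units.
No noetherian hypothesis, no Hartogs, no factoriality.
-/
import Mathlib.RingTheory.Valuation.ValuationRing
import Mathlib.RingTheory.Valuation.ValuationSubring
import Mathlib.RingTheory.Localization.FractionRing
import Mathlib.LinearAlgebra.FreeModule.Basic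
import Mathlib.RingTheory.Ideal.Maps
import Mathlib.RingTheory.LocalRing.MaximalIdeal.Basic

set_option autoImplicit false
set_option linter.unusedSectionVars false

namespace Fermat.Agent.S26

open IsLocalRing

section Content

variable (R T : Type*) [CommRing R] [IsDomain R] [ValuationRing R] [CommRing T] [Algebra R T]

/-- The ideal `𝔪_R T` of `T` (the special fibre). -/
def s26evcM : Ideal T := Ideal.map (algebraMap R T) (maximalIdeal R)

variable {R T}

/-- The coordinates of an element of `𝔪_R T` in any basis lie in `𝔪_R`. -/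
theorem s26evc_repr_mem {ι : Type*} (b : Module.Basis ι R T) {x : T} (hx : x ∈ s26evcM R T)
    (i : ι) : b.repr x i ∈ maximalIdeal R := by
  unfold s26evcM at hx
  rw [Ideal.map, ← Submodule.mem_toAddSubmonoid] at hx
  -- span induction
  have : ∀ y ∈ Ideal.span ((algebraMap R T) '' (maximalIdeal R : Set R)),
      ∀ i, b.repr y i ∈ maximalIdeal R := by
    intro y hy
    refine Submodule.span_induction ?_ ?_ ?_ ?_ hy
    · rintro _ ⟨m, hm, rfl⟩ j
      have : algebraMap R T m = m • (1 : T) := by rw [Algebra.smul_def, mul_one]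
      rw [this, map_smul, Finsupp.smul_apply, smul_eq_mul]
      exact Ideal.mul_mem_right _ _ hm
    · intro j; simp
    · intro y z _ _ hy hz j
      rw [map_add, Finsupp.add_apply]
      exact Ideal.add_mem _ (hy j) (hz j)
    · intro t y _ hy j
      -- `t • y = t * y`; expand `t` in the basis
      rw [smul_eq_mul]
      -- use linearity in `y`: `y = Σ (repr y k) • b k`
      have hy' : y = ∑ k ∈ (b.repr y).support, (b.repr y k) • b k := by
        conv_lhs => rw [← b.linearCombination_repr y]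
        rw [Finsupp.linearCombination_apply, Finsupp.sum]
      rw [hy', Finset.mul_sum, map_sum, Finsupp.finsetSum_apply]
      refine Submodule.sum_mem _ (fun k _ => ?_)
      rw [mul_smul_comm, map_smul, Finsupp.smul_apply, smul_eq_mul]
      exact Ideal.mul_mem_right _ _ (hy k)
  exact this x hx i

/-- **(C1) Content.**  In a free module over a valuation ring every `s ≠ 0` is `ρ • s'` with
`ρ ≠ 0` and `s'` primitive. -/
theorem s26evc_content [Module.Free R T] {s : T} (hs : s ≠ 0) :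
    ∃ (ρ : R) (s' : T), ρ ≠ 0 ∧ s = ρ • s' ∧ s' ∉ s26evcM R T := by
  classical
  let b := Module.Free.chooseBasis R T
  have hne : (b.repr s).support.Nonempty := by
    rw [Finsupp.support_nonempty_iff]
    intro h
    exact hs (b.repr.map_eq_zero_iff.1 h)
  -- an index whose coefficient divides all the others
  have hmin : ∀ F : Finset (Module.Free.ChooseBasisIndex R T), F.Nonempty →
      ∃ i₀ ∈ F, ∀ i ∈ F, b.repr s i₀ ∣ b.repr s i := by
    intro F hF
    induction hF using Finset.Nonempty.cons_induction with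
    | singleton a => exact ⟨a, Finset.mem_singleton_self a, fun i hi => by
        rw [Finset.mem_singleton] at hi; rw [hi]⟩
    | cons a F' ha hF' ih =>
      obtain ⟨i₀, hi₀, hdiv⟩ := ih
      rcases ValuationRing.dvd_total (b.repr s a) (b.repr s i₀) with h | h
      · refine ⟨a, Finset.mem_cons_self a F', fun i hi => ?_⟩
        rcases Finset.mem_cons.1 hi with rfl | hi
        · exact dvd_rfl
        · exact h.trans (hdiv i hi)
      · refine ⟨i₀, Finset.mem_cons.2 (Or.inr hi₀), fun i hi => ?_⟩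
        rcases Finset.mem_cons.1 hi with rfl | hi
        · exact h
        · exact hdiv i hi
  obtain ⟨i₀, hi₀, hdiv⟩ := hmin _ hne
  set ρ := b.repr s i₀ with hρdef
  have hρ0 : ρ ≠ 0 := Finsupp.mem_support_iff.1 hi₀
  have hdiv' : ∀ i, ρ ∣ b.repr s i := by
    intro i
    by_cases hi : i ∈ (b.repr s).support
    · exact hdiv i hi
    · rw [Finsupp.notMem_support_iff.1 hi]; exact dvd_zero _
  choose q hq using hdiv'
  have hq0 : ∀ i, b.repr s i = 0 → q i = 0 := by
    intro i hi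
    have := hq i
    rw [hi] at this
    rcases mul_eq_zero.1 this.symm with h | h
    · exact absurd h hρ0
    · exact h
  let c : Module.Free.ChooseBasisIndex R T →₀ R :=
    Finsupp.onFinset (b.repr s).support q (fun i hi => by
      rw [Finsupp.mem_support_iff]
      intro h
      exact hi (hq0 i h))
  have hc : ∀ i, c i = q i := fun i => rfl
  refine ⟨ρ, b.repr.symm c, hρ0, ?_, ?_⟩
  · apply b.repr.injective
    rw [map_smul, LinearEquiv.apply_symm_apply]
    ext i
    rw [Finsupp.smul_apply, smul_eq_mul, hc, ← hq i]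
  · intro hmem
    have h1 := s26evc_repr_mem b hmem i₀
    rw [LinearEquiv.apply_symm_apply, hc] at h1
    have h2 : ρ * q i₀ = ρ * 1 := by rw [mul_one]; exact (hq i₀).symm
    have h3 : q i₀ = 1 := mul_left_cancel₀ hρ0 h2
    rw [h3] at h1
    exact (maximalIdeal.isMaximal R).ne_top ((Ideal.eq_top_iff_one _).2 h1)

/-- A primitive element is nonzero. -/
theorem s26evc_ne_zero_of_prim {x : T} (hx : x ∉ s26evcM R T) : x ≠ 0 := by
  rintro rfl
  exact hx (Ideal.zero_mem _)

/-- `m • x ∈ 𝔪_R T` for `m ∈ 𝔪_R`. -/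
theorem s26evc_smul_mem {m : R} (hm : m ∈ maximalIdeal R) (x : T) : m • x ∈ s26evcM R T := by
  rw [Algebra.smul_def]
  exact Ideal.mul_mem_right _ _ (Ideal.mem_map_of_mem _ hm)

/-- **Contents are unique up to units**: `c • x = ρ • y` with `x, y` primitive and `c ≠ 0` in a
torsion-free `R`-algebra: then `ρ = u * c` for a unit `u`, and `x = u • y`. -/
theorem s26evc_content_unique [Module.IsTorsionFree R T] {c ρ : R} {x y : T} (hc : c ≠ 0)
    (hx : x ∉ s26evcM R T) (hy : y ∉ s26evcM R T) (h : c • x = ρ • y) :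
    ∃ u : Rˣ, ρ = u * c ∧ x = (u : R) • y := by
  have hx0 := s26evc_ne_zero_of_prim hx
  have hρ : ρ ≠ 0 := by
    rintro rfl
    rw [zero_smul] at h
    rcases smul_eq_zero.1 h with h | h
    · exact hc h
    · exact hx0 h
  rcases ValuationRing.dvd_total c ρ with ⟨r, hr⟩ | ⟨r, hr⟩
  · -- `ρ = c r`, so `x = r • y`, and `r` is a unit since `x` is primitive
    have h1 : c • x = c • (r • y) := by rw [h, hr, mul_smul]
    have h2 : x = r • y := smul_right_injective T hc h1
    have hr_unit : IsUnit r := by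
      by_contra hnu
      exact hx (h2 ▸ s26evc_smul_mem ((mem_maximalIdeal r).2 hnu) y)
    obtain ⟨u, rfl⟩ := hr_unit
    exact ⟨u, by rw [hr, mul_comm], h2⟩
  · -- `c = ρ r`, so `r • x = y`, and `r` is a unit since `y` is primitive
    have h1 : ρ • (r • x) = ρ • y := by rw [← mul_smul, ← hr, h]
    have h2 : r • x = y := smul_right_injective T hρ h1
    have hr_unit : IsUnit r := by
      by_contra hnu
      exact hy (h2 ▸ s26evc_smul_mem ((mem_maximalIdeal r).2 hnu) x)
    obtain ⟨u, rfl⟩ := hr_unit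
    refine ⟨u⁻¹, ?_, ?_⟩
    · rw [hr, mul_comm ρ, ← mul_assoc, Units.inv_mul, one_mul]
    · rw [← h2, ← mul_smul, Units.inv_mul, one_smul]

end Content

section Main

variable {R T : Type*} [CommRing R] [IsDomain R] [ValuationRing R] [CommRing T] [IsDomain T]
  [Algebra R T] [Module.Free R T]

/-- **(C3) The vertical step, content form.**  See the header. -/
theorem s26evc_main (h𝔪 : (s26evcM R T).IsPrime) (𝔫 : Ideal T) (h𝔫 : s26evcM R T ≤ 𝔫)
    {a a' b b' : T} {ρ ρ' : R} (hρ : ρ ≠ 0) (hρ' : ρ' ≠ 0) (hb : b ∉ 𝔫) (hb' : b' ∉ 𝔫)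
    (h : a * a' = (ρ * ρ') • (b * b')) (h𝔫p : 𝔫.IsPrime) :
    ∃ (c : R) (a₁ : T), c ≠ 0 ∧ a₁ ∉ 𝔫 ∧ a = c • a₁ := by
  have : Module.IsTorsionFree R T := inferInstance
  have hbb' : b * b' ∉ 𝔫 := fun hm => (h𝔫p.mem_or_mem hm).elim hb hb'
  have hbb'p : b * b' ∉ s26evcM R T := fun hm => hbb' (h𝔫 hm)
  have hbb'0 : b * b' ≠ 0 := s26evc_ne_zero_of_prim hbb'p
  have hρρ' : ρ * ρ' ≠ 0 := mul_ne_zero hρ hρ'
  have haa' : a * a' ≠ 0 := by
    rw [h]
    exact smul_ne_zero hρρ' hbb'0
  have ha0 : a ≠ 0 := left_ne_zero_of_mul haa'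
  have ha'0 : a' ≠ 0 := right_ne_zero_of_mul haa'
  obtain ⟨c, a₁, hc0, rfl, ha₁⟩ := s26evc_content (R := R) ha0
  obtain ⟨c', a₁', hc'0, rfl, ha₁'⟩ := s26evc_content (R := R) ha'0
  refine ⟨c, a₁, hc0, ?_, rfl⟩
  -- Gauss: `a₁ a₁'` is primitive
  have hprim : a₁ * a₁' ∉ s26evcM R T := fun hm => (h𝔪.mem_or_mem hm).elim ha₁ ha₁'
  have h1 : (c * c') • (a₁ * a₁') = (ρ * ρ') • (b * b') := by
    rw [← h, smul_mul_smul_comm]
  obtain ⟨u, -, hu⟩ := s26evc_content_unique (mul_ne_zero hc0 hc'0) hprim hbb'p h1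
  intro ha₁𝔫
  have h2 : a₁ * a₁' ∈ 𝔫 := Ideal.mul_mem_right _ _ ha₁𝔫
  rw [hu] at h2
  -- `u • (b b') ∈ 𝔫` with `u` a unit
  have h3 : ((u⁻¹ : Rˣ) : R) • ((u : R) • (b * b')) ∈ 𝔫 := by
    rw [Algebra.smul_def]
    exact Ideal.mul_mem_left _ _ h2
  rw [← mul_smul, Units.inv_mul, one_smul] at h3
  exact hbb' h3

variable {E : Type*} [Field E] [Algebra T E] [IsFractionRing T E]

/-- **(C3), fraction-field form**: `H · (ρ b) = a`, `a' · H = ρ' b'` (so `H⁻¹ = a'/(ρ' b')`). -/
theorem s26evc_main_frac (h𝔪 : (s26evcM R T).IsPrime) (𝔫 : Ideal T) (h𝔫p : 𝔫.IsPrime)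
    (h𝔫 : s26evcM R T ≤ 𝔫) {H : E} {a a' b b' : T} {ρ ρ' : R} (hρ : ρ ≠ 0) (hρ' : ρ' ≠ 0)
    (hb : b ∉ 𝔫) (hb' : b' ∉ 𝔫)
    (hH : H * algebraMap T E (ρ • b) = algebraMap T E a)
    (hH' : algebraMap T E a' * H = algebraMap T E (ρ' • b')) :
    ∃ (c : R) (a₁ : T), c ≠ 0 ∧ a₁ ∉ 𝔫 ∧ H * algebraMap T E (ρ • b) = algebraMap T E (c • a₁) := by
  have hb0 : b ≠ 0 := fun h0 => hb (h0 ▸ Ideal.zero_mem _)
  have hρb : algebraMap T E (ρ • b) ≠ 0 := by
    have : ρ • b ≠ 0 := smul_ne_zero hρ hb0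
    simpa using (IsFractionRing.injective T E).ne this
  have h : a * a' = (ρ * ρ') • (b * b') := by
    apply IsFractionRing.injective T E
    rw [map_mul, ← hH, ← smul_mul_smul_comm, map_mul, ← hH']
    ring
  obtain ⟨c, a₁, hc, ha₁, rfl⟩ := s26evc_main h𝔪 𝔫 h𝔫 hρ hρ' hb hb' h h𝔫p
  exact ⟨c, a₁, hc, ha₁, hH⟩

/-- **(C4)**: for every valuation subring `W ⊇ T` of `Frac T` in which the elements of `T ∖ 𝔫` are
units (e.g. `W` dominates `T_𝔫`, or `W ⊇ T_𝔫` is the Gauss valuation ring), the value of `H` is the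
value of the constant `c / ρ`. -/
theorem s26evc_valuation (h𝔪 : (s26evcM R T).IsPrime) (𝔫 : Ideal T) (h𝔫p : 𝔫.IsPrime)
    (h𝔫 : s26evcM R T ≤ 𝔫) {H : E} {a a' b b' : T} {ρ ρ' : R} (hρ : ρ ≠ 0) (hρ' : ρ' ≠ 0)
    (hb : b ∉ 𝔫) (hb' : b' ∉ 𝔫)
    (hH : H * algebraMap T E (ρ • b) = algebraMap T E a)
    (hH' : algebraMap T E a' * H = algebraMap T E (ρ' • b')) :
    ∃ c : R, c ≠ 0 ∧ ∀ W : ValuationSubring E,
      (∀ x : T, x ∉ 𝔫 → W.valuation (algebraMap T E x) = 1) →
        W.valuation H * W.valuation (algebraMap T E (algebraMap R T ρ)) =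
          W.valuation (algebraMap T E (algebraMap R T c)) := by
  obtain ⟨c, a₁, hc, ha₁, hca⟩ := s26evc_main_frac h𝔪 𝔫 h𝔫p h𝔫 hρ hρ' hb hb' hH hH'
  refine ⟨c, hc, fun W hW => ?_⟩
  have h1 := congrArg W.valuation hca
  rw [map_mul, Algebra.smul_def, Algebra.smul_def, map_mul, map_mul, map_mul, map_mul,
    hW b hb, hW a₁ ha₁, mul_one, mul_one] at h1
  exact h1

end Main

end Fermat.Agent.S26
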