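/-
S26-E-VERT (helper38): the GAUSS valuation subring of a chart.

`R` a valuation ring (any rank), `T` a free `R`-algebra domain with `𝔪_R T` prime, `E = Frac T`.
* `s26evgGauss h𝔪 : ValuationSubring E` : the localisation of `T` at `𝔪_R T`
  (`= {a / b : b ∉ 𝔪_R T}`); it IS a valuation ring by the content lemma (Gauss extension of the
  valuation of `R` to `E`).
* `s26evg_val_eq_one` : primitive elements (`∉ 𝔪_R T`) have value `1`.
* `s26evg_val_lt_one` : elements of `𝔪_R T` have value `< 1`.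
* `s26evg_assoc`      : two nonzero constants of `R` with the same Gauss value are associated in `R`
  (= the hypothesis `hR` of `s26evw_main`).
-/
import Fermat.Agent.S26.EVertCont

set_option autoImplicit false
set_option linter.unusedSectionVars false

namespace Fermat.Agent.S26

open IsLocalRing

variable {R T E : Type*} [CommRing R] [IsDomain R] [ValuationRing R] [CommRing T] [IsDomain T]
  [Algebra R T] [Module.Free R T] [Field E] [Algebra T E] [IsFractionRing T E]

/-- membership in the Gauss ring -/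
def S26evgMem (R : Type*) [CommRing R] [IsDomain R] [ValuationRing R] {T E : Type*} [CommRing T]
    [Algebra R T] [Field E] [Algebra T E] (x : E) : Prop :=
  ∃ a b : T, b ∉ s26evcM R T ∧ x * algebraMap T E b = algebraMap T E a

theorem s26evg_ne_zero {b : T} (hb : b ∉ s26evcM R T) : algebraMap T E b ≠ 0 := by
  have hb0 : b ≠ 0 := s26evc_ne_zero_of_prim hb
  simpa using (IsFractionRing.injective T E).ne hb0

theorem s26evg_mem_mul (h𝔪 : (s26evcM R T).IsPrime) {x y : E} (hx : S26evgMem R (T := T) x)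
    (hy : S26evgMem R (T := T) y) : S26evgMem R (T := T) (x * y) := by
  obtain ⟨a, b, hb, hab⟩ := hx
  obtain ⟨c, d, hd, hcd⟩ := hy
  refine ⟨a * c, b * d, fun h => (h𝔪.mem_or_mem h).elim hb hd, ?_⟩
  rw [map_mul, map_mul, ← hab, ← hcd]; ring

theorem s26evg_mem_add (h𝔪 : (s26evcM R T).IsPrime) {x y : E} (hx : S26evgMem R (T := T) x)
    (hy : S26evgMem R (T := T) y) : S26evgMem R (T := T) (x + y) := by
  obtain ⟨a, b, hb, hab⟩ := hx
  obtain ⟨c, d, hd, hcd⟩ := hy
  refine ⟨a * d + c * b, b * d, fun h => (h𝔪.mem_or_mem h).elim hb hd, ?_⟩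
  rw [map_add, map_mul, map_mul, map_mul, ← hab, ← hcd]; ring

theorem s26evg_mem_algebraMap (h𝔪 : (s26evcM R T).IsPrime) (a : T) :
    S26evgMem R (T := T) (algebraMap T E a) :=
  ⟨a, 1, fun h => h𝔪.ne_top ((Ideal.eq_top_iff_one _).2 h), by simp⟩

theorem s26evg_mem_neg {x : E} (hx : S26evgMem R (T := T) x) : S26evgMem R (T := T) (-x) := by
  obtain ⟨a, b, hb, hab⟩ := hx
  exact ⟨-a, b, hb, by rw [map_neg, ← hab]; ring⟩

theorem s26evg_mem_or_inv (x : E) : S26evgMem R (T := T) x ∨ S26evgMem R (T := T) x⁻¹ := by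
  obtain ⟨a, b, hb, rfl⟩ := IsFractionRing.div_surjective (A := T) x
  have hb0 : b ≠ 0 := nonZeroDivisors.ne_zero hb
  have hbE : algebraMap T E b ≠ 0 := by
    simpa using (IsFractionRing.injective T E).ne hb0
  by_cases ha0 : a = 0
  · left
    subst ha0
    refine ⟨0, 1, fun h => ?_, by simp⟩
    -- `1 ∉ 𝔪_R T`: use content of `b`
    obtain ⟨ρ, b', hρ, -, hb'⟩ := s26evc_content (R := R) hb0
    exact hb' ((Ideal.eq_top_iff_one _).2 h ▸ Submodule.mem_top)
  have haE : algebraMap T E a ≠ 0 := by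
    simpa using (IsFractionRing.injective T E).ne ha0
  obtain ⟨ρ, a₁, hρ, rfl, ha₁⟩ := s26evc_content (R := R) ha0
  obtain ⟨ρ', b₁, hρ', rfl, hb₁⟩ := s26evc_content (R := R) hb0
  rcases ValuationRing.dvd_total ρ' ρ with ⟨r, hr⟩ | ⟨r, hr⟩
  · -- `ρ = ρ' r`: `x = (r a₁) / b₁`
    left
    refine ⟨r • a₁, b₁, hb₁, ?_⟩
    rw [div_mul_eq_mul_div, div_eq_iff hbE, ← map_mul, ← map_mul, hr]
    congr 1
    rw [Algebra.smul_def, Algebra.smul_def, Algebra.smul_def, map_mul]
    ring
  · -- `ρ' = ρ r`: `x⁻¹ = (r b₁) / a₁`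
    right
    refine ⟨r • b₁, a₁, ha₁, ?_⟩
    rw [inv_div, div_mul_eq_mul_div, div_eq_iff haE, ← map_mul, ← map_mul, hr]
    congr 1
    rw [Algebra.smul_def, Algebra.smul_def, Algebra.smul_def, map_mul]
    ring

/-- **The Gauss valuation subring** of `E = Frac T`: the localisation of `T` at `𝔪_R T`. -/
def s26evgGauss (h𝔪 : (s26evcM R T).IsPrime) : ValuationSubring E where
  carrier := {x | S26evgMem R (T := T) x}
  mul_mem' := fun hx hy => s26evg_mem_mul h𝔪 hx hy
  one_mem' := by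
    have := s26evg_mem_algebraMap (E := E) h𝔪 (1 : T)
    rwa [map_one] at this
  add_mem' := fun hx hy => s26evg_mem_add h𝔪 hx hy
  zero_mem' := by
    have := s26evg_mem_algebraMap (E := E) h𝔪 (0 : T)
    rwa [map_zero] at this
  neg_mem' := fun hx => s26evg_mem_neg hx
  mem_or_inv_mem' := fun x => s26evg_mem_or_inv x

theorem s26evg_mem_iff (h𝔪 : (s26evcM R T).IsPrime) (x : E) :
    x ∈ s26evgGauss (E := E) h𝔪 ↔ S26evgMem R (T := T) x := Iff.rfl

/-- `T ⊆ W_G` -/
theorem s26evg_algebraMap_mem (h𝔪 : (s26evcM R T).IsPrime) (a : T) :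
    algebraMap T E a ∈ s26evgGauss (E := E) h𝔪 := s26evg_mem_algebraMap h𝔪 a

/-- primitive elements have Gauss value `1` -/
theorem s26evg_val_eq_one (h𝔪 : (s26evcM R T).IsPrime) {x : T} (hx : x ∉ s26evcM R T) :
    (s26evgGauss (E := E) h𝔪).valuation (algebraMap T E x) = 1 := by
  have hxE : algebraMap T E x ≠ 0 := s26evg_ne_zero hx
  have h1 : (s26evgGauss (E := E) h𝔪).valuation (algebraMap T E x) ≤ 1 :=
    (ValuationSubring.valuation_le_one_iff _ _).2 (s26evg_algebraMap_mem h𝔪 x)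
  have h2 : (s26evgGauss (E := E) h𝔪).valuation (algebraMap T E x)⁻¹ ≤ 1 := by
    rw [ValuationSubring.valuation_le_one_iff, s26evg_mem_iff]
    exact ⟨1, x, hx, by rw [map_one, inv_mul_cancel₀ hxE]⟩
  rw [map_inv₀] at h2
  have h0 : (s26evgGauss (E := E) h𝔪).valuation (algebraMap T E x) ≠ 0 :=
    (Valuation.ne_zero_iff _).2 hxE
  refine le_antisymm h1 ?_
  rwa [inv_le_one₀ (zero_lt_iff.2 h0)] at h2

/-- elements of `𝔪_R T` have Gauss value `< 1` -/
theorem s26evg_val_lt_one (h𝔪 : (s26evcM R T).IsPrime) {x : T} (hx : x ∈ s26evcM R T) :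
    (s26evgGauss (E := E) h𝔪).valuation (algebraMap T E x) < 1 := by
  have h1 : (s26evgGauss (E := E) h𝔪).valuation (algebraMap T E x) ≤ 1 :=
    (ValuationSubring.valuation_le_one_iff _ _).2 (s26evg_algebraMap_mem h𝔪 x)
  refine lt_of_le_of_ne h1 (fun h => ?_)
  have hxE : algebraMap T E x ≠ 0 := by
    intro h0
    rw [h0, map_zero] at h
    exact zero_ne_one h
  have h2 : (s26evgGauss (E := E) h𝔪).valuation (algebraMap T E x)⁻¹ ≤ 1 := by
    rw [map_inv₀, h, inv_one]
  rw [ValuationSubring.valuation_le_one_iff, s26evg_mem_iff] at h2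
  obtain ⟨a, b, hb, hab⟩ := h2
  apply hb
  have : b = x * a := by
    apply IsFractionRing.injective T E
    rw [map_mul, ← hab]
    field_simp
  rw [this]
  exact Ideal.mul_mem_right _ _ hx

/-- two nonzero constants with the same Gauss value are associated in `R` -/
theorem s26evg_assoc (h𝔪 : (s26evcM R T).IsPrime) {c ρ : R} (hc : c ≠ 0) (hρ : ρ ≠ 0)
    (h : (s26evgGauss (E := E) h𝔪).valuation (algebraMap T E (algebraMap R T c)) =
      (s26evgGauss (E := E) h𝔪).valuation (algebraMap T E (algebraMap R T ρ))) :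
    ∃ u : Rˣ, c = u * ρ := by
  have key : ∀ {c ρ : R}, ρ ≠ 0 → ∀ r : R, c = ρ * r →
      (s26evgGauss (E := E) h𝔪).valuation (algebraMap T E (algebraMap R T c)) =
        (s26evgGauss (E := E) h𝔪).valuation (algebraMap T E (algebraMap R T ρ)) → IsUnit r := by
    intro c ρ hρ r hr hv
    by_contra hnu
    have hrm : algebraMap R T r ∈ s26evcM R T :=
      Ideal.mem_map_of_mem _ ((mem_maximalIdeal r).2 hnu)
    have hlt := s26evg_val_lt_one (E := E) h𝔪 hrm
    have hρE : (s26evgGauss (E := E) h𝔪).valuation (algebraMap T E (algebraMap R T ρ)) ≠ 0 := by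
      rw [Valuation.ne_zero_iff]
      intro h0
      have h1 : algebraMap R T ρ = 0 := (IsFractionRing.injective T E) (by simpa using h0)
      have h2 : ρ • (1 : T) = 0 := by rw [Algebra.smul_def, mul_one, h1]
      rcases smul_eq_zero.1 h2 with h | h
      · exact hρ h
      · exact one_ne_zero h
    rw [hr, map_mul, map_mul, map_mul] at hv
    have : (s26evgGauss (E := E) h𝔪).valuation (algebraMap T E (algebraMap R T r)) = 1 := by
      have h3 := mul_left_cancel₀ hρE (hv.trans (mul_one _).symm)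
      exact h3
    rw [this] at hlt
    exact lt_irrefl _ hlt
  rcases ValuationRing.dvd_total ρ c with ⟨r, hr⟩ | ⟨r, hr⟩
  · obtain ⟨u, rfl⟩ := key hρ r hr h
    exact ⟨u, by rw [hr, mul_comm]⟩
  · obtain ⟨u, rfl⟩ := key hc r hr h.symm
    refine ⟨u⁻¹, ?_⟩
    rw [hr, mul_comm c, ← mul_assoc, Units.inv_mul, one_mul]

end Fermat.Agent.S26
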