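/-
S26-E, piece E-VERT (I-abs) (helper57, for helper38's `s26evw_main`).  Mathlib only.

`A` an integrally closed domain, `E = Frac A`, `M ≤ A⁰` a submonoid.  If `H ∈ E` lies in EVERY
valuation subring `V` of `E` that contains `A` and the inverses of the elements of `M`, then
`H = a / m` with `a ∈ A`, `m ∈ M`.

* `s26evh_main`     : the statement above.
* `s26evh_main_val` : the same with the hypothesis `v(H) ≤ 1`.
* `s26evh_unit`     : two-sided form: `v(H) = 1` at all those `V` ⇒ `H = a/m` and `H⁻¹ = a'/m'`.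
-/
import Mathlib.RingTheory.Valuation.LocalSubring
import Mathlib.RingTheory.Localization.AsSubring
import Mathlib.RingTheory.IntegralClosure.IntegrallyClosed

set_option autoImplicit false

noncomputable section

namespace Fermat.Agent.S26

open scoped nonZeroDivisors

variable {A E : Type*} [CommRing A] [IsDomain A] [IsIntegrallyClosed A] [Field E]
  [Algebra A E] [IsFractionRing A E]

/-- The subring `A[M⁻¹]` of `E` is integrally closed in `E`. -/
theorem s26evh_isIntegrallyClosedIn (M : Submonoid A) (hM : M ≤ A⁰) :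
    IsIntegrallyClosedIn (Localization.subalgebra.ofField E M hM).toSubring E := by
  set B : Subalgebra A E := Localization.subalgebra.ofField E M hM with hB
  have : IsIntegrallyClosed B := isIntegrallyClosed_of_isLocalization B M hM
  have h1 : IsIntegrallyClosedIn B E := (isIntegrallyClosed_iff_isIntegrallyClosedIn E).mp ‹_›
  rw [Subring.isIntegrallyClosedIn_iff]
  intro x hx
  have hx' : IsIntegral B x := hx
  obtain ⟨y, hy⟩ := (isIntegrallyClosedIn_iff.mp h1).2 hx'
  rw [← hy]
  exact y.2

/-- **(I-abs).** -/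
theorem s26evh_main (M : Submonoid A) (hM : M ≤ A⁰) (H : E)
    (hH : ∀ V : ValuationSubring E, (∀ a : A, algebraMap A E a ∈ V) →
      (∀ m ∈ M, (algebraMap A E m)⁻¹ ∈ V) → H ∈ V) :
    ∃ a : A, ∃ m ∈ M, H * algebraMap A E m = algebraMap A E a := by
  set B : Subalgebra A E := Localization.subalgebra.ofField E M hM with hB
  have := s26evh_isIntegrallyClosedIn (E := E) M hM
  have hmem : ∀ x : E, x ∈ B ↔ ∃ (a s : A) (_ : s ∈ M),
      x = algebraMap A E a * (algebraMap A E s)⁻¹ := fun x => Iff.rfl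
  by_cases hHB : H ∈ B.toSubring
  · obtain ⟨a, s, hs, rfl⟩ := (hmem H).mp hHB
    refine ⟨a, s, hs, ?_⟩
    have hs0 : algebraMap A E s ≠ 0 := by
      have := hM hs
      exact IsFractionRing.to_map_ne_zero_of_mem_nonZeroDivisors this
    rw [mul_assoc, inv_mul_cancel₀ hs0, mul_one]
  · exfalso
    obtain ⟨V, hV, hHV⟩ := Subring.exists_le_valuationSubring_of_isIntegrallyClosedIn hHB
    refine hHV (hH V (fun a => hV (B.algebraMap_mem a)) (fun m hm => hV ?_))
    exact (hmem _).mpr ⟨1, m, hm, by rw [map_one, one_mul]⟩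

/-- (I-abs) with valuations: `v(H) ≤ 1` at every valuation subring containing `A[M⁻¹]`. -/
theorem s26evh_main_val (M : Submonoid A) (hM : M ≤ A⁰) (H : E)
    (hH : ∀ V : ValuationSubring E, (∀ a : A, algebraMap A E a ∈ V) →
      (∀ m ∈ M, (algebraMap A E m)⁻¹ ∈ V) → V.valuation H ≤ 1) :
    ∃ a : A, ∃ m ∈ M, H * algebraMap A E m = algebraMap A E a :=
  s26evh_main M hM H fun V h1 h2 => (V.valuation_le_one_iff H).mp (hH V h1 h2)

/-- Two-sided form: if `v(H) = 1` at every valuation subring containing `A[M⁻¹]`, then both `H`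
and `H⁻¹` are fractions with denominators in `M`: `H m = a`, `m' = H a'`. -/
theorem s26evh_unit (M : Submonoid A) (hM : M ≤ A⁰) (H : E)
    (hH : ∀ V : ValuationSubring E, (∀ a : A, algebraMap A E a ∈ V) →
      (∀ m ∈ M, (algebraMap A E m)⁻¹ ∈ V) → V.valuation H = 1) :
    ∃ (a : A) (m : A) (a' : A) (m' : A), m ∈ M ∧ m' ∈ M ∧
      H * algebraMap A E m = algebraMap A E a ∧ algebraMap A E m' = H * algebraMap A E a' := by
  have hH0 : H ≠ 0 := by
    rintro rfl
    have := hH ⊤ (fun _ => ValuationSubring.mem_top _) (fun _ _ => ValuationSubring.mem_top _)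
    rw [map_zero] at this
    exact zero_ne_one this
  obtain ⟨a, m, hm, h1⟩ := s26evh_main_val M hM H fun V h1 h2 => (hH V h1 h2).le
  obtain ⟨a', m', hm', h2⟩ := s26evh_main_val M hM H⁻¹ fun V h1 h2 => by
    rw [map_inv₀, hH V h1 h2, inv_one]
  refine ⟨a, m, a', m', hm, hm', h1, ?_⟩
  rw [← h2, ← mul_assoc, mul_inv_cancel₀ hH0, one_mul]

end Fermat.Agent.S26
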