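/-
S26-E, piece E-VERT (HW) (helper57, statement by helper38): from (I-abs) to `S26evwHor`.

`T → A` injective (`T = V ⊗ B`, `A = L ⊗ B` in the application), `A` integrally closed with
fraction field `E`, every element of `A` is cleared into `T` by a nonzero constant of `R`.
If `H ∈ E` has value `1` at every valuation subring of `E` containing `A` in which the elements of
`T ∖ 𝔫` are units, then `H` is a unit of `T_𝔫[1/(R∖0)]`, i.e. `S26evwHor R 𝔫 H`.
-/
import Fermat.Agent.S26.EVertHor
import Fermat.Agent.S26.EVertWire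

set_option autoImplicit false

namespace Fermat.Agent.S26

open scoped nonZeroDivisors

/-- **(HW).** -/
theorem s26evh_hor {R T A E : Type*} [CommRing R] [CommRing T] [Algebra R T]
    [CommRing A] [IsDomain A] [IsIntegrallyClosed A] [Algebra R A] [Algebra T A]
    [IsScalarTower R T A]
    [Field E] [Algebra A E] [IsFractionRing A E] [Algebra T E] [IsScalarTower T A E]
    (hinj : Function.Injective (algebraMap T A))
    (hclear : ∀ a : A, ∃ ρ : R, ρ ≠ 0 ∧ ∃ t : T, algebraMap R A ρ * a = algebraMap T A t)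
    (𝔫 : Ideal T) [𝔫.IsPrime] (H : E)
    (hH : ∀ W : ValuationSubring E, (∀ a : A, algebraMap A E a ∈ W) →
      (∀ x : T, x ∉ 𝔫 → W.valuation (algebraMap T E x) = 1) → W.valuation H = 1) :
    S26evwHor R 𝔫 H := by
  -- the multiplicative set
  let M : Submonoid A := Submonoid.map (algebraMap T A) 𝔫.primeCompl
  have hM : M ≤ A⁰ := by
    rintro _ ⟨x, hx, rfl⟩
    refine mem_nonZeroDivisors_of_ne_zero ?_
    intro h0
    have : x = 0 := hinj (by rw [h0, map_zero])
    exact hx (this ▸ 𝔫.zero_mem)
  have hTE : ∀ x : T, algebraMap T E x = algebraMap A E (algebraMap T A x) := fun x =>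
    IsScalarTower.algebraMap_apply T A E x
  have hsm : ∀ (ρ : R) (b : T),
      algebraMap T A (ρ • b) = algebraMap R A ρ * algebraMap T A b := by
    intro ρ b
    rw [Algebra.smul_def, map_mul, ← IsScalarTower.algebraMap_apply R T A]
  obtain ⟨a₀, m, a₀', m', hm, hm', h1, h2⟩ := s26evh_unit (E := E) M hM H (by
    intro W hA hMW
    refine hH W hA (fun x hx => ?_)
    have hxM : algebraMap T A x ∈ M := ⟨x, hx, rfl⟩
    have h1 : algebraMap A E (algebraMap T A x) ∈ W := hA _
    have h2 : (algebraMap A E (algebraMap T A x))⁻¹ ∈ W := hMW _ hxM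
    rw [hTE]
    have hle := (W.valuation_le_one_iff _).mpr h1
    have hle' := (W.valuation_le_one_iff _).mpr h2
    rw [map_inv₀] at hle'
    by_cases h0 : W.valuation (algebraMap A E (algebraMap T A x)) = 0
    · rw [h0, inv_zero] at hle'
      exact le_antisymm hle (by
        have hx0 : algebraMap A E (algebraMap T A x) = 0 := (map_eq_zero _).mp h0
        have : algebraMap T A x = 0 :=
          IsFractionRing.injective A E (by rw [hx0, map_zero])
        have hx' : x = 0 := hinj (by rw [this, map_zero])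
        exact (hx (hx' ▸ 𝔫.zero_mem)).elim)
    · exact le_antisymm hle ((inv_le_one₀ (zero_lt_iff.mpr h0)).mp hle'))
  obtain ⟨b, hb, rfl⟩ := hm
  obtain ⟨b', hb', rfl⟩ := hm'
  obtain ⟨ρ, hρ, t, ht⟩ := hclear a₀
  obtain ⟨ρ', hρ', t', ht'⟩ := hclear a₀'
  refine ⟨t, t', b, b', ρ, ρ', hρ, hρ', hb, hb', ?_, ?_⟩
  · rw [hTE, hTE, hsm, ← ht, map_mul, map_mul, ← h1]
    ring
  · rw [hTE, hTE, hsm, ← ht', map_mul, map_mul, h2]
    ring

end Fermat.Agent.S26
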