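/-
S26-E-VERT (helper38): **(d), assembled** — `s26evm_main`.

Setting (helper12's): `K` algebraically closed, `L / K`, `Γ / K` fields, `F` a fraction field of
`L ⊗[K] Γ`.  `G ∈ F`, `𝔡 : ValuationSubring F → F` a generator family.  If
* (hHOR) `w(G) = w(𝔡 W)` at the valuation subrings `W ⊇ L`                          [(c), E-RIG],
* (hLG)  `𝔡` has LOCAL GENERATORS on the charts `T = V ⊗[K] B` (`V ⊂ L`, `B ⊂ Γ` valuation
         subrings): for every prime `𝔫` of `T` ONE `D ∈ Fˣ` with `w'(𝔡 W') = w'(D)` for all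
         `W' ⊇ T_𝔫`                                                       [E-M `s26emV_of_point`],
* (hSEC) `w₀(G) = w₀(𝔡 W₀)` at the composite `W₀ = V ∘ γ₀` of the place `γ₀ = (B₀, e)`  [(W0)],
* (hNOR) `L ⊗[K] B` is integrally closed                                             [helper25],
then `w(G) = w(𝔡 W)` at EVERY valuation subring `W` of `F` over `K`.
-/
import Fermat.Agent.S26.EVertChart
import Fermat.Agent.S26.EVertGauss
import Fermat.Agent.S26.EVertHorW
import Fermat.Agent.S26.EG3Dom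

set_option autoImplicit false
set_option linter.unusedSectionVars false
set_option linter.style.haveILetI false

noncomputable section

namespace Fermat.Agent.S26

open IsLocalRing TensorProduct

variable (K : Type*) [Field K] (L : Type*) [Field L] [Algebra K L]
  (Γ : Type*) [Field Γ] [Algebra K Γ]
  (F : Type*) [Field F] [Algebra (L ⊗[K] Γ) F] [IsFractionRing (L ⊗[K] Γ) F]

/-- `L → F` -/
def s26evmL : L →+* F :=
  (algebraMap (L ⊗[K] Γ) F).comp (Algebra.TensorProduct.includeLeftRingHom)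

/-- `Γ → F` -/
def s26evmR : Γ →+* F :=
  (algebraMap (L ⊗[K] Γ) F).comp (Algebra.TensorProduct.includeRight : Γ →ₐ[K] L ⊗[K] Γ).toRingHom

theorem s26evmL_apply (l : L) :
    s26evmL K L Γ F l = algebraMap (L ⊗[K] Γ) F (l ⊗ₜ[K] (1 : Γ)) := rfl

theorem s26evmR_apply (γ : Γ) :
    s26evmR K L Γ F γ = algebraMap (L ⊗[K] Γ) F ((1 : L) ⊗ₜ[K] γ) := rfl

/-- `𝔪_R (R ⊗ B)` is prime (`K` algebraically closed, `B` a domain) -/
theorem s26evm_M_isPrime [IsAlgClosed K] (R : Type*) [CommRing R] [IsDomain R] [ValuationRing R]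
    [Algebra K R] (B : Type*) [CommRing B] [IsDomain B] [Algebra K B] :
    (s26evcM R (R ⊗[K] B)).IsPrime := by
  haveI : IsDomain ((R ⧸ maximalIdeal R) ⊗[K] B) := s26eg3d_isDomain
  exact s26evi_M_isPrime K R B

section Chart

variable (R : Type*) [CommRing R] [IsDomain R] [ValuationRing R] [Algebra K R] [Algebra R L]
  [IsScalarTower K R L] [IsFractionRing R L]
  (B : Type*) [CommRing B] [Algebra K B] [Algebra B Γ] [IsScalarTower K B Γ] [IsFractionRing B Γ]
  (C : Type*) [CommRing C] [Algebra K C] [Algebra C Γ] [IsScalarTower K C Γ] [IsFractionRing C Γ]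

/-- compatibility of the charts under `B → C` -/
theorem s26evm_iota_map (j : B →ₐ[K] C) (hj : ∀ b, algebraMap C Γ (j b) = algebraMap B Γ b)
    (t : R ⊗[K] B) :
    s26evxIota K L Γ R C F (s26eviMap j t) = s26evxIota K L Γ R B F t := by
  induction t using TensorProduct.induction_on with
  | zero => rw [map_zero, map_zero, map_zero]
  | tmul r b =>
    rw [s26eviMap_tmul, s26evxIota_apply, s26evxIota_apply, s26evxJ_tmul, s26evxJ_tmul, hj]
  | add x y hx hy => rw [map_add, map_add, map_add, hx, hy]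

/-- the constants in a chart -/
theorem s26evm_iota_const (r : R) :
    s26evxIota K L Γ R B F (algebraMap R (R ⊗[K] B) r) = s26evmL K L Γ F (algebraMap R L r) := by
  rw [Algebra.TensorProduct.algebraMap_apply, s26evxIota_apply, s26evxJ_tmul, s26evmL_apply,
    map_one]
  rfl


/-- **the Gauss valuation subring** of `F` attached to the valuation ring `R` of `L` -/
def s26evmGauss [IsAlgClosed K] : ValuationSubring F :=
  letI := s26evxAlg K L Γ R Γ F
  haveI := s26evx_isFractionRing K L Γ R Γ F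
  haveI := s26evx_isDomain K L Γ R Γ F
  s26evgGauss (R := R) (T := R ⊗[K] Γ) (E := F) (s26evm_M_isPrime K R Γ)

/-- the primitive elements of every chart have Gauss value `1` -/
theorem s26evm_gauss_val_eq_one [IsAlgClosed K] {t : R ⊗[K] B} (ht : t ∉ s26evcM R (R ⊗[K] B)) :
    (s26evmGauss K L Γ F R).valuation (s26evxIota K L Γ R B F t) = 1 := by
  letI := s26evxAlg K L Γ R Γ F
  haveI := s26evx_isFractionRing K L Γ R Γ F
  haveI := s26evx_isDomain K L Γ R Γ F
  have hj : Function.Injective (IsScalarTower.toAlgHom K B Γ) := IsFractionRing.injective B Γ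
  have h1 : s26eviMap (R := R) (IsScalarTower.toAlgHom K B Γ) t ∉ s26evcM R (R ⊗[K] Γ) := by
    intro h
    apply ht
    rw [← s26evi_comap_M (R := R) (IsScalarTower.toAlgHom K B Γ) hj]
    exact h
  have h2 := s26evg_val_eq_one (E := F) (s26evm_M_isPrime K R Γ) h1
  have h3 : algebraMap (R ⊗[K] Γ) F (s26eviMap (R := R) (IsScalarTower.toAlgHom K B Γ) t) =
      s26evxIota K L Γ R B F t :=
    s26evm_iota_map K L Γ F R B Γ (IsScalarTower.toAlgHom K B Γ) (fun _ => rfl) t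
  rw [h3] at h2
  exact h2

/-- two nonzero constants with the same Gauss value are associated -/
theorem s26evm_gauss_assoc [IsAlgClosed K] {c ρ : R} (hc : c ≠ 0) (hρ : ρ ≠ 0)
    (h : (s26evmGauss K L Γ F R).valuation (s26evmL K L Γ F (algebraMap R L c)) =
      (s26evmGauss K L Γ F R).valuation (s26evmL K L Γ F (algebraMap R L ρ))) :
    ∃ u : Rˣ, c = u * ρ := by
  letI := s26evxAlg K L Γ R Γ F
  haveI := s26evx_isFractionRing K L Γ R Γ F
  haveI := s26evx_isDomain K L Γ R Γ F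
  refine s26evg_assoc (E := F) (s26evm_M_isPrime K R Γ) hc hρ ?_
  have e1 : ∀ r : R, algebraMap (R ⊗[K] Γ) F (algebraMap R (R ⊗[K] Γ) r) =
      s26evmL K L Γ F (algebraMap R L r) := fun r => s26evm_iota_const K L Γ F R Γ r
  rw [e1, e1]
  exact h

/-! ### (HOR): horizontal units from valuations -/

/-- `T = R ⊗ B → A = L ⊗ B` -/
def s26evmTA : R ⊗[K] B →ₐ[K] L ⊗[K] B :=
  Algebra.TensorProduct.map (IsScalarTower.toAlgHom K R L) (AlgHom.id K B)

@[simp] theorem s26evmTA_tmul (r : R) (b : B) :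
    s26evmTA K L R B (r ⊗ₜ[K] b) = (algebraMap R L r) ⊗ₜ[K] b := rfl

theorem s26evm_iota_TA (t : R ⊗[K] B) :
    s26evxIota K L Γ L B F (s26evmTA K L R B t) = s26evxIota K L Γ R B F t := by
  induction t using TensorProduct.induction_on with
  | zero => rw [map_zero, map_zero, map_zero]
  | tmul r b => rfl
  | add x y hx hy => rw [map_add, map_add, map_add, hx, hy]

include Γ F in
theorem s26evmTA_injective : Function.Injective (s26evmTA K L R B) := by
  intro x y h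
  apply s26evxIota_injective K L Γ R B F
  rw [← s26evm_iota_TA K L Γ F R B x, ← s26evm_iota_TA K L Γ F R B y, h]

/-- clearing the constants of an element of `L ⊗ B` -/
theorem s26evm_clear (a : L ⊗[K] B) :
    ∃ ρ : R, ρ ≠ 0 ∧ ∃ t : R ⊗[K] B,
      ((algebraMap R L ρ) ⊗ₜ[K] (1 : B)) * a = s26evmTA K L R B t := by
  induction a using TensorProduct.induction_on with
  | zero => exact ⟨1, one_ne_zero, 0, by simp⟩
  | tmul l b =>
    obtain ⟨r₁, r₂, hr₂, hl⟩ := s26evx_clear_one R l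
    refine ⟨r₂, hr₂, r₁ ⊗ₜ[K] b, ?_⟩
    rw [Algebra.TensorProduct.tmul_mul_tmul, hl, one_mul, s26evmTA_tmul]
  | add x y hx hy =>
    obtain ⟨ρ, hρ, t, h⟩ := hx
    obtain ⟨ρ', hρ', t', h'⟩ := hy
    refine ⟨ρ * ρ', mul_ne_zero hρ hρ', (ρ' ⊗ₜ[K] (1 : B)) * t + (ρ ⊗ₜ[K] (1 : B)) * t', ?_⟩
    have e1 : s26evmTA K L R B ((ρ' ⊗ₜ[K] (1 : B)) * t + (ρ ⊗ₜ[K] (1 : B)) * t') =
        s26evmTA K L R B (ρ' ⊗ₜ[K] (1 : B)) * s26evmTA K L R B t +
          s26evmTA K L R B (ρ ⊗ₜ[K] (1 : B)) * s26evmTA K L R B t' := by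
      rw [map_add, map_mul, map_mul]
    rw [e1, ← h, ← h', s26evmTA_tmul, s26evmTA_tmul, map_mul (algebraMap R L)]
    have e2 : ((algebraMap R L ρ * algebraMap R L ρ') ⊗ₜ[K] (1 : B) : L ⊗[K] B) =
        ((algebraMap R L ρ) ⊗ₜ[K] (1 : B)) * ((algebraMap R L ρ') ⊗ₜ[K] (1 : B)) := by
      rw [Algebra.TensorProduct.tmul_mul_tmul, mul_one]
    rw [e2]
    ring

/-- **(HOR) on a chart**: if `H` has value `1` at every valuation subring of `F` that contains
`L` and the chart and in which the elements of `T ∖ 𝔫` are units, then `H` is a horizontal unit. -/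
theorem s26evm_hor (hNOR : IsIntegrallyClosed (L ⊗[K] B)) (𝔫 : Ideal (R ⊗[K] B)) [𝔫.IsPrime]
    (H : F)
    (hH : ∀ W : ValuationSubring F, (∀ l : L, s26evmL K L Γ F l ∈ W) →
      (∀ t, s26evxIota K L Γ R B F t ∈ W) →
      (∀ t : R ⊗[K] B, t ∉ 𝔫 → W.valuation (s26evxIota K L Γ R B F t) = 1) →
      W.valuation H = 1) :
    letI := s26evxAlg K L Γ R B F
    S26evwHor R 𝔫 H := by
  letI algTE := s26evxAlg K L Γ R B F
  letI algAE := s26evxAlg K L Γ L B F
  haveI := s26evx_isFractionRing K L Γ L B F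
  haveI : IsDomain (L ⊗[K] B) := s26evx_isDomain K L Γ L B F
  letI algTA : Algebra (R ⊗[K] B) (L ⊗[K] B) := (s26evmTA K L R B).toRingHom.toAlgebra
  haveI : IsScalarTower R (R ⊗[K] B) (L ⊗[K] B) := IsScalarTower.of_algebraMap_eq (fun r => by
    rw [Algebra.TensorProduct.algebraMap_apply, Algebra.TensorProduct.algebraMap_apply]
    rfl)
  haveI : IsScalarTower (R ⊗[K] B) (L ⊗[K] B) F := IsScalarTower.of_algebraMap_eq (fun t =>
    (s26evm_iota_TA K L Γ F R B t).symm)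
  refine s26evh_hor (R := R) (T := R ⊗[K] B) (A := L ⊗[K] B) (E := F)
    (s26evmTA_injective K L Γ F R B) (fun a => ?_) 𝔫 H (fun W hA hu => ?_)
  · obtain ⟨ρ, hρ, t, h⟩ := s26evm_clear K L R B a
    refine ⟨ρ, hρ, t, ?_⟩
    rw [Algebra.TensorProduct.algebraMap_apply]
    exact h
  · refine hH W (fun l => ?_) (fun t => ?_) hu
    · have : s26evmL K L Γ F l = algebraMap (L ⊗[K] B) F (l ⊗ₜ[K] (1 : B)) := by
        show _ = s26evxIota K L Γ L B F (l ⊗ₜ[K] (1 : B))
        rw [s26evxIota_apply, s26evxJ_tmul, map_one, s26evmL_apply]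
        rfl
      rw [this]
      exact hA _
    · have : s26evxIota K L Γ R B F t = algebraMap (L ⊗[K] B) F (s26evmTA K L R B t) :=
        (s26evm_iota_TA K L Γ F R B t).symm
      rw [this]
      exact hA _

/-- the image of every chart lies in the Gauss ring -/
theorem s26evm_gauss_mem [IsAlgClosed K] (t : R ⊗[K] B) :
    s26evxIota K L Γ R B F t ∈ s26evmGauss K L Γ F R := by
  letI := s26evxAlg K L Γ R Γ F
  haveI := s26evx_isFractionRing K L Γ R Γ F
  haveI := s26evx_isDomain K L Γ R Γ F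
  have h2 := s26evg_algebraMap_mem (E := F) (s26evm_M_isPrime K R Γ)
    (s26eviMap (R := R) (IsScalarTower.toAlgHom K B Γ) t)
  have h3 : algebraMap (R ⊗[K] Γ) F (s26eviMap (R := R) (IsScalarTower.toAlgHom K B Γ) t) =
      s26evxIota K L Γ R B F t :=
    s26evm_iota_map K L Γ F R B Γ (IsScalarTower.toAlgHom K B Γ) (fun _ => rfl) t
  rw [h3] at h2
  exact h2

/-! ### (SEC): the value along the section from the composite valuation ring -/

/-- the elements of `T₀ ∖ 𝔫₀` are units of the composite -/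
theorem s26evm_sec_units (e : B →ₐ[K] K) (W₀ : ValuationSubring F)
    (hT : ∀ t, s26evxIota K L Γ R B F t ∈ W₀) (ev : ↥W₀ →+* R) [IsLocalHom ev]
    (hev : ∀ t, ev ⟨_, hT t⟩ = s26eviSec e t) {t : R ⊗[K] B}
    (ht : t ∉ s26eviCentre (R := R) e) : W₀.valuation (s26evxIota K L Γ R B F t) = 1 := by
  rw [s26evi_mem_centre_iff, mem_maximalIdeal, mem_nonunits_iff, not_not, ← hev] at ht
  have h1 : IsUnit (⟨_, hT t⟩ : ↥W₀) := isUnit_of_map_unit ev _ ht
  exact (W₀.valuation_eq_one_iff _).1 h1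

/-- **(SEC)**: a unit of the composite has unit value along the section -/
theorem s26evm_hsec (e : B →ₐ[K] K) (W₀ : ValuationSubring F)
    (hT : ∀ t, s26evxIota K L Γ R B F t ∈ W₀) (ev : ↥W₀ →+* R)
    (hev : ∀ t, ev ⟨_, hT t⟩ = s26eviSec e t) {H : F} (hH : W₀.valuation H = 1)
    (x y : R ⊗[K] B)
    (hxy : H * s26evxIota K L Γ R B F y = s26evxIota K L Γ R B F x) :
    ∃ u : Rˣ, s26eviSec e x = u * s26eviSec e y := by
  have hH0 : H ≠ 0 := by
    rintro rfl
    rw [map_zero] at hH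
    exact zero_ne_one hH
  have h1 : H ∈ W₀ := (W₀.valuation_le_one_iff H).1 hH.le
  have h2 : H⁻¹ ∈ W₀ := by
    rw [← W₀.valuation_le_one_iff, map_inv₀, hH, inv_one]
  have h3 : (⟨H, h1⟩ : ↥W₀) * ⟨H⁻¹, h2⟩ = 1 := Subtype.ext (mul_inv_cancel₀ hH0)
  have h4 : ev ⟨H, h1⟩ * ev ⟨H⁻¹, h2⟩ = 1 := by rw [← map_mul, h3, map_one]
  refine ⟨⟨ev ⟨H, h1⟩, ev ⟨H⁻¹, h2⟩, h4, by rw [mul_comm]; exact h4⟩, ?_⟩
  have h5 : (⟨_, hT x⟩ : ↥W₀) = ⟨H, h1⟩ * ⟨_, hT y⟩ := Subtype.ext hxy.symm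
  rw [← hev x, ← hev y, h5, map_mul]

end Chart

/-! ### The assembly -/

section Main

variable {K L Γ F}

/-- the constants of `K` on both sides -/
theorem s26evmR_algebraMap (k : K) :
    s26evmR K L Γ F (algebraMap K Γ k) = s26evmL K L Γ F (algebraMap K L k) := by
  have h : ((1 : L) ⊗ₜ[K] (algebraMap K Γ k) : L ⊗[K] Γ) = (algebraMap K L k) ⊗ₜ[K] (1 : Γ) := by
    rw [Algebra.algebraMap_eq_smul_one, Algebra.algebraMap_eq_smul_one (R := K) (A := L),
      TensorProduct.tmul_smul, TensorProduct.smul_tmul']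
  rw [s26evmR_apply, s26evmL_apply, h]

/-- **(d)**: the relation at the valuation subrings trivial on `L`, local generators, the relation
at the composites `V ∘ γ₀` and normality give the relation at ALL valuation subrings over `K`. -/
theorem s26evm_main [IsAlgClosed K]
    (B₀ : ValuationSubring Γ) [Algebra K ↥B₀] [IsScalarTower K ↥B₀ Γ] (e : ↥B₀ →ₐ[K] K)
    (G : F) (𝔡 : ValuationSubring F → F)
    (hNOR : ∀ (B : ValuationSubring Γ) [Algebra K ↥B] [IsScalarTower K ↥B Γ],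
      IsIntegrallyClosed (L ⊗[K] ↥B))
    (hHOR : ∀ W : ValuationSubring F, (∀ l : L, s26evmL K L Γ F l ∈ W) →
      W.valuation G = W.valuation (𝔡 W))
    (hLG : ∀ (V : ValuationSubring L) [Algebra K ↥V] [IsScalarTower K ↥V L]
      (B : ValuationSubring Γ) [Algebra K ↥B] [IsScalarTower K ↥B Γ]
      (𝔫 : Ideal (↥V ⊗[K] ↥B)), 𝔫.IsPrime →
      ∃ D : F, D ≠ 0 ∧ ∀ W' : ValuationSubring F,
        (∀ t, s26evxIota K L Γ ↥V ↥B F t ∈ W') →
        (∀ t, t ∉ 𝔫 → W'.valuation (s26evxIota K L Γ ↥V ↥B F t) = 1) →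
        W'.valuation (𝔡 W') = W'.valuation D)
    (hSEC : ∀ (V : ValuationSubring L) [Algebra K ↥V] [IsScalarTower K ↥V L],
      ∃ (W₀ : ValuationSubring F) (hT : ∀ t, s26evxIota K L Γ ↥V ↥B₀ F t ∈ W₀)
        (ev : ↥W₀ →+* ↥V), IsLocalHom ev ∧
        (∀ t, ev ⟨_, hT t⟩ = s26eviSec e t) ∧ W₀.valuation G = W₀.valuation (𝔡 W₀))
    (W : ValuationSubring F) (hW : ∀ k : K, s26evmL K L Γ F (algebraMap K L k) ∈ W) :
    W.valuation G = W.valuation (𝔡 W) := by
  -- the two traces of `W`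
  set V : ValuationSubring L := W.comap (s26evmL K L Γ F) with hV
  set B : ValuationSubring Γ := W.comap (s26evmR K L Γ F) with hB
  letI algV : Algebra K ↥V :=
    ((algebraMap K L).codRestrict V.toSubring (fun k => hW k)).toAlgebra
  haveI : IsScalarTower K ↥V L := IsScalarTower.of_algebraMap_eq (fun _ => rfl)
  letI algB : Algebra K ↥B :=
    ((algebraMap K Γ).codRestrict B.toSubring (fun k => by
      show s26evmR K L Γ F (algebraMap K Γ k) ∈ W
      rw [s26evmR_algebraMap]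
      exact hW k)).toAlgebra
  haveI : IsScalarTower K ↥B Γ := IsScalarTower.of_algebraMap_eq (fun _ => rfl)
  -- the chart of `W`
  have hWT : ∀ t : ↥V ⊗[K] ↥B, s26evxIota K L Γ ↥V ↥B F t ∈ W :=
    s26evx_iota_mem K L Γ ↥V ↥B F W.toSubring (fun v => v.2) (fun b => b.2)
  letI algT : Algebra (↥V ⊗[K] ↥B) F := s26evxAlg K L Γ ↥V ↥B F
  haveI := s26evx_isFractionRing K L Γ ↥V ↥B F
  haveI := s26evx_isDomain K L Γ ↥V ↥B F
  letI algT₀ : Algebra (↥V ⊗[K] ↥B₀) F := s26evxAlg K L Γ ↥V ↥B₀ F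
  haveI := s26evx_isFractionRing K L Γ ↥V ↥B₀ F
  haveI := s26evx_isDomain K L Γ ↥V ↥B₀ F
  -- the centre of `W`
  have h𝔫 : s26evcM ↥V (↥V ⊗[K] ↥B) ≤ s26evxCentre W hWT := by
    unfold s26evcM
    rw [Ideal.map_le_iff_le_comap]
    intro v hv
    rw [Ideal.mem_comap, s26evx_mem_centre_iff, s26evm_iota_const]
    change W.valuation (s26evmL K L Γ F (v : L)) < 1
    have h1 : W.valuation (s26evmL K L Γ F (v : L)) ≤ 1 := (W.valuation_le_one_iff _).2 v.2
    refine lt_of_le_of_ne h1 (fun h => ?_)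
    have h2 : (s26evmL K L Γ F (v : L))⁻¹ ∈ W := by
      rw [← W.valuation_le_one_iff, map_inv₀, h, inv_one]
    have h3 : ((v : L))⁻¹ ∈ V := by
      show s26evmL K L Γ F ((v : L))⁻¹ ∈ W
      rw [map_inv₀]
      exact h2
    have hv0 : (v : L) ≠ 0 := by
      intro h0
      rw [h0, map_zero, map_zero] at h
      exact zero_ne_one h
    have h4 : IsUnit v :=
      ⟨⟨v, ⟨_, h3⟩, Subtype.ext (mul_inv_cancel₀ hv0), Subtype.ext (inv_mul_cancel₀ hv0)⟩, rfl⟩
    exact (mem_maximalIdeal v).1 hv h4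
  -- local generators
  obtain ⟨D, hD0, hD⟩ := hLG V B (s26evxCentre W hWT) inferInstance
  obtain ⟨D₀, hD₀0, hD₀⟩ := hLG V B₀ (s26eviCentre (R := ↥V) e) (s26eviCentre_isPrime e)
  obtain ⟨W₀, hT, ev, hloc, hev, hsec⟩ := hSEC V
  have hvD : ∀ W' : ValuationSubring F, W'.valuation D ≠ 0 := fun W' =>
    (Valuation.ne_zero_iff _).2 hD0
  have hvD₀ : ∀ W' : ValuationSubring F, W'.valuation D₀ ≠ 0 := fun W' =>
    (Valuation.ne_zero_iff _).2 hD₀0
  -- horizontal units
  have hhor : S26evwHor ↥V (s26evxCentre W hWT) (G / D) :=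
    s26evm_hor K L Γ F ↥V ↥B (hNOR B) (s26evxCentre W hWT) (G / D) (fun W' hL hT' hu => by
      rw [map_div₀, hHOR W' hL, hD W' hT' hu, div_self (hvD W')])
  haveI := s26eviCentre_isPrime (R := ↥V) e
  have hhor₀ : S26evwHor ↥V (s26eviCentre (R := ↥V) e) (G / D₀) :=
    s26evm_hor K L Γ F ↥V ↥B₀ (hNOR B₀) (s26eviCentre (R := ↥V) e) (G / D₀)
      (fun W' hL hT' hu => by
        rw [map_div₀, hHOR W' hL, hD₀ W' hT' hu, div_self (hvD₀ W')])
  -- the section
  have hW₀ : W₀.valuation (G / D₀) = 1 := by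
    rw [map_div₀, hsec, hD₀ W₀ hT (fun t ht =>
      s26evm_sec_units K L Γ F ↥V ↥B₀ e W₀ hT ev hev ht), div_self (hvD₀ W₀)]
  -- the Gauss ring
  have hDD : (s26evmGauss K L Γ F ↥V).valuation D₀ = (s26evmGauss K L Γ F ↥V).valuation D := by
    rw [← hD₀ _ (s26evm_gauss_mem K L Γ F ↥V ↥B₀) (fun t ht =>
        s26evm_gauss_val_eq_one K L Γ F ↥V ↥B₀ (fun h => ht (s26evi_M_le_centre e h))),
      ← hD _ (s26evm_gauss_mem K L Γ F ↥V ↥B) (fun t ht =>
        s26evm_gauss_val_eq_one K L Γ F ↥V ↥B (fun h => ht (h𝔫 h)))]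
  have key := s26evw_main (R := ↥V) (T₀ := ↥V ⊗[K] ↥B₀) (T := ↥V ⊗[K] ↥B) (E := F)
    (s26evm_M_isPrime K ↥V ↥B₀) (s26eviCentre_isPrime e) (s26evi_M_le_centre e)
    (s26eviSec e) (s26evi_mem_centre_iff e)
    (s26evm_M_isPrime K ↥V ↥B) (inferInstance : (s26evxCentre W hWT).IsPrime) h𝔫
    (s26evmGauss K L Γ F ↥V)
    (fun x hx => s26evm_gauss_val_eq_one K L Γ F ↥V ↥B₀ (fun h => hx (s26evi_M_le_centre e h)))
    (fun x hx => s26evm_gauss_val_eq_one K L Γ F ↥V ↥B (fun h => hx (h𝔫 h)))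
    (fun c ρ hc hρ h => by
      refine s26evm_gauss_assoc K L Γ F ↥V hc hρ ?_
      have e1 : ∀ r : ↥V, algebraMap (↥V ⊗[K] ↥B) F (algebraMap ↥V (↥V ⊗[K] ↥B) r) =
          s26evmL K L Γ F (algebraMap ↥V L r) := fun r => s26evm_iota_const K L Γ F ↥V ↥B r
      rw [e1, e1] at h
      exact h)
    hD0 hhor₀ hhor
    (fun x y _ hxy => s26evm_hsec K L Γ F ↥V ↥B₀ e W₀ hT ev hev hW₀ x y hxy)
    hDD
  rw [key.2 W (fun x hx => s26evx_val_eq_one W hWT hx),
    hD W hWT (fun t ht => s26evx_val_eq_one W hWT ht)]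

end Main

end Fermat.Agent.S26
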