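/-
S26-E, (TI) hub, leaf VERT-LG (helper31): FIT of `s26etilg_hLG_of_good` (S26/ETiLG.lean) into
helper38's `s26evm_main` (S26/EVertMain.lean).

* `s26etilg_rel` : (d) with (hLG) DISCHARGED: for good points `a₁ a₂ y z ∈ A(F)` whose 8 points have
  image in `U`, the hypotheses (hNOR), (hHOR), (hSEC) of `s26evm_main` for the family
  `𝔡 W = Sq(a₁; y, z)(W) / Sq(a₂; y, z)(W)` give `S26erIsRel K 𝔡 G₀`.
-/
import Fermat.Agent.S26.ETiLG
import Fermat.Agent.S26.EVertMain

set_option autoImplicit false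
set_option linter.style.haveILetI false
set_option linter.unusedVariables false
set_option linter.unusedSectionVars false

noncomputable section

namespace Fermat.Agent.S26

open CategoryTheory CategoryTheory.Limits AlgebraicGeometry NeronModelInfra GoodReductionJacobian
open scoped TensorProduct

universe u

variable {K : Type u} [Field K] {A : Scheme.{u}} (f : A ⟶ Spec (CommRingCat.of K))
variable {L Γ F : Type u} [Field L] [Algebra K L] [Field Γ] [Algebra K Γ] [Field F] [Algebra K F]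
  [Algebra (L ⊗[K] Γ) F] [IsScalarTower K (L ⊗[K] Γ) F] [IsFractionRing (L ⊗[K] Γ) F]
variable [IsIntegral A] [IsLocallyNoetherian A] [IsProper f] {U : A.Opens}

/-- the constants: `s26evmL (algebraMap K L k) = algebraMap K F k`. -/
theorem s26etilg_evmL_algebraMap (k : K) :
    s26evmL K L Γ F (algebraMap K L k) = algebraMap K F k := by
  rw [s26evmL_apply, IsScalarTower.algebraMap_apply K (L ⊗[K] Γ) F]
  rfl

/-- **(d) with (hLG) discharged**: the relation `G₀ ~ Sq(a₁; y, z) / Sq(a₂; y, z)` at ALL the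
valuation subrings of `F` over `K`, from (hNOR), (hHOR), (hSEC). -/
theorem s26etilg_rel [IsAlgClosed K] (hD : S26emLocData U) (G : RelativeGroupLaw K f)
    (a₁ a₂ y z : s26eptPts f F)
    (ha₁ : S26etilgGood f L Γ a₁) (ha₂ : S26etilgGood f L Γ a₂)
    (hy : S26etilgGood f L Γ y) (hz : S26etilgGood f L Γ z)
    (hU₁ : S26etilgSqU f G U a₁ y z) (hU₂ : S26etilgSqU f G U a₂ y z)
    (B₀ : ValuationSubring Γ) [Algebra K ↥B₀] [IsScalarTower K ↥B₀ Γ] (e : ↥B₀ →ₐ[K] K)
    (G₀ : F)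
    (hNOR : ∀ (B : ValuationSubring Γ) [Algebra K ↥B] [IsScalarTower K ↥B Γ],
      IsIntegrallyClosed (L ⊗[K] ↥B))
    (hHOR : ∀ W : ValuationSubring F, (∀ l : L, s26evmL K L Γ F l ∈ W) →
      W.valuation G₀ = W.valuation (s26eSq f G U a₁ y z W / s26eSq f G U a₂ y z W))
    (hSEC : ∀ (V : ValuationSubring L) [Algebra K ↥V] [IsScalarTower K ↥V L],
      ∃ (W₀ : ValuationSubring F) (hT : ∀ t, s26evxIota K L Γ ↥V ↥B₀ F t ∈ W₀)
        (ev : ↥W₀ →+* ↥V), IsLocalHom ev ∧
        (∀ t, ev ⟨_, hT t⟩ = s26eviSec e t) ∧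
        W₀.valuation G₀ = W₀.valuation (s26eSq f G U a₁ y z W₀ / s26eSq f G U a₂ y z W₀)) :
    S26erIsRel K (fun W => s26eSq f G U a₁ y z W / s26eSq f G U a₂ y z W) G₀ := by
  intro W hW
  refine s26evm_main B₀ e G₀ (fun W => s26eSq f G U a₁ y z W / s26eSq f G U a₂ y z W)
    hNOR hHOR (s26etilg_hLG_of_good f hD G a₁ a₂ y z ha₁ ha₂ hy hz hU₁ hU₂) hSEC W ?_
  intro k
  rw [s26etilg_evmL_algebraMap]
  exact hW k

end Fermat.Agent.S26

end
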