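/-
S26-E, piece E-M part (b) (helper5): the generator family `s26emFam`, VALUATION form
(the hypotheses of helper77's `s26elin_rel` and of helper80's relations calculus).

* `s26emFam_ne_zero`   : `|P| ∈ U` ⇒ `s26emFam f U P V ≠ 0` for every `V` over `K`      [`h0`];
* `s26emFam_val_le_one`, `s26emFam_val_eq_one_iff` : `v(𝔡 V) ≤ 1`, `= 1` iff `c_V(P) ∈ U`;
* `s26emFam_val_of_locEq` : `v(𝔡 V) = v(evV h)` for every local equation `h` at the centre;
* `s26emFam_inv`       : `v(𝔡_{-P} V) = v(𝔡_P V)` (`U` symmetric)                      [`hsymm`];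
* `s26emFam_nsmul`     : `v(𝔡^U_{N P} V) = v(𝔡^{[N]⁻¹U}_P V)`.
(R1) for the family: S26/EMFamMap.lean.
-/
import Fermat.Agent.S26.EMFam
import Fermat.Agent.S26.EPTFun

set_option autoImplicit false
set_option linter.style.haveILetI false
set_option linter.unusedVariables false
set_option linter.unusedSectionVars false

noncomputable section

namespace Fermat.Agent.S26

open CategoryTheory CategoryTheory.Limits AlgebraicGeometry NeronModelInfra GoodReductionJacobian

universe u

variable {K : Type u} [Field K] {A : Scheme.{u}} (f : A ⟶ Spec (CommRingCat.of K))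

section Aux

variable {Ω : Type u} [Field Ω]

/-- associated elements of a valuation subring have the same value. -/
theorem s26em_val_eq_of_associated (V : ValuationSubring Ω) {a b : V} (h : Associated a b) :
    V.valuation (a : Ω) = V.valuation (b : Ω) := by
  obtain ⟨u, rfl⟩ := h
  have h1 : V.valuation ((u : V) : Ω) = 1 := (V.valuation_eq_one_iff _).1 u.isUnit
  rw [show ((a * (u : V) : V) : Ω) = (a : Ω) * ((u : V) : Ω) from rfl, map_mul, h1, mul_one]

end Aux

section Fam

variable {Ω : Type u} [Field Ω] [Algebra K Ω]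
variable [IsIntegral A] [IsLocallyNoetherian A] [IsProper f] {U : A.Opens}

/-- **`h0`**: the generator family of a point with `|P| ∈ U` does not vanish. -/
theorem s26emFam_ne_zero (hD : S26emLocData U) (P : s26eptPts f Ω) (hP : s26eptPt f P ∈ U)
    (V : ValuationSubring Ω) (hV : S26erOver K V) : s26emFam f U P V ≠ 0 := by
  letI := s26emAlg V hV
  haveI := s26emAlg_tower V hV
  rw [s26emFam_eq f U P V hV]
  intro h0
  exact s26emV_ne_zero f Ω V hD P hP (Subtype.ext h0)

/-- the values of the generator family are `≤ 1`. -/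
theorem s26emFam_val_le_one (P : s26eptPts f Ω) (V : ValuationSubring Ω) (hV : S26erOver K V) :
    V.valuation (s26emFam f U P V) ≤ 1 := by
  letI := s26emAlg V hV
  haveI := s26emAlg_tower V hV
  rw [s26emFam_eq f U P V hV]
  exact (V.valuation_le_one_iff _).2 (Subtype.property _)

/-- the value of the generator family is `1` iff the centre lies in `U`. -/
theorem s26emFam_val_eq_one_iff (hD : S26emLocData U) (P : s26eptPts f Ω)
    (V : ValuationSubring Ω) (hV : S26erOver K V) :
    letI := s26emAlg V hV
    haveI := s26emAlg_tower V hV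
    V.valuation (s26emFam f U P V) = 1 ↔ s26eptCentre f Ω V P ∈ U := by
  letI := s26emAlg V hV
  haveI := s26emAlg_tower V hV
  rw [s26emFam_eq f U P V hV, ← V.valuation_eq_one_iff]
  exact s26emV_isUnit_iff f Ω V hD P

/-- the value of the generator family is the value of every local equation at the centre. -/
theorem s26emFam_val_of_locEq (hD : S26emLocData U) (P : s26eptPts f Ω)
    (V : ValuationSubring Ω) (hV : S26erOver K V) :
    letI := s26emAlg V hV
    haveI := s26emAlg_tower V hV
    ∀ h : A.presheaf.stalk (s26eptCentre f Ω V P), S26emIsLocEq U (s26eptCentre f Ω V P) h →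
      V.valuation (s26emFam f U P V) = V.valuation ((s26eptEvV f Ω V P h : V) : Ω) := by
  letI := s26emAlg V hV
  haveI := s26emAlg_tower V hV
  intro h hh
  rw [s26emFam_eq f U P V hV]
  exact s26em_val_eq_of_associated V (s26emV_associated f Ω V hD P hh)

variable (G : RelativeGroupLaw K f)

/-- **`hsymm`**: `m_V(-P) = m_V(P)` for a symmetric `U`. -/
theorem s26emFam_inv (hnn : s26a1Inv G ≫ s26a1Inv G = 𝟙 A)
    (hdvr : ∀ z : A, Order.coheight z = 1 → IsDiscreteValuationRing (A.presheaf.stalk z))
    (hD : S26emLocData U) (hU : (s26a1Inv G) ⁻¹ᵁ U = U) (P : s26eptPts f Ω)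
    (V : ValuationSubring Ω) (hV : S26erOver K V) :
    V.valuation (s26emFam f U (G.inv _ P) V) = V.valuation (s26emFam f U P V) := by
  letI := s26emAlg V hV
  haveI := s26emAlg_tower V hV
  rw [s26emFam_eq f U P V hV, s26emFam_eq f U (G.inv _ P) V hV]
  exact s26em_val_eq_of_associated V (s26emV_inv f Ω V G hnn hdvr hD hU P)

/-- `m_V(N P)` with respect to `U` is `m_V(P)` with respect to `[N]⁻¹ U`. -/
theorem s26emFam_nsmul (N : ℕ) [IsDominant (G.schemeNsmul N)] [Flat (G.schemeNsmul N)]
    [FormallyUnramified (G.schemeNsmul N)] [LocallyOfFiniteType (G.schemeNsmul N)]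
    (hdvr : ∀ z : A, Order.coheight z = 1 → IsDiscreteValuationRing (A.presheaf.stalk z))
    (hD : S26emLocData U) (hD' : S26emLocData ((G.schemeNsmul N) ⁻¹ᵁ U)) (P : s26eptPts f Ω)
    (V : ValuationSubring Ω) (hV : S26erOver K V) :
    V.valuation (s26emFam f U (G.nsmul _ N P) V) =
      V.valuation (s26emFam f ((G.schemeNsmul N) ⁻¹ᵁ U) P V) := by
  letI := s26emAlg V hV
  haveI := s26emAlg_tower V hV
  rw [s26emFam_eq f _ P V hV, s26emFam_eq f U (G.nsmul _ N P) V hV]
  exact s26em_val_eq_of_associated V (s26emV_nsmul f Ω V G N hdvr hD hD' P)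

end Fam

end Fermat.Agent.S26

end
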