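/-
S26-E, TI hub leaf **VERT-SEC** (helper71): the hypothesis `hSEC` of helper38's `s26evm_main`
(the relation at the composite `W₀ = V ∘ γ₀`), on top of helper68's (W0).

Setting: `W₀` a valuation subring of `F` over `K`, `ev : ↥W₀ →+* V` a LOCAL homomorphism to a
valuation ring `V` of `L` (all that is used of the composite).

* `s26etis_val_eq_of_ev`  : `ev x₁ ~ ev x₂ ≠ 0` in `V` ⇒ `w₀(x₁) = w₀(x₂)`  (valuation rings only;
  this replaces the "(W0-key)" `w₀(x) = w₀(jL (ev x))`, which is NOT needed);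
* `s26etis_val_one_of_ev` : `ev x = 1` ⇒ `w₀(x) = 1`;
* `s26etis_gen_val_eq`    : two points `P₁, P₂ ∈ A(F)` whose `W₀`-points have the SAME image
  under `ev` (with a nonzero generator) have `w₀(gen(P₁, W₀)) = w₀(gen(P₂, W₀))`;
* `s26etis_push_const`    : `ev_*` of the `W₀`-point of a CONSTANT point `jL a`, `a ∈ A(L)`, is the
  `V`-point of `a`;
* `s26etis_push_sp`       : `ev_*` of the `W₀`-point of `jΓ ν`, `ν ∈ A(Γ)` with `e_* ν = 0`, is `0`;
* `s26etis_spOne`         : the hypothesis `e_* (lift ν) = 0` from `S26eSpOneV` (PlanE2);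
* `s26etis_gen_val`       : `w₀(gen(jΓ ν + jL a, W₀)) = w₀(gen(jL a, W₀))`;
* `s26etis_sq_val`        : **`w₀(Sq(ν + b; y, z)) = w₀(Sq(b; y, z))`** at `W₀`;
* `s26etis_hSEC`          : the last clause of `hSEC` for `𝔡 W = Sq(ν + b; y, z) W / Sq(b; y, z) W`.
-/
import Fermat.Agent.S26.PlanE2
import Fermat.Agent.S26.EPTFun
import Fermat.Agent.S26.EMFamVal

set_option autoImplicit false
set_option linter.style.haveILetI false
set_option linter.unusedVariables false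
set_option linter.unusedSectionVars false

noncomputable section

namespace Fermat.Agent.S26

open CategoryTheory CategoryTheory.Limits AlgebraicGeometry NeronModelInfra GoodReductionJacobian

universe u

section Val

variable {F : Type*} [Field F] (W₀ : ValuationSubring F) {V : Type*} [CommRing V] [IsDomain V]

/-- **the valuation step**: for a local homomorphism `ev : W₀ → V` to a domain, elements of `W₀`
whose images are associated and nonzero have the same valuation. -/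
theorem s26etis_val_eq_of_ev (ev : ↥W₀ →+* V) [IsLocalHom ev] {x₁ x₂ : ↥W₀}
    (h : Associated (ev x₁) (ev x₂)) (hne : ev x₂ ≠ 0) :
    W₀.valuation (x₁ : F) = W₀.valuation (x₂ : F) := by
  obtain ⟨u, hu⟩ := h
  have hne₁ : ev x₁ ≠ 0 := by
    intro h0
    rw [h0, zero_mul] at hu
    exact hne hu.symm
  have key : ∀ c : ↥W₀, IsUnit (ev c) → W₀.valuation (c : F) = 1 := fun c hc =>
    (ValuationSubring.valuation_eq_one_iff W₀ c).mp (IsLocalHom.map_nonunit c hc)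
  rcases ValuationRing.dvd_total x₁ x₂ with ⟨c, hc⟩ | ⟨c, hc⟩
  · -- `x₂ = x₁ c`
    have h1 : ev x₁ * ev c = ev x₁ * (u : V) := by rw [← map_mul, ← hc, hu]
    have h2 : ev c = (u : V) := mul_left_cancel₀ hne₁ h1
    have h3 := key c (h2 ▸ u.isUnit)
    have h4 : (x₂ : F) = (x₁ : F) * (c : F) := by rw [hc]; rfl
    rw [h4, map_mul, h3, mul_one]
  · -- `x₁ = x₂ c`
    have h1 : ev x₂ * (ev c * (u : V)) = ev x₂ * 1 := by
      rw [← mul_assoc, ← map_mul, ← hc, hu, mul_one]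
    have h2 : ev c * (u : V) = 1 := mul_left_cancel₀ hne h1
    have h3 := key c (IsUnit.of_mul_eq_one _ h2)
    have h4 : (x₁ : F) = (x₂ : F) * (c : F) := by rw [hc]; rfl
    rw [h4, map_mul, h3, mul_one]

/-- an element of `W₀` with `ev x = 1` has valuation `1`. -/
theorem s26etis_val_one_of_ev (ev : ↥W₀ →+* V) [IsLocalHom ev] {x : F} (hx : x ∈ W₀)
    (h : ev ⟨x, hx⟩ = 1) : W₀.valuation x = 1 := by
  have h1 : IsUnit (⟨x, hx⟩ : ↥W₀) :=
    IsLocalHom.map_nonunit (f := ev) _ (h ▸ isUnit_one)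
  exact (ValuationSubring.valuation_eq_one_iff W₀ ⟨x, hx⟩).mp h1

end Val

variable {K : Type u} [Field K] {A : Scheme.{u}} (f : A ⟶ Spec (CommRingCat.of K))

section Core

variable [IsIntegral A] [IsLocallyNoetherian A] [IsProper f] {U : A.Opens}
variable {F : Type u} [Field F] [Algebra K F]

/-- **the core**: two points of `A(F)` whose `W₀`-points have the same image under the local
homomorphism `ev : W₀ → V`, with a nonzero generator, have generators of the same valuation. -/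
theorem s26etis_gen_val_eq (hD : S26emLocData U) (W₀ : ValuationSubring F)
    (hW₀ : S26erOver K W₀) {V : Type u} [CommRing V] [IsDomain V] [IsLocalRing V]
    (ev : ↥W₀ →+* V) [IsLocalHom ev] (P₁ P₂ : s26eptPts f F)
    (h : Spec.map (CommRingCat.ofHom ev) ≫ s26eLiftV f W₀ hW₀ P₁ =
      Spec.map (CommRingCat.ofHom ev) ≫ s26eLiftV f W₀ hW₀ P₂)
    (hne : s26emGen U (R := CommRingCat.of V)
      (Spec.map (CommRingCat.ofHom ev) ≫ s26eLiftV f W₀ hW₀ P₂) ≠ 0) :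
    W₀.valuation (s26eGen f U P₁ W₀) = W₀.valuation (s26eGen f U P₂ W₀) := by
  unfold s26eGen
  rw [dif_pos hW₀, dif_pos hW₀]
  have h1 := s26emGen_map hD (R := CommRingCat.of ↥W₀) (S := CommRingCat.of V)
    (CommRingCat.ofHom ev) (s26eLiftV f W₀ hW₀ P₁)
  have h2 := s26emGen_map hD (R := CommRingCat.of ↥W₀) (S := CommRingCat.of V)
    (CommRingCat.ofHom ev) (s26eLiftV f W₀ hW₀ P₂)
  rw [h] at h1
  have h3 : Associated (ev (s26emGen U (R := CommRingCat.of ↥W₀) (s26eLiftV f W₀ hW₀ P₁)))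
      (ev (s26emGen U (R := CommRingCat.of ↥W₀) (s26eLiftV f W₀ hW₀ P₂))) :=
    h1.symm.trans h2
  have h4 : ev (s26emGen U (R := CommRingCat.of ↥W₀) (s26eLiftV f W₀ hW₀ P₂)) ≠ 0 := by
    intro h0
    have h5 : Associated (s26emGen U (R := CommRingCat.of V)
        (Spec.map (CommRingCat.ofHom ev) ≫ s26eLiftV f W₀ hW₀ P₂)) (0 : V) := h0 ▸ h2
    exact hne (associated_zero_iff_eq_zero _ |>.mp h5)
  exact s26etis_val_eq_of_ev W₀ ev h3 h4

end Core

/-! ### The points: `ev_*` of the `W₀`-points -/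

section Pts

variable (G : RelativeGroupLaw K f) [IsProper f]
variable {F : Type u} [Field F] [Algebra K F]
  {L : Type u} [Field L] [Algebra K L] {Γ : Type u} [Field Γ] [Algebra K Γ]
  (V : ValuationSubring L) [Algebra K ↥V] [IsScalarTower K ↥V L]
  (B₀ : ValuationSubring Γ) [Algebra K ↥B₀] [IsScalarTower K ↥B₀ Γ] (e : ↥B₀ →ₐ[K] K)
  (W₀ : ValuationSubring F) (hW₀ : S26erOver K W₀)
  (jL : L →ₐ[K] F) (jΓ : Γ →ₐ[K] F) (ev : ↥W₀ →+* ↥V)

/-- `ev` is a `K`-algebra homomorphism (for the `K`-structure `s26eAlgV` of `W₀`). -/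
def s26etisEv (hα : ∀ v : ↥V, ∃ h : jL (v : L) ∈ W₀, ev ⟨jL (v : L), h⟩ = v) :
    letI := s26eAlgV W₀ hW₀
    ↥W₀ →ₐ[K] ↥V :=
  letI := s26eAlgV W₀ hW₀
  { ev with
    commutes' := fun k => by
      obtain ⟨h, hh⟩ := hα (algebraMap K ↥V k)
      have e1 : (⟨jL ((algebraMap K ↥V k : ↥V) : L), h⟩ : ↥W₀) = algebraMap K ↥W₀ k := by
        apply Subtype.ext
        show jL ((algebraMap K ↥V k : ↥V) : L) = algebraMap K F k
        have e2 : ((algebraMap K ↥V k : ↥V) : L) = algebraMap K L k :=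
          (IsScalarTower.algebraMap_apply K ↥V L k).symm
        rw [e2, AlgHom.commutes]
      show ev (algebraMap K ↥W₀ k) = algebraMap K ↥V k
      rw [← e1, hh] }

theorem s26etisEv_apply (hα : ∀ v : ↥V, ∃ h : jL (v : L) ∈ W₀, ev ⟨jL (v : L), h⟩ = v)
    (x : ↥W₀) : s26etisEv V W₀ hW₀ jL ev hα x = ev x := rfl

/-- the inclusion `V → W₀` -/
def s26etisAlpha (hα : ∀ v : ↥V, jL (v : L) ∈ W₀) :
    letI := s26eAlgV W₀ hW₀
    ↥V →ₐ[K] ↥W₀ :=
  letI := s26eAlgV W₀ hW₀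
  { toFun := fun v => ⟨jL (v : L), hα v⟩
    map_one' := Subtype.ext (by simp)
    map_mul' := fun x y => Subtype.ext (by simp)
    map_zero' := Subtype.ext (by simp)
    map_add' := fun x y => Subtype.ext (by simp)
    commutes' := fun k => Subtype.ext (by
      show jL ((algebraMap K ↥V k : ↥V) : L) = algebraMap K F k
      have e2 : ((algebraMap K ↥V k : ↥V) : L) = algebraMap K L k :=
        (IsScalarTower.algebraMap_apply K ↥V L k).symm
      rw [e2, AlgHom.commutes]) }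

/-- the inclusion `B₀ → W₀` -/
def s26etisBeta (hβ : ∀ b : ↥B₀, jΓ (b : Γ) ∈ W₀) :
    letI := s26eAlgV W₀ hW₀
    ↥B₀ →ₐ[K] ↥W₀ :=
  letI := s26eAlgV W₀ hW₀
  { toFun := fun b => ⟨jΓ (b : Γ), hβ b⟩
    map_one' := Subtype.ext (by simp)
    map_mul' := fun x y => Subtype.ext (by simp)
    map_zero' := Subtype.ext (by simp)
    map_add' := fun x y => Subtype.ext (by simp)
    commutes' := fun k => Subtype.ext (by
      show jΓ ((algebraMap K ↥B₀ k : ↥B₀) : Γ) = algebraMap K F k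
      have e2 : ((algebraMap K ↥B₀ k : ↥B₀) : Γ) = algebraMap K Γ k :=
        (IsScalarTower.algebraMap_apply K ↥B₀ Γ k).symm
      rw [e2, AlgHom.commutes]) }

/-- **`ev_*` of a constant point**: the `W₀`-point of `jL a`, `a ∈ A(L)`, is mapped by `ev` to the
`V`-point of `a`. -/
theorem s26etis_push_const
    (hα : ∀ v : ↥V, ∃ h : jL (v : L) ∈ W₀, ev ⟨jL (v : L), h⟩ = v) (a : s26eptPts f L) :
    letI := s26eAlgV W₀ hW₀
    haveI := s26eAlgV_tower W₀ hW₀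
    s26eptMap f (s26etisEv V W₀ hW₀ jL ev hα) (s26eptLift f F ↥W₀ (s26eptMap f jL a)) =
      s26eptLift f L ↥V a := by
  letI := s26eAlgV W₀ hW₀
  haveI := s26eAlgV_tower W₀ hW₀
  have h1 := s26eptLift_funct f (Ω := L) (V := ↥V) (Ω' := F) (V' := ↥W₀) jL
    (s26etisAlpha V W₀ hW₀ jL (fun v => (hα v).1)) (fun x => rfl) a
  rw [h1, ← s26eptMap_comp]
  have h2 : (s26etisEv V W₀ hW₀ jL ev hα).comp
      (s26etisAlpha V W₀ hW₀ jL (fun v => (hα v).1)) = AlgHom.id K ↥V := by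
    ext v
    exact congrArg Subtype.val (hα v).2
  rw [h2, s26eptMap_id]

/-- **`ev_*` of a point of the curve which specialises to `0`**: the `W₀`-point of `jΓ ν` is
mapped by `ev` to `0`. -/
theorem s26etis_push_sp
    (hα : ∀ v : ↥V, ∃ h : jL (v : L) ∈ W₀, ev ⟨jL (v : L), h⟩ = v)
    (hβ : ∀ b : ↥B₀, ∃ h : jΓ (b : Γ) ∈ W₀, ev ⟨jΓ (b : Γ), h⟩ = algebraMap K ↥V (e b))
    (ν : s26eptPts f Γ) (hν : s26eptMap f e (s26eptLift f Γ ↥B₀ ν) = G.one _) :
    letI := s26eAlgV W₀ hW₀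
    haveI := s26eAlgV_tower W₀ hW₀
    s26eptMap f (s26etisEv V W₀ hW₀ jL ev hα) (s26eptLift f F ↥W₀ (s26eptMap f jΓ ν)) =
      G.one _ := by
  letI := s26eAlgV W₀ hW₀
  haveI := s26eAlgV_tower W₀ hW₀
  have h1 := s26eptLift_funct f (Ω := Γ) (V := ↥B₀) (Ω' := F) (V' := ↥W₀) jΓ
    (s26etisBeta B₀ W₀ hW₀ jΓ (fun b => (hβ b).1)) (fun x => rfl) ν
  rw [h1, ← s26eptMap_comp]
  have h2 : (s26etisEv V W₀ hW₀ jL ev hα).comp
      (s26etisBeta B₀ W₀ hW₀ jΓ (fun b => (hβ b).1)) = (Algebra.ofId K ↥V).comp e := by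
    ext b
    exact congrArg Subtype.val (hβ b).2
  rw [h2, s26eptMap_comp, hν, s26eptMap_one]

end Pts

/-! ### The generators at `W₀` -/

section Gen

variable (G : RelativeGroupLaw K f) [IsIntegral A] [IsLocallyNoetherian A] [IsProper f]
  {U : A.Opens}
variable {F : Type u} [Field F] [Algebra K F]
  {L : Type u} [Field L] [Algebra K L] {Γ : Type u} [Field Γ] [Algebra K Γ]
  (V : ValuationSubring L) [Algebra K ↥V] [IsScalarTower K ↥V L]
  (B₀ : ValuationSubring Γ) [Algebra K ↥B₀] [IsScalarTower K ↥B₀ Γ] (e : ↥B₀ →ₐ[K] K)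
  (W₀ : ValuationSubring F) (hW₀ : S26erOver K W₀)
  (jL : L →ₐ[K] F) (jΓ : Γ →ₐ[K] F) (ev : ↥W₀ →+* ↥V) [IsLocalHom ev]

include hW₀

/-- **`w₀(gen(ν + a, W₀)) = w₀(gen(a, W₀))`** for `ν ∈ A(Γ)` specialising to `0` along `(B₀, e)` and
a constant point `a ∈ A(L)` with image in `U`. -/
theorem s26etis_gen_val (hD : S26emLocData U)
    (hα : ∀ v : ↥V, ∃ h : jL (v : L) ∈ W₀, ev ⟨jL (v : L), h⟩ = v)
    (hβ : ∀ b : ↥B₀, ∃ h : jΓ (b : Γ) ∈ W₀, ev ⟨jΓ (b : Γ), h⟩ = algebraMap K ↥V (e b))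
    (ν : s26eptPts f Γ) (hν : s26eptMap f e (s26eptLift f Γ ↥B₀ ν) = G.one _)
    (a : s26eptPts f L) (ha : s26eptPt f a ∈ U) :
    W₀.valuation (s26eGen f U (G.mul _ (s26eptMap f jΓ ν) (s26eptMap f jL a)) W₀) =
      W₀.valuation (s26eGen f U (s26eptMap f jL a) W₀) := by
  letI := s26eAlgV W₀ hW₀
  haveI := s26eAlgV_tower W₀ hW₀
  have hc := s26etis_push_const f V W₀ hW₀ jL ev hα a
  have hs := s26etis_push_sp f G V B₀ e W₀ hW₀ jL jΓ ev hα hβ ν hν
  have hsum : s26eptMap f (s26etisEv V W₀ hW₀ jL ev hα)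
      (s26eptLift f F ↥W₀ (G.mul _ (s26eptMap f jΓ ν) (s26eptMap f jL a))) =
      s26eptLift f L ↥V a := by
    rw [s26eptLift_mul, s26eptMap_mul, hs, hc, G.one_mul]
  have h1 : Spec.map (CommRingCat.ofHom ev) ≫ s26eLiftV f W₀ hW₀ (s26eptMap f jL a) =
      (s26eptLift f L ↥V a).1 := congrArg Subtype.val hc
  have h2 : Spec.map (CommRingCat.ofHom ev) ≫
      s26eLiftV f W₀ hW₀ (G.mul _ (s26eptMap f jΓ ν) (s26eptMap f jL a)) =
      (s26eptLift f L ↥V a).1 := congrArg Subtype.val hsum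
  refine s26etis_gen_val_eq f hD W₀ hW₀ ev _ _ (h2.trans h1.symm) ?_
  rw [h1]
  exact s26emV_ne_zero f L ↥V hD a ha

/-- **`w₀(Sq(ν + b; y, z)) = w₀(Sq(b; y, z))`** at `W₀`: the value clause of `hSEC`. -/
theorem s26etis_sq_val (hD : S26emLocData U)
    (hα : ∀ v : ↥V, ∃ h : jL (v : L) ∈ W₀, ev ⟨jL (v : L), h⟩ = v)
    (hβ : ∀ b : ↥B₀, ∃ h : jΓ (b : Γ) ∈ W₀, ev ⟨jΓ (b : Γ), h⟩ = algebraMap K ↥V (e b))
    (ν : s26eptPts f Γ) (hν : s26eptMap f e (s26eptLift f Γ ↥B₀ ν) = G.one _)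
    (b y z : s26eptPts f L) (hb : s26eptPt f b ∈ U) (hby : s26eptPt f (G.mul _ b y) ∈ U)
    (hbz : s26eptPt f (G.mul _ b z) ∈ U) (hbyz : s26eptPt f (G.mul _ (G.mul _ b y) z) ∈ U) :
    W₀.valuation (s26eSq f G U (G.mul _ (s26eptMap f jΓ ν) (s26eptMap f jL b))
        (s26eptMap f jL y) (s26eptMap f jL z) W₀) =
      W₀.valuation (s26eSq f G U (s26eptMap f jL b) (s26eptMap f jL y) (s26eptMap f jL z) W₀) := by
  have e1 : G.mul _ (G.mul _ (G.mul _ (s26eptMap f jΓ ν) (s26eptMap f jL b)) (s26eptMap f jL y))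
      (s26eptMap f jL z) =
      G.mul _ (s26eptMap f jΓ ν) (s26eptMap f jL (G.mul _ (G.mul _ b y) z)) := by
    rw [s26eptMap_mul, s26eptMap_mul, G.mul_assoc, G.mul_assoc, G.mul_assoc]
  have e2 : G.mul _ (G.mul _ (s26eptMap f jΓ ν) (s26eptMap f jL b)) (s26eptMap f jL y) =
      G.mul _ (s26eptMap f jΓ ν) (s26eptMap f jL (G.mul _ b y)) := by
    rw [s26eptMap_mul, G.mul_assoc]
  have e3 : G.mul _ (G.mul _ (s26eptMap f jΓ ν) (s26eptMap f jL b)) (s26eptMap f jL z) =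
      G.mul _ (s26eptMap f jΓ ν) (s26eptMap f jL (G.mul _ b z)) := by
    rw [s26eptMap_mul, G.mul_assoc]
  have e4 : G.mul _ (G.mul _ (s26eptMap f jL b) (s26eptMap f jL y)) (s26eptMap f jL z) =
      s26eptMap f jL (G.mul _ (G.mul _ b y) z) := by
    rw [s26eptMap_mul, s26eptMap_mul]
  have e5 : G.mul _ (s26eptMap f jL b) (s26eptMap f jL y) = s26eptMap f jL (G.mul _ b y) := by
    rw [s26eptMap_mul]
  have e6 : G.mul _ (s26eptMap f jL b) (s26eptMap f jL z) = s26eptMap f jL (G.mul _ b z) := by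
    rw [s26eptMap_mul]
  unfold s26eSq
  rw [e1, e2, e3, e4, e5, e6]
  simp only [map_div₀, map_mul]
  rw [s26etis_gen_val f G V B₀ e W₀ hW₀ jL jΓ ev hD hα hβ ν hν _ hbyz,
    s26etis_gen_val f G V B₀ e W₀ hW₀ jL jΓ ev hD hα hβ ν hν _ hb,
    s26etis_gen_val f G V B₀ e W₀ hW₀ jL jΓ ev hD hα hβ ν hν _ hby,
    s26etis_gen_val f G V B₀ e W₀ hW₀ jL jΓ ev hD hα hβ ν hν _ hbz]

/-- the quotient `Sq(ν + b; y, z) / Sq(b; y, z)` has `W₀`-valuation `1`. -/
theorem s26etis_ratio_val (hD : S26emLocData U)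
    (hα : ∀ v : ↥V, ∃ h : jL (v : L) ∈ W₀, ev ⟨jL (v : L), h⟩ = v)
    (hβ : ∀ b : ↥B₀, ∃ h : jΓ (b : Γ) ∈ W₀, ev ⟨jΓ (b : Γ), h⟩ = algebraMap K ↥V (e b))
    (ν : s26eptPts f Γ) (hν : s26eptMap f e (s26eptLift f Γ ↥B₀ ν) = G.one _)
    (b y z : s26eptPts f L) (hb : s26eptPt f b ∈ U) (hby : s26eptPt f (G.mul _ b y) ∈ U)
    (hbz : s26eptPt f (G.mul _ b z) ∈ U) (hbyz : s26eptPt f (G.mul _ (G.mul _ b y) z) ∈ U)
    (hne : s26eSq f G U (s26eptMap f jL b) (s26eptMap f jL y) (s26eptMap f jL z) W₀ ≠ 0) :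
    W₀.valuation (s26eSq f G U (G.mul _ (s26eptMap f jΓ ν) (s26eptMap f jL b))
        (s26eptMap f jL y) (s26eptMap f jL z) W₀ /
      s26eSq f G U (s26eptMap f jL b) (s26eptMap f jL y) (s26eptMap f jL z) W₀) = 1 := by
  rw [map_div₀, s26etis_sq_val f G V B₀ e W₀ hW₀ jL jΓ ev hD hα hβ ν hν b y z hb hby hbz hbyz]
  exact div_self ((map_ne_zero _).mpr hne)

end Gen



end Fermat.Agent.S26

end
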