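/-
S26-E-VERT (helper38): **(d) TOP** — `s26evt_rel`.

Abstract `F` (a fraction field of `L ⊗[K] Γ`, as in `s26evm_main` / `s26etilg_rel`), `ν ∈ A(Γ)`
specialising to `0` along the place `γ₀ = (B₀, e)`, `b, y, z ∈ A(L)`, the 8 points in `U`.
From the OUTPUT OF (c): `G₀ ≠ 0` with `ord_P G₀ = ord_P (Sq(ν + b; y, z)(P))` at the places of
`F / L`, we get `Gf = G₀ / c` (`c ∈ Lˣ` the value of `G₀` at the place over `γ₀`) with
`S26erIsRel K (Sq(ν + b; y, z) / Sq(b; y, z)) Gf`.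

Inside: (hNOR) `s26evn_hNOR` (helper25), (hLG) `s26etilg_rel` (helper31), (hHOR) `s26etih_hor`
(helper24), (hSEC) `s26etis_ratio_val` (helper71) on the composite `s26evsW0` (helper68),
normalisation `s26etin_val_eq_one` (helper11), and `s26evm_main`.
-/
import Fermat.Agent.S26.ETiLGFit
import Fermat.Agent.S26.ETiHor
import Fermat.Agent.S26.ETiSec
import Fermat.Agent.S26.ETiNorm
import Fermat.Agent.S26.EVertSec
import Fermat.Agent.S26.EVertNorAll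

set_option autoImplicit false
set_option linter.style.haveILetI false
set_option linter.unusedVariables false
set_option linter.unusedSectionVars false

noncomputable section

namespace Fermat.Agent.S26

open CategoryTheory CategoryTheory.Limits AlgebraicGeometry NeronModelInfra GoodReductionJacobian
open AlgebraicCurve IntermediateField
open scoped TensorProduct

universe u

variable {K : Type u} [Field K] {A : Scheme.{u}} (f : A ⟶ Spec (CommRingCat.of K))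
variable {L Γ F : Type u} [Field L] [Algebra K L] [Field Γ] [Algebra K Γ] [Field F] [Algebra K F]
  [Algebra (L ⊗[K] Γ) F] [IsScalarTower K (L ⊗[K] Γ) F] [IsFractionRing (L ⊗[K] Γ) F]
variable [IsIntegral A] [IsLocallyNoetherian A] [IsProper f] {U : A.Opens}


section Aux

variable (V : ValuationSubring L) [Algebra K ↥V] [IsScalarTower K ↥V L]
  (B₀ : ValuationSubring Γ) [Algebra K ↥B₀] [IsScalarTower K ↥B₀ Γ] (e : ↥B₀ →ₐ[K] K)

omit [Algebra K F] [IsScalarTower K (L ⊗[K] Γ) F] in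
/-- `(hα)` of VERT-SEC on the composite `s26evsW0`. -/
theorem s26evt_alpha (jL : L → F) (hL : ∀ l : L, jL l = algebraMap (L ⊗[K] Γ) F (l ⊗ₜ[K] (1 : Γ)))
    (v : ↥V) : ∃ h : jL (v : L) ∈ s26evsW0 K L Γ F V B₀ e,
      s26evsEv K L Γ F V B₀ e ⟨jL (v : L), h⟩ = v := by
  have h0 : jL (v : L) = s26evsL K L Γ F (v : L) := hL _
  have hm : jL (v : L) ∈ s26evsW0 K L Γ F V B₀ e := by
    rw [h0]
    exact (s26evs_L_mem_W0_iff K L Γ F V B₀ e _).2 v.2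
  refine ⟨hm, ?_⟩
  have h1 : (⟨jL (v : L), hm⟩ : ↥(s26evsW0 K L Γ F V B₀ e)) =
      ⟨s26evsL K L Γ F (v : L), (s26evs_L_mem_W0_iff K L Γ F V B₀ e _).2 v.2⟩ :=
    Subtype.ext h0
  rw [h1]
  exact s26evsEv_L K L Γ F V B₀ e v

omit [Algebra K F] [IsScalarTower K (L ⊗[K] Γ) F] in
/-- `(hβ)` of VERT-SEC on the composite `s26evsW0`. -/
theorem s26evt_beta (jΓ : Γ → F)
    (hΓ : ∀ γ : Γ, jΓ γ = algebraMap (L ⊗[K] Γ) F ((1 : L) ⊗ₜ[K] γ))
    (b : ↥B₀) : ∃ h : jΓ (b : Γ) ∈ s26evsW0 K L Γ F V B₀ e,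
      s26evsEv K L Γ F V B₀ e ⟨jΓ (b : Γ), h⟩ = algebraMap K ↥V (e b) := by
  have h0 : jΓ (b : Γ) = s26evsR K L Γ F (b : Γ) := hΓ _
  have hm : jΓ (b : Γ) ∈ s26evsW0 K L Γ F V B₀ e := by
    rw [h0]
    exact s26evs_R_mem_W0 K L Γ F V B₀ e b
  refine ⟨hm, ?_⟩
  have h1 : (⟨jΓ (b : Γ), hm⟩ : ↥(s26evsW0 K L Γ F V B₀ e)) =
      ⟨s26evsR K L Γ F (b : Γ), s26evs_R_mem_W0 K L Γ F V B₀ e b⟩ :=
    Subtype.ext h0
  rw [h1]
  exact s26evsEv_R K L Γ F V B₀ e b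

omit [Algebra K F] [IsScalarTower K (L ⊗[K] Γ) F] in
/-- the composites lie in the composite for `V = ⊤` (the place over `γ₀`). -/
theorem s26evt_le (V' : ValuationSubring L) [Algebra K ↥V'] [IsScalarTower K ↥V' L]
    (hV' : V' = ⊤) : s26evsW0 K L Γ F V B₀ e ≤ s26evsW0 K L Γ F V' B₀ e := by
  intro x hx
  obtain ⟨h1, -⟩ := (s26evs_mem_W0_iff K L Γ F V B₀ e x).1 hx
  refine (s26evs_mem_W0_iff K L Γ F V' B₀ e x).2 ⟨h1, ?_⟩
  rw [hV']
  exact ValuationSubring.mem_top _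

end Aux

/-- **the value clause of (hSEC)** on the composite `s26evsW0`, for any `V`. -/
theorem s26evt_sec_val [IsAlgClosed K] (hD : S26emLocData U) (G : RelativeGroupLaw K f)
    (ιL : L →ₐ[K] F) (hL : ∀ l : L, ιL l = algebraMap (L ⊗[K] Γ) F (l ⊗ₜ[K] (1 : Γ)))
    (ιΓ : Γ →ₐ[K] F) (hΓ : ∀ γ : Γ, ιΓ γ = algebraMap (L ⊗[K] Γ) F ((1 : L) ⊗ₜ[K] γ))
    (ν : s26eptPts f Γ)
    (B₀ : ValuationSubring Γ) [Algebra K ↥B₀] [IsScalarTower K ↥B₀ Γ] (e : ↥B₀ →ₐ[K] K)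
    (hν : s26eptMap f e (s26eptLift f Γ ↥B₀ ν) = G.one _)
    (b y z : s26eptPts f L)
    (hb : s26eptPt f b ∈ U) (hby : s26eptPt f (G.mul _ b y) ∈ U)
    (hbz : s26eptPt f (G.mul _ b z) ∈ U) (hbyz : s26eptPt f (G.mul _ (G.mul _ b y) z) ∈ U)
    (V : ValuationSubring L) [Algebra K ↥V] [IsScalarTower K ↥V L] :
    (s26evsW0 K L Γ F V B₀ e).valuation
      (s26eSq f G U (G.mul _ (s26eptMap f ιΓ ν) (s26eptMap f ιL b))
          (s26eptMap f ιL y) (s26eptMap f ιL z) (s26evsW0 K L Γ F V B₀ e) /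
        s26eSq f G U (s26eptMap f ιL b) (s26eptMap f ιL y) (s26eptMap f ιL z)
          (s26evsW0 K L Γ F V B₀ e)) = 1 := by
  haveI := s26evsEv_isLocalHom K L Γ F V B₀ e
  have hα := s26evt_alpha (F := F) V B₀ e ιL hL
  have hβ := s26evt_beta (F := F) V B₀ e ιΓ hΓ
  have hW₀ : S26erOver K (s26evsW0 K L Γ F V B₀ e) := fun a => by
    rw [← ιL.commutes a]
    have : algebraMap K L a ∈ V := by
      rw [IsScalarTower.algebraMap_apply K ↥V L]
      exact (algebraMap K ↥V a).2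
    exact (hα ⟨_, this⟩).1
  have hb' : s26eptPt f (s26eptMap f ιL b) ∈ U := by rw [s26etih_pt_map]; exact hb
  have hby' : s26eptPt f (G.mul _ (s26eptMap f ιL b) (s26eptMap f ιL y)) ∈ U := by
    rw [← s26eptMap_mul, s26etih_pt_map]; exact hby
  have hbz' : s26eptPt f (G.mul _ (s26eptMap f ιL b) (s26eptMap f ιL z)) ∈ U := by
    rw [← s26eptMap_mul, s26etih_pt_map]; exact hbz
  have hbyz' : s26eptPt f (G.mul _ (G.mul _ (s26eptMap f ιL b) (s26eptMap f ιL y))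
      (s26eptMap f ιL z)) ∈ U := by
    rw [← s26eptMap_mul, ← s26eptMap_mul, s26etih_pt_map]; exact hbyz
  exact s26etis_ratio_val f G V B₀ e (s26evsW0 K L Γ F V B₀ e) hW₀ ιL ιΓ
    (s26evsEv K L Γ F V B₀ e) hD hα hβ ν hν b y z hb hby hbz hbyz
    (s26etih_sq_ne_zero f G hD _ _ _ hb' hby' hbz' hbyz' _)

/-- **(d) TOP.** -/
theorem s26evt_rel [IsAlgClosed K] (hD : S26emLocData U) (G : RelativeGroupLaw K f)
    [Algebra L F]
    (ιL : L →ₐ[K] F) (hL : ∀ l : L, ιL l = algebraMap (L ⊗[K] Γ) F (l ⊗ₜ[K] (1 : Γ)))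
    (hιL : ∀ l : L, algebraMap L F l = ιL l)
    (ιΓ : Γ →ₐ[K] F) (hΓ : ∀ γ : Γ, ιΓ γ = algebraMap (L ⊗[K] Γ) F ((1 : L) ⊗ₜ[K] γ))
    (hcurve : S26eIsCurve K Γ)
    (hcomp : ∀ W : ValuationSubring Γ, (∀ a : K, algebraMap K Γ a ∈ W) → W ≠ ⊤ →
      ∃ Q : AlgebraicCurve.Place K Γ, Q.toValuationSubring = W)
    (hresΓ : ∀ Q : AlgebraicCurve.Place K Γ, ∀ u ∈ Q.toValuationSubring, ∃ c₀ : K,
      u - algebraMap K Γ c₀ ∈ Q.toValuationSubring.nonunits)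
    (x : F) (hx : Transcendental L x) [FiniteDimensional L⟮x⟯ F]
    (ν : s26eptPts f Γ)
    (B₀ : ValuationSubring Γ) [Algebra K ↥B₀] [IsScalarTower K ↥B₀ Γ] (e : ↥B₀ →ₐ[K] K)
    (hν : s26eptMap f e (s26eptLift f Γ ↥B₀ ν) = G.one _)
    (b y z : s26eptPts f L)
    (hU₁ : S26etilgSqU f G U (G.mul _ (s26eptMap f ιΓ ν) (s26eptMap f ιL b))
      (s26eptMap f ιL y) (s26eptMap f ιL z))
    (hb : s26eptPt f b ∈ U) (hby : s26eptPt f (G.mul _ b y) ∈ U)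
    (hbz : s26eptPt f (G.mul _ b z) ∈ U) (hbyz : s26eptPt f (G.mul _ (G.mul _ b y) z) ∈ U)
    {G₀ : F} (hG₀ : G₀ ≠ 0)
    (hc : ∀ P : Place L F, P.ord G₀ =
      P.ord (s26eSq f G U (G.mul _ (s26eptMap f ιΓ ν) (s26eptMap f ιL b))
        (s26eptMap f ιL y) (s26eptMap f ιL z) P.toValuationSubring)) :
    ∃ Gf : F, S26erIsRel K (fun W =>
      s26eSq f G U (G.mul _ (s26eptMap f ιΓ ν) (s26eptMap f ιL b))
          (s26eptMap f ιL y) (s26eptMap f ιL z) W /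
        s26eSq f G U (s26eptMap f ιL b) (s26eptMap f ιL y) (s26eptMap f ιL z) W) Gf := by
  classical
  -- the place over `γ₀`: the composite for `V = ⊤`
  letI algTop : Algebra K ↥(⊤ : ValuationSubring L) := s26eAlgV ⊤ (s26erOver_top (K := K))
  haveI towTop : IsScalarTower K ↥(⊤ : ValuationSubring L) L :=
    s26eAlgV_tower ⊤ (s26erOver_top (K := K))
  set O' : ValuationSubring F := s26evsW0 K L Γ F ⊤ B₀ e with hO'
  haveI := s26evsEv_isLocalHom K L Γ F (⊤ : ValuationSubring L) B₀ e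
  have hαT := s26evt_alpha (F := F) (⊤ : ValuationSubring L) B₀ e ιL hL
  have hLO : ∀ l : L, ιL l ∈ O' := fun l => (hαT ⟨l, ValuationSubring.mem_top l⟩).1
  have hLO' : ∀ l : L, algebraMap L F l ∈ O' := fun l => by rw [hιL]; exact hLO l
  -- the points in `U`
  obtain ⟨hayz, ha, hay, haz⟩ := hU₁
  have hb' : s26eptPt f (s26eptMap f ιL b) ∈ U := by rw [s26etih_pt_map]; exact hb
  have hby' : s26eptPt f (G.mul _ (s26eptMap f ιL b) (s26eptMap f ιL y)) ∈ U := by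
    rw [← s26eptMap_mul, s26etih_pt_map]; exact hby
  have hbz' : s26eptPt f (G.mul _ (s26eptMap f ιL b) (s26eptMap f ιL z)) ∈ U := by
    rw [← s26eptMap_mul, s26etih_pt_map]; exact hbz
  have hbyz' : s26eptPt f (G.mul _ (G.mul _ (s26eptMap f ιL b) (s26eptMap f ιL y))
      (s26eptMap f ιL z)) ∈ U := by
    rw [← s26eptMap_mul, ← s26eptMap_mul, s26etih_pt_map]; exact hbyz
  -- (hHOR) for `G₀`
  have hHOR₀ : ∀ W : ValuationSubring F, (∀ l : L, ιL l ∈ W) →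
      W.valuation G₀ = W.valuation
        (s26eSq f G U (G.mul _ (s26eptMap f ιΓ ν) (s26eptMap f ιL b))
            (s26eptMap f ιL y) (s26eptMap f ιL z) W /
          s26eSq f G U (s26eptMap f ιL b) (s26eptMap f ιL y) (s26eptMap f ιL z) W) :=
    fun W hW => s26etih_hor f G hD ιL hιL x hx _ b y z ha hay haz hayz hb hby hbz hbyz hG₀ hc W hW
  -- `G₀` is a unit at the place over `γ₀`
  have hG₀O : O'.valuation G₀ = 1 := by
    rw [hHOR₀ O' hLO]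
    exact s26evt_sec_val f hD G ιL hL ιΓ hΓ ν B₀ e hν b y z hb hby hbz hbyz ⊤
  have hG₀m : G₀ ∈ O' := (O'.valuation_le_one_iff G₀).1 hG₀O.le
  have hG₀i : G₀⁻¹ ∈ O' := by
    rw [← O'.valuation_le_one_iff, map_inv₀, hG₀O, inv_one]
  set ev := s26evsEv K L Γ F (⊤ : ValuationSubring L) B₀ e with hev
  set c : L := ((ev ⟨G₀, hG₀m⟩ : ↥(⊤ : ValuationSubring L)) : L) with hcdef
  have hc0 : c ≠ 0 := by
    intro h0
    have h1 : (⟨G₀, hG₀m⟩ : ↥O') * ⟨G₀⁻¹, hG₀i⟩ = 1 := Subtype.ext (mul_inv_cancel₀ hG₀)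
    have h2 : ev ⟨G₀, hG₀m⟩ * ev ⟨G₀⁻¹, hG₀i⟩ = 1 := by rw [← map_mul, h1, map_one]
    have h3 : ev ⟨G₀, hG₀m⟩ = 0 := Subtype.ext h0
    rw [h3, zero_mul] at h2
    exact zero_ne_one h2
  have hcF : algebraMap L F c ≠ 0 := (map_ne_zero _).2 hc0
  -- the normalised function
  refine ⟨G₀ / algebraMap L F c, ?_⟩
  have hGfm : G₀ / algebraMap L F c ∈ O' := by
    rw [div_eq_mul_inv, ← map_inv₀]
    exact O'.mul_mem _ _ hG₀m (hLO' _)
  have hev1 : ev ⟨G₀ / algebraMap L F c, hGfm⟩ = 1 := by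
    obtain ⟨hcm, hcv⟩ := hαT ⟨c, ValuationSubring.mem_top c⟩
    have hcm' : algebraMap L F c ∈ O' := hLO' c
    have e1 : (⟨G₀ / algebraMap L F c, hGfm⟩ : ↥O') * ⟨algebraMap L F c, hcm'⟩ = ⟨G₀, hG₀m⟩ :=
      Subtype.ext (div_mul_cancel₀ _ hcF)
    have e2 : ev ⟨algebraMap L F c, hcm'⟩ = ⟨c, ValuationSubring.mem_top c⟩ := by
      have e3 : (⟨algebraMap L F c, hcm'⟩ : ↥O') = ⟨ιL c, hcm⟩ := Subtype.ext (hιL c)
      rw [e3]
      exact hcv
    have e4 : ev ⟨G₀, hG₀m⟩ = ⟨c, ValuationSubring.mem_top c⟩ := Subtype.ext rfl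
    have e5 := congrArg ev e1
    rw [map_mul, e2, e4] at e5
    have hc0' : (⟨c, ValuationSubring.mem_top c⟩ : ↥(⊤ : ValuationSubring L)) ≠ 0 := fun h =>
      hc0 (congrArg Subtype.val h)
    exact mul_right_cancel₀ hc0' (by rw [e5, one_mul])
  have hGf1 : G₀ / algebraMap L F c - 1 ∈ O'.nonunits := by
    have hm : G₀ / algebraMap L F c - 1 ∈ O' := O'.sub_mem hGfm O'.one_mem
    by_contra hnu
    have hu : IsUnit (⟨G₀ / algebraMap L F c - 1, hm⟩ : ↥O') :=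
      (s26espb_isUnit_iff_notMem O' _).2 hnu
    have h1 : ev ⟨G₀ / algebraMap L F c - 1, hm⟩ = 0 := by
      have e1 : (⟨G₀ / algebraMap L F c - 1, hm⟩ : ↥O') = ⟨G₀ / algebraMap L F c, hGfm⟩ - 1 :=
        rfl
      rw [e1, map_sub, hev1, map_one, sub_self]
    have h2 := hu.map ev
    rw [h1] at h2
    exact not_isUnit_zero h2
  -- (d)
  have hU₂ : S26etilgSqU f G U (s26eptMap f ιL b) (s26eptMap f ιL y) (s26eptMap f ιL z) :=
    ⟨hbyz', hb', hby', hbz'⟩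
  refine s26etilg_rel f hD G _ _ _ _
    ((s26etilgGood_right f ιΓ hΓ ν).mul f G (s26etilgGood_left f ιL hL b))
    (s26etilgGood_left f ιL hL b) (s26etilgGood_left f ιL hL y) (s26etilgGood_left f ιL hL z)
    ⟨hayz, ha, hay, haz⟩ hU₂ B₀ e _ (s26evn_hNOR K Γ L hcurve hcomp hresΓ) ?_ ?_
  · -- (hHOR)
    intro W hW
    have hW1 : ∀ l : L, ιL l ∈ W := fun l => by
      rw [hL]
      exact hW l
    have hW2 : ∀ l : L, algebraMap L F l ∈ W := fun l => by rw [hιL]; exact hW1 l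
    rw [s26etin_val_div_const W hW2 G₀ hc0]
    exact hHOR₀ W hW1
  · -- (hSEC)
    intro V _ _
    refine ⟨s26evsW0 K L Γ F V B₀ e, s26evs_iota_mem K L Γ F V B₀ e,
      s26evsEv K L Γ F V B₀ e, s26evsEv_isLocalHom K L Γ F V B₀ e,
      s26evsEv_iota K L Γ F V B₀ e, ?_⟩
    rw [s26evt_sec_val f hD G ιL hL ιΓ hΓ ν B₀ e hν b y z hb hby hbz hbyz V]
    exact s26etin_val_eq_one O' _ (s26evt_le (F := F) V B₀ e ⊤ rfl) hGf1

end Fermat.Agent.S26

end
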