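/-
S26-E-VERT (helper38): **FINAL of (TI)** — `s26evf_tifc : s26eti_StmtTIFc`.

`s26evt_rel` ((d) TOP, S26/EVertTop.lean) at the model `F = s26etifOm K Γ L` (helper33) with the
swapped structure `L ⊗[K] Γ → F`, fed with the output of (c) in the model (helper97,
`s26eticm_top`, `s26eticm_mem_U`, S26/ETiCM.lean).
-/
import Fermat.Agent.S26.EVertTop
import Fermat.Agent.S26.ETiCM
import Fermat.Agent.S26.ETiSecW0
import Fermat.Agent.S26.ERedHres
import Fermat.Agent.S26.ERRGaussFin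

set_option autoImplicit false
set_option linter.style.haveILetI false
set_option linter.unusedVariables false
set_option linter.unusedSectionVars false

noncomputable section

namespace Fermat.Agent.S26

open CategoryTheory CategoryTheory.Limits AlgebraicGeometry NeronModelInfra GoodReductionJacobian
open AlgebraicCurve IntermediateField
open scoped TensorProduct

universe u

section Curve

variable {K : Type u} [Field K] {Γ : Type u} [Field Γ] [Algebra K Γ]

/-- `hcomp` of `s26evt_rel`: a nontrivial valuation subring of a curve over `K` is a place. -/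
theorem s26evf_hcomp (x : Γ) (hx : Transcendental K x) [FiniteDimensional K⟮x⟯ Γ]
    (W : ValuationSubring Γ) (hW : ∀ a : K, algebraMap K Γ a ∈ W) (hne : W ≠ ⊤) :
    ∃ Q : AlgebraicCurve.Place K Γ, Q.toValuationSubring = W :=
  ⟨s26errPlaceOf W hW hne x hx, rfl⟩

/-- `hresΓ` of `s26evt_rel`: the residue field of a place of a curve over an algebraically closed
field is `K`. -/
theorem s26evf_hres [IsAlgClosed K] (x : Γ) (hx : Transcendental K x) [FiniteDimensional K⟮x⟯ Γ]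
    (Q : AlgebraicCurve.Place K Γ) (u : Γ) (hu : u ∈ Q.toValuationSubring) :
    ∃ c₀ : K, u - algebraMap K Γ c₀ ∈ Q.toValuationSubring.nonunits := by
  have halg : Algebra.IsAlgebraic K⟮x⟯ Γ := Algebra.IsAlgebraic.of_finite _ _
  obtain ⟨c₀, hc₀⟩ := (s26erh_hresK hx halg Q).2
    (IsLocalRing.residue ↥Q.toValuationSubring ⟨u, hu⟩)
  refine ⟨c₀, ?_⟩
  rw [ValuationSubring.mem_nonunits_iff_exists_mem_maximalIdeal]
  refine ⟨Q.toValuationSubring.sub_mem hu (Q.algebraMap_mem' c₀), ?_⟩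
  have h1 : (⟨u - algebraMap K Γ c₀, Q.toValuationSubring.sub_mem hu (Q.algebraMap_mem' c₀)⟩ :
      ↥Q.toValuationSubring) = ⟨u, hu⟩ - algebraMap K ↥Q.toValuationSubring c₀ := rfl
  rw [h1, ← IsLocalRing.residue_eq_zero_iff, map_sub, sub_eq_zero]
  exact hc₀.symm

end Curve

/-- **FINAL of (TI)**: translation invariance over `F = Frac (Γ ⊗[K] L)`. -/
theorem s26evf_tifc : s26eti_StmtTIFc.{u} := by
  intro K _ _ A f G g hyp _ _ _ U hU hD Γ _ _ hΓ ν γ₀ hν W _ _ b hb L _ _ _ ιW j₁ j₂ hinj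
  classical
  -- the output of (c) in the model
  obtain ⟨G₀, hG₀, hc⟩ :=
    s26eticm_top K f G g hyp U hU hD Γ hΓ ν γ₀ hν W b hb L ιW j₁ j₂ hinj
  obtain ⟨⟨p1, p2, p3, p4⟩, ⟨q1, q2, q3, q4⟩⟩ :=
    s26eticm_mem_U K f G g hyp U hU hD Γ ν γ₀ hν W b hb L ιW j₁ j₂ hinj
  have eb : s26eptMap f ((s26etifR K Γ L).comp ιW) b =
      s26eptMap f (s26etifR K Γ L) (s26eptMap f ιW b) := s26eptMap_comp f ιW (s26etifR K Γ L) b
  have e1 : s26ePt f ((s26etifR K Γ L).comp j₁) =
      s26eptMap f (s26etifR K Γ L) (s26ePt f j₁) := (s26etta_pt_map f (s26etifR K Γ L) j₁).symm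
  have e2 : s26ePt f ((s26etifR K Γ L).comp j₂) =
      s26eptMap f (s26etifR K Γ L) (s26ePt f j₂) := (s26etta_pt_map f (s26etifR K Γ L) j₂).symm
  rw [eb, e1, e2] at p1 q1
  rw [eb] at p2 q2
  rw [eb, e1] at p3 q3
  rw [eb, e2] at p4 q4
  simp only [eb, e1, e2] at hc ⊢
  -- the curve
  have hΓ' := hΓ
  obtain ⟨x, hx, hfin, -⟩ := hΓ'
  haveI : FiniteDimensional K⟮x⟯ Γ := hfin
  have halg : Algebra.IsAlgebraic K⟮x⟯ Γ := Algebra.IsAlgebraic.of_finite _ _
  have hld : Function.Injective (s26gspMu K Γ L (s26etifOm K Γ L)) :=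
    s26etif_mu_injective (K := K) (Γ := Γ) (𝔎 := L)
  have hgen : S26gspGen K Γ L (s26etifOm K Γ L) := fun ω => s26etif_gen ω
  have hxF : Transcendental L (algebraMap Γ (s26etifOm K Γ L) x) :=
    s26gspc_transcendental hld hx
  haveI : FiniteDimensional L⟮algebraMap Γ (s26etifOm K Γ L) x⟯ (s26etifOm K Γ L) :=
    s26gspf_finiteDimensional (𝔎 := L) (Ω := s26etifOm K Γ L) hgen x
  -- the place `γ₀`
  have hbij : Function.Bijective (algebraMap K γ₀.ResidueField) := s26erh_hresK hx halg γ₀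
  let eq : K ≃ₐ[K] γ₀.ResidueField :=
    AlgEquiv.ofBijective (Algebra.ofId K γ₀.ResidueField) hbij
  let e : ↥γ₀.toValuationSubring →ₐ[K] K :=
    (eq.symm : γ₀.ResidueField →ₐ[K] K).comp
      (IsScalarTower.toAlgHom K ↥γ₀.toValuationSubring γ₀.ResidueField)
  have hν' : s26eptMap f e (s26eptLift f Γ ↥γ₀.toValuationSubring ν) = G.one _ :=
    s26etis_spOne_of_sp f G γ₀.toValuationSubring e ν hν
  -- the points over `L`
  have hb' : s26eptPt f (s26eptMap f ιW b) ∈ U := by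
    rw [← s26etih_pt_map f (s26etifR K Γ L)]; exact q2
  have hby' : s26eptPt f (G.mul _ (s26eptMap f ιW b) (s26ePt f j₁)) ∈ U := by
    rw [← s26etih_pt_map f (s26etifR K Γ L), s26eptMap_mul]; exact q3
  have hbz' : s26eptPt f (G.mul _ (s26eptMap f ιW b) (s26ePt f j₂)) ∈ U := by
    rw [← s26etih_pt_map f (s26etifR K Γ L), s26eptMap_mul]; exact q4
  have hbyz' : s26eptPt f (G.mul _ (G.mul _ (s26eptMap f ιW b) (s26ePt f j₁))
      (s26ePt f j₂)) ∈ U := by
    rw [← s26etih_pt_map f (s26etifR K Γ L), s26eptMap_mul, s26eptMap_mul]; exact q1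
  -- the swapped structure
  letI := s26etifSwapAlgebra K Γ L
  haveI := s26etif_swap_isFractionRing K Γ L
  haveI := s26etif_swap_towerK K Γ L
  exact s26evt_rel f hD G (s26etifR K Γ L)
    (fun l => by
      rw [s26etif_swap_algebraMap_tmul, map_one, mul_one]; rfl)
    (fun l => rfl)
    (s26etifL K Γ L)
    (fun γ => by
      rw [s26etif_swap_algebraMap_tmul, map_one, one_mul]; rfl)
    hΓ (fun W hW hne => s26evf_hcomp x hx W hW hne) (fun Q u hu => s26evf_hres x hx Q u hu)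
    (algebraMap Γ (s26etifOm K Γ L) x) hxF ν γ₀.toValuationSubring e hν'
    (s26eptMap f ιW b) (s26ePt f j₁) (s26ePt f j₂) ⟨p1, p2, p3, p4⟩ hb' hby' hbz' hbyz' hG₀ hc

end Fermat.Agent.S26

end
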