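/-
S26-E, piece E-CRV, PART II-a (helper32): points of `A` near a point `x`, in terms of the local
ring `𝒪_{A,x}`.

* `s26ecrvStr f x : K →+* 𝒪_{A,x}` : the structure map;
* `s26ecrvEv f P x h : 𝒪_{A,x} →+* R` : evaluation at `P ∈ A(R)` (`R` local) of germs at a
  specialisation `x` of `|P|`; it is `K`-linear (`s26ecrvEv_str`) and functorial
  (`s26ecrvEv_map`);
* `s26ecrvOf f x lam hlam : A(R)` : the point defined by a ring homomorphism
  `lam : 𝒪_{A,x} →+* R` compatible with the structure maps; `s26ecrvOf_specializes`,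
  `s26ecrvEv_of`, `s26ecrvOf_ev`, `s26ecrvOf_map`;
* `s26ecrv_generic` : if `R` is a field, `A` integral and `s26ecrvEv f P x h` injective, then
  `|P|` is the generic point.
-/
import Fermat.Agent.S26.EPTDom
import Fermat.Agent.S26.PlanGeo

set_option autoImplicit false
set_option linter.style.haveILetI false

noncomputable section

namespace Fermat.Agent.S26

open CategoryTheory CategoryTheory.Limits AlgebraicGeometry NeronModelInfra GoodReductionJacobian

universe u

variable {K : Type u} [Field K] {A : Scheme.{u}} (f : A ⟶ Spec (CommRingCat.of K))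

/-- the structure map `K → 𝒪_{A,x}` -/
def s26ecrvStr (x : A) : K →+* A.presheaf.stalk x :=
  ((A.presheaf.germ ⊤ x trivial).hom.comp (f.appTop).hom).comp
    (Scheme.ΓSpecIso (CommRingCat.of K)).inv.hom

theorem s26ecrvStr_specializes {x y : A} (h : x ⤳ y) (c : K) :
    (A.presheaf.stalkSpecializes h).hom (s26ecrvStr f y c) = s26ecrvStr f x c := by
  unfold s26ecrvStr
  simp only [RingHom.coe_comp, Function.comp_apply]
  exact congrArg (fun g => g.hom ((f.appTop).hom
    ((Scheme.ΓSpecIso (CommRingCat.of K)).inv.hom c)))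
    (A.presheaf.germ_stalkSpecializes (U := ⊤) trivial h)

section Ev

variable {R : Type u} [CommRing R] [Algebra K R] [IsLocalRing R]

/-- evaluation at `P` of the germs at a specialisation `x` of `|P|` -/
def s26ecrvEv (P : s26eptPts f R) (x : A) (h : s26eptPt f P ⤳ x) : A.presheaf.stalk x →+* R :=
  (s26eptEv f P).comp (A.presheaf.stalkSpecializes h).hom

theorem s26ecrvEv_germ (P : s26eptPts f R) (x : A) (h : s26eptPt f P ⤳ x) (W : A.Opens)
    (hx : x ∈ W) (s : Γ(A, W)) :
    s26ecrvEv f P x h (A.presheaf.germ W x hx s) =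
      s26eptVal f P W (h.mem_open W.2 hx) s := by
  unfold s26ecrvEv
  rw [RingHom.comp_apply]
  have := congrArg (fun g => g.hom s) (A.presheaf.germ_stalkSpecializes (U := W) hx h)
  simp only [CommRingCat.hom_comp, RingHom.coe_comp, Function.comp_apply] at this
  rw [this]
  rfl

/-- evaluation is `K`-linear -/
theorem s26ecrvEv_str (P : s26eptPts f R) (x : A) (h : s26eptPt f P ⤳ x) (c : K) :
    s26ecrvEv f P x h (s26ecrvStr f x c) = algebraMap K R c := by
  unfold s26ecrvStr
  simp only [RingHom.coe_comp, Function.comp_apply]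
  rw [s26ecrvEv_germ, s26eptVal_eq_appLE]
  have h1 := (s26ept_over_iff f P.1).mp P.2 c
  rw [← h1]
  congr 1

end Ev

section O

variable (G : RelativeGroupLaw K f)

/-- the local ring of `A` at zero, as a type carrying its `K`-algebra structure -/
def S26ecrvO : Type u := A.presheaf.stalk (s26zero f G)

instance s26ecrvO_commRing : CommRing (S26ecrvO f G) :=
  inferInstanceAs (CommRing (A.presheaf.stalk (s26zero f G)))

instance s26ecrvO_isLocalRing : IsLocalRing (S26ecrvO f G) :=
  inferInstanceAs (IsLocalRing (A.presheaf.stalk (s26zero f G)))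

instance s26ecrvO_algebra : Algebra K (S26ecrvO f G) :=
  (s26ecrvStr f (s26zero f G)).toAlgebra

theorem s26ecrvO_algebraMap (c : K) :
    algebraMap K (S26ecrvO f G) c = s26ecrvStr f (s26zero f G) c := rfl

end O

end Fermat.Agent.S26
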