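/-
S26-E-LF1 (helper21): THE COMPLETION OF A FORMALLY SMOOTH LOCAL `K`-ALGEBRA WITH RESIDUE FIELD `K`
IS A POWER SERIES RING.  Mathlib only.

`K` a field, `R` a noetherian local `K`-algebra, formally smooth over `K`, with `R = K + 𝔪`.
Then `AdicCompletion 𝔪 R ≃+* MvPowerSeries (Fin d) K`.

Part 1 (this file): the abstract lemmas
* `s26elf1_injective_of_surjective_endo` : a surjective endomorphism of a noetherian ring is
  injective;
* `s26elf1_approx` : if `B = g A + N` and `N` is generated by elements `g (s i)`, then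
  `B = g A + N ^ k` for all `k`;
* `s26elf1_surjective_of_nilpotent` : a ring map `g : A → B` is surjective as soon as `B = g A + N`,
  `N` nilpotent and generated by elements of `g A ∩ N` modulo `N²`.
-/
import Mathlib.RingTheory.Noetherian.Basic
import Mathlib.RingTheory.Ideal.Maps
import Mathlib.RingTheory.Ideal.Operations
import Mathlib.Order.OrderIsoNat

set_option autoImplicit false

namespace Fermat.Agent.S26

/-- A surjective endomorphism of a noetherian ring is injective. -/
theorem s26elf1_injective_of_surjective_endo {B : Type*} [CommRing B] [IsNoetherianRing B]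
    (c : B →+* B) (hc : Function.Surjective c) : Function.Injective c := by
  let Kn : ℕ →o Ideal B :=
    ⟨fun k => RingHom.ker (c ^ k), by
      intro a b hab x hx
      rw [RingHom.mem_ker] at hx ⊢
      obtain ⟨e, rfl⟩ := Nat.exists_eq_add_of_le hab
      rw [add_comm, pow_add, RingHom.mul_def, RingHom.comp_apply, hx, map_zero]⟩
  obtain ⟨N, hN⟩ := monotone_stabilizes_iff_noetherian.2 (inferInstance : IsNoetherian B B) Kn
  have hsurj : Function.Surjective (c ^ N) := by
    rw [RingHom.coe_pow]
    exact hc.iterate N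
  rw [injective_iff_map_eq_zero]
  intro x hx
  obtain ⟨z, rfl⟩ := hsurj x
  have hz : z ∈ Kn (N + 1) := by
    change z ∈ RingHom.ker (c ^ (N + 1))
    rw [RingHom.mem_ker, pow_succ', RingHom.mul_def, RingHom.comp_apply, hx]
  have hz' : z ∈ Kn N := by
    rw [hN (N + 1) (Nat.le_succ N)]
    exact hz
  exact hz'

/-- nilpotent Nakayama, elementary form: `N ≤ M ⊔ N²` ⇒ `N ≤ M ⊔ N^(k+1)`. -/
theorem s26elf1_le_sup_pow {B : Type*} [CommRing B] (M N : Ideal B)
    (h : N ≤ M ⊔ N ^ 2) (k : ℕ) : N ≤ M ⊔ N ^ (k + 1) := by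
  induction k with
  | zero => simp
  | succ k ih =>
    refine h.trans (sup_le le_sup_left ?_)
    calc N ^ 2 = N * N := pow_two N
      _ ≤ N * (M ⊔ N ^ (k + 1)) := Ideal.mul_mono_right ih
      _ = N * M ⊔ N * N ^ (k + 1) := Ideal.mul_sup _ _ _
      _ ≤ M ⊔ N ^ (k + 1 + 1) := by
        refine sup_le_sup Ideal.mul_le_right (le_of_eq ?_)
        rw [← pow_succ']

/-- successive approximation: if `B = g A + N` and `N` is generated by the `g (s i)`, then
`B = g A + N ^ k` for every `k`. -/
theorem s26elf1_approx {A B ι : Type*} [CommRing A] [CommRing B]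
    (g : A →+* B) (N : Ideal B) (s : ι → A)
    (hs : N = Ideal.span (Set.range (g ∘ s)))
    (hres : ∀ b : B, ∃ a : A, b - g a ∈ N) (k : ℕ) (b : B) : ∃ a : A, b - g a ∈ N ^ k := by
  induction k generalizing b with
  | zero => exact ⟨0, by simp⟩
  | succ k ih =>
    have hspan : ∀ x ∈ Ideal.span (Set.range (g ∘ s)), ∃ a : A, x - g a ∈ N ^ (k + 1) := by
      intro x hx
      induction hx using Submodule.span_induction with
      | mem x hx =>
        obtain ⟨i, rfl⟩ := hx
        exact ⟨s i, by simp⟩
      | zero => exact ⟨0, by simp⟩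
      | add x y _ _ hx hy =>
        obtain ⟨a, ha⟩ := hx
        obtain ⟨a', ha'⟩ := hy
        refine ⟨a + a', ?_⟩
        have : x + y - g (a + a') = (x - g a) + (y - g a') := by rw [map_add]; ring
        rw [this]
        exact Ideal.add_mem _ ha ha'
      | smul r x hxmem hx =>
        obtain ⟨a, ha⟩ := hx
        obtain ⟨ar, har⟩ := ih r
        refine ⟨ar * a, ?_⟩
        have hxN : x ∈ N := by rw [hs]; exact hxmem
        have : r • x - g (ar * a) = g ar * (x - g a) + (r - g ar) * x := by
          rw [map_mul, smul_eq_mul]; ring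
        rw [this]
        refine Ideal.add_mem _ (Ideal.mul_mem_left _ _ ha) ?_
        rw [pow_succ]
        exact Ideal.mul_mem_mul har hxN
    obtain ⟨a₀, ha₀⟩ := hres b
    obtain ⟨a, ha⟩ := hspan _ (hs ▸ ha₀)
    refine ⟨a₀ + a, ?_⟩
    have : b - g (a₀ + a) = b - g a₀ - g a := by rw [map_add]; ring
    rw [this]
    exact ha

/-- `g : A → B` is surjective if `B = g A + N`, `N ^ n = 0` and `N` is generated by the elements
`g (s i) ∈ N` modulo `N²`. -/
theorem s26elf1_surjective_of_nilpotent {A B ι : Type*} [CommRing A] [CommRing B]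
    (g : A →+* B) (N : Ideal B) (n : ℕ) (hN : N ^ n = ⊥) (s : ι → A)
    (hsN : ∀ i, g (s i) ∈ N)
    (hs : N ≤ Ideal.span (Set.range (g ∘ s)) ⊔ N ^ 2)
    (hres : ∀ b : B, ∃ a : A, b - g a ∈ N) : Function.Surjective g := by
  have hspanN : Ideal.span (Set.range (g ∘ s)) ≤ N := by
    rw [Ideal.span_le]
    rintro _ ⟨i, rfl⟩
    exact hsN i
  -- `N = span (g ∘ s)`
  have hs' : N ≤ Ideal.span (Set.range (g ∘ s)) := by
    rcases Nat.eq_zero_or_pos n with h0 | hpos
    · subst h0
      rw [pow_zero, Ideal.one_eq_top] at hN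
      intro x _
      have : x ∈ (⊤ : Ideal B) := trivial
      rw [hN] at this
      rw [(Ideal.mem_bot).1 this]
      exact Ideal.zero_mem _
    · obtain ⟨k, rfl⟩ := Nat.exists_eq_succ_of_ne_zero hpos.ne'
      have := s26elf1_le_sup_pow _ N hs k
      rw [Nat.succ_eq_add_one] at hN
      rwa [hN, sup_bot_eq] at this
  intro b
  obtain ⟨a, ha⟩ := s26elf1_approx g N s (le_antisymm hs' hspanN) hres n b
  refine ⟨a, ?_⟩
  rw [hN, Ideal.mem_bot, sub_eq_zero] at ha
  exact ha.symm

end Fermat.Agent.S26
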