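/-
S26-E-LF1 (helper21), part 2: COORDINATES.  Mathlib only.

`K` a field, `R` a noetherian local `K`-algebra with `R = K + 𝔪`, formally smooth over `K`.
* `s26elf1_exists_gens` : `y₁..y_d ∈ 𝔪` generating `𝔪`, `K`-linearly independent modulo `𝔪²`;
* `S26Elf1Coords K R d y` : `𝔪 = (y)`, and `α = aeval y : K[Y] → R` induces bijections
  `K[Y]/Jⁿ → R/𝔪ⁿ` for all `n` (`J = (Y)`);
* `s26elf1_exists_coords` : coordinates exist.
-/
import Fermat.Agent.S26.ELF1
import Mathlib.RingTheory.Smooth.Basic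
import Mathlib.RingTheory.Ideal.Cotangent
import Mathlib.RingTheory.MvPolynomial.Ideal
import Mathlib.RingTheory.Polynomial.Basic
import Mathlib.LinearAlgebra.Dimension.Free

set_option autoImplicit false

namespace Fermat.Agent.S26

open IsLocalRing

section gens

variable {K R : Type*} [Field K] [CommRing R] [Algebra K R] [IsLocalRing R]

/-- the hypothesis `R = K + 𝔪` from surjectivity onto the residue field. -/
theorem s26elf1_hres_of_surjective
    (h : Function.Surjective (algebraMap K (ResidueField R))) :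
    ∀ r : R, ∃ c : K, r - algebraMap K R c ∈ maximalIdeal R := by
  intro r
  obtain ⟨c, hc⟩ := h (residue R r)
  refine ⟨c, ?_⟩
  rw [← Ideal.Quotient.eq_zero_iff_mem, map_sub, sub_eq_zero]
  rw [IsScalarTower.algebraMap_apply K R (ResidueField R)] at hc
  exact hc.symm

/-- a nonzero constant is a unit, so it does not lie in `𝔪`. -/
theorem s26elf1_const_eq_zero {c : K} (h : algebraMap K R c ∈ maximalIdeal R) : c = 0 := by
  by_contra hc
  have hu : IsUnit (algebraMap K R c) := (IsUnit.mk0 c hc).map (algebraMap K R)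
  exact (mem_maximalIdeal _).1 h hu

variable [IsNoetherianRing R]

/-- generators of `𝔪` that are `K`-linearly independent modulo `𝔪²`. -/
theorem s26elf1_exists_gens :
    ∃ (d : ℕ) (y : Fin d → R), (∀ i, y i ∈ maximalIdeal R) ∧
      Ideal.span (Set.range y) = maximalIdeal R ∧
      ∀ c : Fin d → K, (∑ i, algebraMap K R (c i) * y i) ∈ maximalIdeal R ^ 2 → c = 0 := by
  classical
  let k := ResidueField R
  let V := CotangentSpace R
  let b : Module.Basis (Fin (Module.finrank k V)) k V := Module.finBasis k V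
  have hsurj := (maximalIdeal R).toCotangent_surjective
  choose y' hy' using fun i => hsurj (b i)
  refine ⟨Module.finrank k V, fun i => (y' i : R), fun i => (y' i).2, ?_, ?_⟩
  · -- span
    have h1 : Submodule.span k ((maximalIdeal R).toCotangent '' Set.range y') = ⊤ := by
      rw [← Set.range_comp]
      have : (⇑(maximalIdeal R).toCotangent ∘ y') = ⇑b := funext hy'
      rw [this]
      exact b.span_eq
    have h2 : Submodule.span R (Set.range y') = ⊤ :=
      CotangentSpace.span_image_eq_top_iff.1 h1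
    have h3 := congrArg (Submodule.map (maximalIdeal R).subtype) h2
    rw [Submodule.map_span, Submodule.map_top, Submodule.range_subtype, ← Set.range_comp] at h3
    exact h3
  · intro c hc
    have hz : (maximalIdeal R).toCotangent (∑ i, algebraMap K R (c i) • y' i) = 0 := by
      rw [Ideal.toCotangent_eq_zero]
      have hcoe : ((∑ i, algebraMap K R (c i) • y' i : maximalIdeal R) : R) =
          ∑ i, algebraMap K R (c i) * (y' i : R) := by
        rw [Submodule.coe_sum]
        rfl
      rw [hcoe]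
      exact hc
    rw [map_sum] at hz
    have hz' : ∑ i, (residue R (algebraMap K R (c i))) • b i = 0 := by
      rw [← hz]
      refine Finset.sum_congr rfl fun i _ => ?_
      rw [map_smul, hy']
      rfl
    have hli := b.linearIndependent
    rw [Fintype.linearIndependent_iff] at hli
    funext i
    have := hli _ hz' i
    apply s26elf1_const_eq_zero (R := R)
    rw [← Ideal.Quotient.eq_zero_iff_mem]
    exact this

end gens

section poly

open MvPolynomial

variable {K : Type*} [Field K] {σ : Type*}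

/-- `p - p(0) ∈ (Y)`. -/
theorem s26elf1_sub_C_mem (p : MvPolynomial σ K) :
    p - C (constantCoeff p) ∈ idealOfVars σ K := by
  have h := (mem_pow_idealOfVars_iff' (σ := σ) (R := K) 1 (p - C (constantCoeff p))).2
  rw [pow_one] at h
  apply h
  intro x hx
  have hx0 : x = 0 := by
    have : Finsupp.degree x = 0 := by omega
    exact (Finsupp.degree_eq_zero_iff x).1 this
  subst hx0
  simp [constantCoeff_eq]

variable {R : Type*} [CommRing R] [Algebra K R] [IsLocalRing R]

/-- `α = aeval y` maps `(Y)ⁿ` into `𝔪ⁿ`. -/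
theorem s26elf1_aeval_mem_pow {y : σ → R} (hmem : ∀ i, y i ∈ maximalIdeal R) (n : ℕ)
    {p : MvPolynomial σ K} (hp : p ∈ idealOfVars σ K ^ n) :
    aeval y p ∈ maximalIdeal R ^ n := by
  have h1 : Ideal.map (aeval y : MvPolynomial σ K →ₐ[K] R) (idealOfVars σ K) ≤ maximalIdeal R := by
    rw [idealOfVars, Ideal.map_span, Ideal.span_le]
    rintro _ ⟨_, ⟨i, rfl⟩, rfl⟩
    simpa using hmem i
  have h2 : Ideal.map (aeval y : MvPolynomial σ K →ₐ[K] R) (idealOfVars σ K ^ n) ≤
      maximalIdeal R ^ n := by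
    rw [Ideal.map_pow]
    exact Ideal.pow_right_mono h1 n
  exact h2 (Ideal.mem_map_of_mem _ hp)

/-- surjectivity of `K[Y]/Jⁿ → R/𝔪ⁿ`. -/
theorem s26elf1_surj {y : σ → R}
    (hspan : Ideal.span (Set.range y) = maximalIdeal R)
    (hres : ∀ r : R, ∃ c : K, r - algebraMap K R c ∈ maximalIdeal R) (n : ℕ) (r : R) :
    ∃ p : MvPolynomial σ K, r - aeval y p ∈ maximalIdeal R ^ n := by
  refine s26elf1_approx ((aeval y : MvPolynomial σ K →ₐ[K] R) : MvPolynomial σ K →+* R)
    (maximalIdeal R) (fun i => X i) ?_ ?_ n r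
  · rw [← hspan]
    congr 2
    funext i
    simp
  · intro b
    obtain ⟨c, hc⟩ := hres b
    exact ⟨C c, by simpa using hc⟩

/-- injectivity at level one. -/
theorem s26elf1_inj_one {y : σ → R} (hmem : ∀ i, y i ∈ maximalIdeal R)
    (p : MvPolynomial σ K) (hp : aeval y p ∈ maximalIdeal R) : p ∈ idealOfVars σ K := by
  have h1 := s26elf1_sub_C_mem p
  have h2 : aeval y (p - C (constantCoeff p)) ∈ maximalIdeal R := by
    have := s26elf1_aeval_mem_pow hmem 1 (p := p - C (constantCoeff p)) (by rwa [pow_one])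
    rwa [pow_one] at this
  have h3 : algebraMap K R (constantCoeff p) ∈ maximalIdeal R := by
    have : algebraMap K R (constantCoeff p) = aeval y p - aeval y (p - C (constantCoeff p)) := by
      simp
    rw [this]
    exact Ideal.sub_mem _ hp h2
  have h4 := s26elf1_const_eq_zero h3
  rw [h4, map_zero, sub_zero] at h1
  exact h1

/-- injectivity at level two. -/
theorem s26elf1_inj_two [Fintype σ] {y : σ → R} (hmem : ∀ i, y i ∈ maximalIdeal R)
    (hind : ∀ c : σ → K, (∑ i, algebraMap K R (c i) * y i) ∈ maximalIdeal R ^ 2 → c = 0)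
    (p : MvPolynomial σ K) (hp : aeval y p ∈ maximalIdeal R ^ 2) :
    p ∈ idealOfVars σ K ^ 2 := by
  have hp1 : p ∈ idealOfVars σ K :=
    s26elf1_inj_one hmem p (Ideal.pow_le_self two_ne_zero hp)
  obtain ⟨q, hq⟩ := (Ideal.mem_span_range_iff_exists_fun).1 hp1
  -- `p = ∑ q i * X i`, `q i = C (c i) + j i`
  have hj : ∀ i, q i - C (constantCoeff (q i)) ∈ idealOfVars σ K := fun i =>
    s26elf1_sub_C_mem (q i)
  have hsplit : p = ∑ i, C (constantCoeff (q i)) * X i +
      ∑ i, (q i - C (constantCoeff (q i))) * X i := by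
    rw [← hq, ← Finset.sum_add_distrib]
    refine Finset.sum_congr rfl fun i _ => ?_
    ring
  have hX : ∀ i, (X i : MvPolynomial σ K) ∈ idealOfVars σ K := fun i =>
    Ideal.subset_span ⟨i, rfl⟩
  have hsecond : (∑ i, (q i - C (constantCoeff (q i))) * X i) ∈ idealOfVars σ K ^ 2 := by
    refine Ideal.sum_mem _ fun i _ => ?_
    rw [pow_two]
    exact Ideal.mul_mem_mul (hj i) (hX i)
  have h2 := s26elf1_aeval_mem_pow hmem 2 hsecond
  have h3 : (∑ i, algebraMap K R (constantCoeff (q i)) * y i) ∈ maximalIdeal R ^ 2 := by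
    have : (∑ i, algebraMap K R (constantCoeff (q i)) * y i) =
        aeval y p - aeval y (∑ i, (q i - C (constantCoeff (q i))) * X i) := by
      conv_rhs => rw [hsplit]
      simp
    rw [this]
    exact Ideal.sub_mem _ hp h2
  have h4 := hind _ h3
  have h5 : ∀ i, constantCoeff (q i) = 0 := fun i => congrFun h4 i
  rw [hsplit]
  refine Ideal.add_mem _ ?_ hsecond
  simp [h5]

/-- **injectivity at every level** (the regularity of a formally smooth local algebra):
if `α p ∈ 𝔪ⁿ` then `p ∈ (Y)ⁿ`. -/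
theorem s26elf1_inj [Fintype σ] [Algebra.FormallySmooth K R] {y : σ → R}
    (hmem : ∀ i, y i ∈ maximalIdeal R)
    (hspan : Ideal.span (Set.range y) = maximalIdeal R)
    (hres : ∀ r : R, ∃ c : K, r - algebraMap K R c ∈ maximalIdeal R)
    (hind : ∀ c : σ → K, (∑ i, algebraMap K R (c i) * y i) ∈ maximalIdeal R ^ 2 → c = 0)
    (n : ℕ) (p : MvPolynomial σ K) (hp : aeval y p ∈ maximalIdeal R ^ n) :
    p ∈ idealOfVars σ K ^ n := by
  classical
  rcases Nat.lt_or_ge n 2 with hn | hn
  · interval_cases n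
    · simp
    · rw [pow_one] at hp ⊢
      exact s26elf1_inj_one hmem p hp
  -- notation
  set J : Ideal (MvPolynomial σ K) := idealOfVars σ K with hJ
  set 𝔪 : Ideal R := maximalIdeal R with h𝔪
  let α : MvPolynomial σ K →ₐ[K] R := aeval y
  let T := MvPolynomial σ K ⧸ J ^ n
  let mk : MvPolynomial σ K →ₐ[K] T := Ideal.Quotient.mkₐ K (J ^ n)
  have hmk_surj : Function.Surjective mk := Ideal.Quotient.mkₐ_surjective K (J ^ n)
  have hαpow : ∀ (m : ℕ) (a : MvPolynomial σ K), a ∈ J ^ m → α a ∈ 𝔪 ^ m := fun m a ha =>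
    s26elf1_aeval_mem_pow hmem m ha
  -- the map `g : T → R/𝔪²`
  let g : T →ₐ[K] R ⧸ 𝔪 ^ 2 :=
    Ideal.Quotient.liftₐ (J ^ n) ((Ideal.Quotient.mkₐ K (𝔪 ^ 2)).comp α) (by
      intro a ha
      rw [AlgHom.comp_apply, Ideal.Quotient.mkₐ_eq_mk, Ideal.Quotient.eq_zero_iff_mem]
      exact Ideal.pow_le_pow_right hn (hαpow n a ha))
  have hg_mk : ∀ a : MvPolynomial σ K, g (mk a) = Ideal.Quotient.mk (𝔪 ^ 2) (α a) := fun a => rfl
  have hg_surj : Function.Surjective g := by
    intro r
    obtain ⟨r, rfl⟩ := Ideal.Quotient.mk_surjective r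
    obtain ⟨a, ha⟩ := s26elf1_surj (K := K) hspan hres 2 r
    refine ⟨mk a, ?_⟩
    rw [hg_mk]
    exact ((Ideal.Quotient.mk_eq_mk_iff_sub_mem _ _).2 ha).symm
  -- `N`, the image of `J`
  let N : Ideal T := Ideal.map (Ideal.Quotient.mk (J ^ n)) J
  have hNn : N ^ n = ⊥ := by
    rw [← Ideal.map_pow]
    exact Ideal.map_quotient_self _
  have hker : RingHom.ker (g : T →+* R ⧸ 𝔪 ^ 2) ≤ N ^ 2 := by
    intro t ht
    obtain ⟨a, rfl⟩ := hmk_surj t
    rw [RingHom.mem_ker] at ht
    have ht' : Ideal.Quotient.mk (𝔪 ^ 2) (α a) = 0 := ht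
    rw [Ideal.Quotient.eq_zero_iff_mem] at ht'
    have := s26elf1_inj_two hmem hind a ht'
    rw [← Ideal.map_pow]
    exact Ideal.mem_map_of_mem _ this
  have hnil : IsNilpotent (RingHom.ker (g : T →+* R ⧸ 𝔪 ^ 2)) := by
    refine ⟨n, ?_⟩
    rw [Ideal.zero_eq_bot, eq_bot_iff]
    calc RingHom.ker (g : T →+* R ⧸ 𝔪 ^ 2) ^ n ≤ (N ^ 2) ^ n := Ideal.pow_right_mono hker n
      _ = (N ^ n) ^ 2 := by rw [pow_right_comm]
      _ = ⊥ := by rw [hNn]; simp
  -- the lift
  let b : R →ₐ[K] T :=
    Algebra.FormallySmooth.liftOfSurjective (Ideal.Quotient.mkₐ K (𝔪 ^ 2)) g hg_surj hnil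
  have hb : ∀ r : R, g (b r) = Ideal.Quotient.mk (𝔪 ^ 2) r := fun r =>
    Algebra.FormallySmooth.liftOfSurjective_apply (Ideal.Quotient.mkₐ K (𝔪 ^ 2)) g hg_surj hnil r
  have hc : ∀ a : MvPolynomial σ K, b (α a) - mk a ∈ N ^ 2 := by
    intro a
    apply hker
    rw [RingHom.mem_ker]
    change g (b (α a) - mk a) = 0
    rw [map_sub, hb, hg_mk, sub_self]
  have hmkX : ∀ i, mk (X i) ∈ N := fun i =>
    Ideal.mem_map_of_mem _ (Ideal.subset_span ⟨i, rfl⟩)
  have hαX : ∀ i, α (X i) = y i := fun i => by simp [α]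
  have hby : ∀ i, b (y i) ∈ N := by
    intro i
    have h1 := hc (X i)
    rw [hαX] at h1
    have h2 : b (y i) = (b (y i) - mk (X i)) + mk (X i) := by ring
    rw [h2]
    exact Ideal.add_mem _ (Ideal.pow_le_self two_ne_zero h1) (hmkX i)
  have hb𝔪 : Ideal.map (b : R →+* T) 𝔪 ≤ N := by
    rw [← hspan, Ideal.map_span, Ideal.span_le]
    rintro _ ⟨_, ⟨i, rfl⟩, rfl⟩
    exact hby i
  have hbpow : ∀ r ∈ 𝔪 ^ n, b r = 0 := by
    intro r hr
    have h1 : (b : R →+* T) r ∈ Ideal.map (b : R →+* T) (𝔪 ^ n) := Ideal.mem_map_of_mem _ hr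
    rw [Ideal.map_pow] at h1
    have h2 := Ideal.pow_right_mono hb𝔪 n h1
    rw [hNn, Ideal.mem_bot] at h2
    exact h2
  -- the endomorphism
  let cbar : T →+* T :=
    Ideal.Quotient.lift (J ^ n) ((b : R →+* T).comp (α : MvPolynomial σ K →+* R)) (by
      intro a ha
      exact hbpow _ (hαpow n a ha))
  have hcbar : ∀ a : MvPolynomial σ K, cbar (mk a) = b (α a) := fun a => rfl
  have hcbar_surj : Function.Surjective cbar := by
    refine s26elf1_surjective_of_nilpotent cbar N n hNn (fun i => mk (X i)) ?_ ?_ ?_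
    · intro i
      rw [hcbar, hαX]
      exact hby i
    · have hNle : N ≤ Ideal.span (Set.range fun i => mk (X i)) := by
        change Ideal.map (Ideal.Quotient.mk (J ^ n)) (Ideal.span (Set.range X)) ≤ _
        rw [Ideal.map_span, Ideal.span_le]
        rintro _ ⟨_, ⟨i, rfl⟩, rfl⟩
        exact Ideal.subset_span ⟨i, rfl⟩
      refine hNle.trans ?_
      rw [Ideal.span_le]
      rintro _ ⟨i, rfl⟩
      have h1 : mk (X i) = cbar (mk (X i)) - (b (α (X i)) - mk (X i)) := by
        rw [hcbar]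
        ring
      rw [SetLike.mem_coe]
      change mk (X i) ∈ _
      rw [h1]
      refine Ideal.sub_mem _ (Ideal.mem_sup_left (Ideal.subset_span ⟨i, rfl⟩))
        (Ideal.mem_sup_right (hc (X i)))
    · intro t
      obtain ⟨a, rfl⟩ := hmk_surj t
      refine ⟨mk (C (constantCoeff a)), ?_⟩
      rw [hcbar]
      have h1 : b (α (C (constantCoeff a))) = mk (C (constantCoeff a)) := by
        rw [show α (C (constantCoeff a)) = algebraMap K R (constantCoeff a) by simp [α],
          AlgHom.commutes]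
        rfl
      rw [h1, ← map_sub]
      exact Ideal.mem_map_of_mem _ (s26elf1_sub_C_mem a)
  have hcbar_inj : Function.Injective cbar :=
    s26elf1_injective_of_surjective_endo cbar hcbar_surj
  have h0 : cbar (mk p) = 0 := by
    rw [hcbar]
    exact hbpow _ hp
  have h1 : mk p = 0 := hcbar_inj (by rw [h0, map_zero])
  exact Ideal.Quotient.eq_zero_iff_mem.1 h1

end poly

section coords

/-- **Coordinates** `y₁..y_d` of the local `K`-algebra `R`: they generate `𝔪`, and
`α = aeval y : K[Y] → R` induces bijections `K[Y]/(Y)ⁿ → R/𝔪ⁿ` for all `n`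
(`inj`: the monomials of degree `< n` in `y` are `K`-linearly independent modulo `𝔪ⁿ`). -/
structure S26Elf1Coords (K R : Type*) [Field K] [CommRing R] [Algebra K R] [IsLocalRing R]
    (d : ℕ) (y : Fin d → R) : Prop where
  mem : ∀ i, y i ∈ maximalIdeal R
  span : Ideal.span (Set.range y) = maximalIdeal R
  inj : ∀ (n : ℕ) (p : MvPolynomial (Fin d) K),
    MvPolynomial.aeval y p ∈ maximalIdeal R ^ n → p ∈ MvPolynomial.idealOfVars (Fin d) K ^ n
  surj : ∀ (n : ℕ) (r : R),
    ∃ p : MvPolynomial (Fin d) K, r - MvPolynomial.aeval y p ∈ maximalIdeal R ^ n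

variable {K R : Type*} [Field K] [CommRing R] [Algebra K R] [IsLocalRing R]

/-- `α p ∈ 𝔪ⁿ ↔ p ∈ (Y)ⁿ`. -/
theorem S26Elf1Coords.mem_pow_iff {d : ℕ} {y : Fin d → R} (h : S26Elf1Coords K R d y) (n : ℕ)
    (p : MvPolynomial (Fin d) K) :
    MvPolynomial.aeval y p ∈ maximalIdeal R ^ n ↔ p ∈ MvPolynomial.idealOfVars (Fin d) K ^ n :=
  ⟨h.inj n p, fun hp => s26elf1_aeval_mem_pow h.mem n hp⟩

/-- **Coordinates exist** on a noetherian local `K`-algebra `R = K + 𝔪` which is formally smooth
over `K`. -/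
theorem s26elf1_exists_coords [IsNoetherianRing R] [Algebra.FormallySmooth K R]
    (hres : ∀ r : R, ∃ c : K, r - algebraMap K R c ∈ maximalIdeal R) :
    ∃ (d : ℕ) (y : Fin d → R), S26Elf1Coords K R d y := by
  obtain ⟨d, y, hmem, hspan, hind⟩ := s26elf1_exists_gens (K := K) (R := R)
  exact ⟨d, y, hmem, hspan, fun n p hp => s26elf1_inj hmem hspan hres hind n p hp,
    fun n r => s26elf1_surj hspan hres n r⟩

end coords

end Fermat.Agent.S26
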