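/-
S26-E-LF1 (helper21), part 3: THE COMPLETION IS A POWER SERIES RING.  Mathlib only.

`R` a local `K`-algebra with coordinates `y` (`S26Elf1Coords K R d y`).  Then
* `s26elf1_complEquiv` : `AdicCompletion 𝔪 R ≃+* MvPowerSeries (Fin d) K`;
* `s26elf1_completion` : the same as an existence statement for a formally smooth noetherian
  local `K`-algebra with residue field `K`.
-/
import Fermat.Agent.S26.ELF1Coords
import Mathlib.RingTheory.AdicCompletion.RingHom
import Mathlib.RingTheory.MvPowerSeries.Equiv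

set_option autoImplicit false

namespace Fermat.Agent.S26

open IsLocalRing AdicCompletion

/-- the transition maps are compatible with the evaluations. -/
theorem s26elf1_factorPow_evalₐ {R : Type*} [CommRing R] (I : Ideal R) {m n : ℕ} (hle : m ≤ n)
    (x : AdicCompletion I R) :
    Ideal.Quotient.factorPow I hle (evalₐ I n x) = evalₐ I m x := by
  induction x using AdicCompletion.induction_on with
  | _ a =>
    rw [evalₐ_mk, evalₐ_mk]
    simp only [Ideal.Quotient.factorPow, Ideal.Quotient.factor_mk]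
    exact AdicCompletion.Ideal.mk_eq_mk I hle a

section

variable {K R : Type*} [Field K] [CommRing R] [Algebra K R] [IsLocalRing R]
variable {d : ℕ} {y : Fin d → R}

/-- the map `K[Y]/(Y)ⁿ → R/𝔪ⁿ`. -/
noncomputable def s26elf1_quotMap (h : S26Elf1Coords K R d y) (n : ℕ) :
    MvPolynomial (Fin d) K ⧸ MvPolynomial.idealOfVars (Fin d) K ^ n →+* R ⧸ maximalIdeal R ^ n :=
  Ideal.quotientMap (maximalIdeal R ^ n)
    ((MvPolynomial.aeval y : MvPolynomial (Fin d) K →ₐ[K] R) : MvPolynomial (Fin d) K →+* R)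
    (fun _ hp => s26elf1_aeval_mem_pow h.mem n hp)

theorem s26elf1_quotMap_mk (h : S26Elf1Coords K R d y) (n : ℕ) (p : MvPolynomial (Fin d) K) :
    s26elf1_quotMap h n (Ideal.Quotient.mk _ p) =
      Ideal.Quotient.mk _ (MvPolynomial.aeval y p) := rfl

theorem s26elf1_quotMap_bijective (h : S26Elf1Coords K R d y) (n : ℕ) :
    Function.Bijective (s26elf1_quotMap h n) := by
  constructor
  · rw [injective_iff_map_eq_zero]
    intro t ht
    obtain ⟨p, rfl⟩ := Ideal.Quotient.mk_surjective t
    rw [s26elf1_quotMap_mk, Ideal.Quotient.eq_zero_iff_mem] at ht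
    exact Ideal.Quotient.eq_zero_iff_mem.2 (h.inj n p ht)
  · intro r
    obtain ⟨r, rfl⟩ := Ideal.Quotient.mk_surjective r
    obtain ⟨p, hp⟩ := h.surj n r
    refine ⟨Ideal.Quotient.mk _ p, ?_⟩
    rw [s26elf1_quotMap_mk]
    exact ((Ideal.Quotient.mk_eq_mk_iff_sub_mem _ _).2 hp).symm

/-- the ring isomorphism `K[Y]/(Y)ⁿ ≃ R/𝔪ⁿ`. -/
noncomputable def s26elf1_quotEquiv (h : S26Elf1Coords K R d y) (n : ℕ) :
    MvPolynomial (Fin d) K ⧸ MvPolynomial.idealOfVars (Fin d) K ^ n ≃+* R ⧸ maximalIdeal R ^ n :=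
  RingEquiv.ofBijective (s26elf1_quotMap h n) (s26elf1_quotMap_bijective h n)

theorem s26elf1_quotMap_factorPow (h : S26Elf1Coords K R d y) {m n : ℕ} (hle : m ≤ n)
    (t : MvPolynomial (Fin d) K ⧸ MvPolynomial.idealOfVars (Fin d) K ^ n) :
    Ideal.Quotient.factorPow (maximalIdeal R) hle (s26elf1_quotMap h n t) =
      s26elf1_quotMap h m (Ideal.Quotient.factorPow (MvPolynomial.idealOfVars (Fin d) K) hle t) := by
  obtain ⟨p, rfl⟩ := Ideal.Quotient.mk_surjective t
  rfl

theorem s26elf1_quotEquiv_symm_factorPow (h : S26Elf1Coords K R d y) {m n : ℕ} (hle : m ≤ n)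
    (r : R ⧸ maximalIdeal R ^ n) :
    Ideal.Quotient.factorPow (MvPolynomial.idealOfVars (Fin d) K) hle
        ((s26elf1_quotEquiv h n).symm r) =
      (s26elf1_quotEquiv h m).symm (Ideal.Quotient.factorPow (maximalIdeal R) hle r) := by
  apply (s26elf1_quotEquiv h m).injective
  rw [RingEquiv.apply_symm_apply]
  change s26elf1_quotMap h m _ = _
  rw [← s26elf1_quotMap_factorPow h hle]
  change Ideal.Quotient.factorPow (maximalIdeal R) hle
    ((s26elf1_quotEquiv h n) ((s26elf1_quotEquiv h n).symm r)) = _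
  rw [RingEquiv.apply_symm_apply]

/-- the family defining `K[Y]^ → R^`. -/
noncomputable def s26elf1_fam (h : S26Elf1Coords K R d y) (n : ℕ) :
    AdicCompletion (MvPolynomial.idealOfVars (Fin d) K) (MvPolynomial (Fin d) K) →+*
      R ⧸ maximalIdeal R ^ n :=
  (s26elf1_quotMap h n).comp (evalₐ (MvPolynomial.idealOfVars (Fin d) K) n).toRingHom

theorem s26elf1_fam_compat (h : S26Elf1Coords K R d y) {m n : ℕ} (hle : m ≤ n) :
    (Ideal.Quotient.factorPow (maximalIdeal R) hle).comp (s26elf1_fam h n) = s26elf1_fam h m := by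
  refine RingHom.ext fun x => ?_
  change Ideal.Quotient.factorPow (maximalIdeal R) hle (s26elf1_quotMap h n (evalₐ _ n x)) =
    s26elf1_quotMap h m (evalₐ _ m x)
  rw [s26elf1_quotMap_factorPow h hle, s26elf1_factorPow_evalₐ]

/-- the family defining `R^ → K[Y]^`. -/
noncomputable def s26elf1_famInv (h : S26Elf1Coords K R d y) (n : ℕ) :
    AdicCompletion (maximalIdeal R) R →+*
      MvPolynomial (Fin d) K ⧸ MvPolynomial.idealOfVars (Fin d) K ^ n :=
  (s26elf1_quotEquiv h n).symm.toRingHom.comp (evalₐ (maximalIdeal R) n).toRingHom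

theorem s26elf1_famInv_compat (h : S26Elf1Coords K R d y) {m n : ℕ} (hle : m ≤ n) :
    (Ideal.Quotient.factorPow (MvPolynomial.idealOfVars (Fin d) K) hle).comp
      (s26elf1_famInv h n) = s26elf1_famInv h m := by
  refine RingHom.ext fun x => ?_
  change Ideal.Quotient.factorPow (MvPolynomial.idealOfVars (Fin d) K) hle
      ((s26elf1_quotEquiv h n).symm (evalₐ _ n x)) =
    (s26elf1_quotEquiv h m).symm (evalₐ _ m x)
  rw [s26elf1_quotEquiv_symm_factorPow h hle, s26elf1_factorPow_evalₐ]

/-- `K[Y]^ → R^`. -/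
noncomputable def s26elf1_complHom (h : S26Elf1Coords K R d y) :
    AdicCompletion (MvPolynomial.idealOfVars (Fin d) K) (MvPolynomial (Fin d) K) →+*
      AdicCompletion (maximalIdeal R) R :=
  AdicCompletion.liftRingHom (maximalIdeal R) (s26elf1_fam h) (s26elf1_fam_compat h)

/-- `R^ → K[Y]^`. -/
noncomputable def s26elf1_complInv (h : S26Elf1Coords K R d y) :
    AdicCompletion (maximalIdeal R) R →+*
      AdicCompletion (MvPolynomial.idealOfVars (Fin d) K) (MvPolynomial (Fin d) K) :=
  AdicCompletion.liftRingHom (MvPolynomial.idealOfVars (Fin d) K) (s26elf1_famInv h)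
    (s26elf1_famInv_compat h)

theorem s26elf1_evalₐ_complHom (h : S26Elf1Coords K R d y) (n : ℕ)
    (x : AdicCompletion (MvPolynomial.idealOfVars (Fin d) K) (MvPolynomial (Fin d) K)) :
    evalₐ (maximalIdeal R) n (s26elf1_complHom h x) =
      s26elf1_quotMap h n (evalₐ (MvPolynomial.idealOfVars (Fin d) K) n x) :=
  evalₐ_liftRingHom (maximalIdeal R) (s26elf1_fam h) (s26elf1_fam_compat h) n x

theorem s26elf1_evalₐ_complInv (h : S26Elf1Coords K R d y) (n : ℕ)
    (x : AdicCompletion (maximalIdeal R) R) :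
    evalₐ (MvPolynomial.idealOfVars (Fin d) K) n (s26elf1_complInv h x) =
      (s26elf1_quotEquiv h n).symm (evalₐ (maximalIdeal R) n x) :=
  evalₐ_liftRingHom (MvPolynomial.idealOfVars (Fin d) K) (s26elf1_famInv h)
    (s26elf1_famInv_compat h) n x

/-- **`R^ ≃ K[Y]^`**. -/
noncomputable def s26elf1_complEquiv₀ (h : S26Elf1Coords K R d y) :
    AdicCompletion (maximalIdeal R) R ≃+*
      AdicCompletion (MvPolynomial.idealOfVars (Fin d) K) (MvPolynomial (Fin d) K) :=
  RingEquiv.ofRingHom (s26elf1_complInv h) (s26elf1_complHom h)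
    (RingHom.ext fun x => ext_evalₐ fun n => by
      simp only [RingHom.comp_apply, RingHom.id_apply]
      rw [s26elf1_evalₐ_complInv, s26elf1_evalₐ_complHom]
      exact (s26elf1_quotEquiv h n).symm_apply_apply _)
    (RingHom.ext fun x => ext_evalₐ fun n => by
      simp only [RingHom.comp_apply, RingHom.id_apply]
      rw [s26elf1_evalₐ_complHom, s26elf1_evalₐ_complInv]
      exact (s26elf1_quotEquiv h n).apply_symm_apply _)

/-- **The completion of `R` is the power series ring `K⟦Y₁..Y_d⟧`.** -/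
noncomputable def s26elf1_complEquiv (h : S26Elf1Coords K R d y) :
    AdicCompletion (maximalIdeal R) R ≃+* MvPowerSeries (Fin d) K :=
  (s26elf1_complEquiv₀ h).trans
    (MvPowerSeries.toAdicCompletionAlgEquiv (Fin d) K).symm.toRingEquiv

end

/-- **E-LF1**: the completion of a formally smooth noetherian local `K`-algebra with residue
field `K` is a power series ring over `K`. -/
theorem s26elf1_completion {K R : Type*} [Field K] [CommRing R] [Algebra K R] [IsLocalRing R]
    [IsNoetherianRing R] [Algebra.FormallySmooth K R]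
    (hres : ∀ r : R, ∃ c : K, r - algebraMap K R c ∈ maximalIdeal R) :
    ∃ d : ℕ, Nonempty (AdicCompletion (maximalIdeal R) R ≃+* MvPowerSeries (Fin d) K) := by
  obtain ⟨d, y, h⟩ := s26elf1_exists_coords (K := K) (R := R) hres
  exact ⟨d, ⟨s26elf1_complEquiv h⟩⟩

end Fermat.Agent.S26
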