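/-
S26-E-LF2 (helper36), part (a): COMPLETENESS.

* `s26elf2_pow_eq_J` : `𝔪_{A⟦X⟧} ^ k = {f | ∀ i < k, coeff i f ∈ 𝔪_A ^ (k - i)}`;
* `s26elf2_isAdicComplete_powerSeries` : `A` local, complete for `𝔪_A` ⇒ `A⟦X⟧` complete for its
  maximal ideal;
* `s26elf2_isAdicComplete_of_ringEquiv` : invariance under ring isomorphisms;
* `s26elf2_isAdicComplete K n` : `K⟦y₁, …, yₙ⟧` (`MvPowerSeries (Fin n) K`, `K` a field) is complete
  for its maximal ideal.
-/
import Mathlib.RingTheory.PowerSeries.WeierstrassPreparation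
import Mathlib.RingTheory.MvPowerSeries.Equiv
import Mathlib.RingTheory.AdicCompletion.LocalRing

set_option autoImplicit false
set_option linter.unusedSectionVars false
set_option linter.unusedVariables false
set_option linter.style.haveILetI false

namespace Fermat.Agent.S26

open PowerSeries IsLocalRing

section PS

variable {A : Type*} [CommRing A] [IsLocalRing A]

/-- the maximal ideal of `A⟦X⟧` -/
theorem s26elf2_mem_maximalIdeal (f : A⟦X⟧) :
    f ∈ maximalIdeal A⟦X⟧ ↔ PowerSeries.coeff 0 f ∈ maximalIdeal A := by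
  rw [IsLocalRing.mem_maximalIdeal, IsLocalRing.mem_maximalIdeal, mem_nonunits_iff,
    mem_nonunits_iff, PowerSeries.isUnit_iff_constantCoeff,
    PowerSeries.coeff_zero_eq_constantCoeff_apply]

/-- the ideal `J k = {f | ∀ i < k, coeff i f ∈ 𝔪 ^ (k - i)}` -/
def s26elf2J (A : Type*) [CommRing A] [IsLocalRing A] (k : ℕ) : Ideal A⟦X⟧ where
  carrier := {f | ∀ i, i < k → PowerSeries.coeff i f ∈ maximalIdeal A ^ (k - i)}
  add_mem' := by
    intro f g hf hg i hi
    rw [map_add]
    exact Ideal.add_mem _ (hf i hi) (hg i hi)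
  zero_mem' := by
    intro i hi
    rw [map_zero]
    exact Ideal.zero_mem _
  smul_mem' := by
    intro c f hf i hi
    rw [smul_eq_mul, PowerSeries.coeff_mul]
    refine Ideal.sum_mem _ fun p hp => ?_
    have hp1 : p.1 + p.2 = i := Finset.mem_antidiagonal.1 hp
    have h2 : p.2 < k := by omega
    have h3 : maximalIdeal A ^ (k - p.2) ≤ maximalIdeal A ^ (k - i) :=
      Ideal.pow_le_pow_right (by omega)
    exact Ideal.mul_mem_left _ _ (h3 (hf p.2 h2))

theorem s26elf2_mem_J {k : ℕ} {f : A⟦X⟧} :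
    f ∈ s26elf2J A k ↔ ∀ i, i < k → PowerSeries.coeff i f ∈ maximalIdeal A ^ (k - i) :=
  Iff.rfl

/-- `𝔪_B * J k ≤ J (k + 1)` -/
theorem s26elf2_mul_J_le (k : ℕ) :
    maximalIdeal A⟦X⟧ * s26elf2J A k ≤ s26elf2J A (k + 1) := by
  rw [Ideal.mul_le]
  intro g hg f hf i hi
  rw [s26elf2_mem_maximalIdeal] at hg
  rw [PowerSeries.coeff_mul]
  refine Ideal.sum_mem _ fun p hp => ?_
  have hp1 : p.1 + p.2 = i := Finset.mem_antidiagonal.1 hp
  by_cases h0 : p.1 = 0
  · -- `coeff 0 g ∈ 𝔪`
    rw [h0]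
    by_cases hik : p.2 < k
    · have h1 := hf p.2 hik
      have h2 : k + 1 - i = (k - p.2) + 1 := by omega
      rw [h2, pow_succ']
      exact Ideal.mul_mem_mul hg h1
    · have h2 : k + 1 - i = 1 := by omega
      rw [h2, pow_one]
      exact Ideal.mul_mem_right _ _ hg
  · have h2 : p.2 < k := by omega
    have h3 : maximalIdeal A ^ (k - p.2) ≤ maximalIdeal A ^ (k + 1 - i) :=
      Ideal.pow_le_pow_right (by omega)
    exact Ideal.mul_mem_left _ _ (h3 (hf p.2 h2))

/-- `𝔪_B ^ k ≤ J k` -/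
theorem s26elf2_pow_le_J (k : ℕ) : maximalIdeal A⟦X⟧ ^ k ≤ s26elf2J A k := by
  induction k with
  | zero =>
    intro f _ i hi
    exact absurd hi (Nat.not_lt_zero i)
  | succ k ih =>
    rw [pow_succ']
    exact (Ideal.mul_mono_right ih).trans (s26elf2_mul_J_le k)

/-- `C` maps `𝔪_A ^ j` into `𝔪_B ^ j` -/
theorem s26elf2_C_mem_pow {j : ℕ} {a : A} (ha : a ∈ maximalIdeal A ^ j) :
    PowerSeries.C a ∈ maximalIdeal A⟦X⟧ ^ j := by
  have h1 : Ideal.map (PowerSeries.C (R := A)) (maximalIdeal A) ≤ maximalIdeal A⟦X⟧ := by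
    rw [Ideal.map_le_iff_le_comap]
    intro x hx
    rw [Ideal.mem_comap, s26elf2_mem_maximalIdeal, PowerSeries.coeff_zero_C]
    exact hx
  have h2 : PowerSeries.C a ∈ Ideal.map (PowerSeries.C (R := A)) (maximalIdeal A ^ j) :=
    Ideal.mem_map_of_mem _ ha
  rw [Ideal.map_pow] at h2
  exact Ideal.pow_right_mono h1 j h2

theorem s26elf2_X_mem : (PowerSeries.X : A⟦X⟧) ∈ maximalIdeal A⟦X⟧ := by
  rw [s26elf2_mem_maximalIdeal, PowerSeries.coeff_zero_X]
  exact Ideal.zero_mem _

/-- `J k ≤ 𝔪_B ^ k` -/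
theorem s26elf2_J_le_pow (k : ℕ) : s26elf2J A k ≤ maximalIdeal A⟦X⟧ ^ k := by
  intro f hf
  rw [PowerSeries.eq_X_pow_mul_shift_add_trunc k f]
  refine Ideal.add_mem _ (Ideal.mul_mem_right _ _ (Ideal.pow_mem_pow s26elf2_X_mem k)) ?_
  rw [PowerSeries.trunc_apply]
  have hcoe : ((∑ m ∈ Finset.Ico 0 k, Polynomial.monomial m (PowerSeries.coeff m f) :
      Polynomial A) : A⟦X⟧)
      = ∑ m ∈ Finset.Ico 0 k, ((Polynomial.monomial m (PowerSeries.coeff m f) :
          Polynomial A) : A⟦X⟧) :=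
    map_sum (Polynomial.coeToPowerSeries.ringHom (R := A))
      (fun m => Polynomial.monomial m (PowerSeries.coeff m f)) (Finset.Ico 0 k)
  rw [hcoe]
  refine Ideal.sum_mem _ fun i hi => ?_
  have hik : i < k := (Finset.mem_Ico.1 hi).2
  rw [Polynomial.coe_monomial, PowerSeries.monomial_eq_C_mul_X_pow]
  have h1 := s26elf2_C_mem_pow (hf i hik)
  have h2 : (PowerSeries.X : A⟦X⟧) ^ i ∈ maximalIdeal A⟦X⟧ ^ i :=
    Ideal.pow_mem_pow s26elf2_X_mem i
  have h3 := Ideal.mul_mem_mul h1 h2
  rw [← pow_add] at h3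
  have h4 : k - i + i = k := by omega
  rw [h4] at h3
  exact h3

theorem s26elf2_pow_eq_J (k : ℕ) : maximalIdeal A⟦X⟧ ^ k = s26elf2J A k :=
  le_antisymm (s26elf2_pow_le_J k) (s26elf2_J_le_pow k)

/-- `A⟦X⟧` is Hausdorff for its maximal ideal if `A` is -/
theorem s26elf2_isHausdorff_powerSeries [IsHausdorff (maximalIdeal A) A] :
    IsHausdorff (maximalIdeal A⟦X⟧) A⟦X⟧ := by
  refine ⟨fun f hf => ?_⟩
  ext i
  rw [map_zero]
  apply IsHausdorff.haus (I := maximalIdeal A) inferInstance
  intro n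
  rw [SModEq.zero, smul_eq_mul, Ideal.mul_top]
  have h1 := hf (n + i + 1)
  rw [SModEq.zero, smul_eq_mul, Ideal.mul_top, s26elf2_pow_eq_J] at h1
  have h2 := h1 i (by omega)
  exact Ideal.pow_le_pow_right (by omega) h2

/-- `A⟦X⟧` is precomplete for its maximal ideal if `A` is -/
theorem s26elf2_isPrecomplete_powerSeries [IsPrecomplete (maximalIdeal A) A] :
    IsPrecomplete (maximalIdeal A⟦X⟧) A⟦X⟧ := by
  refine ⟨fun f hf => ?_⟩
  have hc : ∀ i, ∃ L : A, ∀ n,
      PowerSeries.coeff i (f (n + i)) ≡ L [SMOD (maximalIdeal A ^ n • ⊤ : Submodule A A)] := by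
    intro i
    apply IsPrecomplete.prec' (I := maximalIdeal A)
    intro m n hmn
    rw [SModEq.sub_mem, smul_eq_mul, Ideal.mul_top]
    have h1 := hf (show m + i ≤ n + i by omega)
    rw [SModEq.sub_mem, smul_eq_mul, Ideal.mul_top, s26elf2_pow_eq_J] at h1
    by_cases hm : m = 0
    · rw [hm, pow_zero, Ideal.one_eq_top]
      exact Submodule.mem_top
    · have h2 := h1 i (by omega)
      rw [map_sub] at h2
      have h3 : m + i - i = m := by omega
      rw [h3] at h2
      exact h2
  choose L hL using hc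
  refine ⟨PowerSeries.mk L, fun n => ?_⟩
  rw [SModEq.sub_mem, smul_eq_mul, Ideal.mul_top, s26elf2_pow_eq_J]
  intro i hi
  rw [map_sub, PowerSeries.coeff_mk]
  have h1 := hL i (n - i)
  rw [SModEq.sub_mem, smul_eq_mul, Ideal.mul_top] at h1
  have h2 : n - i + i = n := by omega
  rw [h2] at h1
  exact h1

/-- **`A⟦X⟧` is complete for its maximal ideal if `A` is.** -/
theorem s26elf2_isAdicComplete_powerSeries [IsAdicComplete (maximalIdeal A) A] :
    IsAdicComplete (maximalIdeal A⟦X⟧) A⟦X⟧ :=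
  { toIsHausdorff := s26elf2_isHausdorff_powerSeries
    toIsPrecomplete := s26elf2_isPrecomplete_powerSeries }

end PS

section Transfer

variable {A B : Type*} [CommRing A] [CommRing B] [IsLocalRing A] [IsLocalRing B]

theorem s26elf2_map_pow_maximalIdeal (e : A ≃+* B) (n : ℕ) (x : A) :
    e x ∈ maximalIdeal B ^ n ↔ x ∈ maximalIdeal A ^ n := by
  have h1 : Ideal.map (e : A →+* B) (maximalIdeal A) = maximalIdeal B := by
    apply le_antisymm
    · rw [Ideal.map_le_iff_le_comap]
      intro y hy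
      rw [Ideal.mem_comap, IsLocalRing.mem_maximalIdeal, mem_nonunits_iff] at *
      intro h
      exact hy ((isUnit_map_iff (e : A →+* B) y).1 h)
    · intro y hy
      have h2 : y = (e : A →+* B) (e.symm y) := (e.apply_symm_apply y).symm
      rw [h2]
      apply Ideal.mem_map_of_mem
      rw [IsLocalRing.mem_maximalIdeal, mem_nonunits_iff] at *
      intro h
      apply hy
      have := h.map (e : A →+* B)
      rwa [← h2] at this
  rw [← h1, ← Ideal.map_pow]
  constructor
  · intro h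
    have h2 := Ideal.mem_map_of_mem (e.symm : B →+* A) h
    rw [Ideal.map_map] at h2
    simpa using h2
  · intro h
    exact Ideal.mem_map_of_mem _ h

/-- completeness for the maximal ideal is invariant under ring isomorphisms -/
theorem s26elf2_isAdicComplete_of_ringEquiv (e : A ≃+* B) [IsAdicComplete (maximalIdeal A) A] :
    IsAdicComplete (maximalIdeal B) B := by
  refine { toIsHausdorff := ⟨fun y hy => ?_⟩, toIsPrecomplete := ⟨fun f hf => ?_⟩ }
  · have h1 : e.symm y = 0 := by
      apply IsHausdorff.haus (I := maximalIdeal A) inferInstance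
      intro n
      rw [SModEq.zero, smul_eq_mul, Ideal.mul_top]
      have h2 := hy n
      rw [SModEq.zero, smul_eq_mul, Ideal.mul_top] at h2
      rw [← s26elf2_map_pow_maximalIdeal e, e.apply_symm_apply]
      exact h2
    simpa using congrArg e h1
  · obtain ⟨L, hL⟩ := IsPrecomplete.prec' (I := maximalIdeal A) (fun n => e.symm (f n)) (by
      intro m n hmn
      rw [SModEq.sub_mem, smul_eq_mul, Ideal.mul_top]
      have h1 := hf hmn
      rw [SModEq.sub_mem, smul_eq_mul, Ideal.mul_top] at h1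
      rw [← s26elf2_map_pow_maximalIdeal e, map_sub, e.apply_symm_apply, e.apply_symm_apply]
      exact h1)
    refine ⟨e L, fun n => ?_⟩
    have h1 := hL n
    rw [SModEq.sub_mem, smul_eq_mul, Ideal.mul_top] at h1 ⊢
    rw [← s26elf2_map_pow_maximalIdeal e, map_sub, e.apply_symm_apply] at h1
    exact h1

end Transfer

section Mv

variable (K : Type*) [Field K]

/-- **`K⟦y₁, …, yₙ⟧` is complete for its maximal ideal.** -/
theorem s26elf2_isAdicComplete (n : ℕ) :
    IsAdicComplete (maximalIdeal (MvPowerSeries (Fin n) K)) (MvPowerSeries (Fin n) K) := by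
  induction n with
  | zero =>
    haveI : IsAdicComplete (maximalIdeal K) K := by
      rw [IsLocalRing.maximalIdeal_eq_bot]
      infer_instance
    exact s26elf2_isAdicComplete_of_ringEquiv
      (MvPowerSeries.isEmptyEquiv (Fin 0) K).symm.toRingEquiv
  | succ n ih =>
    haveI := ih
    haveI := s26elf2_isAdicComplete_powerSeries (A := MvPowerSeries (Fin n) K)
    exact s26elf2_isAdicComplete_of_ringEquiv
      (MvPowerSeries.finSuccEquiv K n).symm.toRingEquiv

end Mv

end Fermat.Agent.S26
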