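/-
S26-E-LF2 (helper36), part (c): WEIERSTRASS + GAUSS.

`A` a complete local domain which is a UFD.  A power series `g ∈ A⟦X⟧` which is REGULAR
(`g.map (residue A) ≠ 0`) and irreducible is PRIME.

* `s26elf2_isUnit_of_isUnit_coe` : a factor `Q` of a distinguished polynomial which is a unit of
  `A⟦X⟧` is a unit of `A[X]`;
* `s26elf2_irreducible_poly` : a distinguished polynomial, irreducible in `A⟦X⟧`, is irreducible
  in `A[X]`;
* `s26elf2_prime_of_regular` : the statement above.
-/
import Mathlib.RingTheory.PowerSeries.WeierstrassPreparation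
import Mathlib.RingTheory.Polynomial.UniqueFactorization

set_option autoImplicit false
set_option linter.unusedSectionVars false
set_option linter.unusedVariables false
set_option linter.style.haveILetI false

namespace Fermat.Agent.S26

open PowerSeries IsLocalRing Polynomial

variable {A : Type*} [CommRing A] [IsDomain A] [IsLocalRing A]

/-- a factor of a distinguished polynomial which is a unit as a power series is a unit -/
theorem s26elf2_isUnit_of_isUnit_coe {P Q R : A[X]} (hP : P.IsDistinguishedAt (maximalIdeal A))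
    (hPQR : P = Q * R) (hQ : IsUnit (Q : A⟦X⟧)) : IsUnit Q := by
  -- the constant coefficient of `Q` is a unit
  have hQ0 : IsUnit (Q.coeff 0) := by
    have h := PowerSeries.isUnit_iff_constantCoeff.1 hQ
    rwa [← PowerSeries.coeff_zero_eq_constantCoeff_apply, Polynomial.coeff_coe] at h
  -- the leading coefficient of `Q` is a unit
  have hlc : IsUnit Q.leadingCoeff := by
    have h1 : Q.leadingCoeff * R.leadingCoeff = 1 := by
      rw [← Polynomial.leadingCoeff_mul, ← hPQR]
      exact hP.monic
    exact IsUnit.of_mul_eq_one _ h1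
  -- reduce mod `𝔪`
  have hmap : Q.map (residue A) * R.map (residue A) = Polynomial.X ^ P.natDegree := by
    rw [← Polynomial.map_mul, ← hPQR]
    exact hP.map_eq_X_pow
  have hdvd : Q.map (residue A) ∣ Polynomial.X ^ P.natDegree := ⟨_, hmap.symm⟩
  obtain ⟨i, -, hi⟩ := (dvd_prime_pow Polynomial.prime_X _).1 hdvd
  have hi0 : i = 0 := by
    by_contra hne
    have h1 : (Polynomial.X : (ResidueField A)[X]) ∣ Q.map (residue A) :=
      (dvd_pow_self _ hne).trans hi.symm.dvd
    rw [Polynomial.X_dvd_iff, Polynomial.coeff_map] at h1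
    exact (residue_ne_zero_iff_isUnit _).2 hQ0 h1
  rw [hi0, pow_zero] at hi
  have hu : IsUnit (Q.map (residue A)) := (associated_one_iff_isUnit).1 hi
  have hdeg : (Q.map (residue A)).natDegree = 0 := Polynomial.natDegree_eq_zero_of_isUnit hu
  have hdeg' : Q.natDegree = 0 := by
    rw [← hdeg]
    exact (Polynomial.natDegree_map_of_leadingCoeff_ne_zero _
      ((residue_ne_zero_iff_isUnit _).2 hlc)).symm
  rw [Polynomial.eq_C_of_natDegree_eq_zero hdeg']
  rw [Polynomial.leadingCoeff, hdeg'] at hlc
  exact Polynomial.isUnit_C.2 hlc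

/-- a distinguished polynomial which is irreducible in `A⟦X⟧` is irreducible in `A[X]` -/
theorem s26elf2_irreducible_poly {P : A[X]} (hP : P.IsDistinguishedAt (maximalIdeal A))
    (hirr : Irreducible (P : A⟦X⟧)) : Irreducible P := by
  refine ⟨fun hu => hirr.not_isUnit ?_, fun Q R hQR => ?_⟩
  · exact hu.map (Polynomial.coeToPowerSeries.ringHom (R := A))
  · have h1 : (P : A⟦X⟧) = (Q : A⟦X⟧) * (R : A⟦X⟧) := by
      rw [hQR, Polynomial.coe_mul]
    rcases hirr.isUnit_or_isUnit h1 with h | h
    · exact Or.inl (s26elf2_isUnit_of_isUnit_coe hP hQR h)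
    · exact Or.inr (s26elf2_isUnit_of_isUnit_coe hP (hQR.trans (mul_comm Q R)) h)

variable [UniqueFactorizationMonoid A] [IsAdicComplete (maximalIdeal A) A]

/-- **Weierstrass + Gauss.**  Over a complete local UFD `A`, a regular irreducible power series
is prime. -/
theorem s26elf2_prime_of_regular (g : A⟦X⟧) (hg : g.map (residue A) ≠ 0)
    (hirr : Irreducible g) : Prime g := by
  obtain ⟨P, h, H⟩ := exists_isWeierstrassFactorization hg
  have hassoc : Associated (P : A⟦X⟧) g := ⟨H.isUnit.unit, H.eq_mul.symm⟩
  have hPirr : Irreducible (P : A⟦X⟧) := hassoc.symm.irreducible hirr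
  have hPpol : Irreducible P := s26elf2_irreducible_poly H.isDistinguishedAt hPirr
  have hPprime : Prime P := irreducible_iff_prime.1 hPpol
  have hP0 : P ≠ 0 := hPprime.ne_zero
  haveI hprimeI : (Ideal.span {P}).IsPrime := (Ideal.span_singleton_prime hP0).2 hPprime
  haveI : IsDomain (A[X] ⧸ Ideal.span {P}) := Ideal.Quotient.isDomain _
  haveI : IsDomain (A⟦X⟧ ⧸ Ideal.span {g}) :=
    H.algEquivQuotient.toRingEquiv.toMulEquiv.symm.isDomain _
  have hprime : (Ideal.span {g}).IsPrime := (Ideal.Quotient.isDomain_iff_prime _).1 inferInstance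
  exact (Ideal.span_singleton_prime hirr.ne_zero).1 hprime

end Fermat.Agent.S26
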