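/-
S26-E-LF2 (helper36), MAIN: `K⟦y₁, …, yₙ⟧` is a UFD.

* `s26elf2_prime_of_irreducible_succ` : an irreducible `f ∈ K⟦y₀, …, yₙ⟧` which becomes regular in
  `y₀` after an automorphism is prime, if `K⟦y₁, …, yₙ⟧` is a UFD;
* `s26elf2_ufd_of_regular` : the induction, with the regularisation as a hypothesis;
* (final theorem `s26elf2_ufd` in `ELF2Final.lean`, on helper56's `s26elf2_exists_regular`).
-/
import Fermat.Agent.S26.ELF2Poly
import Fermat.Agent.S26.ELF2Complete
import Mathlib.RingTheory.MvPowerSeries.NoZeroDivisors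
import Mathlib.RingTheory.UniqueFactorizationDomain.Basic

set_option autoImplicit false
set_option linter.unusedSectionVars false
set_option linter.unusedVariables false
set_option linter.style.haveILetI false

namespace Fermat.Agent.S26

open PowerSeries IsLocalRing

variable (K : Type*) [Field K]

theorem s26elf2_isDomain (n : ℕ) : IsDomain (MvPowerSeries (Fin n) K) :=
  NoZeroDivisors.to_isDomain _

theorem s26elf2_cons_zero (n d : ℕ) :
    (Finsupp.cons d (0 : Fin n →₀ ℕ)) = Finsupp.single (0 : Fin (n + 1)) d := by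
  ext i
  refine Fin.cases ?_ (fun j => ?_) i
  · rw [Finsupp.cons_zero, Finsupp.single_eq_same]
  · rw [Finsupp.cons_succ, Finsupp.zero_apply, Finsupp.single_eq_of_ne (Fin.succ_ne_zero j)]

/-- regularity in the sense of Weierstrass, from a non-vanishing coefficient of a pure power of
`X₀` -/
theorem s26elf2_regular_of_coeff (n : ℕ) (p : MvPowerSeries (Fin (n + 1)) K) (d : ℕ)
    (hd : MvPowerSeries.coeff (Finsupp.single 0 d) p ≠ 0) :
    (MvPowerSeries.finSuccEquiv K n p).map (residue (MvPowerSeries (Fin n) K)) ≠ 0 := by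
  intro h0
  have h1 := congrArg (PowerSeries.coeff d) h0
  rw [PowerSeries.coeff_map, map_zero, residue_eq_zero_iff, IsLocalRing.mem_maximalIdeal,
    mem_nonunits_iff, MvPowerSeries.isUnit_iff_constantCoeff, isUnit_iff_ne_zero, not_not,
    ← MvPowerSeries.coeff_zero_eq_constantCoeff_apply,
    MvPowerSeries.coeff_coeff_finSuccEquiv, s26elf2_cons_zero] at h1
  exact hd h1

/-- the step `irreducible ⇒ prime` -/
theorem s26elf2_prime_of_irreducible_succ (n : ℕ)
    [UniqueFactorizationMonoid (MvPowerSeries (Fin n) K)]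
    (f : MvPowerSeries (Fin (n + 1)) K) (hirr : Irreducible f)
    (φ : MvPowerSeries (Fin (n + 1)) K ≃+* MvPowerSeries (Fin (n + 1)) K) (d : ℕ)
    (hd : MvPowerSeries.coeff (Finsupp.single 0 d) (φ f) ≠ 0) : Prime f := by
  haveI := s26elf2_isAdicComplete K n
  haveI := s26elf2_isDomain K n
  have hg := s26elf2_regular_of_coeff K n (φ f) d hd
  have hgirr : Irreducible (MvPowerSeries.finSuccEquiv K n (φ f)) :=
    (MulEquiv.irreducible_iff
      (φ.trans (MvPowerSeries.finSuccEquiv K n).toRingEquiv).toMulEquiv).2 hirr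
  have hgprime := s26elf2_prime_of_regular _ hg hgirr
  exact (MulEquiv.prime_iff
    (φ.trans (MvPowerSeries.finSuccEquiv K n).toRingEquiv).toMulEquiv).1 hgprime

/-- **`K⟦y₁, …, yₙ⟧` is a UFD**, given the regularisation. -/
theorem s26elf2_ufd_of_regular
    (hreg : ∀ (n : ℕ) (f : MvPowerSeries (Fin (n + 1)) K), f ≠ 0 →
      ∃ φ : MvPowerSeries (Fin (n + 1)) K ≃+* MvPowerSeries (Fin (n + 1)) K,
        ∃ d : ℕ, MvPowerSeries.coeff (Finsupp.single 0 d) (φ f) ≠ 0) (n : ℕ) :
    UniqueFactorizationMonoid (MvPowerSeries (Fin n) K) := by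
  induction n with
  | zero =>
    exact MulEquiv.uniqueFactorizationMonoid
      (MvPowerSeries.isEmptyEquiv (Fin 0) K).symm.toRingEquiv.toMulEquiv inferInstance
  | succ n ih =>
    haveI := ih
    haveI := s26elf2_isDomain K (n + 1)
    haveI : WfDvdMonoid (MvPowerSeries (Fin (n + 1)) K) := IsNoetherianRing.wfDvdMonoid
    exact
      { irreducible_iff_prime := fun {a} => ⟨fun h => by
          obtain ⟨φ, d, hd⟩ := hreg n a h.ne_zero
          exact s26elf2_prime_of_irreducible_succ K n a h φ d hd, Prime.irreducible⟩ }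

end Fermat.Agent.S26
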