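/-
S26-E-LF2 (b) (helper56): REGULARISATION.  Over an infinite field `K`, every nonzero power series
`f ∈ K⟦X₀, …, Xₙ⟧` becomes regular in `X₀` (some pure power `X₀ ^ d` has a nonzero coefficient)
after a linear automorphism `X₀ ↦ c₀ X₀`, `Xᵢ ↦ Xᵢ + cᵢ X₀`.

* `s26elf2r_axis` : the restriction `g ↦ g(X, 0, …, 0)` to the `X₀`-axis;
* `s26elf2r_equiv` : the linear automorphism attached to `c` with `c 0 ≠ 0`;
* `s26elf2r_eval_hom` : the coefficient of `X₀ ^ d` in the transform of `f` is the value at `c` of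
  the homogeneous component of degree `d` of `f`;
* `s26elf2_exists_regular` : the regularisation (the hypothesis `hreg` of helper36's
  `s26elf2_ufd_of_regular`).

Mathlib only.
-/
import Mathlib.RingTheory.MvPowerSeries.Substitution
import Mathlib.RingTheory.MvPowerSeries.Equiv
import Mathlib.RingTheory.MvPowerSeries.NoZeroDivisors
import Mathlib.RingTheory.PowerSeries.Basic
import Mathlib.Algebra.MvPolynomial.Funext
import Mathlib.Algebra.Order.Antidiag.Finsupp

set_option autoImplicit false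

namespace Fermat.Agent.S26

open MvPowerSeries

/-- restriction to the `X 0`-axis: `g ↦ g(X,0,…,0)` -/
noncomputable def s26elf2r_axis (K : Type*) [Field K] (n : ℕ) :
    MvPowerSeries (Fin (n + 1)) K →+* PowerSeries K :=
  (PowerSeries.map (MvPowerSeries.constantCoeff (σ := Fin n) (R := K))).comp
    (MvPowerSeries.finSuccEquiv K n).toRingEquiv.toRingHom

theorem s26elf2r_coeff_axis (K : Type*) [Field K] (n : ℕ)
    (g : MvPowerSeries (Fin (n + 1)) K) (d : ℕ) :
    PowerSeries.coeff d (s26elf2r_axis K n g) =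
      MvPowerSeries.coeff (Finsupp.single 0 d) g := by
  unfold s26elf2r_axis
  simp only [RingHom.coe_comp, Function.comp_apply, PowerSeries.coeff_map]
  rw [← MvPowerSeries.coeff_zero_eq_constantCoeff_apply]
  erw [MvPowerSeries.coeff_coeff_finSuccEquiv]
  have h : Finsupp.cons d (0 : Fin n →₀ ℕ) = Finsupp.single 0 d := by
    ext i
    refine Fin.cases ?_ (fun j => ?_) i
    · simp
    · simp [Fin.succ_ne_zero]
  rw [h]

theorem s26elf2r_axis_X_zero (K : Type*) [Field K] (n : ℕ) :
    s26elf2r_axis K n (MvPowerSeries.X 0) = PowerSeries.X := by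
  unfold s26elf2r_axis
  simp only [RingHom.coe_comp, Function.comp_apply]
  erw [MvPowerSeries.finSuccEquiv_X_zero]
  simp

theorem s26elf2r_axis_X_succ (K : Type*) [Field K] (n : ℕ) (j : Fin n) :
    s26elf2r_axis K n (MvPowerSeries.X j.succ) = 0 := by
  unfold s26elf2r_axis
  simp only [RingHom.coe_comp, Function.comp_apply]
  erw [MvPowerSeries.finSuccEquiv_X_succ]
  simp

theorem s26elf2r_axis_C (K : Type*) [Field K] (n : ℕ) (r : K) :
    s26elf2r_axis K n (MvPowerSeries.C r) = PowerSeries.C r := by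
  unfold s26elf2r_axis
  simp only [RingHom.coe_comp, Function.comp_apply]
  erw [MvPowerSeries.finSuccEquiv_C]
  simp

/-- the linear family `X₀ ↦ c₀ X₀`, `Xᵢ ↦ Xᵢ + cᵢ X₀` -/
noncomputable def s26elf2r_fam (K : Type*) [Field K] (n : ℕ) (c : Fin (n + 1) → K) :
    Fin (n + 1) → MvPowerSeries (Fin (n + 1)) K :=
  Fin.cases (C (c 0) * X 0) (fun j => X j.succ + C (c j.succ) * X 0)

/-- the inverse linear family `X₀ ↦ c₀⁻¹ X₀`, `Xᵢ ↦ Xᵢ - cᵢ c₀⁻¹ X₀` -/
noncomputable def s26elf2r_inv (K : Type*) [Field K] (n : ℕ) (c : Fin (n + 1) → K) :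
    Fin (n + 1) → MvPowerSeries (Fin (n + 1)) K :=
  Fin.cases (C (c 0)⁻¹ * X 0) (fun j => X j.succ - C (c j.succ * (c 0)⁻¹) * X 0)

theorem s26elf2r_fam_hasSubst (K : Type*) [Field K] (n : ℕ) (c : Fin (n + 1) → K) :
    HasSubst (s26elf2r_fam K n c) := by
  refine hasSubst_of_constantCoeff_zero (fun s => ?_)
  refine Fin.cases ?_ (fun j => ?_) s
  · simp [s26elf2r_fam]
  · simp [s26elf2r_fam]

theorem s26elf2r_inv_hasSubst (K : Type*) [Field K] (n : ℕ) (c : Fin (n + 1) → K) :
    HasSubst (s26elf2r_inv K n c) := by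
  refine hasSubst_of_constantCoeff_zero (fun s => ?_)
  refine Fin.cases ?_ (fun j => ?_) s
  · simp [s26elf2r_inv]
  · simp [s26elf2r_inv]

theorem s26elf2r_inv_fam (K : Type*) [Field K] (n : ℕ) (c : Fin (n + 1) → K) (hc : c 0 ≠ 0)
    (f : MvPowerSeries (Fin (n + 1)) K) :
    subst (s26elf2r_inv K n c) (subst (s26elf2r_fam K n c) f) = f := by
  rw [subst_comp_subst_apply (s26elf2r_fam_hasSubst K n c) (s26elf2r_inv_hasSubst K n c)]
  have h : (fun s => subst (s26elf2r_inv K n c) (s26elf2r_fam K n c s)) =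
      (X : Fin (n + 1) → MvPowerSeries (Fin (n + 1)) K) := by
    funext s
    have hb := s26elf2r_inv_hasSubst K n c
    refine Fin.cases ?_ (fun j => ?_) s
    · simp only [s26elf2r_fam, Fin.cases_zero, subst_mul hb, subst_C, subst_X hb]
      simp only [s26elf2r_inv, Fin.cases_zero]
      rw [← mul_assoc, ← map_mul, mul_inv_cancel₀ hc, map_one, one_mul]
    · simp only [s26elf2r_fam, Fin.cases_succ, subst_add hb, subst_mul hb, subst_C, subst_X hb]
      simp only [s26elf2r_inv, Fin.cases_zero, Fin.cases_succ]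
      rw [map_mul]
      ring
  rw [h, subst_self]
  rfl

theorem s26elf2r_fam_inv (K : Type*) [Field K] (n : ℕ) (c : Fin (n + 1) → K) (hc : c 0 ≠ 0)
    (f : MvPowerSeries (Fin (n + 1)) K) :
    subst (s26elf2r_fam K n c) (subst (s26elf2r_inv K n c) f) = f := by
  rw [subst_comp_subst_apply (s26elf2r_inv_hasSubst K n c) (s26elf2r_fam_hasSubst K n c)]
  have h : (fun s => subst (s26elf2r_fam K n c) (s26elf2r_inv K n c s)) =
      (X : Fin (n + 1) → MvPowerSeries (Fin (n + 1)) K) := by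
    funext s
    have hb := s26elf2r_fam_hasSubst K n c
    refine Fin.cases ?_ (fun j => ?_) s
    · simp only [s26elf2r_inv, Fin.cases_zero, subst_mul hb, subst_C, subst_X hb]
      simp only [s26elf2r_fam, Fin.cases_zero]
      rw [← mul_assoc, ← map_mul, inv_mul_cancel₀ hc, map_one, one_mul]
    · simp only [s26elf2r_inv, Fin.cases_succ, subst_sub hb, subst_mul hb, subst_C, subst_X hb]
      simp only [s26elf2r_fam, Fin.cases_zero, Fin.cases_succ]
      rw [map_mul, mul_assoc (C (c j.succ)) (C (c 0)⁻¹), ← mul_assoc (C (c 0)⁻¹), ← map_mul,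
        inv_mul_cancel₀ hc, map_one, one_mul]
      ring
  rw [h, subst_self]
  rfl

/-- the automorphism `f ↦ f(c₀ X₀, X₁ + c₁ X₀, …, Xₙ + cₙ X₀)` -/
noncomputable def s26elf2r_equiv (K : Type*) [Field K] (n : ℕ) (c : Fin (n + 1) → K)
    (hc : c 0 ≠ 0) : MvPowerSeries (Fin (n + 1)) K ≃+* MvPowerSeries (Fin (n + 1)) K :=
  RingEquiv.ofRingHom
    (substAlgHom (R := K) (s26elf2r_fam_hasSubst K n c)).toRingHom
    (substAlgHom (R := K) (s26elf2r_inv_hasSubst K n c)).toRingHom
    (by
      ext f : 1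
      simp only [RingHom.coe_comp, Function.comp_apply, AlgHom.toRingHom_eq_coe, RingHom.coe_coe,
        substAlgHom_apply, RingHom.id_apply]
      exact s26elf2r_fam_inv K n c hc f)
    (by
      ext f : 1
      simp only [RingHom.coe_comp, Function.comp_apply, AlgHom.toRingHom_eq_coe, RingHom.coe_coe,
        substAlgHom_apply, RingHom.id_apply]
      exact s26elf2r_inv_fam K n c hc f)

theorem s26elf2r_equiv_apply (K : Type*) [Field K] (n : ℕ) (c : Fin (n + 1) → K)
    (hc : c 0 ≠ 0) (f : MvPowerSeries (Fin (n + 1)) K) :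
    s26elf2r_equiv K n c hc f = subst (s26elf2r_fam K n c) f := by
  simp [s26elf2r_equiv]


theorem s26elf2r_axis_fam (K : Type*) [Field K] (n : ℕ) (c : Fin (n + 1) → K)
    (s : Fin (n + 1)) :
    s26elf2r_axis K n (s26elf2r_fam K n c s) = PowerSeries.C (c s) * PowerSeries.X := by
  refine Fin.cases ?_ (fun j => ?_) s
  · simp only [s26elf2r_fam, Fin.cases_zero, map_mul, s26elf2r_axis_C, s26elf2r_axis_X_zero]
  · simp only [s26elf2r_fam, Fin.cases_succ, map_add, map_mul, s26elf2r_axis_C,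
      s26elf2r_axis_X_zero, s26elf2r_axis_X_succ, zero_add]

theorem s26elf2r_axis_prod (K : Type*) [Field K] (n : ℕ) (c : Fin (n + 1) → K)
    (α : Fin (n + 1) →₀ ℕ) :
    s26elf2r_axis K n (α.prod fun s e => (s26elf2r_fam K n c s) ^ e) =
      PowerSeries.C (α.prod fun s e => c s ^ e) * PowerSeries.X ^ (∑ i, α i) := by
  rw [Finsupp.prod, map_prod, Finsupp.prod, map_prod]
  have h1 : ∀ s ∈ α.support, s26elf2r_axis K n ((s26elf2r_fam K n c s) ^ (α s)) =
      PowerSeries.C (c s ^ α s) * PowerSeries.X ^ (α s) := by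
    intro s _
    rw [map_pow, s26elf2r_axis_fam, mul_pow, map_pow]
  rw [Finset.prod_congr rfl h1, Finset.prod_mul_distrib, Finset.prod_pow_eq_pow_sum]
  congr 2
  exact Finset.sum_subset (Finset.subset_univ _) (fun i _ hi => by simpa using hi)

theorem s26elf2r_coeff_prod (K : Type*) [Field K] (n : ℕ) (c : Fin (n + 1) → K)
    (α : Fin (n + 1) →₀ ℕ) (d : ℕ) :
    MvPowerSeries.coeff (Finsupp.single 0 d) (α.prod fun s e => (s26elf2r_fam K n c s) ^ e) =
      if ∑ i, α i = d then (α.prod fun s e => c s ^ e) else 0 := by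
  rw [← s26elf2r_coeff_axis, s26elf2r_axis_prod, PowerSeries.coeff_C_mul, PowerSeries.coeff_X_pow]
  split_ifs with h1 h2 h2
  · simp
  · exact absurd h1.symm h2
  · exact absurd h2.symm h1
  · simp

theorem s26elf2r_coeff_subst (K : Type*) [Field K] (n : ℕ) (c : Fin (n + 1) → K)
    (f : MvPowerSeries (Fin (n + 1)) K) (d : ℕ) :
    MvPowerSeries.coeff (Finsupp.single 0 d) (subst (s26elf2r_fam K n c) f) =
      ∑ α ∈ Finset.finsuppAntidiag (Finset.univ : Finset (Fin (n + 1))) d,
        MvPowerSeries.coeff α f * (α.prod fun s e => c s ^ e) := by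
  rw [coeff_subst (s26elf2r_fam_hasSubst K n c)]
  rw [finsum_eq_sum_of_support_subset (s := Finset.finsuppAntidiag Finset.univ d)]
  · refine Finset.sum_congr rfl (fun α hα => ?_)
    rw [s26elf2r_coeff_prod, smul_eq_mul]
    rw [Finset.mem_finsuppAntidiag] at hα
    rw [if_pos hα.1]
  · intro α hα
    rw [Function.mem_support, s26elf2r_coeff_prod] at hα
    rw [Finset.mem_coe, Finset.mem_finsuppAntidiag]
    refine ⟨?_, Finset.subset_univ _⟩
    by_contra h
    rw [if_neg h, smul_zero] at hα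
    exact hα rfl

/-- the homogeneous component of degree `d` of `f`, as a polynomial -/
noncomputable def s26elf2r_hom (K : Type*) [Field K] (n : ℕ)
    (f : MvPowerSeries (Fin (n + 1)) K) (d : ℕ) : MvPolynomial (Fin (n + 1)) K :=
  ∑ α ∈ Finset.finsuppAntidiag (Finset.univ : Finset (Fin (n + 1))) d,
    MvPolynomial.monomial α (MvPowerSeries.coeff α f)

theorem s26elf2r_eval_hom (K : Type*) [Field K] (n : ℕ) (c : Fin (n + 1) → K)
    (f : MvPowerSeries (Fin (n + 1)) K) (d : ℕ) :
    MvPolynomial.eval c (s26elf2r_hom K n f d) =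
      MvPowerSeries.coeff (Finsupp.single 0 d) (subst (s26elf2r_fam K n c) f) := by
  rw [s26elf2r_coeff_subst, s26elf2r_hom, map_sum]
  refine Finset.sum_congr rfl (fun α _ => ?_)
  rw [MvPolynomial.eval_monomial]

theorem s26elf2r_hom_ne_zero (K : Type*) [Field K] (n : ℕ)
    (f : MvPowerSeries (Fin (n + 1)) K) (α₀ : Fin (n + 1) →₀ ℕ)
    (h : MvPowerSeries.coeff α₀ f ≠ 0) :
    s26elf2r_hom K n f (∑ i, α₀ i) ≠ 0 := by
  classical
  intro h0
  have h1 := congrArg (MvPolynomial.coeff α₀) h0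
  rw [s26elf2r_hom, MvPolynomial.coeff_sum] at h1
  simp only [MvPolynomial.coeff_monomial, MvPolynomial.coeff_zero] at h1
  rw [Finset.sum_ite_eq'] at h1
  rw [if_pos (by rw [Finset.mem_finsuppAntidiag]; exact ⟨rfl, Finset.subset_univ _⟩)] at h1
  exact h h1

/-- **Regularisation**: over an infinite field, every nonzero power series in `n + 1` variables
becomes regular in `X₀` after a linear automorphism. -/
theorem s26elf2_exists_regular (K : Type*) [Field K] [Infinite K] (n : ℕ)
    (f : MvPowerSeries (Fin (n + 1)) K) (hf : f ≠ 0) :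
    ∃ φ : MvPowerSeries (Fin (n + 1)) K ≃+* MvPowerSeries (Fin (n + 1)) K,
      ∃ d : ℕ, MvPowerSeries.coeff (Finsupp.single 0 d) (φ f) ≠ 0 := by
  obtain ⟨α₀, hα₀⟩ : ∃ α₀, MvPowerSeries.coeff α₀ f ≠ 0 := by
    by_contra h
    simp only [not_exists, not_not] at h
    exact hf (MvPowerSeries.ext (fun α => by rw [h α, map_zero]))
  have hP := s26elf2r_hom_ne_zero K n f α₀ hα₀
  set d := ∑ i, α₀ i with hd
  have hQ : (MvPolynomial.X 0 : MvPolynomial (Fin (n + 1)) K) * s26elf2r_hom K n f d ≠ 0 :=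
    mul_ne_zero (MvPolynomial.X_ne_zero 0) hP
  obtain ⟨c, hc⟩ : ∃ c : Fin (n + 1) → K,
      MvPolynomial.eval c ((MvPolynomial.X 0 : MvPolynomial (Fin (n + 1)) K) *
        s26elf2r_hom K n f d) ≠ 0 := by
    by_contra h
    simp only [not_exists, not_not] at h
    exact hQ (MvPolynomial.funext (fun x => by rw [h x, map_zero]))
  rw [map_mul, MvPolynomial.eval_X] at hc
  have hc0 : c 0 ≠ 0 := left_ne_zero_of_mul hc
  have hcP := right_ne_zero_of_mul hc
  refine ⟨s26elf2r_equiv K n c hc0, d, ?_⟩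
  rw [s26elf2r_equiv_apply, ← s26elf2r_eval_hom]
  exact hcP

end Fermat.Agent.S26
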