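/-
S26-E-LF2, FINAL (helper36 + helper56): **`K⟦y₁, …, yₙ⟧` is a UFD** (`K` an infinite field).

`s26elf2_ufd K n : UniqueFactorizationMonoid (MvPowerSeries (Fin n) K)`
from `s26elf2_ufd_of_regular` (`ELF2.lean`: completeness + Weierstrass + Gauss + induction) and
helper56's regularisation `s26elf2_exists_regular` (`ELF2Reg.lean`).
-/
import Fermat.Agent.S26.ELF2
import Fermat.Agent.S26.ELF2Reg
import Mathlib.FieldTheory.IsAlgClosed.Basic

set_option autoImplicit false

namespace Fermat.Agent.S26

variable (K : Type*) [Field K]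

/-- **`K⟦y₁, …, yₙ⟧` is a UFD** (`K` an infinite field). -/
theorem s26elf2_ufd [Infinite K] (n : ℕ) :
    UniqueFactorizationMonoid (MvPowerSeries (Fin n) K) :=
  s26elf2_ufd_of_regular K (fun n f hf => s26elf2_exists_regular K n f hf) n

/-- the same for an algebraically closed field -/
theorem s26elf2_ufd_of_isAlgClosed [IsAlgClosed K] (n : ℕ) :
    UniqueFactorizationMonoid (MvPowerSeries (Fin n) K) :=
  haveI : Infinite K := IsAlgClosed.instInfinite
  s26elf2_ufd K n

end Fermat.Agent.S26
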