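/-
S26-E-LF3b (helper8; independent twin of helper25's S26/ELF3.lean, WITHOUT noetherian hypothesis,
plus the completion corollary): FAITHFULLY FLAT DESCENT OF UNIQUE FACTORISATION (Mori's theorem,
in the form needed for `O_{A,a} → Ô_{A,a} ≅ K[[y₁..y_g]]`).

`R → S` a faithfully flat ring map, `R` a domain, `S` a LOCAL unique factorisation domain.
Then `R` is a unique factorisation domain.  (No noetherian hypothesis on `R`.)

* `s26elf3_dvd_of_map_dvd`   : divisibility descends (`f a ∣ f b → a ∣ b`).
* `s26elf3_isUnit_of_map`    : units descend.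
* `s26elf3_wfDvdMonoid`      : `WfDvdMonoid S → WfDvdMonoid R`.
* `s26elf3_colon`            : equational flatness: `f a ∣ s * f b` ⇒ `s = Σ f (α j) * y j`
                               with `a ∣ α j * b`.
* `s26elf3_exists_colon_gen` : the colon ideal `(a : b)` of `R` is principal.
* `s26elf3_exists_lcm`       : least common multiples exist in `R`.
* `s26elf3_ufm`              : `UniqueFactorizationMonoid R`.
* `s26elf3_ufm_of_equiv`     : the same with `S ≃+* S'`, `S'` the UFD (e.g. a power series ring).
* `s26elf3_ufm_of_flat_local` : the same for a FLAT LOCAL homomorphism of local rings.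
* `s26elf3_ufm_of_completion`: `R` noetherian local domain whose `𝔪`-adic completion is
                               isomorphic to a UFD `S'` (e.g. `K[[y₁..y_g]]`) is a UFD.
* `s26elf3_exists_prime_gen` : every height-one-like prime: a nonzero prime ideal of `R` which
                               is minimal among nonzero primes is principal (Kaplansky form:
                               every nonzero prime contains a prime element).
-/
import Mathlib.RingTheory.Flat.EquationalCriterion
import Mathlib.RingTheory.Flat.FaithfullyFlat.Algebra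
import Mathlib.RingTheory.UniqueFactorizationDomain.GCDMonoid
import Mathlib.RingTheory.UniqueFactorizationDomain.Ideal
import Mathlib.RingTheory.LocalRing.Basic
import Mathlib.RingTheory.LocalRing.MaximalIdeal.Basic
import Mathlib.RingTheory.AdicCompletion.AsTensorProduct
import Mathlib.RingTheory.AdicCompletion.LocalRing

set_option autoImplicit false
set_option linter.unusedSectionVars false
set_option linter.style.haveILetI false

namespace Fermat.Agent.S26

open Module

variable {R S : Type*} [CommRing R] [CommRing S] [Algebra R S]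

/-- Divisibility descends along a faithfully flat map. -/
theorem s26elf3_dvd_of_map_dvd [Module.FaithfullyFlat R S] {a b : R}
    (h : algebraMap R S a ∣ algebraMap R S b) : a ∣ b := by
  have hb : b ∈ (Ideal.span {a} : Ideal R) := by
    rw [← Ideal.comap_map_eq_self_of_faithfullyFlat (B := S) (Ideal.span {a}),
      Ideal.mem_comap, Ideal.map_span, Set.image_singleton]
    exact Ideal.mem_span_singleton.2 h
  exact Ideal.mem_span_singleton.1 hb

/-- Units descend along a faithfully flat map. -/
theorem s26elf3_isUnit_of_map [Module.FaithfullyFlat R S] {x : R}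
    (h : IsUnit (algebraMap R S x)) : IsUnit x := by
  have h1 : algebraMap R S x ∣ algebraMap R S 1 := h.dvd
  exact isUnit_of_dvd_one (s26elf3_dvd_of_map_dvd (S := S) h1)

/-- A faithfully flat map is injective. -/
theorem s26elf3_injective [Module.FaithfullyFlat R S] :
    Function.Injective (algebraMap R S) :=
  FaithfulSMul.algebraMap_injective R S

/-- Well-foundedness of strict divisibility descends along a faithfully flat map of domains. -/
theorem s26elf3_wfDvdMonoid [Module.FaithfullyFlat R S] [IsDomain R] [IsDomain S]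
    [WfDvdMonoid S] : WfDvdMonoid R := by
  refine ⟨Subrelation.wf (r := InvImage (DvdNotUnit : S → S → Prop) (algebraMap R S)) ?_
    (InvImage.wf _ wellFounded_dvdNotUnit)⟩
  rintro a b ⟨ha, x, hx, rfl⟩
  refine ⟨fun h0 => ha (s26elf3_injective (S := S) (by rw [h0, map_zero])),
    algebraMap R S x, fun hu => hx (s26elf3_isUnit_of_map hu), by rw [map_mul]⟩

/-- Equational criterion of flatness for the relation `s * f b = f a * t`. -/
theorem s26elf3_colon [Module.Flat R S] {a b : R} {s : S}
    (h : algebraMap R S a ∣ s * algebraMap R S b) :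
    ∃ (k : ℕ) (α : Fin k → R) (y : Fin k → S),
      (∀ j, a ∣ α j * b) ∧ s = ∑ j, algebraMap R S (α j) * y j := by
  obtain ⟨t, ht⟩ := h
  have hrel : ∑ i : Fin 2, (![b, -a] i) • (![s, t] i) = 0 := by
    simp only [Fin.sum_univ_two, Matrix.cons_val_zero, Matrix.cons_val_one,
      Algebra.smul_def, map_neg]
    linear_combination ht
  obtain ⟨k, α, y, hx, hα⟩ := Module.Flat.isTrivialRelation_of_sum_smul_eq_zero hrel
  refine ⟨k, α 0, y, fun j => ?_, ?_⟩
  · have := hα j
    simp only [Fin.sum_univ_two, Matrix.cons_val_zero, Matrix.cons_val_one] at this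
    exact ⟨α 1 j, by linear_combination this⟩
  · have := hx 0
    simp only [Matrix.cons_val_zero, Algebra.smul_def] at this
    exact this

/-- In a local ring, a finite sum equal to `1` has a unit summand. -/
theorem s26elf3_exists_isUnit_of_sum_eq_one [IsLocalRing S] {k : ℕ} (z : Fin k → S)
    (h : ∑ j, z j = 1) : ∃ j, IsUnit (z j) := by
  by_contra hno
  have hno' : ∀ j, ¬ IsUnit (z j) := fun j hj => hno ⟨j, hj⟩
  have hmem : ∑ j, z j ∈ IsLocalRing.maximalIdeal S :=
    sum_mem fun j _ => (IsLocalRing.mem_maximalIdeal _).2 (hno' j)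
  rw [h] at hmem
  exact (IsLocalRing.mem_maximalIdeal _).1 hmem isUnit_one

/-- **Colon ideals are principal.**  `R → S` faithfully flat, `S` a local UFD, `a ≠ 0`:
there is `x` with `a ∣ x * b` such that `a ∣ r * b ↔ x ∣ r`. -/
theorem s26elf3_exists_colon_gen [Module.FaithfullyFlat R S] [IsDomain S] [IsLocalRing S]
    [UniqueFactorizationMonoid S] {a : R} (ha : a ≠ 0) (b : R) :
    ∃ x : R, ∀ r : R, a ∣ r * b ↔ x ∣ r := by
  classical
  letI : GCDMonoid S := UniqueFactorizationMonoid.toGCDMonoid S
  set f := algebraMap R S with hf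
  have hfa : f a ≠ 0 := fun h0 => ha (s26elf3_injective (S := S) (by rw [h0, map_zero]))
  obtain ⟨a', b', ha', hb', hu⟩ := extract_gcd (f a) (f b)
  have ha'0 : a' ≠ 0 := by
    rintro rfl
    exact hfa (by rw [ha', mul_zero])
  have hg0 : gcd (f a) (f b) ≠ 0 := by
    intro h0
    exact hfa (by rw [ha', h0, zero_mul])
  -- the colon ideal of `S` is `(a')`
  have hcolon : ∀ s : S, f a ∣ s * f b ↔ a' ∣ s := by
    intro s
    constructor
    · intro h
      have h1 : gcd (f a) (f b) * a' ∣ gcd (f a) (f b) * (s * b') := by
        have : s * f b = gcd (f a) (f b) * (s * b') := by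
          conv_lhs => rw [hb']
          ring
        rw [← this, ← ha']
        exact h
      have h2 : a' ∣ s * b' := (mul_dvd_mul_iff_left hg0).1 h1
      have h3 : a' ∣ s * gcd a' b' := dvd_mul_gcd_of_dvd_mul h2
      exact (IsUnit.dvd_mul_right hu).1 h3
    · rintro ⟨t, rfl⟩
      refine ⟨b' * t, ?_⟩
      conv_lhs => rw [hb']
      conv_rhs => rw [ha']
      ring
  -- `a'` lies in the extension of the colon ideal of `R`
  obtain ⟨k, α, y, hα, hsum⟩ := s26elf3_colon (R := R) (S := S) (a := a) (b := b) (s := a')
    ((hcolon a').2 dvd_rfl)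
  have hαS : ∀ j, a' ∣ f (α j) := fun j => (hcolon _).1 (by
    rw [← map_mul]
    exact map_dvd f (hα j))
  choose t ht using hαS
  have hone : ∑ j, t j * y j = 1 := by
    have h1 : a' * ∑ j, t j * y j = a' * 1 := by
      rw [mul_one, Finset.mul_sum]
      conv_rhs => rw [hsum]
      refine Finset.sum_congr rfl fun j _ => ?_
      rw [ht j]
      ring
    exact mul_left_cancel₀ ha'0 h1
  obtain ⟨j, hj⟩ := s26elf3_exists_isUnit_of_sum_eq_one _ hone
  have htj : IsUnit (t j) := isUnit_of_mul_isUnit_left hj
  refine ⟨α j, fun r => ⟨fun h => ?_, fun h => ?_⟩⟩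
  · have h1 : a' ∣ f r := (hcolon _).1 (by
      rw [← map_mul]
      exact map_dvd f h)
    have h2 : f (α j) ∣ f r := by
      rw [ht j]
      exact (IsUnit.mul_right_dvd htj).2 h1
    exact s26elf3_dvd_of_map_dvd (S := S) h2
  · obtain ⟨c, rfl⟩ := h
    obtain ⟨d, hd⟩ := hα j
    exact ⟨d * c, by rw [mul_right_comm, hd]; ring⟩

/-- **Least common multiples exist.** -/
theorem s26elf3_exists_lcm [Module.FaithfullyFlat R S] [IsDomain R] [IsDomain S] [IsLocalRing S]
    [UniqueFactorizationMonoid S] (a b : R) :
    ∃ c : R, ∀ d : R, a ∣ d ∧ b ∣ d ↔ c ∣ d := by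
  by_cases ha : a = 0
  · subst ha
    refine ⟨0, fun d => ⟨fun h => h.1, fun h => ⟨h, ?_⟩⟩⟩
    rw [zero_dvd_iff] at h
    rw [h]
    exact dvd_zero b
  obtain ⟨x, hx⟩ := s26elf3_exists_colon_gen (S := S) ha b
  refine ⟨x * b, fun d => ⟨?_, fun h => ⟨?_, ?_⟩⟩⟩
  · rintro ⟨had, r, rfl⟩
    rw [mul_comm b r] at had ⊢
    exact mul_dvd_mul_right ((hx r).1 had) b
  · exact ((hx x).2 dvd_rfl).trans h
  · exact (Dvd.intro_left x rfl).trans h

/-- **Mori's descent.**  `R → S` faithfully flat, `R` a domain, `S` a local UFD: `R` is a UFD. -/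
theorem s26elf3_ufm [Module.FaithfullyFlat R S] [IsDomain R] [IsDomain S] [IsLocalRing S]
    [UniqueFactorizationMonoid S] : UniqueFactorizationMonoid R := by
  classical
  haveI : WfDvdMonoid R := s26elf3_wfDvdMonoid (S := S)
  letI : GCDMonoid R := gcdMonoidOfExistsLCM (s26elf3_exists_lcm (S := S))
  exact ufm_of_decomposition_of_wfDvdMonoid

/-- Mori's descent, with the UFD given up to a ring isomorphism (e.g. `S` the completion and
`S'` a power series ring). -/
theorem s26elf3_ufm_of_equiv {S' : Type*} [CommRing S'] [IsDomain S']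
    [UniqueFactorizationMonoid S'] [Module.FaithfullyFlat R S] [IsDomain R] [IsLocalRing S]
    (e : S ≃+* S') : UniqueFactorizationMonoid R := by
  haveI : IsDomain S := e.toMulEquiv.isDomain S'
  haveI : UniqueFactorizationMonoid S := e.symm.toMulEquiv.uniqueFactorizationMonoid inferInstance
  exact s26elf3_ufm (S := S)

/-- Mori's descent for a flat local homomorphism of local rings. -/
theorem s26elf3_ufm_of_flat_local [IsLocalRing R] [IsLocalRing S] [Module.Flat R S]
    [IsLocalHom (algebraMap R S)] [IsDomain R] [IsDomain S] [UniqueFactorizationMonoid S] :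
    UniqueFactorizationMonoid R := by
  haveI : Module.FaithfullyFlat R S := Module.FaithfullyFlat.of_flat_of_isLocalHom
  exact s26elf3_ufm (S := S)

/-- **Descent from the completion.**  A noetherian local domain whose `𝔪`-adic completion is
(isomorphic to) a unique factorisation domain is a unique factorisation domain. -/
theorem s26elf3_ufm_of_completion {S' : Type*} [CommRing S'] [IsDomain S']
    [UniqueFactorizationMonoid S'] [IsDomain R] [IsNoetherianRing R] [IsLocalRing R]
    (e : AdicCompletion (IsLocalRing.maximalIdeal R) R ≃+* S') :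
    UniqueFactorizationMonoid R := by
  haveI : Module.FaithfullyFlat R (AdicCompletion (IsLocalRing.maximalIdeal R) R) :=
    Module.FaithfullyFlat.of_flat_of_isLocalHom
  exact s26elf3_ufm_of_equiv (S := AdicCompletion (IsLocalRing.maximalIdeal R) R) e

/-- Kaplansky form: every nonzero prime ideal of `R` contains a prime element. -/
theorem s26elf3_exists_prime_mem [Module.FaithfullyFlat R S] [IsDomain R] [IsDomain S]
    [IsLocalRing S] [UniqueFactorizationMonoid S] (P : Ideal R) [P.IsPrime] (hP : P ≠ ⊥) :
    ∃ x ∈ P, Prime x := by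
  haveI : UniqueFactorizationMonoid R := s26elf3_ufm (S := S)
  exact Ideal.IsPrime.exists_mem_prime_of_ne_bot inferInstance hP

/-- A nonzero prime ideal `P` of `R` that contains no smaller nonzero prime (a height-one prime)
is principal, generated by a prime element. -/
theorem s26elf3_exists_prime_gen [Module.FaithfullyFlat R S] [IsDomain R] [IsDomain S]
    [IsLocalRing S] [UniqueFactorizationMonoid S] (P : Ideal R) [P.IsPrime] (hP : P ≠ ⊥)
    (hmin : ∀ Q : Ideal R, Q.IsPrime → Q ≠ ⊥ → Q ≤ P → Q = P) :
    ∃ x : R, Prime x ∧ P = Ideal.span {x} := by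
  obtain ⟨x, hxP, hx⟩ := s26elf3_exists_prime_mem (S := S) P hP
  refine ⟨x, hx, ?_⟩
  have hQ : (Ideal.span {x} : Ideal R).IsPrime := (Ideal.span_singleton_prime hx.ne_zero).2 hx
  have hne : (Ideal.span {x} : Ideal R) ≠ ⊥ := by
    rw [Ne, Ideal.span_singleton_eq_bot]
    exact hx.ne_zero
  exact (hmin _ hQ hne ((Ideal.span_singleton_le_iff_mem P).2 hxP)).symm

end Fermat.Agent.S26
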