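/-
S26-E-LF1 (helper21), part 4: THE EMBEDDING `ι : R ↪ K⟦Y⟧` AND LOCAL FACTORIALITY.  Mathlib +
S26/ELF2Final (helper36, helper56: `K⟦Y⟧` is a UFD) + S26/ELF3b (helper8: descent from the
completion).

`R` a local `K`-algebra with coordinates `y` (`S26Elf1Coords K R d y`).
* `s26elf1_iota h : R →+* MvPowerSeries (Fin d) K`, `ι (aeval y p) = p` for polynomials `p`
  (so `ι (y i) = X i`, `ι c = C c`), `ι` injective if `R` is noetherian;
* `s26elf1_embedding` : existence statement;
* `s26elf1_ufd` : **a formally smooth noetherian local `K`-domain with residue field `K`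
  (`K` infinite) is a unique factorisation domain.**
-/
import Fermat.Agent.S26.ELF1Compl
import Fermat.Agent.S26.ELF2Final
import Fermat.Agent.S26.ELF3b
import Mathlib.RingTheory.AdicCompletion.Noetherian

set_option autoImplicit false

namespace Fermat.Agent.S26

open IsLocalRing AdicCompletion

section

variable {K R : Type*} [Field K] [CommRing R] [Algebra K R] [IsLocalRing R]
variable {d : ℕ} {y : Fin d → R}

/-- the embedding `ι : R → K⟦Y₁..Y_d⟧` attached to coordinates. -/
noncomputable def s26elf1_iota (h : S26Elf1Coords K R d y) : R →+* MvPowerSeries (Fin d) K :=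
  (s26elf1_complEquiv h).toRingHom.comp (algebraMap R (AdicCompletion (maximalIdeal R) R))

theorem s26elf1_complEquiv₀_of_aeval (h : S26Elf1Coords K R d y) (p : MvPolynomial (Fin d) K) :
    s26elf1_complEquiv₀ h (of (maximalIdeal R) R (MvPolynomial.aeval y p)) =
      of (MvPolynomial.idealOfVars (Fin d) K) (MvPolynomial (Fin d) K) p := by
  refine ext_evalₐ fun n => ?_
  change evalₐ _ n (s26elf1_complInv h _) = _
  rw [s26elf1_evalₐ_complInv, evalₐ_of, evalₐ_of]
  apply (s26elf1_quotEquiv h n).injective
  rw [RingEquiv.apply_symm_apply]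
  rfl

/-- `ι (α p) = p` for every polynomial `p`. -/
theorem s26elf1_iota_aeval (h : S26Elf1Coords K R d y) (p : MvPolynomial (Fin d) K) :
    s26elf1_iota h (MvPolynomial.aeval y p) = (p : MvPowerSeries (Fin d) K) := by
  change (MvPowerSeries.toAdicCompletionAlgEquiv (Fin d) K).symm
    (s26elf1_complEquiv₀ h (of (maximalIdeal R) R (MvPolynomial.aeval y p))) = _
  rw [s26elf1_complEquiv₀_of_aeval, AlgEquiv.symm_apply_eq,
    MvPowerSeries.toAdicCompletionAlgEquiv_apply, MvPowerSeries.toAdicCompletion_coe]

theorem s26elf1_iota_y (h : S26Elf1Coords K R d y) (i : Fin d) :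
    s26elf1_iota h (y i) = MvPowerSeries.X i := by
  have := s26elf1_iota_aeval h (MvPolynomial.X i)
  rwa [MvPolynomial.aeval_X, MvPolynomial.coe_X] at this

theorem s26elf1_iota_algebraMap (h : S26Elf1Coords K R d y) (c : K) :
    s26elf1_iota h (algebraMap K R c) = MvPowerSeries.C c := by
  have := s26elf1_iota_aeval h (MvPolynomial.C c)
  rwa [MvPolynomial.aeval_C, MvPolynomial.coe_C] at this

theorem s26elf1_iota_injective [IsNoetherianRing R] (h : S26Elf1Coords K R d y) :
    Function.Injective (s26elf1_iota h) := by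
  have h1 : Function.Injective (of (maximalIdeal R) R) :=
    AdicCompletion.of_injective (maximalIdeal R) R
  exact (s26elf1_complEquiv h).injective.comp h1

end

variable {K R : Type*} [Field K] [CommRing R] [Algebra K R] [IsLocalRing R]
  [IsNoetherianRing R] [Algebra.FormallySmooth K R]

/-- **E-LF1, embedding form**: coordinates `y` and an injective ring map `ι : R → K⟦Y⟧` with
`ι (y i) = X i`, `ι c = C c`. -/
theorem s26elf1_embedding (hres : ∀ r : R, ∃ c : K, r - algebraMap K R c ∈ maximalIdeal R) :
    ∃ (d : ℕ) (y : Fin d → R) (ι : R →+* MvPowerSeries (Fin d) K), S26Elf1Coords K R d y ∧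
      Function.Injective ι ∧ (∀ i, ι (y i) = MvPowerSeries.X i) ∧
      (∀ c : K, ι (algebraMap K R c) = MvPowerSeries.C c) ∧
      ∀ p : MvPolynomial (Fin d) K, ι (MvPolynomial.aeval y p) = (p : MvPowerSeries (Fin d) K) := by
  obtain ⟨d, y, h⟩ := s26elf1_exists_coords (K := K) (R := R) hres
  exact ⟨d, y, s26elf1_iota h, h, s26elf1_iota_injective h, s26elf1_iota_y h,
    s26elf1_iota_algebraMap h, s26elf1_iota_aeval h⟩

/-- **(LF), algebraic form**: a formally smooth noetherian local `K`-domain with residue field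
`K` (`K` infinite) is a unique factorisation domain. -/
theorem s26elf1_ufd [Infinite K] [IsDomain R]
    (hres : ∀ r : R, ∃ c : K, r - algebraMap K R c ∈ maximalIdeal R) :
    UniqueFactorizationMonoid R := by
  obtain ⟨d, ⟨e⟩⟩ := s26elf1_completion (K := K) (R := R) hres
  have hufd : UniqueFactorizationMonoid (MvPowerSeries (Fin d) K) := s26elf2_ufd K d
  have hdom : IsDomain (MvPowerSeries (Fin d) K) := NoZeroDivisors.to_isDomain _
  exact s26elf3_ufm_of_completion e

end Fermat.Agent.S26
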