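/-
S26-E-LF1 (helper21), part 5: the embedding `ι` as a `K`-ALGEBRA homomorphism.

* `s26elf1_iotaAlg h : R →ₐ[K] MvPowerSeries (Fin d) K` with underlying ring map `s26elf1_iota h`;
* `s26elf1_embeddingAlg` : existence statement (`ι` injective, `ι (y i) = X i`).
-/
import Fermat.Agent.S26.ELF1Final

set_option autoImplicit false

namespace Fermat.Agent.S26

open IsLocalRing

section

variable {K R : Type*} [Field K] [CommRing R] [Algebra K R] [IsLocalRing R]
variable {d : ℕ} {y : Fin d → R}

/-- the embedding `ι : R → K⟦Y₁..Y_d⟧` as a `K`-algebra map. -/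
noncomputable def s26elf1_iotaAlg (h : S26Elf1Coords K R d y) : R →ₐ[K] MvPowerSeries (Fin d) K :=
  { s26elf1_iota h with
    commutes' := fun c => by
      rw [MvPowerSeries.algebraMap_apply, Algebra.algebraMap_self, RingHom.id_apply]
      exact s26elf1_iota_algebraMap h c }

theorem s26elf1_iotaAlg_apply (h : S26Elf1Coords K R d y) (r : R) :
    s26elf1_iotaAlg h r = s26elf1_iota h r := rfl

theorem s26elf1_iotaAlg_y (h : S26Elf1Coords K R d y) (i : Fin d) :
    s26elf1_iotaAlg h (y i) = MvPowerSeries.X i := s26elf1_iota_y h i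

theorem s26elf1_iotaAlg_aeval (h : S26Elf1Coords K R d y) (p : MvPolynomial (Fin d) K) :
    s26elf1_iotaAlg h (MvPolynomial.aeval y p) = (p : MvPowerSeries (Fin d) K) :=
  s26elf1_iota_aeval h p

theorem s26elf1_iotaAlg_injective [IsNoetherianRing R] (h : S26Elf1Coords K R d y) :
    Function.Injective (s26elf1_iotaAlg h) := s26elf1_iota_injective h

/-- `ι` is a local homomorphism. -/
theorem s26elf1_iotaAlg_isLocalHom (h : S26Elf1Coords K R d y) :
    IsLocalHom (s26elf1_iotaAlg h) := by
  constructor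
  intro r hr
  by_contra hnu
  have hr𝔪 : r ∈ maximalIdeal R := (mem_maximalIdeal r).2 hnu
  rw [← h.span] at hr𝔪
  -- `ι r` lies in the ideal generated by the `X i`, so its constant coefficient vanishes
  have hmem : s26elf1_iotaAlg h r ∈
      Ideal.span (Set.range (MvPowerSeries.X : Fin d → MvPowerSeries (Fin d) K)) := by
    have h1 : (s26elf1_iotaAlg h : R →+* MvPowerSeries (Fin d) K) r ∈
        Ideal.map (s26elf1_iotaAlg h : R →+* MvPowerSeries (Fin d) K)
          (Ideal.span (Set.range y)) := Ideal.mem_map_of_mem _ hr𝔪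
    rw [Ideal.map_span] at h1
    refine Ideal.span_mono ?_ h1
    rintro _ ⟨_, ⟨i, rfl⟩, rfl⟩
    exact ⟨i, (s26elf1_iotaAlg_y h i).symm⟩
  have hker : Ideal.span (Set.range (MvPowerSeries.X : Fin d → MvPowerSeries (Fin d) K)) ≤
      RingHom.ker (MvPowerSeries.constantCoeff (σ := Fin d) (R := K)) := by
    rw [Ideal.span_le]
    rintro _ ⟨i, rfl⟩
    simp [RingHom.mem_ker]
  have h0 : MvPowerSeries.constantCoeff (s26elf1_iotaAlg h r) = 0 := hker hmem
  rw [MvPowerSeries.isUnit_iff_constantCoeff, h0] at hr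
  exact not_isUnit_zero hr

end

variable {K R : Type*} [Field K] [CommRing R] [Algebra K R] [IsLocalRing R]
  [IsNoetherianRing R] [Algebra.FormallySmooth K R]

/-- **E-LF1, embedding form over `K`**: coordinates `y` and an injective local `K`-algebra map
`ι : R → K⟦Y⟧` with `ι (y i) = X i`. -/
theorem s26elf1_embeddingAlg (hres : ∀ r : R, ∃ c : K, r - algebraMap K R c ∈ maximalIdeal R) :
    ∃ (d : ℕ) (y : Fin d → R) (ι : R →ₐ[K] MvPowerSeries (Fin d) K), S26Elf1Coords K R d y ∧
      Function.Injective ι ∧ IsLocalHom ι ∧ (∀ i, ι (y i) = MvPowerSeries.X i) ∧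
      ∀ p : MvPolynomial (Fin d) K, ι (MvPolynomial.aeval y p) = (p : MvPowerSeries (Fin d) K) := by
  obtain ⟨d, y, h⟩ := s26elf1_exists_coords (K := K) (R := R) hres
  exact ⟨d, y, s26elf1_iotaAlg h, h, s26elf1_iotaAlg_injective h,
    s26elf1_iotaAlg_isLocalHom h, s26elf1_iotaAlg_y h, s26elf1_iotaAlg_aeval h⟩

end Fermat.Agent.S26
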