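/-
S26, piece A2-N (helper91, for helper39's A2): NORMALITY, pure commutative algebra (Mathlib only).

* `s26a2n_etale`  (N1): `P` an integrally closed domain, `T` a domain, étale over `P`
                        ⇒ `T` is integrally closed;
* `s26a2n_smooth` (N2): `S` a domain, smooth over a field `K` ⇒ `S` is integrally closed.

Proof of (N1): `Q = Frac P`; `T ⊗[P] Q` is a localization of `T` (a domain), étale hence finite
over `Q`, hence a field, hence a fraction field of `T`; an element of it integral over `T` lies
in the image of `T ⊗[P] integralClosure P Q = T ⊗[P] P`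
(`TensorProduct.toIntegralClosure_bijective_of_smooth`).
Proof of (N2): locally `S_f` is standard étale over a polynomial ring (a UFD); (N1); localize.
-/
import Mathlib.RingTheory.Smooth.IntegralClosure
import Mathlib.RingTheory.LocalProperties.IntegrallyClosed
import Mathlib.RingTheory.Polynomial.RationalRoot
import Mathlib.RingTheory.Polynomial.UniqueFactorization
import Mathlib.RingTheory.Etale.Basic
import Mathlib.RingTheory.Unramified.Finite
import Mathlib.RingTheory.Localization.BaseChange
import Mathlib.RingTheory.Flat.TorsionFree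
import Mathlib.RingTheory.Etale.StandardEtale

set_option autoImplicit false
set_option linter.unusedSectionVars false
set_option linter.style.haveILetI false

noncomputable section

namespace Fermat.Agent.S26

open TensorProduct

section N1

variable (P T : Type*) [CommRing P] [IsDomain P] [CommRing T] [IsDomain T] [Algebra P T]

/-- a flat algebra `T ≠ 0` over a domain has injective structure map -/
theorem s26a2n_injective [Module.Flat P T] : Function.Injective (algebraMap P T) := by
  rw [injective_iff_map_eq_zero]
  intro p hp
  by_contra hp0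
  have h1 : p • (1 : T) = 0 := by rw [Algebra.smul_def, mul_one, hp]
  have hreg : IsSMulRegular T p :=
    Module.Flat.isSMulRegular_of_nonZeroDivisors (mem_nonZeroDivisors_of_ne_zero hp0)
  have h2 : (1 : T) = 0 := hreg (by simp only [h1, smul_zero])
  exact one_ne_zero h2

variable [IsIntegrallyClosed P] [Algebra.Etale P T]

/-- the elements of `T ⊗[P] Frac P` integral over `T` come from `T` -/
theorem s26a2n_integral_mem (x : T ⊗[P] FractionRing P) (hx : IsIntegral T x) :
    ∃ t : T, algebraMap T (T ⊗[P] FractionRing P) t = x := by
  obtain ⟨z, hz⟩ := (TensorProduct.toIntegralClosure_bijective_of_smooth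
    (R := P) (S := T) (B := FractionRing P)).2 ⟨x, hx⟩
  have hz' : ((TensorProduct.toIntegralClosure P T (FractionRing P) z :
      integralClosure T (T ⊗[P] FractionRing P)) : T ⊗[P] FractionRing P) = x := by
    rw [hz]
  rw [← hz']
  clear hz hz'
  induction z using TensorProduct.induction_on with
  | zero => exact ⟨0, by simp⟩
  | tmul t b =>
    obtain ⟨p, hp⟩ := (IsIntegrallyClosed.isIntegral_iff (R := P) (K := FractionRing P)).1 b.2
    refine ⟨p • t, ?_⟩
    have h1 : ((TensorProduct.toIntegralClosure P T (FractionRing P) (t ⊗ₜ[P] b) :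
        integralClosure T (T ⊗[P] FractionRing P)) : T ⊗[P] FractionRing P) =
        t ⊗ₜ[P] (b : FractionRing P) := by
      simp [TensorProduct.toIntegralClosure]
    rw [h1, ← hp, Algebra.TensorProduct.algebraMap_apply, Algebra.algebraMap_self,
      RingHom.id_apply, TensorProduct.smul_tmul, Algebra.smul_def, mul_one]
  | add a b ha hb =>
    obtain ⟨ta, hta⟩ := ha
    obtain ⟨tb, htb⟩ := hb
    refine ⟨ta + tb, ?_⟩
    rw [map_add, hta, htb, map_add]
    rfl

/-- `T ⊗[P] Frac P` is a domain -/
theorem s26a2n_isDomain : IsDomain (T ⊗[P] FractionRing P) := by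
  have hle : Algebra.algebraMapSubmonoid T (nonZeroDivisors P) ≤ nonZeroDivisors T := by
    rintro _ ⟨p, hp, rfl⟩
    refine mem_nonZeroDivisors_of_ne_zero ?_
    intro h0
    exact nonZeroDivisors.ne_zero hp
      ((injective_iff_map_eq_zero _).1 (s26a2n_injective P T) p h0)
  exact IsLocalization.isDomain_of_le_nonZeroDivisors (M := Algebra.algebraMapSubmonoid T (nonZeroDivisors P))
    (T ⊗[P] FractionRing P) hle

/-- `T ⊗[P] Frac P` is a field -/
theorem s26a2n_isField : IsField (T ⊗[P] FractionRing P) := by
  haveI := s26a2n_isDomain P T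
  -- `Frac P ⊗[P] T` is étale, hence finite, over `Frac P`
  haveI : Module.Finite (FractionRing P) (FractionRing P ⊗[P] T) :=
    Algebra.FormallyUnramified.finite_of_free (FractionRing P) (FractionRing P ⊗[P] T)
  let e : (FractionRing P ⊗[P] T) ≃+* (T ⊗[P] FractionRing P) :=
    (Algebra.TensorProduct.comm P (FractionRing P) T).toRingEquiv
  haveI : IsDomain (FractionRing P ⊗[P] T) := e.toMulEquiv.isDomain _
  have h1 : IsField (FractionRing P ⊗[P] T) :=
    isField_of_isIntegral_of_isField' (R := FractionRing P) (Field.toIsField _)
  exact e.symm.toMulEquiv.isField h1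

/-- `T ⊗[P] Frac P` is a fraction field of `T` -/
theorem s26a2n_isFractionRing : IsFractionRing T (T ⊗[P] FractionRing P) := by
  have hle : Algebra.algebraMapSubmonoid T (nonZeroDivisors P) ≤ nonZeroDivisors T := by
    rintro _ ⟨p, hp, rfl⟩
    refine mem_nonZeroDivisors_of_ne_zero ?_
    intro h0
    exact nonZeroDivisors.ne_zero hp
      ((injective_iff_map_eq_zero _).1 (s26a2n_injective P T) p h0)
  have hinj : Function.Injective (algebraMap T (T ⊗[P] FractionRing P)) :=
    IsLocalization.injective (M := Algebra.algebraMapSubmonoid T (nonZeroDivisors P)) _ hle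
  refine IsLocalization.of_le (Algebra.algebraMapSubmonoid T (nonZeroDivisors P))
    (nonZeroDivisors T) hle ?_
  intro r hr
  have hr0 : algebraMap T (T ⊗[P] FractionRing P) r ≠ 0 := by
    intro h0
    exact nonZeroDivisors.ne_zero hr ((injective_iff_map_eq_zero _).1 hinj r h0)
  obtain ⟨y, hy⟩ := (s26a2n_isField P T).mul_inv_cancel hr0
  exact IsUnit.of_mul_eq_one y hy

/-- **(N1)**: a domain étale over an integrally closed domain is integrally closed. -/
theorem s26a2n_etale (P T : Type*) [CommRing P] [IsDomain P] [CommRing T] [IsDomain T]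
    [Algebra P T] [IsIntegrallyClosed P] [Algebra.Etale P T] : IsIntegrallyClosed T := by
  haveI := s26a2n_isFractionRing P T
  exact (isIntegrallyClosed_iff (T ⊗[P] FractionRing P)).mpr
    (fun {x} hx => s26a2n_integral_mem P T x hx)

end N1

section N2

variable (K S : Type*) [Field K] [CommRing S] [IsDomain S] [Algebra K S] [Algebra.Smooth K S]

/-- **(N2)**: a domain smooth over a field is integrally closed. -/
theorem s26a2n_smooth (K S : Type*) [Field K] [CommRing S] [IsDomain S] [Algebra K S]
    [Algebra.Smooth K S] : IsIntegrallyClosed S := by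
  refine IsIntegrallyClosed.of_localization_maximal fun 𝔪 _ _ => ?_
  haveI : Algebra.FinitePresentation K S := Algebra.Smooth.finitePresentation
  obtain ⟨f, hf, n, _, _, _⟩ :=
    Algebra.IsSmoothAt.exists_isStandardEtale_mvPolynomial (R := K) (p := 𝔪)
  have hf0 : f ≠ 0 := fun h => hf (h ▸ 𝔪.zero_mem)
  have hpow : Submonoid.powers f ≤ nonZeroDivisors S :=
    powers_le_nonZeroDivisors_of_noZeroDivisors hf0
  haveI : IsDomain (Localization.Away f) :=
    IsLocalization.isDomain_of_le_nonZeroDivisors (M := Submonoid.powers f) (Localization.Away f) hpow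
  haveI : IsIntegrallyClosed (Localization.Away f) :=
    s26a2n_etale (MvPolynomial (Fin n) K) (Localization.Away f)
  -- `S_𝔪` is a localization of `S_f`
  have hle : Submonoid.powers f ≤ 𝔪.primeCompl := by
    rintro _ ⟨k, rfl⟩
    exact 𝔪.primeCompl.pow_mem hf k
  have hunit : IsUnit (algebraMap S (Localization.AtPrime 𝔪) f) :=
    IsLocalization.map_units (M := 𝔪.primeCompl) (Localization.AtPrime 𝔪) ⟨f, hf⟩
  letI : Algebra (Localization.Away f) (Localization.AtPrime 𝔪) :=
    (IsLocalization.Away.lift f hunit).toAlgebra
  haveI : IsScalarTower S (Localization.Away f) (Localization.AtPrime 𝔪) :=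
    IsScalarTower.of_algebraMap_eq' (IsLocalization.Away.lift_comp f hunit).symm
  haveI : IsLocalization (𝔪.primeCompl.map (algebraMap S (Localization.Away f)))
      (Localization.AtPrime 𝔪) :=
    IsLocalization.isLocalization_of_submonoid_le (Localization.Away f) (Localization.AtPrime 𝔪)
      (Submonoid.powers f) 𝔪.primeCompl hle
  have hinj : Function.Injective (algebraMap S (Localization.Away f)) :=
    IsLocalization.injective (M := Submonoid.powers f) _ hpow
  refine isIntegrallyClosed_of_isLocalization (R := Localization.Away f)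
    (Localization.AtPrime 𝔪) (𝔪.primeCompl.map (algebraMap S (Localization.Away f))) ?_
  rintro _ ⟨s, hs, rfl⟩
  refine mem_nonZeroDivisors_of_ne_zero ?_
  intro h0
  have hs0 : s = 0 := (injective_iff_map_eq_zero _).1 hinj s h0
  exact hs (hs0 ▸ 𝔪.zero_mem)

end N2

end Fermat.Agent.S26

end
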