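import Mathlib
import Fermat.Agent.S26.A1

/-!
# S26, Stage A, piece A1 (part 2): `RelativeGroupLaw` ⇒ `GrpObj (Over.mk f)`

The bridge to Mathlib's group schemes (`Mathlib/AlgebraicGeometry/Group/*`, which use
`[GrpObj (Over.mk f)]`).

* `s26a1Presheaf G : (Over (Spec R))ᵒᵖ ⥤ GrpCat`        : `T ↦ (A(T), G.pointGroup)`;
* `s26a1Repr G`                                         : it is represented by `Over.mk f`;
* `s26a1GrpObj G : GrpObj (Over.mk f)`                  : the group object;
* `s26a1_isCommMonObj G hc : IsCommMonObj (Over.mk f)`  : commutative case;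
* `s26a1_hom_mul / _one / _inv`                         : the group structure on `T ⟶ Over.mk f`
                                                          is `G.mul / G.one / G.inv`.
-/

set_option autoImplicit false

noncomputable section

universe u

open CategoryTheory CategoryTheory.Limits AlgebraicGeometry NeronModelInfra GoodReductionJacobian
open MonoidalCategory CartesianMonoidalCategory MonObj

namespace Fermat.Agent.S26

variable {R : Type u} [CommRing R] {A : Scheme.{u}} {f : A ⟶ Spec (CommRingCat.of R)}
  (G : RelativeGroupLaw R f)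

/-- restriction of points along a morphism of `Over (Spec R)`, as a group homomorphism -/
def s26a1Res {T T' : Over (Spec (CommRingCat.of R))} (φ : T' ⟶ T) :
    letI := G.pointGroup T.hom
    letI := G.pointGroup T'.hom
    SchemeHomOver T.hom f →* SchemeHomOver T'.hom f :=
  letI := G.pointGroup T.hom
  letI := G.pointGroup T'.hom
  { toFun := schemeHomOverComp φ.left (Over.w φ)
    map_one' := G.one_natural T.hom T'.hom φ.left (Over.w φ)
    map_mul' := fun x y => G.mul_natural T.hom T'.hom φ.left (Over.w φ) x y }

theorem s26a1Res_apply {T T' : Over (Spec (CommRingCat.of R))} (φ : T' ⟶ T)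
    (x : SchemeHomOver T.hom f) :
    s26a1Res G φ x = schemeHomOverComp φ.left (Over.w φ) x := rfl

/-- the presheaf of groups `T ↦ A(T)` on `Over (Spec R)` -/
def s26a1Presheaf : (Over (Spec (CommRingCat.of R)))ᵒᵖ ⥤ GrpCat.{u} where
  obj T := @GrpCat.of (SchemeHomOver T.unop.hom f) (G.pointGroup T.unop.hom)
  map {T T'} φ :=
    letI := G.pointGroup T.unop.hom
    letI := G.pointGroup T'.unop.hom
    GrpCat.ofHom (s26a1Res G φ.unop)
  map_id T := by
    letI := G.pointGroup T.unop.hom
    refine GrpCat.hom_ext (MonoidHom.ext fun x => ?_)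
    exact Subtype.ext (Category.id_comp _)
  map_comp {T T' T''} φ ψ := by
    letI := G.pointGroup T.unop.hom
    letI := G.pointGroup T'.unop.hom
    letI := G.pointGroup T''.unop.hom
    refine GrpCat.hom_ext (MonoidHom.ext fun x => ?_)
    exact Subtype.ext (Category.assoc _ _ _)

/-- `Over.mk f` represents the presheaf of points -/
def s26a1Repr : (s26a1Presheaf G ⋙ forget GrpCat).RepresentableBy (Over.mk f) where
  homEquiv {X} := (schemeHomOverEquivOverHom X.hom f).symm
  homEquiv_comp {X X'} φ g := Subtype.ext rfl

/-- the group object structure on `Over.mk f` given by a `RelativeGroupLaw` -/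
@[instance_reducible]
def s26a1GrpObj : GrpObj (Over.mk f) :=
  GrpObj.ofRepresentableBy (Over.mk f) (s26a1Presheaf G) (s26a1Repr G)

/-! ## Bridging lemmas: the Hom-groups of `Over.mk f` are the point groups of `G` -/

/-- the group structure on `T ⟶ Over.mk f` is `G.mul` -/
theorem s26a1_hom_mul {T : Over (Spec (CommRingCat.of R))} (x y : T ⟶ Over.mk f) :
    letI := s26a1GrpObj G
    overHomToSchemeHomOver (x * y)
      = G.mul T.hom (overHomToSchemeHomOver x) (overHomToSchemeHomOver y) := by
  letI := s26a1GrpObj G
  exact map_mul ((yonedaGrpObjIsoOfRepresentableBy (Over.mk f) (s26a1Presheaf G)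
    (s26a1Repr G)).hom.app (Opposite.op T)).hom x y

/-- the unit of the group `T ⟶ Over.mk f` is `G.one` -/
theorem s26a1_hom_one {T : Over (Spec (CommRingCat.of R))} :
    letI := s26a1GrpObj G
    overHomToSchemeHomOver (1 : T ⟶ Over.mk f) = G.one T.hom := by
  letI := s26a1GrpObj G
  exact map_one ((yonedaGrpObjIsoOfRepresentableBy (Over.mk f) (s26a1Presheaf G)
    (s26a1Repr G)).hom.app (Opposite.op T)).hom

/-- the inverse of the group `T ⟶ Over.mk f` is `G.inv` -/
theorem s26a1_hom_inv {T : Over (Spec (CommRingCat.of R))} (x : T ⟶ Over.mk f) :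
    letI := s26a1GrpObj G
    overHomToSchemeHomOver (x⁻¹) = G.inv T.hom (overHomToSchemeHomOver x) := by
  letI := s26a1GrpObj G
  exact map_inv ((yonedaGrpObjIsoOfRepresentableBy (Over.mk f) (s26a1Presheaf G)
    (s26a1Repr G)).hom.app (Opposite.op T)).hom x

/-- the power in the group `T ⟶ Over.mk f` is `G.nsmul` -/
theorem s26a1_hom_pow {T : Over (Spec (CommRingCat.of R))} (x : T ⟶ Over.mk f) (n : ℕ) :
    letI := s26a1GrpObj G
    overHomToSchemeHomOver (x ^ n) = G.nsmul T.hom n (overHomToSchemeHomOver x) := by
  letI := s26a1GrpObj G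
  rw [s26a1_nsmul_eq_pow]
  exact map_pow ((yonedaGrpObjIsoOfRepresentableBy (Over.mk f) (s26a1Presheaf G)
    (s26a1Repr G)).hom.app (Opposite.op T)).hom x n

/-- the unit section of the group object is `s26a1Unit` -/
theorem s26a1_eta_left :
    letI := s26a1GrpObj G
    (η[Over.mk f]).left = s26a1Unit G := rfl

/-- the multiplication of the group object is `s26a1Mul` -/
theorem s26a1_mu_left :
    letI := s26a1GrpObj G
    (μ[Over.mk f]).left = s26a1Mul G := rfl

/-- the inverse of the group object is `s26a1Inv` -/
theorem s26a1_iota_left :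
    letI := s26a1GrpObj G
    (ι[Over.mk f]).left = s26a1Inv G := rfl

/-- a commutative `RelativeGroupLaw` gives a commutative group object -/
theorem s26a1_isCommMonObj (hc : G.IsCommutative) :
    letI := s26a1GrpObj G
    IsCommMonObj (Over.mk f) := by
  letI := s26a1GrpObj G
  rw [isCommMonObj_iff_isMulCommutative]
  intro T
  refine ⟨⟨fun x y => ?_⟩⟩
  apply (schemeHomOverEquivOverHom T.hom f).symm.injective
  show overHomToSchemeHomOver (x * y) = overHomToSchemeHomOver (y * x)
  rw [s26a1_hom_mul, s26a1_hom_mul]
  exact hc T.hom _ _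

end Fermat.Agent.S26
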