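import Mathlib

/-!
# S26, Stage A, piece A2 (part 1): a smooth algebra over a field is reduced

`s26a2_isReduced_of_smooth : [Field K] [Algebra.Smooth K S] → IsReduced S`.

Proof: integral closure commutes with smooth base change
(`TensorProduct.toIntegralClosure_bijective_of_smooth`), applied to `B = K[X]`: the integral
closure of `K` in `K[X]` consists of constants, so every element of `S ⊗ K[X]` integral over `S`
has vanishing `X`-coefficient; for nilpotent `s` the element `s ⊗ X` is nilpotent, hence integral,
hence `s = 0`.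
-/

set_option autoImplicit false

open Polynomial TensorProduct

namespace Fermat.Agent.S26

/-- an element of `K[X]` integral over the field `K` has vanishing coefficient of `X` -/
theorem s26a2_coeff_one_of_isIntegral {K : Type*} [Field K] (p : K[X]) (hp : IsIntegral K p) :
    p.coeff 1 = 0 := by
  by_contra h
  have hdeg : p.natDegree ≠ 0 := by
    intro h0
    rw [Polynomial.eq_C_of_natDegree_eq_zero h0] at h
    simp at h
  have hp0 : p ≠ 0 := fun h0 => by simp [h0] at hdeg
  exact Polynomial.transcendental p hdeg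
    (mem_nonZeroDivisors_of_ne_zero (Polynomial.leadingCoeff_ne_zero.mpr hp0)) hp.isAlgebraic

/-- a smooth algebra over a field is reduced -/
theorem s26a2_isReduced_of_smooth (K S : Type*) [Field K] [CommRing S] [Algebra K S]
    [Algebra.Smooth K S] : IsReduced S := by
  refine ⟨fun s hs => ?_⟩
  have hx : IsNilpotent (s ⊗ₜ[K] (Polynomial.X : K[X])) := by
    obtain ⟨n, hn⟩ := hs
    exact ⟨n, by rw [Algebra.TensorProduct.tmul_pow, hn, TensorProduct.zero_tmul]⟩
  have hxi : IsIntegral S (s ⊗ₜ[K] (Polynomial.X : K[X])) := by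
    obtain ⟨n, hn⟩ := hx
    exact ⟨Polynomial.X ^ n, Polynomial.monic_X_pow n, by simp [hn]⟩
  obtain ⟨y, hy⟩ := (TensorProduct.toIntegralClosure_bijective_of_smooth (R := K) (S := S)
    (B := K[X])).2 ⟨_, hxi⟩
  -- the `K`-linear functional "coefficient of `X`"
  let φ : S ⊗[K] K[X] →ₗ[K] S ⊗[K] K := LinearMap.lTensor S (Polynomial.lcoeff K 1)
  have h1 : φ (s ⊗ₜ[K] (Polynomial.X : K[X])) = s ⊗ₜ[K] (1 : K) := by
    simp [φ]
  have hval : ((TensorProduct.toIntegralClosure K S K[X] y : integralClosure S (S ⊗[K] K[X]))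
      : S ⊗[K] K[X]) = LinearMap.lTensor S (integralClosure K K[X]).val.toLinearMap y := by
    simp [TensorProduct.toIntegralClosure]
    rfl
  have h2 : φ (s ⊗ₜ[K] (Polynomial.X : K[X])) = 0 := by
    have h3 : (s ⊗ₜ[K] (Polynomial.X : K[X])) =
        LinearMap.lTensor S (integralClosure K K[X]).val.toLinearMap y := by
      rw [← hval, hy]
    rw [h3]
    show (LinearMap.lTensor S (Polynomial.lcoeff K 1))
      (LinearMap.lTensor S (integralClosure K K[X]).val.toLinearMap y) = 0
    rw [← LinearMap.comp_apply, ← LinearMap.lTensor_comp]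
    have h0 : (Polynomial.lcoeff K 1) ∘ₗ (integralClosure K K[X]).val.toLinearMap = 0 := by
      ext b
      exact s26a2_coeff_one_of_isIntegral b.1 b.2
    rw [h0, LinearMap.lTensor_zero, LinearMap.zero_apply]
  rw [h1] at h2
  have h4 := congrArg (TensorProduct.rid K S) h2
  simpa using h4

end Fermat.Agent.S26
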