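import Mathlib

/-!
# S26, Stage A, piece A2 (part 2): topology — a homogeneous connected Jacobson noetherian space
is irreducible

`s26a2_irreducibleSpace_of_homogeneous`: `X` noetherian, Jacobson, connected, and for any two closed
points `x y` a homeomorphism `h` of `X` with `h x = y`; then `X` is irreducible.
-/

set_option autoImplicit false

namespace Fermat.Agent.S26

variable {X : Type*} [TopologicalSpace X]

/-- a homeomorphism permutes the irreducible components -/
theorem s26a2_image_mem_irreducibleComponents (h : X ≃ₜ X) {Z : Set X}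
    (hZ : Z ∈ irreducibleComponents X) : h '' Z ∈ irreducibleComponents X := by
  refine ⟨hZ.1.image h h.continuous.continuousOn, fun W hW hZW => ?_⟩
  have h1 : Z ⊆ h.symm '' W := by
    intro z hz
    exact ⟨h z, hZW ⟨z, hz, rfl⟩, h.symm_apply_apply z⟩
  have h2 : h.symm '' W ⊆ Z := hZ.2 (hW.image h.symm h.symm.continuous.continuousOn) h1
  intro w hw
  obtain hz := h2 ⟨w, hw, rfl⟩
  exact ⟨h.symm w, hz, h.apply_symm_apply w⟩

/-- a noetherian, Jacobson, connected space that is homogeneous on closed points is irreducible -/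
theorem s26a2_irreducibleSpace_of_homogeneous
    [TopologicalSpace.NoetherianSpace X] [JacobsonSpace X] [ConnectedSpace X]
    (hom : ∀ x y : X, IsClosed ({x} : Set X) → IsClosed ({y} : Set X) → ∃ h : X ≃ₜ X, h x = y) :
    IrreducibleSpace X := by
  classical
  have hfin : (irreducibleComponents X).Finite :=
    TopologicalSpace.NoetherianSpace.finite_irreducibleComponents
  obtain ⟨x₁⟩ := (inferInstance : Nonempty X)
  set Z₀ : Set X := irreducibleComponent x₁ with hZ₀def
  have hZ₀ : Z₀ ∈ irreducibleComponents X := irreducibleComponent_mem_irreducibleComponents x₁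
  set W : Set X := ⋃₀ (irreducibleComponents X \ {Z₀}) with hWdef
  have hWclosed : IsClosed W := by
    rw [hWdef, Set.sUnion_eq_biUnion]
    exact hfin.sdiff.isClosed_biUnion fun V hV => isClosed_of_mem_irreducibleComponents V hV.1
  have hclos : closure Wᶜ = Z₀ := closure_sUnion_irreducibleComponents_sdiff_singleton hfin Z₀ hZ₀
  have hZ₀ne : Z₀.Nonempty := ⟨x₁, mem_irreducibleComponent⟩
  have hWcne : (Wᶜ).Nonempty := by
    by_contra hne
    rw [Set.not_nonempty_iff_eq_empty] at hne
    rw [hne, closure_empty] at hclos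
    rw [← hclos] at hZ₀ne
    exact Set.not_nonempty_empty hZ₀ne
  -- a closed point on exactly one component
  obtain ⟨x₀, hx₀W, hx₀c⟩ := nonempty_inter_closedPoints hWcne hWclosed.isOpen_compl.isLocallyClosed
  have hx₀Z : ∀ Z ∈ irreducibleComponents X, x₀ ∈ Z → Z = Z₀ := by
    intro Z hZ hxZ
    by_contra hne
    exact hx₀W (Set.mem_sUnion.mpr ⟨Z, ⟨hZ, hne⟩, hxZ⟩)
  -- every closed point lies on exactly one component
  have huniq : ∀ x : X, IsClosed ({x} : Set X) → ∀ Z ∈ irreducibleComponents X,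
      ∀ Z' ∈ irreducibleComponents X, x ∈ Z → x ∈ Z' → Z = Z' := by
    intro x hx Z hZ Z' hZ' hxZ hxZ'
    obtain ⟨h, hh⟩ := hom x x₀ hx hx₀c
    have e1 : h '' Z = Z₀ :=
      hx₀Z _ (s26a2_image_mem_irreducibleComponents h hZ) ⟨x, hxZ, hh⟩
    have e2 : h '' Z' = Z₀ :=
      hx₀Z _ (s26a2_image_mem_irreducibleComponents h hZ') ⟨x, hxZ', hh⟩
    exact (Set.image_injective.mpr h.injective) (e1.trans e2.symm)
  -- `Z₀` and `W` are disjoint
  have hdisj : Z₀ ∩ W = ∅ := by
    by_contra hne
    have hne' : (Z₀ ∩ W).Nonempty := Set.nonempty_iff_ne_empty.mpr hne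
    obtain ⟨x, ⟨hxZ, hxW⟩, hxc⟩ := nonempty_inter_closedPoints hne'
      ((isClosed_of_mem_irreducibleComponents Z₀ hZ₀).inter hWclosed).isLocallyClosed
    obtain ⟨Z', ⟨hZ', hne''⟩, hxZ'⟩ := Set.mem_sUnion.mp hxW
    exact hne'' (huniq x hxc Z' hZ' Z₀ hZ₀ hxZ' hxZ)
  have hcover : Z₀ ∪ W = Set.univ := by
    apply Set.eq_univ_of_forall
    intro x
    by_cases hx : x ∈ Z₀
    · exact Or.inl hx
    · right
      have hx' : x ∈ ⋃₀ irreducibleComponents X := by
        rw [sUnion_irreducibleComponents]; trivial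
      obtain ⟨Z, hZ, hxZ⟩ := Set.mem_sUnion.mp hx'
      refine Set.mem_sUnion.mpr ⟨Z, ⟨hZ, ?_⟩, hxZ⟩
      intro hZZ
      exact hx (hZZ ▸ hxZ)
  have hZ₀eq : Z₀ = Wᶜ := by
    ext x
    constructor
    · intro hx hxW
      have : x ∈ Z₀ ∩ W := ⟨hx, hxW⟩
      rw [hdisj] at this
      exact this
    · intro hx
      have : x ∈ Z₀ ∪ W := by rw [hcover]; trivial
      exact this.resolve_right hx
  have hclopen : IsClopen Z₀ :=
    ⟨isClosed_of_mem_irreducibleComponents Z₀ hZ₀, hZ₀eq ▸ hWclosed.isOpen_compl⟩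
  have huniv : Z₀ = Set.univ := hclopen.eq_univ hZ₀ne
  rw [irreducibleSpace_def]
  have h := hZ₀.1
  rw [huniv] at h
  exact h

end Fermat.Agent.S26
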