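import Mathlib
import Fermat.Agent.S26.A1Grp
import Fermat.Agent.S26.A2Red
import Fermat.Agent.S26.A2Top

/-!
# S26, Stage A, piece A2 (part 3): the scheme `A` is reduced, noetherian, irreducible, integral

Setting: `K` a field, `f : A ⟶ Spec K`, `G : RelativeGroupLaw K f`.

* `s26a2_isReduced f`            : `Smooth f ⇒ IsReduced A`;
* `s26a2_isNoetherian f`         : `LocallyOfFiniteType f`, `QuasiCompact f` ⇒ `IsNoetherian A`;
* `s26a2_exists_homeo G x y`     : (`K` alg. closed, `f` locally of finite type) translations are
                                    transitive on closed points;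
* `s26a2_connectedSpace`, `s26a2_irreducibleSpace`, `s26a2_isIntegral`.
-/

set_option autoImplicit false

noncomputable section

universe u

open CategoryTheory CategoryTheory.Limits AlgebraicGeometry NeronModelInfra GoodReductionJacobian
open MonoidalCategory CartesianMonoidalCategory MonObj

namespace Fermat.Agent.S26

variable {K : Type u} [Field K] {A : Scheme.{u}} (f : A ⟶ Spec (CommRingCat.of K))

/-- affine case: a ring smooth over a field is reduced -/
theorem s26a2_isReduced_spec {R : CommRingCat.{u}} (φ : CommRingCat.of K ⟶ R)
    (h : Smooth (Spec.map φ)) : _root_.IsReduced R := by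
  rw [HasRingHomProperty.Spec_iff (P := @Smooth)] at h
  algebraize [φ.hom]
  exact s26a2_isReduced_of_smooth K R

/-- a scheme smooth over a field is reduced -/
theorem s26a2_isReduced [Smooth f] : IsReduced A := by
  have h : ∀ i : A.affineCover.I₀, IsReduced (A.affineCover.X i) := by
    intro i
    have hs : Smooth (A.affineCover.f i ≫ f) := inferInstance
    obtain ⟨φ, hφ⟩ := Spec.map_surjective (A.affineCover.f i ≫ f)
    have hs' : Smooth (Spec.map φ) := by rw [hφ]; exact hs
    have hr : _root_.IsReduced _ := s26a2_isReduced_spec φ hs'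
    show IsReduced (Spec _)
    infer_instance
  exact IsReduced.of_openCover A A.affineCover

/-- a quasi-compact scheme locally of finite type over a field is noetherian -/
theorem s26a2_isNoetherian [LocallyOfFiniteType f] [QuasiCompact f] : IsNoetherian A :=
  { toIsLocallyNoetherian := LocallyOfFiniteType.isLocallyNoetherian f
    toCompactSpace := QuasiCompact.compactSpace_of_compactSpace f }

variable {f}

set_option backward.defeqAttrib.useBackward true in
set_option backward.isDefEq.respectTransparency false in
/-- translations of a group scheme are transitive on closed points -/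
theorem s26a2_exists_homeo_of_grpObj [IsAlgClosed K] [LocallyOfFiniteType f]
    [GrpObj (Over.mk f)]
    (x y : A) (hxc : IsClosed ({x} : Set A)) (hyc : IsClosed ({y} : Set A)) :
    ∃ h : A ≃ₜ A, h x = y := by
  let x' : 𝟙_ _ ⟶ Over.mk f := Over.homMk _ ((pointEquivClosedPoint f).symm ⟨x, hxc⟩).2
  let y' : 𝟙_ _ ⟶ Over.mk f := Over.homMk _ ((pointEquivClosedPoint f).symm ⟨y, hyc⟩).2
  let α := (GrpObj.mulRight (A := Over.mk f) x').symm ≪≫
    (GrpObj.mulRight (A := Over.mk f) y')
  have hα : x' ≫ α.hom = y' := by
    dsimp only [Iso.trans_hom, Iso.symm_hom, α]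
    rw [← Category.assoc, ← Iso.eq_comp_inv]
    simp [comp_lift_assoc]
  have hα' : α.hom.left x = y := by
    simpa [x', y', pointEquivClosedPoint] using congr(($hα).left (IsLocalRing.closedPoint K))
  exact ⟨Scheme.homeoOfIso ((Over.forget _).mapIso α), hα'⟩

/-- translations are transitive on closed points -/
theorem s26a2_exists_homeo [IsAlgClosed K] [LocallyOfFiniteType f] (G : RelativeGroupLaw K f)
    (x y : A) (hxc : IsClosed ({x} : Set A)) (hyc : IsClosed ({y} : Set A)) :
    ∃ h : A ≃ₜ A, h x = y :=
  @s26a2_exists_homeo_of_grpObj K _ A f _ _ (s26a1GrpObj G) x y hxc hyc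

/-- `A` is connected -/
theorem s26a2_connectedSpace (hA : AbelianSchemePropertyBundle K f) : ConnectedSpace A := by
  have h := hA.connectedFibres (Classical.arbitrary _)
  have h2 : (f.base ⁻¹' {Classical.arbitrary (Spec (CommRingCat.of K))}) = Set.univ := by
    apply Set.eq_univ_of_forall
    intro a
    exact Subsingleton.elim _ _
  rw [h2] at h
  exact connectedSpace_iff_univ.mpr h

/-- `A` is irreducible -/
theorem s26a2_irreducibleSpace [IsAlgClosed K] (G : RelativeGroupLaw K f)
    (hA : AbelianSchemePropertyBundle K f) : IrreducibleSpace A := by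
  haveI := hA.proper
  haveI : IsNoetherian A := s26a2_isNoetherian f
  haveI : JacobsonSpace A := LocallyOfFiniteType.jacobsonSpace f
  haveI := s26a2_connectedSpace hA
  exact s26a2_irreducibleSpace_of_homogeneous (s26a2_exists_homeo G)

/-- `A` is integral -/
theorem s26a2_isIntegral [IsAlgClosed K] (G : RelativeGroupLaw K f)
    (hA : AbelianSchemePropertyBundle K f) : IsIntegral A := by
  haveI := hA.smooth
  haveI := s26a2_isReduced f
  haveI := s26a2_irreducibleSpace G hA
  exact isIntegral_of_irreducibleSpace_of_isReduced A

end Fermat.Agent.S26
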