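import Mathlib
import Fermat.Agent.S26.A2Sch
import Fermat.Agent.S26.A2Nor

/-!
# S26, Stage A, piece A2 (part 4): normality — the local rings at the prime divisors are DVRs

* `s26a2_isIntegrallyClosed_section` : `A` integral and smooth over the field `K`, `U` affine open
  nonempty ⇒ `Γ(A, U)` is integrally closed;
* `s26a2_isIntegrallyClosed_stalk`   : the stalks are integrally closed;
* `s26a2_isDVR_stalk`                : the stalk at a point of coheight one is a DVR.
-/

set_option autoImplicit false

noncomputable section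

universe u

open CategoryTheory CategoryTheory.Limits AlgebraicGeometry

namespace Fermat.Agent.S26

variable {K : Type u} [Field K] {A : Scheme.{u}} (f : A ⟶ Spec (CommRingCat.of K))

/-- affine case: a domain smooth over a field is integrally closed -/
theorem s26a2_isIntegrallyClosed_spec {R : CommRingCat.{u}} [IsDomain R]
    (φ : CommRingCat.of K ⟶ R) (h : Smooth (Spec.map φ)) : IsIntegrallyClosed R := by
  rw [HasRingHomProperty.Spec_iff (P := @Smooth)] at h
  algebraize [φ.hom]
  exact s26a2n_smooth K R

/-- the sections over a nonempty affine open of an integral scheme smooth over a field are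
integrally closed -/
theorem s26a2_isIntegrallyClosed_section [IsIntegral A] [Smooth f] {U : A.Opens}
    (hU : IsAffineOpen U) [Nonempty U] : IsIntegrallyClosed Γ(A, U) := by
  have hs : Smooth (hU.fromSpec ≫ f) := inferInstance
  obtain ⟨φ, hφ⟩ := Spec.map_surjective (hU.fromSpec ≫ f)
  have hs' : Smooth (Spec.map φ) := by rw [hφ]; exact hs
  exact s26a2_isIntegrallyClosed_spec φ hs'

/-- the stalks of an integral scheme smooth over a field are integrally closed -/
theorem s26a2_isIntegrallyClosed_stalk [IsIntegral A] [Smooth f] (z : A) :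
    IsIntegrallyClosed (A.presheaf.stalk z) := by
  obtain ⟨U, hU, hzU, -⟩ := exists_isAffineOpen_mem_and_subset (x := z) (U := ⊤) trivial
  haveI : Nonempty U := ⟨⟨z, hzU⟩⟩
  haveI := s26a2_isIntegrallyClosed_section f hU
  letI := TopCat.Presheaf.algebra_section_stalk A.presheaf (⟨z, hzU⟩ : U)
  haveI := hU.isLocalization_stalk ⟨z, hzU⟩
  exact isIntegrallyClosed_of_isLocalization (A.presheaf.stalk z)
    (hU.primeIdealOf ⟨z, hzU⟩).asIdeal.primeCompl
    (Ideal.primeCompl_le_nonZeroDivisors _)

/-- the stalk at a point of coheight one is a discrete valuation ring -/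
theorem s26a2_isDVR_stalk [IsIntegral A] [IsLocallyNoetherian A] [Smooth f] (z : A)
    (hz : Order.coheight z = 1) : IsDiscreteValuationRing (A.presheaf.stalk z) := by
  have hdim : ringKrullDim (A.presheaf.stalk z) = 1 := by
    rw [ringKrullDim_stalk_eq_coheight, hz]; rfl
  have hnf : ¬ IsField (A.presheaf.stalk z) :=
    (ringKrullDim_eq_one_iff_of_isLocalRing_isDomain.mp hdim).1
  have hic := s26a2_isIntegrallyClosed_stalk f z
  have hle : Ring.KrullDimLE 1 (A.presheaf.stalk z) := Ring.krullDimLE_iff.mpr (by simp [hdim])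
  have hmax : ∀ I : Ideal (A.presheaf.stalk z), I ≠ ⊥ → I.IsPrime → I.IsMaximal :=
    Ring.krullDimLE_one_iff_of_noZeroDivisors.mp hle
  have h30 : (IsIntegrallyClosed (A.presheaf.stalk z) ∧
      ∃! P : Ideal (A.presheaf.stalk z), P ≠ ⊥ ∧ P.IsPrime) ↔
      IsDiscreteValuationRing (A.presheaf.stalk z) :=
    (IsDiscreteValuationRing.TFAE (A.presheaf.stalk z) hnf).out 3 0
  refine h30.mp ⟨hic, ?_⟩
  refine ⟨IsLocalRing.maximalIdeal _, ⟨?_, inferInstance⟩, ?_⟩
  · exact IsLocalRing.isField_iff_maximalIdeal_eq.not.mp hnf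
  · rintro P ⟨hP0, hP⟩
    exact IsLocalRing.eq_maximalIdeal (hmax P hP0 hP)

end Fermat.Agent.S26
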