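import Mathlib
import Fermat.Agent.S26.A2Dvr

/-!
# S26-E, piece E-LF-W (helper39): the scheme wrapper for local factoriality (LF)

Setting: `K` a field, `f : A ⟶ Spec K`.

## Part 1: the stalks as `K`-algebras
* `s26elfwStalkMap f a : K →+* O_{A,a}`, `s26elfwAlgebra f a : Algebra K O_{A,a}`;
* `s26elfw_formallySmooth`  : `Smooth f ⇒ Algebra.FormallySmooth K O_{A,a}`;
* `s26elfw_residue_bijective` : `K` alg. closed, `f` locally of finite type, `a` closed ⇒
  `K → κ(a)` is bijective.
-/

set_option autoImplicit false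

noncomputable section

universe u

open CategoryTheory CategoryTheory.Limits AlgebraicGeometry

namespace Fermat.Agent.S26

variable {K : Type u} [Field K] {A : Scheme.{u}} (f : A ⟶ Spec (CommRingCat.of K))

/-- the structure map `K → O_{A,a}` -/
def s26elfwStalkMap (a : A) : K →+* A.presheaf.stalk a :=
  ((A.presheaf.germ ⊤ a trivial).hom.comp f.appTop.hom).comp
    (Scheme.ΓSpecIso (CommRingCat.of K)).inv.hom

/-- the `K`-algebra structure of the stalk `O_{A,a}` -/
@[reducible]
def s26elfwAlgebra (a : A) : Algebra K (A.presheaf.stalk a) := (s26elfwStalkMap f a).toAlgebra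

/-- the structure map `K → Γ(A, U)` -/
def s26elfwSecMap (U : A.Opens) : K →+* Γ(A, U) :=
  (f.appLE ⊤ U le_top).hom.comp (Scheme.ΓSpecIso (CommRingCat.of K)).inv.hom

theorem s26elfw_secMap_smooth [Smooth f] {U : A.Opens} (hU : IsAffineOpen U) :
    (s26elfwSecMap f U).Smooth :=
  RingHom.Smooth.comp
    (RingHom.Smooth.of_bijective
      (ConcreteCategory.bijective_of_isIso (Scheme.ΓSpecIso (CommRingCat.of K)).inv))
    (f.smooth_appLE (isAffineOpen_top _) hU le_top)

theorem s26elfw_germ_secMap {U : A.Opens} (a : A) (haU : a ∈ U) :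
    (A.presheaf.germ U a haU).hom.comp (s26elfwSecMap f U) = s26elfwStalkMap f a := by
  ext c
  simp only [s26elfwSecMap, s26elfwStalkMap, RingHom.comp_apply]
  rw [Scheme.Hom.appLE]
  simp only [CommRingCat.hom_comp, RingHom.comp_apply]
  exact congrArg _ rfl |>.trans (TopCat.Presheaf.germ_res_apply A.presheaf _ a haU _)

/-- the stalks of a scheme smooth over `K` are formally smooth `K`-algebras -/
theorem s26elfw_formallySmooth [Smooth f] (a : A) :
    @Algebra.FormallySmooth K (A.presheaf.stalk a) _ _ (s26elfwAlgebra f a) := by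
  obtain ⟨U, hU, haU, -⟩ := exists_isAffineOpen_mem_and_subset (x := a) (U := ⊤) trivial
  letI : Algebra K (A.presheaf.stalk a) := s26elfwAlgebra f a
  have hsm := s26elfw_secMap_smooth f hU
  letI : Algebra K Γ(A, U) := (s26elfwSecMap f U).toAlgebra
  haveI : Algebra.Smooth K Γ(A, U) := hsm
  letI := TopCat.Presheaf.algebra_section_stalk A.presheaf (⟨a, haU⟩ : U)
  haveI := hU.isLocalization_stalk ⟨a, haU⟩
  haveI : IsScalarTower K Γ(A, U) (A.presheaf.stalk a) :=
    IsScalarTower.of_algebraMap_eq' (s26elfw_germ_secMap f a haU).symm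
  haveI : Algebra.FormallySmooth Γ(A, U) (A.presheaf.stalk a) :=
    Algebra.FormallySmooth.of_isLocalization (hU.primeIdealOf ⟨a, haU⟩).asIdeal.primeCompl
  exact Algebra.FormallySmooth.comp K Γ(A, U) (A.presheaf.stalk a)

/-- the structure map `K → O_{A,a}` as a morphism of `CommRingCat` -/
def s26elfwStalkHom (a : A) : CommRingCat.of K ⟶ A.presheaf.stalk a :=
  (Scheme.ΓSpecIso (CommRingCat.of K)).inv ≫ f.appTop ≫ A.presheaf.germ ⊤ a trivial

theorem s26elfwStalkHom_hom (a : A) : (s26elfwStalkHom f a).hom = s26elfwStalkMap f a := rfl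

theorem s26elfw_specMap_stalkHom (a : A) :
    Spec.map (s26elfwStalkHom f a) = A.fromSpecStalk a ≫ f := by
  apply ext_to_Spec
  simp only [Scheme.Γ_map, Quiver.Hom.unop_op, Scheme.Hom.comp_appTop,
    Scheme.fromSpecStalk_appTop, Category.assoc]
  erw [← Scheme.ΓSpecIso_inv_naturality]
  simp only [s26elfwStalkHom, Category.assoc]
  congr 3

/-- the structure map `K → κ(a)` -/
def s26elfwResHom (a : A) : CommRingCat.of K ⟶ A.residueField a :=
  s26elfwStalkHom f a ≫ A.residue a

theorem s26elfw_specMap_resHom (a : A) :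
    Spec.map (s26elfwResHom f a) = A.fromSpecResidueField a ≫ f := by
  rw [s26elfwResHom, Spec.map_comp, s26elfw_specMap_stalkHom, Scheme.fromSpecResidueField,
    Category.assoc]

/-- at a closed point the structure map `K → κ(a)` is bijective (`K` algebraically closed) -/
theorem s26elfw_resHom_bijective [IsAlgClosed K] [LocallyOfFiniteType f] (a : A)
    (ha : IsClosed ({a} : Set A)) : Function.Bijective (s26elfwResHom f a).hom := by
  have h1 : (residueFieldIsoBase f a ha).inv = s26elfwResHom f a := by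
    apply Spec.map_injective
    rw [SpecMap_residueFieldIsoBase_inv, s26elfw_specMap_resHom]
  have h2 : Function.Bijective (residueFieldIsoBase f a ha).inv.hom :=
    ConcreteCategory.bijective_of_isIso (residueFieldIsoBase f a ha).inv
  rw [h1] at h2
  exact h2

/-- at a closed point: `O_{A,a} = K + 𝔪_a` (the hypothesis `hres` of E-LF1) -/
theorem s26elfw_hres [IsAlgClosed K] [LocallyOfFiniteType f] (a : A)
    (ha : IsClosed ({a} : Set A)) (r : A.presheaf.stalk a) :
    ∃ c : K, r - s26elfwStalkMap f a c ∈ IsLocalRing.maximalIdeal (A.presheaf.stalk a) := by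
  obtain ⟨c, hc⟩ := (s26elfw_resHom_bijective f a ha).2 ((A.residue a).hom r)
  refine ⟨c, ?_⟩
  have h1 : (A.residue a).hom (s26elfwStalkMap f a c) = (A.residue a).hom r := hc
  have h2 : (A.residue a).hom (r - s26elfwStalkMap f a c) = 0 := by
    rw [map_sub, h1, sub_self]
  exact (IsLocalRing.residue_eq_zero_iff _).mp h2

end Fermat.Agent.S26
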