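import Mathlib
import Fermat.Agent.S26.ELFW
import Fermat.Agent.S26.ELF1Alg
import Fermat.Agent.S26.ECrvPt

/-!
# S26-E, E-LF-W part 4 (helper39): the local ring at a closed point, packaged for E-CRV (P-O)

`K` a field, `f : A ⟶ Spec K`, `a : A`, the stalk `O_{A,a}` with its `K`-algebra structure
`s26elfwAlgebra f a` (definitionally the one of `s26ecrvStr`, `S26ecrvO`).

* `s26elfwo_str_eq`          : `s26ecrvStr f a = s26elfwStalkMap f a`;
* `s26elfwo_essFiniteType`   : `f` locally of finite type ⇒ `O_{A,a}` essentially of finite type;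
* `s26elfwo_zero_isClosed`   : the zero point is closed;
* `s26elfwo_coords`          : at a closed point: coordinates `y` and an injective local
  `K`-algebra map `ι : O_{A,a} → K⟦Y⟧`, `ι (y i) = X i`;
* the same for `S26ecrvO f G` (the stalk at zero): `s26elfwo_O_*`.
-/

set_option autoImplicit false

noncomputable section

universe u

open CategoryTheory CategoryTheory.Limits AlgebraicGeometry NeronModelInfra GoodReductionJacobian

namespace Fermat.Agent.S26

variable {K : Type u} [Field K] {A : Scheme.{u}} (f : A ⟶ Spec (CommRingCat.of K))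

theorem s26elfwo_str_eq (a : A) : s26ecrvStr f a = s26elfwStalkMap f a := rfl

theorem s26elfwo_secMap_finiteType [LocallyOfFiniteType f] {U : A.Opens} (hU : IsAffineOpen U) :
    (s26elfwSecMap f U).FiniteType :=
  RingHom.FiniteType.comp (f.finiteType_appLE (isAffineOpen_top _) hU le_top)
    (RingHom.FiniteType.of_surjective _
      (ConcreteCategory.bijective_of_isIso (Scheme.ΓSpecIso (CommRingCat.of K)).inv).2)

/-- the local rings of `A` are essentially of finite type over `K` -/
theorem s26elfwo_essFiniteType [LocallyOfFiniteType f] (a : A) :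
    @Algebra.EssFiniteType K (A.presheaf.stalk a) _ _ (s26elfwAlgebra f a) := by
  obtain ⟨U, hU, haU, -⟩ := exists_isAffineOpen_mem_and_subset (x := a) (U := ⊤) trivial
  letI : Algebra K (A.presheaf.stalk a) := s26elfwAlgebra f a
  have hft := s26elfwo_secMap_finiteType f hU
  letI : Algebra K Γ(A, U) := (s26elfwSecMap f U).toAlgebra
  haveI : Algebra.FiniteType K Γ(A, U) := hft
  letI := TopCat.Presheaf.algebra_section_stalk A.presheaf (⟨a, haU⟩ : U)
  haveI := hU.isLocalization_stalk ⟨a, haU⟩
  haveI : IsScalarTower K Γ(A, U) (A.presheaf.stalk a) :=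
    IsScalarTower.of_algebraMap_eq' (s26elfw_germ_secMap f a haU).symm
  haveI : Algebra.EssFiniteType Γ(A, U) (A.presheaf.stalk a) :=
    Algebra.EssFiniteType.of_isLocalization _ (hU.primeIdealOf ⟨a, haU⟩).asIdeal.primeCompl
  exact Algebra.EssFiniteType.comp K Γ(A, U) (A.presheaf.stalk a)

/-- the zero point is closed -/
theorem s26elfwo_zero_isClosed (G : RelativeGroupLaw K f) :
    IsClosed ({s26zero f G} : Set A) := by
  set e := G.one (𝟙 (Spec (CommRingCat.of K))) with he
  have hef : e.1 ≫ f = 𝟙 _ := e.2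
  haveI : Subsingleton (Spec (CommRingCat.of K)) := inferInstance
  haveI : IsClosedImmersion e.1 := isClosedImmersion_of_comp_eq_id f e.1 hef
  have hr : Set.range e.1 = {s26zero f G} := by
    ext x
    constructor
    · rintro ⟨y, rfl⟩
      rw [Set.mem_singleton_iff]
      unfold s26zero
      exact congrArg _ (Subsingleton.elim _ _)
    · intro hx
      rw [Set.mem_singleton_iff] at hx
      exact ⟨_, hx.symm⟩
  rw [← hr]
  exact e.1.isClosedEmbedding.isClosed_range

/-- **coordinates at a closed point** (LF1 for the stalk) -/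
theorem s26elfwo_coords [IsAlgClosed K] [IsLocallyNoetherian A] [Smooth f]
    [LocallyOfFiniteType f] (a : A) (ha : IsClosed ({a} : Set A)) :
    letI := s26elfwAlgebra f a
    ∃ (d : ℕ) (y : Fin d → A.presheaf.stalk a)
      (ι : A.presheaf.stalk a →ₐ[K] MvPowerSeries (Fin d) K),
      S26Elf1Coords K (A.presheaf.stalk a) d y ∧
      Function.Injective ι ∧ IsLocalHom ι ∧ (∀ i, ι (y i) = MvPowerSeries.X i) ∧
      ∀ p : MvPolynomial (Fin d) K, ι (MvPolynomial.aeval y p) = (p : MvPowerSeries (Fin d) K) := by
  letI := s26elfwAlgebra f a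
  haveI := s26elfw_formallySmooth f a
  exact s26elf1_embeddingAlg (K := K) (R := A.presheaf.stalk a) (s26elfw_hres f a ha)

/-! ### the stalk at zero `S26ecrvO f G` -/

section O

variable (G : RelativeGroupLaw K f)

theorem s26elfwo_O_isNoetherianRing [IsLocallyNoetherian A] :
    IsNoetherianRing (S26ecrvO f G) :=
  inferInstanceAs (IsNoetherianRing (A.presheaf.stalk (s26zero f G)))

theorem s26elfwo_O_isDomain [IsIntegral A] : IsDomain (S26ecrvO f G) :=
  inferInstanceAs (IsDomain (A.presheaf.stalk (s26zero f G)))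

theorem s26elfwo_O_hres [IsAlgClosed K] [LocallyOfFiniteType f] (r : S26ecrvO f G) :
    ∃ c : K, r - algebraMap K (S26ecrvO f G) c ∈ IsLocalRing.maximalIdeal (S26ecrvO f G) :=
  s26elfw_hres f (s26zero f G) (s26elfwo_zero_isClosed f G) r

theorem s26elfwo_O_formallySmooth [Smooth f] : Algebra.FormallySmooth K (S26ecrvO f G) :=
  s26elfw_formallySmooth f (s26zero f G)

theorem s26elfwo_O_essFiniteType [LocallyOfFiniteType f] :
    Algebra.EssFiniteType K (S26ecrvO f G) :=
  s26elfwo_essFiniteType f (s26zero f G)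

theorem s26elfwo_O_coords [IsAlgClosed K] [IsLocallyNoetherian A] [Smooth f]
    [LocallyOfFiniteType f] :
    ∃ (d : ℕ) (y : Fin d → S26ecrvO f G) (ι : S26ecrvO f G →ₐ[K] MvPowerSeries (Fin d) K),
      S26Elf1Coords K (S26ecrvO f G) d y ∧
      Function.Injective ι ∧ IsLocalHom ι ∧ (∀ i, ι (y i) = MvPowerSeries.X i) ∧
      ∀ p : MvPolynomial (Fin d) K, ι (MvPolynomial.aeval y p) = (p : MvPowerSeries (Fin d) K) :=
  s26elfwo_coords f (s26zero f G) (s26elfwo_zero_isClosed f G)

end O

end Fermat.Agent.S26
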