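import Mathlib
import Fermat.Agent.S26.ELFWO
import Fermat.Agent.S26.PlanE3

/-!
# S26-E (helper39): points with centre `0` — "centre form ⇒ point form"

`K` algebraically closed, `f : A ⟶ Spec K` locally of finite type, `G` the group law.

* `s26ez_SpecMap_ev`     : `P = Spec (ev_{P,x}) ≫ (Spec O_{A,x} ⟶ A)` for `|P| ⤳ x`;
* `s26ez_ext`            : points of `A(R)`, `R` local, with the same evaluation at `x` are equal;
* `s26ez_ev_eq`          : for a field `k ⊇ K` and `P ∈ A(k)` with `|P| = x` CLOSED:
  `ev_{P,x}(r) = c` whenever `r − c ∈ 𝔪_x`, `c ∈ K`;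
* `s26ez_eq_of_pt`       : `P, Q ∈ A(k)` with the same closed image point are EQUAL;
* `s26ez_eq_one_of_pt`   : `P ∈ A(k)` with `|P| = 0` is the zero point `G.one`;
* `s26ez_spOneV_of_centre` : the CENTRE form of "specialises to `0`" implies the POINT form
  (converse of `s26e_centre_of_spOneV`); `s26ez_spOneV_iff`, `s26ez_spOne_iff`,
  `s26ez_spOneAt_iff`.
-/

set_option autoImplicit false
set_option linter.style.haveILetI false

noncomputable section

universe u

open CategoryTheory CategoryTheory.Limits AlgebraicGeometry NeronModelInfra GoodReductionJacobian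

namespace Fermat.Agent.S26

variable {K : Type u} [Field K] {A : Scheme.{u}} (f : A ⟶ Spec (CommRingCat.of K))

section Ext

variable {R : Type u} [CommRing R] [Algebra K R] [IsLocalRing R]

/-- a point with values in a local ring, through the local ring of a specialisation of `|P|` -/
theorem s26ez_SpecMap_ev (P : s26eptPts f R) (x : A) (h : s26eptPt f P ⤳ x) :
    P.1 = Spec.map (CommRingCat.ofHom (s26ecrvEv f P x h)) ≫ A.fromSpecStalk x := by
  rw [s26ept_eq_SpecMap_ev f P]
  conv_lhs => rw [← Scheme.SpecMap_stalkSpecializes_fromSpecStalk h]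
  rw [← Category.assoc, ← Spec.map_comp]
  rfl

/-- points with the same evaluation at a common specialisation of their image points are equal -/
theorem s26ez_ext (P Q : s26eptPts f R) (x : A) (hP : s26eptPt f P ⤳ x)
    (hQ : s26eptPt f Q ⤳ x) (h : s26ecrvEv f P x hP = s26ecrvEv f Q x hQ) : P = Q := by
  apply Subtype.ext
  rw [s26ez_SpecMap_ev f P x hP, s26ez_SpecMap_ev f Q x hQ, h]

/-- the evaluation at the image point itself is a local homomorphism -/
theorem s26ez_ev_isLocalHom (P : s26eptPts f R) (x : A) (hx : s26eptPt f P = x) :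
    IsLocalHom (s26ecrvEv f P x (specializes_of_eq hx)) := by
  subst hx
  have h1 : s26ecrvEv f P (s26eptPt f P) (specializes_of_eq rfl) = s26eptEv f P := by
    unfold s26ecrvEv
    have : A.presheaf.stalkSpecializes (specializes_of_eq (rfl : s26eptPt f P = s26eptPt f P)) =
        𝟙 _ := TopCat.Presheaf.stalkSpecializes_refl _ _
    rw [this]
    rfl
  rw [h1]
  infer_instance

end Ext

section Field

variable {k : Type u} [Field k] [Algebra K k]

/-- the value of a germ at a point with values in a field, at its (closed) image point -/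
theorem s26ez_ev_eq (P : s26eptPts f k) (x : A) (hx : s26eptPt f P = x)
    (r : A.presheaf.stalk x) (c : K)
    (hc : r - s26elfwStalkMap f x c ∈ IsLocalRing.maximalIdeal (A.presheaf.stalk x)) :
    s26ecrvEv f P x (specializes_of_eq hx) r = algebraMap K k c := by
  haveI := s26ez_ev_isLocalHom f P x hx
  have h1 : s26ecrvEv f P x (specializes_of_eq hx) (r - s26elfwStalkMap f x c) = 0 := by
    by_contra hne
    have hu : IsUnit (s26ecrvEv f P x (specializes_of_eq hx) (r - s26elfwStalkMap f x c)) :=
      isUnit_iff_ne_zero.2 hne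
    have hu' := (isUnit_map_iff (s26ecrvEv f P x (specializes_of_eq hx)) _).1 hu
    exact hc hu'
  rw [map_sub, sub_eq_zero] at h1
  rw [h1]
  exact s26ecrvEv_str f P x (specializes_of_eq hx) c

/-- **points with values in a field are determined by their image point, if it is closed** -/
theorem s26ez_eq_of_pt [IsAlgClosed K] [LocallyOfFiniteType f] (P Q : s26eptPts f k) (x : A)
    (hcl : IsClosed ({x} : Set A)) (hP : s26eptPt f P = x) (hQ : s26eptPt f Q = x) : P = Q := by
  apply s26ez_ext f P Q x (specializes_of_eq hP) (specializes_of_eq hQ)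
  ext r
  obtain ⟨c, hc⟩ := s26elfw_hres f x hcl r
  rw [s26ez_ev_eq f P x hP r c hc, s26ez_ev_eq f Q x hQ r c hc]

variable (G : RelativeGroupLaw K f)

/-- **a point with values in a field whose image point is `0` is the zero point** -/
theorem s26ez_eq_one_of_pt [IsAlgClosed K] [LocallyOfFiniteType f] (P : s26eptPts f k)
    (hP : s26eptPt f P = s26zero f G) : P = G.one (s26eptStr K k) :=
  s26ez_eq_of_pt f P (G.one (s26eptStr K k)) (s26zero f G) (s26elfwo_zero_isClosed f G) hP
    (s26e_pt_one f G k)

end Field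

section Sp

variable (G : RelativeGroupLaw K f) [IsProper f] {Ω : Type u} [Field Ω] [Algebra K Ω]

/-- **centre form ⇒ point form**: if the centre of `P` along `V` is `0`, then `sp_V P` is the
zero point of `A(k_V)`. -/
theorem s26ez_spOneV_of_centre [IsAlgClosed K] [LocallyOfFiniteType f] (P : s26eptPts f Ω)
    (V : ValuationSubring Ω) (hV : S26erOver K V)
    (h : s26emCentre (s26eLiftV f V hV P) = s26zero f G) : S26eSpOneV f G P V hV := by
  letI := s26eAlgV V hV
  haveI := s26eAlgV_tower V hV
  show s26eptSp f Ω V P = G.one _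
  apply s26ez_eq_one_of_pt f G
  rw [s26eptPt_sp f Ω V P]
  exact h

theorem s26ez_spOneV_iff [IsAlgClosed K] [LocallyOfFiniteType f] (P : s26eptPts f Ω)
    (V : ValuationSubring Ω) (hV : S26erOver K V) :
    S26eSpOneV f G P V hV ↔ s26emCentre (s26eLiftV f V hV P) = s26zero f G :=
  ⟨s26e_centre_of_spOneV f G P V hV, s26ez_spOneV_of_centre f G P V hV⟩

theorem s26ez_spOne_iff [IsAlgClosed K] [LocallyOfFiniteType f] (P : s26eptPts f Ω) :
    S26eSpOne f G P ↔ S26eSpZero f G P :=
  ⟨s26e_spZero_of_spOne f G P, fun ⟨V, hV, h⟩ => ⟨V, hV, s26ez_spOneV_of_centre f G P V hV h⟩⟩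

theorem s26ez_spOneAt_iff [IsAlgClosed K] [LocallyOfFiniteType f] (P : s26eptPts f Ω)
    (γ₀ : AlgebraicCurve.Place K Ω) : S26eSpOneAt f G P γ₀ ↔ S26eSpZeroAt f G P γ₀ :=
  s26ez_spOneV_iff f G P γ₀.toValuationSubring γ₀.algebraMap_mem'

end Sp

end Fermat.Agent.S26
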