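import Mathlib

/-!
# S26, piece G1-lo (helper87): the lower bound of the growth `dim L m ≥ m ^ g / c₁`

ABSTRACT CORE (Mathlib only).  `K ⊆ F` fields, `L : ℕ → Submodule K F` a multiplicative filtration
(`1 ∈ L 0`, `L a · L b ⊆ L (a + b)`, monotone), `y₁, …, y_g ∈ L c` algebraically independent over
`K`.  Then the monomials `y ^ α`, `α_i ≤ b := m / (c g)`, are `(b + 1) ^ g` linearly independent
elements of `L m`, whence `m ^ g ≤ (c g) ^ g · dim L m` for all `m`.

* `s26g1lo_monomial_mem`    : `∏ y_i ^ α_i ∈ L (c · Σ α_i)`;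
* `s26g1lo_linearIndependent` : the monomials are linearly independent;
* `s26g1lo_card_le`         : `(m / (c g) + 1) ^ g ≤ dim L m`;
* `s26g1lo_core`            : `∃ c₁, ∀ m ≥ 1, m ^ g ≤ c₁ · dim L m`  (the left half of (G1) of `S26Growth`).
-/

set_option autoImplicit false

namespace Fermat.Agent.S26

open MvPolynomial

section Core

variable {K F : Type*} [Field K] [Field F] [Algebra K F]

/-- powers stay in the filtration -/
theorem s26g1lo_pow_mem (L : ℕ → Submodule K F) (h1 : (1 : F) ∈ L 0)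
    (hmul : ∀ a b, ∀ x ∈ L a, ∀ z ∈ L b, x * z ∈ L (a + b))
    {c : ℕ} {x : F} (hx : x ∈ L c) (k : ℕ) : x ^ k ∈ L (c * k) := by
  induction k with
  | zero => simpa using h1
  | succ k ih =>
    rw [pow_succ, Nat.mul_succ]
    exact hmul _ _ _ ih _ hx

/-- finite products stay in the filtration -/
theorem s26g1lo_prod_mem (L : ℕ → Submodule K F) (h1 : (1 : F) ∈ L 0)
    (hmul : ∀ a b, ∀ x ∈ L a, ∀ z ∈ L b, x * z ∈ L (a + b))
    {ι : Type*} (s : Finset ι) (x : ι → F) (d : ι → ℕ) (hx : ∀ i ∈ s, x i ∈ L (d i)) :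
    ∏ i ∈ s, x i ∈ L (∑ i ∈ s, d i) := by
  classical
  induction s using Finset.induction_on with
  | empty => simpa using h1
  | insert a s ha ih =>
    rw [Finset.prod_insert ha, Finset.sum_insert ha]
    exact hmul _ _ _ (hx a (Finset.mem_insert_self a s)) _
      (ih fun i hi => hx i (Finset.mem_insert_of_mem hi))

/-- the monomial `∏ y_i ^ α_i` lies in `L (c · Σ α_i)` -/
theorem s26g1lo_monomial_mem (L : ℕ → Submodule K F) (h1 : (1 : F) ∈ L 0)
    (hmul : ∀ a b, ∀ x ∈ L a, ∀ z ∈ L b, x * z ∈ L (a + b))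
    {g : ℕ} (y : Fin g → F) {c : ℕ} (hyc : ∀ i, y i ∈ L c) (α : Fin g → ℕ) :
    ∏ i, y i ^ α i ∈ L (c * ∑ i, α i) := by
  rw [Finset.mul_sum]
  exact s26g1lo_prod_mem L h1 hmul Finset.univ (fun i => y i ^ α i) (fun i => c * α i)
    (fun i _ => s26g1lo_pow_mem L h1 hmul (hyc i) (α i))

/-- the monomials in algebraically independent elements are linearly independent -/
theorem s26g1lo_linearIndependent {g : ℕ} (y : Fin g → F) (hy : AlgebraicIndependent K y)
    (b : ℕ) :
    LinearIndependent K (fun α : Fin g → Fin (b + 1) => ∏ i, y i ^ (α i : ℕ)) := by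
  classical
  -- the monomials of `MvPolynomial`
  have hbasis : LinearIndependent K
      (fun s : Fin g →₀ ℕ => (monomial s (1 : K) : MvPolynomial (Fin g) K)) :=
    (MvPolynomial.basisMonomials (Fin g) K).linearIndependent
  let e : (Fin g → Fin (b + 1)) → (Fin g →₀ ℕ) :=
    fun α => Finsupp.equivFunOnFinite.symm (fun i => (α i : ℕ))
  have he : Function.Injective e := by
    intro α β h
    funext i
    have := congrArg (fun s : Fin g →₀ ℕ => s i) h
    exact Fin.ext (by simpa [e] using this)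
  have h2 : LinearIndependent K
      (fun α : Fin g → Fin (b + 1) => (monomial (e α) (1 : K) : MvPolynomial (Fin g) K)) :=
    hbasis.comp e he
  have h3 := h2.map' (aeval y : MvPolynomial (Fin g) K →ₐ[K] F).toLinearMap
    (LinearMap.ker_eq_bot.2 hy)
  have hfun : (fun α : Fin g → Fin (b + 1) => ∏ i, y i ^ (α i : ℕ)) =
      (⇑(aeval y : MvPolynomial (Fin g) K →ₐ[K] F).toLinearMap ∘
        fun α : Fin g → Fin (b + 1) => (monomial (e α) (1 : K) : MvPolynomial (Fin g) K)) := by
    funext α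
    simp only [Function.comp_apply, AlgHom.toLinearMap_apply, aeval_monomial, map_one, one_mul]
    rw [Finsupp.prod_fintype _ _ (fun i => pow_zero _)]
    rfl
  rw [hfun]
  exact h3

/-- **The count.**  `(m / (c g) + 1) ^ g ≤ dim L m`. -/
theorem s26g1lo_card_le (L : ℕ → Submodule K F) (hfin : ∀ m, Module.Finite K (L m))
    (hmono : Monotone L) (h1 : (1 : F) ∈ L 0)
    (hmul : ∀ a b, ∀ x ∈ L a, ∀ z ∈ L b, x * z ∈ L (a + b))
    {g : ℕ} (y : Fin g → F) (hy : AlgebraicIndependent K y) {c : ℕ}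
    (hyc : ∀ i, y i ∈ L c) (m : ℕ) :
    (m / (c * g) + 1) ^ g ≤ Module.finrank K (L m) := by
  classical
  set b := m / (c * g) with hb
  have hmem : ∀ α : Fin g → Fin (b + 1), ∏ i, y i ^ (α i : ℕ) ∈ L m := by
    intro α
    have h := s26g1lo_monomial_mem L h1 hmul y hyc (fun i => (α i : ℕ))
    refine hmono ?_ h
    have hsum : ∑ i : Fin g, ((α i : ℕ)) ≤ g * b := by
      calc ∑ i : Fin g, ((α i : ℕ)) ≤ ∑ _i : Fin g, b :=
            Finset.sum_le_sum fun i _ => Nat.lt_succ_iff.1 (α i).2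
        _ = g * b := by simp
    calc c * ∑ i : Fin g, ((α i : ℕ)) ≤ c * (g * b) := Nat.mul_le_mul_left c hsum
      _ = (c * g) * (m / (c * g)) := by rw [hb]; ring
      _ ≤ m := Nat.mul_div_le m (c * g)
  have hli := s26g1lo_linearIndependent (K := K) y hy b
  have hli' : LinearIndependent K
      (fun α : Fin g → Fin (b + 1) => (⟨∏ i, y i ^ (α i : ℕ), hmem α⟩ : ↥(L m))) := by
    refine LinearIndependent.of_comp (L m).subtype ?_
    exact hli
  have := hfin m
  have hcard := hli'.fintype_card_le_finrank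
  rw [Fintype.card_fun, Fintype.card_fin, Fintype.card_fin] at hcard
  exact hcard

/-- **G1-lo, abstract core.**  The left half of (G1): `m ^ g ≤ c₁ · dim L m` for all `m ≥ 1`,
with `c₁ = (c g) ^ g` (`c₁ = 1` if `c g = 0`). -/
theorem s26g1lo_core (L : ℕ → Submodule K F) (hfin : ∀ m, Module.Finite K (L m))
    (hmono : Monotone L) (h1 : (1 : F) ∈ L 0)
    (hmul : ∀ a b, ∀ x ∈ L a, ∀ z ∈ L b, x * z ∈ L (a + b))
    {g : ℕ} (y : Fin g → F) (hy : AlgebraicIndependent K y) {c : ℕ} (hc : 0 < c)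
    (hyc : ∀ i, y i ∈ L c) :
    ∃ c₁ : ℕ, ∀ m, 1 ≤ m → m ^ g ≤ c₁ * Module.finrank K (L m) := by
  rcases Nat.eq_zero_or_pos g with hg | hg
  · subst hg
    refine ⟨1, fun m _ => ?_⟩
    have := s26g1lo_card_le L hfin hmono h1 hmul y hy hyc m
    simpa using this
  · refine ⟨(c * g) ^ g, fun m _ => ?_⟩
    have h := s26g1lo_card_le L hfin hmono h1 hmul y hy hyc m
    have hcg : 0 < c * g := Nat.mul_pos hc hg
    have h2 : m ≤ (c * g) * (m / (c * g) + 1) := by
      have := Nat.lt_div_mul_add hcg (a := m)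
      rw [Nat.mul_add, Nat.mul_one, Nat.mul_comm]
      omega
    calc m ^ g ≤ ((c * g) * (m / (c * g) + 1)) ^ g := Nat.pow_le_pow_left h2 g
      _ = (c * g) ^ g * (m / (c * g) + 1) ^ g := by rw [Nat.mul_pow]
      _ ≤ (c * g) ^ g * Module.finrank K (L m) := Nat.mul_le_mul_left _ h

end Core

end Fermat.Agent.S26
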