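/-
S26, piece G1-lo (helper87): the INSTANCE of the lower bound  `m ^ g ≤ c₁ · dim L(U, m)`.

* `s26g1li_exists_of_stdSmooth` : a nontrivial standard smooth algebra of relative dimension `g`
  over a domain contains `g` algebraically independent elements (étale over `R[X₁..X_g]`, flat ⇒
  injective);
* `s26g1li_algIndep_frac`, `s26g1li_exchange` : hence `g` algebraically independent elements of
  `K(A)` inside the image of `Γ(A, U)` (transcendence-basis exchange);
* `s26g1li_finite_divisors` : finitely many prime divisors outside a nonempty open;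
* `s26g1li_ord_nonneg`, `s26g1li_germ_mem`, `s26g1li_family_mem` : sections over `U` lie in `L(U, c)`;
* `s26g1li_sections` : `g` algebraically independent sections over `U`;
* **`s26g1lo_of`** : the lower bound, from (b2) [= second half of F2 at `U`] and (fin);
* `s26g1lo_growth` : `s26_StmtL → s26g1lo_StmtUp → s26_StmtGrowth`.
-/
import Fermat.Agent.S26.PlanGeo
import Fermat.Agent.S26.G1Lo

set_option autoImplicit false
set_option linter.style.haveILetI false
set_option linter.unusedSectionVars false

noncomputable section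
namespace Fermat.Agent.S26
open CategoryTheory CategoryTheory.Limits AlgebraicGeometry NeronModelInfra GoodReductionJacobian
open TopologicalSpace MvPolynomial
universe u

/-! ### commutative algebra -/

/-- étale over a domain with nontrivial target ⇒ injective. -/
theorem s26g1li_injective_of_etale {P S : Type u} [CommRing P] [IsDomain P] [CommRing S]
    [Nontrivial S] (γ : P →+* S) (hγ : γ.Etale) : Function.Injective γ := by
  have hflat : γ.Flat := (RingHom.Etale.iff_flat_and_formallyUnramified.mp hγ).1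
  algebraize [γ]
  rw [injective_iff_map_eq_zero]
  intro a ha
  by_contra hne
  have hreg : IsSMulRegular S a :=
    Module.Flat.isSMulRegular_of_nonZeroDivisors (mem_nonZeroDivisors_of_ne_zero hne)
  have h1 : a • (1 : S) = a • (0 : S) := by
    rw [Algebra.smul_def, mul_one, smul_zero]
    exact ha
  exact one_ne_zero (hreg h1)

/-- A nontrivial standard smooth algebra of relative dimension `g` over `R` (a domain) contains
`g` algebraically independent elements. -/
theorem s26g1li_exists_of_stdSmooth {R S : Type u} [CommRing R] [IsDomain R] [CommRing S]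
    [Nontrivial S] (φ : R →+* S) (g : ℕ) (h : φ.IsStandardSmoothOfRelativeDimension g) :
    ∃ x : Fin g → S, Function.Injective (MvPolynomial.eval₂Hom φ x) := by
  obtain ⟨γ, hγC, hγ⟩ := h.exists_etale_mvPolynomial
  refine ⟨fun i => γ (X i), ?_⟩
  have hinj := s26g1li_injective_of_etale γ hγ
  have : MvPolynomial.eval₂Hom φ (fun i => γ (X i)) = γ := by
    apply MvPolynomial.ringHom_ext
    · intro r
      simp only [coe_eval₂Hom, eval₂_C]
      rw [← hγC]; rfl
    · intro i
      simp
  rw [this]
  exact hinj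

/-- `g` algebraically independent elements of the fraction field `F` of `R` from standard
smoothness of a localisation `R_t`. -/
theorem s26g1li_algIndep_frac {K R F : Type u} [Field K] [CommRing R] [IsDomain R] [Field F]
    [Algebra K F] (ι : K →+* R) (j : R →+* F) (hj : Function.Injective j)
    (hjι : j.comp ι = algebraMap K F) (t : R) (ht : t ≠ 0) (g : ℕ)
    (hsm : ((algebraMap R (Localization.Away t)).comp ι).IsStandardSmoothOfRelativeDimension g) :
    ∃ z : Fin g → F, AlgebraicIndependent K z := by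
  have hle : Submonoid.powers t ≤ nonZeroDivisors R :=
    powers_le_nonZeroDivisors_of_noZeroDivisors ht
  haveI : IsDomain (Localization.Away t) := IsLocalization.isDomain_localization hle
  obtain ⟨x, hx⟩ := s26g1li_exists_of_stdSmooth _ g hsm
  have hu : IsUnit (j t) := IsUnit.mk0 _ (by
    intro h0
    exact ht (hj (by rw [h0, map_zero])))
  let lam : Localization.Away t →+* F := IsLocalization.Away.lift t hu
  have hlam : lam.comp (algebraMap R (Localization.Away t)) = j := by
    ext r
    exact IsLocalization.Away.lift_eq t hu r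
  have hlaminj : Function.Injective lam := by
    show Function.Injective (IsLocalization.lift _)
    rw [IsLocalization.lift_injective_iff]
    intro a b
    rw [(IsLocalization.injective (Localization.Away t) hle).eq_iff, hj.eq_iff]
  refine ⟨fun i => lam (x i), ?_⟩
  rw [algebraicIndependent_iff_injective_aeval]
  have hfun : (MvPolynomial.aeval (R := K) fun i => lam (x i) : MvPolynomial (Fin g) K → F) =
      lam ∘ (MvPolynomial.eval₂Hom ((algebraMap R (Localization.Away t)).comp ι) x) := by
    have hring : ((MvPolynomial.aeval (R := K) fun i => lam (x i)) : MvPolynomial (Fin g) K →ₐ[K] F).toRingHom =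
        lam.comp (MvPolynomial.eval₂Hom ((algebraMap R (Localization.Away t)).comp ι) x) := by
      apply MvPolynomial.ringHom_ext
      · intro r
        simp only [AlgHom.toRingHom_eq_coe, RingHom.coe_coe, aeval_C, RingHom.coe_comp,
          Function.comp_apply, coe_eval₂Hom, eval₂_C]
        rw [← hjι, ← hlam]
        rfl
      · intro i
        simp
    funext p
    exact congrArg (fun φ : MvPolynomial (Fin g) K →+* F => φ p) hring
  rw [hfun]
  exact hlaminj.comp hx

/-- exchange: if `F` is generated as a field by `j '' R` and contains `g` algebraically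
independent elements, then `g` algebraically independent elements can be found in `j '' R`. -/
theorem s26g1li_exchange {K R F : Type u} [Field K] [CommRing R] [Field F]
    [Algebra K F] (j : R →+* F)
    (hfrac : ∀ x : F, ∃ a b : R, j b ≠ 0 ∧ x = j a / j b) (g : ℕ)
    (z : Fin g → F) (hz : AlgebraicIndependent K z) :
    ∃ y : Fin g → R, AlgebraicIndependent K (fun i => j (y i)) := by
  classical
  let T : Set F := Set.range j
  haveI halg : Algebra.IsAlgebraic (Algebra.adjoin K T) F := by
    constructor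
    intro x
    obtain ⟨a, b, hb, rfl⟩ := hfrac x
    have ha' : IsAlgebraic (Algebra.adjoin K T) (j a) := by
      have : j a = algebraMap (Algebra.adjoin K T) F ⟨j a, Algebra.subset_adjoin ⟨a, rfl⟩⟩ := rfl
      rw [this]; exact isAlgebraic_algebraMap _
    have hb' : IsAlgebraic (Algebra.adjoin K T) (j b) := by
      have : j b = algebraMap (Algebra.adjoin K T) F ⟨j b, Algebra.subset_adjoin ⟨b, rfl⟩⟩ := rfl
      rw [this]; exact isAlgebraic_algebraMap _
    rw [div_eq_mul_inv]
    exact ha'.mul hb'.inv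
  obtain ⟨u, huT, hu⟩ := exists_isTranscendenceBasis_subset (R := K) T
  have h1 := hu.lift_cardinalMk_eq_trdeg
  have h2 := hz.lift_cardinalMk_le_trdeg
  have h1' : Cardinal.mk u = Algebra.trdeg K F := by simpa using h1
  have h2' : Cardinal.lift.{u} (Cardinal.mk (Fin g)) ≤ Algebra.trdeg K F := by simpa using h2
  have h3 : Cardinal.lift.{u} (Cardinal.mk (Fin g)) ≤ Cardinal.lift.{0} (Cardinal.mk u) := by
    rw [Cardinal.lift_uzero, h1']
    exact h2'
  obtain ⟨e⟩ := Cardinal.lift_mk_le'.mp h3
  have hmem : ∀ i, ∃ r : R, j r = ((e i : u) : F) := fun i => huT (e i).2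
  choose y hy using hmem
  refine ⟨y, ?_⟩
  have hfun : (fun i => j (y i)) = (fun i => ((e i : u) : F)) := funext hy
  rw [hfun]
  exact hu.1.comp e e.injective


/-! ### geometry -/

variable {K : Type u} [Field K] {A : Scheme.{u}} (f : A ⟶ Spec (CommRingCat.of K))

/-- the prime divisors outside a nonempty open of a noetherian integral scheme are finite in
number. -/
theorem s26g1li_finite_divisors [IsIntegral A] [IsNoetherian A] (U : A.Opens) [hne : Nonempty U] :
    {z : A | Order.coheight z = 1 ∧ z ∉ U}.Finite := by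
  classical
  have hcl : IsClosed ((U : Set A)ᶜ) := U.isOpen.isClosed_compl
  obtain ⟨S, hSf, hSc, hSi, hSU⟩ := NoetherianSpace.exists_finite_set_isClosed_irreducible hcl
  let gen : Set A → A := fun t => if h : IsIrreducible t then h.genericPoint else genericPoint A
  refine (hSf.image gen).subset ?_
  rintro z ⟨hz1, hzU⟩
  have hzc : z ∈ ((U : Set A)ᶜ) := hzU
  rw [hSU] at hzc
  obtain ⟨t, htS, hzt⟩ := hzc
  refine ⟨t, htS, ?_⟩
  have hirr := hSi t htS
  have hgen : IsGenericPoint hirr.genericPoint t := hirr.isGenericPoint_genericPoint (hSc t htS)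
  simp only [gen, dif_pos hirr]
  set η := hirr.genericPoint with hη
  -- `η ⤳ z`
  have hηz : η ⤳ z := hgen.specializes hzt
  by_contra hne'
  have hlt1 : z < η := by
    refine lt_of_le_not_ge (Scheme.le_iff_specializes.mpr hηz) ?_
    intro h
    exact hne' ((Scheme.le_iff_specializes.mp h).antisymm hηz).eq.symm
  have hgU : genericPoint A ∈ U :=
    ((genericPoint_spec A).mem_open_set_iff U.isOpen).mpr (by simpa using hne)
  have hηt : η ∈ t := by
    have := hgen.mem
    exact this
  have hηU : η ∉ U := by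
    intro h
    have : η ∈ ((U : Set A)ᶜ) := by rw [hSU]; exact ⟨t, htS, hηt⟩
    exact this h
  have hlt2 : η < (⊤ : A) := by
    refine lt_of_le_not_ge le_top ?_
    intro h
    -- `η ⤳ ⊤`, so `⊤ ∈ closure {η} = t ⊆ Uᶜ`
    have hsp : η ⤳ genericPoint A := Scheme.le_iff_specializes.mp h
    have hmem : genericPoint A ∈ t := by
      have := hsp.mem_closed (hSc t htS) hηt
      exact this
    have : genericPoint A ∈ ((U : Set A)ᶜ) := by rw [hSU]; exact ⟨t, htS, hmem⟩
    exact this hgU
  have h1 := Order.coheight_add_one_le hlt1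
  have h2 := Order.coheight_add_one_le hlt2
  rw [hz1] at h1
  have h3 : (1 : ℕ∞) ≤ Order.coheight η := le_trans (by simp) h2
  have h4 : (2 : ℕ∞) ≤ 1 := by
    calc (2 : ℕ∞) = 1 + 1 := by norm_num
      _ ≤ Order.coheight η + 1 := by gcongr
      _ ≤ 1 := h1
  exact absurd h4 (by norm_num)

/-- a section over `U` has non-negative order at the points of `U`. -/
theorem s26g1li_ord_nonneg [IsIntegral A] [IsLocallyNoetherian A] (U : A.Opens) [Nonempty U]
    (r : Γ(A, U)) (z : A) (hz : z ∈ U) : 0 ≤ s26ord f (s26germ f U r) z := by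
  by_cases hr : r = 0
  · subst hr
    have : s26germ f U 0 = 0 := map_zero _
    rw [this]
    show 0 ≤ Scheme.ord (X := A) (0 : A.functionField) z
    rw [Scheme.ord_zero]; rfl
  · have h1 := Scheme.ord_le_smul (X := A) hz hr (1 : A.functionField)
    have h0 : Scheme.ord (X := A) (1 : A.functionField) z = 0 := by
      have := Scheme.ord_of_isUnit (X := A) (U := U) (f := 1) isUnit_one hz
      rwa [map_one] at this
    rw [h0] at h1
    have h2 : r • (1 : A.functionField) = (A.germToFunctionField U).hom r := by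
      rw [Algebra.smul_def, mul_one]; rfl
    rw [h2] at h1
    exact h1

/-- monotonicity of `s26Lset` in `m`. -/
theorem s26g1li_Lset_mono [IsIntegral A] [IsLocallyNoetherian A] (U : A.Opens) {m m' : ℕ}
    (h : m ≤ m') : s26Lset f U m ⊆ s26Lset f U m' := by
  intro x hx z hz
  refine ⟨(hx z hz).1, ?_⟩
  have h1 := (hx z hz).2
  have h2 : -(m' : ℤ) ≤ -(m : ℤ) := by
    have : (m : ℤ) ≤ (m' : ℤ) := by exact_mod_cast h
    linarith
  exact le_trans h2 h1

/-- monotonicity of `s26L` in `m`. -/
theorem s26g1li_L_mono [IsIntegral A] [IsLocallyNoetherian A] (U : A.Opens) :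
    Monotone (s26L f U) :=
  fun _ _ h => Submodule.span_mono (s26g1li_Lset_mono f U h)

/-- `ord 1 = 0`. -/
theorem s26g1li_ord_one [IsIntegral A] [IsLocallyNoetherian A] (z : A) :
    s26ord f (1 : s26F f) z = 0 := by
  haveI : Nonempty (⊤ : A.Opens) := ⟨⟨genericPoint A, trivial⟩⟩
  have := Scheme.ord_of_isUnit (X := A) (U := ⊤) (f := 1) isUnit_one (x := z) trivial
  rwa [map_one] at this

/-- `1 ∈ L(U, 0)`. -/
theorem s26g1li_one_mem [IsIntegral A] [IsLocallyNoetherian A] (U : A.Opens) :
    (1 : s26F f) ∈ s26L f U 0 := by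
  refine Submodule.subset_span ?_
  intro z _
  rw [s26g1li_ord_one]
  simp

/-- every section over `U` lies in some `L(U, c)`. -/
theorem s26g1li_germ_mem [IsIntegral A] [IsLocallyNoetherian A] [CompactSpace A] (U : A.Opens)
    [Nonempty U] (r : Γ(A, U)) : ∃ c : ℕ, s26germ f U r ∈ s26Lset f U c := by
  classical
  haveI : IsNoetherian A := {}
  have hfin := s26g1li_finite_divisors (A := A) U
  refine ⟨hfin.toFinset.sup (fun z => (-(s26ord f (s26germ f U r) z)).toNat), ?_⟩
  intro z hz
  by_cases hzU : z ∈ U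
  · have h0 := s26g1li_ord_nonneg f U r z hzU
    refine ⟨fun _ => h0, ?_⟩
    have : -((hfin.toFinset.sup (fun z => (-(s26ord f (s26germ f U r) z)).toNat) : ℕ) : ℤ) ≤ 0 := by
      simp
    exact le_trans this h0
  · refine ⟨fun h => absurd h hzU, ?_⟩
    have hmem : z ∈ hfin.toFinset := by
      rw [Set.Finite.mem_toFinset]; exact ⟨hz, hzU⟩
    have h1 : (-(s26ord f (s26germ f U r) z)).toNat ≤
        hfin.toFinset.sup (fun z => (-(s26ord f (s26germ f U r) z)).toNat) :=
      Finset.le_sup (f := fun z => (-(s26ord f (s26germ f U r) z)).toNat) hmem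
    have h2 : -(s26ord f (s26germ f U r) z) ≤ ((-(s26ord f (s26germ f U r) z)).toNat : ℤ) :=
      Int.self_le_toNat _
    have h3 : ((-(s26ord f (s26germ f U r) z)).toNat : ℤ) ≤
        ((hfin.toFinset.sup (fun z => (-(s26ord f (s26germ f U r) z)).toNat) : ℕ) : ℤ) := by
      exact_mod_cast h1
    linarith

/-- a finite family of sections over `U` lies in one `L(U, c)`, `c > 0`. -/
theorem s26g1li_family_mem [IsIntegral A] [IsLocallyNoetherian A] [CompactSpace A] (U : A.Opens)
    [Nonempty U] {g : ℕ} (y : Fin g → Γ(A, U)) :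
    ∃ c : ℕ, 0 < c ∧ ∀ i, s26germ f U (y i) ∈ s26L f U c := by
  classical
  have h := fun i => s26g1li_germ_mem f U (y i)
  choose c hc using h
  refine ⟨Finset.univ.sup c + 1, Nat.succ_pos _, fun i => ?_⟩
  refine Submodule.subset_span ?_
  refine s26g1li_Lset_mono f U ?_ (hc i)
  exact le_trans (Finset.le_sup (f := c) (Finset.mem_univ i)) (Nat.le_succ _)


/-- the structure map `K → Γ(A, U)`. -/
def s26g1liStr (U : A.Opens) : K →+* Γ(A, U) :=
  (f.appLE ⊤ U (fun _ _ => trivial)).hom.comp (Scheme.ΓSpecIso (CommRingCat.of K)).inv.hom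

/-- compatibility of the structure maps. -/
theorem s26g1li_germ_str [IsIntegral A] (U : A.Opens) [Nonempty U] :
    (s26germ f U).comp (s26g1liStr f U) = algebraMap K (s26F f) := by
  haveI : Nonempty (⊤ : A.Opens) := ⟨⟨genericPoint A, trivial⟩⟩
  have he : U ≤ f ⁻¹ᵁ ⊤ := fun _ _ => trivial
  have h : f.appLE ⊤ U he ≫ A.germToFunctionField U =
      f.appTop ≫ A.germToFunctionField ⊤ := by
    have e2 : A.presheaf.map (homOfLE he).op ≫ A.germToFunctionField U =
        A.presheaf.germ (f ⁻¹ᵁ ⊤) (genericPoint A) trivial :=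
      TopCat.Presheaf.germ_res _ _ _ _
    calc f.appLE ⊤ U he ≫ A.germToFunctionField U
        = f.app ⊤ ≫ (A.presheaf.map (homOfLE he).op ≫ A.germToFunctionField U) := by
          rw [← Category.assoc]; rfl
      _ = f.app ⊤ ≫ A.presheaf.germ (f ⁻¹ᵁ ⊤) (genericPoint A) trivial := by rw [e2]
      _ = f.appTop ≫ A.germToFunctionField ⊤ := rfl
  have h' : (A.germToFunctionField U).hom.comp (f.appLE ⊤ U he).hom =
      (A.germToFunctionField ⊤).hom.comp f.appTop.hom := by
    have := congrArg CommRingCat.Hom.hom h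
    simpa using this
  show (A.germToFunctionField U).hom.comp ((f.appLE ⊤ U he).hom.comp
      (Scheme.ΓSpecIso (CommRingCat.of K)).inv.hom) = s26algMap f
  rw [← RingHom.comp_assoc, h']
  rfl

/-- `K(A)` is the fraction field of `Γ(A, U)`, `U` affine. -/
theorem s26g1li_frac [IsIntegral A] (U : A.Opens) (hU : IsAffineOpen U) [Nonempty U]
    (x : s26F f) : ∃ a b : Γ(A, U), s26germ f U b ≠ 0 ∧ x = s26germ f U a / s26germ f U b := by
  haveI := functionField_isFractionRing_of_isAffineOpen A U hU
  obtain ⟨a, b, hb, hab⟩ :=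
    IsFractionRing.div_surjective (A := Γ(A, U)) (K := A.functionField) x
  refine ⟨a, b, ?_, hab.symm⟩
  have hb0 : b ≠ 0 := nonZeroDivisors.ne_zero hb
  intro h0
  exact hb0 (Scheme.germToFunctionField_injective A U (by rw [map_zero]; exact h0))

/-- `g` algebraically independent sections over an affine open `U`. -/
theorem s26g1li_sections [IsIntegral A] (g : ℕ) (hsm : SmoothOfRelativeDimension g f)
    (U : A.Opens) (hU : IsAffineOpen U) [Nonempty U] :
    ∃ y : Fin g → Γ(A, U), AlgebraicIndependent K (fun i => s26germ f U (y i)) := by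
  have he : U ≤ f ⁻¹ᵁ ⊤ := fun _ _ => trivial
  have hloc : RingHom.Locally (RingHom.IsStandardSmoothOfRelativeDimension g)
      (f.appLE ⊤ U he).hom :=
    HasRingHomProperty.appLE (P := @SmoothOfRelativeDimension g) f hsm
      ⟨⊤, isAffineOpen_top _⟩ ⟨U, hU⟩ he
  obtain ⟨s, hs, hP⟩ := hloc
  -- a nonzero element of `s`
  have hex : ∃ t ∈ s, t ≠ 0 := by
    by_contra hno
    push Not at hno
    have hle : Ideal.span s ≤ (⊥ : Ideal Γ(A, U)) := by
      rw [Ideal.span_le]
      intro t ht
      simpa using hno t ht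
    rw [hs] at hle
    exact top_ne_bot (le_bot_iff.mp hle)
  obtain ⟨t, hts, ht0⟩ := hex
  have hsm' : ((algebraMap Γ(A, U) (Localization.Away t)).comp
      (s26g1liStr f U)).IsStandardSmoothOfRelativeDimension g := by
    have h1 := hP t hts
    let e : K ≃+* Γ(Spec (CommRingCat.of K), ⊤) :=
      (Scheme.ΓSpecIso (CommRingCat.of K)).symm.commRingCatIsoToRingEquiv
    have h2 := RingHom.IsStandardSmoothOfRelativeDimension.equiv e
    have h3 := h1.comp h2
    rw [add_zero] at h3
    exact h3
  obtain ⟨z, hz⟩ := s26g1li_algIndep_frac (K := K) (R := Γ(A, U)) (F := s26F f)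
    (s26g1liStr f U) (s26germ f U) (Scheme.germToFunctionField_injective A U)
    (s26g1li_germ_str f U) t ht0 g hsm'
  exact s26g1li_exchange (K := K) (s26germ f U) (s26g1li_frac f U hU) g z hz

/-! ### products -/

/-- `0 ∈ L(U, m)` (as a set). -/
theorem s26g1li_zero_mem_Lset [IsIntegral A] [IsLocallyNoetherian A] (U : A.Opens) (m : ℕ) :
    (0 : s26F f) ∈ s26Lset f U m := by
  intro z _
  have h0 : s26ord f (0 : s26F f) z = 0 := by
    show Scheme.ord (X := A) (0 : A.functionField) z = 0
    rw [Scheme.ord_zero]; rfl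
  rw [h0]
  exact ⟨fun _ => le_rfl, by simp⟩

/-- products add the pole orders (on the sets). -/
theorem s26g1li_Lset_mul [IsIntegral A] [IsLocallyNoetherian A] (U : A.Opens) (a b : ℕ)
    {x y : s26F f} (hx : x ∈ s26Lset f U a) (hy : y ∈ s26Lset f U b) :
    x * y ∈ s26Lset f U (a + b) := by
  by_cases hx0 : x = 0
  · rw [hx0, zero_mul]; exact s26g1li_zero_mem_Lset f U _
  by_cases hy0 : y = 0
  · rw [hy0, mul_zero]; exact s26g1li_zero_mem_Lset f U _
  intro z hz
  have hmul : s26ord f (x * y) z = s26ord f x z + s26ord f y z :=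
    Scheme.ord_mul (X := A) (x := z) (f := x) (g := y) hx0 hy0
  rw [hmul]
  obtain ⟨hx1, hx2⟩ := hx z hz
  obtain ⟨hy1, hy2⟩ := hy z hz
  refine ⟨fun hzU => add_nonneg (hx1 hzU) (hy1 hzU), ?_⟩
  push_cast
  linarith

/-- **(b2)**: products add the pole orders. -/
theorem s26g1li_L_mul [IsIntegral A] [IsLocallyNoetherian A] (U : A.Opens) (a b : ℕ) :
    ∀ x ∈ s26L f U a, ∀ y ∈ s26L f U b, x * y ∈ s26L f U (a + b) := by
  intro x hx y hy
  have h1 : x * y ∈ s26L f U a * s26L f U b := Submodule.mul_mem_mul hx hy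
  have h2 : s26L f U a * s26L f U b ≤ s26L f U (a + b) := by
    unfold s26L
    rw [Submodule.span_mul_span]
    refine Submodule.span_mono ?_
    rintro _ ⟨p, hp, q, hq, rfl⟩
    exact s26g1li_Lset_mul f U a b hp hq
  exact h2 h1

/-! ### the lower bound -/

/-- **G1-lo**, general form: `A` integral, noetherian, smooth of relative dimension `g` over
`K`, `U` a nonempty affine open, `dim L(U, m) < ∞`.  Then `m ^ g ≤ c₁ · dim L(U, m)`. -/
theorem s26g1lo_of_affine [IsIntegral A] [IsLocallyNoetherian A] [CompactSpace A] (g : ℕ)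
    (hsm : SmoothOfRelativeDimension g f) (U : A.Opens) (hU : IsAffineOpen U) [Nonempty U]
    (hfin : ∀ m, Module.Finite K (s26L f U m)) :
    ∃ c₁ : ℕ, ∀ m, 1 ≤ m → m ^ g ≤ c₁ * Module.finrank K (s26L f U m) := by
  obtain ⟨y, hy⟩ := s26g1li_sections f g hsm U hU
  obtain ⟨c, hc, hyc⟩ := s26g1li_family_mem f U y
  exact s26g1lo_core (s26L f U) hfin (s26g1li_L_mono f U) (s26g1li_one_mem f U)
    (s26g1li_L_mul f U) _ hy hc hyc

/-- `A` is quasi-compact. -/
theorem s26g1li_compact (G : RelativeGroupLaw K f) (g : ℕ) (H : S26Hyp K f G g) :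
    CompactSpace A := by
  haveI := H.bundle.proper
  exact QuasiCompact.compactSpace_of_compactSpace f

/-- **G1-lo** in the frame of `PlanGeo`: the lower half of `s26_StmtGrowth`, from (fin). -/
theorem s26g1lo_of (G : RelativeGroupLaw K f) (g : ℕ) (H : S26Hyp K f G g)
    [IsIntegral A] [IsLocallyNoetherian A] (U : A.Opens) (hU : S26IsAdm f G U)
    (hfin : ∀ m, Module.Finite K (s26L f U m)) :
    ∃ c₁ : ℕ, ∀ m, 1 ≤ m → m ^ g ≤ c₁ * Module.finrank K (s26L f U m) := by
  haveI : Nonempty U := ⟨⟨s26zero f G, hU.2.1⟩⟩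
  haveI : CompactSpace A := s26g1li_compact f G g H
  exact s26g1lo_of_affine f g H.smooth U hU.1 hfin

/-- **G1-up** (+ fin): the part of `s26_StmtGrowth` that is left. -/
def s26g1lo_StmtUp : Prop :=
  ∀ (K : Type u) [Field K] {A : Scheme.{u}} (f : A ⟶ Spec (CommRingCat.of K))
    (G : RelativeGroupLaw K f) (g : ℕ), S26Hyp K f G g →
    ∀ [IsIntegral A] [IsLocallyNoetherian A] (U : A.Opens), S26IsAdm f G U →
      (∀ (V : A.Opens), Nonempty V → ∀ m, Module.Finite K (s26L f V m)) ∧
      ∃ c₂ : ℕ, ∀ m, 1 ≤ m → Module.finrank K (s26L f U m) ≤ c₂ * m ^ g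

/-- **G1 glue**: `s26_StmtGrowth` from G1-up (+ fin). -/
theorem s26g1lo_growth (hup : s26g1lo_StmtUp.{u}) : s26_StmtGrowth.{u} := by
  intro K _ A f G g H _ _ U hU
  obtain ⟨hfin, c₂, hc₂⟩ := hup K f G g H U hU
  have hne : Nonempty U := ⟨⟨s26zero f G, hU.2.1⟩⟩
  obtain ⟨c₁, hc₁⟩ := s26g1lo_of f G g H U hU (hfin U hne)
  exact ⟨hfin, c₁, c₂, fun m hm => ⟨hc₁ m hm, hc₂ m hm⟩⟩

end Fermat.Agent.S26
end
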