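/-
S26, piece G1-up (helper63): INTERFACE.  Upper half + (fin) of `s26_StmtGrowth`.

`s26g1u_StmtUp` (the target) is proved from
* the pure algebra of `S26/G1UpAlg.lean` (degree valuation of `K(y)`, trace, Frobenius trick),
* `s26g1u_StmtHartogs` (G-a): `L(U, m) ⊆ Γ(U)` for `U` affine (normality),
* `s26g1u_StmtCentre` (G-c): valuative criterion + local equations of `A ∖ U`,
* `s26g1u_StmtTrdegLe`: `trdeg_K K(A) ≤ g`.
Statements only.
-/
import Fermat.Agent.S26.PlanGeo

set_option autoImplicit false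
noncomputable section
namespace Fermat.Agent.S26
open CategoryTheory CategoryTheory.Limits AlgebraicGeometry NeronModelInfra GoodReductionJacobian
universe u

/-- **G1-up, target**: `(fin)` for every nonempty open, and `dim L(U, m) ≤ c₂ m ^ g` for every
nonempty affine open `U`. -/
def s26g1u_StmtUp : Prop :=
  ∀ (K : Type u) [Field K] {A : Scheme.{u}} (f : A ⟶ Spec (CommRingCat.of K))
    (G : RelativeGroupLaw K f) (g : ℕ), S26Hyp K f G g →
    ∀ [IsIntegral A] [IsLocallyNoetherian A],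
      (∀ (V : A.Opens), Nonempty V → ∀ m, Module.Finite K (s26L f V m)) ∧
      ∀ (U : A.Opens), Nonempty U → IsAffineOpen U →
        ∃ c₂ : ℕ, ∀ m, 1 ≤ m → Module.finrank K (s26L f U m) ≤ c₂ * m ^ g

/-- **(G-a) Hartogs**: on an affine open `U` the elements of `L(U, m)` are regular on `U`. -/
def s26g1u_StmtHartogs : Prop :=
  ∀ (K : Type u) [Field K] {A : Scheme.{u}} (f : A ⟶ Spec (CommRingCat.of K))
    (G : RelativeGroupLaw K f) (g : ℕ), S26Hyp K f G g →
    ∀ [IsIntegral A] [IsLocallyNoetherian A] (U : A.Opens) [Nonempty U], IsAffineOpen U →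
      ∀ m, ∀ x ∈ s26L f U m, ∃ r : Γ(A, U), s26germ f U r = x

/-- **(G-c) centres**: there are finitely many `σ ≠ 0` in `K(A)` such that every valuation ring
`𝒪` of `K(A) / K` that does not contain `Γ(U)` satisfies `L(U, m) · σ ^ m ⊆ 𝒪` (all `m`) for one
of them.  (Centre `x ∉ U` of `𝒪` by the valuative criterion; `σ` = a local equation of `A ∖ U`
on one of finitely many affine charts; `f σ ^ m ∈ 𝒪_{A,x}` by normality.) -/
def s26g1u_StmtCentre : Prop :=
  ∀ (K : Type u) [Field K] {A : Scheme.{u}} (f : A ⟶ Spec (CommRingCat.of K))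
    (G : RelativeGroupLaw K f) (g : ℕ), S26Hyp K f G g →
    ∀ [IsIntegral A] [IsLocallyNoetherian A] (U : A.Opens) [Nonempty U], IsAffineOpen U →
      ∃ S : Finset (s26F f), (∀ σ ∈ S, σ ≠ 0) ∧
        ∀ 𝒪 : ValuationSubring (s26F f), (∀ c : K, algebraMap K (s26F f) c ∈ 𝒪) →
          (∃ r : Γ(A, U), s26germ f U r ∉ 𝒪) →
          ∃ σ ∈ S, ∀ m, ∀ x ∈ s26L f U m, x * σ ^ m ∈ 𝒪

/-- **trdeg ≤ g**: an algebraically independent family of `K(A)` has at most `g` members. -/
def s26g1u_StmtTrdegLe : Prop :=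
  ∀ (K : Type u) [Field K] {A : Scheme.{u}} (f : A ⟶ Spec (CommRingCat.of K))
    (G : RelativeGroupLaw K f) (g : ℕ), S26Hyp K f G g →
    ∀ [IsIntegral A] (s : ℕ) (y : Fin s → s26F f), AlgebraicIndependent K y → s ≤ g

end Fermat.Agent.S26
end
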