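/-
S26, piece G1-trdeg (helper87): `s26g1u_StmtTrdegLe` — an algebraically independent family of
`K(A)` has at most `g` members (`trdeg_K K(A) ≤ g`; with `s26g1li_sections`: `= g`).

Proof.  `U` a nonempty affine open; `K → Γ(U)_t` is standard smooth of relative dimension `g`
for some `t ≠ 0`, hence `Γ(U)_t` is étale over `P = K[X₁..X_g]` (Mathlib
`RingHom.IsStandardSmoothOfRelativeDimension.exists_etale_mvPolynomial`).  So `K(A) = Frac Γ(U)_t`
is formally unramified and essentially of finite type over `Frac P`, i.e. finite separable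
(`Algebra.FormallyUnramified.isSeparable`), and `trdeg_K K(A) = trdeg_K P + 0 = g`.

* `s26g1t_isAlgebraic`, `s26g1t_etale` : the pure algebra;
* `s26g1t_chart`    : the standard smooth chart `Γ(U)_t`;
* `s26g1t_trdeg_le` : the bound on a scheme with a nonempty affine open;
* `s26g1t_stmt`     : `s26g1u_StmtTrdegLe`.
-/
import Fermat.Agent.S26.G1LoInst
import Fermat.Agent.S26.G1UpPlan

set_option autoImplicit false
set_option linter.style.haveILetI false
set_option linter.unusedSectionVars false

noncomputable section
namespace Fermat.Agent.S26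
open CategoryTheory CategoryTheory.Limits AlgebraicGeometry NeronModelInfra GoodReductionJacobian
open TopologicalSpace MvPolynomial
universe u

/-! ### pure algebra -/

/-- If the field `F` is the fraction field of a domain `S` that is étale over `K[X₁..X_g]`, then
`F` is algebraic over `K[X₁..X_g]` (for the algebra structure `lam ∘ γ`). -/
theorem s26g1t_isAlgebraic {K S F : Type u} [Field K] [CommRing S] [IsDomain S] [Field F]
    (g : ℕ) (γ : MvPolynomial (Fin g) K →+* S) (hγ : γ.Etale)
    (lam : S →+* F) (hlam : Function.Injective lam)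
    (hfrac : ∀ x : F, ∃ a b : S, x = lam a / lam b) :
    @Algebra.IsAlgebraic (MvPolynomial (Fin g) K) F _ _ (lam.comp γ).toAlgebra := by
  have hγinj : Function.Injective γ := s26g1li_injective_of_etale γ hγ
  letI algPS : Algebra (MvPolynomial (Fin g) K) S := γ.toAlgebra
  haveI hetale : Algebra.Etale (MvPolynomial (Fin g) K) S := hγ
  letI algSF : Algebra S F := lam.toAlgebra
  letI algPF : Algebra (MvPolynomial (Fin g) K) F := (lam.comp γ).toAlgebra
  haveI tower1 : IsScalarTower (MvPolynomial (Fin g) K) S F := IsScalarTower.of_algebraMap_eq' rfl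
  haveI fsSF : FaithfulSMul S F := (faithfulSMul_iff_algebraMap_injective S F).mpr hlam
  haveI fsPF : FaithfulSMul (MvPolynomial (Fin g) K) F :=
    (faithfulSMul_iff_algebraMap_injective _ F).mpr (hlam.comp hγinj)
  haveI fracSF : IsFractionRing S F := IsFractionRing.of_field S F hfrac
  -- formally unramified
  haveI fu1 : Algebra.FormallyUnramified S F :=
    Algebra.FormallyUnramified.of_isLocalization (nonZeroDivisors S)
  haveI fu2 : Algebra.FormallyUnramified (MvPolynomial (Fin g) K) F :=
    Algebra.FormallyUnramified.comp (MvPolynomial (Fin g) K) S F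
  -- essentially of finite type
  haveI eft1 : Algebra.EssFiniteType S F :=
    Algebra.EssFiniteType.of_isLocalization F (nonZeroDivisors S)
  haveI eft2 : Algebra.EssFiniteType (MvPolynomial (Fin g) K) F :=
    Algebra.EssFiniteType.comp (MvPolynomial (Fin g) K) S F
  -- pass to the fraction field of `K[X]`
  letI algLF : Algebra (FractionRing (MvPolynomial (Fin g) K)) F := FractionRing.liftAlgebra _ F
  haveI tower3 : IsScalarTower (MvPolynomial (Fin g) K) (FractionRing (MvPolynomial (Fin g) K)) F :=
    FractionRing.isScalarTower_liftAlgebra _ F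
  haveI fu3 : Algebra.FormallyUnramified (FractionRing (MvPolynomial (Fin g) K)) F :=
    Algebra.FormallyUnramified.of_restrictScalars (MvPolynomial (Fin g) K) _ F
  haveI eft3 : Algebra.EssFiniteType (FractionRing (MvPolynomial (Fin g) K)) F :=
    Algebra.EssFiniteType.of_comp (MvPolynomial (Fin g) K) _ F
  haveI sep : Algebra.IsSeparable (FractionRing (MvPolynomial (Fin g) K)) F :=
    Algebra.FormallyUnramified.isSeparable _ F
  haveI alg1 : Algebra.IsAlgebraic (FractionRing (MvPolynomial (Fin g) K)) F := inferInstance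
  exact (IsFractionRing.comap_isAlgebraic_iff
    (K := FractionRing (MvPolynomial (Fin g) K))).mpr alg1

/-- the transcendence degree of the fraction field `F` of a domain `S` that is étale over
`K[X₁..X_g]` is `g`: every algebraically independent family of `F` has at most `g` members. -/
theorem s26g1t_etale {K S F : Type u} [Field K] [CommRing S] [IsDomain S] [Field F]
    [Algebra K F] (g : ℕ) (γ : MvPolynomial (Fin g) K →+* S) (hγ : γ.Etale)
    (lam : S →+* F) (hlam : Function.Injective lam)
    (hK : (lam.comp γ).comp (MvPolynomial.C) = algebraMap K F)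
    (hfrac : ∀ x : F, ∃ a b : S, x = lam a / lam b)
    (s : ℕ) (y : Fin s → F) (hy : AlgebraicIndependent K y) : s ≤ g := by
  have hγinj : Function.Injective γ := s26g1li_injective_of_etale γ hγ
  letI algPF : Algebra (MvPolynomial (Fin g) K) F := (lam.comp γ).toAlgebra
  haveI tower2 : IsScalarTower K (MvPolynomial (Fin g) K) F :=
    IsScalarTower.of_algebraMap_eq' hK.symm
  haveI fsPF : FaithfulSMul (MvPolynomial (Fin g) K) F :=
    (faithfulSMul_iff_algebraMap_injective _ F).mpr (hlam.comp hγinj)
  haveI alg2 : Algebra.IsAlgebraic (MvPolynomial (Fin g) K) F :=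
    s26g1t_isAlgebraic g γ hγ lam hlam hfrac
  -- transcendence degrees
  have h1 : Algebra.trdeg K (MvPolynomial (Fin g) K) + Algebra.trdeg (MvPolynomial (Fin g) K) F =
      Algebra.trdeg K F := trdeg_add_eq K (MvPolynomial (Fin g) K) (A := F)
  have h2 : Algebra.trdeg (MvPolynomial (Fin g) K) F = 0 := trdeg_eq_zero
  have h3 : Algebra.trdeg K (MvPolynomial (Fin g) K) = (g : Cardinal.{u}) := by
    rw [MvPolynomial.trdeg_of_isDomain]; simp
  have h4 : Algebra.trdeg K F = (g : Cardinal.{u}) := by rw [← h1, h2, h3, add_zero]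
  have h5 := hy.lift_cardinalMk_le_trdeg
  rw [h4] at h5
  have h6 : ((s : ℕ) : Cardinal.{u}) ≤ (g : Cardinal.{u}) := by simpa using h5
  exact_mod_cast h6

/-! ### geometry -/

variable {K : Type u} [Field K] {A : Scheme.{u}} (f : A ⟶ Spec (CommRingCat.of K))

/-- the standard smooth chart: for a nonempty affine open `U` there is `t ≠ 0` in `Γ(U)` such
that `K → Γ(U)_t` is standard smooth of relative dimension `g`. -/
theorem s26g1t_chart [IsIntegral A] (g : ℕ) (hsm : SmoothOfRelativeDimension g f)
    (U : A.Opens) (hU : IsAffineOpen U) [Nonempty U] :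
    ∃ t : Γ(A, U), t ≠ 0 ∧ ((algebraMap Γ(A, U) (Localization.Away t)).comp
      (s26g1liStr f U)).IsStandardSmoothOfRelativeDimension g := by
  have he : U ≤ f ⁻¹ᵁ ⊤ := fun _ _ => trivial
  have hloc : RingHom.Locally (RingHom.IsStandardSmoothOfRelativeDimension g)
      (f.appLE ⊤ U he).hom :=
    HasRingHomProperty.appLE (P := @SmoothOfRelativeDimension g) f hsm
      ⟨⊤, isAffineOpen_top _⟩ ⟨U, hU⟩ he
  obtain ⟨s, hs, hP⟩ := hloc
  have hex : ∃ t ∈ s, t ≠ 0 := by
    by_contra hno
    push Not at hno
    have hle : Ideal.span s ≤ (⊥ : Ideal Γ(A, U)) := by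
      rw [Ideal.span_le]
      intro t ht
      simpa using hno t ht
    rw [hs] at hle
    exact top_ne_bot (le_bot_iff.mp hle)
  obtain ⟨t, hts, ht0⟩ := hex
  refine ⟨t, ht0, ?_⟩
  have h1 := hP t hts
  let e : K ≃+* Γ(Spec (CommRingCat.of K), ⊤) :=
    (Scheme.ΓSpecIso (CommRingCat.of K)).symm.commRingCatIsoToRingEquiv
  have h2 := RingHom.IsStandardSmoothOfRelativeDimension.equiv e
  have h3 := h1.comp h2
  rw [add_zero] at h3
  exact h3

/-- **trdeg ≤ g** on an integral scheme, smooth of relative dimension `g` over `K`, with a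
nonempty affine open. -/
theorem s26g1t_trdeg_le [IsIntegral A] (g : ℕ) (hsm : SmoothOfRelativeDimension g f)
    (U : A.Opens) (hU : IsAffineOpen U) [Nonempty U]
    (s : ℕ) (y : Fin s → s26F f) (hy : AlgebraicIndependent K y) : s ≤ g := by
  obtain ⟨t, ht, hsm'⟩ := s26g1t_chart f g hsm U hU
  have hle : Submonoid.powers t ≤ nonZeroDivisors Γ(A, U) :=
    powers_le_nonZeroDivisors_of_noZeroDivisors ht
  haveI : IsDomain (Localization.Away t) := IsLocalization.isDomain_localization hle
  obtain ⟨γ, hγC, hγ⟩ := hsm'.exists_etale_mvPolynomial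
  have hj : Function.Injective (s26germ f U) := Scheme.germToFunctionField_injective A U
  have hu : IsUnit (s26germ f U t) := IsUnit.mk0 _ (by
    intro h0
    exact ht (hj (by rw [h0, map_zero])))
  let lam : Localization.Away t →+* s26F f := IsLocalization.Away.lift t hu
  have hlam : lam.comp (algebraMap Γ(A, U) (Localization.Away t)) = s26germ f U := by
    ext r
    exact IsLocalization.Away.lift_eq t hu r
  have hlaminj : Function.Injective lam := by
    show Function.Injective (IsLocalization.lift _)
    rw [IsLocalization.lift_injective_iff]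
    intro a b
    rw [(IsLocalization.injective (Localization.Away t) hle).eq_iff, hj.eq_iff]
  have hK : (lam.comp γ).comp (MvPolynomial.C) = algebraMap K (s26F f) := by
    rw [RingHom.comp_assoc, hγC, ← RingHom.comp_assoc, hlam]
    exact s26g1li_germ_str f U
  have hfrac : ∀ x : s26F f, ∃ a b : Localization.Away t, x = lam a / lam b := by
    intro x
    obtain ⟨a, b, _, hab⟩ := s26g1li_frac f U hU x
    refine ⟨algebraMap _ _ a, algebraMap _ _ b, ?_⟩
    have h1 : lam (algebraMap _ _ a) = s26germ f U a := congrArg (fun φ => φ a) hlam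
    have h2 : lam (algebraMap _ _ b) = s26germ f U b := congrArg (fun φ => φ b) hlam
    rw [h1, h2]
    exact hab
  exact s26g1t_etale g γ hγ lam hlaminj hK hfrac s y hy

/-- a nonempty affine open exists on an integral scheme. -/
theorem s26g1t_exists_affine [IsIntegral A] :
    ∃ U : A.Opens, IsAffineOpen U ∧ Nonempty U := by
  obtain ⟨V, hV, hx, -⟩ :=
    exists_isAffineOpen_mem_and_subset (X := A) (x := genericPoint A) (U := ⊤) trivial
  exact ⟨V, hV, ⟨⟨genericPoint A, hx⟩⟩⟩

/-- **`s26g1u_StmtTrdegLe`**. -/
theorem s26g1t_stmt : s26g1u_StmtTrdegLe.{u} := by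
  intro K _ A f G g H _ s y hy
  obtain ⟨U, hU, hne⟩ := s26g1t_exists_affine (A := A)
  exact s26g1t_trdeg_le f g H.smooth U hU s y hy

end Fermat.Agent.S26
end
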