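import Mathlib
import Fermat.Agent.S26.EZero
import Fermat.Agent.S26.G1Trdeg
import Fermat.Agent.S26.EMFamVal
import Fermat.Agent.S26.ETiPlan

/-!
# S26-E, TI hub leaf TI-G0 (helper39): the case `g = 0`

If `A` is an abelian variety of dimension `0` (`S26Hyp K f G 0`), then `A` is a point:

* `s26etig0_surjective`        : `K → K(A)` is surjective (`trdeg ≤ 0`, `K` algebraically closed);
* `s26etig0_eq_genericPoint`   : every point of `A` is the generic point;
* `s26etig0_pt_eq_zero`        : every point of `A` is the zero point;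
* `s26etig0_subsingleton`      : `A(Ω)` is a subsingleton for every field `Ω ⊇ K`;
* `s26etig0_main`              : the conclusion of `s26e_StmtTI` (with `c = 1`, `F = 1`) under the
  hypotheses of `s26e_StmtTI` for `g = 0`; `s26etig0_main'` : the same without the power;
* `s26etig0_StmtTIPos`, `s26etig0_StmtTIFPos` : `s26e_StmtTI`, `s26eti_StmtTIF` restricted to
  `0 < g`, and `s26etig0_ti_of_pos : s26etig0_StmtTIPos → s26e_StmtTI`,
  `s26etig0_tif_of_pos : s26etig0_StmtTIFPos → s26eti_StmtTIF`.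
-/

set_option autoImplicit false
set_option linter.style.haveILetI false

noncomputable section

universe u

open CategoryTheory CategoryTheory.Limits AlgebraicGeometry NeronModelInfra GoodReductionJacobian
open scoped TensorProduct

namespace Fermat.Agent.S26

variable {K : Type u} [Field K] {A : Scheme.{u}} (f : A ⟶ Spec (CommRingCat.of K))
  (G : RelativeGroupLaw K f)

theorem s26etig0_isAlgebraic (H : S26Hyp K f G 0) [IsIntegral A] (x : s26F f) :
    IsAlgebraic K x := by
  by_contra hx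
  have htr : Transcendental K x := hx
  have hind : AlgebraicIndependent K (fun _ : Fin 1 => x) :=
    (algebraicIndependent_unique_type_iff (ι := Fin 1)).2 htr
  have := s26g1t_stmt K f G 0 H 1 (fun _ : Fin 1 => x) hind
  omega

/-- `K → K(A)` is surjective if `dim A = 0` -/
theorem s26etig0_surjective (H : S26Hyp K f G 0) [IsIntegral A] :
    Function.Surjective (algebraMap K (s26F f)) := by
  haveI := H.algClosed
  haveI : Algebra.IsIntegral K (s26F f) :=
    ⟨fun x => (s26etig0_isAlgebraic f G H x).isIntegral⟩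
  exact (IsAlgClosed.algebraMap_bijective_of_isIntegral (k := K) (K := s26F f)).2

theorem s26etig0_algebraMap_eq [IsIntegral A] (c : K) :
    algebraMap K (s26F f) c = s26elfwStalkMap f (genericPoint A) c := rfl

/-- every section over an affine open is a constant -/
theorem s26etig0_section (H : S26Hyp K f G 0) [IsIntegral A] (U : A.Opens)
    (hη : genericPoint A ∈ U) (s : Γ(A, U)) : ∃ c : K, s26elfwSecMap f U c = s := by
  obtain ⟨c, hc⟩ := s26etig0_surjective f G H
    ((A.presheaf.germ U (genericPoint A) hη).hom s : A.presheaf.stalk (genericPoint A))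
  refine ⟨c, ?_⟩
  apply germ_injective_of_isIntegral A (genericPoint A) hη
  rw [s26etig0_algebraMap_eq, ← s26elfw_germ_secMap f (genericPoint A) hη] at hc
  exact hc

/-- every point of `A` is the generic point -/
theorem s26etig0_eq_genericPoint (H : S26Hyp K f G 0) [IsIntegral A] (x : A) :
    x = genericPoint A := by
  obtain ⟨U, hU, hxU, -⟩ := exists_isAffineOpen_mem_and_subset (x := x) (U := ⊤) trivial
  have hη : genericPoint A ∈ U := (genericPoint_specializes x).mem_open U.2 hxU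
  have hbot : ∀ p : PrimeSpectrum Γ(A, U), p.asIdeal = ⊥ := by
    intro p
    rw [eq_bot_iff]
    intro s hs
    obtain ⟨c, rfl⟩ := s26etig0_section f G H U hη s
    by_cases hc : c = 0
    · rw [hc, map_zero]; exact Ideal.zero_mem _
    · exfalso
      have hu : IsUnit (s26elfwSecMap f U c) := (isUnit_iff_ne_zero.2 hc).map _
      exact p.2.ne_top (Ideal.eq_top_of_isUnit_mem _ hs hu)
  have h1 : hU.primeIdealOf ⟨x, hxU⟩ = hU.primeIdealOf ⟨genericPoint A, hη⟩ :=
    PrimeSpectrum.ext ((hbot _).trans (hbot _).symm)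
  have h2 := hU.fromSpec_primeIdealOf ⟨x, hxU⟩
  have h3 := hU.fromSpec_primeIdealOf ⟨genericPoint A, hη⟩
  rw [h1, h3] at h2
  exact h2.symm

/-- every point of `A` is the zero point -/
theorem s26etig0_pt_eq_zero (H : S26Hyp K f G 0) [IsIntegral A] (x : A) : x = s26zero f G :=
  (s26etig0_eq_genericPoint f G H x).trans (s26etig0_eq_genericPoint f G H _).symm

/-- `A(Ω)` has at most one element -/
theorem s26etig0_subsingleton (H : S26Hyp K f G 0) [IsIntegral A]
    (Ω : Type u) [Field Ω] [Algebra K Ω] : Subsingleton (s26eptPts f Ω) := by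
  haveI := H.algClosed
  haveI : Smooth f := H.bundle.smooth
  haveI : LocallyOfFiniteType f := inferInstance
  refine ⟨fun P Q => ?_⟩
  exact s26ez_eq_of_pt f P Q (s26zero f G) (s26elfwo_zero_isClosed f G)
    (s26etig0_pt_eq_zero f G H _) (s26etig0_pt_eq_zero f G H _)

/-- **TI-G0**: the conclusion of `s26e_StmtTI` for `g = 0`. -/
theorem s26etig0_main (H : S26Hyp K f G 0) [IsIntegral A] [IsLocallyNoetherian A] [IsProper f]
    (U : A.Opens) (hU : S26IsAdm f G U) (hD : S26emLocData U)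
    (Ω : Type u) [Field Ω] [Algebra K Ω] (p b y z : s26eptPts f Ω) :
    ∃ (c : ℕ) (F : Ω), 0 < c ∧ S26erIsRel K (fun V =>
      (s26eSq f G U p y z V / s26eSq f G U b y z V) ^ c) F := by
  haveI := s26etig0_subsingleton f G H Ω
  refine ⟨1, 1, Nat.one_pos, ?_⟩
  intro V hV
  have hne : ∀ P : s26eptPts f Ω, s26eGen f U P V ≠ 0 := fun P => by
    rw [s26eGen_eq_emFam]
    refine s26emFam_ne_zero f hD P ?_ V hV
    rw [s26etig0_pt_eq_zero f G H (s26eptPt f P)]
    exact hU.2.1
  have hpb : p = b := Subsingleton.elim _ _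
  subst hpb
  have hsq : s26eSq f G U p y z V ≠ 0 := by
    unfold s26eSq
    exact div_ne_zero (mul_ne_zero (hne _) (hne _)) (mul_ne_zero (hne _) (hne _))
  simp only [pow_one]
  rw [div_self hsq]

/-- **TI-G0**, without the power. -/
theorem s26etig0_main' (H : S26Hyp K f G 0) [IsIntegral A] [IsLocallyNoetherian A] [IsProper f]
    (U : A.Opens) (hU : S26IsAdm f G U) (hD : S26emLocData U)
    (Ω : Type u) [Field Ω] [Algebra K Ω] (p b y z : s26eptPts f Ω) :
    ∃ F : Ω, S26erIsRel K (fun V => s26eSq f G U p y z V / s26eSq f G U b y z V) F := by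
  obtain ⟨c, F, -, hF⟩ := s26etig0_main f G H U hU hD Ω p b y z
  haveI := s26etig0_subsingleton f G H Ω
  refine ⟨1, ?_⟩
  intro V hV
  have hne : ∀ P : s26eptPts f Ω, s26eGen f U P V ≠ 0 := fun P => by
    rw [s26eGen_eq_emFam]
    refine s26emFam_ne_zero f hD P ?_ V hV
    rw [s26etig0_pt_eq_zero f G H (s26eptPt f P)]
    exact hU.2.1
  have hpb : p = b := Subsingleton.elim _ _
  subst hpb
  have hsq : s26eSq f G U p y z V ≠ 0 := by
    unfold s26eSq
    exact div_ne_zero (mul_ne_zero (hne _) (hne _)) (mul_ne_zero (hne _) (hne _))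
  show V.valuation 1 = V.valuation (s26eSq f G U p y z V / s26eSq f G U p y z V)
  rw [div_self hsq]

end Fermat.Agent.S26

namespace Fermat.Agent.S26

/-- `s26e_StmtTI` restricted to `0 < g`. -/
def s26etig0_StmtTIPos : Prop :=
  ∀ (K : Type u) [Field K] {A : Scheme.{u}} (f : A ⟶ Spec (CommRingCat.of K))
    (G : RelativeGroupLaw K f) (g : ℕ), S26Hyp K f G g → 0 < g →
    ∀ [IsIntegral A] [IsLocallyNoetherian A] [IsProper f] (U : A.Opens), S26IsAdm f G U →
    S26emLocData U →
    ∀ (Γ : Type u) [Field Γ] [Algebra K Γ], S26eIsCurve K Γ →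
    ∀ (ν : s26eptPts f Γ) (γ₀ : AlgebraicCurve.Place K Γ), S26eSpOneAt f G ν γ₀ →
    ∀ (W : Type u) [Field W] [Algebra K W] (b : s26eptPts f W), S26eSpOne f G b →
    ∀ (Ω : Type u) [Field Ω] [Algebra K Ω] (ιΓ : Γ →ₐ[K] Ω) (ιW : W →ₐ[K] Ω)
      (j₁ j₂ : s26F f →ₐ[K] Ω),
      Function.Injective (Algebra.TensorProduct.productMap
        (Algebra.TensorProduct.productMap (Algebra.TensorProduct.productMap ιΓ ιW) j₁) j₂) →
      ∃ (c : ℕ) (F : Ω), 0 < c ∧ S26erIsRel K (fun V =>
        (s26eSq f G U (G.mul _ (s26eptMap f ιΓ ν) (s26eptMap f ιW b))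
            (s26ePt f j₁) (s26ePt f j₂) V /
          s26eSq f G U (s26eptMap f ιW b) (s26ePt f j₁) (s26ePt f j₂) V) ^ c) F

/-- `s26eti_StmtTIF` restricted to `0 < g`. -/
def s26etig0_StmtTIFPos : Prop :=
  ∀ (K : Type u) [Field K] {A : Scheme.{u}} (f : A ⟶ Spec (CommRingCat.of K))
    (G : RelativeGroupLaw K f) (g : ℕ), S26Hyp K f G g → 0 < g →
    ∀ [IsIntegral A] [IsLocallyNoetherian A] [IsProper f] (U : A.Opens), S26IsAdm f G U →
    S26emLocData U →
    ∀ (Γ : Type u) [Field Γ] [Algebra K Γ], S26eIsCurve K Γ →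
    ∀ (ν : s26eptPts f Γ) (γ₀ : AlgebraicCurve.Place K Γ), S26eSpOneAt f G ν γ₀ →
    ∀ (W : Type u) [Field W] [Algebra K W] (b : s26eptPts f W), S26eSpOne f G b →
    ∀ (L : Type u) [Field L] [Algebra K L] [IsAlgClosed L] (ιW : W →ₐ[K] L)
      (j₁ j₂ : s26F f →ₐ[K] L),
      Function.Injective (Algebra.TensorProduct.productMap
        (Algebra.TensorProduct.productMap ιW j₁) j₂) →
    ∀ (F : Type u) [Field F] [Algebra K F] (ιΓ : Γ →ₐ[K] F) (ιL : L →ₐ[K] F),
      Function.Injective (Algebra.TensorProduct.productMap ιΓ ιL) →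
      (∀ x : F, ∃ s t : Γ ⊗[K] L, Algebra.TensorProduct.productMap ιΓ ιL t ≠ 0 ∧
        x = Algebra.TensorProduct.productMap ιΓ ιL s /
          Algebra.TensorProduct.productMap ιΓ ιL t) →
      ∃ Gf : F, S26erIsRel K (fun V =>
        s26eSq f G U (G.mul _ (s26eptMap f ιΓ ν) (s26eptMap f (ιL.comp ιW) b))
            (s26ePt f (ιL.comp j₁)) (s26ePt f (ιL.comp j₂)) V /
          s26eSq f G U (s26eptMap f (ιL.comp ιW) b)
            (s26ePt f (ιL.comp j₁)) (s26ePt f (ιL.comp j₂)) V) Gf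

/-- (TI) follows from (TI) for `0 < g`. -/
theorem s26etig0_ti_of_pos (h : s26etig0_StmtTIPos.{u}) : s26e_StmtTI.{u} := by
  intro K _ A f G g H _ _ _ U hU hD Γ _ _ hΓ ν γ₀ hν W _ _ b hb Ω _ _ ιΓ ιW j₁ j₂ hinj
  rcases Nat.eq_zero_or_pos g with hg | hg
  · subst hg
    exact s26etig0_main f G H U hU hD Ω _ _ _ _
  · exact h K f G g H hg U hU hD Γ hΓ ν γ₀ hν W b hb Ω ιΓ ιW j₁ j₂ hinj

/-- (TI) over `F` follows from (TI) over `F` for `0 < g`. -/
theorem s26etig0_tif_of_pos (h : s26etig0_StmtTIFPos.{u}) : s26eti_StmtTIF.{u} := by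
  intro K _ A f G g H _ _ _ U hU hD Γ _ _ hΓ ν γ₀ hν W _ _ b hb L _ _ _ ιW j₁ j₂ hinj
    F _ _ ιΓ ιL hinjF hgen
  rcases Nat.eq_zero_or_pos g with hg | hg
  · subst hg
    exact s26etig0_main' f G H U hU hD F _ _ _ _
  · exact h K f G g H hg U hU hD Γ hΓ ν γ₀ hν W b hb L ιW j₁ j₂ hinj F ιΓ ιL hinjF hgen

end Fermat.Agent.S26
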