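/-
S26-E, (TI) hub, WIRING of the reduction `s26eti_StmtTIF → s26e_StmtTI` (helper21, on TOP-A =
S26/ETiTopA.lean and helper33's TOP-B = S26/ETiTopB.lean).

* `s26ettw_StmtU` : (hU) the 8 points of an independent configuration have image in `U`.
* `s26ettw_stmtU_of : s26e_StmtNV → s26e_StmtSpStep → s26ettw_StmtU` (helper24's TI-NV8).
* `s26ettw_tifc_of_tif : s26eti_StmtTIF → s26eti_StmtTIFc`.
* `s26ettw_ti_of_tifc : s26eti_StmtTIFc → s26ettw_StmtU → s26e_StmtTI`.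
* `s26ettw_ti_of_tif : s26eti_StmtTIF → s26ettw_StmtU → s26e_StmtTI`.
* `s26ettw_ti : s26eti_StmtTIFc → s26e_StmtNV → s26e_StmtSpStep → s26e_StmtTI`.
* `s26ettw_StmtTIFcPos` : `s26eti_StmtTIFc` restricted to `0 < g`;
  `s26ettw_tifc_of_pos : s26ettw_StmtTIFcPos → s26eti_StmtTIFc` (helper39's TI-G0);
  `s26ettw_ti_of_pos : s26ettw_StmtTIFcPos → s26e_StmtNV → s26e_StmtSpStep → s26e_StmtTI`.

Proof: `𝔎 = Frac((W ⊗ 𝔉) ⊗ 𝔉)`, `L = AlgebraicClosure 𝔎`, `Ω₀ = Frac(Γ ⊗ 𝔎)`, `F = Frac(Γ ⊗ L)`;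
(TIF) gives the relation in `F`; DOWN along `Ω₀ → F` (algebraic: norm), UP along `Ω₀ → Ω`.
-/
import Fermat.Agent.S26.ETiPlanC
import Fermat.Agent.S26.ETiTopA
import Fermat.Agent.S26.ETiTopB
import Fermat.Agent.S26.ETiNV
import Fermat.Agent.S26.ETiG0

set_option autoImplicit false
set_option linter.style.haveILetI false
set_option linter.unusedVariables false

noncomputable section

namespace Fermat.Agent.S26

open CategoryTheory CategoryTheory.Limits AlgebraicGeometry NeronModelInfra GoodReductionJacobian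
open scoped TensorProduct

universe u

/-- **(hU)**: in every independent configuration `Γ, W, y, z ⊆ Ω` the 8 points
`ν + b + y_J`, `b + y_J` (`J ⊆ {y, z}`) have image in `U`. -/
def s26ettw_StmtU : Prop :=
  ∀ (K : Type u) [Field K] {A : Scheme.{u}} (f : A ⟶ Spec (CommRingCat.of K))
    (G : RelativeGroupLaw K f) (g : ℕ), S26Hyp K f G g →
    ∀ [IsIntegral A] [IsLocallyNoetherian A] [IsProper f] (U : A.Opens), S26IsAdm f G U →
    S26emLocData U →
    ∀ (Γ : Type u) [Field Γ] [Algebra K Γ], S26eIsCurve K Γ →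
    ∀ (ν : s26eptPts f Γ) (γ₀ : AlgebraicCurve.Place K Γ), S26eSpOneAt f G ν γ₀ →
    ∀ (W : Type u) [Field W] [Algebra K W] (b : s26eptPts f W), S26eSpOne f G b →
    ∀ (Ω : Type u) [Field Ω] [Algebra K Ω] (ιΓ : Γ →ₐ[K] Ω) (ιW : W →ₐ[K] Ω)
      (j₁ j₂ : s26F f →ₐ[K] Ω),
      Function.Injective (Algebra.TensorProduct.productMap
        (Algebra.TensorProduct.productMap (Algebra.TensorProduct.productMap ιΓ ιW) j₁) j₂) →
      ∀ i, s26eptPt f (s26ettaPts f G (G.mul _ (s26eptMap f ιΓ ν) (s26eptMap f ιW b))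
        (s26eptMap f ιW b) (s26ePt f j₁) (s26ePt f j₂) i) ∈ U

/-- (hU) from (NV) and (SP-STEP), by helper24's TI-NV8. -/
theorem s26ettw_stmtU_of (hNV : s26e_StmtNV.{u}) (hSp : s26e_StmtSpStep.{u}) :
    s26ettw_StmtU.{u} := by
  intro K _ A f G g hH _ _ _ U hAdm hD Γ _ _ hΓ ν γ₀ hν W _ _ b hb Ω _ _ ιΓ ιW j₁ j₂ hinj
  obtain ⟨⟨p1, p2, p3, p4⟩, ⟨b1, b2, b3, b4⟩⟩ :=
    s26etinv_mem_U f G hNV hSp g hH U hAdm hD ν γ₀ hν b hb ιΓ ιW j₁ j₂ hinj
  exact (s26etta_forall_pts f G _ _ _ _ (fun P => s26eptPt f P ∈ U)).2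
    ⟨p1, p2, p3, p4, b1, b2, b3, b4⟩

/-- the abstract form of (TI) over `F` implies the concrete one. -/
theorem s26ettw_tifc_of_tif (hTIF : s26eti_StmtTIF.{u}) : s26eti_StmtTIFc.{u} := by
  intro K _ _ A f G g hH _ _ _ U hAdm hD Γ _ _ hΓ ν γ₀ hν W _ _ b hb L _ _ _ ιW j₁ j₂ hinj
  exact hTIF K f G g hH U hAdm hD Γ hΓ ν γ₀ hν W b hb L ιW j₁ j₂ hinj
    (s26etifOm K Γ L) (s26etifL K Γ L) (s26etifR K Γ L)
    (s26ettb_F_injective K Γ L) (s26ettb_F_gen K Γ L)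

/-- **the reduction** `s26eti_StmtTIFc → s26e_StmtTI` (modulo (hU)). -/
theorem s26ettw_ti_of_tifc (hTIF : s26eti_StmtTIFc.{u}) (hSU : s26ettw_StmtU.{u}) :
    s26e_StmtTI.{u} := by
  intro K _ A f G g hH _ _ _ U hAdm hD Γ _ _ hΓ ν γ₀ hν W _ _ b hb Ω _ _ ιΓ ιW j₁ j₂ hinj
  haveI : IsAlgClosed K := hH.algClosed
  -- the relation in `F = Frac(Γ ⊗ L)`
  obtain ⟨Gf, hGf⟩ := hTIF K f G g hH U hAdm hD Γ hΓ ν γ₀ hν W b hb
    (AlgebraicClosure (s26ettbK K W (s26F f)))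
    ((s26ettbToL K W (s26F f)).comp (s26ettbW K W (s26F f)))
    ((s26ettbToL K W (s26F f)).comp (s26ettbJ1 K W (s26F f)))
    ((s26ettbToL K W (s26F f)).comp (s26ettbJ2 K W (s26F f)))
    (s26ettb_L_injective K W (s26F f))
  -- the independent configuration in `Ω₀ = Frac(Γ ⊗ 𝔎)`
  have hinj₀ : Function.Injective (Algebra.TensorProduct.productMap
      (Algebra.TensorProduct.productMap (Algebra.TensorProduct.productMap
        (s26etifL K Γ (s26ettbK K W (s26F f)))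
        ((s26etifR K Γ (s26ettbK K W (s26F f))).comp (s26ettbW K W (s26F f))))
        ((s26etifR K Γ (s26ettbK K W (s26F f))).comp (s26ettbJ1 K W (s26F f))))
        ((s26etifR K Γ (s26ettbK K W (s26F f))).comp (s26ettbJ2 K W (s26F f)))) := by
    have e : (s26ettbIota0 ιΓ ιW j₁ j₂ hinj).comp (Algebra.TensorProduct.productMap
        (Algebra.TensorProduct.productMap (Algebra.TensorProduct.productMap
          (s26etifL K Γ (s26ettbK K W (s26F f)))
          ((s26etifR K Γ (s26ettbK K W (s26F f))).comp (s26ettbW K W (s26F f))))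
          ((s26etifR K Γ (s26ettbK K W (s26F f))).comp (s26ettbJ1 K W (s26F f))))
          ((s26etifR K Γ (s26ettbK K W (s26F f))).comp (s26ettbJ2 K W (s26F f)))) =
        Algebra.TensorProduct.productMap
          (Algebra.TensorProduct.productMap (Algebra.TensorProduct.productMap ιΓ ιW) j₁) j₂ := by
      rw [s26ettb_comp_productMap, s26ettb_comp_productMap, s26ettb_comp_productMap,
        s26ettbIota0_comp_L, s26ettbIota0_comp_W, s26ettbIota0_comp_J1, s26ettbIota0_comp_J2]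
    intro x y hxy
    apply hinj
    rw [← e, AlgHom.comp_apply, AlgHom.comp_apply, hxy]
  have hU := hSU K f G g hH U hAdm hD Γ hΓ ν γ₀ hν W b hb
    (s26etifOm K Γ (s26ettbK K W (s26F f)))
    (s26etifL K Γ (s26ettbK K W (s26F f)))
    ((s26etifR K Γ (s26ettbK K W (s26F f))).comp (s26ettbW K W (s26F f)))
    ((s26etifR K Γ (s26ettbK K W (s26F f))).comp (s26ettbJ1 K W (s26F f)))
    ((s26etifR K Γ (s26ettbK K W (s26F f))).comp (s26ettbJ2 K W (s26F f))) hinj₀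
  exact s26etta_transport f G hD
    (s26etifIota K Γ (s26ettbK K W (s26F f)) (AlgebraicClosure (s26ettbK K W (s26F f))))
    (s26ettb_isAlgebraic K Γ W (s26F f))
    (s26ettbIota0 ιΓ ιW j₁ j₂ hinj)
    (s26etifL K Γ (s26ettbK K W (s26F f)))
    ((s26etifR K Γ (s26ettbK K W (s26F f))).comp (s26ettbW K W (s26F f)))
    ((s26etifR K Γ (s26ettbK K W (s26F f))).comp (s26ettbJ1 K W (s26F f)))
    ((s26etifR K Γ (s26ettbK K W (s26F f))).comp (s26ettbJ2 K W (s26F f)))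
    ιΓ ιW j₁ j₂
    (s26ettbIota0_comp_L hinj) (s26ettbIota0_comp_W hinj) (s26ettbIota0_comp_J1 hinj)
    (s26ettbIota0_comp_J2 hinj)
    (s26etifL K Γ (AlgebraicClosure (s26ettbK K W (s26F f))))
    ((s26etifR K Γ (AlgebraicClosure (s26ettbK K W (s26F f)))).comp
      ((s26ettbToL K W (s26F f)).comp (s26ettbW K W (s26F f))))
    ((s26etifR K Γ (AlgebraicClosure (s26ettbK K W (s26F f)))).comp
      ((s26ettbToL K W (s26F f)).comp (s26ettbJ1 K W (s26F f))))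
    ((s26etifR K Γ (AlgebraicClosure (s26ettbK K W (s26F f)))).comp
      ((s26ettbToL K W (s26F f)).comp (s26ettbJ2 K W (s26F f))))
    (s26ettb_down_L K Γ W (s26F f)) (s26ettb_down_comp K Γ W (s26F f) _)
    (s26ettb_down_comp K Γ W (s26F f) _) (s26ettb_down_comp K Γ W (s26F f) _)
    ν b hU Gf hGf

/-- **the reduction** `s26eti_StmtTIF → s26e_StmtTI` (modulo (hU)). -/
theorem s26ettw_ti_of_tif (hTIF : s26eti_StmtTIF.{u}) (hSU : s26ettw_StmtU.{u}) :
    s26e_StmtTI.{u} :=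
  s26ettw_ti_of_tifc (s26ettw_tifc_of_tif hTIF) hSU

/-- **(TI)** from (TI) over `F = Frac(Γ ⊗ L)`, (NV) and (SP-STEP). -/
theorem s26ettw_ti (hTIF : s26eti_StmtTIFc.{u}) (hNV : s26e_StmtNV.{u})
    (hSp : s26e_StmtSpStep.{u}) : s26e_StmtTI.{u} :=
  s26ettw_ti_of_tifc hTIF (s26ettw_stmtU_of hNV hSp)

/-- `s26eti_StmtTIFc` restricted to `0 < g`. -/
def s26ettw_StmtTIFcPos : Prop :=
  ∀ (K : Type u) [Field K] [IsAlgClosed K] {A : Scheme.{u}} (f : A ⟶ Spec (CommRingCat.of K))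
    (G : RelativeGroupLaw K f) (g : ℕ), S26Hyp K f G g → 0 < g →
    ∀ [IsIntegral A] [IsLocallyNoetherian A] [IsProper f] (U : A.Opens), S26IsAdm f G U →
    S26emLocData U →
    ∀ (Γ : Type u) [Field Γ] [Algebra K Γ], S26eIsCurve K Γ →
    ∀ (ν : s26eptPts f Γ) (γ₀ : AlgebraicCurve.Place K Γ), S26eSpOneAt f G ν γ₀ →
    ∀ (W : Type u) [Field W] [Algebra K W] (b : s26eptPts f W), S26eSpOne f G b →
    ∀ (L : Type u) [Field L] [Algebra K L] [IsAlgClosed L] (ιW : W →ₐ[K] L)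
      (j₁ j₂ : s26F f →ₐ[K] L),
      Function.Injective (Algebra.TensorProduct.productMap
        (Algebra.TensorProduct.productMap ιW j₁) j₂) →
      ∃ Gf : s26etifOm K Γ L, S26erIsRel K (fun V =>
        s26eSq f G U (G.mul _ (s26eptMap f (s26etifL K Γ L) ν)
              (s26eptMap f ((s26etifR K Γ L).comp ιW) b))
            (s26ePt f ((s26etifR K Γ L).comp j₁)) (s26ePt f ((s26etifR K Γ L).comp j₂)) V /
          s26eSq f G U (s26eptMap f ((s26etifR K Γ L).comp ιW) b)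
            (s26ePt f ((s26etifR K Γ L).comp j₁)) (s26ePt f ((s26etifR K Γ L).comp j₂)) V) Gf

/-- (TI) over `F = s26etifOm K Γ L` follows from the case `0 < g` (helper39's TI-G0). -/
theorem s26ettw_tifc_of_pos (h : s26ettw_StmtTIFcPos.{u}) : s26eti_StmtTIFc.{u} := by
  intro K _ _ A f G g H _ _ _ U hU hD Γ _ _ hΓ ν γ₀ hν W _ _ b hb L _ _ _ ιW j₁ j₂ hinj
  rcases Nat.eq_zero_or_pos g with hg | hg
  · subst hg
    exact s26etig0_main' f G H U hU hD (s26etifOm K Γ L) _ _ _ _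
  · exact h K f G g H hg U hU hD Γ hΓ ν γ₀ hν W b hb L ιW j₁ j₂ hinj

/-- **(TI)** from (TI) over `F = Frac(Γ ⊗ L)` for `0 < g`, (NV) and (SP-STEP). -/
theorem s26ettw_ti_of_pos (hTIF : s26ettw_StmtTIFcPos.{u}) (hNV : s26e_StmtNV.{u})
    (hSp : s26e_StmtSpStep.{u}) : s26e_StmtTI.{u} :=
  s26ettw_ti (s26ettw_tifc_of_pos hTIF) hNV hSp

end Fermat.Agent.S26

end
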