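/-
S26-E, piece E-CRV, sub-leaf (FIN-W) (helper87, for helper32's chain): the FINITENESS INVARIANT
along a chain of curves and the final finiteness over a generic point.  Mathlib + `ECrvFin` only.

* `s26ecrvfw_algIndep`     : `ι : O →ₐ[K] K⟦X⟧` with `ι (y k) = X k` ⇒ `y` is algebraically
  independent over `K`;
* `S26ecrvfwFin K W k`     : THE INVARIANT: `W/K` is essentially of finite type and algebraic over
  `K[s_1..s_k]` for some `s : Fin k → W`;
* `s26ecrvfw_base`         : the invariant for `W = K` (`algebraMap K W` surjective), `k = 0`;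
* `s26ecrvfw_curve`        : a curve (`Γ` finite over `K(t)`) has the invariant with `k = 1`;
  `s26ecrvfw_curve_alg` (from `EssFiniteType` + algebraic over `K[t]`),
  `s26ecrvfw_curve_of_isCurve` (from the body of `S26ecrvIsCurve` / `S26eIsCurve`);
* `s26ecrvfw_mono`         : the invariant is monotone in `k`;
* `s26ecrvfw_step`         : `Γ` with invariant `1`, `W` with invariant `k`, `W' = Frac (Γ ⊗_K W)`
  ⇒ `W'` has the invariant `k + 1` (instance form, as in `S26ecrvChain.step`);
* `s26ecrvfw_step_hom`     : the same in the homomorphism form of `S26eChain.step` (PlanE2);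
* `s26ecrvfw_trdeg_le`     : the invariant `k` gives `trdeg K W ≤ k`;
* `s26ecrvfw_finite_abs`   : **(FIN)** `W` with invariant `d`, `e : 𝔉 →ₐ[K] W`, `y : Fin d → 𝔉`
  algebraically independent ⇒ `Module.Finite 𝔉 W`;
* `s26ecrvfw_finite_of_coords` : the same with `y = q ∘ y₀`, `q : O →ₐ[K] 𝔉` injective and
  `ι : O →ₐ[K] K⟦X⟧`, `ι (y₀ k) = X k`;
* `s26ecrvfw_finite`       : **(FIN-W)**, helper32's shape: `O = 𝒪_{A,0}`, `𝔉 = s26F f`,
  `j : 𝔉 →ₐ[K] W`, `e : O →ₐ[K] W` injective with `j ∘ algebraMap O 𝔉 = e`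
  ⇒ `Module.Finite (s26F f) W`;  `s26ecrvfw_finite_inv` : the same from the invariant.
-/
import Fermat.Agent.S26.ECrvFin
import Fermat.Agent.S26.ECrvPt

set_option autoImplicit false
set_option linter.style.haveILetI false
set_option linter.unusedSectionVars false

namespace Fermat.Agent.S26

open Polynomial IsLocalRing
open scoped TensorProduct

universe u

/-- coordinates `y` which a `K`-algebra map to the power series ring sends to the variables are
algebraically independent. -/
theorem s26ecrvfw_algIndep {K O σ : Type*} [Field K] [CommRing O] [Algebra K O]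
    (ι : O →ₐ[K] MvPowerSeries σ K) (y : σ → O) (hy : ∀ k, ι (y k) = MvPowerSeries.X k) :
    AlgebraicIndependent K y := by
  rw [algebraicIndependent_iff_injective_aeval]
  have hcomp : ι.comp (MvPolynomial.aeval y) = MvPolynomial.coeToMvPowerSeries.algHom K := by
    apply MvPolynomial.algHom_ext
    intro k
    rw [AlgHom.comp_apply, MvPolynomial.aeval_X, hy, MvPolynomial.coeToMvPowerSeries.algHom_apply]
    simp
  intro P Q h
  have h1 : (ι.comp (MvPolynomial.aeval y)) P = (ι.comp (MvPolynomial.aeval y)) Q := by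
    rw [AlgHom.comp_apply, AlgHom.comp_apply, h]
  rw [hcomp, MvPolynomial.coeToMvPowerSeries.algHom_apply,
    MvPolynomial.coeToMvPowerSeries.algHom_apply] at h1
  simpa using h1

/-- THE INVARIANT of the chain: `W/K` is essentially of finite type and algebraic over
`K[s_1..s_k]`. -/
def S26ecrvfwFin (K W : Type u) [Field K] [Field W] [Algebra K W] (k : ℕ) : Prop :=
  Algebra.EssFiniteType K W ∧
    ∃ s : Fin k → W, Algebra.IsAlgebraic (Algebra.adjoin K (Set.range s)) W

section Base

variable {K W : Type u} [Field K] [Field W] [Algebra K W]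

/-- the invariant for `W = K`. -/
theorem s26ecrvfw_base (h : Function.Surjective (algebraMap K W)) : S26ecrvfwFin K W 0 := by
  refine ⟨?_, Fin.elim0, ?_⟩
  · haveI : Module.Finite K W := by
      refine Module.Finite.of_surjective (Algebra.linearMap K W) ?_
      exact h
    infer_instance
  · constructor
    intro x
    obtain ⟨c, rfl⟩ := h x
    have hc : algebraMap K W c =
        algebraMap (Algebra.adjoin K (Set.range (Fin.elim0 : Fin 0 → W))) W
          (algebraMap K _ c) := rfl
    rw [hc]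
    exact isAlgebraic_algebraMap _

/-- a function field of one variable (finite over `K(t)`) has the invariant with `k = 1`. -/
theorem s26ecrvfw_curve (t : W) (hfin : Module.Finite (IntermediateField.adjoin K {t}) W) :
    S26ecrvfwFin K W 1 := by
  haveI := hfin
  refine ⟨?_, fun _ => t, ?_⟩
  · haveI : Algebra.EssFiniteType K (IntermediateField.adjoin K {t}) := by
      rw [IntermediateField.essFiniteType_iff]
      exact IntermediateField.fg_adjoin_of_finite (Set.finite_singleton t)
    haveI : Algebra.EssFiniteType (IntermediateField.adjoin K {t}) W := inferInstance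
    exact Algebra.EssFiniteType.comp K (IntermediateField.adjoin K {t}) W
  · have h := s26ecrvf_algebraic_of_adjoin t
      (Algebra.IsAlgebraic.of_finite (IntermediateField.adjoin K {t}) W)
    have hr : Set.range (fun _ : Fin 1 => t) = {t} := by
      ext x
      simp [eq_comm]
    rw [hr]
    exact h

/-- the invariant with `k = 1` from the outputs of (CD): `W` essentially of finite type and
algebraic over `K[t]`. -/
theorem s26ecrvfw_curve_alg [Algebra.EssFiniteType K W] (t : W)
    (ht : Algebra.IsAlgebraic (Algebra.adjoin K {t}) W) : S26ecrvfwFin K W 1 := by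
  refine ⟨inferInstance, fun _ => t, ?_⟩
  have hr : Set.range (fun _ : Fin 1 => t) = {t} := by
    ext x
    simp [eq_comm]
  rw [hr]
  exact ht

/-- the invariant with `k = 1` for a function field of one variable in the sense of
`S26ecrvIsCurve` / `S26eIsCurve` (unfolded). -/
theorem s26ecrvfw_curve_of_isCurve
    (h : ∃ t : W, Transcendental K t ∧ Module.Finite (IntermediateField.adjoin K {t}) W ∧
      Algebra.IsSeparable (IntermediateField.adjoin K {t}) W) : S26ecrvfwFin K W 1 := by
  obtain ⟨t, -, hfin, -⟩ := h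
  exact s26ecrvfw_curve t hfin

/-- the invariant `k` gives `trdeg K W ≤ k`. -/
theorem s26ecrvfw_trdeg_le {k : ℕ} (h : S26ecrvfwFin K W k) :
    Algebra.trdeg K W ≤ (k : Cardinal.{u}) := by
  obtain ⟨-, s, hs⟩ := h
  exact s26ecrvf_trdeg_le s hs

/-- the invariant is monotone in `k`. -/
theorem s26ecrvfw_mono {k l : ℕ} (hkl : k ≤ l) (h : S26ecrvfwFin K W k) :
    S26ecrvfwFin K W l := by
  obtain ⟨h1, s, hs⟩ := h
  refine ⟨h1, fun i => if hi : (i : ℕ) < k then s ⟨i, hi⟩ else 0, ?_⟩
  have hle : Algebra.adjoin K (Set.range s) ≤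
      Algebra.adjoin K (Set.range (fun i : Fin l => if hi : (i : ℕ) < k then s ⟨i, hi⟩ else 0)) := by
    refine Algebra.adjoin_mono ?_
    rintro _ ⟨i, rfl⟩
    refine ⟨⟨i, lt_of_lt_of_le i.2 hkl⟩, ?_⟩
    simp
  constructor
  intro x
  have hx := hs.isAlgebraic x
  exact hx.ringHom_of_comp_eq (Subalgebra.inclusion hle).toRingHom (RingHom.id W)
    (Subalgebra.inclusion_injective hle) (by ext a; rfl)

end Base

section Step

variable {K Γ W W' : Type u} [Field K] [Field Γ] [Field W] [Field W'] [Algebra K Γ]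
  [Algebra K W] [Algebra K W']

/-- **the step**, instance form (as in `S26ecrvChain.step`): `W' = Frac (Γ ⊗_K W)`. -/
theorem s26ecrvfw_step [Algebra (Γ ⊗[K] W) W'] [IsScalarTower K (Γ ⊗[K] W) W']
    [IsFractionRing (Γ ⊗[K] W) W'] {k : ℕ} (hΓ : S26ecrvfwFin K Γ 1)
    (hW : S26ecrvfwFin K W k) : S26ecrvfwFin K W' (k + 1) := by
  obtain ⟨eΓ, t, ht⟩ := hΓ
  obtain ⟨eW, s, hs⟩ := hW
  haveI := eΓ
  haveI := eW
  refine ⟨s26ecrvf_tensor_essFiniteType (K := K) (Γ := Γ) (W := W) (W' := W'),
    (Fin.cons (s26ecrvfInl K Γ W W' (t 0)) (fun i => s26ecrvfInr K Γ W W' (s i)) :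
      Fin (k + 1) → W'), ?_⟩
  have hr : Set.range t = {t 0} := by
    ext x
    constructor
    · rintro ⟨i, rfl⟩
      rw [Subsingleton.elim i 0]
      rfl
    · rintro rfl
      exact ⟨0, rfl⟩
  rw [hr] at ht
  exact s26ecrvf_tensor_algebraic_fin (t 0) ht s hs

/-- **the step**, homomorphism form (as in `S26eChain.step` of PlanE2). -/
theorem s26ecrvfw_step_hom (ιΓ : Γ →ₐ[K] W') (ιW : W →ₐ[K] W')
    (hinj : Function.Injective (Algebra.TensorProduct.productMap ιΓ ιW))
    (hgen : ∀ x : W', ∃ s t : Γ ⊗[K] W, Algebra.TensorProduct.productMap ιΓ ιW t ≠ 0 ∧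
      x = Algebra.TensorProduct.productMap ιΓ ιW s /
        Algebra.TensorProduct.productMap ιΓ ιW t) {k : ℕ} (hΓ : S26ecrvfwFin K Γ 1)
    (hW : S26ecrvfwFin K W k) : S26ecrvfwFin K W' (k + 1) := by
  letI alg : Algebra (Γ ⊗[K] W) W' :=
    (Algebra.TensorProduct.productMap ιΓ ιW).toRingHom.toAlgebra
  haveI : IsScalarTower K (Γ ⊗[K] W) W' :=
    IsScalarTower.of_algebraMap_eq
      (fun c => ((Algebra.TensorProduct.productMap ιΓ ιW).commutes c).symm)
  haveI : IsDomain (Γ ⊗[K] W) :=
    Function.Injective.isDomain (Algebra.TensorProduct.productMap ιΓ ιW).toRingHom hinj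
  haveI : FaithfulSMul (Γ ⊗[K] W) W' := (faithfulSMul_iff_algebraMap_injective _ _).2 hinj
  haveI : IsFractionRing (Γ ⊗[K] W) W' := by
    refine IsFractionRing.of_field (Γ ⊗[K] W) W' ?_
    intro x
    obtain ⟨a, b, -, hx⟩ := hgen x
    exact ⟨a, b, hx⟩
  exact s26ecrvfw_step hΓ hW

end Step

section Final

variable {K W 𝔉 : Type u} [Field K] [Field W] [Field 𝔉] [Algebra K W] [Algebra K 𝔉]

/-- **(FIN)**: `W` with the invariant `d`, `y : Fin d → 𝔉` algebraically independent over `K`
⇒ `W` is finite over `𝔉` (embedded by any `e : 𝔉 →ₐ[K] W`). -/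
theorem s26ecrvfw_finite_abs {d : ℕ} (hW : S26ecrvfwFin K W d) (e : 𝔉 →ₐ[K] W) (y : Fin d → 𝔉)
    (hy : AlgebraicIndependent K y) :
    letI := e.toRingHom.toAlgebra
    Module.Finite 𝔉 W := by
  obtain ⟨eW, s, hs⟩ := hW
  haveI := eW
  have hy' : AlgebraicIndependent K (fun i => e (y i)) := hy.map' e.toRingHom.injective
  exact s26ecrvf_finite s hs e y hy'

/-- **(FIN)**, coordinate form: `y = q ∘ y₀` for `q : O →ₐ[K] 𝔉` injective and coordinates
`y₀ : Fin d → O` with `ι (y₀ k) = X k`, `ι : O →ₐ[K] K⟦X⟧`. -/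
theorem s26ecrvfw_finite_of_coords {O : Type u} [CommRing O] [Algebra K O] {d : ℕ}
    (hW : S26ecrvfwFin K W d) (e : 𝔉 →ₐ[K] W) (q : O →ₐ[K] 𝔉) (hq : Function.Injective q)
    (ι : O →ₐ[K] MvPowerSeries (Fin d) K) (y₀ : Fin d → O)
    (hy : ∀ k, ι (y₀ k) = MvPowerSeries.X k) :
    letI := e.toRingHom.toAlgebra
    Module.Finite 𝔉 W :=
  s26ecrvfw_finite_abs hW e (fun i => q (y₀ i)) ((s26ecrvfw_algIndep ι y₀ hy).map' hq)

end Final

section Scheme

open CategoryTheory CategoryTheory.Limits AlgebraicGeometry NeronModelInfra GoodReductionJacobian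

variable {K : Type u} [Field K] {A : Scheme.{u}} (f : A ⟶ Spec (CommRingCat.of K))
  (G : RelativeGroupLaw K f)

/-- **(FIN-W)**, from the invariant: `W` with the invariant `d`, `j : 𝔉 →ₐ[K] W` and
`e : 𝒪_{A,0} →ₐ[K] W` injective with `j ∘ algebraMap = e` ⇒ `W` is finite over `𝔉`. -/
theorem s26ecrvfw_finite_inv [IsIntegral A] {d : ℕ} (y : Fin d → S26ecrvO f G)
    (ι : S26ecrvO f G →ₐ[K] MvPowerSeries (Fin d) K) (hι : ∀ k, ι (y k) = MvPowerSeries.X k)
    {W : Type u} [Field W] [Algebra K W] (hW : S26ecrvfwFin K W d)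
    (j : s26F f →ₐ[K] W) (e : S26ecrvO f G →ₐ[K] W) (he : Function.Injective e)
    (hje : ∀ a : S26ecrvO f G,
      j (algebraMap (A.presheaf.stalk (s26zero f G)) A.functionField a) = e a) :
    letI := (j : s26F f →+* W).toAlgebra
    Module.Finite (s26F f) W := by
  have h1 : AlgebraicIndependent K (fun i => e (y i)) :=
    (s26ecrvfw_algIndep ι y hι).map' he
  have h2 : (fun i => e (y i)) = fun i =>
      j (algebraMap (A.presheaf.stalk (s26zero f G)) A.functionField (y i)) := by
    funext i
    exact (hje (y i)).symm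
  rw [h2] at h1
  let y' : Fin d → s26F f := fun i =>
    algebraMap (A.presheaf.stalk (s26zero f G)) A.functionField (y i)
  have h3 : AlgebraicIndependent K y' := AlgebraicIndependent.of_comp j h1
  exact s26ecrvfw_finite_abs hW j y' h3

/-- **(FIN-W)**, helper32's shape. -/
theorem s26ecrvfw_finite [IsIntegral A] {d : ℕ} (y : Fin d → S26ecrvO f G)
    (ι : S26ecrvO f G →ₐ[K] MvPowerSeries (Fin d) K) (hι : ∀ k, ι (y k) = MvPowerSeries.X k)
    {W : Type u} [Field W] [Algebra K W] [Algebra.EssFiniteType K W]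
    (s : Fin d → W) (hs : Algebra.IsAlgebraic (Algebra.adjoin K (Set.range s)) W)
    (j : s26F f →ₐ[K] W) (e : S26ecrvO f G →ₐ[K] W) (he : Function.Injective e)
    (hje : ∀ a : S26ecrvO f G,
      j (algebraMap (A.presheaf.stalk (s26zero f G)) A.functionField a) = e a) :
    letI := (j : s26F f →+* W).toAlgebra
    Module.Finite (s26F f) W :=
  s26ecrvfw_finite_inv f G y ι hι ⟨inferInstance, s, hs⟩ j e he hje

end Scheme

end Fermat.Agent.S26
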