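/-
S26-E, piece E-CRV, PART II-a (helper32): YONEDA for the local ring `O = 𝒪_{A,0}`.

* `s26ecrvEv_map`   : functoriality of the evaluation `s26ecrvEv`;
* `s26ecrvUniv f G : A(O)` : the universal point `Spec O ⟶ A`;
* `s26ecrvEvAlg f G P h : O →ₐ[K] R` : the evaluation at a point `P ∈ A(R)` (`R` local) whose
  image point specialises to `0`, as a `K`-algebra homomorphism; `s26ecrvEvAlg_map`.
-/
import Fermat.Agent.S26.ECrvPt
import Fermat.Agent.S26.PlanE

set_option autoImplicit false
set_option linter.style.haveILetI false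

noncomputable section

namespace Fermat.Agent.S26

open CategoryTheory CategoryTheory.Limits AlgebraicGeometry NeronModelInfra GoodReductionJacobian

universe u

variable {K : Type u} [Field K] {A : Scheme.{u}} (f : A ⟶ Spec (CommRingCat.of K))

section EvMap

variable {R R' : Type u} [CommRing R] [CommRing R'] [Algebra K R] [Algebra K R']
  [IsLocalRing R] [IsLocalRing R']

/-- functoriality of the evaluation -/
theorem s26ecrvEv_map (φ : R →ₐ[K] R') (P : s26eptPts f R) (x : A) (h : s26eptPt f P ⤳ x)
    (h' : s26eptPt f (s26eptMap f φ P) ⤳ x) (a : A.presheaf.stalk x) :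
    s26ecrvEv f (s26eptMap f φ P) x h' a = φ (s26ecrvEv f P x h a) := by
  unfold s26ecrvEv
  rw [RingHom.comp_apply, RingHom.comp_apply, ← s26eptEv_map f φ P]
  congr 1
  have := A.presheaf.stalkSpecializes_comp (s26eptPt_map_specializes f φ P) h
  exact (congrArg (fun g => g.hom a) this).symm

end EvMap

section Univ

variable (G : RelativeGroupLaw K f)

theorem s26ecrvUniv_over :
    A.fromSpecStalk (s26zero f G) ≫ f = s26eptStr K (S26ecrvO f G) :=
  s26e_fromSpecStalk_comp f (s26zero f G)

/-- the universal point `Spec O ⟶ A` -/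
def s26ecrvUniv : s26eptPts f (S26ecrvO f G) :=
  ⟨A.fromSpecStalk (s26zero f G), s26ecrvUniv_over f G⟩

theorem s26ecrvUniv_pt : s26eptPt f (s26ecrvUniv f G) = s26zero f G :=
  Scheme.fromSpecStalk_closedPoint

/-- the evaluation at a point `P ∈ A(R)` (`R` a local `K`-algebra) whose image point specialises
to `0`, as a `K`-algebra homomorphism `O → R`. -/
def s26ecrvEvAlg {R : Type u} [CommRing R] [Algebra K R] [IsLocalRing R] (P : s26eptPts f R)
    (h : s26eptPt f P ⤳ s26zero f G) : S26ecrvO f G →ₐ[K] R :=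
  { s26ecrvEv f P (s26zero f G) h with
    commutes' := fun c => by
      rw [s26ecrvO_algebraMap]
      exact s26ecrvEv_str f P (s26zero f G) h c }

theorem s26ecrvEvAlg_apply {R : Type u} [CommRing R] [Algebra K R] [IsLocalRing R]
    (P : s26eptPts f R) (h : s26eptPt f P ⤳ s26zero f G) (a : S26ecrvO f G) :
    s26ecrvEvAlg f G P h a = s26ecrvEv f P (s26zero f G) h a := rfl

/-- functoriality of the evaluation, `K`-algebra form -/
theorem s26ecrvEvAlg_map {R R' : Type u} [CommRing R] [CommRing R'] [Algebra K R] [Algebra K R']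
    [IsLocalRing R] [IsLocalRing R'] (φ : R →ₐ[K] R') (P : s26eptPts f R)
    (h : s26eptPt f P ⤳ s26zero f G) (h' : s26eptPt f (s26eptMap f φ P) ⤳ s26zero f G) :
    s26ecrvEvAlg f G (s26eptMap f φ P) h' = φ.comp (s26ecrvEvAlg f G P h) :=
  AlgHom.ext fun a => s26ecrvEv_map f φ P (s26zero f G) h h' a

end Univ

end Fermat.Agent.S26

end
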