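import Mathlib
import Fermat.Agent.S26.ECrvYon
import Fermat.Agent.S26.EZero

/-!
# S26-E, E-CRV leaf (KP) (helper39): `K`-points through the local ring at zero

`O = S26ecrvO f G` the local ring of `A` at `0`, `s26ecrvUniv f G ∈ A(O)` the universal point.

* `s26ecrvkEps f G : O →ₐ[K] K`          : the evaluation at the zero point of `A(K)`;
* `s26ecrvk_map_evAlg_univ`               : `P = (ev_P)_* univ` for `P ∈ A(R)`, `R` local, `|P| ⤳ 0`;
* `s26ecrvk_one_eq`                       : `G.one = ((K → R) ∘ ε)_* univ` in `A(R)`, any `R`;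
* `s26ecrvkEps_eq_zero`                   : `ε` kills the maximal ideal;
* `s26ecrvk_map_univ_eq_one`              : if `lam : O →ₐ[K] R` kills the maximal ideal,
  then `lam_* univ = G.one`.
-/

set_option autoImplicit false
set_option linter.style.haveILetI false

noncomputable section

universe u

open CategoryTheory CategoryTheory.Limits AlgebraicGeometry NeronModelInfra GoodReductionJacobian

namespace Fermat.Agent.S26

variable {K : Type u} [Field K] {A : Scheme.{u}} (f : A ⟶ Spec (CommRingCat.of K))
  (G : RelativeGroupLaw K f)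

/-- the evaluation at the zero point of `A(K)` -/
def s26ecrvkEps : S26ecrvO f G →ₐ[K] K :=
  s26ecrvEvAlg f G (G.one (s26eptStr K K)) (specializes_of_eq (s26e_pt_one f G K))

/-- a point with values in a local ring whose image point specialises to `0` is the image of the
universal point under its evaluation -/
theorem s26ecrvk_map_evAlg_univ {R : Type u} [CommRing R] [Algebra K R] [IsLocalRing R]
    (P : s26eptPts f R) (h : s26eptPt f P ⤳ s26zero f G) :
    s26eptMap f (s26ecrvEvAlg f G P h) (s26ecrvUniv f G) = P := by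
  apply Subtype.ext
  rw [s26eptMap_coe, s26ez_SpecMap_ev f P (s26zero f G) h]
  rfl

theorem s26ecrvk_one_eq (R : Type u) [CommRing R] [Algebra K R] :
    G.one (s26eptStr K R) =
      s26eptMap f ((Algebra.ofId K R).comp (s26ecrvkEps f G)) (s26ecrvUniv f G) := by
  rw [s26eptMap_comp, s26ecrvkEps, s26ecrvk_map_evAlg_univ, s26eptMap_one]

/-- `ε` kills the maximal ideal -/
theorem s26ecrvkEps_eq_zero (a : S26ecrvO f G)
    (ha : a ∈ IsLocalRing.maximalIdeal (S26ecrvO f G)) : s26ecrvkEps f G a = 0 := by
  haveI := s26ez_ev_isLocalHom f (G.one (s26eptStr K K)) (s26zero f G) (s26e_pt_one f G K)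
  by_contra hne
  have hu : IsUnit (s26ecrvEv f (G.one (s26eptStr K K)) (s26zero f G)
      (specializes_of_eq (s26e_pt_one f G K)) a) := isUnit_iff_ne_zero.2 hne
  exact ha ((isUnit_map_iff (s26ecrvEv f (G.one (s26eptStr K K)) (s26zero f G)
      (specializes_of_eq (s26e_pt_one f G K))) _).1 hu)

/-- a `K`-algebra homomorphism `O → R` which kills the maximal ideal is `(K → R) ∘ ε` -/
theorem s26ecrvk_eq_ofId_comp_eps
    (hres : ∀ r : S26ecrvO f G, ∃ c : K,
      r - algebraMap K (S26ecrvO f G) c ∈ IsLocalRing.maximalIdeal (S26ecrvO f G))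
    {R : Type u} [CommRing R] [Algebra K R] (lam : S26ecrvO f G →ₐ[K] R)
    (hlam : ∀ a, a ∈ IsLocalRing.maximalIdeal (S26ecrvO f G) → lam a = 0) :
    lam = (Algebra.ofId K R).comp (s26ecrvkEps f G) := by
  ext a
  obtain ⟨c, hc⟩ := hres a
  have h1 : lam a = algebraMap K R c := by
    have := hlam _ hc
    rw [map_sub, sub_eq_zero, AlgHom.commutes] at this
    exact this
  have h2 : s26ecrvkEps f G a = c := by
    have := s26ecrvkEps_eq_zero f G _ hc
    rw [map_sub, sub_eq_zero, AlgHom.commutes] at this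
    exact this
  rw [h1, AlgHom.comp_apply, h2]
  rfl

theorem s26ecrvk_map_univ_eq_one
    (hres : ∀ r : S26ecrvO f G, ∃ c : K,
      r - algebraMap K (S26ecrvO f G) c ∈ IsLocalRing.maximalIdeal (S26ecrvO f G))
    {R : Type u} [CommRing R] [Algebra K R] (lam : S26ecrvO f G →ₐ[K] R)
    (hlam : ∀ a, a ∈ IsLocalRing.maximalIdeal (S26ecrvO f G) → lam a = 0) :
    s26eptMap f lam (s26ecrvUniv f G) = G.one (s26eptStr K R) := by
  rw [s26ecrvk_eq_ofId_comp_eps f G hres lam hlam]
  exact (s26ecrvk_one_eq f G R).symm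

end Fermat.Agent.S26
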