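/-
S26-E, piece E-CRV, PART I (helper83): pure commutative algebra for the coordinate curves.
Mathlib only.

`O` a noetherian local `K`-algebra with residue field `K` (`hres`), `y : σ → O` generators of the
maximal ideal.

* `s26ecrva_hc_aeval`   : if `z k ≡ X k` modulo order `≥ 2`, then for a homogeneous polynomial `P`
  of degree `n` the degree-`n` part of `P(z)` is `P(X)`.
* `s26ecrva_exists_hom` : every `f ∈ 𝔪ⁿ` is `≡ P(y)` mod `𝔪ⁿ⁺¹`, `P` homogeneous of degree `n`.
* `s26ecrva_order_eq`   : **(A)** `ψ : O →ₐ[K] K[[X]]` with `ψ (y k) ≡ X k` modulo order `≥ 2`: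
  `f ∈ 𝔪ⁿ ∖ 𝔪ⁿ⁺¹ ⇒ order (ψ f) = n`.
* `s26ecrva_injective`  : **(A)** such a `ψ` is injective.
* `s26ecrva_mem_pow_iff`: **(A)** `f ∈ 𝔪ⁿ ↔ n ≤ order (ψ f)`.
-/
import Mathlib.RingTheory.MvPowerSeries.Order
import Mathlib.RingTheory.MvPolynomial.Homogeneous
import Mathlib.RingTheory.Filtration
import Mathlib.RingTheory.LocalRing.ResidueField.Basic
import Mathlib.RingTheory.MvPowerSeries.Trunc

set_option autoImplicit false

noncomputable section

namespace Fermat.Agent.S26

open IsLocalRing MvPowerSeries

section HC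

variable {σ R : Type*} [CommRing R]

/-- `1` is its own homogeneous component of degree `0`. -/
theorem s26ecrva_hc_one : homogeneousComponent 0 (1 : MvPowerSeries σ R) = 1 := by
  classical
  ext d
  rw [coeff_homogeneousComponent, coeff_one]
  by_cases hd : d = 0
  · subst hd; simp
  · rw [if_neg hd]
    split_ifs <;> rfl

/-- the initial form of a product is the product of the initial forms. -/
theorem s26ecrva_hc_prod {ι : Type*} (s : Finset ι) (f : ι → MvPowerSeries σ R) (n : ι → ℕ)
    (h : ∀ i ∈ s, (n i : ℕ∞) ≤ (f i).order) :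
    homogeneousComponent (∑ i ∈ s, n i) (∏ i ∈ s, f i) =
      ∏ i ∈ s, homogeneousComponent (n i) (f i) := by
  classical
  induction s using Finset.induction_on with
  | empty => simpa using s26ecrva_hc_one
  | insert a s ha ih =>
    rw [Finset.sum_insert ha, Finset.prod_insert ha, Finset.prod_insert ha]
    have h1 : (n a : ℕ∞) ≤ (f a).order := h a (Finset.mem_insert_self a s)
    have h2 : ((∑ i ∈ s, n i : ℕ) : ℕ∞) ≤ (∏ i ∈ s, f i).order := by
      refine le_trans ?_ (le_order_prod f s)
      rw [Nat.cast_sum]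
      exact Finset.sum_le_sum fun i hi => h i (Finset.mem_insert_of_mem hi)
    rw [homogeneousComponent_mul_of_le_order h1 h2,
      ih fun i hi => h i (Finset.mem_insert_of_mem hi)]

/-- the initial form of a power. -/
theorem s26ecrva_hc_pow (f : MvPowerSeries σ R) (n m : ℕ) (h : (n : ℕ∞) ≤ f.order) :
    homogeneousComponent (m * n) (f ^ m) = (homogeneousComponent n f) ^ m := by
  have := s26ecrva_hc_prod (Finset.range m) (fun _ => f) (fun _ => n) (fun _ _ => h)
  simpa using this

theorem s26ecrva_le_order_pow (f : MvPowerSeries σ R) (n m : ℕ) (h : (n : ℕ∞) ≤ f.order) :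
    ((m * n : ℕ) : ℕ∞) ≤ (f ^ m).order := by
  refine le_trans ?_ (le_order_pow (f := f) m)
  rw [Nat.cast_mul, nsmul_eq_mul]
  gcongr

end HC

section Lin

variable {σ K : Type*} [Field K]

/-- `X k` is homogeneous of degree one. -/
theorem s26ecrva_hc_X (k : σ) :
    homogeneousComponent 1 (X k : MvPowerSeries σ K) = X k := by
  classical
  ext d
  rw [coeff_homogeneousComponent]
  split_ifs with h
  · rfl
  · rw [coeff_X, if_neg]
    rintro rfl
    exact h (by simp)

theorem s26ecrva_order_X (k : σ) : (X k : MvPowerSeries σ K).order = 1 := by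
  rw [X_def, order_monomial_of_ne_zero one_ne_zero]
  simp

variable (z : σ → MvPowerSeries σ K) (hz : ∀ k, 2 ≤ (z k - X k).order)
include hz

theorem s26ecrva_one_le_order (k : σ) : 1 ≤ (z k).order := by
  have h : z k = X k + (z k - X k) := by ring
  rw [h]
  refine le_trans (le_min ?_ ?_) min_order_le_add
  · rw [s26ecrva_order_X]
  · exact le_trans (by norm_num) (hz k)

theorem s26ecrva_hc_z (k : σ) : homogeneousComponent 1 (z k) = X k := by
  have h : z k = X k + (z k - X k) := by ring
  rw [h, map_add, s26ecrva_hc_X, homogeneousComponent_of_lt_order_eq_zero, add_zero]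
  exact lt_of_lt_of_le (by norm_num) (hz k)

/-- the degree-`|d|` part of the monomial `z^d` is `X^d`. -/
theorem s26ecrva_hc_monomial (d : σ →₀ ℕ) :
    homogeneousComponent (Finsupp.degree d) (∏ i ∈ d.support, z i ^ d i) = monomial d (1 : K) := by
  classical
  rw [Finsupp.degree_apply, s26ecrva_hc_prod d.support (fun i => z i ^ d i) (fun i => d i)]
  · have h1 : ∀ i ∈ d.support, homogeneousComponent (d i) (z i ^ d i) =
        (X i : MvPowerSeries σ K) ^ d i := by
      intro i _
      have := s26ecrva_hc_pow (z i) 1 (d i) (by simpa using s26ecrva_one_le_order z hz i)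
      rw [mul_one] at this
      rw [this, s26ecrva_hc_z z hz]
    rw [Finset.prod_congr rfl h1]
    have h2 : (MvPolynomial.monomial d (1 : K) : MvPolynomial σ K) =
        ∏ i ∈ d.support, (MvPolynomial.X i : MvPolynomial σ K) ^ d i := by
      rw [MvPolynomial.monomial_eq, MvPolynomial.C_1, one_mul]
      rfl
    rw [← MvPolynomial.coe_monomial, h2]
    have h3 : ((∏ i ∈ d.support, (MvPolynomial.X i : MvPolynomial σ K) ^ d i :
        MvPolynomial σ K) : MvPowerSeries σ K) =
        MvPolynomial.coeToMvPowerSeries.ringHom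
          (∏ i ∈ d.support, (MvPolynomial.X i : MvPolynomial σ K) ^ d i) := rfl
    rw [h3, map_prod]
    refine Finset.prod_congr rfl fun i _ => ?_
    rw [map_pow]
    congr 1
    exact (MvPolynomial.coe_X i).symm
  · intro i _
    have := s26ecrva_le_order_pow (z i) 1 (d i) (by simpa using s26ecrva_one_le_order z hz i)
    simpa using this

/-- for a homogeneous polynomial `P` of degree `n`, the degree-`n` part of `P(z)` is `P(X)`. -/
theorem s26ecrva_hc_aeval (P : MvPolynomial σ K) (n : ℕ) (hP : P.IsHomogeneous n) :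
    homogeneousComponent n (MvPolynomial.aeval z P) = (P : MvPowerSeries σ K) := by
  classical
  rw [MvPolynomial.aeval_def, MvPolynomial.eval₂_eq, map_sum]
  have h1 : ∀ d ∈ P.support,
      homogeneousComponent n (algebraMap K (MvPowerSeries σ K) (MvPolynomial.coeff d P) *
        ∏ i ∈ d.support, z i ^ d i) = monomial d (MvPolynomial.coeff d P) := by
    intro d hd
    have hdn : Finsupp.degree d = n := by
      by_contra hne
      exact (MvPolynomial.mem_support_iff.1 hd) (hP.coeff_eq_zero hne)
    rw [← Algebra.smul_def, map_smul, ← hdn, s26ecrva_hc_monomial z hz d]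
    ext e
    simp [coeff_monomial]
  rw [Finset.sum_congr rfl h1]
  conv_rhs => rw [MvPolynomial.as_sum P]
  have h3 : ((∑ v ∈ P.support, MvPolynomial.monomial v (MvPolynomial.coeff v P) :
      MvPolynomial σ K) : MvPowerSeries σ K) =
      MvPolynomial.coeToMvPowerSeries.ringHom
        (∑ v ∈ P.support, MvPolynomial.monomial v (MvPolynomial.coeff v P)) := rfl
  rw [h3, map_sum]
  refine Finset.sum_congr rfl fun d _ => ?_
  exact (MvPolynomial.coe_monomial d _).symm

end Lin

section LemmaA

variable {K O : Type*} [Field K] [CommRing O] [Algebra K O] [IsLocalRing O]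
variable {σ : Type*}

/-- every `f ∈ 𝔪ⁿ` is congruent modulo `𝔪ⁿ⁺¹` to a homogeneous polynomial of degree `n` in the
generators `y` of `𝔪`, with coefficients in `K`. -/
theorem s26ecrva_exists_hom [Fintype σ] (y : σ → O)
    (hspan : Ideal.span (Set.range y) = maximalIdeal O)
    (hres : ∀ r : O, ∃ c : K, r - algebraMap K O c ∈ maximalIdeal O) (n : ℕ) :
    ∀ f ∈ maximalIdeal O ^ n, ∃ P : MvPolynomial σ K, P.IsHomogeneous n ∧
      f - MvPolynomial.aeval y P ∈ maximalIdeal O ^ (n + 1) := by
  classical
  induction n with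
  | zero =>
    intro f _
    obtain ⟨c, hc⟩ := hres f
    refine ⟨MvPolynomial.C c, MvPolynomial.isHomogeneous_C σ c, ?_⟩
    simpa using hc
  | succ n ih =>
    intro f hf
    rw [pow_succ] at hf
    nth_rewrite 2 [← hspan] at hf
    rw [← Ideal.smul_eq_mul] at hf
    obtain ⟨a, ha, rfl⟩ := (Submodule.mem_ideal_smul_span_iff_exists_sum _ y f).1 hf
    choose P hP hPa using fun i => ih (a i) (ha i)
    refine ⟨∑ i, P i * MvPolynomial.X i, ?_, ?_⟩
    · exact MvPolynomial.IsHomogeneous.sum _ _ _ fun i _ =>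
        (hP i).mul (MvPolynomial.isHomogeneous_X K i)
    · have hsum : (a.sum fun i c => c • y i) = ∑ i, a i * y i := by
        rw [Finsupp.sum_fintype]
        · simp
        · intro i; simp
      rw [hsum, map_sum, ← Finset.sum_sub_distrib]
      refine Ideal.sum_mem _ fun i _ => ?_
      have : a i * y i - MvPolynomial.aeval y (P i * MvPolynomial.X i) =
          (a i - MvPolynomial.aeval y (P i)) * y i := by
        rw [map_mul, MvPolynomial.aeval_X]; ring
      rw [this, pow_succ (maximalIdeal O) (n + 1)]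
      refine Ideal.mul_mem_mul (hPa i) ?_
      rw [← hspan]
      exact Ideal.subset_span ⟨i, rfl⟩

variable (y : σ → O) (hspan : Ideal.span (Set.range y) = maximalIdeal O)
  (ψ : O →ₐ[K] MvPowerSeries σ K) (hψ : ∀ k, 2 ≤ (ψ (y k) - X k).order)
include hspan hψ

/-- `ψ` maps `𝔪ⁿ` into the power series of order `≥ n`. -/
theorem s26ecrva_le_order (n : ℕ) : ∀ f ∈ maximalIdeal O ^ n, (n : ℕ∞) ≤ (ψ f).order := by
  induction n with
  | zero => intro f _; simp
  | succ n ih =>
    intro f hf
    rw [pow_succ] at hf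
    refine Submodule.mul_induction_on hf ?_ ?_
    · intro a ha b hb
      rw [map_mul]
      refine le_trans ?_ le_order_mul
      rw [Nat.cast_add, Nat.cast_one]
      refine add_le_add (ih a ha) ?_
      -- `b ∈ 𝔪 = span y`
      rw [← hspan] at hb
      refine Submodule.span_induction ?_ ?_ ?_ ?_ hb
      · rintro _ ⟨k, rfl⟩
        exact s26ecrva_one_le_order (fun k => ψ (y k)) hψ k
      · simp
      · intro u v _ _ hu hv
        rw [map_add]
        exact le_trans (le_min hu hv) min_order_le_add
      · intro c u _ hu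
        rw [smul_eq_mul, map_mul]
        exact le_trans (le_trans hu le_add_self) le_order_mul
    · intro u v hu hv
      rw [map_add]
      exact le_trans (le_min hu hv) min_order_le_add

variable [Fintype σ] (hres : ∀ r : O, ∃ c : K, r - algebraMap K O c ∈ maximalIdeal O)
include hres

/-- **(A)**: `f ∈ 𝔪ⁿ ∖ 𝔪ⁿ⁺¹` has `ψ f` of order exactly `n`. -/
theorem s26ecrva_order_eq (n : ℕ) (f : O) (hf : f ∈ maximalIdeal O ^ n)
    (hf' : f ∉ maximalIdeal O ^ (n + 1)) : (ψ f).order = n := by
  obtain ⟨P, hP, hPf⟩ := s26ecrva_exists_hom y hspan hres n f hf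
  have hP0 : P ≠ 0 := by
    rintro rfl
    rw [map_zero, sub_zero] at hPf
    exact hf' hPf
  have hhc : homogeneousComponent n (ψ f) = (P : MvPowerSeries σ K) := by
    have h1 : ψ f = ψ (f - MvPolynomial.aeval y P) + MvPolynomial.aeval (fun k => ψ (y k)) P := by
      rw [map_sub, ← MvPolynomial.comp_aeval, AlgHom.comp_apply]; ring
    rw [h1, map_add, s26ecrva_hc_aeval (fun k => ψ (y k)) hψ P n hP,
      homogeneousComponent_of_lt_order_eq_zero, zero_add]
    refine lt_of_lt_of_le ?_ (s26ecrva_le_order y hspan ψ hψ (n + 1) _ hPf)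
    exact_mod_cast Nat.lt_succ_self n
  refine le_antisymm ?_ (s26ecrva_le_order y hspan ψ hψ n f hf)
  by_contra hlt
  rw [not_le] at hlt
  have := homogeneousComponent_of_lt_order_eq_zero hlt
  rw [hhc, MvPolynomial.coe_eq_zero_iff] at this
  exact hP0 this

/-- **(A)**: a `K`-algebra homomorphism `ψ : O → K[[X]]` with `ψ (y k) ≡ X k` modulo order `≥ 2`
is injective (`O` noetherian local with residue field `K`, `𝔪 = (y)`). -/
theorem s26ecrva_injective [IsNoetherianRing O] : Function.Injective ψ := by
  classical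
  rw [injective_iff_map_eq_zero]
  intro f hf
  by_contra hne
  have hK : ⨅ i, maximalIdeal O ^ i = ⊥ :=
    Ideal.iInf_pow_eq_bot_of_isLocalRing _ (maximalIdeal.isMaximal O).ne_top
  have hex : ∃ n, f ∉ maximalIdeal O ^ n := by
    by_contra hall
    push Not at hall
    have : f ∈ ⨅ i, maximalIdeal O ^ i := (Ideal.mem_iInf).2 hall
    rw [hK] at this
    exact hne this
  have h0 : f ∈ maximalIdeal O ^ 0 := by simp
  let n := Nat.find hex
  have hn : f ∉ maximalIdeal O ^ n := Nat.find_spec hex
  have hnpos : n ≠ 0 := by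
    intro h
    rw [h] at hn
    exact hn h0
  obtain ⟨m, hm⟩ := Nat.exists_eq_succ_of_ne_zero hnpos
  have hm' : f ∈ maximalIdeal O ^ m := by
    by_contra h
    exact Nat.find_min hex (m := m) (by omega) h
  have hm'' : f ∉ maximalIdeal O ^ (m + 1) := by
    rw [← Nat.succ_eq_add_one, ← hm]; exact hn
  have := s26ecrva_order_eq y hspan ψ hψ hres m f hm' hm''
  rw [hf, order_zero] at this
  exact ENat.top_ne_natCast m this

/-- **(A)**: `ψ⁻¹ {order ≥ n} = 𝔪ⁿ`. -/
theorem s26ecrva_mem_pow_iff (n : ℕ) (f : O) :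
    f ∈ maximalIdeal O ^ n ↔ (n : ℕ∞) ≤ (ψ f).order := by
  classical
  refine ⟨s26ecrva_le_order y hspan ψ hψ n f, fun h => ?_⟩
  by_contra hnot
  have hex : ∃ k, f ∉ maximalIdeal O ^ k := ⟨n, hnot⟩
  have h0 : f ∈ maximalIdeal O ^ 0 := by simp
  let k := Nat.find hex
  have hk : f ∉ maximalIdeal O ^ k := Nat.find_spec hex
  have hkn : k ≤ n := Nat.find_min' hex hnot
  have hkpos : k ≠ 0 := by
    intro h'
    rw [h'] at hk
    exact hk h0
  obtain ⟨m, hm⟩ := Nat.exists_eq_succ_of_ne_zero hkpos
  have hm' : f ∈ maximalIdeal O ^ m := by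
    by_contra h'
    exact Nat.find_min hex (m := m) (by omega) h'
  have hm'' : f ∉ maximalIdeal O ^ (m + 1) := by
    rw [← Nat.succ_eq_add_one, ← hm]; exact hk
  have := s26ecrva_order_eq y hspan ψ hψ hres m f hm' hm''
  rw [this] at h
  have : n ≤ m := by exact_mod_cast h
  omega

end LemmaA

end Fermat.Agent.S26
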