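/-
S26-E, piece E-CRV, PART I (B)+(C) (helper83): the coordinate curves of a regular local
`K`-algebra, pure commutative algebra.  Mathlib + `ECrvAlg` only.

`O` a noetherian local `K`-algebra with residue field `K` (`hres`), `y : σ → O` generators of the
maximal ideal, `ι : O →ₐ[K] K[[X]]` with `ι (y k) = X k` (from E-LF1).

* `s26ecrvaR K i : K[[X_σ]] →ₐ[K] K[[t]]`  : restriction to the `i`-th axis (`X i ↦ t`, `X j ↦ 0`).
* `s26ecrvaP y i`                          : the ideal `(y j : j ≠ i)` of the `i`-th coordinate curve.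
* `s26ecrvaTau y ι hι i : O ⧸ 𝔭_i →ₐ[K] K[[t]]` : induced by `ι`; `τ ȳ_i = t`; INJECTIVE.
* `s26ecrva_isDomain`, `s26ecrva_isLocalRing`, `s26ecrva_isDVR` : `O ⧸ 𝔭_i` is a DVR, with
  maximal ideal `(ȳ_i)` and residue field `K`.
* `s26ecrva_axes` : **(C)** `ψ : O →ₐ[K] K[[X]]` with `r_i ∘ ψ = r_i ∘ ι` for all `i` satisfies
  `ψ (y k) ≡ X k` modulo order `≥ 2`;  `s26ecrva_injective_of_axes` : such a `ψ` is injective.
-/
import Fermat.Agent.S26.ECrvAlg
import Mathlib.RingTheory.MvPowerSeries.Rename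
import Mathlib.RingTheory.DiscreteValuationRing.TFAE
import Mathlib.RingTheory.PowerSeries.Order
import Mathlib.RingTheory.Ideal.Quotient.Operations
import Mathlib.RingTheory.Ideal.Quotient.Noetherian
import Mathlib.RingTheory.PowerSeries.NoZeroDivisors

set_option autoImplicit false
set_option linter.style.haveILetI false
set_option linter.unusedSectionVars false

noncomputable section

namespace Fermat.Agent.S26

open IsLocalRing MvPowerSeries

section Axis

variable {σ : Type*} (K : Type*) [Field K]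

/-- the embedding of the `i`-th axis. -/
def s26ecrvaE (i : σ) : Unit ↪ σ := ⟨fun _ => i, fun _ _ _ => rfl⟩

@[simp] theorem s26ecrvaE_apply (i : σ) (u : Unit) : s26ecrvaE i u = i := rfl

/-- restriction of a power series to the `i`-th axis: `X i ↦ t`, `X j ↦ 0` for `j ≠ i`. -/
def s26ecrvaR (i : σ) : MvPowerSeries σ K →ₐ[K] PowerSeries K := killCompl (s26ecrvaE i)

theorem s26ecrvaR_X_self (i : σ) : s26ecrvaR K i (X i) = PowerSeries.X :=
  killCompl_X (R := K) (e := s26ecrvaE i) ()

theorem s26ecrvaR_X_of_ne {i j : σ} (h : j ≠ i) : s26ecrvaR K i (X j) = 0 := by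
  refine killCompl_X_eq_zero (R := K) (e := s26ecrvaE i) ?_
  rintro ⟨u, hu⟩
  exact h hu.symm

theorem s26ecrvaR_coeff (i : σ) (p : MvPowerSeries σ K) (x : Unit →₀ ℕ) :
    coeff x (s26ecrvaR K i p) = coeff (Finsupp.embDomain (s26ecrvaE i) x) p :=
  coeff_killCompl p x

end Axis

section Curve

variable {K O : Type*} [Field K] [CommRing O] [Algebra K O] [IsLocalRing O]
variable {σ : Type*}

/-- the ideal `(y j : j ≠ i)` of the `i`-th coordinate curve. -/
def s26ecrvaP (y : σ → O) (i : σ) : Ideal O := Ideal.span (y '' {j | j ≠ i})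

variable (y : σ → O) (hspan : Ideal.span (Set.range y) = maximalIdeal O)
include hspan

theorem s26ecrvaP_le (i : σ) : s26ecrvaP y i ≤ maximalIdeal O := by
  rw [← hspan]
  exact Ideal.span_mono (Set.image_subset_range _ _)

theorem s26ecrva_mem_max (i : σ) : y i ∈ maximalIdeal O := by
  rw [← hspan]
  exact Ideal.subset_span ⟨i, rfl⟩

theorem s26ecrvaP_sup (i : σ) : s26ecrvaP y i ⊔ Ideal.span {y i} = maximalIdeal O := by
  classical
  refine le_antisymm (sup_le (s26ecrvaP_le y hspan i) ?_) ?_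
  · rw [Ideal.span_le, Set.singleton_subset_iff]
    exact s26ecrva_mem_max y hspan i
  · rw [← hspan, Ideal.span_le]
    rintro _ ⟨j, rfl⟩
    by_cases h : j = i
    · subst h
      exact Ideal.mem_sup_right (Ideal.subset_span rfl)
    · exact Ideal.mem_sup_left (Ideal.subset_span ⟨j, h, rfl⟩)

theorem s26ecrvaP_ne_top (i : σ) : s26ecrvaP y i ≠ ⊤ := fun h =>
  (maximalIdeal.isMaximal O).ne_top (top_le_iff.1 (h ▸ s26ecrvaP_le y hspan i))

theorem s26ecrva_nontrivial (i : σ) : Nontrivial (O ⧸ s26ecrvaP y i) :=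
  Ideal.Quotient.nontrivial_iff.2 (s26ecrvaP_ne_top y hspan i)

theorem s26ecrva_isLocalRing (i : σ) : IsLocalRing (O ⧸ s26ecrvaP y i) :=
  haveI := s26ecrva_nontrivial y hspan i
  IsLocalRing.of_surjective' (Ideal.Quotient.mk (s26ecrvaP y i)) Ideal.Quotient.mk_surjective

/-- the maximal ideal of `O ⧸ 𝔭_i` is generated by the class of `y i`. -/
theorem s26ecrva_maximalIdeal (i : σ) :
    haveI := s26ecrva_isLocalRing y hspan i
    maximalIdeal (O ⧸ s26ecrvaP y i) = Ideal.span {Ideal.Quotient.mk (s26ecrvaP y i) (y i)} := by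
  haveI := s26ecrva_isLocalRing y hspan i
  rw [← map_maximalIdeal_of_surjective (Ideal.Quotient.mk (s26ecrvaP y i))
    Ideal.Quotient.mk_surjective, ← s26ecrvaP_sup y hspan i, Ideal.map_sup, Ideal.map_span,
    Set.image_singleton, Ideal.map_quotient_self, bot_sup_eq]

/-- `O ⧸ 𝔭_i` has residue field `K`. -/
theorem s26ecrva_hres (hres : ∀ r : O, ∃ c : K, r - algebraMap K O c ∈ maximalIdeal O) (i : σ) :
    haveI := s26ecrva_isLocalRing y hspan i
    ∀ r : O ⧸ s26ecrvaP y i, ∃ c : K,
      r - algebraMap K (O ⧸ s26ecrvaP y i) c ∈ maximalIdeal (O ⧸ s26ecrvaP y i) := by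
  haveI := s26ecrva_isLocalRing y hspan i
  intro r
  obtain ⟨r, rfl⟩ := Ideal.Quotient.mk_surjective r
  obtain ⟨c, hc⟩ := hres r
  refine ⟨c, ?_⟩
  rw [← map_maximalIdeal_of_surjective (Ideal.Quotient.mk (s26ecrvaP y i))
    Ideal.Quotient.mk_surjective]
  have : Ideal.Quotient.mk (s26ecrvaP y i) r - algebraMap K (O ⧸ s26ecrvaP y i) c =
      Ideal.Quotient.mk (s26ecrvaP y i) (r - algebraMap K O c) := by
    rw [map_sub]; rfl
  rw [this]
  exact Ideal.mem_map_of_mem _ hc

omit hspan

variable (ι : O →ₐ[K] MvPowerSeries σ K) (hι : ∀ k, ι (y k) = X k)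
include hι

theorem s26ecrvaP_le_ker (i : σ) :
    ∀ a ∈ s26ecrvaP y i, ((s26ecrvaR K i).comp ι) a = 0 := by
  intro a ha
  have : s26ecrvaP y i ≤ RingHom.ker ((s26ecrvaR K i).comp ι) := by
    unfold s26ecrvaP
    rw [Ideal.span_le]
    rintro _ ⟨j, hj, rfl⟩
    rw [SetLike.mem_coe, RingHom.mem_ker, AlgHom.comp_apply, hι]
    exact s26ecrvaR_X_of_ne K hj
  exact this ha

/-- the embedding of the `i`-th coordinate curve into `K[[t]]`. -/
def s26ecrvaTau (i : σ) : (O ⧸ s26ecrvaP y i) →ₐ[K] PowerSeries K :=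
  Ideal.Quotient.liftₐ (s26ecrvaP y i) ((s26ecrvaR K i).comp ι) (s26ecrvaP_le_ker y ι hι i)

theorem s26ecrvaTau_mk (i : σ) (a : O) :
    s26ecrvaTau y ι hι i (Ideal.Quotient.mk _ a) = s26ecrvaR K i (ι a) := rfl

theorem s26ecrvaTau_y (i : σ) :
    s26ecrvaTau y ι hι i (Ideal.Quotient.mk _ (y i)) = PowerSeries.X := by
  rw [s26ecrvaTau_mk, hι, s26ecrvaR_X_self]

variable [IsNoetherianRing O]
  (hres : ∀ r : O, ∃ c : K, r - algebraMap K O c ∈ maximalIdeal O)
include hspan hres

/-- **(B)**: `τ_i` is injective. -/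
theorem s26ecrvaTau_injective (i : σ) : Function.Injective (s26ecrvaTau y ι hι i) := by
  haveI := s26ecrva_isLocalRing y hspan i
  refine s26ecrva_injective (σ := Unit) (O := O ⧸ s26ecrvaP y i)
    (fun _ => Ideal.Quotient.mk (s26ecrvaP y i) (y i)) ?_ (s26ecrvaTau y ι hι i) ?_
    (s26ecrva_hres y hspan hres i)
  · rw [s26ecrva_maximalIdeal y hspan i]
    congr 1
    ext a
    simp
  · intro k
    have : s26ecrvaTau y ι hι i (Ideal.Quotient.mk _ (y i)) - X k = 0 := by
      rw [s26ecrvaTau_y, sub_eq_zero]; rfl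
    rw [this, order_zero]
    exact le_top

/-- **(B)**: the coordinate curve `O ⧸ 𝔭_i` is a domain. -/
theorem s26ecrva_isDomain (i : σ) : IsDomain (O ⧸ s26ecrvaP y i) :=
  (s26ecrvaTau_injective y hspan ι hι hres i).isDomain (s26ecrvaTau y ι hι i).toRingHom

theorem s26ecrva_mk_ne_zero (i : σ) : Ideal.Quotient.mk (s26ecrvaP y i) (y i) ≠ 0 := by
  intro h
  have := s26ecrvaTau_y y ι hι i
  rw [h, map_zero] at this
  exact PowerSeries.X_ne_zero this.symm

/-- **(B)**: the coordinate curve `O ⧸ 𝔭_i` is a discrete valuation ring. -/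
theorem s26ecrva_isDVR (i : σ) :
    haveI := s26ecrva_isDomain y hspan ι hι hres i
    IsDiscreteValuationRing (O ⧸ s26ecrvaP y i) := by
  haveI := s26ecrva_isDomain y hspan ι hι hres i
  haveI := s26ecrva_isLocalRing y hspan i
  have hnf : ¬ IsField (O ⧸ s26ecrvaP y i) := by
    rw [isField_iff_maximalIdeal_eq, s26ecrva_maximalIdeal y hspan i]
    intro h
    rw [Ideal.span_singleton_eq_bot] at h
    exact s26ecrva_mk_ne_zero y hspan ι hι hres i h
  refine ((IsDiscreteValuationRing.TFAE (O ⧸ s26ecrvaP y i) hnf).out 0 4).2 ?_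
  rw [s26ecrva_maximalIdeal y hspan i]
  exact ⟨⟨_, rfl⟩⟩

omit hres hspan [IsNoetherianRing O] in
/-- **(C)**: the AXES condition implies the linearisation hypothesis of (A). -/
theorem s26ecrva_axes (ψ : O →ₐ[K] MvPowerSeries σ K)
    (hax : ∀ i, (s26ecrvaR K i).comp ψ = (s26ecrvaR K i).comp ι) :
    ∀ k, 2 ≤ (ψ (y k) - X k).order := by
  classical
  intro k
  have hz : ∀ i, s26ecrvaR K i (ψ (y k) - X k) = 0 := by
    intro i
    have := AlgHom.congr_fun (hax i) (y k)
    rw [AlgHom.comp_apply, AlgHom.comp_apply, hι] at this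
    rw [map_sub, this, sub_self]
  have h2 : ((2 : ℕ) : ℕ∞) ≤ (ψ (y k) - X k).order := by
    refine nat_le_order fun d hd => ?_
    -- `d` has degree `≤ 1`, so it lies on an axis
    have hd1 : Finsupp.degree d ≤ 1 := by omega
    obtain ⟨i, x, rfl⟩ : ∃ i : σ, ∃ x : Unit →₀ ℕ, d = Finsupp.embDomain (s26ecrvaE i) x := by
      rcases Nat.eq_zero_or_pos (Finsupp.degree d) with h0 | hpos
      · refine ⟨k, 0, ?_⟩
        rw [Finsupp.degree_eq_zero_iff] at h0
        rw [h0, Finsupp.embDomain_zero]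
      · have h1 : Finsupp.degree d = 1 := le_antisymm hd1 hpos
        have hne : d ≠ 0 := by
          rintro rfl
          simp at h1
        obtain ⟨i, hi⟩ : ∃ i, d i ≠ 0 := by
          by_contra hcon
          push Not at hcon
          exact hne (Finsupp.ext hcon)
        refine ⟨i, Finsupp.single () 1, ?_⟩
        rw [Finsupp.embDomain_single, s26ecrvaE_apply]
        rw [Finsupp.degree_apply] at h1
        have hisupp : i ∈ d.support := Finsupp.mem_support_iff.2 hi
        have hle : d i ≤ 1 := by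
          rw [← h1]
          exact Finset.single_le_sum (f := fun j => d j) (fun _ _ => Nat.zero_le _) hisupp
        have hdi : d i = 1 := by omega
        ext j
        by_cases hj : j = i
        · subst hj; simp [hdi]
        · rw [Finsupp.single_apply, if_neg (Ne.symm hj)]
          by_contra hdj
          have hjsupp : j ∈ d.support := Finsupp.mem_support_iff.2 hdj
          have hpair : d i + d j ≤ ∑ l ∈ d.support, d l := by
            have hsub : ({i, j} : Finset σ) ⊆ d.support := by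
              intro l hl
              rcases Finset.mem_insert.1 hl with rfl | hl
              · exact hisupp
              · rw [Finset.mem_singleton] at hl; subst hl; exact hjsupp
            calc d i + d j = ∑ l ∈ ({i, j} : Finset σ), d l := by
                  rw [Finset.sum_pair (Ne.symm hj)]
              _ ≤ ∑ l ∈ d.support, d l :=
                  Finset.sum_le_sum_of_subset_of_nonneg hsub fun _ _ _ => Nat.zero_le _
          have : 0 < d j := Nat.pos_of_ne_zero hdj
          omega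
    rw [← s26ecrvaR_coeff, hz i, map_zero]
  exact_mod_cast h2

/-- **(A)+(C)**: a `K`-algebra homomorphism `ψ : O → K[[X]]` which agrees with `ι` on every axis
is injective. -/
theorem s26ecrva_injective_of_axes [Fintype σ] (ψ : O →ₐ[K] MvPowerSeries σ K)
    (hax : ∀ i, (s26ecrvaR K i).comp ψ = (s26ecrvaR K i).comp ι) : Function.Injective ψ :=
  s26ecrva_injective y hspan ψ (s26ecrva_axes y ι hι ψ hax) hres

end Curve

end Fermat.Agent.S26
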