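/-
S26-E, piece E-CRV, sub-leaf (X1) (helper7): POWER-SERIES MAPS.  Pure algebra, Mathlib +
`ECrvAlgB` only.

`K` a field, `σ` a type, `s26ecrvaE i : Unit ↪ σ`, `s26ecrvaR K i = killCompl (s26ecrvaE i)`
(S26/ECrvAlgB.lean: restriction to the `i`-th axis).

* `s26ecrvpsCC K : K[[t]] →ₐ[K] K`, `s26ecrvpsCCσ K : K[[X_σ]] →ₐ[K] K` : the constant coefficients;
* `s26ecrvpsIncl K i : K[[t]] →ₐ[K] K[[X_σ]]` : the inclusion of the `i`-th axis (`t ↦ X i`);
* (a) `s26ecrvps_R_comp_incl` : `r_i ∘ incl_i = id`;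
* (b) `s26ecrvps_R_comp_incl_of_ne` : `r_i ∘ incl_j = (K → K[[t]]) ∘ cc` for `j ≠ i`;
* (c) `s26ecrvps_cc_comp_incl` : `cc_σ ∘ incl_i = cc`; `s26ecrvps_cc_comp_R` : `cc ∘ r_i = cc_σ`;
* (d) `s26ecrvps_isLocalHom_*` : `cc_σ`, `cc`, `incl_i`, `r_i` are local homomorphisms.
-/
import Fermat.Agent.S26.ECrvAlgB
import Mathlib.RingTheory.MvPowerSeries.Inverse

set_option autoImplicit false
set_option linter.style.haveILetI false
set_option linter.unusedSectionVars false

noncomputable section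

namespace Fermat.Agent.S26

open MvPowerSeries

section PS

variable {σ : Type*} (K : Type*) [Field K]

/-- the constant coefficient of a power series in one variable, as a `K`-algebra map -/
def s26ecrvpsCC : PowerSeries K →ₐ[K] K :=
  { (MvPowerSeries.constantCoeff : MvPowerSeries Unit K →+* K) with
    commutes' := fun r => by
      show MvPowerSeries.constantCoeff (algebraMap K (MvPowerSeries Unit K) r) = r
      rw [MvPowerSeries.algebraMap_apply, MvPowerSeries.constantCoeff_C]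
      rfl }

/-- the constant coefficient of a power series in the variables `σ`, as a `K`-algebra map -/
def s26ecrvpsCCσ : MvPowerSeries σ K →ₐ[K] K :=
  { (MvPowerSeries.constantCoeff : MvPowerSeries σ K →+* K) with
    commutes' := fun r => by
      show MvPowerSeries.constantCoeff (algebraMap K (MvPowerSeries σ K) r) = r
      rw [MvPowerSeries.algebraMap_apply, MvPowerSeries.constantCoeff_C]
      rfl }

/-- the inclusion of the `i`-th axis: `t ↦ X i` -/
def s26ecrvpsIncl (i : σ) : PowerSeries K →ₐ[K] MvPowerSeries σ K :=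
  MvPowerSeries.rename (s26ecrvaE i)

@[simp] theorem s26ecrvpsCC_apply (p : PowerSeries K) :
    s26ecrvpsCC K p = MvPowerSeries.constantCoeff (p : MvPowerSeries Unit K) := rfl

@[simp] theorem s26ecrvpsCCσ_apply (p : MvPowerSeries σ K) :
    s26ecrvpsCCσ (σ := σ) K p = MvPowerSeries.constantCoeff p := rfl

theorem s26ecrvpsIncl_apply (i : σ) (p : PowerSeries K) :
    s26ecrvpsIncl K i p = MvPowerSeries.rename (s26ecrvaE i) (p : MvPowerSeries Unit K) := rfl

theorem s26ecrvpsIncl_X (i : σ) : s26ecrvpsIncl K i PowerSeries.X = X i :=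
  MvPowerSeries.rename_X (R := K) (s26ecrvaE i) ()

/-- **(a)** `r_i ∘ incl_i = id` -/
theorem s26ecrvps_R_comp_incl (i : σ) :
    (s26ecrvaR K i).comp (s26ecrvpsIncl K i) = AlgHom.id K (PowerSeries K) :=
  MvPowerSeries.killCompl_comp_rename (R := K) (e := s26ecrvaE i)

theorem s26ecrvps_R_incl (i : σ) (p : PowerSeries K) :
    s26ecrvaR K i (s26ecrvpsIncl K i p) = p :=
  MvPowerSeries.killCompl_rename_app (R := K) (e := s26ecrvaE i) p

/-- **(b)**, applied -/
theorem s26ecrvps_R_incl_of_ne {i j : σ} (h : j ≠ i) (p : PowerSeries K) :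
    s26ecrvaR K i (s26ecrvpsIncl K j p) = algebraMap K (PowerSeries K) (s26ecrvpsCC K p) := by
  classical
  refine MvPowerSeries.ext fun x => ?_
  rw [s26ecrvaR_coeff]
  have hR : algebraMap K (PowerSeries K) (s26ecrvpsCC K p)
      = (MvPowerSeries.C (MvPowerSeries.constantCoeff (p : MvPowerSeries Unit K)) :
        MvPowerSeries Unit K) := by
    show algebraMap K (MvPowerSeries Unit K) _ = _
    rw [MvPowerSeries.algebraMap_apply]
    rfl
  rw [hR, MvPowerSeries.coeff_C]
  by_cases hx : x = 0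
  · subst hx
    rw [if_pos rfl]
    have e1 : Finsupp.embDomain (s26ecrvaE i) (0 : Unit →₀ ℕ)
        = Finsupp.embDomain (s26ecrvaE j) (0 : Unit →₀ ℕ) := by
      rw [Finsupp.embDomain_zero, Finsupp.embDomain_zero]
    rw [e1]
    show MvPowerSeries.coeff (Finsupp.embDomain (s26ecrvaE j) 0)
      (MvPowerSeries.rename (s26ecrvaE j) (p : MvPowerSeries Unit K)) = _
    rw [MvPowerSeries.coeff_embDomain_rename, MvPowerSeries.coeff_zero_eq_constantCoeff_apply]
  · rw [if_neg hx]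
    refine MvPowerSeries.coeff_rename_eq_zero (R := K) (s26ecrvaE j) (p : MvPowerSeries Unit K)
      ?_
    rintro ⟨y, hy⟩
    have h1 : (Finsupp.mapDomain (⇑(s26ecrvaE j)) y) i
        = (Finsupp.embDomain (s26ecrvaE i) x) i := congrArg (fun f : σ →₀ ℕ => f i) hy
    have h2 : (Finsupp.mapDomain (⇑(s26ecrvaE j)) y) i = 0 := by
      refine Finsupp.mapDomain_of_notMem_range y i ?_
      rintro ⟨u, hu⟩
      exact h hu
    have h3 : (Finsupp.embDomain (s26ecrvaE i) x) i = x () :=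
      Finsupp.embDomain_apply_self (s26ecrvaE i) x ()
    rw [h2, h3] at h1
    apply hx
    refine Finsupp.ext fun u => ?_
    cases u
    exact h1.symm

/-- **(b)** `r_i ∘ incl_j` is the constant coefficient for `j ≠ i` -/
theorem s26ecrvps_R_comp_incl_of_ne {i j : σ} (h : j ≠ i) :
    (s26ecrvaR K i).comp (s26ecrvpsIncl K j)
      = (Algebra.ofId K (PowerSeries K)).comp (s26ecrvpsCC K) :=
  AlgHom.ext fun p => s26ecrvps_R_incl_of_ne K h p

/-- **(c)** `cc_σ ∘ incl_i = cc` -/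
theorem s26ecrvps_cc_comp_incl (i : σ) :
    (s26ecrvpsCCσ (σ := σ) K).comp (s26ecrvpsIncl K i) = s26ecrvpsCC K :=
  AlgHom.ext fun p =>
    MvPowerSeries.constantCoeff_rename (R := K) (s26ecrvaE i) (p : MvPowerSeries Unit K)

theorem s26ecrvps_cc_incl (i : σ) (p : PowerSeries K) :
    s26ecrvpsCCσ (σ := σ) K (s26ecrvpsIncl K i p) = s26ecrvpsCC K p :=
  MvPowerSeries.constantCoeff_rename (R := K) (s26ecrvaE i) (p : MvPowerSeries Unit K)

theorem s26ecrvps_cc_R (i : σ) (p : MvPowerSeries σ K) :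
    s26ecrvpsCC K (s26ecrvaR K i p) = s26ecrvpsCCσ (σ := σ) K p := by
  show MvPowerSeries.constantCoeff (s26ecrvaR K i p : MvPowerSeries Unit K)
    = MvPowerSeries.constantCoeff p
  rw [← MvPowerSeries.coeff_zero_eq_constantCoeff_apply,
    ← MvPowerSeries.coeff_zero_eq_constantCoeff_apply]
  have := s26ecrvaR_coeff K i p 0
  rw [Finsupp.embDomain_zero] at this
  exact this

/-- **(c)** `cc ∘ r_i = cc_σ` -/
theorem s26ecrvps_cc_comp_R (i : σ) :
    (s26ecrvpsCC K).comp (s26ecrvaR K i) = s26ecrvpsCCσ (σ := σ) K :=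
  AlgHom.ext fun p => s26ecrvps_cc_R K i p

/-- a power series over a field is a unit iff its constant coefficient is not zero -/
theorem s26ecrvps_isUnit_iff (p : MvPowerSeries σ K) :
    IsUnit p ↔ s26ecrvpsCCσ (σ := σ) K p ≠ 0 := by
  rw [MvPowerSeries.isUnit_iff_constantCoeff, isUnit_iff_ne_zero]
  rfl

theorem s26ecrvps_isUnit_iff_one (p : PowerSeries K) :
    IsUnit p ↔ s26ecrvpsCC K p ≠ 0 := by
  show IsUnit (p : MvPowerSeries Unit K) ↔ _
  rw [MvPowerSeries.isUnit_iff_constantCoeff, isUnit_iff_ne_zero]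
  rfl

/-- **(d)** the constant coefficient `cc_σ` is a local homomorphism -/
theorem s26ecrvps_isLocalHom_CCσ : IsLocalHom (s26ecrvpsCCσ (σ := σ) K) :=
  ⟨fun p hp => (s26ecrvps_isUnit_iff K p).mpr (isUnit_iff_ne_zero.mp hp)⟩

/-- **(d)** the constant coefficient `cc` is a local homomorphism -/
theorem s26ecrvps_isLocalHom_CC : IsLocalHom (s26ecrvpsCC K) :=
  ⟨fun p hp => (s26ecrvps_isUnit_iff_one K p).mpr (isUnit_iff_ne_zero.mp hp)⟩

/-- **(d)** the inclusion of an axis is a local homomorphism -/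
theorem s26ecrvps_isLocalHom_incl (i : σ) : IsLocalHom (s26ecrvpsIncl (σ := σ) K i) :=
  ⟨fun p hp => by
    rw [s26ecrvps_isUnit_iff, s26ecrvps_cc_incl] at hp
    exact (s26ecrvps_isUnit_iff_one K p).mpr hp⟩

/-- **(d)** the restriction to an axis is a local homomorphism -/
theorem s26ecrvps_isLocalHom_R (i : σ) : IsLocalHom (s26ecrvaR (σ := σ) K i) :=
  ⟨fun p hp => by
    rw [s26ecrvps_isUnit_iff_one, s26ecrvps_cc_R] at hp
    exact (s26ecrvps_isUnit_iff K p).mpr hp⟩

/-- **(d)**, ring-homomorphism forms -/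
theorem s26ecrvps_isLocalHom_CCσ' :
    IsLocalHom (s26ecrvpsCCσ (σ := σ) K : MvPowerSeries σ K →+* K) :=
  ⟨fun p hp => (s26ecrvps_isLocalHom_CCσ (σ := σ) K).map_nonunit p hp⟩

theorem s26ecrvps_isLocalHom_CC' : IsLocalHom (s26ecrvpsCC K : PowerSeries K →+* K) :=
  ⟨fun p hp => (s26ecrvps_isLocalHom_CC K).map_nonunit p hp⟩

theorem s26ecrvps_isLocalHom_incl' (i : σ) :
    IsLocalHom (s26ecrvpsIncl (σ := σ) K i : PowerSeries K →+* MvPowerSeries σ K) :=
  ⟨fun p hp => (s26ecrvps_isLocalHom_incl (σ := σ) K i).map_nonunit p hp⟩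

theorem s26ecrvps_isLocalHom_R' (i : σ) :
    IsLocalHom (s26ecrvaR (σ := σ) K i : MvPowerSeries σ K →+* PowerSeries K) :=
  ⟨fun p hp => (s26ecrvps_isLocalHom_R (σ := σ) K i).map_nonunit p hp⟩

end PS

end Fermat.Agent.S26

end
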