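/-
S26-E, piece E-CRV, leaf (H) (helper7): HAT POINTS.

`O = S26ecrvO f G` the local ring of `A` at `0`, `ι : O →ₐ[K] K[[X_1, …, X_d]]`.

* `s26ecrvhLam f G ι i : O →ₐ[K] K[[X]]`  : `incl_i ∘ r_i ∘ ι` (the `i`-th axis of `ι`);
* `s26ecrvhNu f G ι i : A(K[[X]])`        : its point;
* `s26ecrvhSum f G ι L : A(K[[X]])`       : the sum of the `ν_i`, `i ∈ L`;
* `s26ecrvh_pt`        : the image point of `s26ecrvhSum f G ι L` is `0`;
* `s26ecrvh_axis`      : `r_i ∘ ev (Σ_{j ∈ L} ν_j) = r_i ∘ ι` for `L` without repetition, `i ∈ L`;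
* `s26ecrvh_injective` : the evaluation `O → K[[X]]` at `Σ_i ν_i` is INJECTIVE.
-/
import Fermat.Agent.S26.ECrvKP
import Fermat.Agent.S26.ECrvPS

set_option autoImplicit false
set_option linter.style.haveILetI false
set_option linter.unusedSectionVars false
set_option linter.unusedVariables false

noncomputable section

namespace Fermat.Agent.S26

open CategoryTheory CategoryTheory.Limits AlgebraicGeometry NeronModelInfra GoodReductionJacobian

universe u

/-! ### `K`-algebra homomorphisms from a local `K`-algebra to `K` -/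

section Alg

variable {K : Type u} [Field K] {O : Type u} [CommRing O] [IsLocalRing O] [Algebra K O]

/-- a `K`-algebra homomorphism `O → K` from a local ring kills the maximal ideal -/
theorem s26ecrvh_kills (φ : O →ₐ[K] K) (a : O) (ha : a ∈ IsLocalRing.maximalIdeal O) :
    φ a = 0 := by
  by_contra hne
  have h1 : a - algebraMap K O (φ a) ∈ IsLocalRing.maximalIdeal O := by
    rw [IsLocalRing.mem_maximalIdeal]
    intro hu
    have h2 := hu.map φ
    rw [map_sub, AlgHom.commutes, Algebra.algebraMap_self_apply, sub_self] at h2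
    exact not_isUnit_zero h2
  have h3 : algebraMap K O (φ a) ∈ IsLocalRing.maximalIdeal O := by
    have := Ideal.sub_mem _ ha h1
    rwa [sub_sub_cancel] at this
  rw [IsLocalRing.mem_maximalIdeal] at h3
  exact h3 ((isUnit_iff_ne_zero.2 hne).map (algebraMap K O))

/-- if there is a `K`-algebra homomorphism `O → K`, the residue field of `O` is `K` -/
theorem s26ecrvh_hres (φ : O →ₐ[K] K) (r : O) :
    ∃ c : K, r - algebraMap K O c ∈ IsLocalRing.maximalIdeal O := by
  refine ⟨φ r, ?_⟩
  rw [IsLocalRing.mem_maximalIdeal]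
  intro hu
  have h2 := hu.map φ
  rw [map_sub, AlgHom.commutes, Algebra.algebraMap_self_apply, sub_self] at h2
  exact not_isUnit_zero h2

/-- a `K`-algebra homomorphism which factors through `K` kills the maximal ideal -/
theorem s26ecrvh_kills_ofId {R : Type u} [CommRing R] [Algebra K R] (φ : O →ₐ[K] K) (a : O)
    (ha : a ∈ IsLocalRing.maximalIdeal O) : ((Algebra.ofId K R).comp φ) a = 0 := by
  rw [AlgHom.comp_apply, s26ecrvh_kills φ a ha, map_zero]

end Alg

variable {K : Type u} [Field K] {A : Scheme.{u}} (f : A ⟶ Spec (CommRingCat.of K))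
  (G : RelativeGroupLaw K f)

/-! ### Yoneda for the local ring at zero (own copies, to be independent of leaf (Y)) -/

section Yon

variable {R : Type u} [CommRing R] [Algebra K R] [IsLocalRing R]

theorem s26ecrvh_specializes (lam : S26ecrvO f G →ₐ[K] R) :
    s26eptPt f (s26eptMap f lam (s26ecrvUniv f G)) ⤳ s26zero f G :=
  (s26eptPt_map_specializes f lam (s26ecrvUniv f G)).trans
    (specializes_of_eq (s26ecrvUniv_pt f G))

/-- the point of a ring map determines the ring map -/
theorem s26ecrvh_map_univ_injective {R' : Type u} [CommRing R'] [Algebra K R']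
    (lam lam' : S26ecrvO f G →ₐ[K] R')
    (h : s26eptMap f lam (s26ecrvUniv f G) = s26eptMap f lam' (s26ecrvUniv f G)) :
    lam = lam' := by
  have h1 := congrArg Subtype.val h
  rw [s26eptMap_coe, s26eptMap_coe] at h1
  have h2 : s26eptSpec lam = s26eptSpec lam' :=
    (cancel_mono (A.fromSpecStalk (s26zero f G))).1 h1
  have h3 := Spec.map_injective h2
  have h4 : (lam : S26ecrvO f G →+* R') = (lam' : S26ecrvO f G →+* R') :=
    congrArg CommRingCat.Hom.hom h3
  exact AlgHom.ext fun a => congrArg (fun g : S26ecrvO f G →+* R' => g a) h4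

/-- the evaluation at the point of a ring map `lam` is `lam` -/
theorem s26ecrvh_evAlg_map_univ (lam : S26ecrvO f G →ₐ[K] R)
    (h : s26eptPt f (s26eptMap f lam (s26ecrvUniv f G)) ⤳ s26zero f G) :
    s26ecrvEvAlg f G (s26eptMap f lam (s26ecrvUniv f G)) h = lam :=
  s26ecrvh_map_univ_injective f G _ _ (s26ecrvk_map_evAlg_univ f G _ h)

end Yon

/-! ### the hat points -/

section H

variable {d : ℕ} (ι : S26ecrvO f G →ₐ[K] MvPowerSeries (Fin d) K)

/-- the `i`-th axis of `ι` -/
def s26ecrvhLam (i : Fin d) : S26ecrvO f G →ₐ[K] MvPowerSeries (Fin d) K :=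
  (s26ecrvpsIncl K i).comp ((s26ecrvaR K i).comp ι)

/-- the point of the `i`-th axis -/
def s26ecrvhNu (i : Fin d) : s26eptPts f (MvPowerSeries (Fin d) K) :=
  s26eptMap f (s26ecrvhLam f G ι i) (s26ecrvUniv f G)

/-- the sum of the points of the axes in the list `L` -/
def s26ecrvhSum : List (Fin d) → s26eptPts f (MvPowerSeries (Fin d) K)
  | [] => G.one _
  | i :: L => G.mul _ (s26ecrvhNu f G ι i) (s26ecrvhSum L)

theorem s26ecrvhSum_nil : s26ecrvhSum f G ι [] = G.one _ := rfl

theorem s26ecrvhSum_cons (i : Fin d) (L : List (Fin d)) :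
    s26ecrvhSum f G ι (i :: L) = G.mul _ (s26ecrvhNu f G ι i) (s26ecrvhSum f G ι L) := rfl

/-- the constant coefficient of `ι` -/
def s26ecrvhCC : S26ecrvO f G →ₐ[K] K := (s26ecrvpsCCσ K).comp ι

/-- the residue field of `O` is `K`, if there is a `K`-algebra homomorphism `ι : O → K[[X]]` -/
theorem s26ecrvh_hres' {d' : ℕ} (ι' : S26ecrvO f G →ₐ[K] MvPowerSeries (Fin d') K)
    (r : S26ecrvO f G) :
    ∃ c : K, r - algebraMap K (S26ecrvO f G) c ∈ IsLocalRing.maximalIdeal (S26ecrvO f G) :=
  s26ecrvh_hres (s26ecrvhCC f G ι') r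

/-- a point of `A(R)` defined by a homomorphism `O → K → R` is the zero point -/
theorem s26ecrvh_map_univ_eq_one {R : Type u} [CommRing R] [Algebra K R]
    (φ : S26ecrvO f G →ₐ[K] K) :
    s26eptMap f ((Algebra.ofId K R).comp φ) (s26ecrvUniv f G) = G.one (s26eptStr K R) :=
  s26ecrvk_map_univ_eq_one f G (s26ecrvh_hres φ) _ (fun a ha => s26ecrvh_kills_ofId φ a ha)

theorem s26ecrvh_map_univ_eq_one' (φ : S26ecrvO f G →ₐ[K] K) :
    s26eptMap f φ (s26ecrvUniv f G) = G.one (s26eptStr K K) :=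
  s26ecrvk_map_univ_eq_one f G (s26ecrvh_hres φ) _ (fun a ha => s26ecrvh_kills φ a ha)

/-- the constant coefficient sends `ν_i` to the zero point -/
theorem s26ecrvh_cc_nu (i : Fin d) :
    s26eptMap f (s26ecrvpsCCσ K) (s26ecrvhNu f G ι i) = G.one (s26eptStr K K) := by
  unfold s26ecrvhNu
  rw [← s26eptMap_comp]
  exact s26ecrvh_map_univ_eq_one' f G _

/-- the constant coefficient sends the sums to the zero point -/
theorem s26ecrvh_cc_sum (L : List (Fin d)) :
    s26eptMap f (s26ecrvpsCCσ K) (s26ecrvhSum f G ι L) = G.one (s26eptStr K K) := by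
  induction L with
  | nil => exact s26eptMap_one f G _
  | cons i L ih =>
    rw [s26ecrvhSum_cons, s26eptMap_mul, s26ecrvh_cc_nu, ih, G.one_mul]

/-- **the image point of the sums is `0`** -/
theorem s26ecrvh_pt (L : List (Fin d)) : s26eptPt f (s26ecrvhSum f G ι L) = s26zero f G := by
  haveI : IsLocalHom ((s26ecrvpsCCσ (σ := Fin d) K : MvPowerSeries (Fin d) K →ₐ[K] K) :
      MvPowerSeries (Fin d) K →+* K) := s26ecrvps_isLocalHom_CCσ' K
  rw [← s26eptPt_map f (s26ecrvpsCCσ (σ := Fin d) K) (s26ecrvhSum f G ι L), s26ecrvh_cc_sum,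
    s26e_pt_one]

/-! ### the axes -/

/-- `r_i` sends `ν_i` to the point of `r_i ∘ ι` -/
theorem s26ecrvh_R_nu_self (i : Fin d) :
    s26eptMap f (s26ecrvaR K i) (s26ecrvhNu f G ι i) =
      s26eptMap f ((s26ecrvaR K i).comp ι) (s26ecrvUniv f G) := by
  unfold s26ecrvhNu s26ecrvhLam
  rw [← s26eptMap_comp]
  congr 1
  rw [← AlgHom.comp_assoc, s26ecrvps_R_comp_incl, AlgHom.id_comp]

/-- `r_i` sends `ν_j`, `j ≠ i`, to the zero point -/
theorem s26ecrvh_R_nu_of_ne {i j : Fin d} (h : j ≠ i) :
    s26eptMap f (s26ecrvaR K i) (s26ecrvhNu f G ι j) = G.one (s26eptStr K (PowerSeries K)) := by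
  unfold s26ecrvhNu s26ecrvhLam
  rw [← s26eptMap_comp]
  have h1 : (s26ecrvaR K i).comp ((s26ecrvpsIncl K j).comp ((s26ecrvaR K j).comp ι)) =
      (Algebra.ofId K (PowerSeries K)).comp ((s26ecrvpsCC K).comp ((s26ecrvaR K j).comp ι)) := by
    rw [← AlgHom.comp_assoc, s26ecrvps_R_comp_incl_of_ne K h, AlgHom.comp_assoc]
  rw [h1]
  exact s26ecrvh_map_univ_eq_one f G _

/-- `r_i` kills the sums over lists not containing `i` -/
theorem s26ecrvh_R_sum_of_notMem (i : Fin d) (L : List (Fin d)) (hi : i ∉ L) :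
    s26eptMap f (s26ecrvaR K i) (s26ecrvhSum f G ι L) = G.one (s26eptStr K (PowerSeries K)) := by
  induction L with
  | nil => exact s26eptMap_one f G _
  | cons j L ih =>
    rw [List.mem_cons, not_or] at hi
    rw [s26ecrvhSum_cons, s26eptMap_mul, s26ecrvh_R_nu_of_ne f G ι (Ne.symm hi.1), ih hi.2,
      G.one_mul]

/-- `r_i` sends the sum over a list without repetition containing `i` to the point of
`r_i ∘ ι` -/
theorem s26ecrvh_R_sum_of_mem (i : Fin d) (L : List (Fin d)) (hL : L.Nodup) (hi : i ∈ L) :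
    s26eptMap f (s26ecrvaR K i) (s26ecrvhSum f G ι L) =
      s26eptMap f ((s26ecrvaR K i).comp ι) (s26ecrvUniv f G) := by
  induction L with
  | nil => exact absurd hi (List.not_mem_nil)
  | cons j L ih =>
    rw [List.nodup_cons] at hL
    rw [s26ecrvhSum_cons, s26eptMap_mul]
    by_cases hji : j = i
    · subst hji
      rw [s26ecrvh_R_nu_self, s26ecrvh_R_sum_of_notMem f G ι j L hL.1, G.mul_one]
    · have hi' : i ∈ L := by
        rcases List.mem_cons.1 hi with h | h
        · exact absurd h.symm hji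
        · exact h
      rw [s26ecrvh_R_nu_of_ne f G ι hji, ih hL.2 hi', G.one_mul]

/-- the evaluation depends only on the point -/
theorem s26ecrvh_evAlg_congr {R : Type u} [CommRing R] [Algebra K R] [IsLocalRing R]
    {P Q : s26eptPts f R} (hPQ : P = Q) (hP : s26eptPt f P ⤳ s26zero f G)
    (hQ : s26eptPt f Q ⤳ s26zero f G) : s26ecrvEvAlg f G P hP = s26ecrvEvAlg f G Q hQ := by
  subst hPQ
  rfl

/-- **the axes of the evaluation at the sum are the axes of `ι`** -/
theorem s26ecrvh_axis (L : List (Fin d)) (hL : L.Nodup) (i : Fin d) (hi : i ∈ L) :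
    (s26ecrvaR K i).comp
        (s26ecrvEvAlg f G (s26ecrvhSum f G ι L) (specializes_of_eq (s26ecrvh_pt f G ι L))) =
      (s26ecrvaR K i).comp ι := by
  have h1 : s26eptPt f (s26eptMap f (s26ecrvaR K i) (s26ecrvhSum f G ι L)) ⤳ s26zero f G :=
    (s26eptPt_map_specializes f _ _).trans (specializes_of_eq (s26ecrvh_pt f G ι L))
  rw [← s26ecrvEvAlg_map f G (s26ecrvaR K i) (s26ecrvhSum f G ι L)
    (specializes_of_eq (s26ecrvh_pt f G ι L)) h1]
  rw [s26ecrvh_evAlg_congr f G (s26ecrvh_R_sum_of_mem f G ι i L hL hi) h1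
    (s26ecrvh_specializes f G _)]
  exact s26ecrvh_evAlg_map_univ f G _ _

/-- **(H)**: the evaluation `O → K[[X_1, …, X_d]]` at the sum of the points of the axes is
injective. -/
theorem s26ecrvh_injective [IsNoetherianRing (S26ecrvO f G)]
    (hres : ∀ r : S26ecrvO f G, ∃ c : K,
      r - algebraMap K (S26ecrvO f G) c ∈ IsLocalRing.maximalIdeal (S26ecrvO f G))
    (y : Fin d → S26ecrvO f G)
    (hspan : Ideal.span (Set.range y) = IsLocalRing.maximalIdeal (S26ecrvO f G))
    (hloc : IsLocalHom ι) (hι : ∀ k, ι (y k) = MvPowerSeries.X k) :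
    Function.Injective (s26ecrvEvAlg f G (s26ecrvhSum f G ι (List.finRange d))
      (specializes_of_eq (s26ecrvh_pt f G ι _))) :=
  s26ecrva_injective_of_axes y hspan ι hι hres _
    (fun i => s26ecrvh_axis f G ι (List.finRange d) (List.nodup_finRange d) i
      (List.mem_finRange i))

end H

end Fermat.Agent.S26
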