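import Mathlib
import Fermat.Agent.S26.PlanGeo
import Fermat.Agent.S26.A2Dvr

/-!
# S26, Stage A, piece A2 (final): `s26_StmtA2` and `s26_StmtAdm`

* `s26a2_stmtA2  : s26_StmtA2`  — `A` is integral, noetherian, separated, with DVR stalks at the
  points of coheight one;
* `s26a2_stmtAdm : s26_StmtAdm` — admissible opens (affine, symmetric, containing `0`) exist.
-/

set_option autoImplicit false

noncomputable section

universe u

open CategoryTheory CategoryTheory.Limits AlgebraicGeometry NeronModelInfra GoodReductionJacobian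

namespace Fermat.Agent.S26

/-- **A2** -/
theorem s26a2_stmtA2 : s26_StmtA2.{u} := by
  intro K _ A f G g h
  haveI := h.algClosed
  have hA := h.bundle
  haveI := hA.smooth
  haveI := hA.proper
  have hint : IsIntegral A := s26a2_isIntegral G hA
  have hnoeth : IsNoetherian A := s26a2_isNoetherian f
  exact ⟨hint, hnoeth, inferInstance, fun z hz => s26a2_isDVR_stalk f z hz⟩

variable {K : Type u} [Field K] {A : Scheme.{u}} {f : A ⟶ Spec (CommRingCat.of K)}

/-- `[-1] ∘ [-1] = id` -/
theorem s26a2_neg_neg (G : RelativeGroupLaw K f) : s26neg f G ≫ s26neg f G = 𝟙 A := by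
  have h := s26a1_inv_eq G f (G.inv f RelativeGroupLaw.idPoint)
  letI := G.pointGroup f
  have h2 : G.inv f (G.inv f RelativeGroupLaw.idPoint) = RelativeGroupLaw.idPoint :=
    inv_inv (RelativeGroupLaw.idPoint (f := f))
  rw [h2] at h
  exact h.symm

/-- `[-1] 0 = 0` (as morphisms) -/
theorem s26a2_unit_neg (G : RelativeGroupLaw K f) :
    (G.one (𝟙 (Spec (CommRingCat.of K)))).1 ≫ s26neg f G
      = (G.one (𝟙 (Spec (CommRingCat.of K)))).1 := by
  have h := s26a1_inv_eq G (𝟙 _) (G.one (𝟙 (Spec (CommRingCat.of K))))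
  letI := G.pointGroup (𝟙 (Spec (CommRingCat.of K)))
  have h2 : G.inv (𝟙 _) (G.one (𝟙 (Spec (CommRingCat.of K)))) = G.one (𝟙 _) :=
    inv_one
  rw [h2] at h
  exact h.symm

/-- `[-1] 0 = 0` (as points) -/
theorem s26a2_neg_zero (G : RelativeGroupLaw K f) : (s26neg f G) (s26zero f G) = s26zero f G := by
  have h := s26a2_unit_neg G
  have h2 := congrArg (fun φ : Spec (CommRingCat.of K) ⟶ A =>
    φ (Classical.arbitrary (Spec (CommRingCat.of K)))) h
  simpa [s26zero] using h2

/-- **A2-U**: admissible opens exist -/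
theorem s26a2_stmtAdm : s26_StmtAdm.{u} := by
  intro K _ A f G g h
  have hA := h.bundle
  haveI := hA.proper
  obtain ⟨V, hV, h0V, -⟩ :=
    exists_isAffineOpen_mem_and_subset (x := s26zero f G) (U := ⊤) trivial
  haveI : IsIso (s26neg f G) := ⟨s26neg f G, s26a2_neg_neg G, s26a2_neg_neg G⟩
  have hV' : IsAffineOpen ((s26neg f G) ⁻¹ᵁ V) := hV.preimage_of_isIso (s26neg f G)
  refine ⟨V ⊓ (s26neg f G) ⁻¹ᵁ V, ?_, ⟨h0V, ?_⟩, ?_⟩
  · exact isAffineHom_diagonal_iff.mp (inferInstance : IsAffineHom (pullback.diagonal f)) ⊤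
      (isAffineOpen_top _) V (by simp) _ (by simp) hV hV'
  · show (s26neg f G) (s26zero f G) ∈ V
    rw [s26a2_neg_zero]
    exact h0V
  · rw [Scheme.Hom.preimage_inf, ← Scheme.Hom.comp_preimage, s26a2_neg_neg]
    rw [inf_comm]
    rfl

end Fermat.Agent.S26
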