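/-
S26-E, piece E-CRV, leaf (P-O) (helper83): THE LOCAL RING AT ZERO satisfies the standing
hypotheses of the coordinate-curve algebra (`ECrvAlg*`), wrapping helper39's `ELFW` and
helper21's `ELF1Alg`.

`O := S26ecrvO f G` = the stalk of `A` at `s26zero f G`, with helper32's `Algebra K O`.

* `s26ecrvo_zero_closed`   : the zero point is closed (`f` separated);
* `s26ecrvo_isNoetherianRing`, `s26ecrvo_isDomain`                       (O1);
* `s26ecrvo_hres`                                                         (O2);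
* `s26ecrvo_formallySmooth`                                               (O3);
* `s26ecrvo_exists_coords` : `∃ d y ι`, `span (range y) = 𝔪`, `ι (y k) = X k`, `ι` injective local  (O5);
* `s26ecrvo_of_hyp`        : all of it from `S26Hyp K f G g`.
-/
import Fermat.Agent.S26.ECrvPt
import Fermat.Agent.S26.ELFW
import Fermat.Agent.S26.ELF1Alg
import Fermat.Agent.S26.A2Final

set_option autoImplicit false
set_option linter.style.haveILetI false

noncomputable section

namespace Fermat.Agent.S26

open CategoryTheory CategoryTheory.Limits AlgebraicGeometry NeronModelInfra GoodReductionJacobian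

universe u

variable {K : Type u} [Field K] {A : Scheme.{u}} (f : A ⟶ Spec (CommRingCat.of K))
variable (G : RelativeGroupLaw K f)

theorem s26ecrvo_str_eq (x : A) : s26ecrvStr f x = s26elfwStalkMap f x := rfl

/-- the zero section `Spec K ⟶ A`. -/
def s26ecrvoZeroHom : Spec (CommRingCat.of K) ⟶ A := (G.one (𝟙 (Spec (CommRingCat.of K)))).1

theorem s26ecrvoZeroHom_comp : s26ecrvoZeroHom f G ≫ f = 𝟙 _ :=
  (G.one (𝟙 (Spec (CommRingCat.of K)))).2

theorem s26ecrvoZeroHom_apply (s : Spec (CommRingCat.of K)) :
    s26ecrvoZeroHom f G s = s26zero f G := by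
  unfold s26zero s26ecrvoZeroHom
  congr 1
  exact Subsingleton.elim _ _

/-- the zero point of `A` is a closed point. -/
theorem s26ecrvo_zero_closed [IsSeparated f] : IsClosed ({s26zero f G} : Set A) := by
  haveI : IsClosedImmersion (s26ecrvoZeroHom f G ≫ f) := by
    rw [s26ecrvoZeroHom_comp]; infer_instance
  haveI : IsClosedImmersion (s26ecrvoZeroHom f G) := IsClosedImmersion.of_comp _ f
  have h := (s26ecrvoZeroHom f G).isClosedEmbedding.isClosed_range
  have hr : Set.range (s26ecrvoZeroHom f G) = {s26zero f G} := by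
    ext x
    constructor
    · rintro ⟨s, rfl⟩
      exact s26ecrvoZeroHom_apply f G s
    · rintro rfl
      exact ⟨Classical.arbitrary _, s26ecrvoZeroHom_apply f G _⟩
  rwa [hr] at h

/-- (O1) -/
instance s26ecrvo_isNoetherianRing [IsLocallyNoetherian A] : IsNoetherianRing (S26ecrvO f G) :=
  inferInstanceAs (IsNoetherianRing (A.presheaf.stalk (s26zero f G)))

/-- (O1) -/
instance s26ecrvo_isDomain [IsIntegral A] : IsDomain (S26ecrvO f G) :=
  inferInstanceAs (IsDomain (A.presheaf.stalk (s26zero f G)))

/-- (O3) -/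
instance s26ecrvo_formallySmooth [Smooth f] : Algebra.FormallySmooth K (S26ecrvO f G) :=
  s26elfw_formallySmooth f (s26zero f G)

/-- (O2): the residue field of the local ring at zero is `K`. -/
theorem s26ecrvo_hres [IsAlgClosed K] [LocallyOfFiniteType f] [IsSeparated f]
    (r : S26ecrvO f G) :
    ∃ c : K, r - algebraMap K (S26ecrvO f G) c ∈ IsLocalRing.maximalIdeal (S26ecrvO f G) :=
  s26elfw_hres f (s26zero f G) (s26ecrvo_zero_closed f G) r

/-- (O5): coordinates at zero and the embedding into the power series ring. -/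
theorem s26ecrvo_exists_coords [IsAlgClosed K] [IsLocallyNoetherian A] [Smooth f]
    [IsSeparated f] :
    ∃ (d : ℕ) (y : Fin d → S26ecrvO f G) (ι : S26ecrvO f G →ₐ[K] MvPowerSeries (Fin d) K),
      S26Elf1Coords K (S26ecrvO f G) d y ∧
      Ideal.span (Set.range y) = IsLocalRing.maximalIdeal (S26ecrvO f G) ∧
      Function.Injective ι ∧ IsLocalHom ι ∧ (∀ k, ι (y k) = MvPowerSeries.X k) := by
  obtain ⟨d, y, ι, hc, hinj, hloc, hy, -⟩ :=
    s26elf1_embeddingAlg (K := K) (R := S26ecrvO f G) (s26ecrvo_hres f G)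
  exact ⟨d, y, ι, hc, hc.span, hinj, hloc, hy⟩

/-- everything from the standing hypothesis `S26Hyp`. -/
theorem s26ecrvo_of_hyp (g : ℕ) (H : S26Hyp K f G g) :
    ∃ (_ : IsIntegral A) (_ : IsLocallyNoetherian A) (_ : IsSeparated f) (_ : Smooth f)
      (_ : IsProper f),
      IsClosed ({s26zero f G} : Set A) ∧
      IsNoetherianRing (S26ecrvO f G) ∧ IsDomain (S26ecrvO f G) ∧
      Algebra.FormallySmooth K (S26ecrvO f G) ∧
      (∀ r : S26ecrvO f G, ∃ c : K,
        r - algebraMap K (S26ecrvO f G) c ∈ IsLocalRing.maximalIdeal (S26ecrvO f G)) ∧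
      ∃ (d : ℕ) (y : Fin d → S26ecrvO f G) (ι : S26ecrvO f G →ₐ[K] MvPowerSeries (Fin d) K),
        S26Elf1Coords K (S26ecrvO f G) d y ∧
        Ideal.span (Set.range y) = IsLocalRing.maximalIdeal (S26ecrvO f G) ∧
        Function.Injective ι ∧ IsLocalHom ι ∧ (∀ k, ι (y k) = MvPowerSeries.X k) := by
  obtain ⟨hint, hnoe, hsep, -⟩ := s26a2_stmtA2 K f G g H
  haveI := H.algClosed
  haveI : Smooth f := H.bundle.smooth
  haveI : IsProper f := H.bundle.proper
  haveI := hint
  haveI := hnoe
  haveI := hsep
  haveI : IsLocallyNoetherian A := inferInstance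
  exact ⟨hint, inferInstance, hsep, inferInstance, inferInstance, s26ecrvo_zero_closed f G,
    inferInstance, inferInstance, inferInstance, s26ecrvo_hres f G, s26ecrvo_exists_coords f G⟩

end Fermat.Agent.S26
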