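/-
S26-E, piece E-CRV, PART I, interface lemmas in the shapes asked by helper32 (helper83).
Mathlib + `ECrvAlg`, `ECrvAlgB` only.

* `s26ecrvaP_isPrime`          : `𝔭_i = (y j : j ≠ i)` is prime.
* `s26ecrvaQ y i : O →ₐ[K] O ⧸ 𝔭_i` : the quotient map `q_i`.
* `s26ecrvaTau_q_self / _of_ne` : `τ_i (q_i (y i)) = t`, `τ_i (q_i (y j)) = 0` for `j ≠ i`.
* `s26ecrvaTau_comp_q`         : `τ_i ∘ q_i = r_i ∘ ι`.
* `s26ecrva_injective_of_tau`  : **(C)** `ψ : O →ₐ[K] K[[X]]` with `r_i ∘ ψ = τ_i ∘ q_i` for all `i`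
  is injective.
* `s26ecrva_order_of_tau`      : ... and `ψ (y k) ≡ X k` modulo order `≥ 2`.
* `s26ecrva_q_y_mem`, `s26ecrva_q_y_irreducible` : `q_i (y i)` is a uniformiser of `O ⧸ 𝔭_i`.
-/
import Fermat.Agent.S26.ECrvAlgB

set_option autoImplicit false
set_option linter.style.haveILetI false
set_option linter.unusedSectionVars false

noncomputable section

namespace Fermat.Agent.S26

open IsLocalRing MvPowerSeries

variable {K O : Type*} [Field K] [CommRing O] [Algebra K O] [IsLocalRing O]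
variable {σ : Type*}

/-- the quotient map `q_i : O → O ⧸ 𝔭_i` onto the `i`-th coordinate curve. -/
def s26ecrvaQ (y : σ → O) (i : σ) : O →ₐ[K] O ⧸ s26ecrvaP y i :=
  Ideal.Quotient.mkₐ K (s26ecrvaP y i)

theorem s26ecrvaQ_apply (y : σ → O) (i : σ) (a : O) :
    s26ecrvaQ (K := K) y i a = Ideal.Quotient.mk (s26ecrvaP y i) a := rfl

theorem s26ecrvaQ_surjective (y : σ → O) (i : σ) :
    Function.Surjective (s26ecrvaQ (K := K) y i) := Ideal.Quotient.mk_surjective

theorem s26ecrvaQ_of_ne (y : σ → O) {i j : σ} (h : j ≠ i) : s26ecrvaQ (K := K) y i (y j) = 0 := by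
  rw [s26ecrvaQ_apply, Ideal.Quotient.eq_zero_iff_mem]
  exact Ideal.subset_span ⟨j, h, rfl⟩

variable (y : σ → O) (hspan : Ideal.span (Set.range y) = maximalIdeal O)
  (ι : O →ₐ[K] MvPowerSeries σ K) (hι : ∀ k, ι (y k) = X k)

theorem s26ecrvaTau_comp_q (i : σ) :
    (s26ecrvaTau y ι hι i).comp (s26ecrvaQ (K := K) y i) = (s26ecrvaR K i).comp ι := rfl

theorem s26ecrvaTau_q_self (i : σ) :
    s26ecrvaTau y ι hι i (s26ecrvaQ (K := K) y i (y i)) = PowerSeries.X :=
  s26ecrvaTau_y y ι hι i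

theorem s26ecrvaTau_q_of_ne {i j : σ} (h : j ≠ i) :
    s26ecrvaTau y ι hι i (s26ecrvaQ (K := K) y i (y j)) = 0 := by
  rw [s26ecrvaQ_of_ne y h, map_zero]

/-- **(C)**, in the `τ_i ∘ q_i` form: the linearisation. -/
theorem s26ecrva_order_of_tau (ψ : O →ₐ[K] MvPowerSeries σ K)
    (hax : ∀ i, (s26ecrvaR K i).comp ψ = (s26ecrvaTau y ι hι i).comp (s26ecrvaQ (K := K) y i)) :
    ∀ k, 2 ≤ (ψ (y k) - X k).order :=
  s26ecrva_axes y ι hι ψ hax

variable [IsNoetherianRing O]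
  (hres : ∀ r : O, ∃ c : K, r - algebraMap K O c ∈ maximalIdeal O)
include hspan hres hι

/-- **(C)**, in the `τ_i ∘ q_i` form: `ψ` is injective. -/
theorem s26ecrva_injective_of_tau [Fintype σ] (ψ : O →ₐ[K] MvPowerSeries σ K)
    (hax : ∀ i, (s26ecrvaR K i).comp ψ = (s26ecrvaTau y ι hι i).comp (s26ecrvaQ (K := K) y i)) :
    Function.Injective ψ :=
  s26ecrva_injective_of_axes y hspan ι hι hres ψ hax

/-- `𝔭_i` is a prime ideal. -/
theorem s26ecrvaP_isPrime (i : σ) : (s26ecrvaP y i).IsPrime :=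
  haveI := s26ecrva_isDomain y hspan ι hι hres i
  (Ideal.Quotient.isDomain_iff_prime _).1 inferInstance

/-- the class of `y i` lies in the maximal ideal of `O ⧸ 𝔭_i`. -/
theorem s26ecrva_q_y_mem (i : σ) :
    haveI := s26ecrva_isLocalRing y hspan i
    s26ecrvaQ (K := K) y i (y i) ∈ maximalIdeal (O ⧸ s26ecrvaP y i) := by
  haveI := s26ecrva_isLocalRing y hspan i
  rw [s26ecrva_maximalIdeal y hspan i]
  exact Ideal.subset_span rfl

/-- the class of `y i` is a uniformiser of `O ⧸ 𝔭_i`. -/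
theorem s26ecrva_q_y_irreducible (i : σ) :
    Irreducible (s26ecrvaQ (K := K) y i (y i)) := by
  haveI := s26ecrva_isDomain y hspan ι hι hres i
  haveI := s26ecrva_isLocalRing y hspan i
  haveI := s26ecrva_isDVR y hspan ι hι hres i
  rw [IsDiscreteValuationRing.irreducible_iff_uniformizer]
  exact s26ecrva_maximalIdeal y hspan i

/-- `K → O ⧸ 𝔭_i` is injective. -/
theorem s26ecrva_algebraMap_injective (i : σ) :
    Function.Injective (algebraMap K (O ⧸ s26ecrvaP y i)) :=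
  haveI := s26ecrva_nontrivial y hspan i
  (algebraMap K (O ⧸ s26ecrvaP y i)).injective

end Fermat.Agent.S26
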