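/-
S26-E, piece E-CRV, leaf (CD) (helper83): THE CURVE DATA of the coordinate curves, scheme side.

Part 1 (any point `x`, any `K`-algebra `R`): the point `s26ecrvdOf f x lam hlam ∈ A(R)` of a ring
homomorphism `lam : 𝒪_{A,x} → R` over `K`;  functoriality `s26ecrvdOf_map`;  for `R` local and
`lam` local its image point is `x` (`s26ecrvdOf_pt`);  every point with values in a local ring is
of this form (`s26ecrvdOf_ev`).

Part 2 (the zero point): `s26ecrvd_one_coe`, `s26ecrvd_one_pt` (`|0_R| = s26zero`), the residue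
retraction `s26ecrvdRho f G : 𝒪_{A,0} →+* K` and
`s26ecrvd_of_eq_one` : **a `K`-compatible `lam : 𝒪_{A,0} → R` which kills `𝔪` defines the zero
point of `A(R)`**.
-/
import Fermat.Agent.S26.ECrvO
import Fermat.Agent.S26.ELFWO

set_option autoImplicit false
set_option linter.style.haveILetI false

noncomputable section

namespace Fermat.Agent.S26

open CategoryTheory CategoryTheory.Limits AlgebraicGeometry NeronModelInfra GoodReductionJacobian

universe u

variable {K : Type u} [Field K] {A : Scheme.{u}} (f : A ⟶ Spec (CommRingCat.of K))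

section Of

variable {R R' : Type u} [CommRing R] [Algebra K R] [CommRing R'] [Algebra K R']

/-- the morphism `Spec R ⟶ A` of a ring homomorphism `lam : 𝒪_{A,x} → R`. -/
def s26ecrvdHom (x : A) (lam : A.presheaf.stalk x →+* R) : Spec (CommRingCat.of R) ⟶ A :=
  Spec.map (CommRingCat.ofHom lam) ≫ A.fromSpecStalk x

theorem s26ecrvdHom_over (x : A) (lam : A.presheaf.stalk x →+* R)
    (hlam : ∀ c : K, lam (s26ecrvStr f x c) = algebraMap K R c) :
    s26ecrvdHom x lam ≫ f = s26eptStr K R := by
  unfold s26ecrvdHom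
  rw [Category.assoc, ← s26elfw_specMap_stalkHom, ← Spec.map_comp]
  congr 1
  ext c
  exact hlam c

/-- the point of `A(R)` defined by a ring homomorphism `lam : 𝒪_{A,x} → R` over `K`. -/
def s26ecrvdOf (x : A) (lam : A.presheaf.stalk x →+* R)
    (hlam : ∀ c : K, lam (s26ecrvStr f x c) = algebraMap K R c) : s26eptPts f R :=
  ⟨s26ecrvdHom x lam, s26ecrvdHom_over f x lam hlam⟩

theorem s26ecrvdOf_coe (x : A) (lam : A.presheaf.stalk x →+* R)
    (hlam : ∀ c : K, lam (s26ecrvStr f x c) = algebraMap K R c) :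
    (s26ecrvdOf f x lam hlam).1 = Spec.map (CommRingCat.ofHom lam) ≫ A.fromSpecStalk x := rfl

theorem s26ecrvdOf_congr (x : A) {lam lam' : A.presheaf.stalk x →+* R}
    (hlam : ∀ c : K, lam (s26ecrvStr f x c) = algebraMap K R c)
    (hlam' : ∀ c : K, lam' (s26ecrvStr f x c) = algebraMap K R c) (h : lam = lam') :
    s26ecrvdOf f x lam hlam = s26ecrvdOf f x lam' hlam' := by
  subst h; rfl

/-- functoriality in `R`. -/
theorem s26ecrvdOf_map (φ : R →ₐ[K] R') (x : A) (lam : A.presheaf.stalk x →+* R)
    (hlam : ∀ c : K, lam (s26ecrvStr f x c) = algebraMap K R c) :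
    s26eptMap f φ (s26ecrvdOf f x lam hlam) =
      s26ecrvdOf f x ((φ : R →+* R').comp lam)
        (fun c => by rw [RingHom.comp_apply, hlam]; exact φ.commutes c) := by
  apply Subtype.ext
  rw [s26eptMap_coe, s26ecrvdOf_coe, s26ecrvdOf_coe, ← Category.assoc, ← Spec.map_comp]
  rfl

end Of

section Loc

variable {R : Type u} [CommRing R] [Algebra K R] [IsLocalRing R]

/-- the image point of the point of a LOCAL homomorphism `lam : 𝒪_{A,x} → R` is `x`. -/
theorem s26ecrvdOf_pt (x : A) (lam : A.presheaf.stalk x →+* R) [IsLocalHom lam]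
    (hlam : ∀ c : K, lam (s26ecrvStr f x c) = algebraMap K R c) :
    s26eptPt f (s26ecrvdOf f x lam hlam) = x := by
  have h1 : (Spec.map (CommRingCat.ofHom lam)) (IsLocalRing.closedPoint R) =
      IsLocalRing.closedPoint (A.presheaf.stalk x) := IsLocalRing.comap_closedPoint lam
  show (A.fromSpecStalk x) ((Spec.map (CommRingCat.ofHom lam)) (IsLocalRing.closedPoint R)) = x
  rw [h1]
  exact Scheme.fromSpecStalk_closedPoint

/-- a point with values in a local ring is the point of its evaluation at any specialisation `x`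
of its image point. -/
theorem s26ecrvdOf_ev (P : s26eptPts f R) (x : A) (h : s26eptPt f P ⤳ x) :
    s26ecrvdOf f x (s26ecrvEv f P x h) (s26ecrvEv_str f P x h) = P := by
  apply Subtype.ext
  rw [s26ecrvdOf_coe]
  conv_rhs => rw [s26ept_eq_SpecMap_ev f P, ← Scheme.SpecMap_stalkSpecializes_fromSpecStalk h]
  rw [← Category.assoc, ← Spec.map_comp]
  rfl

end Loc

section Zero

variable (G : RelativeGroupLaw K f)
variable {R : Type u} [CommRing R] [Algebra K R]

/-- the underlying morphism of the zero point of `A(R)`. -/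
theorem s26ecrvd_one_coe :
    (G.one (s26eptStr K R)).1 = s26eptStr K R ≫ s26ecrvoZeroHom f G := by
  have h := G.one_natural (𝟙 (Spec (CommRingCat.of K))) (s26eptStr K R) (s26eptStr K R)
    (Category.comp_id _)
  rw [← h]
  rfl

/-- the image point of the zero point of `A(R)`, `R` local, is the zero point of `A`. -/
theorem s26ecrvd_one_pt [IsLocalRing R] :
    s26eptPt f (G.one (s26eptStr K R)) = s26zero f G := by
  unfold s26eptPt
  rw [s26ecrvd_one_coe]
  exact s26ecrvoZeroHom_apply f G _

/-- the residue retraction `𝒪_{A,0} → K`: evaluation at the zero point of `A(K)`. -/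
def s26ecrvdRho : A.presheaf.stalk (s26zero f G) →+* K :=
  s26ecrvEv f (G.one (s26eptStr K K)) (s26zero f G)
    (specializes_of_eq (s26ecrvd_one_pt f G))

theorem s26ecrvdRho_str (c : K) : s26ecrvdRho f G (s26ecrvStr f (s26zero f G) c) = c :=
  s26ecrvEv_str f _ _ _ c

instance s26ecrvdRho_isLocalHom : IsLocalHom (s26ecrvdRho f G) := by
  unfold s26ecrvdRho s26ecrvEv
  have e : Inseparable (s26zero f G) (s26eptPt f (G.one (s26eptStr K K))) :=
    Inseparable.of_eq (s26ecrvd_one_pt f G).symm
  haveI : IsLocalHom (A.presheaf.stalkSpecializes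
      (specializes_of_eq (s26ecrvd_one_pt f G (R := K)))).hom :=
    isLocalHom_of_iso (A.presheaf.stalkCongr e)
  exact RingHom.isLocalHom_comp _ _

/-- `ρ` kills the maximal ideal. -/
theorem s26ecrvdRho_max (m : A.presheaf.stalk (s26zero f G))
    (hm : m ∈ IsLocalRing.maximalIdeal (A.presheaf.stalk (s26zero f G))) :
    s26ecrvdRho f G m = 0 := by
  by_contra h
  have hu : IsUnit (s26ecrvdRho f G m) := isUnit_iff_ne_zero.2 h
  exact (IsLocalRing.mem_maximalIdeal m).1 hm (isUnit_of_map_unit (s26ecrvdRho f G) m hu)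

/-- the zero point of `A(K)` is the point of `ρ`. -/
theorem s26ecrvd_one_eq_of_rho :
    G.one (s26eptStr K K) = s26ecrvdOf f (s26zero f G) (s26ecrvdRho f G) (s26ecrvdRho_str f G) :=
  (s26ecrvdOf_ev f _ _ _).symm

/-- the zero point of `A(R)` is the point of `K → R` after `ρ`. -/
theorem s26ecrvd_one_eq :
    G.one (s26eptStr K R) = s26ecrvdOf f (s26zero f G)
      ((algebraMap K R).comp (s26ecrvdRho f G))
      (fun c => by rw [RingHom.comp_apply, s26ecrvdRho_str]) := by
  rw [← s26eptMap_one f G (Algebra.ofId K R), s26ecrvd_one_eq_of_rho, s26ecrvdOf_map]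
  rfl

/-- **(Z)**: a `K`-compatible ring homomorphism `lam : 𝒪_{A,0} → R` which kills the maximal ideal
defines the zero point of `A(R)`. -/
theorem s26ecrvd_of_eq_one
    (hres : ∀ r : A.presheaf.stalk (s26zero f G), ∃ c : K,
      r - s26ecrvStr f (s26zero f G) c ∈ IsLocalRing.maximalIdeal (A.presheaf.stalk (s26zero f G)))
    (lam : A.presheaf.stalk (s26zero f G) →+* R)
    (hlam : ∀ c : K, lam (s26ecrvStr f (s26zero f G) c) = algebraMap K R c)
    (hmax : ∀ m ∈ IsLocalRing.maximalIdeal (A.presheaf.stalk (s26zero f G)), lam m = 0) :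
    s26ecrvdOf f (s26zero f G) lam hlam = G.one (s26eptStr K R) := by
  rw [s26ecrvd_one_eq]
  refine s26ecrvdOf_congr f _ hlam _ ?_
  ext r
  obtain ⟨c, hc⟩ := hres r
  have h1 : lam r = algebraMap K R c := by
    have := hmax _ hc
    rw [map_sub, hlam, sub_eq_zero] at this
    exact this
  have h2 : s26ecrvdRho f G r = c := by
    have := s26ecrvdRho_max f G _ hc
    rw [map_sub, s26ecrvdRho_str, sub_eq_zero] at this
    exact this
  rw [h1, RingHom.comp_apply, h2]

end Zero

end Fermat.Agent.S26
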