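/-
S26-E, piece E-CRV, PART I (helper83): the PLACE of a discrete valuation ring in its fraction
field, in the prelude's sense (`AlgebraicCurve.Place`).

* `s26ecrvaPlace K D F : AlgebraicCurve.Place K F` for a DVR `D ⊇ K` with fraction field `F`;
* `s26ecrvaPlace_mem`  : `x ∈ place ↔ x ∈ range (algebraMap D F)`.
-/
import Fermat.Prelude.Def_AlgebraicCurve_DivisorClassGroup
import Mathlib.RingTheory.Valuation.ValuationRing
import Mathlib.RingTheory.DiscreteValuationRing.Basic

set_option autoImplicit false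
set_option linter.style.haveILetI false

noncomputable section

namespace Fermat.Agent.S26

open IsLocalRing

variable (K D F : Type*) [Field K] [CommRing D] [IsDomain D] [IsDiscreteValuationRing D]
  [Field F] [Algebra K D] [Algebra D F] [Algebra K F] [IsScalarTower K D F] [IsFractionRing D F]

/-- the valuation subring of `F = Frac D` attached to the DVR `D`. -/
def s26ecrvaVS : ValuationSubring F := (ValuationRing.valuation D F).valuationSubring

theorem s26ecrvaVS_mem (x : F) : x ∈ s26ecrvaVS D F ↔ ∃ a : D, algebraMap D F a = x := by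
  unfold s26ecrvaVS
  rw [Valuation.mem_valuationSubring_iff]
  exact ValuationRing.mem_integer_iff D F x

/-- `D` is isomorphic to its valuation subring. -/
def s26ecrvaVSEquiv : D ≃+* s26ecrvaVS D F :=
  RingEquiv.ofBijective
    ((algebraMap D F).codRestrict (s26ecrvaVS D F).toSubring
      (fun a => (s26ecrvaVS_mem D F _).2 ⟨a, rfl⟩))
    ⟨fun a b h => IsFractionRing.injective D F (congrArg Subtype.val h),
      fun ⟨x, hx⟩ => by
        obtain ⟨a, rfl⟩ := (s26ecrvaVS_mem D F x).1 hx
        exact ⟨a, rfl⟩⟩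

theorem s26ecrvaVSEquiv_coe (a : D) : ((s26ecrvaVSEquiv D F a : s26ecrvaVS D F) : F) =
    algebraMap D F a := rfl

theorem s26ecrvaVS_ne_top : s26ecrvaVS D F ≠ ⊤ := by
  intro h
  obtain ⟨ϖ, hϖ⟩ := IsDiscreteValuationRing.exists_irreducible D
  have hmem : (algebraMap D F ϖ)⁻¹ ∈ s26ecrvaVS D F := by rw [h]; exact ValuationSubring.mem_top _
  obtain ⟨a, ha⟩ := (s26ecrvaVS_mem D F _).1 hmem
  have h0 : algebraMap D F ϖ ≠ 0 := by
    rw [Ne, IsFractionRing.to_map_eq_zero_iff]
    exact hϖ.ne_zero
  have h1 : algebraMap D F (a * ϖ) = 1 := by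
    rw [map_mul, ha, inv_mul_cancel₀ h0]
  have h2 : a * ϖ = 1 := IsFractionRing.injective D F (by rw [h1, map_one])
  exact hϖ.not_isUnit (IsUnit.of_mul_eq_one a (by rw [mul_comm]; exact h2))

/-- the place of `F = Frac D` over `K` attached to the DVR `D`. -/
def s26ecrvaPlace : AlgebraicCurve.Place K F where
  toValuationSubring := s26ecrvaVS D F
  algebraMap_mem' := fun a =>
    (s26ecrvaVS_mem D F _).2 ⟨algebraMap K D a, (IsScalarTower.algebraMap_apply K D F a).symm⟩
  ne_top' := s26ecrvaVS_ne_top D F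
  isPrincipalIdealRing' :=
    IsPrincipalIdealRing.of_surjective (s26ecrvaVSEquiv D F).toRingHom
      (s26ecrvaVSEquiv D F).surjective

theorem s26ecrvaPlace_mem (x : F) :
    x ∈ (s26ecrvaPlace K D F).toValuationSubring ↔ ∃ a : D, algebraMap D F a = x :=
  s26ecrvaVS_mem D F x

end Fermat.Agent.S26
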