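/-
S26-E, piece E-CRV, leaf (CD) (helper83): THE CURVE DATA of the `i`-th coordinate curve, in the
exact shape asked by the hub (helper32): `s26ecrvd_step`.

`O := S26ecrvO f G` with coordinates `(y, ι)`; `D := O ⧸ 𝔭_i`, `q := s26ecrvaQ`, `τ := s26ecrvaTau`,
`Γ := FractionRing D`, `κ : D → Γ`, `γ₀ := s26ecrvaPlace K D Γ`, `νV := (e ∘ q)_* univ` with
`e : D ≃ the valuation subring of γ₀`, `t := κ (q (y i))`.

* `s26ecrvdE K D Γ : D →ₐ[K] V` : `D ≅ V = ` the valuation subring of the place of `D`, over `K`;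
* `s26ecrvd_map_univ`   : `lam_* univ` is the point `s26ecrvdOf` of the ring map `lam`;
* `s26ecrvd_map_univ_eq_one` : `lam` kills `𝔪` ⇒ `lam_* univ = 0`  (= (KP), via `s26ecrvd_of_eq_one`);
* `s26ecrvd_step`       : the package.
-/
import Fermat.Agent.S26.ECrvData
import Fermat.Agent.S26.ECrvYon
import Fermat.Agent.S26.ECrvAlgC
import Fermat.Agent.S26.ECrvPlace
import Fermat.Agent.S26.ECrvFin
import Fermat.Agent.S26.ECrvChain

set_option autoImplicit false
set_option linter.style.haveILetI false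

noncomputable section

namespace Fermat.Agent.S26

open CategoryTheory CategoryTheory.Limits AlgebraicGeometry NeronModelInfra GoodReductionJacobian

universe u

section PlaceAlg

open IsLocalRing

variable (K D Γ : Type u) [Field K] [CommRing D] [IsDomain D] [IsDiscreteValuationRing D]
  [Field Γ] [Algebra K D] [Algebra D Γ] [Algebra K Γ] [IsScalarTower K D Γ] [IsFractionRing D Γ]

/-- `D ≅ V`, the valuation subring of the place of the DVR `D`, as a `K`-algebra map. -/
def s26ecrvdE : D →ₐ[K] (s26ecrvaPlace K D Γ).toValuationSubring :=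
  { (s26ecrvaVSEquiv D Γ).toRingHom with
    commutes' := fun c => Subtype.ext (IsScalarTower.algebraMap_apply K D Γ c).symm }

theorem s26ecrvdE_coe (a : D) :
    ((s26ecrvdE K D Γ a : (s26ecrvaPlace K D Γ).toValuationSubring) : Γ) = algebraMap D Γ a := rfl

theorem s26ecrvdE_surjective : Function.Surjective (s26ecrvdE K D Γ) :=
  (s26ecrvaVSEquiv D Γ).surjective

theorem s26ecrvdE_incl :
    (s26eptIncl (K := K) Γ (s26ecrvaPlace K D Γ).toValuationSubring).comp (s26ecrvdE K D Γ) =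
      IsScalarTower.toAlgHom K D Γ :=
  AlgHom.ext fun _ => rfl

theorem s26ecrvdE_max (a : D) (ha : a ∈ maximalIdeal D) :
    s26ecrvdE K D Γ a ∈ maximalIdeal (s26ecrvaPlace K D Γ).toValuationSubring := by
  rw [mem_maximalIdeal, mem_nonunits_iff] at ha ⊢
  intro hu
  apply ha
  have : IsUnit ((s26ecrvaVSEquiv D Γ) a) := hu
  exact (MulEquiv.isUnit_map (s26ecrvaVSEquiv D Γ).toMulEquiv).1 this

theorem s26ecrvdE_residue (a : D) (ha : a ∈ maximalIdeal D) :
    s26eptRes (K := K) (s26ecrvaPlace K D Γ).toValuationSubring (s26ecrvdE K D Γ a) = 0 :=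
  (IsLocalRing.residue_eq_zero_iff _).2 (s26ecrvdE_max K D Γ a ha)

/-- the residue field of the place of `D` is `K` if the residue field of `D` is. -/
theorem s26ecrvd_residue_bijective
    (hresD : ∀ r : D, ∃ c : K, r - algebraMap K D c ∈ maximalIdeal D) :
    Function.Bijective
      (algebraMap K (IsLocalRing.ResidueField (s26ecrvaPlace K D Γ).toValuationSubring)) := by
  refine ⟨(algebraMap K _).injective, fun r => ?_⟩
  obtain ⟨v, rfl⟩ := IsLocalRing.residue_surjective r
  obtain ⟨a, rfl⟩ := s26ecrvdE_surjective K D Γ v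
  obtain ⟨c, hc⟩ := hresD a
  refine ⟨c, ?_⟩
  have h1 := s26ecrvdE_residue K D Γ _ hc
  rw [map_sub, map_sub, sub_eq_zero, AlgHom.commutes, AlgHom.commutes] at h1
  exact h1.symm

end PlaceAlg

variable {K : Type u} [Field K] {A : Scheme.{u}} (f : A ⟶ Spec (CommRingCat.of K))
variable (G : RelativeGroupLaw K f)

section Univ

variable {R : Type u} [CommRing R] [Algebra K R]

/-- the point of a `K`-algebra map `lam : O → R`, in the two languages. -/
theorem s26ecrvd_map_univ (lam : S26ecrvO f G →ₐ[K] R) :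
    s26eptMap f lam (s26ecrvUniv f G) =
      s26ecrvdOf f (s26zero f G) (lam : S26ecrvO f G →+* R) (fun c => lam.commutes c) :=
  Subtype.ext rfl

/-- **(KP)**: a `K`-algebra map `lam : O → R` which kills the maximal ideal defines the zero
point of `A(R)`. -/
theorem s26ecrvd_map_univ_eq_one
    (hres : ∀ r : S26ecrvO f G, ∃ c : K,
      r - algebraMap K (S26ecrvO f G) c ∈ IsLocalRing.maximalIdeal (S26ecrvO f G))
    (lam : S26ecrvO f G →ₐ[K] R)
    (hlam : ∀ a, a ∈ IsLocalRing.maximalIdeal (S26ecrvO f G) → lam a = 0) :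
    s26eptMap f lam (s26ecrvUniv f G) = G.one (s26eptStr K R) := by
  rw [s26ecrvd_map_univ]
  exact s26ecrvd_of_eq_one f G hres _ _ hlam

end Univ

section Step

open IsLocalRing

/-- the curve data of a discrete valuation ring `D` receiving `O` by a local `K`-algebra map. -/
theorem s26ecrvd_step_aux [IsProper f]
    (hres : ∀ r : S26ecrvO f G, ∃ c : K,
      r - algebraMap K (S26ecrvO f G) c ∈ IsLocalRing.maximalIdeal (S26ecrvO f G))
    (D : Type u) [CommRing D] [IsDomain D] [IsDiscreteValuationRing D] [Algebra K D]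
    [Algebra.EssFiniteType K D] (q : S26ecrvO f G →ₐ[K] D)
    (hq : ∀ a, a ∈ maximalIdeal (S26ecrvO f G) → q a ∈ maximalIdeal D)
    (hresD : ∀ r : D, ∃ c : K, r - algebraMap K D c ∈ maximalIdeal D)
    (t₀ : D) (hmax : maximalIdeal D = Ideal.span {t₀}) (ht0 : t₀ ≠ 0)
    (Γ : Type u) [Field Γ] [Algebra D Γ] [Algebra K Γ] [IsScalarTower K D Γ]
    [IsFractionRing D Γ] :
    ∃ (γ₀ : AlgebraicCurve.Place K Γ) (νV : s26eptPts f γ₀.toValuationSubring),
      S26ecrvIsCurve K Γ ∧
      Function.Bijective (algebraMap K (IsLocalRing.ResidueField γ₀.toValuationSubring)) ∧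
      s26eptMap f (s26eptIncl Γ γ₀.toValuationSubring) νV =
        s26eptMap f ((IsScalarTower.toAlgHom K D Γ).comp q) (s26ecrvUniv f G) ∧
      s26eptMap f (s26eptRes γ₀.toValuationSubring) νV = G.one _ ∧
      Algebra.IsAlgebraic (Algebra.adjoin K {algebraMap D Γ t₀}) Γ ∧
      Algebra.EssFiniteType K Γ := by
  refine ⟨s26ecrvaPlace K D Γ,
    s26eptMap f ((s26ecrvdE K D Γ).comp q) (s26ecrvUniv f G), ?_, ?_, ?_, ?_, ?_, ?_⟩
  · obtain ⟨-, h2, h3, h4⟩ := s26ecrvf_curve hresD t₀ hmax ht0 Γ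
    exact ⟨_, h2, h3, h4⟩
  · exact s26ecrvd_residue_bijective K D Γ hresD
  · rw [← s26eptMap_comp, ← AlgHom.comp_assoc, s26ecrvdE_incl]
  · rw [← s26eptMap_comp]
    refine s26ecrvd_map_univ_eq_one f G hres _ ?_
    intro a ha
    exact s26ecrvdE_residue K D Γ _ (hq a ha)
  · exact s26ecrvf_curve_algebraic hresD t₀ hmax ht0 Γ
  · haveI : Algebra.EssFiniteType D Γ :=
      Algebra.EssFiniteType.of_isLocalization Γ (nonZeroDivisors D)
    exact Algebra.EssFiniteType.comp K D Γ

variable [IsNoetherianRing (S26ecrvO f G)] [Algebra.EssFiniteType K (S26ecrvO f G)]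

/-- **(CD)**: the curve data of the `i`-th coordinate curve. -/
theorem s26ecrvd_step [IsProper f]
    (hres : ∀ r : S26ecrvO f G, ∃ c : K,
      r - algebraMap K (S26ecrvO f G) c ∈ IsLocalRing.maximalIdeal (S26ecrvO f G))
    {d : ℕ} (y : Fin d → S26ecrvO f G)
    (hspan : Ideal.span (Set.range y) = IsLocalRing.maximalIdeal (S26ecrvO f G))
    (ι : S26ecrvO f G →ₐ[K] MvPowerSeries (Fin d) K)
    (hι : ∀ k, ι (y k) = MvPowerSeries.X k) (i : Fin d) :
    ∃ (D : Type u) (_ : CommRing D) (_ : IsLocalRing D) (_ : IsDomain D) (_ : Algebra K D)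
      (q : S26ecrvO f G →ₐ[K] D) (τ : D →ₐ[K] PowerSeries K)
      (Γ : Type u) (_ : Field Γ) (_ : Algebra K Γ) (κ : D →ₐ[K] Γ)
      (γ₀ : AlgebraicCurve.Place K Γ) (νV : s26eptPts f γ₀.toValuationSubring) (t : Γ),
      τ.comp q = (s26ecrvaR K i).comp ι ∧ Function.Injective κ ∧ S26ecrvIsCurve K Γ ∧
      Function.Bijective (algebraMap K (IsLocalRing.ResidueField γ₀.toValuationSubring)) ∧
      s26eptMap f (s26eptIncl Γ γ₀.toValuationSubring) νV =
        s26eptMap f (κ.comp q) (s26ecrvUniv f G) ∧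
      s26eptMap f (s26eptRes γ₀.toValuationSubring) νV = G.one _ ∧
      Algebra.IsAlgebraic (Algebra.adjoin K {t}) Γ ∧ Algebra.EssFiniteType K Γ := by
  haveI hloc : IsLocalRing (S26ecrvO f G ⧸ s26ecrvaP y i) := s26ecrva_isLocalRing y hspan i
  haveI hdom : IsDomain (S26ecrvO f G ⧸ s26ecrvaP y i) := s26ecrva_isDomain y hspan ι hι hres i
  haveI hdvr : IsDiscreteValuationRing (S26ecrvO f G ⧸ s26ecrvaP y i) :=
    s26ecrva_isDVR y hspan ι hι hres i
  have hq : ∀ a, a ∈ maximalIdeal (S26ecrvO f G) →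
      s26ecrvaQ (K := K) y i a ∈ maximalIdeal (S26ecrvO f G ⧸ s26ecrvaP y i) := by
    intro a ha
    rw [← map_maximalIdeal_of_surjective (Ideal.Quotient.mk (s26ecrvaP y i))
      Ideal.Quotient.mk_surjective]
    exact Ideal.mem_map_of_mem _ ha
  obtain ⟨γ₀, νV, h1, h2, h3, h4, h5, h6⟩ :=
    s26ecrvd_step_aux f G hres (S26ecrvO f G ⧸ s26ecrvaP y i) (s26ecrvaQ (K := K) y i) hq
      (s26ecrva_hres y hspan hres i) (s26ecrvaQ (K := K) y i (y i))
      (s26ecrva_maximalIdeal y hspan i) (s26ecrva_mk_ne_zero y hspan ι hι hres i)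
      (FractionRing (S26ecrvO f G ⧸ s26ecrvaP y i))
  exact ⟨S26ecrvO f G ⧸ s26ecrvaP y i, inferInstance, hloc, hdom, inferInstance,
    s26ecrvaQ (K := K) y i, s26ecrvaTau y ι hι i, FractionRing _, inferInstance, inferInstance,
    IsScalarTower.toAlgHom K _ _, γ₀, νV, _, s26ecrvaTau_comp_q y ι hι i,
    IsFractionRing.injective _ _, h1, h2, h3, h4, h5, h6⟩

end Step

end Fermat.Agent.S26
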