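/-
S26-E-CRV, sub-leaf (TW) (helper21, for helper32): THE TOWER STEP.  Mathlib only.

`R̂ = K⟦X⟧` (`MvPowerSeries σ K`), `K` a field.
GIVEN local domains `T ⊂ W`, `D ⊂ Γ` (`W`, `Γ` fields) over `K`, with `K`-algebra maps
`θ : T → R̂`, `τ : D → R̂`, and a field `W'` with `jΓ : Γ → W'`, `jW : W → W'` such that
`Γ ⊗[K] W → W'` is injective.
THEN there is a local domain `T' ⊂ W'` (the localisation of `D ⊗[K] T` at the kernel of
`D ⊗ T → R̂ → K`) with a LOCAL `θ' : T' → R̂` and maps `uD : D → T'`, `uT : T → T'` compatible with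
everything.

* `s26ecrvt_hres`  : a local `K`-algebra with a `K`-algebra map to `K⟦X⟧` has residue field `K`;
* `s26ecrvt_tower` : the tower step.
-/
import Mathlib.RingTheory.MvPowerSeries.Inverse
import Mathlib.RingTheory.Localization.AtPrime.Basic
import Mathlib.RingTheory.Localization.FractionRing
import Mathlib.RingTheory.Flat.Basic
import Mathlib.RingTheory.TensorProduct.Maps
import Mathlib.RingTheory.LocalRing.RingHom.Basic
import Mathlib.RingTheory.Ideal.Maps
import Mathlib.Algebra.Module.Projective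
import Mathlib.LinearAlgebra.FreeModule.Basic
import Mathlib.LinearAlgebra.Basis.VectorSpace
import Mathlib.RingTheory.Flat.FaithfullyFlat.Basic

set_option autoImplicit false
set_option linter.style.haveILetI false

open TensorProduct

namespace Fermat.Agent.S26

universe u v

section hres

variable {K : Type*} [Field K] {σ : Type*}

/-- `f - C (f 0)` is not a unit of `K⟦X⟧`. -/
theorem s26ecrvt_not_isUnit_sub (f : MvPowerSeries σ K) :
    ¬ IsUnit (f - MvPowerSeries.C (MvPowerSeries.constantCoeff f)) := by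
  rw [MvPowerSeries.isUnit_iff_constantCoeff]
  simp

/-- a local `K`-algebra `T` with a `K`-algebra map to `K⟦X⟧` satisfies `T = K + 𝔪`. -/
theorem s26ecrvt_hres {T : Type*} [CommRing T] [IsLocalRing T] [Algebra K T]
    (θ : T →ₐ[K] MvPowerSeries σ K) (r : T) :
    ∃ c : K, r - algebraMap K T c ∈ IsLocalRing.maximalIdeal T := by
  refine ⟨MvPowerSeries.constantCoeff (θ r), ?_⟩
  rw [IsLocalRing.mem_maximalIdeal, mem_nonunits_iff]
  intro hu
  have h1 : IsUnit (θ (r - algebraMap K T (MvPowerSeries.constantCoeff (θ r)))) := hu.map θ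
  rw [map_sub, AlgHom.commutes] at h1
  exact s26ecrvt_not_isUnit_sub (θ r) h1

end hres

section tower

variable {K : Type u} [Field K] {σ : Type v}

/-- **The tower step.** -/
theorem s26ecrvt_tower
    (T : Type u) [CommRing T] [IsLocalRing T] [IsDomain T] [Algebra K T]
    (W : Type u) [Field W] [Algebra K W] (ι : T →ₐ[K] W) (hι : Function.Injective ι)
    (θ : T →ₐ[K] MvPowerSeries σ K)
    (D : Type u) [CommRing D] [IsLocalRing D] [IsDomain D] [Algebra K D]
    (Γ : Type u) [Field Γ] [Algebra K Γ] (κ : D →ₐ[K] Γ) (hκ : Function.Injective κ)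
    (τ : D →ₐ[K] MvPowerSeries σ K)
    (W' : Type u) [Field W'] [Algebra K W'] (jΓ : Γ →ₐ[K] W') (jW : W →ₐ[K] W')
    (hj : Function.Injective (Algebra.TensorProduct.productMap jΓ jW)) :
    ∃ (T' : Type u) (_ : CommRing T') (_ : IsLocalRing T') (_ : IsDomain T') (_ : Algebra K T')
      (ι' : T' →ₐ[K] W') (θ' : T' →ₐ[K] MvPowerSeries σ K) (uD : D →ₐ[K] T') (uT : T →ₐ[K] T'),
      Function.Injective ι' ∧ IsLocalHom θ' ∧ ι'.comp uD = jΓ.comp κ ∧ ι'.comp uT = jW.comp ι ∧
        θ'.comp uD = τ ∧ θ'.comp uT = θ := by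
  classical
  -- the tensor product and its two maps
  let S := D ⊗[K] T
  let φW : S →ₐ[K] W' := Algebra.TensorProduct.productMap (jΓ.comp κ) (jW.comp ι)
  let φR : S →ₐ[K] MvPowerSeries σ K := Algebra.TensorProduct.productMap τ θ
  have hφW_eq : φW = (Algebra.TensorProduct.productMap jΓ jW).comp
      (Algebra.TensorProduct.map κ ι) := by
    apply Algebra.TensorProduct.ext'
    intro d t
    simp [φW]
  have hmap_inj : Function.Injective (Algebra.TensorProduct.map κ ι) := by
    have := TensorProduct.map_injective_of_flat_flat κ.toLinearMap ι.toLinearMap hκ hι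
    exact this
  have hφW_inj : Function.Injective φW := by
    rw [hφW_eq]
    exact hj.comp hmap_inj
  haveI hSdom : IsDomain S := hφW_inj.isDomain φW.toRingHom
  -- the maximal ideal
  let ε : S →+* K := (MvPowerSeries.constantCoeff (σ := σ) (R := K)).comp φR.toRingHom
  have hε_surj : Function.Surjective ε := by
    intro c
    refine ⟨algebraMap K S c, ?_⟩
    change MvPowerSeries.constantCoeff (φR (algebraMap K S c)) = c
    rw [AlgHom.commutes, MvPowerSeries.algebraMap_apply]
    simp
  let 𝔪' : Ideal S := RingHom.ker ε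
  haveI h𝔪'max : 𝔪'.IsMaximal := RingHom.ker_isMaximal_of_surjective ε hε_surj
  haveI h𝔪'prime : 𝔪'.IsPrime := h𝔪'max.isPrime
  let T' := Localization.AtPrime 𝔪'
  have hle : 𝔪'.primeCompl ≤ nonZeroDivisors S := by
    intro s hs
    apply mem_nonZeroDivisors_of_ne_zero
    rintro rfl
    exact hs (Ideal.zero_mem _)
  haveI hT'dom : IsDomain T' := IsLocalization.isDomain_localization hle
  -- units
  have hunitR : ∀ s : 𝔪'.primeCompl, IsUnit (φR (s : S)) := by
    intro s
    rw [MvPowerSeries.isUnit_iff_constantCoeff, isUnit_iff_ne_zero]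
    exact s.2
  have hunitW : ∀ s : 𝔪'.primeCompl, IsUnit (φW (s : S)) := by
    intro s
    rw [isUnit_iff_ne_zero]
    intro h0
    have : (s : S) = 0 := hφW_inj (by rw [h0, map_zero])
    exact s.2 (by rw [this]; exact Ideal.zero_mem _)
  let ι' : T' →ₐ[K] W' := IsLocalization.liftAlgHom (M := 𝔪'.primeCompl) (f := φW) hunitW
  let θ' : T' →ₐ[K] MvPowerSeries σ K :=
    IsLocalization.liftAlgHom (M := 𝔪'.primeCompl) (f := φR) hunitR
  have hι'_alg : ∀ s : S, ι' (algebraMap S T' s) = φW s := fun s =>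
    IsLocalization.lift_eq hunitW s
  have hθ'_alg : ∀ s : S, θ' (algebraMap S T' s) = φR s := fun s =>
    IsLocalization.lift_eq hunitR s
  let aS : S →ₐ[K] T' := IsScalarTower.toAlgHom K S T'
  let uD : D →ₐ[K] T' := aS.comp Algebra.TensorProduct.includeLeft
  let uT : T →ₐ[K] T' := aS.comp Algebra.TensorProduct.includeRight
  refine ⟨T', inferInstance, inferInstance, hT'dom, inferInstance, ι', θ', uD, uT, ?_, ?_, ?_, ?_,
    ?_, ?_⟩
  · -- injectivity of ι'
    change Function.Injective (IsLocalization.lift hunitW)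
    rw [IsLocalization.lift_injective_iff]
    intro x y
    constructor
    · intro h
      have := congrArg ι' h
      rwa [hι'_alg, hι'_alg] at this
    · intro h
      rw [hφW_inj h]
  · -- θ' is local
    constructor
    intro x hx
    obtain ⟨⟨s, t⟩, hst⟩ := IsLocalization.surj 𝔪'.primeCompl x
    have h1 : θ' x * φR (t : S) = φR s := by
      have := congrArg θ' hst
      rwa [map_mul, hθ'_alg, hθ'_alg] at this
    have h2 : IsUnit (φR s) := by
      rw [← h1]
      exact hx.mul (hunitR t)
    have h3 : s ∈ 𝔪'.primeCompl := by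
      intro hs
      rw [MvPowerSeries.isUnit_iff_constantCoeff, isUnit_iff_ne_zero] at h2
      exact h2 hs
    have h4 : IsUnit (algebraMap S T' s) := IsLocalization.map_units T' ⟨s, h3⟩
    have h5 : IsUnit (x * algebraMap S T' (t : S)) := by rw [hst]; exact h4
    exact isUnit_of_mul_isUnit_left h5
  · apply AlgHom.ext
    intro d
    change ι' (algebraMap S T' (d ⊗ₜ[K] (1 : T))) = jΓ (κ d)
    rw [hι'_alg]
    change Algebra.TensorProduct.productMap (jΓ.comp κ) (jW.comp ι) (d ⊗ₜ[K] (1 : T)) = _
    rw [Algebra.TensorProduct.productMap_apply_tmul, map_one, mul_one]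
    rfl
  · apply AlgHom.ext
    intro t
    change ι' (algebraMap S T' ((1 : D) ⊗ₜ[K] t)) = jW (ι t)
    rw [hι'_alg]
    change Algebra.TensorProduct.productMap (jΓ.comp κ) (jW.comp ι) ((1 : D) ⊗ₜ[K] t) = _
    rw [Algebra.TensorProduct.productMap_apply_tmul, map_one, one_mul]
    rfl
  · apply AlgHom.ext
    intro d
    change θ' (algebraMap S T' (d ⊗ₜ[K] (1 : T))) = τ d
    rw [hθ'_alg]
    change Algebra.TensorProduct.productMap τ θ (d ⊗ₜ[K] (1 : T)) = _
    rw [Algebra.TensorProduct.productMap_apply_tmul, map_one, mul_one]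
  · apply AlgHom.ext
    intro t
    change θ' (algebraMap S T' ((1 : D) ⊗ₜ[K] t)) = θ t
    rw [hθ'_alg]
    change Algebra.TensorProduct.productMap τ θ ((1 : D) ⊗ₜ[K] t) = _
    rw [Algebra.TensorProduct.productMap_apply_tmul, map_one, one_mul]

end tower

end Fermat.Agent.S26
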