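/-
S26-E, piece E-CRV (helper32): THE MAIN THEOREM `s26ecrv_main : s26ecrv_StmtMain`.

There is a chain of pointed curves (the `d` coordinate curves `D_i = O ⧸ (y_j : j ≠ i)` of the
local ring `O = 𝒪_{A,0}`, `Γ_i = Frac D_i`) whose sum point `b ∈ A(W)`, `W` the iterated fraction
field of the tensor products, is the generic point of `A`, with `W` finite over the function
field.

Leaves used: (X1) ECrvPS (helper7), (X2) ECrvGen (helper6), (Y) ECrvYon (helper32) /
ECrvYonC (helper61), (KP) ECrvKP (helper39), (H) ECrvHat (helper7), (CD) ECrvStep (helper83),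
(FIN) ECrvFin / ECrvFinW (helper87), the tower step ECrvTw (helper21), the algebra
ECrvAlg/B/C + ECrvPlace + ECrvO (helper83), ELFWO (helper39), EG3Dom (helper19),
EPT* (helper51).

* `S26ecrvInv f G ι L`   : the invariant of the induction over the list `L` of axes;
* `s26ecrvm_inv_nil`, `s26ecrvm_inv_cons`, `s26ecrvm_inv_all`;
* `s26ecrv_main : s26ecrv_StmtMain`.
-/
import Fermat.Agent.S26.ECrvHat
import Fermat.Agent.S26.ECrvStep
import Fermat.Agent.S26.ECrvFinW
import Fermat.Agent.S26.ECrvGen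
import Fermat.Agent.S26.ECrvTw
import Fermat.Agent.S26.ECrvFin
import Fermat.Agent.S26.ECrvChain
import Fermat.Agent.S26.ECrvO
import Fermat.Agent.S26.ELFWO
import Fermat.Agent.S26.EG3Dom

set_option autoImplicit false
set_option linter.style.haveILetI false

noncomputable section

namespace Fermat.Agent.S26

open CategoryTheory CategoryTheory.Limits AlgebraicGeometry NeronModelInfra GoodReductionJacobian
open scoped TensorProduct

universe u

variable {K : Type u} [Field K] {A : Scheme.{u}} (f : A ⟶ Spec (CommRingCat.of K))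
  (G : RelativeGroupLaw K f)

/-! ## PART C: the chain induction -/

section Inv

variable {d : ℕ} (ι : S26ecrvO f G →ₐ[K] MvPowerSeries (Fin d) K)

/-- the invariant of the chain induction -/
def S26ecrvInv (L : List (Fin d)) : Prop :=
  ∃ (W : Type u) (_ : Field W) (_ : Algebra K W) (b : s26eptPts f W)
    (T : Type u) (_ : CommRing T) (_ : IsLocalRing T) (_ : IsDomain T) (_ : Algebra K T)
    (ιT : T →ₐ[K] W) (θ : T →ₐ[K] MvPowerSeries (Fin d) K) (bT : s26eptPts f T)
    (s : Fin L.length → W),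
    S26ecrvChain f G W b ∧ Function.Injective ιT ∧ IsLocalHom θ ∧
    s26eptMap f ιT bT = b ∧ s26eptMap f θ bT = s26ecrvhSum f G ι L ∧
    Algebra.IsAlgebraic (Algebra.adjoin K (Set.range s)) W ∧ Algebra.EssFiniteType K W

theorem s26ecrvm_ofId_isLocalHom :
    IsLocalHom (Algebra.ofId K (MvPowerSeries (Fin d) K)) := by
  constructor
  intro a ha
  rcases eq_or_ne a 0 with rfl | h
  · rw [map_zero] at ha
    exact absurd ha not_isUnit_zero
  · exact isUnit_iff_ne_zero.2 h

theorem s26ecrvm_inv_nil : S26ecrvInv f G ι [] := by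
  refine ⟨K, inferInstance, inferInstance, G.one (s26eptStr K K), K, inferInstance, inferInstance,
    inferInstance, inferInstance, AlgHom.id K K, Algebra.ofId K _, G.one (s26eptStr K K),
    Fin.elim0, S26ecrvChain.base, Function.injective_id, s26ecrvm_ofId_isLocalHom,
    s26eptMap_id f _, ?_, ?_, inferInstance⟩
  · rw [s26eptMap_one]
    rfl
  · constructor
    intro x
    exact isAlgebraic_algebraMap (⟨x, Subalgebra.algebraMap_mem _ x⟩ : Algebra.adjoin K _)


/-- the inductive step -/
theorem s26ecrvm_inv_cons [IsAlgClosed K] [IsProper f] [IsNoetherianRing (S26ecrvO f G)]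
    [Algebra.EssFiniteType K (S26ecrvO f G)]
    (hres : ∀ r : S26ecrvO f G, ∃ c : K,
      r - algebraMap K (S26ecrvO f G) c ∈ IsLocalRing.maximalIdeal (S26ecrvO f G))
    (y : Fin d → S26ecrvO f G)
    (hspan : Ideal.span (Set.range y) = IsLocalRing.maximalIdeal (S26ecrvO f G))
    (hι : ∀ k, ι (y k) = MvPowerSeries.X k) (i : Fin d) (L : List (Fin d))
    (hL : S26ecrvInv f G ι L) : S26ecrvInv f G ι (i :: L) := by
  obtain ⟨W, _, _, b, T, _, _, _, _, ιT, θ, bT, s, hchain, hιT, hθ, hb, hbT, hs, hess⟩ := hL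
  obtain ⟨D, _, _, _, _, q, τ, Γ, _, _, κ, γ₀, νV, t, hτq, hκ, hΓ, hγ, hν, hsp, ht, hessΓ⟩ :=
    s26ecrvd_step f G hres y hspan ι hι i
  haveI : IsDomain (Γ ⊗[K] W) := s26eg3d_isDomain
  -- the new field
  let W' : Type u := FractionRing (Γ ⊗[K] W)
  have hj : Function.Injective (Algebra.TensorProduct.productMap (s26ecrvJL K Γ W W')
      (s26ecrvJR K Γ W W')) := by
    rw [s26ecrv_productMap]
    exact IsFractionRing.injective (Γ ⊗[K] W) W'
  obtain ⟨T', _, _, _, _, ι', θ', uD, uT, hι', hθ', h1, h2, h3, h4⟩ :=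
    s26ecrvt_tower T W ιT hιT θ D Γ κ hκ ((s26ecrvpsIncl K i).comp τ) W'
      (s26ecrvJL K Γ W W') (s26ecrvJR K Γ W W') hj
  haveI := hess
  haveI := hessΓ
  refine ⟨W', inferInstance, inferInstance,
    G.mul _ (s26eptMap f (s26ecrvJL K Γ W W') (s26eptMap f (κ.comp q) (s26ecrvUniv f G)))
      (s26eptMap f (s26ecrvJR K Γ W W') b),
    T', inferInstance, inferInstance, inferInstance, inferInstance, ι', θ',
    G.mul _ (s26eptMap f (uD.comp q) (s26ecrvUniv f G)) (s26eptMap f uT bT),
    (Fin.cons (s26ecrvfInl K Γ W W' t) (fun k => s26ecrvfInr K Γ W W' (s k)) :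
      Fin (L.length + 1) → W'), ?_, hι', hθ', ?_, ?_, ?_, ?_⟩
  · exact S26ecrvChain.step hchain Γ hΓ _ γ₀ hγ νV hν hsp W'
  · rw [s26eptMap_mul]
    congr 1
    · rw [← s26eptMap_comp, ← s26eptMap_comp]
      congr 1
      rw [← AlgHom.comp_assoc, h1, AlgHom.comp_assoc]
    · rw [← s26eptMap_comp, h2, s26eptMap_comp, hb]
  · rw [s26eptMap_mul, s26ecrvhSum_cons]
    congr 1
    · rw [← s26eptMap_comp]
      unfold s26ecrvhNu s26ecrvhLam
      congr 1
      rw [← AlgHom.comp_assoc, h3, AlgHom.comp_assoc, hτq]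
    · rw [← s26eptMap_comp, h4, hbT]
  · exact s26ecrvf_tensor_algebraic_fin t ht s hs
  · exact s26ecrvf_tensor_essFiniteType (K := K) (Γ := Γ) (W := W) (W' := W')


theorem s26ecrvm_inv_all [IsAlgClosed K] [IsProper f] [IsNoetherianRing (S26ecrvO f G)]
    [Algebra.EssFiniteType K (S26ecrvO f G)]
    (hres : ∀ r : S26ecrvO f G, ∃ c : K,
      r - algebraMap K (S26ecrvO f G) c ∈ IsLocalRing.maximalIdeal (S26ecrvO f G))
    (y : Fin d → S26ecrvO f G)
    (hspan : Ideal.span (Set.range y) = IsLocalRing.maximalIdeal (S26ecrvO f G))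
    (hι : ∀ k, ι (y k) = MvPowerSeries.X k) (L : List (Fin d)) : S26ecrvInv f G ι L := by
  induction L with
  | nil => exact s26ecrvm_inv_nil f G ι
  | cons i L ih => exact s26ecrvm_inv_cons f G ι hres y hspan hι i L ih

end Inv

section Final

theorem s26ecrvEvAlg_congr {R : Type u} [CommRing R] [Algebra K R] [IsLocalRing R]
    {P Q : s26eptPts f R} (hPQ : P = Q) (h : s26eptPt f P ⤳ s26zero f G)
    (h' : s26eptPt f Q ⤳ s26zero f G) : s26ecrvEvAlg f G P h = s26ecrvEvAlg f G Q h' := by
  subst hPQ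
  rfl

/-- **(CRV)**: the chain of pointed curves with generic sum point. -/
theorem s26ecrv_main : s26ecrv_StmtMain.{u} := by
  intro K _ A f G g H _
  obtain ⟨-, hnoe, hsep, hsm, hprop, -, hN, -, -, hres, d, y, ι, -, hspan, -, hloc, hι⟩ :=
    s26ecrvo_of_hyp f G g H
  haveI := H.algClosed
  haveI := hprop
  haveI := hN
  haveI : Algebra.EssFiniteType K (S26ecrvO f G) := s26elfwo_O_essFiniteType f G
  obtain ⟨W, _, _, b, T, _, _, _, _, ιT, θ, bT, s, hchain, hιT, hθ, hb, hbT, hs, hess⟩ :=
    s26ecrvm_inv_all f G ι hres y hspan hι (List.finRange d)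
  haveI := hθ
  haveI := hess
  have hpt : s26eptPt f bT = s26zero f G := by
    rw [← s26eptPt_map f θ bT, hbT]
    exact s26ecrvh_pt f G ι _
  have hsp0 : s26eptPt f bT ⤳ s26zero f G := specializes_of_eq hpt
  have hspb : s26eptPt f b ⤳ s26zero f G := by
    rw [← hb]
    exact (s26eptPt_map_specializes f ιT bT).trans hsp0
  have hinjT : Function.Injective (s26ecrvEvAlg f G bT hsp0) := by
    have h0 := s26ecrvh_injective f G ι hres y hspan hloc hι
    have hsp1 : s26eptPt f (s26eptMap f θ bT) ⤳ s26zero f G := by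
      rw [hbT]
      exact specializes_of_eq (s26ecrvh_pt f G ι _)
    rw [← s26ecrvEvAlg_congr f G hbT hsp1, s26ecrvEvAlg_map f G θ bT hsp0 hsp1] at h0
    exact Function.Injective.of_comp h0
  have hinjb : Function.Injective (s26ecrvEvAlg f G b hspb) := by
    have hsp1 : s26eptPt f (s26eptMap f ιT bT) ⤳ s26zero f G := by
      rw [hb]
      exact hspb
    rw [← s26ecrvEvAlg_congr f G hb hsp1, s26ecrvEvAlg_map f G ιT bT hsp0 hsp1]
    exact hιT.comp hinjT
  obtain ⟨j, hj, hja⟩ := s26ecrvg_exists f b (s26zero f G) hspb hinjb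
  refine ⟨W, inferInstance, inferInstance, b, j, hchain, hj, ?_⟩
  have hlen : (List.finRange d).length = d := List.length_finRange
  have hs' : Algebra.IsAlgebraic (Algebra.adjoin K (Set.range (s ∘ finCongr hlen.symm))) W := by
    rw [(finCongr hlen.symm).surjective.range_comp]
    exact hs
  exact s26ecrvfw_finite f G y ι hι (s ∘ finCongr hlen.symm) hs' j (s26ecrvEvAlg f G b hspb)
    hinjb hja

end Final

end Fermat.Agent.S26
end
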