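/-
S26-E, CUBE_gen assembly, piece (F) (helper75): the FIELD STEP.  Mathlib + ETensDom only.

`K` algebraically closed, `F`, `W`, `Ω` fields over `K`, `j : F →ₐ[K] W` finite,
`(j₁, j₂, j₃)` an independent triple of `K`-embeddings `F → Ω`
(`(F ⊗ F) ⊗ F → Ω` injective).

* `s26ecgf_injective` : if `ι : Ω →ₐ[K] Ω'`, `ιW : W →ₐ[K] Ω'` with `ιW ∘ j = ι ∘ j₁`, then
  `(W ⊗ F) ⊗ F → Ω'` (by `ιW`, `ι ∘ j₂`, `ι ∘ j₃`) is injective.
  [`(W ⊗ F) ⊗ F` is a domain, integral over `(F ⊗ F) ⊗ F`; the kernel meets `(F ⊗ F) ⊗ F` in `0`.]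
* `s26ecgf_fieldStep` : there is a FINITE extension `Ω' / Ω` with such an `ιW`.
* `S26ecgfOm3 K F` = `Frac ((F ⊗ F) ⊗ F)`, the universal triple `s26ecgfU1/2/3`,
  `s26ecgf_univ_indep`, and for an independent triple in `Ω` the embedding
  `s26ecgfSigma : Ω₃ →ₐ[K] Ω` with `σ ∘ u_i = j_i`.
-/
import Mathlib
import Fermat.Agent.S26.ETensDom

set_option autoImplicit false
set_option linter.style.haveILetI false
set_option linter.unusedSectionVars false

noncomputable section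

namespace Fermat.Agent.S26

open scoped TensorProduct

universe u

section Inj

variable {K : Type u} [Field K]
  {F W Ω Ω' : Type u} [Field F] [Field W] [Field Ω] [Field Ω']
  [Algebra K F] [Algebra K W] [Algebra K Ω] [Algebra K Ω']

/-- the map `(F ⊗ F) ⊗ F → (W ⊗ F) ⊗ F` induced by `j : F → W` on the first factor. -/
def s26ecgfPhi (j : F →ₐ[K] W) : (F ⊗[K] F) ⊗[K] F →ₐ[K] (W ⊗[K] F) ⊗[K] F :=
  Algebra.TensorProduct.map (Algebra.TensorProduct.map j (AlgHom.id K F)) (AlgHom.id K F)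

theorem s26ecgfPhi_tmul (j : F →ₐ[K] W) (a b c : F) :
    s26ecgfPhi j ((a ⊗ₜ[K] b) ⊗ₜ[K] c) = (j a ⊗ₜ[K] b) ⊗ₜ[K] c := by
  simp [s26ecgfPhi]

/-- the triple product map. -/
abbrev s26ecgfMu {X : Type u} [CommRing X] [Algebra K X] (a : X →ₐ[K] Ω) (b c : F →ₐ[K] Ω) :
    (X ⊗[K] F) ⊗[K] F →ₐ[K] Ω :=
  Algebra.TensorProduct.productMap (Algebra.TensorProduct.productMap a b) c

theorem s26ecgfMu_comp_phi (j : F →ₐ[K] W) (ιW : W →ₐ[K] Ω) (b c : F →ₐ[K] Ω) :
    (s26ecgfMu ιW b c).comp (s26ecgfPhi j) = s26ecgfMu (ιW.comp j) b c := by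
  ext x <;> simp [s26ecgfPhi]

theorem s26ecgfMu_comp (ι : Ω →ₐ[K] Ω') {X : Type u} [CommRing X] [Algebra K X]
    (a : X →ₐ[K] Ω) (b c : F →ₐ[K] Ω) :
    ι.comp (s26ecgfMu a b c) = s26ecgfMu (ι.comp a) (ι.comp b) (ι.comp c) := by
  ext x <;> simp

end Inj

section Integral

variable {K : Type u} [Field K] [IsAlgClosed K]
  {F W Ω Ω' : Type u} [Field F] [Field W] [Field Ω] [Field Ω']
  [Algebra K F] [Algebra K W] [Algebra K Ω] [Algebra K Ω']

/-- `(W ⊗ F) ⊗ F` is integral over `(F ⊗ F) ⊗ F` when `W` is integral over `j F`. -/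
theorem s26ecgf_isIntegral (j : F →ₐ[K] W) (hj : (j : F →+* W).IsIntegral)
    (x : (W ⊗[K] F) ⊗[K] F) : (s26ecgfPhi j).toRingHom.IsIntegralElem x := by
  letI : Algebra ((F ⊗[K] F) ⊗[K] F) ((W ⊗[K] F) ⊗[K] F) :=
    (s26ecgfPhi j).toRingHom.toAlgebra
  change IsIntegral ((F ⊗[K] F) ⊗[K] F) x
  have hrange : ∀ t : (F ⊗[K] F) ⊗[K] F, IsIntegral ((F ⊗[K] F) ⊗[K] F) (s26ecgfPhi j t) :=
    fun t => isIntegral_algebraMap (R := (F ⊗[K] F) ⊗[K] F) (A := (W ⊗[K] F) ⊗[K] F) (x := t)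
  -- the elements `(w ⊗ 1) ⊗ 1`
  have hW : ∀ w : W, IsIntegral ((F ⊗[K] F) ⊗[K] F) ((w ⊗ₜ[K] (1 : F)) ⊗ₜ[K] (1 : F)) := by
    intro w
    letI : Algebra F W := (j : F →+* W).toAlgebra
    have hw : IsIntegral F w := hj w
    let φ : F →+* (F ⊗[K] F) ⊗[K] F :=
      ((Algebra.TensorProduct.includeLeft : (F ⊗[K] F) →ₐ[K] (F ⊗[K] F) ⊗[K] F).comp
        (Algebra.TensorProduct.includeLeft : F →ₐ[K] F ⊗[K] F) : F →+* _)
    let ψ : W →+* (W ⊗[K] F) ⊗[K] F :=
      ((Algebra.TensorProduct.includeLeft : (W ⊗[K] F) →ₐ[K] (W ⊗[K] F) ⊗[K] F).comp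
        (Algebra.TensorProduct.includeLeft : W →ₐ[K] W ⊗[K] F) : W →+* _)
    have h : (algebraMap ((F ⊗[K] F) ⊗[K] F) ((W ⊗[K] F) ⊗[K] F)).comp φ =
        ψ.comp (algebraMap F W) := by
      ext a
      change s26ecgfPhi j ((a ⊗ₜ[K] (1 : F)) ⊗ₜ[K] (1 : F)) = (j a ⊗ₜ[K] (1 : F)) ⊗ₜ[K] (1 : F)
      exact s26ecgfPhi_tmul j a 1 1
    exact IsIntegral.map_of_comp_eq φ ψ h hw
  induction x using TensorProduct.induction_on with
  | zero => exact isIntegral_zero
  | add x y hx hy => exact hx.add hy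
  | tmul t c =>
    induction t using TensorProduct.induction_on with
    | zero => rw [TensorProduct.zero_tmul]; exact isIntegral_zero
    | add x y hx hy => rw [TensorProduct.add_tmul]; exact hx.add hy
    | tmul w a =>
      have e : (w ⊗ₜ[K] a) ⊗ₜ[K] c =
          ((w ⊗ₜ[K] (1 : F)) ⊗ₜ[K] (1 : F)) * s26ecgfPhi j (((1 : F) ⊗ₜ[K] a) ⊗ₜ[K] c) := by
        rw [s26ecgfPhi_tmul, map_one]
        simp
      rw [e]
      exact (hW w).mul (hrange _)

/-- **injectivity**: the kernel of `(W ⊗ F) ⊗ F → Ω'` meets `(F ⊗ F) ⊗ F` in `0`, hence is `0`. -/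
theorem s26ecgf_injective (j : F →ₐ[K] W) (hj : (j : F →+* W).IsIntegral)
    (j₁ j₂ j₃ : F →ₐ[K] Ω) (hμ : Function.Injective (s26ecgfMu j₁ j₂ j₃))
    (ι : Ω →ₐ[K] Ω') (ιW : W →ₐ[K] Ω') (hc : ιW.comp j = ι.comp j₁) :
    Function.Injective (s26ecgfMu ιW (ι.comp j₂) (ι.comp j₃)) := by
  letI : Algebra ((F ⊗[K] F) ⊗[K] F) ((W ⊗[K] F) ⊗[K] F) :=
    (s26ecgfPhi j).toRingHom.toAlgebra
  haveI : IsDomain (W ⊗[K] F) := s26etd_isDomain K W F
  haveI : IsDomain ((W ⊗[K] F) ⊗[K] F) := s26etd_isDomain K (W ⊗[K] F) F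
  haveI : IsDomain (F ⊗[K] F) := s26etd_isDomain K F F
  haveI : IsDomain ((F ⊗[K] F) ⊗[K] F) := s26etd_isDomain K (F ⊗[K] F) F
  haveI : Algebra.IsIntegral ((F ⊗[K] F) ⊗[K] F) ((W ⊗[K] F) ⊗[K] F) :=
    ⟨fun x => s26ecgf_isIntegral j hj x⟩
  set μ' := s26ecgfMu ιW (ι.comp j₂) (ι.comp j₃) with hμ'
  have hcomp : μ'.comp (s26ecgfPhi j) = ι.comp (s26ecgfMu j₁ j₂ j₃) := by
    rw [hμ', s26ecgfMu_comp_phi, hc, s26ecgfMu_comp]
  have hinj : Function.Injective (μ'.comp (s26ecgfPhi j)) := by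
    rw [hcomp]
    exact (ι : Ω →+* Ω').injective.comp hμ
  have hker : (RingHom.ker μ'.toRingHom).comap
      (algebraMap ((F ⊗[K] F) ⊗[K] F) ((W ⊗[K] F) ⊗[K] F)) = ⊥ := by
    rw [eq_bot_iff]
    intro t ht
    rw [Ideal.mem_comap, RingHom.mem_ker] at ht
    have : (μ'.comp (s26ecgfPhi j)) t = (μ'.comp (s26ecgfPhi j)) 0 := by
      rw [map_zero]; exact ht
    exact hinj this
  have h0 := Ideal.eq_bot_of_comap_eq_bot hker
  exact (RingHom.injective_iff_ker_eq_bot μ'.toRingHom).2 h0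

end Integral

section FieldStep

variable {K : Type u} [Field K]
  {F W Ω : Type u} [Field F] [Field W] [Field Ω]
  [Algebra K F] [Algebra K W] [Algebra K Ω]

/-- an embedding of `W` into the algebraic closure of `Ω` which extends `j₁` along `j`. -/
theorem s26ecgf_exists_lift (j : F →ₐ[K] W) (hj : (j : F →+* W).IsIntegral) (j₁ : F →ₐ[K] Ω) :
    ∃ ιW : W →ₐ[K] AlgebraicClosure Ω,
      ∀ a : F, ιW (j a) = algebraMap Ω (AlgebraicClosure Ω) (j₁ a) := by
  letI : Algebra F W := (j : F →+* W).toAlgebra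
  letI : Algebra F (AlgebraicClosure Ω) :=
    ((algebraMap Ω (AlgebraicClosure Ω)).comp (j₁ : F →+* Ω)).toAlgebra
  haveI : Algebra.IsAlgebraic F W :=
    ⟨fun w => IsIntegral.isAlgebraic (R := F) (hj w)⟩
  let l : W →ₐ[F] AlgebraicClosure Ω := IsAlgClosed.lift
  have hl : ∀ a : F, l (j a) = algebraMap Ω (AlgebraicClosure Ω) (j₁ a) := fun a =>
    l.commutes a
  refine ⟨{ (l : W →+* AlgebraicClosure Ω) with
    commutes' := fun k => ?_ }, hl⟩
  change l (algebraMap K W k) = algebraMap K (AlgebraicClosure Ω) k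
  rw [← j.commutes k, hl, j₁.commutes, ← IsScalarTower.algebraMap_apply]

/-- **(F), the field step**: for an independent triple `(j₁, j₂, j₃)` in `Ω` and a finite
`j : F → W` there is a finite extension `Ω' / Ω` containing `W` compatibly with `j₁`, in which
`(W, j₂, j₃)` is independent. -/
theorem s26ecgf_fieldStep [IsAlgClosed K] (j : F →ₐ[K] W) (hj : (j : F →+* W).Finite)
    (j₁ j₂ j₃ : F →ₐ[K] Ω)
    (hμ : Function.Injective (Algebra.TensorProduct.productMap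
      (Algebra.TensorProduct.productMap j₁ j₂) j₃)) :
    ∃ (Ω' : Type u) (_ : Field Ω') (_ : Algebra K Ω') (_ : Algebra Ω Ω')
      (_ : IsScalarTower K Ω Ω') (_ : FiniteDimensional Ω Ω') (ιW : W →ₐ[K] Ω'),
      ιW.comp j = (IsScalarTower.toAlgHom K Ω Ω').comp j₁ ∧
      Function.Injective (Algebra.TensorProduct.productMap
        (Algebra.TensorProduct.productMap ιW ((IsScalarTower.toAlgHom K Ω Ω').comp j₂))
        ((IsScalarTower.toAlgHom K Ω Ω').comp j₃)) := by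
  classical
  have hjI : (j : F →+* W).IsIntegral := hj.to_isIntegral
  obtain ⟨ιW, hι⟩ := s26ecgf_exists_lift j hjI j₁
  -- a finite spanning set of `W` over `F`
  obtain ⟨S, hS⟩ : ∃ S : Finset W, ∀ w : W, w ∈ Subring.closure
      (Set.range (j : F →+* W) ∪ (S : Set W)) := by
    letI : Algebra F W := (j : F →+* W).toAlgebra
    have hfin : Module.Finite F W := hj
    obtain ⟨S, hS⟩ := hfin.fg_top
    refine ⟨S, fun w => ?_⟩
    have hw : w ∈ Submodule.span F (S : Set W) := by rw [hS]; trivial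
    refine Submodule.span_induction (p := fun w _ => w ∈ Subring.closure
      (Set.range (j : F →+* W) ∪ (S : Set W))) ?_ ?_ ?_ ?_ hw
    · intro x hx
      exact Subring.subset_closure (Or.inr hx)
    · exact Subring.zero_mem _
    · intro x y _ _ hx hy
      exact Subring.add_mem _ hx hy
    · intro a x _ hx
      rw [Algebra.smul_def]
      exact Subring.mul_mem _ (Subring.subset_closure (Or.inl ⟨a, rfl⟩)) hx
  let E : IntermediateField Ω (AlgebraicClosure Ω) :=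
    IntermediateField.adjoin Ω ((ιW : W → AlgebraicClosure Ω) '' (S : Set W))
  haveI hfinE : FiniteDimensional Ω E := by
    haveI : Finite ((ιW : W → AlgebraicClosure Ω) '' (S : Set W)) :=
      (S.finite_toSet.image _).to_subtype
    exact IntermediateField.finiteDimensional_adjoin
      (fun x _ => Algebra.IsIntegral.isIntegral x)
  have hmem : ∀ w : W, ιW w ∈ E := by
    intro w
    have h1 : Subring.closure (Set.range (j : F →+* W) ∪ (S : Set W)) ≤
        E.toSubfield.toSubring.comap (ιW : W →+* AlgebraicClosure Ω) := by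
      rw [Subring.closure_le]
      rintro x (⟨a, rfl⟩ | hx)
      · change ιW (j a) ∈ E
        rw [hι]
        exact E.algebraMap_mem _
      · change ιW x ∈ E
        exact IntermediateField.subset_adjoin Ω _ ⟨x, hx, rfl⟩
    exact h1 (hS w)
  let ιW' : W →ₐ[K] E :=
    { toFun := fun w => ⟨ιW w, hmem w⟩
      map_one' := Subtype.ext (map_one ιW)
      map_mul' := fun x y => Subtype.ext (map_mul ιW x y)
      map_zero' := Subtype.ext (map_zero ιW)
      map_add' := fun x y => Subtype.ext (map_add ιW x y)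
      commutes' := fun k => Subtype.ext (ιW.commutes k) }
  have hc : ιW'.comp j = (IsScalarTower.toAlgHom K Ω E).comp j₁ := by
    ext a
    exact hι a
  refine ⟨E, inferInstance, inferInstance, inferInstance, inferInstance, hfinE, ιW', hc, ?_⟩
  exact s26ecgf_injective j hjI j₁ j₂ j₃ hμ (IsScalarTower.toAlgHom K Ω E) ιW' hc

end FieldStep

section Univ

variable (K : Type u) [Field K] [IsAlgClosed K] (F : Type u) [Field F] [Algebra K F]

/-- **the universal independent triple**: a field `Ω₃` (`= Frac ((F ⊗ F) ⊗ F)`) with an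
independent triple `(u₁, u₂, u₃)` which maps to every independent triple. -/
theorem s26ecgf_univ :
    ∃ (Ω₃ : Type u) (_ : Field Ω₃) (_ : Algebra K Ω₃) (u₁ u₂ u₃ : F →ₐ[K] Ω₃),
      Function.Injective (Algebra.TensorProduct.productMap
        (Algebra.TensorProduct.productMap u₁ u₂) u₃) ∧
      ∀ (Ω : Type u) [Field Ω] [Algebra K Ω] (j₁ j₂ j₃ : F →ₐ[K] Ω),
        Function.Injective (Algebra.TensorProduct.productMap
          (Algebra.TensorProduct.productMap j₁ j₂) j₃) →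
        ∃ σ : Ω₃ →ₐ[K] Ω, σ.comp u₁ = j₁ ∧ σ.comp u₂ = j₂ ∧ σ.comp u₃ = j₃ := by
  haveI : IsDomain (F ⊗[K] F) := s26etd_isDomain K F F
  haveI : IsDomain ((F ⊗[K] F) ⊗[K] F) := s26etd_isDomain K (F ⊗[K] F) F
  let i₁ : F →ₐ[K] (F ⊗[K] F) ⊗[K] F :=
    (Algebra.TensorProduct.includeLeft : (F ⊗[K] F) →ₐ[K] (F ⊗[K] F) ⊗[K] F).comp
      (Algebra.TensorProduct.includeLeft : F →ₐ[K] F ⊗[K] F)
  let i₂ : F →ₐ[K] (F ⊗[K] F) ⊗[K] F :=
    (Algebra.TensorProduct.includeLeft : (F ⊗[K] F) →ₐ[K] (F ⊗[K] F) ⊗[K] F).comp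
      (Algebra.TensorProduct.includeRight : F →ₐ[K] F ⊗[K] F)
  let i₃ : F →ₐ[K] (F ⊗[K] F) ⊗[K] F :=
    (Algebra.TensorProduct.includeRight : F →ₐ[K] (F ⊗[K] F) ⊗[K] F)
  have h1 : ∀ x : F, i₁ x = (x ⊗ₜ[K] (1 : F)) ⊗ₜ[K] (1 : F) := fun _ => rfl
  have h2 : ∀ x : F, i₂ x = ((1 : F) ⊗ₜ[K] x) ⊗ₜ[K] (1 : F) := fun _ => rfl
  have h3 : ∀ x : F, i₃ x = ((1 : F) ⊗ₜ[K] (1 : F)) ⊗ₜ[K] x := fun _ => rfl
  let a : (F ⊗[K] F) ⊗[K] F →ₐ[K] FractionRing ((F ⊗[K] F) ⊗[K] F) :=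
    IsScalarTower.toAlgHom K ((F ⊗[K] F) ⊗[K] F) (FractionRing ((F ⊗[K] F) ⊗[K] F))
  have ha : Function.Injective a :=
    IsFractionRing.injective ((F ⊗[K] F) ⊗[K] F) (FractionRing ((F ⊗[K] F) ⊗[K] F))
  have hprod : ∀ (Ω : Type u) [Field Ω] [Algebra K Ω] (g : (F ⊗[K] F) ⊗[K] F →ₐ[K] Ω),
      Algebra.TensorProduct.productMap
        (Algebra.TensorProduct.productMap (g.comp i₁) (g.comp i₂)) (g.comp i₃) = g := by
    intro Ω _ _ g
    apply AlgHom.ext
    intro t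
    induction t using TensorProduct.induction_on with
    | zero => simp
    | add x y hx hy => rw [map_add, map_add, hx, hy]
    | tmul s c =>
      induction s using TensorProduct.induction_on with
      | zero => simp
      | add x y hx hy => rw [TensorProduct.add_tmul, map_add, map_add, hx, hy]
      | tmul a b =>
        rw [Algebra.TensorProduct.productMap_apply_tmul,
          Algebra.TensorProduct.productMap_apply_tmul]
        change g (i₁ a) * g (i₂ b) * g (i₃ c) = g ((a ⊗ₜ[K] b) ⊗ₜ[K] c)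
        rw [h1, h2, h3, ← map_mul, ← map_mul,
          Algebra.TensorProduct.tmul_mul_tmul, Algebra.TensorProduct.tmul_mul_tmul,
          Algebra.TensorProduct.tmul_mul_tmul, Algebra.TensorProduct.tmul_mul_tmul]
        simp only [mul_one, one_mul]
  refine ⟨FractionRing ((F ⊗[K] F) ⊗[K] F), inferInstance, inferInstance,
    a.comp i₁, a.comp i₂, a.comp i₃, ?_, ?_⟩
  · rw [hprod]
    exact ha
  · intro Ω _ _ j₁ j₂ j₃ hμ
    set μ := Algebra.TensorProduct.productMap (Algebra.TensorProduct.productMap j₁ j₂) j₃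
      with hμdef
    let σ : FractionRing ((F ⊗[K] F) ⊗[K] F) →ₐ[K] Ω := IsFractionRing.liftAlgHom (g := μ) hμ
    have hσ : ∀ t : (F ⊗[K] F) ⊗[K] F, σ (a t) = μ t :=
      fun t => IsFractionRing.lift_algebraMap hμ t
    refine ⟨σ, ?_, ?_, ?_⟩
    · ext x
      change σ (a (i₁ x)) = j₁ x
      rw [hσ, h1, hμdef, Algebra.TensorProduct.productMap_apply_tmul,
        Algebra.TensorProduct.productMap_apply_tmul, map_one, map_one, mul_one, mul_one]
    · ext x
      change σ (a (i₂ x)) = j₂ x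
      rw [hσ, h2, hμdef, Algebra.TensorProduct.productMap_apply_tmul,
        Algebra.TensorProduct.productMap_apply_tmul, map_one, map_one, mul_one, one_mul]
    · ext x
      change σ (a (i₃ x)) = j₃ x
      rw [hσ, h3, hμdef, Algebra.TensorProduct.productMap_apply_tmul,
        Algebra.TensorProduct.productMap_apply_tmul, map_one, map_one, one_mul, one_mul]

end Univ

end Fermat.Agent.S26

end
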