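/-
S26-E, CUBE_gen assembly (helper63): the FIELD STEP (helper75, S26/ECubeGenF.lean) plugged into
S26/ECubeUniv.lean.

* `s26ecu_stmtFieldStep` : `s26ecu_StmtFieldStep`  (= helper75's `s26ecgf_fieldStep`);
* `s26ecu_cubeUniv`      : (CRV) + (C-IND) + (T-shear) ⇒ (CUBE_univ);
* `s26ecu_cubeGen`       : (CRV) + (C-IND) + (T-shear) ⇒ (CUBE_gen);
* `s26ecu_cubeGen_of_ti` : (CRV) + (TI) + (NV) + (SP-STEP) + (T-shear) ⇒ (CUBE_gen).
-/
import Fermat.Agent.S26.ECubeUniv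
import Fermat.Agent.S26.ECubeGenF
import Fermat.Agent.S26.ECInd

set_option autoImplicit false

namespace Fermat.Agent.S26

universe u

/-- **(F)** the field step, proved by helper75. -/
theorem s26ecu_stmtFieldStep : s26ecu_StmtFieldStep.{u} :=
  fun _ _ _ _ _ _ _ _ _ _ _ _ j hj j₁ j₂ j₃ hμ => s26ecgf_fieldStep j hj j₁ j₂ j₃ hμ

/-- **(CUBE_univ)** from (CRV), (C-IND), (T-shear). -/
theorem s26ecu_cubeUniv (hCrv : s26e_StmtCrv.{u}) (hCInd : s26e_StmtCInd.{u})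
    (hTS : s26e_StmtTShear.{u}) : s26e_StmtCubeUniv.{u} :=
  s26ecu_cubeUniv_of hCrv hCInd hTS s26ecu_stmtFieldStep

/-- **(CUBE_gen)** from (CRV), (C-IND), (T-shear). -/
theorem s26ecu_cubeGen (hCrv : s26e_StmtCrv.{u}) (hCInd : s26e_StmtCInd.{u})
    (hTS : s26e_StmtTShear.{u}) : s26e_StmtCubeGen.{u} :=
  s26ecu_cubeGen_of_univ (s26ecu_cubeUniv hCrv hCInd hTS)

/-- **(CUBE_gen)** from (CRV), (TI), (NV), (SP-STEP), (T-shear). -/
theorem s26ecu_cubeGen_of_ti (hCrv : s26e_StmtCrv.{u}) (hTI : s26e_StmtTI.{u})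
    (hNV : s26e_StmtNV.{u}) (hSp : s26e_StmtSpStep.{u}) (hTS : s26e_StmtTShear.{u}) :
    s26e_StmtCubeGen.{u} :=
  s26ecu_cubeGen hCrv (s26ecind_main hTI hNV hSp) hTS

end Fermat.Agent.S26
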