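import Fermat.Agent.S26.PlanE

/-!
# S26-E-G3, part (T) (helper50): the Prop delivered by the scheme route, for the wiring of
`s26e_StmtTShear` (helper18).

`Ω` a field which is the FRACTION FIELD of `T = (𝔉 ⊗ 𝔉) ⊗ 𝔉` through an independent generic
triple `(ι₁, ι₂, ι₃)` (e.g. `Ω = FractionRing T`).  Then `x + z` is the generic point of a
`K`-embedding `j'`, and `(j', ι₂, ι₃)` is again independent.
-/

set_option autoImplicit false

noncomputable section

namespace Fermat.Agent.S26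

open CategoryTheory CategoryTheory.Limits AlgebraicGeometry NeronModelInfra GoodReductionJacobian
open scoped TensorProduct

universe u

/-- **(T-shear) in the fraction field of `(𝔉 ⊗ 𝔉) ⊗ 𝔉`.** -/
def s26eg3t_StmtShearFrac : Prop :=
  ∀ (K : Type u) [Field K] {A : Scheme.{u}} (f : A ⟶ Spec (CommRingCat.of K))
    (G : RelativeGroupLaw K f) (g : ℕ), S26Hyp K f G g → ∀ [IsIntegral A],
    ∀ (Ω : Type u) [Field Ω] [Algebra K Ω] (ι₁ ι₂ ι₃ : s26F f →ₐ[K] Ω),
      S26eIndep3 f ι₁ ι₂ ι₃ →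
      (∀ y : Ω, ∃ a b : (s26F f ⊗[K] s26F f) ⊗[K] s26F f,
        Algebra.TensorProduct.productMap (Algebra.TensorProduct.productMap ι₁ ι₂) ι₃ b ≠ 0 ∧
        y * Algebra.TensorProduct.productMap (Algebra.TensorProduct.productMap ι₁ ι₂) ι₃ b =
          Algebra.TensorProduct.productMap (Algebra.TensorProduct.productMap ι₁ ι₂) ι₃ a) →
      ∃ j' : s26F f →ₐ[K] Ω, s26ePt f j' = G.mul _ (s26ePt f ι₁) (s26ePt f ι₃) ∧
        S26eIndep3 f j' ι₂ ι₃

end Fermat.Agent.S26

end
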