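/-
S26-E, piece E-G3 (b), the WIRING of `s26e_StmtTShear` (helper18).

`s26ets_tshear_of_frac : s26eg3t_StmtShearFrac → s26e_StmtTShear`.

`s26eg3t_StmtShearFrac` (helper50, `S26/EG3TPlan.lean`) is (T-shear) in a field `Ω₃` which is the
fraction field of `T = (𝔉 ⊗ 𝔉) ⊗ 𝔉` through the independent generic triple.  For an ARBITRARY field
`Ω` with an independent generic triple `(j₁, j₂, j₃)`:

* `T` is a domain (`T → Ω` is injective), `Ω₃ := FractionRing T`, `ι_i : 𝔉 → Ω₃` the three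
  inclusions, `ε : Ω₃ →ₐ[K] Ω` the lift of `j₁ ⊗ j₂ ⊗ j₃`, `ε ∘ ι_i = j_i`;
* (T-shear) in `Ω₃` gives `j₀ : 𝔉 → Ω₃` with `η_{j₀} = η_{ι₁} + η_{ι₃}`, `(j₀, ι₂, ι₃)` independent;
* `j' := ε ∘ j₀`: `η_{j'} = A(ε)(η_{ι₁} + η_{ι₃}) = η_{j₁} + η_{j₃}` (`s26eptMap_mul`), and
  `j' ⊗ j₂ ⊗ j₃ = ε ∘ (j₀ ⊗ ι₂ ⊗ ι₃)` is injective.

Also: `s26ets_pt_injective` (`j ↦ η_j` is injective: `Spec 𝔉 ⟶ A` is a monomorphism),
`s26ets_pt_comp` (`A(σ)(η_j) = η_{σ ∘ j}`), `s26ets_indep3_comp` (independence is preserved by a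
`K`-embedding of fields), `s26ets_indep3_of_comp` (and reflected).
-/
import Fermat.Agent.S26.EG3TPlan

set_option autoImplicit false
set_option linter.style.haveILetI false
set_option linter.unusedSectionVars false

noncomputable section

namespace Fermat.Agent.S26

open CategoryTheory CategoryTheory.Limits AlgebraicGeometry NeronModelInfra GoodReductionJacobian
open scoped TensorProduct

universe u

variable {K : Type u} [Field K] {A : Scheme.{u}} (f : A ⟶ Spec (CommRingCat.of K))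

section Formal

variable {Ω Ω' : Type u} [Field Ω] [Algebra K Ω] [Field Ω'] [Algebra K Ω']

/-- `A(σ)(η_j) = η_{σ ∘ j}` -/
theorem s26ets_pt_comp [IsIntegral A] (σ : Ω →ₐ[K] Ω') (j : s26F f →ₐ[K] Ω) :
    s26eptMap f σ (s26ePt f j) = s26ePt f (σ.comp j) := by
  unfold s26ePt
  rw [s26eptMap_comp]

/-- `j ↦ η_j` is injective (`Spec 𝔉 ⟶ A` is a monomorphism). -/
theorem s26ets_pt_injective [IsIntegral A] {j j' : s26F f →ₐ[K] Ω}
    (h : s26ePt f j = s26ePt f j') : j = j' := by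
  have h1 : s26eptSpec j ≫ (s26eEta f).1 = s26eptSpec j' ≫ (s26eEta f).1 :=
    congrArg Subtype.val h
  haveI : Mono (s26eEta f).1 := by
    show Mono (A.fromSpecStalk (genericPoint A))
    infer_instance
  have h2 : s26eptSpec j = s26eptSpec j' := (cancel_mono _).mp h1
  have h3 : CommRingCat.ofHom (j : s26F f →+* Ω) = CommRingCat.ofHom (j' : s26F f →+* Ω) :=
    Spec.map_injective h2
  have h4 : (j : s26F f →+* Ω) = (j' : s26F f →+* Ω) := by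
    have := congrArg CommRingCat.Hom.hom h3
    simpa using this
  exact AlgHom.coe_ringHom_injective h4

/-- composition with a `K`-algebra map commutes with the triple product map -/
theorem s26ets_productMap_comp {F₁ F₂ F₃ : Type u} [CommRing F₁] [CommRing F₂] [CommRing F₃]
    [Algebra K F₁] [Algebra K F₂] [Algebra K F₃]
    (σ : Ω →ₐ[K] Ω') (j₁ : F₁ →ₐ[K] Ω) (j₂ : F₂ →ₐ[K] Ω) (j₃ : F₃ →ₐ[K] Ω) :
    Algebra.TensorProduct.productMap
        (Algebra.TensorProduct.productMap (σ.comp j₁) (σ.comp j₂)) (σ.comp j₃) =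
      σ.comp (Algebra.TensorProduct.productMap (Algebra.TensorProduct.productMap j₁ j₂) j₃) := by
  apply Algebra.TensorProduct.ext
  · apply Algebra.TensorProduct.ext
    · ext x
      simp
    · ext x
      simp
  · ext x
    simp

/-- independence is preserved by a `K`-embedding of fields -/
theorem s26ets_indep3_comp [IsIntegral A] (σ : Ω →ₐ[K] Ω') {j₁ j₂ j₃ : s26F f →ₐ[K] Ω}
    (h : S26eIndep3 f j₁ j₂ j₃) : S26eIndep3 f (σ.comp j₁) (σ.comp j₂) (σ.comp j₃) := by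
  unfold S26eIndep3 at h ⊢
  rw [s26ets_productMap_comp]
  exact (σ : Ω →+* Ω').injective.comp h

/-- independence is reflected by a `K`-algebra map of fields -/
theorem s26ets_indep3_of_comp [IsIntegral A] (σ : Ω →ₐ[K] Ω') {j₁ j₂ j₃ : s26F f →ₐ[K] Ω}
    (h : S26eIndep3 f (σ.comp j₁) (σ.comp j₂) (σ.comp j₃)) : S26eIndep3 f j₁ j₂ j₃ := by
  unfold S26eIndep3 at h ⊢
  rw [s26ets_productMap_comp] at h
  exact Function.Injective.of_comp h

end Formal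

section Frac

variable {F₁ F₂ F₃ : Type u} [Field F₁] [Field F₂] [Field F₃]
  [Algebra K F₁] [Algebra K F₂] [Algebra K F₃]

/-- the three inclusions into a `K`-algebra `Ω₃` over `T = (F₁ ⊗ F₂) ⊗ F₃` -/
def s26etsIncl₁ (Ω₃ : Type u) [CommRing Ω₃] [Algebra K Ω₃] [Algebra ((F₁ ⊗[K] F₂) ⊗[K] F₃) Ω₃]
    [IsScalarTower K ((F₁ ⊗[K] F₂) ⊗[K] F₃) Ω₃] : F₁ →ₐ[K] Ω₃ :=
  (IsScalarTower.toAlgHom K ((F₁ ⊗[K] F₂) ⊗[K] F₃) Ω₃).comp
    ((Algebra.TensorProduct.includeLeft : (F₁ ⊗[K] F₂) →ₐ[K] (F₁ ⊗[K] F₂) ⊗[K] F₃).comp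
      (Algebra.TensorProduct.includeLeft : F₁ →ₐ[K] F₁ ⊗[K] F₂))

/-- the second inclusion -/
def s26etsIncl₂ (Ω₃ : Type u) [CommRing Ω₃] [Algebra K Ω₃] [Algebra ((F₁ ⊗[K] F₂) ⊗[K] F₃) Ω₃]
    [IsScalarTower K ((F₁ ⊗[K] F₂) ⊗[K] F₃) Ω₃] : F₂ →ₐ[K] Ω₃ :=
  (IsScalarTower.toAlgHom K ((F₁ ⊗[K] F₂) ⊗[K] F₃) Ω₃).comp
    ((Algebra.TensorProduct.includeLeft : (F₁ ⊗[K] F₂) →ₐ[K] (F₁ ⊗[K] F₂) ⊗[K] F₃).comp
      (Algebra.TensorProduct.includeRight : F₂ →ₐ[K] F₁ ⊗[K] F₂))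

/-- the third inclusion -/
def s26etsIncl₃ (Ω₃ : Type u) [CommRing Ω₃] [Algebra K Ω₃] [Algebra ((F₁ ⊗[K] F₂) ⊗[K] F₃) Ω₃]
    [IsScalarTower K ((F₁ ⊗[K] F₂) ⊗[K] F₃) Ω₃] : F₃ →ₐ[K] Ω₃ :=
  (IsScalarTower.toAlgHom K ((F₁ ⊗[K] F₂) ⊗[K] F₃) Ω₃).comp
    (Algebra.TensorProduct.includeRight : F₃ →ₐ[K] (F₁ ⊗[K] F₂) ⊗[K] F₃)

/-- the product map of the three inclusions is the structure map `T → Ω₃` -/
theorem s26ets_productMap_incl (Ω₃ : Type u) [CommRing Ω₃] [Algebra K Ω₃]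
    [Algebra ((F₁ ⊗[K] F₂) ⊗[K] F₃) Ω₃] [IsScalarTower K ((F₁ ⊗[K] F₂) ⊗[K] F₃) Ω₃] :
    Algebra.TensorProduct.productMap
        (Algebra.TensorProduct.productMap (s26etsIncl₁ (K := K) (F₁ := F₁) (F₂ := F₂) (F₃ := F₃) Ω₃)
          (s26etsIncl₂ (K := K) (F₁ := F₁) (F₂ := F₂) (F₃ := F₃) Ω₃))
        (s26etsIncl₃ (K := K) (F₁ := F₁) (F₂ := F₂) (F₃ := F₃) Ω₃) =
      IsScalarTower.toAlgHom K ((F₁ ⊗[K] F₂) ⊗[K] F₃) Ω₃ := by
  apply Algebra.TensorProduct.ext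
  · apply Algebra.TensorProduct.ext
    · ext x
      simp [s26etsIncl₁]
    · ext x
      simp [s26etsIncl₂]
  · ext x
    simp [s26etsIncl₃]

/-- a product map is recovered from its three components -/
theorem s26ets_productMap_eta {Ω : Type u} [CommRing Ω] [Algebra K Ω]
    (φ : (F₁ ⊗[K] F₂) ⊗[K] F₃ →ₐ[K] Ω) :
    Algebra.TensorProduct.productMap
        (Algebra.TensorProduct.productMap
          (φ.comp ((Algebra.TensorProduct.includeLeft :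
              (F₁ ⊗[K] F₂) →ₐ[K] (F₁ ⊗[K] F₂) ⊗[K] F₃).comp
            (Algebra.TensorProduct.includeLeft : F₁ →ₐ[K] F₁ ⊗[K] F₂)))
          (φ.comp ((Algebra.TensorProduct.includeLeft :
              (F₁ ⊗[K] F₂) →ₐ[K] (F₁ ⊗[K] F₂) ⊗[K] F₃).comp
            (Algebra.TensorProduct.includeRight : F₂ →ₐ[K] F₁ ⊗[K] F₂))))
        (φ.comp (Algebra.TensorProduct.includeRight : F₃ →ₐ[K] (F₁ ⊗[K] F₂) ⊗[K] F₃)) = φ := by
  apply Algebra.TensorProduct.ext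
  · apply Algebra.TensorProduct.ext
    · ext x
      simp
    · ext x
      simp [← Algebra.TensorProduct.one_def]
  · ext x
    simp

/-- the three inclusions into the fraction field are independent -/
theorem s26ets_frac_indep [IsDomain ((F₁ ⊗[K] F₂) ⊗[K] F₃)] :
    Function.Injective (Algebra.TensorProduct.productMap
        (Algebra.TensorProduct.productMap
          (s26etsIncl₁ (K := K) (F₁ := F₁) (F₂ := F₂) (F₃ := F₃)
            (FractionRing ((F₁ ⊗[K] F₂) ⊗[K] F₃)))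
          (s26etsIncl₂ (K := K) (F₁ := F₁) (F₂ := F₂) (F₃ := F₃)
            (FractionRing ((F₁ ⊗[K] F₂) ⊗[K] F₃))))
        (s26etsIncl₃ (K := K) (F₁ := F₁) (F₂ := F₂) (F₃ := F₃)
          (FractionRing ((F₁ ⊗[K] F₂) ⊗[K] F₃)))) := by
  rw [s26ets_productMap_incl]
  exact IsFractionRing.injective ((F₁ ⊗[K] F₂) ⊗[K] F₃)
    (FractionRing ((F₁ ⊗[K] F₂) ⊗[K] F₃))

/-- the fraction field is generated by the three inclusions -/
theorem s26ets_frac_gen [IsDomain ((F₁ ⊗[K] F₂) ⊗[K] F₃)]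
    (y : FractionRing ((F₁ ⊗[K] F₂) ⊗[K] F₃)) :
    ∃ a b : (F₁ ⊗[K] F₂) ⊗[K] F₃,
      Algebra.TensorProduct.productMap
        (Algebra.TensorProduct.productMap
          (s26etsIncl₁ (K := K) (F₁ := F₁) (F₂ := F₂) (F₃ := F₃)
            (FractionRing ((F₁ ⊗[K] F₂) ⊗[K] F₃)))
          (s26etsIncl₂ (K := K) (F₁ := F₁) (F₂ := F₂) (F₃ := F₃)
            (FractionRing ((F₁ ⊗[K] F₂) ⊗[K] F₃))))
        (s26etsIncl₃ (K := K) (F₁ := F₁) (F₂ := F₂) (F₃ := F₃)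
          (FractionRing ((F₁ ⊗[K] F₂) ⊗[K] F₃))) b ≠ 0 ∧
      y * Algebra.TensorProduct.productMap
        (Algebra.TensorProduct.productMap
          (s26etsIncl₁ (K := K) (F₁ := F₁) (F₂ := F₂) (F₃ := F₃)
            (FractionRing ((F₁ ⊗[K] F₂) ⊗[K] F₃)))
          (s26etsIncl₂ (K := K) (F₁ := F₁) (F₂ := F₂) (F₃ := F₃)
            (FractionRing ((F₁ ⊗[K] F₂) ⊗[K] F₃))))
        (s26etsIncl₃ (K := K) (F₁ := F₁) (F₂ := F₂) (F₃ := F₃)
          (FractionRing ((F₁ ⊗[K] F₂) ⊗[K] F₃))) b =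
      Algebra.TensorProduct.productMap
        (Algebra.TensorProduct.productMap
          (s26etsIncl₁ (K := K) (F₁ := F₁) (F₂ := F₂) (F₃ := F₃)
            (FractionRing ((F₁ ⊗[K] F₂) ⊗[K] F₃)))
          (s26etsIncl₂ (K := K) (F₁ := F₁) (F₂ := F₂) (F₃ := F₃)
            (FractionRing ((F₁ ⊗[K] F₂) ⊗[K] F₃))))
        (s26etsIncl₃ (K := K) (F₁ := F₁) (F₂ := F₂) (F₃ := F₃)
          (FractionRing ((F₁ ⊗[K] F₂) ⊗[K] F₃))) a := by
  obtain ⟨⟨a, b⟩, hab⟩ := IsLocalization.surj (nonZeroDivisors ((F₁ ⊗[K] F₂) ⊗[K] F₃)) y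
  refine ⟨a, (b : (F₁ ⊗[K] F₂) ⊗[K] F₃), ?_, ?_⟩
  · rw [s26ets_productMap_incl]
    exact IsFractionRing.to_map_ne_zero_of_mem_nonZeroDivisors b.2
  · rw [s26ets_productMap_incl]
    exact hab

/-- the lift `ε : Frac T → Ω` of an independent triple, with `ε ∘ ι_i = j_i` -/
theorem s26ets_frac_lift [IsDomain ((F₁ ⊗[K] F₂) ⊗[K] F₃)] {Ω : Type u} [Field Ω] [Algebra K Ω]
    (j₁ : F₁ →ₐ[K] Ω) (j₂ : F₂ →ₐ[K] Ω) (j₃ : F₃ →ₐ[K] Ω)
    (hind : Function.Injective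
      (Algebra.TensorProduct.productMap (Algebra.TensorProduct.productMap j₁ j₂) j₃)) :
    ∃ ε : FractionRing ((F₁ ⊗[K] F₂) ⊗[K] F₃) →ₐ[K] Ω,
      ε.comp (s26etsIncl₁ (K := K) (F₁ := F₁) (F₂ := F₂) (F₃ := F₃)
        (FractionRing ((F₁ ⊗[K] F₂) ⊗[K] F₃))) = j₁ ∧
      ε.comp (s26etsIncl₂ (K := K) (F₁ := F₁) (F₂ := F₂) (F₃ := F₃)
        (FractionRing ((F₁ ⊗[K] F₂) ⊗[K] F₃))) = j₂ ∧
      ε.comp (s26etsIncl₃ (K := K) (F₁ := F₁) (F₂ := F₂) (F₃ := F₃)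
        (FractionRing ((F₁ ⊗[K] F₂) ⊗[K] F₃))) = j₃ := by
  have hε : (IsFractionRing.liftAlgHom
        (K := FractionRing ((F₁ ⊗[K] F₂) ⊗[K] F₃)) hind).comp
      (IsScalarTower.toAlgHom K ((F₁ ⊗[K] F₂) ⊗[K] F₃)
        (FractionRing ((F₁ ⊗[K] F₂) ⊗[K] F₃))) =
      Algebra.TensorProduct.productMap (Algebra.TensorProduct.productMap j₁ j₂) j₃ :=
    AlgHom.ext fun x => IsFractionRing.lift_algebraMap hind x
  refine ⟨IsFractionRing.liftAlgHom hind, ?_, ?_, ?_⟩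
  · unfold s26etsIncl₁
    rw [← AlgHom.comp_assoc, hε, ← AlgHom.comp_assoc,
      Algebra.TensorProduct.productMap_left, Algebra.TensorProduct.productMap_left]
  · unfold s26etsIncl₂
    rw [← AlgHom.comp_assoc, hε, ← AlgHom.comp_assoc,
      Algebra.TensorProduct.productMap_left, Algebra.TensorProduct.productMap_right]
  · unfold s26etsIncl₃
    rw [← AlgHom.comp_assoc, hε, Algebra.TensorProduct.productMap_right]

end Frac

/-- **(T-shear) from (T-shear) in the fraction field of `(𝔉 ⊗ 𝔉) ⊗ 𝔉`.** -/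
theorem s26ets_tshear_of_frac (h : s26eg3t_StmtShearFrac.{u}) : s26e_StmtTShear.{u} := by
  intro K _ A f G g hyp _ Ω _ _ j₁ j₂ j₃ hind
  -- `T` is a domain
  haveI hdom : IsDomain ((s26F f ⊗[K] s26F f) ⊗[K] s26F f) :=
    Function.Injective.isDomain
      (Algebra.TensorProduct.productMap (Algebra.TensorProduct.productMap j₁ j₂) j₃) hind
  obtain ⟨j₀, hj₀, hind₀⟩ := h K f G g hyp (FractionRing ((s26F f ⊗[K] s26F f) ⊗[K] s26F f))
    (s26etsIncl₁ (K := K) (F₁ := s26F f) (F₂ := s26F f) (F₃ := s26F f) _)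
    (s26etsIncl₂ (K := K) (F₁ := s26F f) (F₂ := s26F f) (F₃ := s26F f) _)
    (s26etsIncl₃ (K := K) (F₁ := s26F f) (F₂ := s26F f) (F₃ := s26F f) _)
    s26ets_frac_indep s26ets_frac_gen
  obtain ⟨ε, hε₁, hε₂, hε₃⟩ := s26ets_frac_lift j₁ j₂ j₃ hind
  refine ⟨ε.comp j₀, ?_, ?_⟩
  · rw [← s26ets_pt_comp, hj₀, s26eptMap_mul, s26ets_pt_comp, s26ets_pt_comp, hε₁, hε₃]
  · have := s26ets_indep3_comp f ε hind₀
    rwa [hε₂, hε₃] at this

end Fermat.Agent.S26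

end
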