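import Fermat.Agent.S26.EG3TAsm
import Fermat.Agent.S26.ETShear

/-!
# S26-E-G3, part (T): `s26e_StmtTShear` PROVED

`s26eg3t_stmtShearFrac` (helper50, scheme route: the shear of `(A × A) × (A × A)`; leaves by
helper19 (`s26eg3t_fracLift`) and helper18 (`s26eg3t_prod3_injective`)) plugged into the wiring
`s26ets_tshear_of_frac` (helper18).
-/

set_option autoImplicit false

namespace Fermat.Agent.S26

universe u

/-- **(T-shear)**: `(x, y, z) ↦ (x + z, y, z)` preserves independent generic triples. -/
theorem s26e_stmtTShear : s26e_StmtTShear.{u} :=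
  s26ets_tshear_of_frac s26eg3t_stmtShearFrac

end Fermat.Agent.S26
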