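/-
S26-E-G3 (a3), helper19: `F` is algebraically closed in `Frac (F ⊗[K] B)`
(`K` algebraically closed, `F` a field over `K`, `B` a `K`-domain).
This is the hypothesis `halg` of (R3) `S26erIsRel.descend` for `Ω = 𝔉 ↪ Ω' = Ω₃`.

Mathlib + `S26/EG3Dom`.
-/
import Mathlib
import Fermat.Agent.S26.EG3Dom

set_option autoImplicit false

namespace Fermat.Agent.S26

open TensorProduct

section AlgClosedIn

variable {K : Type*} [Field K] [IsAlgClosed K] {F : Type*} [Field F] [Algebra K F]
  {B : Type*} [CommRing B] [Algebra K B] [IsDomain B]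

/-- An element of a field extension of an algebraically closed field which is algebraic lies in
the base field. -/
theorem s26eg3d_mem_range_of_isAlgebraic {k L : Type*} [Field k] [IsAlgClosed k] [Field L]
    [Algebra k L] {x : L} (hx : IsAlgebraic k x) : x ∈ (algebraMap k L).range :=
  minpoly.mem_range_of_degree_eq_one k x
    (IsAlgClosed.degree_eq_one_of_irreducible k (minpoly.irreducible hx.isIntegral))

/-- **`F` is algebraically closed in `Frac (F ⊗[K] B)`**, stated for any fraction field `Ω` of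
`F ⊗[K] B`. -/
theorem s26eg3d_algClosed_in' {Ω : Type*} [Field Ω] [Algebra (F ⊗[K] B) Ω]
    [IsFractionRing (F ⊗[K] B) Ω] [Algebra F Ω] [IsScalarTower F (F ⊗[K] B) Ω]
    (α : Ω) (hα : IsAlgebraic F α) : α ∈ (algebraMap F Ω).range := by
  classical
  -- the algebraic closure of `F` and the domain `F̄ ⊗ B`
  have hdom : IsDomain (AlgebraicClosure F ⊗[K] B) := s26eg3d_isDomain
  let ψ : F →ₐ[K] AlgebraicClosure F := IsScalarTower.toAlgHom K F (AlgebraicClosure F)
  have hψ : Function.Injective ψ := (algebraMap F (AlgebraicClosure F)).injective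
  let J : F ⊗[K] B →ₐ[K] AlgebraicClosure F ⊗[K] B :=
    Algebra.TensorProduct.map ψ (AlgHom.id K B)
  have hJ : Function.Injective J := s26eg3d_map_injective ψ hψ
  let g : F ⊗[K] B →+* FractionRing (AlgebraicClosure F ⊗[K] B) :=
    (algebraMap (AlgebraicClosure F ⊗[K] B) (FractionRing (AlgebraicClosure F ⊗[K] B))).comp
      J.toRingHom
  have hg : Function.Injective g :=
    (IsFractionRing.injective (AlgebraicClosure F ⊗[K] B) _).comp hJ
  let σ : Ω →+* FractionRing (AlgebraicClosure F ⊗[K] B) := IsFractionRing.lift hg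
  have hσ : ∀ r : F ⊗[K] B, σ (algebraMap (F ⊗[K] B) Ω r) = g r :=
    fun r => IsFractionRing.lift_algebraMap hg r
  -- compatibility of `σ` with the structure maps from `F` and `F̄`
  have hσF : ∀ c : F, σ (algebraMap F Ω c) =
      algebraMap (AlgebraicClosure F) (FractionRing (AlgebraicClosure F ⊗[K] B))
        (algebraMap F (AlgebraicClosure F) c) := by
    intro c
    rw [IsScalarTower.algebraMap_apply F (F ⊗[K] B) Ω, hσ,
      IsScalarTower.algebraMap_apply (AlgebraicClosure F) (AlgebraicClosure F ⊗[K] B)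
        (FractionRing (AlgebraicClosure F ⊗[K] B))]
    simp only [g, J, RingHom.coe_comp, Function.comp_apply, AlgHom.toRingHom_eq_coe,
      RingHom.coe_coe, Algebra.TensorProduct.algebraMap_apply, Algebra.algebraMap_self,
      RingHom.id_apply, Algebra.TensorProduct.map_tmul, map_one]
    rfl
  -- `σ α` is algebraic over `F̄`, hence in `F̄`
  have hσα : IsAlgebraic (AlgebraicClosure F) (σ α) := by
    obtain ⟨p, hp0, hp⟩ := hα
    refine ⟨p.map (algebraMap F (AlgebraicClosure F)),
      (Polynomial.map_ne_zero_iff (algebraMap F (AlgebraicClosure F)).injective).2 hp0, ?_⟩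
    have h1 : σ (Polynomial.aeval α p) = 0 := by rw [hp, map_zero]
    rw [Polynomial.aeval_def, Polynomial.hom_eval₂] at h1
    rw [Polynomial.aeval_def, Polynomial.eval₂_map, ← h1]
    congr 1
    ext c
    exact (hσF c).symm
  obtain ⟨β, hβ⟩ := s26eg3d_mem_range_of_isAlgebraic hσα
  -- write `α = r / s`
  obtain ⟨r, s, hs, rfl⟩ := IsFractionRing.div_surjective (F ⊗[K] B) α
  have hs0 : s ≠ 0 := nonZeroDivisors.ne_zero hs
  have hgs : g s ≠ 0 := fun h => hs0 (hg (by rw [h, map_zero]))
  have h2 : g r = algebraMap (AlgebraicClosure F ⊗[K] B)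
      (FractionRing (AlgebraicClosure F ⊗[K] B)) (β • J s) := by
    have h3 : σ (algebraMap (F ⊗[K] B) Ω r / algebraMap (F ⊗[K] B) Ω s) = g r / g s := by
      rw [map_div₀, hσ, hσ]
    rw [h3, eq_div_iff hgs] at hβ
    rw [← hβ, Algebra.smul_def, map_mul,
      ← IsScalarTower.algebraMap_apply (AlgebraicClosure F) (AlgebraicClosure F ⊗[K] B)
        (FractionRing (AlgebraicClosure F ⊗[K] B))]
    rfl
  have h4 : J r = β • J s := IsFractionRing.injective (AlgebraicClosure F ⊗[K] B) _ h2
  -- coordinates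
  let b := Module.Basis.ofVectorSpace K B
  have hs' : (Algebra.TensorProduct.basis F b).repr s ≠ 0 := fun h0 =>
    hs0 ((Algebra.TensorProduct.basis F b).repr.injective (by rw [h0, map_zero]))
  obtain ⟨k, hk⟩ := Finsupp.ne_iff.mp hs'
  simp only [Finsupp.coe_zero, Pi.zero_apply] at hk
  have h5 := congrArg (fun z => (Algebra.TensorProduct.basis (AlgebraicClosure F) b).repr z k) h4
  simp only [map_smul, Finsupp.smul_apply, smul_eq_mul] at h5
  rw [s26eg3d_repr_map b ψ r k, s26eg3d_repr_map b ψ s k] at h5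
  have hψk : ψ ((Algebra.TensorProduct.basis F b).repr s k) ≠ 0 := fun h => hk (hψ (by rw [h, map_zero]))
  have hβc : β = ψ ((Algebra.TensorProduct.basis F b).repr r k /
      (Algebra.TensorProduct.basis F b).repr s k) := by
    rw [map_div₀, eq_div_iff hψk, h5]
  refine ⟨(Algebra.TensorProduct.basis F b).repr r k /
      (Algebra.TensorProduct.basis F b).repr s k, ?_⟩
  apply σ.injective
  rw [hσF, ← hβ, hβc]
  rfl

/-- **`F` is algebraically closed in `FractionRing (F ⊗[K] B)`**: the hypothesis `halg` of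
(R3). -/
theorem s26eg3d_algClosed_in [IsDomain (F ⊗[K] B)]
    (α : FractionRing (F ⊗[K] B)) (hα : IsAlgebraic F α) :
    α ∈ (algebraMap F (FractionRing (F ⊗[K] B))).range :=
  s26eg3d_algClosed_in' (K := K) (F := F) (B := B) α hα

end AlgClosedIn

end Fermat.Agent.S26
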