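/-
S26-E-G3 (a), helper19: **`s26e_StmtT0`** of S26/PlanE.lean.

There is a field `Ω ⊇ K` with an independent generic triple `j₁ j₂ j₃ : 𝔉 → Ω` in which the image
of the SECOND embedding is algebraically closed:  `Ω = Frac (𝔉 ⊗ (𝔉 ⊗ 𝔉))`, `j₂` = the first factor.

* `s26eg3_T0_abs`  : the abstract statement for any field `F` over an algebraically closed `K`;
* `s26eg3_stmtT0`  : `s26e_StmtT0`.
-/
import Fermat.Agent.S26.PlanE
import Fermat.Agent.S26.EG3Alg

set_option autoImplicit false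

namespace Fermat.Agent.S26

open CategoryTheory CategoryTheory.Limits AlgebraicGeometry NeronModelInfra GoodReductionJacobian
open scoped TensorProduct

universe u

section Abs

variable (K : Type u) [Field K] [IsAlgClosed K] (F : Type u) [Field F] [Algebra K F]

omit [IsAlgClosed K] in
/-- the rearrangement `(F₁ ⊗ F₂) ⊗ F₃ ≃ F₂ ⊗ (F₁ ⊗ F₃)` -/
noncomputable def s26eg3Rearr : (F ⊗[K] F) ⊗[K] F ≃ₐ[K] F ⊗[K] (F ⊗[K] F) :=
  (Algebra.TensorProduct.congr (Algebra.TensorProduct.comm K F F)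
    (AlgEquiv.refl : F ≃ₐ[K] F)).trans (Algebra.TensorProduct.assoc K K K F F F)

omit [IsAlgClosed K] in
theorem s26eg3Rearr_tmul (a b c : F) :
    s26eg3Rearr K F ((a ⊗ₜ[K] b) ⊗ₜ[K] c) = b ⊗ₜ[K] (a ⊗ₜ[K] c) := by
  simp [s26eg3Rearr]

/-- **(T0), abstract form.** -/
theorem s26eg3_T0_abs :
    ∃ (Ω : Type u) (_ : Field Ω) (_ : Algebra K Ω) (j₁ j₂ j₃ : F →ₐ[K] Ω),
      Function.Injective
        (Algebra.TensorProduct.productMap (Algebra.TensorProduct.productMap j₁ j₂) j₃) ∧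
      ∀ y : Ω, (j₂ : F →+* Ω).IsIntegralElem y → y ∈ (j₂ : F →+* Ω).range := by
  have h1 : IsDomain (F ⊗[K] F) := s26eg3d_isDomain
  have h2 : IsDomain (F ⊗[K] (F ⊗[K] F)) := s26eg3d_isDomain
  let a : F ⊗[K] (F ⊗[K] F) →ₐ[K] FractionRing (F ⊗[K] (F ⊗[K] F)) :=
    IsScalarTower.toAlgHom K _ _
  let i₂ : F →ₐ[K] F ⊗[K] (F ⊗[K] F) := Algebra.TensorProduct.includeLeft
  let i₁ : F →ₐ[K] F ⊗[K] (F ⊗[K] F) :=
    (Algebra.TensorProduct.includeRight).comp Algebra.TensorProduct.includeLeft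
  let i₃ : F →ₐ[K] F ⊗[K] (F ⊗[K] F) :=
    (Algebra.TensorProduct.includeRight).comp Algebra.TensorProduct.includeRight
  refine ⟨FractionRing (F ⊗[K] (F ⊗[K] F)), inferInstance, inferInstance,
    a.comp i₁, a.comp i₂, a.comp i₃, ?_, ?_⟩
  · have key : Algebra.TensorProduct.productMap
        (Algebra.TensorProduct.productMap (a.comp i₁) (a.comp i₂)) (a.comp i₃) =
        a.comp (s26eg3Rearr K F).toAlgHom := by
      apply Algebra.TensorProduct.ext'
      intro w c
      induction w using TensorProduct.induction_on with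
      | zero => simp
      | tmul x y =>
        rw [Algebra.TensorProduct.productMap_apply_tmul,
          Algebra.TensorProduct.productMap_apply_tmul]
        show a (i₁ x) * a (i₂ y) * a (i₃ c) = a (s26eg3Rearr K F ((x ⊗ₜ[K] y) ⊗ₜ[K] c))
        rw [s26eg3Rearr_tmul, ← map_mul, ← map_mul]
        congr 1
        simp [i₁, i₂, i₃]
      | add x y hx hy =>
        rw [TensorProduct.add_tmul, map_add, map_add, hx, hy]
    rw [key]
    exact (IsFractionRing.injective (F ⊗[K] (F ⊗[K] F)) _).comp (s26eg3Rearr K F).injective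
  · intro y hy
    have hj : ∀ c : F, (a.comp i₂) c = algebraMap F (FractionRing (F ⊗[K] (F ⊗[K] F))) c := by
      intro c
      rw [IsScalarTower.algebraMap_apply F (F ⊗[K] (F ⊗[K] F))]
      rfl
    have hy' : IsAlgebraic F y := by
      obtain ⟨p, hp, hpy⟩ := hy
      refine ⟨p, hp.ne_zero, ?_⟩
      have e : algebraMap F (FractionRing (F ⊗[K] (F ⊗[K] F))) =
          ((a.comp i₂ : F →ₐ[K] FractionRing (F ⊗[K] (F ⊗[K] F))) : F →+* _) :=
        RingHom.ext fun c => (hj c).symm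
      rw [Polynomial.aeval_def, e]
      exact hpy
    obtain ⟨c, hc⟩ := s26eg3d_algClosed_in (K := K) (F := F) (B := F ⊗[K] F) y hy'
    exact ⟨c, (hj c).trans hc⟩

end Abs

/-- **`s26e_StmtT0`** (S26/PlanE.lean). -/
theorem s26eg3_stmtT0 : s26e_StmtT0.{u} := by
  intro K _ A f G g hyp _
  have := hyp.algClosed
  exact s26eg3_T0_abs K (s26F f)

end Fermat.Agent.S26
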