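import Mathlib
import Fermat.Agent.S26.ELFW

/-!
# S26-E, piece E-LF-W (helper39), part 2: the stalks of `A` are UFDs

* `S26elfwLoc K`         : the conclusion of LF1 + LF2 + LF3 as a hypothesis: a noetherian local
                           domain `R`, formally smooth over `K`, with `R = K + 𝔪`, is a UFD;
* `s26elfw_ufd_closed`   : `O_{A,a}` is a UFD at the closed points `a` of `A`;
* `s26elfw_isLocalization_specializes` : for `z ⤳ a`, `O_{A,z}` is a localisation of `O_{A,a}`;
* `s26elfw_ufd`          : `O_{A,z}` is a UFD at every point `z`.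
-/

set_option autoImplicit false

noncomputable section

universe u

open CategoryTheory CategoryTheory.Limits AlgebraicGeometry

namespace Fermat.Agent.S26

/-- the conclusion of LF1 + LF2 + LF3 as a hypothesis -/
def S26elfwLoc (K : Type u) [Field K] : Prop :=
  ∀ (R : Type u) [CommRing R] [IsDomain R] [Algebra K R] [IsLocalRing R] [IsNoetherianRing R]
    [Algebra.FormallySmooth K R],
    (∀ r : R, ∃ c : K, r - algebraMap K R c ∈ IsLocalRing.maximalIdeal R) →
      UniqueFactorizationMonoid R

variable {K : Type u} [Field K] {A : Scheme.{u}} (f : A ⟶ Spec (CommRingCat.of K))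

/-- the stalk at a closed point is a UFD -/
theorem s26elfw_ufd_closed (hLoc : S26elfwLoc K) [IsAlgClosed K] [IsIntegral A]
    [IsLocallyNoetherian A] [Smooth f] [LocallyOfFiniteType f] (a : A)
    (ha : IsClosed ({a} : Set A)) : UniqueFactorizationMonoid (A.presheaf.stalk a) := by
  letI := s26elfwAlgebra f a
  haveI := s26elfw_formallySmooth f a
  exact hLoc (A.presheaf.stalk a) (s26elfw_hres f a ha)

/-- for `z ⤳ a` the stalk at `z` is a localisation of the stalk at `a` -/
theorem s26elfw_isLocalization_specializes {X : Scheme.{u}} {z a : X} (h : z ⤳ a) :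
    ∃ M : Submonoid (X.presheaf.stalk a),
      @IsLocalization (X.presheaf.stalk a) _ M (X.presheaf.stalk z) _
        (X.presheaf.stalkSpecializes h).hom.toAlgebra := by
  obtain ⟨V, hV, haV, -⟩ := exists_isAffineOpen_mem_and_subset (x := a) (U := ⊤) trivial
  have hzV : z ∈ V := h.mem_open V.isOpen haV
  letI := TopCat.Presheaf.algebra_section_stalk X.presheaf (⟨a, haV⟩ : V)
  letI := TopCat.Presheaf.algebra_section_stalk X.presheaf (⟨z, hzV⟩ : V)
  haveI := hV.isLocalization_stalk ⟨a, haV⟩
  haveI := hV.isLocalization_stalk ⟨z, hzV⟩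
  letI : Algebra (X.presheaf.stalk a) (X.presheaf.stalk z) :=
    (X.presheaf.stalkSpecializes h).hom.toAlgebra
  haveI : IsScalarTower Γ(X, V) (X.presheaf.stalk a) (X.presheaf.stalk z) := by
    refine IsScalarTower.of_algebraMap_eq' ?_
    ext s
    exact (congrArg (fun φ => φ.hom s)
      (TopCat.Presheaf.germ_stalkSpecializes X.presheaf h (U := V) (hy := haV))).symm
  have hle : (hV.primeIdealOf ⟨a, haV⟩).asIdeal.primeCompl ≤
      (hV.primeIdealOf ⟨z, hzV⟩).asIdeal.primeCompl := by
    have hs : hV.primeIdealOf ⟨z, hzV⟩ ⤳ hV.primeIdealOf ⟨a, haV⟩ := by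
      have h1 : (⟨z, hzV⟩ : V) ⤳ ⟨a, haV⟩ :=
        (subtype_specializes_iff (⟨z, hzV⟩ : V) ⟨a, haV⟩).mpr h
      exact h1.map hV.isoSpec.hom.continuous
    have hle' := (PrimeSpectrum.le_iff_specializes _ _).mpr hs
    intro x hx hxz
    exact hx (hle' hxz)
  exact ⟨_, IsLocalization.isLocalization_of_submonoid_le (X.presheaf.stalk a)
    (X.presheaf.stalk z) _ _ hle⟩

/-- every stalk is a UFD -/
theorem s26elfw_ufd (hLoc : S26elfwLoc K) [IsAlgClosed K] [IsIntegral A]
    [IsLocallyNoetherian A] [Smooth f] [LocallyOfFiniteType f] (z : A) :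
    UniqueFactorizationMonoid (A.presheaf.stalk z) := by
  haveI : JacobsonSpace A := LocallyOfFiniteType.jacobsonSpace f
  obtain ⟨a, haz, hac⟩ := nonempty_inter_closedPoints (Z := closure ({z} : Set A))
    ⟨z, subset_closure rfl⟩ isClosed_closure.isLocallyClosed
  have h : z ⤳ a := specializes_iff_mem_closure.mpr haz
  haveI := s26elfw_ufd_closed f hLoc a hac
  obtain ⟨M, hM⟩ := s26elfw_isLocalization_specializes h
  letI : Algebra (A.presheaf.stalk a) (A.presheaf.stalk z) :=
    (A.presheaf.stalkSpecializes h).hom.toAlgebra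
  exact UniqueFactorizationMonoid.of_isLocalization M (A.presheaf.stalk z)

end Fermat.Agent.S26
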