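import Mathlib
import Fermat.Agent.S26.ELFWUfd
import Fermat.Agent.S26.ELF1Final

/-!
# S26-E, piece E-LF-W (helper39), final: the stalks of `A` are UFDs (unconditional)

* `s26elfw_loc K : S26elfwLoc K` for an infinite field `K` (helper21's `s26elf1_ufd`);
* `s26elfw_ufd_stalk f z : UniqueFactorizationMonoid (A.presheaf.stalk z)` for every point `z` of
  an integral scheme `A`, smooth and locally of finite type over an algebraically closed field.
-/

set_option autoImplicit false

noncomputable section

universe u

open CategoryTheory CategoryTheory.Limits AlgebraicGeometry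

namespace Fermat.Agent.S26

/-- LF1 + LF2 + LF3 -/
theorem s26elfw_loc (K : Type u) [Field K] [Infinite K] : S26elfwLoc K := by
  intro R _ _ _ _ _ _ hres
  exact s26elf1_ufd (K := K) (R := R) hres

variable {K : Type u} [Field K] {A : Scheme.{u}} (f : A ⟶ Spec (CommRingCat.of K))

/-- **(LF), scheme form**: every local ring of `A` is a UFD -/
theorem s26elfw_ufd_stalk [IsAlgClosed K] [IsIntegral A] [IsLocallyNoetherian A] [Smooth f]
    [LocallyOfFiniteType f] (z : A) : UniqueFactorizationMonoid (A.presheaf.stalk z) :=
  haveI : Infinite K := IsAlgClosed.instInfinite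
  s26elfw_ufd f (s26elfw_loc K) z

end Fermat.Agent.S26
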