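/-
S26-E, Prop (LF) of `S26/PlanE.lean` (helper8): `s26e_stmtLF : s26e_StmtLF`.

For an abelian variety `A / K` (prelude form, `S26Hyp`) and an admissible open `U` (affine,
symmetric, `∋ 0`): local equations of `D = A ∖ U` exist at every point, are unique up to units, and
are units exactly at the points of `U`.

Inputs: stalks are UFDs (`s26elfw_ufd_stalk`, helper39 + helper21 + LF2 + LF3), DVRs at the prime
divisors (`s26a2_isDVR_stalk`), local equations + purity (`s26em_locData_affine`, helper8).
-/
import Fermat.Agent.S26.PlanE
import Fermat.Agent.S26.EMPure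
import Fermat.Agent.S26.ELFWFinal
import Fermat.Agent.S26.A2Dvr

set_option autoImplicit false
set_option linter.unusedSectionVars false
set_option linter.style.haveILetI false

noncomputable section

namespace Fermat.Agent.S26

open CategoryTheory CategoryTheory.Limits AlgebraicGeometry NeronModelInfra GoodReductionJacobian

universe u

/-- a scheme separated over an affine scheme is separated. -/
theorem s26elf_isSeparated {K : Type u} [Field K] {A : Scheme.{u}}
    (f : A ⟶ Spec (CommRingCat.of K)) [IsSeparated f] : A.IsSeparated :=
  ⟨by rw [← terminal.comp_from f]; infer_instance⟩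

/-- **(LF)** -/
theorem s26e_stmtLF : s26e_StmtLF.{u} := by
  intro K _ A f G g h _ _ U hU
  haveI := h.algClosed
  have hA := h.bundle
  haveI := hA.smooth
  haveI := hA.proper
  haveI : A.IsSeparated := s26elf_isSeparated f
  haveI : Nonempty U := ⟨⟨s26zero f G, hU.2.1⟩⟩
  exact s26em_locData_affine U hU.1 (fun z hz => s26a2_isDVR_stalk f z hz)
    (fun c => s26elfw_ufd_stalk f c)

end Fermat.Agent.S26

end
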