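/-
S26 (#A[n](K) = n^(2g)), Stage A, piece A3 (helper33), ABSTRACT part: the kernel of reduction
modulo a square-zero ideal of a commutative group functor with an affine chart at the unit is
uniquely `n`-divisible for `n` invertible in the base.

Setting: `K` a commutative ring, `G` a functor from `K`-algebras (in `Type u`) to commutative
groups (`G B`, `Gm g : G B →* G B'`), `C` a `K`-algebra with augmentation `ε : C →ₐ[K] K`
("the affine chart at the unit section"), `pt : (C →ₐ[K] B) → G B` natural and injective with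
`pt (ε_B) = 1`, and (`hker`) every element of the kernel of `Gm π`, `π` surjective with
square-zero kernel, is in the image of `pt`.

No tensor products, no derivations: the fibre products `B ×_{B/I} B`, `B ×_{B/I} B ×_{B/I} B`
are subalgebras of `B × B`, `B × B × B`, the only non-obvious ring homomorphism is
`s26a3Lin a b : (b₀, b₁, b₂) ↦ (b₀, b₀ + a (b₁ - b₀) + b (b₂ - b₀))`, and the group law is
identified by the Eckmann–Hilton argument.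

* `s26a3_unique_div` : for `π : B →ₐ[K] B'` surjective with square-zero kernel and `n` with
  `(n : K)` a unit: every `z` with `Gm π z = 1` has a unique `n`-th root `w` with `Gm π w = 1`.
-/
import Mathlib

set_option autoImplicit false
set_option linter.unusedSectionVars false
set_option linter.unusedVariables false

namespace Fermat.Agent.S26

universe u v

section Rings

variable {K : Type u} [CommRing K] {B : Type u} [CommRing B] [Algebra K B] (I : Ideal B)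

/-- `B ×_{B/I} B` as a subalgebra of `B × B`. -/
def s26a3R2 : Subalgebra K (B × B) where
  carrier := {p | p.2 - p.1 ∈ I}
  mul_mem' := by
    rintro ⟨a₀, a₁⟩ ⟨b₀, b₁⟩ ha hb
    have ha' : a₁ - a₀ ∈ I := ha
    have hb' : b₁ - b₀ ∈ I := hb
    show a₁ * b₁ - a₀ * b₀ ∈ I
    have e : a₁ * b₁ - a₀ * b₀ = a₁ * (b₁ - b₀) + b₀ * (a₁ - a₀) := by ring
    rw [e]
    exact I.add_mem (I.mul_mem_left _ hb') (I.mul_mem_left _ ha')
  add_mem' := by
    rintro ⟨a₀, a₁⟩ ⟨b₀, b₁⟩ ha hb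
    have ha' : a₁ - a₀ ∈ I := ha
    have hb' : b₁ - b₀ ∈ I := hb
    show a₁ + b₁ - (a₀ + b₀) ∈ I
    have e : a₁ + b₁ - (a₀ + b₀) = (a₁ - a₀) + (b₁ - b₀) := by ring
    rw [e]
    exact I.add_mem ha' hb'
  algebraMap_mem' := by
    intro r
    show algebraMap K B r - algebraMap K B r ∈ I
    rw [sub_self]
    exact I.zero_mem

/-- `B ×_{B/I} B ×_{B/I} B` as a subalgebra of `B × B × B`. -/
def s26a3R3 : Subalgebra K (B × B × B) where
  carrier := {p | p.2.1 - p.1 ∈ I ∧ p.2.2 - p.1 ∈ I}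
  mul_mem' := by
    rintro ⟨a₀, a₁, a₂⟩ ⟨b₀, b₁, b₂⟩ ⟨ha1, ha2⟩ ⟨hb1, hb2⟩
    have ha1' : a₁ - a₀ ∈ I := ha1
    have ha2' : a₂ - a₀ ∈ I := ha2
    have hb1' : b₁ - b₀ ∈ I := hb1
    have hb2' : b₂ - b₀ ∈ I := hb2
    refine ⟨?_, ?_⟩
    · show a₁ * b₁ - a₀ * b₀ ∈ I
      have e : a₁ * b₁ - a₀ * b₀ = a₁ * (b₁ - b₀) + b₀ * (a₁ - a₀) := by ring
      rw [e]
      exact I.add_mem (I.mul_mem_left _ hb1') (I.mul_mem_left _ ha1')
    · show a₂ * b₂ - a₀ * b₀ ∈ I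
      have e : a₂ * b₂ - a₀ * b₀ = a₂ * (b₂ - b₀) + b₀ * (a₂ - a₀) := by ring
      rw [e]
      exact I.add_mem (I.mul_mem_left _ hb2') (I.mul_mem_left _ ha2')
  add_mem' := by
    rintro ⟨a₀, a₁, a₂⟩ ⟨b₀, b₁, b₂⟩ ⟨ha1, ha2⟩ ⟨hb1, hb2⟩
    have ha1' : a₁ - a₀ ∈ I := ha1
    have ha2' : a₂ - a₀ ∈ I := ha2
    have hb1' : b₁ - b₀ ∈ I := hb1
    have hb2' : b₂ - b₀ ∈ I := hb2
    refine ⟨?_, ?_⟩
    · show a₁ + b₁ - (a₀ + b₀) ∈ I
      have e : a₁ + b₁ - (a₀ + b₀) = (a₁ - a₀) + (b₁ - b₀) := by ring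
      rw [e]
      exact I.add_mem ha1' hb1'
    · show a₂ + b₂ - (a₀ + b₀) ∈ I
      have e : a₂ + b₂ - (a₀ + b₀) = (a₂ - a₀) + (b₂ - b₀) := by ring
      rw [e]
      exact I.add_mem ha2' hb2'
  algebraMap_mem' := by
    intro r
    refine ⟨?_, ?_⟩
    · show algebraMap K B r - algebraMap K B r ∈ I
      rw [sub_self]
      exact I.zero_mem
    · show algebraMap K B r - algebraMap K B r ∈ I
      rw [sub_self]
      exact I.zero_mem

theorem s26a3_mem_R2 {p : B × B} : p ∈ s26a3R2 (K := K) I ↔ p.2 - p.1 ∈ I := Iff.rfl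

theorem s26a3_mem_R3 {p : B × B × B} :
    p ∈ s26a3R3 (K := K) I ↔ p.2.1 - p.1 ∈ I ∧ p.2.2 - p.1 ∈ I := Iff.rfl

/-- `B ×_{B/I} B` as a type with its own instances (so that instance terms match syntactically) -/
def S26a3T2 (K : Type u) [CommRing K] {B : Type u} [CommRing B] [Algebra K B] (I : Ideal B) :
    Type u := ↥(s26a3R2 (K := K) I)

/-- `B ×_{B/I} B ×_{B/I} B` as a type with its own instances -/
def S26a3T3 (K : Type u) [CommRing K] {B : Type u} [CommRing B] [Algebra K B] (I : Ideal B) :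
    Type u := ↥(s26a3R3 (K := K) I)

instance s26a3T2CommRing : CommRing (S26a3T2 K I) :=
  inferInstanceAs (CommRing ↥(s26a3R2 (K := K) I))

instance s26a3T3CommRing : CommRing (S26a3T3 K I) :=
  inferInstanceAs (CommRing ↥(s26a3R3 (K := K) I))

instance s26a3T2Algebra : Algebra K (S26a3T2 K I) :=
  inferInstanceAs (Algebra K ↥(s26a3R2 (K := K) I))

instance s26a3T3Algebra : Algebra K (S26a3T3 K I) :=
  inferInstanceAs (Algebra K ↥(s26a3R3 (K := K) I))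

/-- the base projection `B ×_{B/I} B → B` -/
def s26a3B2 : S26a3T2 K I →ₐ[K] B :=
  (AlgHom.fst K B B).comp (s26a3R2 (K := K) I).val

/-- the value projection `B ×_{B/I} B → B` -/
def s26a3V2 : S26a3T2 K I →ₐ[K] B :=
  (AlgHom.snd K B B).comp (s26a3R2 (K := K) I).val

/-- the base projection of the triple fibre product -/
def s26a3B3 : S26a3T3 K I →ₐ[K] B :=
  (AlgHom.fst K B (B × B)).comp (s26a3R3 (K := K) I).val

def s26a3V31 : S26a3T3 K I →ₐ[K] B :=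
  ((AlgHom.fst K B B).comp (AlgHom.snd K B (B × B))).comp (s26a3R3 (K := K) I).val

def s26a3V32 : S26a3T3 K I →ₐ[K] B :=
  ((AlgHom.snd K B B).comp (AlgHom.snd K B (B × B))).comp (s26a3R3 (K := K) I).val

@[simp] theorem s26a3B2_apply (x : S26a3T2 K I) : s26a3B2 I x = x.1.1 := rfl
@[simp] theorem s26a3V2_apply (x : S26a3T2 K I) : s26a3V2 I x = x.1.2 := rfl
@[simp] theorem s26a3B3_apply (x : S26a3T3 K I) : s26a3B3 I x = x.1.1 := rfl
@[simp] theorem s26a3V31_apply (x : S26a3T3 K I) : s26a3V31 I x = x.1.2.1 := rfl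
@[simp] theorem s26a3V32_apply (x : S26a3T3 K I) : s26a3V32 I x = x.1.2.2 := rfl

variable {X : Type u} [CommRing X] [Algebra K X]

/-- a homomorphism into `B ×_{B/I} B` from its components -/
def s26a3Mk2 (f₀ f₁ : X →ₐ[K] B) (h : ∀ x, f₁ x - f₀ x ∈ I) : X →ₐ[K] S26a3T2 K I :=
  (AlgHom.prod f₀ f₁).codRestrict (s26a3R2 (K := K) I) h

/-- a homomorphism into the triple fibre product from its components -/
def s26a3Mk3 (f₀ f₁ f₂ : X →ₐ[K] B) (h₁ : ∀ x, f₁ x - f₀ x ∈ I) (h₂ : ∀ x, f₂ x - f₀ x ∈ I) :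
    X →ₐ[K] S26a3T3 K I :=
  (AlgHom.prod f₀ (AlgHom.prod f₁ f₂)).codRestrict (s26a3R3 (K := K) I) (fun x => ⟨h₁ x, h₂ x⟩)

@[simp] theorem s26a3Mk2_fst (f₀ f₁ : X →ₐ[K] B) (h : ∀ x, f₁ x - f₀ x ∈ I) (x : X) :
    (s26a3Mk2 I f₀ f₁ h x).1.1 = f₀ x := rfl
@[simp] theorem s26a3Mk2_snd (f₀ f₁ : X →ₐ[K] B) (h : ∀ x, f₁ x - f₀ x ∈ I) (x : X) :
    (s26a3Mk2 I f₀ f₁ h x).1.2 = f₁ x := rfl
@[simp] theorem s26a3Mk3_fst (f₀ f₁ f₂ : X →ₐ[K] B) (h₁ : ∀ x, f₁ x - f₀ x ∈ I)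
    (h₂ : ∀ x, f₂ x - f₀ x ∈ I) (x : X) : (s26a3Mk3 I f₀ f₁ f₂ h₁ h₂ x).1.1 = f₀ x := rfl
@[simp] theorem s26a3Mk3_snd1 (f₀ f₁ f₂ : X →ₐ[K] B) (h₁ : ∀ x, f₁ x - f₀ x ∈ I)
    (h₂ : ∀ x, f₂ x - f₀ x ∈ I) (x : X) : (s26a3Mk3 I f₀ f₁ f₂ h₁ h₂ x).1.2.1 = f₁ x := rfl
@[simp] theorem s26a3Mk3_snd2 (f₀ f₁ f₂ : X →ₐ[K] B) (h₁ : ∀ x, f₁ x - f₀ x ∈ I)
    (h₂ : ∀ x, f₂ x - f₀ x ∈ I) (x : X) : (s26a3Mk3 I f₀ f₁ f₂ h₁ h₂ x).1.2.2 = f₂ x := rfl

/-- the diagonal -/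
def s26a3D2 : B →ₐ[K] S26a3T2 K I :=
  s26a3Mk2 I (AlgHom.id K B) (AlgHom.id K B) (fun x => by
    show x - x ∈ I
    rw [sub_self]; exact I.zero_mem)

def s26a3Q1 : S26a3T3 K I →ₐ[K] S26a3T2 K I :=
  s26a3Mk2 I (s26a3B3 I) (s26a3V31 I) (fun x => x.2.1)

def s26a3Q2 : S26a3T3 K I →ₐ[K] S26a3T2 K I :=
  s26a3Mk2 I (s26a3B3 I) (s26a3V32 I) (fun x => x.2.2)

def s26a3I1 : S26a3T2 K I →ₐ[K] S26a3T3 K I :=
  s26a3Mk3 I (s26a3B2 I) (s26a3V2 I) (s26a3B2 I) (fun x => x.2) (fun x => by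
    show x.1.1 - x.1.1 ∈ I
    rw [sub_self]; exact I.zero_mem)

def s26a3I2 : S26a3T2 K I →ₐ[K] S26a3T3 K I :=
  s26a3Mk3 I (s26a3B2 I) (s26a3B2 I) (s26a3V2 I) (fun x => by
    show x.1.1 - x.1.1 ∈ I
    rw [sub_self]; exact I.zero_mem) (fun x => x.2)

def s26a3Dup : S26a3T2 K I →ₐ[K] S26a3T3 K I :=
  s26a3Mk3 I (s26a3B2 I) (s26a3V2 I) (s26a3V2 I) (fun x => x.2) (fun x => x.2)

variable {I}

theorem s26a3_ext2 {x y : S26a3T2 K I} (h₀ : x.1.1 = y.1.1) (h₁ : x.1.2 = y.1.2) :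
    x = y := Subtype.ext (Prod.ext h₀ h₁)

theorem s26a3_ext3 {x y : S26a3T3 K I} (h₀ : x.1.1 = y.1.1) (h₁ : x.1.2.1 = y.1.2.1)
    (h₂ : x.1.2.2 = y.1.2.2) : x = y := Subtype.ext (Prod.ext h₀ (Prod.ext h₁ h₂))

theorem s26a3_mem2 (x : S26a3T2 K I) : x.1.2 - x.1.1 ∈ I := x.2
theorem s26a3_mem31 (x : S26a3T3 K I) : x.1.2.1 - x.1.1 ∈ I := x.2.1
theorem s26a3_mem32 (x : S26a3T3 K I) : x.1.2.2 - x.1.1 ∈ I := x.2.2

/-- **the linear combination** `(b₀, b₁, b₂) ↦ (b₀, b₀ + a (b₁ - b₀) + b (b₂ - b₀))`, a ring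
homomorphism because `I² = 0`. -/
def s26a3Lin (hI : ∀ x ∈ I, ∀ y ∈ I, x * y = 0) (a b : K) :
    S26a3T3 K I →ₐ[K] S26a3T2 K I where
  toFun x := ⟨(x.1.1, x.1.1 + a • (x.1.2.1 - x.1.1) + b • (x.1.2.2 - x.1.1)), by
    show x.1.1 + a • (x.1.2.1 - x.1.1) + b • (x.1.2.2 - x.1.1) - x.1.1 ∈ I
    have e : x.1.1 + a • (x.1.2.1 - x.1.1) + b • (x.1.2.2 - x.1.1) - x.1.1 =
        a • (x.1.2.1 - x.1.1) + b • (x.1.2.2 - x.1.1) := by ring
    rw [e, Algebra.smul_def, Algebra.smul_def]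
    exact I.add_mem (I.mul_mem_left _ x.2.1) (I.mul_mem_left _ x.2.2)⟩
  map_one' := by
    apply s26a3_ext2
    · rfl
    · show (1 : B) + a • ((1 : B) - 1) + b • ((1 : B) - 1) = 1
      rw [sub_self, smul_zero, smul_zero, add_zero, add_zero]
  map_mul' := by
    intro x y
    apply s26a3_ext2
    · rfl
    · show x.1.1 * y.1.1 + a • (x.1.2.1 * y.1.2.1 - x.1.1 * y.1.1) +
          b • (x.1.2.2 * y.1.2.2 - x.1.1 * y.1.1) =
        (x.1.1 + a • (x.1.2.1 - x.1.1) + b • (x.1.2.2 - x.1.1)) *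
          (y.1.1 + a • (y.1.2.1 - y.1.1) + b • (y.1.2.2 - y.1.1))
      have h11 := hI _ x.2.1 _ y.2.1
      have h12 := hI _ x.2.1 _ y.2.2
      have h21 := hI _ x.2.2 _ y.2.1
      have h22 := hI _ x.2.2 _ y.2.2
      simp only [Algebra.smul_def]
      linear_combination (algebraMap K B a - algebraMap K B a ^ 2) * h11 -
        (algebraMap K B a * algebraMap K B b) * h12 -
        (algebraMap K B a * algebraMap K B b) * h21 +
        (algebraMap K B b - algebraMap K B b ^ 2) * h22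
  map_zero' := by
    apply s26a3_ext2
    · rfl
    · show (0 : B) + a • ((0 : B) - 0) + b • ((0 : B) - 0) = 0
      rw [sub_self, smul_zero, smul_zero, add_zero, add_zero]
  map_add' := by
    intro x y
    apply s26a3_ext2
    · rfl
    · show x.1.1 + y.1.1 + a • (x.1.2.1 + y.1.2.1 - (x.1.1 + y.1.1)) +
          b • (x.1.2.2 + y.1.2.2 - (x.1.1 + y.1.1)) =
        (x.1.1 + a • (x.1.2.1 - x.1.1) + b • (x.1.2.2 - x.1.1)) +
          (y.1.1 + a • (y.1.2.1 - y.1.1) + b • (y.1.2.2 - y.1.1))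
      simp only [Algebra.smul_def]
      ring
  commutes' := by
    intro r
    apply s26a3_ext2
    · rfl
    · show algebraMap K B r + a • (algebraMap K B r - algebraMap K B r) +
          b • (algebraMap K B r - algebraMap K B r) = algebraMap K B r
      rw [sub_self, smul_zero, smul_zero, add_zero, add_zero]

@[simp] theorem s26a3Lin_fst (hI : ∀ x ∈ I, ∀ y ∈ I, x * y = 0) (a b : K)
    (x : S26a3T3 K I) : (s26a3Lin hI a b x).1.1 = x.1.1 := rfl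

@[simp] theorem s26a3Lin_snd (hI : ∀ x ∈ I, ∀ y ∈ I, x * y = 0) (a b : K)
    (x : S26a3T3 K I) :
    (s26a3Lin hI a b x).1.2 = x.1.1 + a • (x.1.2.1 - x.1.1) + b • (x.1.2.2 - x.1.1) := rfl

/-- the scaling `(b₀, b₁) ↦ (b₀, b₀ + a (b₁ - b₀))` -/
def s26a3Sc (hI : ∀ x ∈ I, ∀ y ∈ I, x * y = 0) (a : K) :
    S26a3T2 K I →ₐ[K] S26a3T2 K I :=
  (s26a3Lin hI a 0).comp (s26a3I1 I)

@[simp] theorem s26a3Sc_fst (hI : ∀ x ∈ I, ∀ y ∈ I, x * y = 0) (a : K)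
    (x : S26a3T2 K I) : (s26a3Sc hI a x).1.1 = x.1.1 := rfl

theorem s26a3Sc_snd (hI : ∀ x ∈ I, ∀ y ∈ I, x * y = 0) (a : K)
    (x : S26a3T2 K I) : (s26a3Sc hI a x).1.2 = x.1.1 + a • (x.1.2 - x.1.1) := by
  show x.1.1 + a • (x.1.2 - x.1.1) + (0 : K) • (x.1.1 - x.1.1) = _
  rw [zero_smul, add_zero]

theorem s26a3_lin_i1 (hI : ∀ x ∈ I, ∀ y ∈ I, x * y = 0) (a b : K) :
    (s26a3Lin hI a b).comp (s26a3I1 I) = s26a3Sc hI a := by
  refine AlgHom.ext fun x => s26a3_ext2 rfl ?_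
  rw [s26a3Sc_snd]
  show x.1.1 + a • (x.1.2 - x.1.1) + b • (x.1.1 - x.1.1) = _
  rw [sub_self, smul_zero, add_zero]

theorem s26a3_lin_i2 (hI : ∀ x ∈ I, ∀ y ∈ I, x * y = 0) (a b : K) :
    (s26a3Lin hI a b).comp (s26a3I2 I) = s26a3Sc hI b := by
  refine AlgHom.ext fun x => s26a3_ext2 rfl ?_
  rw [s26a3Sc_snd]
  show x.1.1 + a • (x.1.1 - x.1.1) + b • (x.1.2 - x.1.1) = _
  rw [sub_self, smul_zero, add_zero]

theorem s26a3_lin_dup (hI : ∀ x ∈ I, ∀ y ∈ I, x * y = 0) (a b : K) :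
    (s26a3Lin hI a b).comp (s26a3Dup I) = s26a3Sc hI (a + b) := by
  refine AlgHom.ext fun x => s26a3_ext2 rfl ?_
  rw [s26a3Sc_snd]
  show x.1.1 + a • (x.1.2 - x.1.1) + b • (x.1.2 - x.1.1) = _
  rw [add_smul]
  ring

theorem s26a3_sc_one (hI : ∀ x ∈ I, ∀ y ∈ I, x * y = 0) :
    s26a3Sc (K := K) hI 1 = AlgHom.id K _ := by
  refine AlgHom.ext fun x => s26a3_ext2 rfl ?_
  rw [s26a3Sc_snd, one_smul]
  show _ = x.1.2
  ring

theorem s26a3_sc_zero (hI : ∀ x ∈ I, ∀ y ∈ I, x * y = 0) :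
    s26a3Sc (K := K) hI 0 = (s26a3D2 I).comp (s26a3B2 I) := by
  refine AlgHom.ext fun x => s26a3_ext2 rfl ?_
  rw [s26a3Sc_snd, zero_smul, add_zero]
  rfl

theorem s26a3_sc_sc (hI : ∀ x ∈ I, ∀ y ∈ I, x * y = 0) (a b : K) :
    (s26a3Sc hI a).comp (s26a3Sc hI b) = s26a3Sc hI (a * b) := by
  refine AlgHom.ext fun x => s26a3_ext2 rfl ?_
  show (s26a3Sc hI a (s26a3Sc hI b x)).1.2 = _
  rw [s26a3Sc_snd, s26a3Sc_snd, s26a3Sc_snd, s26a3Sc_fst, mul_smul]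
  congr 1
  congr 1
  ring

theorem s26a3_b2_sc (hI : ∀ x ∈ I, ∀ y ∈ I, x * y = 0) (a : K) :
    (s26a3B2 I).comp (s26a3Sc hI a) = s26a3B2 I := rfl

variable (I)

theorem s26a3_q1_i1 : (s26a3Q1 (K := K) I).comp (s26a3I1 I) = AlgHom.id K _ :=
  AlgHom.ext fun x => s26a3_ext2 rfl rfl

theorem s26a3_q2_i2 : (s26a3Q2 (K := K) I).comp (s26a3I2 I) = AlgHom.id K _ :=
  AlgHom.ext fun x => s26a3_ext2 rfl rfl

theorem s26a3_q1_i2 : (s26a3Q1 (K := K) I).comp (s26a3I2 I) = (s26a3D2 I).comp (s26a3B2 I) :=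
  AlgHom.ext fun x => s26a3_ext2 rfl rfl

theorem s26a3_q2_i1 : (s26a3Q2 (K := K) I).comp (s26a3I1 I) = (s26a3D2 I).comp (s26a3B2 I) :=
  AlgHom.ext fun x => s26a3_ext2 rfl rfl

theorem s26a3_q1_dup : (s26a3Q1 (K := K) I).comp (s26a3Dup I) = AlgHom.id K _ :=
  AlgHom.ext fun x => s26a3_ext2 rfl rfl

theorem s26a3_q2_dup : (s26a3Q2 (K := K) I).comp (s26a3Dup I) = AlgHom.id K _ :=
  AlgHom.ext fun x => s26a3_ext2 rfl rfl

theorem s26a3_b3_i1 : (s26a3B3 (K := K) I).comp (s26a3I1 I) = s26a3B2 I := rfl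
theorem s26a3_b3_i2 : (s26a3B3 (K := K) I).comp (s26a3I2 I) = s26a3B2 I := rfl
theorem s26a3_b3_dup : (s26a3B3 (K := K) I).comp (s26a3Dup I) = s26a3B2 I := rfl
theorem s26a3_b2_d2 : (s26a3B2 (K := K) I).comp (s26a3D2 I) = AlgHom.id K _ := rfl
theorem s26a3_v2_d2 : (s26a3V2 (K := K) I).comp (s26a3D2 I) = AlgHom.id K _ := rfl

theorem s26a3_b2_surjective : Function.Surjective (s26a3B2 (K := K) I) :=
  fun b => ⟨s26a3D2 I b, rfl⟩

theorem s26a3_b3_surjective : Function.Surjective (s26a3B3 (K := K) I) :=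
  fun b => ⟨s26a3I1 I (s26a3D2 I b), rfl⟩

variable {I}

theorem s26a3_b2_ker_sq (hI : ∀ x ∈ I, ∀ y ∈ I, x * y = 0) :
    ∀ x ∈ RingHom.ker (s26a3B2 (K := K) I), ∀ y ∈ RingHom.ker (s26a3B2 (K := K) I),
      x * y = 0 := by
  intro x hx y hy
  rw [RingHom.mem_ker] at hx hy
  have hx0 : x.1.1 = 0 := hx
  have hy0 : y.1.1 = 0 := hy
  have hx1 : x.1.2 ∈ I := by
    have := x.2
    have h : x.1.2 - x.1.1 ∈ I := this
    rwa [hx0, sub_zero] at h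
  have hy1 : y.1.2 ∈ I := by
    have := y.2
    have h : y.1.2 - y.1.1 ∈ I := this
    rwa [hy0, sub_zero] at h
  apply s26a3_ext2
  · show x.1.1 * y.1.1 = 0
    rw [hx0, zero_mul]
  · show x.1.2 * y.1.2 = 0
    exact hI _ hx1 _ hy1

theorem s26a3_b3_ker_sq (hI : ∀ x ∈ I, ∀ y ∈ I, x * y = 0) :
    ∀ x ∈ RingHom.ker (s26a3B3 (K := K) I), ∀ y ∈ RingHom.ker (s26a3B3 (K := K) I),
      x * y = 0 := by
  intro x hx y hy
  rw [RingHom.mem_ker] at hx hy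
  have hx0 : x.1.1 = 0 := hx
  have hy0 : y.1.1 = 0 := hy
  have hx1 : x.1.2.1 ∈ I := by
    have h : x.1.2.1 - x.1.1 ∈ I := x.2.1
    rwa [hx0, sub_zero] at h
  have hy1 : y.1.2.1 ∈ I := by
    have h : y.1.2.1 - y.1.1 ∈ I := y.2.1
    rwa [hy0, sub_zero] at h
  have hx2 : x.1.2.2 ∈ I := by
    have h : x.1.2.2 - x.1.1 ∈ I := x.2.2
    rwa [hx0, sub_zero] at h
  have hy2 : y.1.2.2 ∈ I := by
    have h : y.1.2.2 - y.1.1 ∈ I := y.2.2
    rwa [hy0, sub_zero] at h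
  apply s26a3_ext3
  · show x.1.1 * y.1.1 = 0
    rw [hx0, zero_mul]
  · show x.1.2.1 * y.1.2.1 = 0
    exact hI _ hx1 _ hy1
  · show x.1.2.2 * y.1.2.2 = 0
    exact hI _ hx2 _ hy2

/-- a homomorphism into the triple fibre product is determined by its two projections -/
theorem s26a3_hom_ext3 {ψ ψ' : X →ₐ[K] S26a3T3 K I}
    (h₁ : (s26a3Q1 I).comp ψ = (s26a3Q1 I).comp ψ')
    (h₂ : (s26a3Q2 I).comp ψ = (s26a3Q2 I).comp ψ') : ψ = ψ' := by
  refine AlgHom.ext fun x => ?_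
  have e1 := congrArg (fun g : X →ₐ[K] S26a3T2 K I => g x) h₁
  have e2 := congrArg (fun g : X →ₐ[K] S26a3T2 K I => g x) h₂
  have e10 : (ψ x).1.1 = (ψ' x).1.1 := congrArg (fun y : S26a3T2 K I => y.1.1) e1
  have e11 : (ψ x).1.2.1 = (ψ' x).1.2.1 := congrArg (fun y : S26a3T2 K I => y.1.2) e1
  have e22 : (ψ x).1.2.2 = (ψ' x).1.2.2 := congrArg (fun y : S26a3T2 K I => y.1.2) e2
  exact s26a3_ext3 e10 e11 e22

/-- a homomorphism into the fibre product is determined by its two projections -/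
theorem s26a3_hom_ext2 {ψ ψ' : X →ₐ[K] S26a3T2 K I}
    (h₁ : (s26a3B2 I).comp ψ = (s26a3B2 I).comp ψ')
    (h₂ : (s26a3V2 I).comp ψ = (s26a3V2 I).comp ψ') : ψ = ψ' := by
  refine AlgHom.ext fun x => ?_
  have e1 := congrArg (fun g : X →ₐ[K] B => g x) h₁
  have e2 := congrArg (fun g : X →ₐ[K] B => g x) h₂
  exact s26a3_ext2 e1 e2

end Rings

section Functor

variable {K : Type u} [CommRing K]
  {G : ∀ (B : Type u) [CommRing B] [Algebra K B], Type v}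
  [grp : ∀ (B : Type u) [CommRing B] [Algebra K B], CommGroup (G B)]
  (Gm : ∀ {B B' : Type u} [CommRing B] [CommRing B'] [Algebra K B] [Algebra K B'],
    (B →ₐ[K] B') → (G B →* G B'))
  (Gm_comp : ∀ {B B' B'' : Type u} [CommRing B] [CommRing B'] [CommRing B'']
    [Algebra K B] [Algebra K B'] [Algebra K B'']
    (g : B →ₐ[K] B') (g' : B' →ₐ[K] B'') (x : G B), Gm g' (Gm g x) = Gm (g'.comp g) x)
  (Gm_id : ∀ {B : Type u} [CommRing B] [Algebra K B] (x : G B), Gm (AlgHom.id K B) x = x)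
  {C : Type u} [CommRing C] [Algebra K C] (ε : C →ₐ[K] K)
  (pt : ∀ {B : Type u} [CommRing B] [Algebra K B], (C →ₐ[K] B) → G B)
  (pt_inj : ∀ {B : Type u} [CommRing B] [Algebra K B] (ψ ψ' : C →ₐ[K] B),
    pt ψ = pt ψ' → ψ = ψ')
  (pt_nat : ∀ {B B' : Type u} [CommRing B] [CommRing B'] [Algebra K B] [Algebra K B']
    (g : B →ₐ[K] B') (ψ : C →ₐ[K] B), Gm g (pt ψ) = pt (g.comp ψ))
  (pt_one : ∀ {B : Type u} [CommRing B] [Algebra K B],
    pt ((Algebra.ofId K B).comp ε) = (1 : G B))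
  (hker : ∀ {B B' : Type u} [CommRing B] [CommRing B'] [Algebra K B] [Algebra K B']
    (π : B →ₐ[K] B'), Function.Surjective π →
    (∀ x ∈ RingHom.ker π, ∀ y ∈ RingHom.ker π, x * y = 0) →
    ∀ x : G B, Gm π x = 1 → ∃ ψ : C →ₐ[K] B, pt ψ = x)

include Gm_comp Gm_id pt_inj pt_nat hker in
/-- **Eckmann–Hilton**: on the kernel of the base projection the scalings add up to the group
law. -/
theorem s26a3_eh {B : Type u} [CommRing B] [Algebra K B] {I : Ideal B}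
    (hI : ∀ x ∈ I, ∀ y ∈ I, x * y = 0) (x : G (S26a3T2 K I))
    (hx : Gm (s26a3B2 I) x = 1) (a b : K) :
    Gm (s26a3Sc hI (a + b)) x = Gm (s26a3Sc hI a) x * Gm (s26a3Sc hI b) x := by
  have hD : Gm ((s26a3D2 I).comp (s26a3B2 I)) x = 1 := by
    rw [← Gm_comp, hx, map_one]
  have hQ1u : Gm (s26a3Q1 I) (Gm (s26a3I1 I) x * Gm (s26a3I2 I) x) = x := by
    rw [map_mul, Gm_comp, Gm_comp, s26a3_q1_i1, s26a3_q1_i2, Gm_id, hD, mul_one]
  have hQ2u : Gm (s26a3Q2 I) (Gm (s26a3I1 I) x * Gm (s26a3I2 I) x) = x := by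
    rw [map_mul, Gm_comp, Gm_comp, s26a3_q2_i1, s26a3_q2_i2, Gm_id, hD, one_mul]
  have hQ1v : Gm (s26a3Q1 I) (Gm (s26a3Dup I) x) = x := by
    rw [Gm_comp, s26a3_q1_dup, Gm_id]
  have hQ2v : Gm (s26a3Q2 I) (Gm (s26a3Dup I) x) = x := by
    rw [Gm_comp, s26a3_q2_dup, Gm_id]
  have hB3u : Gm (s26a3B3 I) (Gm (s26a3I1 I) x * Gm (s26a3I2 I) x) = 1 := by
    rw [map_mul, Gm_comp, Gm_comp, s26a3_b3_i1, s26a3_b3_i2, hx, mul_one]
  have hB3v : Gm (s26a3B3 I) (Gm (s26a3Dup I) x) = 1 := by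
    rw [Gm_comp, s26a3_b3_dup, hx]
  obtain ⟨ψu, hψu⟩ := hker (s26a3B3 I) (s26a3_b3_surjective I) (s26a3_b3_ker_sq hI) _ hB3u
  obtain ⟨ψv, hψv⟩ := hker (s26a3B3 I) (s26a3_b3_surjective I) (s26a3_b3_ker_sq hI) _ hB3v
  have hψ : ψu = ψv := by
    apply s26a3_hom_ext3
    · apply pt_inj
      rw [← pt_nat, ← pt_nat, hψu, hψv, hQ1u, hQ1v]
    · apply pt_inj
      rw [← pt_nat, ← pt_nat, hψu, hψv, hQ2u, hQ2v]
  have huv : Gm (s26a3I1 I) x * Gm (s26a3I2 I) x = Gm (s26a3Dup I) x := by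
    rw [← hψu, ← hψv, hψ]
  have e1 : Gm (s26a3Lin hI a b) (Gm (s26a3I1 I) x) = Gm (s26a3Sc hI a) x :=
    (Gm_comp (s26a3I1 I) (s26a3Lin hI a b) x).trans
      (congrArg (fun g => Gm g x) (s26a3_lin_i1 hI a b))
  have e2 : Gm (s26a3Lin hI a b) (Gm (s26a3I2 I) x) = Gm (s26a3Sc hI b) x :=
    (Gm_comp (s26a3I2 I) (s26a3Lin hI a b) x).trans
      (congrArg (fun g => Gm g x) (s26a3_lin_i2 hI a b))
  have e3 : Gm (s26a3Lin hI a b) (Gm (s26a3Dup I) x) = Gm (s26a3Sc hI (a + b)) x :=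
    (Gm_comp (s26a3Dup I) (s26a3Lin hI a b) x).trans
      (congrArg (fun g => Gm g x) (s26a3_lin_dup hI a b))
  have h := congrArg (Gm (s26a3Lin hI a b)) huv
  rw [(Gm (s26a3Lin hI a b)).map_mul, e1, e2, e3] at h
  exact h.symm

include Gm_comp Gm_id pt_inj pt_nat hker in
/-- the scaling by `n` is the `n`-th power -/
theorem s26a3_sc_pow {B : Type u} [CommRing B] [Algebra K B] {I : Ideal B}
    (hI : ∀ x ∈ I, ∀ y ∈ I, x * y = 0) (x : G (S26a3T2 K I))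
    (hx : Gm (s26a3B2 I) x = 1) (n : ℕ) :
    Gm (s26a3Sc hI (n : K)) x = x ^ n := by
  induction n with
  | zero =>
    rw [Nat.cast_zero, s26a3_sc_zero, ← Gm_comp, hx, map_one, pow_zero]
  | succ n ih =>
    rw [Nat.cast_succ, s26a3_eh Gm Gm_comp Gm_id pt pt_inj pt_nat hker hI x hx, ih,
      s26a3_sc_one, Gm_id, pow_succ]

include Gm_comp Gm_id pt_inj pt_nat hker in
/-- unique divisibility of the kernel of the base projection of `B ×_{B/I} B` -/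
theorem s26a3_unique_div2 {B : Type u} [CommRing B] [Algebra K B] {I : Ideal B}
    (hI : ∀ x ∈ I, ∀ y ∈ I, x * y = 0) (n : ℕ) (m : K) (hnm : (n : K) * m = 1)
    (z : G (S26a3T2 K I)) (hz : Gm (s26a3B2 I) z = 1) :
    ∃ w : G (S26a3T2 K I), (Gm (s26a3B2 I) w = 1 ∧ w ^ n = z) ∧
      ∀ w' : G (S26a3T2 K I), Gm (s26a3B2 I) w' = 1 → w' ^ n = z → w' = w := by
  have hw : Gm (s26a3B2 I) (Gm (s26a3Sc hI m) z) = 1 := by
    rw [Gm_comp, s26a3_b2_sc, hz]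
  refine ⟨Gm (s26a3Sc hI m) z, ⟨hw, ?_⟩, ?_⟩
  · rw [← s26a3_sc_pow Gm Gm_comp Gm_id pt pt_inj pt_nat hker hI _ hw, Gm_comp, s26a3_sc_sc,
      hnm, s26a3_sc_one, Gm_id]
  · intro w' hw' hw'z
    rw [← hw'z, ← s26a3_sc_pow Gm Gm_comp Gm_id pt pt_inj pt_nat hker hI _ hw', Gm_comp,
      s26a3_sc_sc, mul_comm, hnm, s26a3_sc_one, Gm_id]

include Gm_comp Gm_id pt_inj pt_nat pt_one hker in
/-- **Unique divisibility of the kernel of reduction** modulo a square-zero ideal. -/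
theorem s26a3_unique_div {B B' : Type u} [CommRing B] [CommRing B'] [Algebra K B]
    [Algebra K B'] (π : B →ₐ[K] B') (hπ : Function.Surjective π)
    (hI : ∀ x ∈ RingHom.ker π, ∀ y ∈ RingHom.ker π, x * y = 0)
    (n : ℕ) (m : K) (hnm : (n : K) * m = 1) (z : G B) (hz : Gm π z = 1) :
    ∃ w : G B, (Gm π w = 1 ∧ w ^ n = z) ∧
      ∀ w' : G B, Gm π w' = 1 → w' ^ n = z → w' = w := by
  -- (a) `ν` maps the kernel into the kernel
  have hπV : π.comp (s26a3V2 (RingHom.ker π)) = π.comp (s26a3B2 (RingHom.ker π)) := by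
    refine AlgHom.ext fun x => ?_
    have h := x.2
    have h' : x.1.2 - x.1.1 ∈ RingHom.ker π := h
    rw [RingHom.mem_ker, map_sub, sub_eq_zero] at h'
    exact h'
  have ha : ∀ x : G (S26a3T2 K (RingHom.ker π)),
      Gm (s26a3B2 (RingHom.ker π)) x = 1 → Gm π (Gm (s26a3V2 (RingHom.ker π)) x) = 1 := by
    intro x hx
    rw [Gm_comp, hπV, ← Gm_comp, hx, map_one]
  -- the unit section over `B'` is the reduction of the unit section over `B`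
  have hε : (Algebra.ofId K B').comp ε = π.comp ((Algebra.ofId K B).comp ε) := by
    refine AlgHom.ext fun c => ?_
    show algebraMap K B' (ε c) = π (algebraMap K B (ε c))
    rw [π.commutes]
  -- (b) `ν` is surjective on kernels
  have hb : ∀ z : G B, Gm π z = 1 → ∃ x : G (S26a3T2 K (RingHom.ker π)),
      Gm (s26a3B2 (RingHom.ker π)) x = 1 ∧ Gm (s26a3V2 (RingHom.ker π)) x = z := by
    intro z hz
    obtain ⟨ψz, hψz⟩ := hker π hπ hI z hz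
    have h1 : π.comp ψz = π.comp ((Algebra.ofId K B).comp ε) := by
      apply pt_inj
      rw [← pt_nat, hψz, hz, ← hε, pt_one]
    have h2 : ∀ c, ψz c - ((Algebra.ofId K B).comp ε) c ∈ RingHom.ker π := by
      intro c
      rw [RingHom.mem_ker, map_sub, sub_eq_zero]
      exact congrArg (fun g : C →ₐ[K] B' => g c) h1
    refine ⟨pt (s26a3Mk2 (RingHom.ker π) ((Algebra.ofId K B).comp ε) ψz h2), ?_, ?_⟩
    · rw [pt_nat]
      exact pt_one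
    · rw [pt_nat]
      exact hψz
  -- (c) `ν` is injective on kernels
  have hc : ∀ x x' : G (S26a3T2 K (RingHom.ker π)),
      Gm (s26a3B2 (RingHom.ker π)) x = 1 → Gm (s26a3B2 (RingHom.ker π)) x' = 1 →
      Gm (s26a3V2 (RingHom.ker π)) x = Gm (s26a3V2 (RingHom.ker π)) x' → x = x' := by
    intro x x' hx hx' hxx'
    obtain ⟨ψ, hψ⟩ := hker (s26a3B2 (RingHom.ker π)) (s26a3_b2_surjective _)
      (s26a3_b2_ker_sq hI) x hx
    obtain ⟨ψ', hψ'⟩ := hker (s26a3B2 (RingHom.ker π)) (s26a3_b2_surjective _)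
      (s26a3_b2_ker_sq hI) x' hx'
    have e : ψ = ψ' := by
      apply s26a3_hom_ext2
      · apply pt_inj
        rw [← pt_nat, ← pt_nat, hψ, hψ', hx, hx']
      · apply pt_inj
        rw [← pt_nat, ← pt_nat, hψ, hψ', hxx']
    rw [← hψ, ← hψ', e]
  obtain ⟨x, hx1, hx2⟩ := hb z hz
  obtain ⟨w₂, ⟨hw1, hw2⟩, hw3⟩ :=
    s26a3_unique_div2 Gm Gm_comp Gm_id pt pt_inj pt_nat hker hI n m hnm x hx1
  refine ⟨Gm (s26a3V2 (RingHom.ker π)) w₂, ⟨ha _ hw1, ?_⟩, ?_⟩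
  · rw [← map_pow, hw2, hx2]
  · intro w' hw' hw'z
    obtain ⟨x', hx'1, hx'2⟩ := hb w' hw'
    have h3 : x' ^ n = x := by
      apply hc
      · rw [map_pow, hx'1, one_pow]
      · exact hx1
      · rw [map_pow, hx'2, hw'z, hx2]
    rw [← hx'2, hw3 x' hx'1 h3]

end Functor

end Fermat.Agent.S26
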