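/-
S26 (#A[n](K) = n^(2g)), Stage A, piece A4 (helper33), part 1: the infinitesimal lifting
criterion for étale morphisms of schemes, and the scheme ⇄ ring dictionary used with it.

* `s26a4_specMap_surjective` : `Spec (R/I) ⟶ Spec R` is surjective on points for `I² = 0`.
* `s26a4_exists_of_range` : a morphism `Spec R ⟶ X` with range in an affine open `V` is
  `Spec.map ψ ≫ hV.fromSpec`.
* `s26a4_etale_of_lift` : a morphism `f : X ⟶ Y` (with finitely presented `appLE`s) such that
  every square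
  ```
  Spec (B/I) --x₀--> V ⊆ X
      |                  |
  Spec B   ---y----->    Y
  ```
  (`I² = 0`, `V` affine open) has a unique diagonal filler is étale.
* `s26a4_fp_appLE_of_comp` : `g ≫ f` locally of finite presentation, `f` locally of finite type,
  target affine ⇒ the `appLE`s of `g` are finitely presented.
* `s26a4_smooth_lift` : the infinitesimal lifting property of a smooth morphism to `Spec K` on an
  affine open.
-/
import Mathlib

set_option autoImplicit false

namespace Fermat.Agent.S26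

open CategoryTheory CategoryTheory.Limits AlgebraicGeometry

universe u

theorem s26a4_sq_bot_of_forall {R : Type u} [CommRing R] {I : Ideal R}
    (h : ∀ x ∈ I, ∀ y ∈ I, x * y = 0) : I ^ 2 = ⊥ := by
  rw [pow_two, eq_bot_iff, Ideal.mul_le]
  intro x hx y hy
  rw [h x hx y hy]
  exact Ideal.zero_mem _

theorem s26a4_forall_of_sq_bot {R : Type u} [CommRing R] {I : Ideal R} (h : I ^ 2 = ⊥) :
    ∀ x ∈ I, ∀ y ∈ I, x * y = 0 := by
  intro x hx y hy
  have h1 : x * y ∈ I ^ 2 := by
    rw [pow_two]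
    exact Ideal.mul_mem_mul hx hy
  rw [h] at h1
  exact h1

/-- `Spec (R/I) ⟶ Spec R` is surjective on points for `I² = 0`. -/
theorem s26a4_specMap_surjective {R S : CommRingCat.{u}} (φ : R ⟶ S)
    (hφ : Function.Surjective φ) (hI : RingHom.ker φ.hom ^ 2 = ⊥) :
    Function.Surjective (Spec.map φ).base := by
  intro p
  have h1 : ∀ p : PrimeSpectrum R, p ∈ Set.range (PrimeSpectrum.comap φ.hom) := by
    intro p
    rw [range_comap_of_surjective _ _ hφ, PrimeSpectrum.mem_zeroLocus]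
    intro x hx
    have h2 : x ^ 2 ∈ RingHom.ker φ.hom ^ 2 := Ideal.pow_mem_pow hx 2
    rw [hI] at h2
    have h3 : x ^ 2 = 0 := h2
    exact p.isPrime.mem_of_pow_mem 2 (by rw [h3]; exact p.asIdeal.zero_mem)
  obtain ⟨q, hq⟩ := h1 p
  exact ⟨q, hq⟩

/-- a morphism from an affine scheme with range in an affine open `V` is `Spec.map ψ ≫ fromSpec` -/
theorem s26a4_exists_of_range {X : Scheme.{u}} {V : X.Opens} (hV : IsAffineOpen V)
    {R : CommRingCat.{u}} (x : Spec R ⟶ X) (hx : Set.range x ⊆ (V : Set X)) :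
    ∃ ψ : Γ(X, V) ⟶ R, Spec.map ψ ≫ hV.fromSpec = x := by
  have h1 : Set.range x ⊆ Set.range hV.fromSpec := by rwa [hV.range_fromSpec]
  refine ⟨Spec.preimage (IsOpenImmersion.lift hV.fromSpec x h1), ?_⟩
  rw [Spec.map_preimage, IsOpenImmersion.lift_fac]

/-- the range of a thickened point is the range of the point -/
theorem s26a4_range_subset_of_thickening {X : Scheme.{u}} {R S : CommRingCat.{u}} (φ : R ⟶ S)
    (hφ : Function.Surjective φ) (hI : RingHom.ker φ.hom ^ 2 = ⊥) (x : Spec R ⟶ X)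
    (s : Set X) (h : Set.range (Spec.map φ ≫ x) ⊆ s) : Set.range x ⊆ s := by
  rintro _ ⟨p, rfl⟩
  obtain ⟨p', rfl⟩ := s26a4_specMap_surjective φ hφ hI p
  exact h ⟨p', rfl⟩

/-- **The infinitesimal lifting criterion**: unique fillers for square-zero thickenings of affine
schemes (the closed point factoring through an affine open) imply étale. -/
theorem s26a4_etale_of_lift {X Y : Scheme.{u}} (f : X ⟶ Y)
    (hfp : ∀ {U : Y.Opens} (_ : IsAffineOpen U) {V : X.Opens} (_ : IsAffineOpen V)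
      (e : V ≤ f ⁻¹ᵁ U), (f.appLE U V e).hom.FinitePresentation)
    (H : ∀ (B : Type u) [CommRing B] (I : Ideal B) (_ : I ^ 2 = ⊥) (V : X.Opens)
      (hV : IsAffineOpen V) (g₀ : Γ(X, V) →+* B ⧸ I) (y : Spec (CommRingCat.of B) ⟶ Y)
      (_ : (Spec.map (CommRingCat.ofHom g₀) ≫ hV.fromSpec) ≫ f =
        Spec.map (CommRingCat.ofHom (Ideal.Quotient.mk I)) ≫ y),
      ∃ x : Spec (CommRingCat.of B) ⟶ X,
        (Spec.map (CommRingCat.ofHom (Ideal.Quotient.mk I)) ≫ x =
            Spec.map (CommRingCat.ofHom g₀) ≫ hV.fromSpec ∧ x ≫ f = y) ∧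
        ∀ x' : Spec (CommRingCat.of B) ⟶ X,
          Spec.map (CommRingCat.ofHom (Ideal.Quotient.mk I)) ≫ x' =
            Spec.map (CommRingCat.ofHom g₀) ≫ hV.fromSpec → x' ≫ f = y → x' = x) :
    Etale f := by
  refine ⟨fun {U} hU {V} hV hVU => ?_⟩
  have hfp0 : (f.appLE U V hVU).hom.FinitePresentation := hfp hU hV hVU
  let := (f.appLE U V hVU).hom.toAlgebra
  have hfp' : Algebra.FinitePresentation Γ(Y, U) Γ(X, V) := by
    rw [← RingHom.finitePresentation_algebraMap, RingHom.algebraMap_toAlgebra]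
    exact hfp0
  suffices hfe : Algebra.FormallyEtale Γ(Y, U) Γ(X, V) from ⟨hfe, hfp'⟩
  refine Algebra.FormallyEtale.iff_comp_bijective.mpr fun B _ _ I hI => ?_
  -- the thickening
  let π : CommRingCat.of B ⟶ CommRingCat.of (B ⧸ I) :=
    CommRingCat.ofHom (Ideal.Quotient.mk I)
  have hπ : Function.Surjective π := Ideal.Quotient.mk_surjective
  have hker : RingHom.ker π.hom ^ 2 = ⊥ := by
    have : RingHom.ker π.hom = I := Ideal.mk_ker
    rw [this, hI]
  -- the point `y`
  let y : Spec (CommRingCat.of B) ⟶ Y :=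
    Spec.map (CommRingCat.ofHom (algebraMap Γ(Y, U) B)) ≫ hU.fromSpec
  -- algebra homs and points
  have key : ∀ (C : Type u) [CommRing C] [Algebra Γ(Y, U) C] (g : Γ(X, V) →ₐ[Γ(Y, U)] C),
      (Spec.map (CommRingCat.ofHom g.toRingHom) ≫ hV.fromSpec) ≫ f =
        Spec.map (CommRingCat.ofHom (algebraMap Γ(Y, U) C)) ≫ hU.fromSpec := by
    intro C _ _ g
    have hg : f.appLE U V hVU ≫ CommRingCat.ofHom g.toRingHom =
        CommRingCat.ofHom (algebraMap Γ(Y, U) C) := CommRingCat.hom_ext g.comp_algebraMap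
    rw [Category.assoc, ← hU.SpecMap_appLE_fromSpec f hV hVU, ← Spec.map_comp_assoc, hg]
  constructor
  · -- injectivity
    intro g₁ g₂ h12
    obtain ⟨x, -, hx⟩ := H B I hI V hV
      ((Ideal.Quotient.mkₐ Γ(Y, U) I).comp g₁).toRingHom
      y (by
        rw [key _ ((Ideal.Quotient.mkₐ Γ(Y, U) I).comp g₁)]
        show _ = Spec.map π ≫ Spec.map _ ≫ _
        rw [← Spec.map_comp_assoc]
        rfl)
    have e1 := hx (Spec.map (CommRingCat.ofHom g₁.toRingHom) ≫ hV.fromSpec)
      (by rw [← Spec.map_comp_assoc]; rfl) (key B g₁)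
    have e2 := hx (Spec.map (CommRingCat.ofHom g₂.toRingHom) ≫ hV.fromSpec)
      (by
        rw [← Spec.map_comp_assoc]
        have : (Ideal.Quotient.mkₐ Γ(Y, U) I).comp g₁ = (Ideal.Quotient.mkₐ Γ(Y, U) I).comp g₂ :=
          h12
        rw [this]
        rfl) (key B g₂)
    have e3 := e1.trans e2.symm
    rw [cancel_mono, Spec.map_inj] at e3
    exact AlgHom.ext fun c => congr($e3 c)
  · -- surjectivity
    intro g₀
    obtain ⟨x, ⟨hx1, hx2⟩, -⟩ := H B I hI V hV g₀.toRingHom y (by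
        rw [key _ g₀]
        show _ = Spec.map π ≫ Spec.map _ ≫ _
        rw [← Spec.map_comp_assoc]
        rfl)
    -- `x` has range in `V`
    have hrange : Set.range x ⊆ (V : Set X) := by
      refine s26a4_range_subset_of_thickening π hπ hker x _ ?_
      have hx1' : Spec.map π ≫ x = Spec.map (CommRingCat.ofHom g₀.toRingHom) ≫ hV.fromSpec := hx1
      rw [hx1']
      rintro _ ⟨p', rfl⟩
      have h2 : (Spec.map (CommRingCat.ofHom g₀.toRingHom) ≫ hV.fromSpec) p' ∈
          Set.range hV.fromSpec := ⟨_, rfl⟩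
      rwa [hV.range_fromSpec] at h2
    obtain ⟨ψ, hψ⟩ := s26a4_exists_of_range hV x hrange
    have hψalg : f.appLE U V hVU ≫ ψ = CommRingCat.ofHom (algebraMap Γ(Y, U) B) := by
      have h3 : Spec.map (f.appLE U V hVU ≫ ψ) ≫ hU.fromSpec =
          Spec.map (CommRingCat.ofHom (algebraMap Γ(Y, U) B)) ≫ hU.fromSpec := by
        rw [Spec.map_comp_assoc, hU.SpecMap_appLE_fromSpec f hV hVU, ← Category.assoc, hψ, hx2]
      rwa [cancel_mono, Spec.map_inj] at h3
    refine ⟨⟨ψ.hom, fun r => congr($hψalg r)⟩, ?_⟩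
    have h4 : Spec.map (ψ ≫ π) ≫ hV.fromSpec =
        Spec.map (CommRingCat.ofHom g₀.toRingHom) ≫ hV.fromSpec := by
      rw [Spec.map_comp_assoc, hψ]
      exact hx1
    rw [cancel_mono, Spec.map_inj] at h4
    exact AlgHom.ext fun c => congr($h4 c)

/-- if `g ≫ f` is locally of finite presentation and `f` is locally of finite type (target
affine), the `appLE`s of `g` are finitely presented. -/
theorem s26a4_fp_appLE_of_comp {X Y Z : Scheme.{u}} [IsAffine Z] (g : X ⟶ Y) (f : Y ⟶ Z)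
    [LocallyOfFinitePresentation (g ≫ f)] [LocallyOfFiniteType f]
    {U : Y.Opens} (hU : IsAffineOpen U) {V : X.Opens} (hV : IsAffineOpen V)
    (e : V ≤ g ⁻¹ᵁ U) : (g.appLE U V e).hom.FinitePresentation := by
  have h1 : f.appLE ⊤ U le_top ≫ g.appLE U V e = (g ≫ f).appLE ⊤ V le_top :=
    Scheme.Hom.appLE_comp_appLE g f ⊤ U V le_top e
  have h2 : ((g ≫ f).appLE ⊤ V le_top).hom.FinitePresentation :=
    HasRingHomProperty.appLE (P := @LocallyOfFinitePresentation) (g ≫ f) inferInstance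
      ⟨⊤, isAffineOpen_top Z⟩ ⟨V, hV⟩ le_top
  have h3 : (f.appLE ⊤ U le_top).hom.FiniteType :=
    HasRingHomProperty.appLE (P := @LocallyOfFiniteType) f inferInstance
      ⟨⊤, isAffineOpen_top Z⟩ ⟨U, hU⟩ le_top
  refine RingHom.FinitePresentation.of_comp_finiteType (f.appLE ⊤ U le_top).hom ?_ h3
  rw [← CommRingCat.hom_comp, h1]
  exact h2

/-- **the infinitesimal lifting property** of a smooth `h : X ⟶ Spec K` on an affine open `V`:
a `K`-point of `V` with values in `B/I` (`I² = 0`) lifts to `B`. -/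
theorem s26a4_smooth_lift {K : Type u} [CommRing K] {X : Scheme.{u}}
    (h : X ⟶ Spec (CommRingCat.of K)) [Smooth h] {V : X.Opens} (hV : IsAffineOpen V)
    (B : Type u) [CommRing B] [Algebra K B] (I : Ideal B) (hI : I ^ 2 = ⊥)
    (g₀ : Γ(X, V) →+* B ⧸ I)
    (hg₀ : (Spec.map (CommRingCat.ofHom g₀) ≫ hV.fromSpec) ≫ h =
      Spec.map (CommRingCat.ofHom (algebraMap K (B ⧸ I)))) :
    ∃ g : Γ(X, V) →+* B, (Ideal.Quotient.mk I).comp g = g₀ ∧
      (Spec.map (CommRingCat.ofHom g) ≫ hV.fromSpec) ≫ h =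
        Spec.map (CommRingCat.ofHom (algebraMap K B)) := by
  -- the structure map of `Γ(X, V)`
  let κ : CommRingCat.of K ⟶ Γ(X, V) := Spec.preimage (hV.fromSpec ≫ h)
  have hκ : Spec.map κ = hV.fromSpec ≫ h := Spec.map_preimage _
  have hsm : Smooth (Spec.map κ) := by
    rw [hκ]
    infer_instance
  have hsm' : κ.hom.Smooth := (HasRingHomProperty.Spec_iff (P := @Smooth)).mp hsm
  letI : Algebra K Γ(X, V) := κ.hom.toAlgebra
  have hfs : Algebra.FormallySmooth K Γ(X, V) := by
    have h1 : Algebra.Smooth K Γ(X, V) := hsm'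
    exact h1.formallySmooth
  -- `g₀` is a `K`-algebra homomorphism
  have hg₀' : κ ≫ CommRingCat.ofHom g₀ = CommRingCat.ofHom (algebraMap K (B ⧸ I)) := by
    apply Spec.map_injective
    rw [Spec.map_comp, hκ, ← Category.assoc]
    exact hg₀
  let g₀a : Γ(X, V) →ₐ[K] B ⧸ I := ⟨g₀, fun r => congr($hg₀' r)⟩
  obtain ⟨g, hg⟩ := Algebra.FormallySmooth.exists_lift I ⟨2, hI⟩ g₀a
  refine ⟨g.toRingHom, ?_, ?_⟩
  · exact RingHom.ext fun c => congrArg (fun k : Γ(X, V) →ₐ[K] B ⧸ I => k c) hg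
  · rw [Category.assoc, ← hκ, ← Spec.map_comp]
    congr 1
    exact CommRingCat.hom_ext g.comp_algebraMap

end Fermat.Agent.S26
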