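/-
S26 (#A[n](K) = n^(2g)), Stage A, piece A6 (helper33): the group theory.

* `s26a6_card_torsion_mul` : in a commutative group `G` with `x ↦ x ^ a` surjective,
  `#G[a b] = #G[a] · #G[b]` (`Nat.card`, no finiteness hypothesis).
* `s26a6_card_torsion` : if for every prime `ℓ ∣ n` the map `x ↦ x ^ ℓ` is surjective and
  `#G[ℓ] = ℓ ^ r`, then `x ↦ x ^ n` is surjective and `#G[n] = n ^ r` (`n ≠ 0`).
* `s26a6PointCommGroup` : the commutative group `A(T)` of a commutative `RelativeGroupLaw`;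
  `s26a6_nsmul_eq_pow` : `L.nsmul t n x = x ^ n` in it.
* `s26a6_of_prime` : **S26 from the prime case**: for `(n : K) ≠ 0`, if for every prime `ℓ` with
  `(ℓ : K) ≠ 0` multiplication by `ℓ` is surjective on `A(K)` and `#A[ℓ](K) = ℓ ^ r`, then
  `#A[n](K) = n ^ r`  (stated for the points over any `t : T ⟶ Spec R`, `R` any domain-like base:
  only `(ℓ : R) ≠ 0` for `ℓ ∣ n` is used).
-/
import Mathlib
import Fermat.Prelude.Def_JacJ1Iface
import Fermat.Prelude.Def_GoodReductionJacobian_RelativeGroupLawKernel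

set_option autoImplicit false
set_option linter.style.haveILetI false

namespace Fermat.Agent.S26

open CategoryTheory CategoryTheory.Limits AlgebraicGeometry NeronModelInfra GoodReductionJacobian

universe u

section Abstract

variable {G : Type*} [CommGroup G]

/-- `#G[a b] = #G[a] · #G[b]` when `x ↦ x ^ a` is surjective. -/
theorem s26a6_card_torsion_mul (a b : ℕ) (ha : Function.Surjective (fun x : G => x ^ a)) :
    Nat.card {x : G // x ^ (a * b) = 1} =
      Nat.card {x : G // x ^ a = 1} * Nat.card {x : G // x ^ b = 1} := by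
  -- `φ : G[ab] → G[b]`, `x ↦ x ^ a`
  let H : Subgroup G := (powMonoidHom (a * b) : G →* G).ker
  let Hb : Subgroup G := (powMonoidHom b : G →* G).ker
  let Ha : Subgroup G := (powMonoidHom a : G →* G).ker
  have hH : ∀ x : G, x ∈ H ↔ x ^ (a * b) = 1 := fun x => MonoidHom.mem_ker
  have hHb : ∀ x : G, x ∈ Hb ↔ x ^ b = 1 := fun x => MonoidHom.mem_ker
  have hHa : ∀ x : G, x ∈ Ha ↔ x ^ a = 1 := fun x => MonoidHom.mem_ker
  let φ : H →* Hb :=
    { toFun := fun x => ⟨(x : G) ^ a, (hHb _).mpr (by rw [← pow_mul]; exact (hH _).mp x.2)⟩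
      map_one' := Subtype.ext (one_pow a)
      map_mul' := fun x y => Subtype.ext (mul_pow (x : G) (y : G) a) }
  have hφ : Function.Surjective φ := by
    rintro ⟨y, hy⟩
    obtain ⟨x, hx⟩ := ha y
    have hx' : x ^ a = y := hx
    refine ⟨⟨x, (hH _).mpr ?_⟩, Subtype.ext hx'⟩
    rw [pow_mul, hx']
    exact (hHb _).mp hy
  have h1 : Nat.card H = Nat.card φ.ker * Nat.card Hb := by
    have h2 := Subgroup.card_mul_index φ.ker
    rw [Subgroup.index_ker, MonoidHom.range_eq_top.mpr hφ] at h2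
    rw [← h2]
    congr 1
    exact Nat.card_congr (Subgroup.topEquiv (G := Hb)).toEquiv
  have h3 : Nat.card φ.ker = Nat.card Ha := by
    refine Nat.card_congr
      { toFun := fun x => ⟨((x : H) : G), (hHa _).mpr ?_⟩
        invFun := fun x => ⟨⟨(x : G), (hH _).mpr ?_⟩, ?_⟩
        left_inv := fun x => rfl
        right_inv := fun x => rfl }
    · have := x.2
      rw [MonoidHom.mem_ker] at this
      exact congrArg Subtype.val this
    · rw [pow_mul, (hHa _).mp x.2, one_pow]
    · rw [MonoidHom.mem_ker]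
      exact Subtype.ext ((hHa _).mp x.2)
  have e1 : Nat.card {x : G // x ^ (a * b) = 1} = Nat.card H :=
    Nat.card_congr (Equiv.subtypeEquivRight fun x => (hH x).symm)
  have e2 : Nat.card {x : G // x ^ a = 1} = Nat.card Ha :=
    Nat.card_congr (Equiv.subtypeEquivRight fun x => (hHa x).symm)
  have e3 : Nat.card {x : G // x ^ b = 1} = Nat.card Hb :=
    Nat.card_congr (Equiv.subtypeEquivRight fun x => (hHb x).symm)
  rw [e1, e2, e3, h1, h3]

/-- **the torsion count from the prime case** -/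
theorem s26a6_card_torsion (r : ℕ) (n : ℕ) (hn : n ≠ 0)
    (h : ∀ ℓ : ℕ, ℓ.Prime → ℓ ∣ n →
      Function.Surjective (fun x : G => x ^ ℓ) ∧ Nat.card {x : G // x ^ ℓ = 1} = ℓ ^ r) :
    Function.Surjective (fun x : G => x ^ n) ∧ Nat.card {x : G // x ^ n = 1} = n ^ r := by
  induction n using Nat.recOnMul with
  | zero => exact absurd rfl hn
  | one =>
    refine ⟨fun y => ⟨y, pow_one y⟩, ?_⟩
    rw [one_pow]
    have : Nat.card {x : G // x ^ 1 = 1} = Nat.card ({1} : Set G) :=
      Nat.card_congr (Equiv.subtypeEquivRight fun x => by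
        rw [pow_one, Set.mem_singleton_iff])
    rw [this]
    simp
  | prime p hp => exact h p hp dvd_rfl
  | mul a b iha ihb =>
    have ha0 : a ≠ 0 := fun h0 => hn (by rw [h0, zero_mul])
    have hb0 : b ≠ 0 := fun h0 => hn (by rw [h0, mul_zero])
    obtain ⟨sa, ca⟩ := iha ha0 (fun ℓ hℓ hd => h ℓ hℓ (dvd_mul_of_dvd_left hd b))
    obtain ⟨sb, cb⟩ := ihb hb0 (fun ℓ hℓ hd => h ℓ hℓ (dvd_mul_of_dvd_right hd a))
    refine ⟨fun y => ?_, ?_⟩
    · obtain ⟨z, hz⟩ := sb y
      obtain ⟨x, hx⟩ := sa z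
      refine ⟨x, ?_⟩
      show x ^ (a * b) = y
      have hx' : x ^ a = z := hx
      have hz' : z ^ b = y := hz
      rw [pow_mul, hx', hz']
    · rw [s26a6_card_torsion_mul a b sa, ca, cb, mul_pow]

end Abstract

section Points

variable {R : Type u} [CommRing R] {A : Scheme.{u}} {f : A ⟶ Spec (CommRingCat.of R)}

/-- The commutative group `A(T)` of a commutative relative group law. -/
@[reducible]
def s26a6PointCommGroup (L : RelativeGroupLaw R f) (hc : L.IsCommutative) {T : Scheme.{u}}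
    (t : T ⟶ Spec (CommRingCat.of R)) : CommGroup (SchemeHomOver t f) :=
  { L.pointGroup t with mul_comm := fun x y => hc t x y }

theorem s26a6_nsmul_eq_pow (L : RelativeGroupLaw R f) (hc : L.IsCommutative) {T : Scheme.{u}}
    (t : T ⟶ Spec (CommRingCat.of R)) (n : ℕ) (x : SchemeHomOver t f) :
    L.nsmul t n x = (letI := s26a6PointCommGroup L hc t; x ^ n) := by
  letI := s26a6PointCommGroup L hc t
  induction n with
  | zero =>
    rw [pow_zero]
    rfl
  | succ n ih =>
    rw [pow_succ, RelativeGroupLaw.nsmul_succ, ih]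
    rfl

theorem s26a6_one_eq (L : RelativeGroupLaw R f) (hc : L.IsCommutative) {T : Scheme.{u}}
    (t : T ⟶ Spec (CommRingCat.of R)) :
    L.one t = (letI := s26a6PointCommGroup L hc t; (1 : SchemeHomOver t f)) := rfl

/-- **S26 from the prime case** (points over any `t`). -/
theorem s26a6_of_prime (L : RelativeGroupLaw R f) (hc : L.IsCommutative) {T : Scheme.{u}}
    (t : T ⟶ Spec (CommRingCat.of R)) (r : ℕ) (n : ℕ) (hn : (n : R) ≠ 0)
    (h : ∀ ℓ : ℕ, ℓ.Prime → (ℓ : R) ≠ 0 →
      (∀ y : SchemeHomOver t f, ∃ x : SchemeHomOver t f, L.nsmul t ℓ x = y) ∧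
      Nat.card {x : SchemeHomOver t f // L.IsTorsionPoint t ℓ x} = ℓ ^ r) :
    (∀ y : SchemeHomOver t f, ∃ x : SchemeHomOver t f, L.nsmul t n x = y) ∧
    Nat.card {x : SchemeHomOver t f // L.IsTorsionPoint t n x} = n ^ r := by
  letI := s26a6PointCommGroup L hc t
  have hn0 : n ≠ 0 := by
    rintro rfl
    exact hn Nat.cast_zero
  have key := s26a6_card_torsion (G := SchemeHomOver t f) r n hn0 (fun ℓ hℓ hd => by
    have hℓR : (ℓ : R) ≠ 0 := by
      intro h0
      obtain ⟨m, rfl⟩ := hd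
      apply hn
      rw [Nat.cast_mul, h0, zero_mul]
    obtain ⟨h1, h2⟩ := h ℓ hℓ hℓR
    refine ⟨fun y => ?_, ?_⟩
    · obtain ⟨x, hx⟩ := h1 y
      exact ⟨x, by rw [← hx, s26a6_nsmul_eq_pow L hc]⟩
    · rw [← h2]
      refine Nat.card_congr (Equiv.subtypeEquivRight fun x => ?_)
      show x ^ ℓ = 1 ↔ L.nsmul t ℓ x = L.one t
      rw [s26a6_nsmul_eq_pow L hc]
      exact Iff.rfl)
  obtain ⟨k1, k2⟩ := key
  refine ⟨fun y => ?_, ?_⟩
  · obtain ⟨x, hx⟩ := k1 y
    exact ⟨x, by rw [s26a6_nsmul_eq_pow L hc]; exact hx⟩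
  · rw [← k2]
    refine Nat.card_congr (Equiv.subtypeEquivRight fun x => ?_)
    show L.nsmul t n x = L.one t ↔ x ^ n = 1
    rw [s26a6_nsmul_eq_pow L hc]
    exact Iff.rfl

end Points

end Fermat.Agent.S26
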