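/-
S26 (#A[n](K) = n^(2g)), Stage A, piece A3 (helper33), CONCRETE part: the functor of points
`B ↦ A(B)` of a commutative relative group law over `K` on `K`-algebras, with the affine chart
at the unit section, satisfies the hypotheses of `s26a3_unique_div`; hence the kernel of
reduction `A(B) → A(B/I)`, `I² = 0`, is uniquely `n`-divisible when `n` is invertible in `K`.

* `S26a3Pt L hc B` : the group `A(B)` (a `CommGroup` instance).
* `s26a3PtMap L hc g` : base change along `g : B →ₐ[K] B'`.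
* `s26a3_pts_unique_div` : unique divisibility of the kernel of `A(B) → A(B')`.
-/
import Mathlib
import Fermat.Prelude.Def_JacJ1Iface
import Fermat.Prelude.Def_GoodReductionJacobian_RelativeGroupLawKernel
import Fermat.Agent.S26.A1
import Fermat.Agent.S26.A6
import Fermat.Agent.S26.A3Abs
import Fermat.Agent.S26.A4Lift

set_option autoImplicit false
set_option linter.unusedVariables false

namespace Fermat.Agent.S26

open CategoryTheory CategoryTheory.Limits AlgebraicGeometry NeronModelInfra GoodReductionJacobian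

universe u

section Pts

variable {K : Type u} [CommRing K] {A : Scheme.{u}} {f : A ⟶ Spec (CommRingCat.of K)}

/-- the structure morphism of `Spec B` for a `K`-algebra `B` -/
noncomputable def s26a3Str (K : Type u) [CommRing K] (B : Type u) [CommRing B] [Algebra K B] :
    Spec (CommRingCat.of B) ⟶ Spec (CommRingCat.of K) :=
  Spec.map (CommRingCat.ofHom (algebraMap K B))

theorem s26a3Str_comp {B B' : Type u} [CommRing B] [CommRing B'] [Algebra K B] [Algebra K B']
    (g : B →ₐ[K] B') :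
    Spec.map (CommRingCat.ofHom g.toRingHom) ≫ s26a3Str K B = s26a3Str K B' := by
  rw [s26a3Str, s26a3Str, ← Spec.map_comp]
  congr 1
  exact CommRingCat.hom_ext g.comp_algebraMap

/-- the `B`-points of `A` (the relative group law is a phantom parameter carrying the group
structure) -/
def S26a3Pt (L : RelativeGroupLaw K f) (hc : L.IsCommutative) (B : Type u) [CommRing B]
    [Algebra K B] : Type u :=
  SchemeHomOver (s26a3Str K B) f

variable (L : RelativeGroupLaw K f) (hc : L.IsCommutative)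

noncomputable instance s26a3PtCommGroup (B : Type u) [CommRing B] [Algebra K B] :
    CommGroup (S26a3Pt L hc B) :=
  s26a6PointCommGroup L hc (s26a3Str K B)

theorem s26a3_pt_one (B : Type u) [CommRing B] [Algebra K B] :
    (1 : S26a3Pt L hc B) = L.one (s26a3Str K B) := rfl

theorem s26a3_pt_mul {B : Type u} [CommRing B] [Algebra K B] (x y : S26a3Pt L hc B) :
    x * y = L.mul (s26a3Str K B) x y := rfl

theorem s26a3_pt_pow {B : Type u} [CommRing B] [Algebra K B] (x : S26a3Pt L hc B) (n : ℕ) :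
    x ^ n = L.nsmul (s26a3Str K B) n x :=
  (s26a6_nsmul_eq_pow L hc (s26a3Str K B) n x).symm

theorem s26a3_pt_pow_val {B : Type u} [CommRing B] [Algebra K B] (x : S26a3Pt L hc B) (n : ℕ) :
    (x ^ n).1 = x.1 ≫ L.schemeNsmul n := by
  rw [s26a3_pt_pow]
  exact s26a1_nsmul_eq L _ n x

theorem s26a3_pt_one_val (B : Type u) [CommRing B] [Algebra K B] :
    (1 : S26a3Pt L hc B).1 = s26a3Str K B ≫ s26a1Unit L := by
  rw [s26a3_pt_one]
  exact s26a1_one_eq L _

theorem s26a3_pt_ext {B : Type u} [CommRing B] [Algebra K B] {x y : S26a3Pt L hc B}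
    (h : x.1 = y.1) : x = y := Subtype.ext h

/-- base change of points -/
noncomputable def s26a3PtMap {B B' : Type u} [CommRing B] [CommRing B'] [Algebra K B]
    [Algebra K B'] (g : B →ₐ[K] B') : S26a3Pt L hc B →* S26a3Pt L hc B' where
  toFun x := schemeHomOverComp (Spec.map (CommRingCat.ofHom g.toRingHom)) (s26a3Str_comp g) x
  map_one' := L.one_natural _ _ _ _
  map_mul' x y := L.mul_natural _ _ _ _ x y

theorem s26a3PtMap_val {B B' : Type u} [CommRing B] [CommRing B'] [Algebra K B]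
    [Algebra K B'] (g : B →ₐ[K] B') (x : S26a3Pt L hc B) :
    (s26a3PtMap L hc g x).1 = Spec.map (CommRingCat.ofHom g.toRingHom) ≫ x.1 := rfl

theorem s26a3PtMap_comp {B B' B'' : Type u} [CommRing B] [CommRing B'] [CommRing B'']
    [Algebra K B] [Algebra K B'] [Algebra K B''] (g : B →ₐ[K] B') (g' : B' →ₐ[K] B'')
    (x : S26a3Pt L hc B) :
    s26a3PtMap L hc g' (s26a3PtMap L hc g x) = s26a3PtMap L hc (g'.comp g) x := by
  apply s26a3_pt_ext
  rw [s26a3PtMap_val, s26a3PtMap_val, s26a3PtMap_val, ← Category.assoc, ← Spec.map_comp]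
  rfl

theorem s26a3PtMap_id {B : Type u} [CommRing B] [Algebra K B] (x : S26a3Pt L hc B) :
    s26a3PtMap L hc (AlgHom.id K B) x = x := by
  apply s26a3_pt_ext
  rw [s26a3PtMap_val]
  have : CommRingCat.ofHom (AlgHom.id K B).toRingHom = 𝟙 (CommRingCat.of B) := rfl
  rw [this, Spec.map_id, Category.id_comp]

/-! ### the affine chart at the unit section -/

variable {U₀ : A.Opens} (hU₀ : IsAffineOpen U₀)

/-- the structure map `K ⟶ Γ(A, U₀)` -/
noncomputable def s26a3Kappa (f : A ⟶ Spec (CommRingCat.of K)) {U₀ : A.Opens}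
    (hU₀ : IsAffineOpen U₀) : CommRingCat.of K ⟶ Γ(A, U₀) :=
  Spec.preimage (hU₀.fromSpec ≫ f)

theorem s26a3Kappa_spec : Spec.map (s26a3Kappa f hU₀) = hU₀.fromSpec ≫ f :=
  Spec.map_preimage _

/-- the coordinate ring of the chart, as a `K`-algebra -/
def S26a3Chart (f : A ⟶ Spec (CommRingCat.of K)) {U₀ : A.Opens} (_hU₀ : IsAffineOpen U₀) :
    Type u := Γ(A, U₀)

instance s26a3ChartCommRing : CommRing (S26a3Chart f hU₀) :=
  inferInstanceAs (CommRing Γ(A, U₀))

noncomputable instance s26a3ChartAlgebra : Algebra K (S26a3Chart f hU₀) :=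
  RingHom.toAlgebra (show K →+* S26a3Chart f hU₀ from (s26a3Kappa f hU₀).hom)

theorem s26a3Chart_algebraMap (r : K) :
    algebraMap K (S26a3Chart f hU₀) r = (s26a3Kappa f hU₀).hom r := rfl

/-- a ring homomorphism out of the chart ring is a morphism of `CommRingCat` -/
def s26a3ChartHom {B : Type u} [CommRing B] [Algebra K B] (ψ : S26a3Chart f hU₀ →ₐ[K] B) :
    Γ(A, U₀) ⟶ CommRingCat.of B :=
  CommRingCat.ofHom (show Γ(A, U₀) →+* B from ψ.toRingHom)

theorem s26a3ChartHom_apply {B : Type u} [CommRing B] [Algebra K B]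
    (ψ : S26a3Chart f hU₀ →ₐ[K] B) (c : Γ(A, U₀)) :
    (s26a3ChartHom hU₀ ψ).hom c = ψ c := rfl

theorem s26a3ChartHom_kappa {B : Type u} [CommRing B] [Algebra K B]
    (ψ : S26a3Chart f hU₀ →ₐ[K] B) :
    s26a3Kappa f hU₀ ≫ s26a3ChartHom hU₀ ψ = CommRingCat.ofHom (algebraMap K B) :=
  CommRingCat.hom_ext (RingHom.ext fun r => ψ.commutes r)

/-- an algebra homomorphism out of the chart ring from a morphism of `CommRingCat` -/
def s26a3ChartAlgHom {B : Type u} [CommRing B] [Algebra K B] (ψ : Γ(A, U₀) ⟶ CommRingCat.of B)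
    (h : s26a3Kappa f hU₀ ≫ ψ = CommRingCat.ofHom (algebraMap K B)) :
    S26a3Chart f hU₀ →ₐ[K] B :=
  { (show S26a3Chart f hU₀ →+* B from ψ.hom) with
    commutes' := fun r => congrArg (fun k : CommRingCat.of K ⟶ CommRingCat.of B => k.hom r) h }

theorem s26a3ChartHom_algHom {B : Type u} [CommRing B] [Algebra K B]
    (ψ : Γ(A, U₀) ⟶ CommRingCat.of B)
    (h : s26a3Kappa f hU₀ ≫ ψ = CommRingCat.ofHom (algebraMap K B)) :
    s26a3ChartHom hU₀ (s26a3ChartAlgHom hU₀ ψ h) = ψ := rfl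

/-- the point of `A` defined by a point of the chart -/
noncomputable def s26a3PtOf {B : Type u} [CommRing B] [Algebra K B]
    (ψ : S26a3Chart f hU₀ →ₐ[K] B) : S26a3Pt L hc B :=
  ⟨Spec.map (s26a3ChartHom hU₀ ψ) ≫ hU₀.fromSpec, by
    rw [Category.assoc, ← s26a3Kappa_spec, ← Spec.map_comp, s26a3ChartHom_kappa]
    rfl⟩

theorem s26a3PtOf_val {B : Type u} [CommRing B] [Algebra K B]
    (ψ : S26a3Chart f hU₀ →ₐ[K] B) :
    (s26a3PtOf L hc hU₀ ψ).1 = Spec.map (s26a3ChartHom hU₀ ψ) ≫ hU₀.fromSpec := rfl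

theorem s26a3PtOf_inj {B : Type u} [CommRing B] [Algebra K B]
    (ψ ψ' : S26a3Chart f hU₀ →ₐ[K] B) (h : s26a3PtOf L hc hU₀ ψ = s26a3PtOf L hc hU₀ ψ') :
    ψ = ψ' := by
  have h1 := congrArg Subtype.val h
  rw [s26a3PtOf_val, s26a3PtOf_val, cancel_mono, Spec.map_inj] at h1
  refine AlgHom.ext fun c => ?_
  have h2 := congrArg (fun k : Γ(A, U₀) ⟶ CommRingCat.of B => k.hom c) h1
  exact h2

theorem s26a3PtOf_nat {B B' : Type u} [CommRing B] [CommRing B'] [Algebra K B] [Algebra K B']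
    (g : B →ₐ[K] B') (ψ : S26a3Chart f hU₀ →ₐ[K] B) :
    s26a3PtMap L hc g (s26a3PtOf L hc hU₀ ψ) = s26a3PtOf L hc hU₀ (g.comp ψ) := by
  apply s26a3_pt_ext
  rw [s26a3PtMap_val, s26a3PtOf_val, s26a3PtOf_val, ← Category.assoc, ← Spec.map_comp]
  rfl

variable (he : Set.range (s26a1Unit L) ⊆ (U₀ : Set A))

include he in
/-- the unit section in the chart -/
theorem s26a3_exists_eps : ∃ ε : S26a3Chart f hU₀ →ₐ[K] K,
    ∀ (B : Type u) [CommRing B] [Algebra K B],
      s26a3PtOf L hc hU₀ ((Algebra.ofId K B).comp ε) = 1 := by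
  obtain ⟨ψe, hψe⟩ := s26a4_exists_of_range hU₀ (R := CommRingCat.of K) (s26a1Unit L) he
  have h1 : s26a3Kappa f hU₀ ≫ ψe = CommRingCat.ofHom (algebraMap K K) := by
    apply Spec.map_injective
    rw [Spec.map_comp, s26a3Kappa_spec, ← Category.assoc, hψe, s26a1Unit_comp]
    exact (Spec.map_id _).symm
  refine ⟨s26a3ChartAlgHom hU₀ ψe h1, fun B _ _ => ?_⟩
  apply s26a3_pt_ext
  rw [s26a3PtOf_val, s26a3_pt_one_val]
  have h2 : s26a3ChartHom hU₀ ((Algebra.ofId K B).comp (s26a3ChartAlgHom hU₀ ψe h1)) =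
      ψe ≫ CommRingCat.ofHom (algebraMap K B) := rfl
  rw [h2, Spec.map_comp, Category.assoc, hψe]
  rfl

include he in
/-- the kernel of reduction lies in the chart -/
theorem s26a3_pts_hker {B B' : Type u} [CommRing B] [CommRing B'] [Algebra K B] [Algebra K B']
    (π : B →ₐ[K] B') (hπ : Function.Surjective π)
    (hI : ∀ x ∈ RingHom.ker π, ∀ y ∈ RingHom.ker π, x * y = 0)
    (x : S26a3Pt L hc B) (hx : s26a3PtMap L hc π x = 1) :
    ∃ ψ : S26a3Chart f hU₀ →ₐ[K] B, s26a3PtOf L hc hU₀ ψ = x := by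
  have h1 : Spec.map (CommRingCat.ofHom π.toRingHom) ≫ x.1 = s26a3Str K B' ≫ s26a1Unit L := by
    rw [← s26a3PtMap_val L hc π x, hx, s26a3_pt_one_val]
  have hrange : Set.range x.1 ⊆ (U₀ : Set A) := by
    refine s26a4_range_subset_of_thickening (CommRingCat.ofHom π.toRingHom) hπ
      (s26a4_sq_bot_of_forall hI) x.1 _ ?_
    rw [h1]
    rintro _ ⟨p, rfl⟩
    exact he ⟨_, rfl⟩
  obtain ⟨ψ, hψ⟩ := s26a4_exists_of_range hU₀ x.1 hrange
  have hψalg : s26a3Kappa f hU₀ ≫ ψ = CommRingCat.ofHom (algebraMap K B) := by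
    apply Spec.map_injective
    rw [Spec.map_comp, s26a3Kappa_spec, ← Category.assoc, hψ]
    exact x.2
  refine ⟨s26a3ChartAlgHom hU₀ ψ hψalg, ?_⟩
  apply s26a3_pt_ext
  rw [s26a3PtOf_val, s26a3ChartHom_algHom]
  exact hψ

include hU₀ he in
/-- **Unique divisibility of the kernel of reduction** `A(B) → A(B')` (`B → B'` surjective with
square-zero kernel) by `n` invertible in `K`. -/
theorem s26a3_pts_unique_div {B B' : Type u} [CommRing B] [CommRing B'] [Algebra K B]
    [Algebra K B'] (π : B →ₐ[K] B') (hπ : Function.Surjective π)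
    (hI : ∀ x ∈ RingHom.ker π, ∀ y ∈ RingHom.ker π, x * y = 0)
    (n : ℕ) (m : K) (hnm : (n : K) * m = 1) (z : S26a3Pt L hc B)
    (hz : s26a3PtMap L hc π z = 1) :
    ∃ w : S26a3Pt L hc B, (s26a3PtMap L hc π w = 1 ∧ w ^ n = z) ∧
      ∀ w' : S26a3Pt L hc B, s26a3PtMap L hc π w' = 1 → w' ^ n = z → w' = w := by
  obtain ⟨ε, hε⟩ := s26a3_exists_eps L hc hU₀ he
  exact s26a3_unique_div (K := K) (G := S26a3Pt L hc) (C := S26a3Chart f hU₀)
    (fun g => s26a3PtMap L hc g)
    (fun g g' x => s26a3PtMap_comp L hc g g' x)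
    (fun x => s26a3PtMap_id L hc x)
    ε
    (fun ψ => s26a3PtOf L hc hU₀ ψ)
    (fun ψ ψ' h => s26a3PtOf_inj L hc hU₀ ψ ψ' h)
    (fun g ψ => s26a3PtOf_nat L hc hU₀ g ψ)
    (fun {B} _ _ => hε B)
    (fun π hπ hI x hx => s26a3_pts_hker L hc hU₀ he π hπ hI x hx)
    π hπ hI n m hnm z hz

end Pts

end Fermat.Agent.S26
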