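/-
S26 (#A[n](K) = n^(2g)), Stage A, piece A4 (helper33): **`[n] : A ⟶ A` is étale** for `n`
invertible in the field `K`, for a smooth commutative relative group law `A` over `K`.

Proof: the infinitesimal lifting criterion `s26a4_etale_of_lift`.  Given a square-zero
thickening `Spec (B/I) ⊆ Spec B`, a point `x₀ ∈ A(B/I)` (through an affine open) and `y ∈ A(B)`
with `[n] x₀ = y mod I`: lift `x₀` to `x' ∈ A(B)` (smoothness), `z := y · ([n] x')⁻¹` lies in the
kernel of reduction, which is uniquely `n`-divisible (`s26a3_pts_unique_div`), `z = wⁿ`, and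
`x := x' · w` is the unique filler.
-/
import Mathlib
import Fermat.Prelude.Def_JacJ1Iface
import Fermat.Prelude.Def_GoodReductionJacobian_RelativeGroupLawKernel
import Fermat.Agent.S26.A1
import Fermat.Agent.S26.A6
import Fermat.Agent.S26.A3Abs
import Fermat.Agent.S26.A4Lift
import Fermat.Agent.S26.A3Pts

set_option autoImplicit false
set_option linter.unusedVariables false
set_option linter.style.haveILetI false

namespace Fermat.Agent.S26

open CategoryTheory CategoryTheory.Limits AlgebraicGeometry NeronModelInfra GoodReductionJacobian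

universe u

/-- over a field the unit section lands in an affine open -/
theorem s26a4_exists_chart {K : Type u} [Field K] {A : Scheme.{u}}
    {f : A ⟶ Spec (CommRingCat.of K)} (L : RelativeGroupLaw K f) :
    ∃ U₀ : A.Opens, IsAffineOpen U₀ ∧ Set.range (s26a1Unit L) ⊆ (U₀ : Set A) := by
  obtain ⟨U₀, hU₀, hmem, -⟩ := exists_isAffineOpen_mem_and_subset
    (X := A) (x := s26a1Unit L default) (U := ⊤) (TopologicalSpace.Opens.mem_top _)
  refine ⟨U₀, hU₀, ?_⟩
  rintro _ ⟨p, rfl⟩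
  rw [Unique.eq_default p]
  exact hmem

/-- **the unique filler** for `[n]` -/
theorem s26a4_filler {K : Type u} [Field K] {A : Scheme.{u}} (f : A ⟶ Spec (CommRingCat.of K))
    [Smooth f] (L : RelativeGroupLaw K f) (hc : L.IsCommutative) (n : ℕ) (hn : (n : K) ≠ 0)
    (B : Type u) [CommRing B] (I : Ideal B) (hI : I ^ 2 = ⊥) (V : A.Opens)
    (hV : IsAffineOpen V) (g₀ : Γ(A, V) →+* B ⧸ I) (y : Spec (CommRingCat.of B) ⟶ A)
    (hsq : (Spec.map (CommRingCat.ofHom g₀) ≫ hV.fromSpec) ≫ L.schemeNsmul n =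
      Spec.map (CommRingCat.ofHom (Ideal.Quotient.mk I)) ≫ y) :
    ∃ x : Spec (CommRingCat.of B) ⟶ A,
      (Spec.map (CommRingCat.ofHom (Ideal.Quotient.mk I)) ≫ x =
          Spec.map (CommRingCat.ofHom g₀) ≫ hV.fromSpec ∧ x ≫ L.schemeNsmul n = y) ∧
      ∀ x' : Spec (CommRingCat.of B) ⟶ A,
        Spec.map (CommRingCat.ofHom (Ideal.Quotient.mk I)) ≫ x' =
          Spec.map (CommRingCat.ofHom g₀) ≫ hV.fromSpec → x' ≫ L.schemeNsmul n = y →
          x' = x := by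
  obtain ⟨U₀, hU₀, he⟩ := s26a4_exists_chart L
  -- the `K`-algebra structure of `B`
  letI algB : Algebra K B := RingHom.toAlgebra (Spec.preimage (y ≫ f)).hom
  have hstrB : s26a3Str K B = y ≫ f := Spec.map_preimage (y ≫ f)
  have hπ : Function.Surjective (Ideal.Quotient.mkₐ K I) := Ideal.Quotient.mkₐ_surjective K I
  have hkerπ : ∀ a ∈ RingHom.ker (Ideal.Quotient.mkₐ K I),
      ∀ b ∈ RingHom.ker (Ideal.Quotient.mkₐ K I), a * b = 0 := by
    have hk : RingHom.ker (Ideal.Quotient.mkₐ K I) = I := Ideal.Quotient.mkₐ_ker K I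
    rw [hk]
    exact s26a4_forall_of_sq_bot hI
  have hstrQ : Spec.map (CommRingCat.ofHom (Ideal.Quotient.mk I)) ≫ s26a3Str K B =
      s26a3Str K (B ⧸ I) := s26a3Str_comp (Ideal.Quotient.mkₐ K I)
  have hnf : L.schemeNsmul n ≫ f = f := L.schemeNsmul_over n
  -- the points
  have hx₀f : (Spec.map (CommRingCat.ofHom g₀) ≫ hV.fromSpec) ≫ f = s26a3Str K (B ⧸ I) :=
    calc (Spec.map (CommRingCat.ofHom g₀) ≫ hV.fromSpec) ≫ f
        = (Spec.map (CommRingCat.ofHom g₀) ≫ hV.fromSpec) ≫ (L.schemeNsmul n ≫ f) := by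
          rw [hnf]
      _ = ((Spec.map (CommRingCat.ofHom g₀) ≫ hV.fromSpec) ≫ L.schemeNsmul n) ≫ f :=
          (Category.assoc _ _ _).symm
      _ = (Spec.map (CommRingCat.ofHom (Ideal.Quotient.mk I)) ≫ y) ≫ f := by rw [hsq]
      _ = Spec.map (CommRingCat.ofHom (Ideal.Quotient.mk I)) ≫ (y ≫ f) := Category.assoc _ _ _
      _ = Spec.map (CommRingCat.ofHom (Ideal.Quotient.mk I)) ≫ s26a3Str K B := by rw [hstrB]
      _ = s26a3Str K (B ⧸ I) := hstrQ
  obtain ⟨g, hg1, hg2⟩ := s26a4_smooth_lift f hV B I hI g₀ hx₀f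
  let yP : S26a3Pt L hc B := ⟨y, hstrB.symm⟩
  let x₀P : S26a3Pt L hc (B ⧸ I) := ⟨Spec.map (CommRingCat.ofHom g₀) ≫ hV.fromSpec, hx₀f⟩
  let x'P : S26a3Pt L hc B := ⟨Spec.map (CommRingCat.ofHom g) ≫ hV.fromSpec, hg2⟩
  have hx' : s26a3PtMap L hc (Ideal.Quotient.mkₐ K I) x'P = x₀P := by
    apply s26a3_pt_ext
    rw [s26a3PtMap_val]
    show Spec.map (CommRingCat.ofHom (Ideal.Quotient.mk I)) ≫
      Spec.map (CommRingCat.ofHom g) ≫ hV.fromSpec = Spec.map (CommRingCat.ofHom g₀) ≫ hV.fromSpec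
    rw [← Category.assoc, ← Spec.map_comp, ← hg1]
    rfl
  have hx₀pow : x₀P ^ n = s26a3PtMap L hc (Ideal.Quotient.mkₐ K I) yP := by
    apply s26a3_pt_ext
    rw [s26a3_pt_pow_val, s26a3PtMap_val]
    exact hsq
  have hm : (n : K) * (n : K)⁻¹ = 1 := mul_inv_cancel₀ hn
  -- the kernel element
  have hz : s26a3PtMap L hc (Ideal.Quotient.mkₐ K I) (yP * (x'P ^ n)⁻¹) = 1 := by
    rw [map_mul, map_inv, map_pow, hx', hx₀pow, mul_inv_cancel]
  obtain ⟨w, ⟨hw1, hw2⟩, -⟩ := s26a3_pts_unique_div L hc hU₀ he (Ideal.Quotient.mkₐ K I) hπ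
    hkerπ n (n : K)⁻¹ hm (yP * (x'P ^ n)⁻¹) hz
  obtain ⟨w₁, -, hw₁⟩ := s26a3_pts_unique_div L hc hU₀ he (Ideal.Quotient.mkₐ K I) hπ
    hkerπ n (n : K)⁻¹ hm (1 : S26a3Pt L hc B) (map_one _)
  have huniq : ∀ d : S26a3Pt L hc B, s26a3PtMap L hc (Ideal.Quotient.mkₐ K I) d = 1 →
      d ^ n = 1 → d = 1 := by
    intro d hd1 hd2
    rw [hw₁ d hd1 hd2, hw₁ 1 (map_one _) (one_pow n)]
  have hxn : (x'P * w) ^ n = yP := by
    rw [mul_pow, hw2, mul_comm yP, mul_inv_cancel_left]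
  have hxπ : s26a3PtMap L hc (Ideal.Quotient.mkₐ K I) (x'P * w) = x₀P := by
    rw [map_mul, hx', hw1, mul_one]
  refine ⟨(x'P * w).1, ⟨?_, ?_⟩, ?_⟩
  · have h1 := congrArg Subtype.val hxπ
    rw [s26a3PtMap_val] at h1
    exact h1
  · have h1 := congrArg Subtype.val hxn
    rw [s26a3_pt_pow_val] at h1
    exact h1
  · intro x₁ hx₁1 hx₁2
    have hx₁f : x₁ ≫ f = s26a3Str K B :=
      calc x₁ ≫ f = x₁ ≫ (L.schemeNsmul n ≫ f) := by rw [hnf]
        _ = (x₁ ≫ L.schemeNsmul n) ≫ f := (Category.assoc _ _ _).symm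
        _ = y ≫ f := by rw [hx₁2]
        _ = s26a3Str K B := hstrB.symm
    let x₁P : S26a3Pt L hc B := ⟨x₁, hx₁f⟩
    have h1 : s26a3PtMap L hc (Ideal.Quotient.mkₐ K I) x₁P = x₀P := by
      apply s26a3_pt_ext
      rw [s26a3PtMap_val]
      exact hx₁1
    have h2 : x₁P ^ n = yP := by
      apply s26a3_pt_ext
      rw [s26a3_pt_pow_val]
      exact hx₁2
    have h3 : x₁P * (x'P * w)⁻¹ = 1 := by
      apply huniq
      · rw [map_mul, map_inv, h1, hxπ, mul_inv_cancel]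
      · rw [mul_pow, inv_pow, h2, hxn, mul_inv_cancel]
    have h4 : x₁P = x'P * w := mul_inv_eq_one.mp h3
    exact congrArg Subtype.val h4

/-- **A4: `[n]` is étale** for `n` invertible in `K`. -/
theorem s26a4_etale {K : Type u} [Field K] {A : Scheme.{u}} (f : A ⟶ Spec (CommRingCat.of K))
    [Smooth f] (L : RelativeGroupLaw K f) (hc : L.IsCommutative) (n : ℕ) (hn : (n : K) ≠ 0) :
    Etale (L.schemeNsmul n) := by
  haveI : LocallyOfFinitePresentation (L.schemeNsmul n ≫ f) := by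
    rw [L.schemeNsmul_over n]
    infer_instance
  exact s26a4_etale_of_lift (L.schemeNsmul n)
    (fun {U} hU {V} hV e => s26a4_fp_appLE_of_comp (L.schemeNsmul n) f hU hV e)
    (fun B _ I hI V hV g₀ y hsq => s26a4_filler f L hc n hn B I hI V hV g₀ y hsq)

end Fermat.Agent.S26
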