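/-
S26 (#A[n](K) = n^(2g)), Stage A, piece A5 (helper51): a finite étale cover has constant fibres.

Everything here is generic in the endomorphism `φ` (no group law is used):

* `s26a5_locallyQuasiFinite` : étale ⇒ locally quasi-finite (schemes);
* `s26a5_isFinite` : an étale endomorphism `φ` of a proper `S`-scheme `A` over `S` is finite
  (Zariski's main theorem, Mathlib);
* `s26a5_finrank_const` : the degree of a finite étale morphism to a connected scheme is a
  constant `d > 0`;
* `s26a5_card_sections` : for `K` algebraically closed and `π : P ⟶ Spec K` finite étale, the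
  number of sections of `π` is the degree of `π`;
* `s26a5_card_fibre_eq` : `#{x : Spec K ⟶ A // x ≫ φ = a} = φ.finrank (a pt)` for `φ` finite étale;
* `s26a5_card_fibre` : **the A5 statement**: `A` proper and connected over `K = K̄`, `φ : A ⟶ A`
  étale over `K`: there is `d > 0` such that every fibre of `φ` over a `K`-point has exactly
  `d` `K`-points.
-/
import Mathlib

set_option autoImplicit false
set_option linter.style.haveILetI false

namespace Fermat.Agent.S26

open CategoryTheory CategoryTheory.Limits AlgebraicGeometry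

universe u

/-- étale ring maps are quasi-finite -/
theorem s26a5_ringHom_quasiFinite {R S : Type u} [CommRing R] [CommRing S] (f : R →+* S)
    (hf : f.Etale) : f.QuasiFinite := by
  algebraize [f]
  have : Algebra.Etale R S := hf
  have : Algebra.FiniteType R S := inferInstance
  have : Algebra.EssFiniteType R S := inferInstance
  rw [← RingHom.algebraMap_toAlgebra f, RingHom.quasiFinite_algebraMap]
  infer_instance

/-- étale morphisms are locally quasi-finite -/
theorem s26a5_locallyQuasiFinite {X Y : Scheme.{u}} (f : X ⟶ Y) [Etale f] :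
    LocallyQuasiFinite f := by
  rw [HasRingHomProperty.iff_appLE (P := @LocallyQuasiFinite)]
  intro U V e
  exact s26a5_ringHom_quasiFinite _ (f.etale_appLE U.2 V.2 e)

/-- a proper étale morphism is finite -/
theorem s26a5_isFinite_of_proper {X Y : Scheme.{u}} (f : X ⟶ Y) [Etale f] [IsProper f] :
    IsFinite f :=
  haveI := s26a5_locallyQuasiFinite f
  IsFinite.of_isProper_of_locallyQuasiFinite f

/-- an étale endomorphism of a proper `S`-scheme over `S` is finite -/
theorem s26a5_isFinite {A S : Scheme.{u}} (f : A ⟶ S) [IsProper f]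
    (φ : A ⟶ A) (hφ : φ ≫ f = f) [Etale φ] : IsFinite φ := by
  haveI : IsProper (φ ≫ f) := by rw [hφ]; infer_instance
  haveI : IsProper φ := IsProper.of_comp φ f
  exact s26a5_isFinite_of_proper φ

/-- the degree of a finite étale morphism to a connected scheme is constant and positive
(the source being nonempty) -/
theorem s26a5_finrank_const {X Y : Scheme.{u}} (f : X ⟶ Y) [Etale f] [IsFinite f]
    [ConnectedSpace Y] [Nonempty X] :
    ∃ d : ℕ, 0 < d ∧ ∀ y : Y, f.finrank y = d := by
  have hloc : IsLocallyConstant f.finrank := Scheme.Hom.isLocallyConstant_finrank f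
  obtain ⟨x⟩ := ‹Nonempty X›
  refine ⟨f.finrank (f x), Scheme.Hom.one_le_finrank_map f x, fun y => ?_⟩
  exact hloc.apply_eq_of_preconnectedSpace y (f x)

/-- a finite étale algebra over a separably closed field has `finrank` many primes -/
theorem s26a5_card_primeSpectrum {K : Type u} [Field K] [IsSepClosed K] (B : Type u) [CommRing B]
    [Algebra K B] [Algebra.Etale K B] :
    Nat.card (PrimeSpectrum B) = Module.finrank K B := by
  haveI : Algebra.EssFiniteType K B := inferInstance
  haveI : Algebra.FormallyEtale K B := inferInstance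
  haveI : Module.Finite K B := Algebra.FormallyUnramified.finite_of_free K B
  haveI : IsArtinianRing B := isArtinian_of_tower K inferInstance
  haveI : Finite (PrimeSpectrum B) := inferInstance
  have e := (Algebra.FormallyEtale.equivPiOfIsSepClosed K B).toLinearEquiv
  letI := Fintype.ofFinite (PrimeSpectrum B)
  rw [e.finrank_eq, Module.finrank_pi, Nat.card_eq_fintype_card]

/-- all points of the spectrum of an artinian ring are closed -/
theorem s26a5_closedPoints_Spec (B : Type u) [CommRing B] [IsArtinianRing B] :
    closedPoints (Spec (CommRingCat.of B)) = Set.univ := by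
  ext x
  simp only [Set.mem_univ, iff_true]
  rw [mem_closedPoints_iff]
  haveI : (PrimeSpectrum.asIdeal x).IsPrime := x.isPrime
  exact (PrimeSpectrum.isClosed_singleton_iff_isMaximal x).mpr
    (IsArtinianRing.isMaximal_of_isPrime _)

/-- sections of `Spec B → Spec K` for a finite étale `K`-algebra `B`, `K` algebraically closed -/
theorem s26a5_card_sections_Spec {K : Type u} [Field K] [IsAlgClosed K] (B : Type u) [CommRing B]
    [Algebra K B] [Algebra.Etale K B] :
    Nat.card {s : Spec (CommRingCat.of K) ⟶ Spec (CommRingCat.of B) //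
      s ≫ Spec.map (CommRingCat.ofHom (algebraMap K B)) = 𝟙 _} = Module.finrank K B := by
  haveI : Module.Finite K B := Algebra.FormallyUnramified.finite_of_free K B
  haveI : IsArtinianRing B := isArtinian_of_tower K inferInstance
  haveI : LocallyOfFiniteType (Spec.map (CommRingCat.ofHom (algebraMap K B))) := by
    rw [HasRingHomProperty.Spec_iff (P := @LocallyOfFiniteType)]
    simp only [CommRingCat.hom_ofHom]
    rw [RingHom.finiteType_algebraMap]
    infer_instance
  rw [Nat.card_congr (pointEquivClosedPoint (Spec.map (CommRingCat.ofHom (algebraMap K B)))),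
    s26a5_closedPoints_Spec B, Nat.card_congr (Equiv.Set.univ _)]
  exact s26a5_card_primeSpectrum B

/-- sections of `Spec.map ψ` for finite étale `ψ` -/
theorem s26a5_card_sections_SpecMap {K : Type u} [Field K] [IsAlgClosed K] (B : CommRingCat.{u})
    (ψ : CommRingCat.of K ⟶ B) (hfin : ψ.hom.Finite) (het : ψ.hom.Etale)
    (y : Spec (CommRingCat.of K)) :
    Nat.card {s : Spec (CommRingCat.of K) ⟶ Spec B // s ≫ Spec.map ψ = 𝟙 _} =
      (Spec.map ψ).finrank y := by
  have hflat : ψ.hom.Flat := (RingHom.Etale.iff_flat_and_formallyUnramified.mp het).1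
  rw [Scheme.Hom.finrank_SpecMap_eq_finrank hfin hflat]
  algebraize [ψ.hom]
  haveI : Algebra.Etale K B := het
  have h2 := s26a5_card_sections_Spec (K := K) B
  have h3 : ψ.hom.finrank y = Module.rankAtStalk (R := K) B y := rfl
  rw [h3, Module.rankAtStalk_eq_finrank_of_free]
  exact h2

/-- sections of a finite étale morphism to `Spec K`, `K` algebraically closed -/
theorem s26a5_card_sections {K : Type u} [Field K] [IsAlgClosed K] {P : Scheme.{u}}
    (π : P ⟶ Spec (CommRingCat.of K)) [IsFinite π] [Etale π] (y : Spec (CommRingCat.of K)) :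
    Nat.card {s : Spec (CommRingCat.of K) ⟶ P // s ≫ π = 𝟙 _} = π.finrank y := by
  haveI : IsAffine P := isAffine_of_isAffineHom π
  let ψ : CommRingCat.of K ⟶ Γ(P, ⊤) := Spec.preimage (P.isoSpec.inv ≫ π)
  have hψ : Spec.map ψ = P.isoSpec.inv ≫ π := Spec.map_preimage _
  have hπ : π = P.isoSpec.hom ≫ Spec.map ψ := by rw [hψ, Iso.hom_inv_id_assoc]
  haveI : IsFinite (Spec.map ψ) := by rw [hψ]; infer_instance
  haveI : Etale (Spec.map ψ) := by rw [hψ]; infer_instance
  have hfin : ψ.hom.Finite := (IsFinite.SpecMap_iff ψ).mp inferInstance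
  have het : ψ.hom.Etale := (HasRingHomProperty.Spec_iff (P := @Etale)).mp inferInstance
  have key := s26a5_card_sections_SpecMap _ ψ hfin het y
  have hfr : π.finrank = (Spec.map ψ).finrank := by
    rw [hπ]; exact Scheme.Hom.finrank_comp_left_of_isIso _ _
  rw [hfr, ← key]
  refine Nat.card_congr
    { toFun := fun s => ⟨s.1 ≫ P.isoSpec.hom, ?_⟩
      invFun := fun s => ⟨s.1 ≫ P.isoSpec.inv, ?_⟩
      left_inv := fun s => ?_
      right_inv := fun s => ?_ }
  · rw [Category.assoc, ← hπ]; exact s.2
  · rw [hπ, Category.assoc, Iso.inv_hom_id_assoc]; exact s.2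
  · apply Subtype.ext; simp
  · apply Subtype.ext; simp

/-- the `K`-points of the fibre of `φ` over `a` are the sections of the base change of `φ` -/
noncomputable def s26a5FibreEquiv {A S : Scheme.{u}} (φ : A ⟶ A) (a : S ⟶ A) :
    {x : S ⟶ A // x ≫ φ = a} ≃ {s : S ⟶ pullback φ a // s ≫ pullback.snd φ a = 𝟙 _} where
  toFun x := ⟨pullback.lift x.1 (𝟙 _) (by rw [x.2, Category.id_comp]), pullback.lift_snd _ _ _⟩
  invFun s := ⟨s.1 ≫ pullback.fst φ a, by
    rw [Category.assoc, pullback.condition, ← Category.assoc, s.2, Category.id_comp]⟩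
  left_inv x := Subtype.ext (pullback.lift_fst _ _ _)
  right_inv s := by
    apply Subtype.ext
    apply pullback.hom_ext
    · exact pullback.lift_fst _ _ _
    · exact (pullback.lift_snd _ _ _).trans s.2.symm

/-- **fibre count**: for `φ : A ⟶ A` finite étale and `a` a `K`-valued point of `A`
(`K` algebraically closed), the fibre of `φ` over `a` has `φ.finrank (a y)` `K`-points. -/
theorem s26a5_card_fibre_eq {K : Type u} [Field K] [IsAlgClosed K] {A : Scheme.{u}}
    (φ : A ⟶ A) [IsFinite φ] [Etale φ] (a : Spec (CommRingCat.of K) ⟶ A)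
    (y : Spec (CommRingCat.of K)) :
    Nat.card {x : Spec (CommRingCat.of K) ⟶ A // x ≫ φ = a} = φ.finrank (a y) := by
  haveI : Flat φ := inferInstance
  rw [Nat.card_congr (s26a5FibreEquiv φ a), s26a5_card_sections (pullback.snd φ a) y,
    Scheme.Hom.finrank_pullback_snd]

/-- **A5**: `A` proper and connected over an algebraically closed field `K`, `φ : A ⟶ A` étale
over `K`.  Then `φ` is finite étale of constant degree `d > 0` and every fibre of `φ` over a
`K`-valued point has exactly `d` `K`-points. -/
theorem s26a5_card_fibre {K : Type u} [Field K] [IsAlgClosed K] {A : Scheme.{u}}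
    (f : A ⟶ Spec (CommRingCat.of K)) [IsProper f] (hconn : ConnectedSpace A)
    (φ : A ⟶ A) (hφ : φ ≫ f = f) [Etale φ] :
    ∃ d : ℕ, 0 < d ∧ ∀ a : Spec (CommRingCat.of K) ⟶ A,
      Nat.card {x : Spec (CommRingCat.of K) ⟶ A // x ≫ φ = a} = d := by
  haveI : IsFinite φ := s26a5_isFinite f φ hφ
  haveI : Nonempty A := hconn.toNonempty
  obtain ⟨d, hd, hconst⟩ := s26a5_finrank_const φ
  refine ⟨d, hd, fun a => ?_⟩
  rw [s26a5_card_fibre_eq φ a (IsLocalRing.closedPoint K), hconst]

/-- variant of A5 giving also surjectivity on `K`-points -/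
theorem s26a5_surjective {K : Type u} [Field K] [IsAlgClosed K] {A : Scheme.{u}}
    (f : A ⟶ Spec (CommRingCat.of K)) [IsProper f] (hconn : ConnectedSpace A)
    (φ : A ⟶ A) (hφ : φ ≫ f = f) [Etale φ] (a : Spec (CommRingCat.of K) ⟶ A) :
    ∃ x : Spec (CommRingCat.of K) ⟶ A, x ≫ φ = a := by
  obtain ⟨d, hd, h⟩ := s26a5_card_fibre f hconn φ hφ
  have h1 := h a
  have : Nonempty {x : Spec (CommRingCat.of K) ⟶ A // x ≫ φ = a} := by
    by_contra hne
    rw [not_nonempty_iff] at hne
    rw [Nat.card_of_isEmpty] at h1
    omega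
  obtain ⟨x, hx⟩ := this
  exact ⟨x, hx⟩

end Fermat.Agent.S26
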