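/-
S26, Stage A, piece A5 (helper51): bridge of `S26/A5.lean` to the prelude's `RelativeGroupLaw`.

* `s26a5_connectedSpace` : an abelian scheme over a field is a connected space;
* `s26a5_law_fibre` : if `[n] = L.schemeNsmul n` is étale, there is `d > 0` such that every fibre
  of `x ↦ n • x` on `A(K)` has exactly `d` elements; in particular `[n]` is surjective on `A(K)`
  and `#A[n](K) = d`  (`s26a5_law_card`, `s26a5_law_surj`).
-/
import Mathlib
import Fermat.Prelude.Def_JacJ1Iface
import Fermat.Prelude.Def_GoodReductionJacobian_RelativeGroupLawKernel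
import Fermat.Agent.S26.A1
import Fermat.Agent.S26.A5

set_option autoImplicit false
set_option linter.style.haveILetI false

namespace Fermat.Agent.S26

open CategoryTheory CategoryTheory.Limits AlgebraicGeometry NeronModelInfra GoodReductionJacobian

universe u

variable {K : Type u} [Field K] {A : Scheme.{u}} {f : A ⟶ Spec (CommRingCat.of K)}

/-- an abelian scheme over a field is connected -/
theorem s26a5_connectedSpace (hA : AbelianSchemePropertyBundle K f) : ConnectedSpace A := by
  have h := hA.connectedFibres (IsLocalRing.closedPoint K)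
  have huniv : (f.base ⁻¹' {IsLocalRing.closedPoint K}) = Set.univ := by
    ext x
    simp only [Set.mem_preimage, Set.mem_univ, iff_true]
    exact Subsingleton.elim _ _
  exact connectedSpace_iff_univ.mpr (huniv ▸ h)

variable [IsAlgClosed K]

/-- the fibres of `x ↦ n • x` on `A(K)` as fibres of the morphism `[n]` -/
noncomputable def s26a5LawEquiv (L : RelativeGroupLaw K f) (n : ℕ)
    (y : SchemeHomOver (𝟙 (Spec (CommRingCat.of K))) f) :
    {x : SchemeHomOver (𝟙 (Spec (CommRingCat.of K))) f // L.nsmul (𝟙 _) n x = y} ≃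
      {x : Spec (CommRingCat.of K) ⟶ A // x ≫ L.schemeNsmul n = y.1} where
  toFun x := ⟨x.1.1, by rw [← s26a1_nsmul_eq L (𝟙 _) n x.1, x.2]⟩
  invFun x := ⟨⟨x.1, by
      have h := congrArg (· ≫ f) x.2
      simp only [Category.assoc, L.schemeNsmul_over] at h
      rw [h]; exact y.2⟩, by
    apply Subtype.ext
    rw [s26a1_nsmul_eq L (𝟙 _) n]
    exact x.2⟩
  left_inv x := rfl
  right_inv x := rfl

/-- **A5 for a group law**: if `[n]` is étale then all fibres of `n •` on `A(K)` have the same
positive cardinality `d`. -/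
theorem s26a5_law_fibre (L : RelativeGroupLaw K f) (hA : AbelianSchemePropertyBundle K f)
    (n : ℕ) [Etale (L.schemeNsmul n)] :
    ∃ d : ℕ, 0 < d ∧ ∀ y : SchemeHomOver (𝟙 (Spec (CommRingCat.of K))) f,
      Nat.card {x : SchemeHomOver (𝟙 (Spec (CommRingCat.of K))) f // L.nsmul (𝟙 _) n x = y} = d := by
  haveI : IsProper f := hA.proper
  obtain ⟨d, hd, h⟩ := s26a5_card_fibre f (s26a5_connectedSpace hA) (L.schemeNsmul n)
    (L.schemeNsmul_over n)
  exact ⟨d, hd, fun y => by rw [Nat.card_congr (s26a5LawEquiv L n y), h y.1]⟩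

/-- `#A[n](K) = d` and `[n]` is surjective on `A(K)` when `[n]` is étale -/
theorem s26a5_law_card (L : RelativeGroupLaw K f) (hA : AbelianSchemePropertyBundle K f)
    (n : ℕ) [Etale (L.schemeNsmul n)] :
    ∃ d : ℕ, 0 < d ∧
      (∀ y : SchemeHomOver (𝟙 (Spec (CommRingCat.of K))) f,
        ∃ x : SchemeHomOver (𝟙 (Spec (CommRingCat.of K))) f, L.nsmul (𝟙 _) n x = y) ∧
      (∀ y : SchemeHomOver (𝟙 (Spec (CommRingCat.of K))) f,
        Nat.card {x : SchemeHomOver (𝟙 (Spec (CommRingCat.of K))) f //
          L.nsmul (𝟙 _) n x = y} = d) ∧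
      Nat.card {x : SchemeHomOver (𝟙 (Spec (CommRingCat.of K))) f //
        L.IsTorsionPoint (𝟙 (Spec (CommRingCat.of K))) n x} = d := by
  obtain ⟨d, hd, h⟩ := s26a5_law_fibre L hA n
  refine ⟨d, hd, fun y => ?_, h, h (L.one (𝟙 _))⟩
  have h1 := h y
  have : Nonempty {x : SchemeHomOver (𝟙 (Spec (CommRingCat.of K))) f //
      L.nsmul (𝟙 _) n x = y} := by
    by_contra hne
    rw [not_nonempty_iff] at hne
    rw [Nat.card_of_isEmpty] at h1
    omega
  obtain ⟨x, hx⟩ := this
  exact ⟨x, hx⟩

end Fermat.Agent.S26
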