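import Fermat.Agent.S26.PlanGeo
import Fermat.Agent.S26.F1Gen

/-!
# S26 / F1 (helper19): the pull-back `ψ^*` on `K(A)`, in the captain's interface

Setting of `S26/PlanGeo.lean`: `f : A ⟶ Spec K`, `A` integral, `s26F f = K(A)` as a `K`-algebra.

* `s26f1PullAlg f ψ hψ : s26F f →ₐ[K] s26F f` for a dominant `ψ : A ⟶ A` over `K`;
* `s26f1_isPull` : it satisfies `s26IsPull f ψ`;  `s26f1_exists_isPull`;
* `s26f1_isPull_unique` : uniqueness of the pull-back (no hypothesis on `ψ`);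
* `s26f1_isPull_comp` : composition;
* `stmtPullComp : s26_StmtPullComp` (F1-fun);
* `s26f1_isPull_eq` : for dominant `ψ`, a pull-back is `s26f1Pull ψ`;
* `s26f1_ord_isPull` : for `ψ` dominant, flat, unramified, locally of finite type and `z` with
  `O_{A,z}` a discrete valuation ring: `coheight (ψ z) = 1` and
  `s26ord f (φ x) z = s26ord f x (ψ z)`;
* `s26f1_b1_set` : (b1) on the level of `s26Lset`: `x ∈ L(U,m) ⇒ φ x ∈ L(ψ⁻¹U, m)`.
-/

set_option autoImplicit false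
set_option linter.style.haveILetI false
set_option linter.unusedSectionVars false
set_option linter.overlappingInstances false

noncomputable section

namespace Fermat.Agent.S26

open CategoryTheory CategoryTheory.Limits AlgebraicGeometry TopologicalSpace

universe u

variable {K : Type u} [Field K] {A : Scheme.{u}} (f : A ⟶ Spec (CommRingCat.of K))
  [IsIntegral A]

/-- The pull-back commutes with the structure map `K → K(A)`. -/
theorem s26f1Pull_algMap (ψ : A ⟶ A) [IsDominant ψ] (hψ : ψ ≫ f = f) (c : K) :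
    s26f1Pull ψ (s26algMap f c) = s26algMap f c := by
  haveI : Nonempty (⊤ : A.Opens) := ⟨⟨genericPoint A, trivial⟩⟩
  haveI : Nonempty (ψ ⁻¹ᵁ (⊤ : A.Opens)) := ⟨⟨genericPoint A, trivial⟩⟩
  change s26f1Pull ψ ((A.germToFunctionField ⊤).hom
    ((f.appTop).hom ((Scheme.ΓSpecIso (CommRingCat.of K)).inv.hom c))) =
    (A.germToFunctionField ⊤).hom
      ((f.appTop).hom ((Scheme.ΓSpecIso (CommRingCat.of K)).inv.hom c))
  rw [s26f1Pull_germ]
  have h1 : (ψ.app ⊤).hom ((f.appTop).hom ((Scheme.ΓSpecIso (CommRingCat.of K)).inv.hom c)) =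
      ((ψ ≫ f).appTop).hom ((Scheme.ΓSpecIso (CommRingCat.of K)).inv.hom c) := rfl
  have h2 : (ψ ≫ f).appTop = f.appTop := by rw [hψ]
  rw [h1, h2]
  rfl

/-- **The pull-back as a `K`-algebra homomorphism.** -/
def s26f1PullAlg (ψ : A ⟶ A) [IsDominant ψ] (hψ : ψ ≫ f = f) : s26F f →ₐ[K] s26F f :=
  { (s26f1Pull ψ : A.functionField →+* A.functionField) with
    commutes' := fun c => s26f1Pull_algMap f ψ hψ c }

theorem s26f1PullAlg_apply (ψ : A ⟶ A) [IsDominant ψ] (hψ : ψ ≫ f = f) (x : s26F f) :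
    s26f1PullAlg f ψ hψ x = s26f1Pull ψ x := rfl

/-- `s26f1PullAlg` is a pull-back in the sense of the interface. -/
theorem s26f1_isPull (ψ : A ⟶ A) [IsDominant ψ] (hψ : ψ ≫ f = f) :
    s26IsPull f ψ (s26f1PullAlg f ψ hψ) := by
  intro V hV hV' s
  exact s26f1Pull_germ ψ V s

theorem s26f1_exists_isPull (ψ : A ⟶ A) [IsDominant ψ] (hψ : ψ ≫ f = f) :
    ∃ φ : s26F f →ₐ[K] s26F f, s26IsPull f ψ φ :=
  ⟨_, s26f1_isPull f ψ hψ⟩

/-- there is a nonempty affine open whose preimage is nonempty -/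
theorem s26f1_exists_affine (ψ : A ⟶ A) :
    ∃ V : A.Opens, IsAffineOpen V ∧ Nonempty V ∧ Nonempty (ψ ⁻¹ᵁ V) := by
  obtain ⟨V, hV, hxV⟩ : ∃ V : A.Opens, IsAffineOpen V ∧ ψ (genericPoint A) ∈ V := by
    obtain ⟨_, ⟨V, hV, rfl⟩, hxV, -⟩ :=
      A.isBasis_affineOpens.exists_subset_of_mem_open
        (Set.mem_univ (ψ (genericPoint A))) isOpen_univ
    exact ⟨V, hV, hxV⟩
  exact ⟨V, hV, ⟨⟨_, hxV⟩⟩, ⟨⟨genericPoint A, hxV⟩⟩⟩

/-- the underlying ring homomorphism of `K(A)` -/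
def s26f1Hom (φ : s26F f →ₐ[K] s26F f) : A.functionField →+* A.functionField :=
  (φ.toRingHom : s26F f →+* s26F f)

theorem s26f1Hom_apply (φ : s26F f →ₐ[K] s26F f) (x : s26F f) : s26f1Hom f φ x = φ x := rfl

/-- **Uniqueness of the pull-back.** -/
theorem s26f1_isPull_unique (ψ : A ⟶ A) (φ φ₂ : s26F f →ₐ[K] s26F f)
    (h : s26IsPull f ψ φ) (h₂ : s26IsPull f ψ φ₂) : φ₂ = φ := by
  obtain ⟨V, hV, hV1, hV2⟩ := s26f1_exists_affine ψ
  have h3 : s26f1Hom f φ₂ = s26f1Hom f φ := by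
    refine s26f1_hom_ext hV ?_
    intro s
    exact (h₂ V hV1 hV2 s).trans (h V hV1 hV2 s).symm
  ext x
  exact congrArg (fun g : A.functionField →+* A.functionField => g x) h3

/-- **Composition of pull-backs.** -/
theorem s26f1_isPull_comp (ψ ψ' : A ⟶ A) (φ φ' : s26F f →ₐ[K] s26F f)
    (h : s26IsPull f ψ φ) (h' : s26IsPull f ψ' φ') : s26IsPull f (ψ ≫ ψ') (φ.comp φ') := by
  intro V hV hV' s
  obtain ⟨⟨x, hx⟩⟩ := hV'
  have n1 : Nonempty (ψ' ⁻¹ᵁ V) := ⟨⟨ψ x, hx⟩⟩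
  have n2 : Nonempty (ψ ⁻¹ᵁ (ψ' ⁻¹ᵁ V)) := ⟨⟨x, hx⟩⟩
  rw [AlgHom.comp_apply, h' V hV n1 s, h (ψ' ⁻¹ᵁ V) n1 n2]
  rfl

/-- **F1-fun** -/
theorem stmtPullComp : s26_StmtPullComp.{u} := by
  intro K _ A f _ ψ ψ' φ φ' h h'
  exact ⟨fun φ₂ h₂ => s26f1_isPull_unique f ψ φ φ₂ h h₂, s26f1_isPull_comp f ψ ψ' φ φ' h h'⟩

/-- For dominant `ψ`, a pull-back is `s26f1Pull ψ`. -/
theorem s26f1_isPull_eq (ψ : A ⟶ A) [IsDominant ψ] (φ : s26F f →ₐ[K] s26F f)
    (h : s26IsPull f ψ φ) (x : s26F f) : φ x = s26f1Pull ψ x := by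
  have h1 : s26f1Hom f φ = s26f1Pull ψ :=
    s26f1Pull_unique ψ _ (fun V hV hV' s => h V hV hV' s)
  exact congrArg (fun g : A.functionField →+* A.functionField => g x) h1

section Ord

variable [IsLocallyNoetherian A]

/-- **Orders of vanishing along a pull-back** by a flat unramified morphism. -/
theorem s26f1_ord_isPull (ψ : A ⟶ A) [IsDominant ψ] [Flat ψ] [FormallyUnramified ψ]
    [LocallyOfFiniteType ψ] (φ : s26F f →ₐ[K] s26F f) (h : s26IsPull f ψ φ)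
    (z : A) [IsDiscreteValuationRing (A.presheaf.stalk z)] :
    Order.coheight (ψ z) = 1 ∧ ∀ x : s26F f, s26ord f (φ x) z = s26ord f x (ψ z) := by
  refine ⟨s26f1_coheight ψ z, fun x => ?_⟩
  rw [s26f1_isPull_eq f ψ φ h x]
  exact s26f1_ord ψ z x

/-- **(b1)** on the level of `s26Lset`. -/
theorem s26f1_b1_set (ψ : A ⟶ A) [IsDominant ψ] [Flat ψ] [FormallyUnramified ψ]
    [LocallyOfFiniteType ψ] (φ : s26F f →ₐ[K] s26F f) (h : s26IsPull f ψ φ)
    (hdvr : ∀ z : A, Order.coheight z = 1 → IsDiscreteValuationRing (A.presheaf.stalk z))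
    (U : A.Opens) (m : ℕ) (x : s26F f) (hx : x ∈ s26Lset f U m) :
    φ x ∈ s26Lset f (ψ ⁻¹ᵁ U) m := by
  intro z hz
  haveI := hdvr z hz
  obtain ⟨hw, ho⟩ := s26f1_ord_isPull f ψ φ h z
  rw [ho x]
  exact ⟨fun hzU => (hx (ψ z) hw).1 hzU, (hx (ψ z) hw).2⟩

end Ord

end Fermat.Agent.S26
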