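/-
S26, Stage A, piece A5 (helper51), part 2: the degree of the function field extension.

* `s26a5_frac_etale` (pure algebra): `R ⊆ S` domains, `S` finite étale over `R`; then
  `Frac S / Frac R` is finite separable of degree the rank of `S` over `R`;
* `s26a5_finrank_affine` : `ψ.finrank` on an affine open `V` is the rank of `Γ(ψ⁻¹V)` over `Γ(V)`;
* `s26a5_deg` : for a finite étale endomorphism `ψ` of the integral `K`-scheme `A` and a pull-back
  `φ` of functions along `ψ` (`s26IsPull f ψ φ`): `K(A) / φ K(A)` is finite separable and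
  `[K(A) : φ K(A)] = ψ.finrank a` for every point `a`;
* `s26a5_stmtDeg_of_etale` : **`s26_StmtDeg`** from A4 (`[N]` étale for `(N : K) ≠ 0`).
-/
import Fermat.Agent.S26.PlanGeo
import Fermat.Agent.S26.F1
import Fermat.Agent.S26.A5Law

set_option autoImplicit false
set_option linter.style.haveILetI false

namespace Fermat.Agent.S26

open CategoryTheory CategoryTheory.Limits AlgebraicGeometry TensorProduct NeronModelInfra
  GoodReductionJacobian

universe u

/-- **finite étale extension of domains, generic fibre**: `R ⊆ S` domains, `S` finite étale over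
`R`, `F₁ = Frac R`, `F₂ = Frac S`.  Then `F₂ / F₁` is finite separable of degree the rank of `S`. -/
theorem s26a5_frac_etale (R S F₁ F₂ : Type u) [CommRing R] [CommRing S] [Field F₁] [Field F₂]
    [IsDomain R] [IsDomain S]
    [Algebra R S] [Algebra R F₁] [Algebra S F₂] [Algebra F₁ F₂] [Algebra R F₂]
    [IsScalarTower R F₁ F₂] [IsScalarTower R S F₂] [IsFractionRing R F₁] [IsFractionRing S F₂]
    [Module.Finite R S] [Algebra.Etale R S] :
    Module.Finite F₁ F₂ ∧ Algebra.IsSeparable F₁ F₂ ∧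
      ∀ x : PrimeSpectrum F₁,
        Module.finrank F₁ F₂ = Module.rankAtStalk S (PrimeSpectrum.comap (algebraMap R F₁) x) := by
  have hinj : Function.Injective (algebraMap R S) := by
    have h1 : Function.Injective (algebraMap R F₂) := by
      rw [IsScalarTower.algebraMap_eq R F₁ F₂]
      exact (algebraMap F₁ F₂).injective.comp (IsFractionRing.injective R F₁)
    rw [IsScalarTower.algebraMap_eq R S F₂] at h1
    exact Function.Injective.of_comp h1
  haveI : FaithfulSMul R S := (faithfulSMul_iff_algebraMap_injective R S).mpr hinj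
  haveI : Algebra.IsIntegral R S := inferInstance
  haveI : Algebra.IsAlgebraic R S := inferInstance
  haveI hpo : Algebra.IsPushout R F₁ S F₂ := inferInstance
  haveI hpo' : Algebra.IsPushout R S F₁ F₂ := inferInstance
  let e : F₁ ⊗[R] S ≃ₐ[F₁] F₂ := Algebra.IsPushout.equiv R F₁ S F₂
  haveI : Module.Finite F₁ F₂ := Module.Finite.equiv e.toLinearEquiv
  haveI : Algebra.Etale F₁ F₂ := Algebra.Etale.of_equiv e
  haveI : Module.Flat R S := inferInstance
  refine ⟨inferInstance, ?_, fun x => ?_⟩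
  · exact (Algebra.FormallyEtale.iff_isSeparable F₁ F₂).mp inferInstance
  · rw [← Algebra.rankAtStalk_eq_of_isPushout R S F₁ F₂ x, Module.rankAtStalk_eq_finrank_of_free]
    rfl

/-- the rank of `ψ` at a point of an affine open `V` is the rank of `Γ(ψ⁻¹V)` over `Γ(V)` -/
theorem s26a5_finrank_affine {X Y : Scheme.{u}} (ψ : X ⟶ Y) [IsFinite ψ] [Flat ψ]
    (V : Y.Opens) (hV : IsAffineOpen V) (y : Spec Γ(Y, V)) :
    ψ.finrank (hV.fromSpec y) = (ψ.app V).hom.finrank y := by
  have hU : IsAffineOpen (ψ ⁻¹ᵁ V) := hV.preimage ψ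
  have H : hU.fromSpec ≫ ψ = Spec.map (ψ.app V) ≫ hV.fromSpec := by
    rw [Scheme.Hom.app_eq_appLE]
    exact (IsAffineOpen.SpecMap_appLE_fromSpec ψ hV hU le_rfl).symm
  have hpb : IsPullback (Spec.map (ψ.app V)) hU.fromSpec hV.fromSpec ψ :=
    IsOpenImmersion.isPullback _ _ _ _ H (by rw [hV.opensRange_fromSpec, hU.opensRange_fromSpec])
  have h1 := Scheme.Hom.finrank_of_isPullback _ _ _ _ hpb.flip y
  rw [← h1]
  have hfin : (ψ.app V).hom.Finite := ψ.finite_app V hV
  have hflat : (ψ.app V).hom.Flat := by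
    have := ψ.flat_appLE hV hU le_rfl
    rwa [Scheme.Hom.appLE_eq_app] at this
  rw [Scheme.Hom.finrank_SpecMap_eq_finrank hfin hflat]

/-- the rank of a finite étale morphism to a connected scheme is constant -/
theorem s26a5_finrank_eq {X Y : Scheme.{u}} (ψ : X ⟶ Y) [IsFinite ψ] [Etale ψ]
    [PreconnectedSpace Y] (a b : Y) : ψ.finrank a = ψ.finrank b :=
  (Scheme.Hom.isLocallyConstant_finrank ψ).apply_eq_of_preconnectedSpace a b

/-- **degree of the function field extension** of a finite étale endomorphism `ψ` of an integral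
scheme: if `F₂` is a copy of the function field which is an algebra over `K(A)` by the pull-back
along `ψ`, then `F₂ / K(A)` is finite separable of degree `ψ.finrank`. -/
theorem s26a5_deg_abstract {A : Scheme.{u}} [IsIntegral A] (ψ : A ⟶ A) [IsFinite ψ] [Etale ψ]
    (V : A.Opens) (hV : IsAffineOpen V) [Nonempty V] [Nonempty (ψ ⁻¹ᵁ V)]
    (F₂ : Type u) [Field F₂] [Algebra A.functionField F₂] [Algebra Γ(A, ψ ⁻¹ᵁ V) F₂]
    [IsFractionRing Γ(A, ψ ⁻¹ᵁ V) F₂]
    (hc : ∀ s : Γ(A, V), algebraMap A.functionField F₂ (A.germToFunctionField V s) =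
        algebraMap Γ(A, ψ ⁻¹ᵁ V) F₂ ((ψ.app V).hom s)) :
    Module.Finite A.functionField F₂ ∧ Algebra.IsSeparable A.functionField F₂ ∧
      ∀ a : A, Module.finrank A.functionField F₂ = ψ.finrank a := by
  have hU : IsAffineOpen (ψ ⁻¹ᵁ V) := hV.preimage ψ
  letI : Algebra Γ(A, V) Γ(A, ψ ⁻¹ᵁ V) := (ψ.app V).hom.toAlgebra
  letI : Algebra Γ(A, V) F₂ :=
    ((algebraMap A.functionField F₂).comp (algebraMap Γ(A, V) A.functionField)).toAlgebra
  haveI : IsScalarTower Γ(A, V) A.functionField F₂ := IsScalarTower.of_algebraMap_eq fun _ => rfl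
  haveI : IsScalarTower Γ(A, V) Γ(A, ψ ⁻¹ᵁ V) F₂ := IsScalarTower.of_algebraMap_eq fun s => hc s
  haveI : IsFractionRing Γ(A, V) A.functionField :=
    functionField_isFractionRing_of_isAffineOpen A V hV
  have hfin : (ψ.app V).hom.Finite := ψ.finite_app V hV
  have het : (ψ.app V).hom.Etale := by
    have := ψ.etale_appLE hV hU le_rfl
    rwa [Scheme.Hom.appLE_eq_app] at this
  haveI : Module.Finite Γ(A, V) Γ(A, ψ ⁻¹ᵁ V) := hfin
  haveI : Algebra.Etale Γ(A, V) Γ(A, ψ ⁻¹ᵁ V) := het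
  obtain ⟨h1, h2, h3⟩ := s26a5_frac_etale Γ(A, V) Γ(A, ψ ⁻¹ᵁ V) A.functionField F₂
  refine ⟨h1, h2, fun a => ?_⟩
  let x : PrimeSpectrum A.functionField := ⟨⊥, Ideal.isPrime_bot⟩
  rw [h3 x]
  haveI : Flat ψ := inferInstance
  have h4 := s26a5_finrank_affine ψ V hV (PrimeSpectrum.comap (algebraMap Γ(A, V) A.functionField) x)
  rw [s26a5_finrank_eq ψ a _, h4]
  rfl

/-- a finite étale endomorphism of an integral scheme is surjective -/
theorem s26a5_surj_of_integral {A : Scheme.{u}} [IsIntegral A] (ψ : A ⟶ A) [IsFinite ψ]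
    [Etale ψ] : Surjective ψ := by
  haveI : Flat ψ := inferInstance
  haveI : Nonempty A := inferInstance
  haveI : ConnectedSpace A := inferInstance
  obtain ⟨d, hd, h⟩ := s26a5_finrank_const ψ
  rw [← Scheme.Hom.one_le_finrank_iff_surjective]
  intro y
  rw [h y]
  exact hd

variable {K : Type u} [Field K] {A : Scheme.{u}} (f : A ⟶ Spec (CommRingCat.of K))

/-- **A5-deg**: the function field extension `K(A) / ψ^* K(A)` of a finite étale endomorphism
`ψ` of the integral scheme `A` is finite separable of degree `ψ.finrank`. -/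
theorem s26a5_deg [IsIntegral A] (ψ : A ⟶ A) [IsFinite ψ] [Etale ψ]
    (φ : s26F f →ₐ[K] s26F f) (hφ : s26IsPull f ψ φ) :
    Module.Finite φ.fieldRange (s26F f) ∧ Algebra.IsSeparable φ.fieldRange (s26F f) ∧
      ∀ a : A, Module.finrank φ.fieldRange (s26F f) = ψ.finrank a := by
  -- an affine open
  obtain ⟨x₀⟩ : Nonempty A := inferInstance
  obtain ⟨V, hV, hxV, -⟩ := (TopologicalSpace.Opens.isBasis_iff_nbhd.mp
    (Scheme.isBasis_affineOpens A)) (show x₀ ∈ (⊤ : A.Opens) from trivial)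
  haveI : Nonempty V := ⟨⟨x₀, hxV⟩⟩
  haveI hsurj : Surjective ψ := s26a5_surj_of_integral ψ
  haveI : Nonempty (ψ ⁻¹ᵁ V) := by
    obtain ⟨x₁, hx₁⟩ := ψ.surjective x₀
    exact ⟨⟨x₁, by show ψ x₁ ∈ V; rw [hx₁]; exact hxV⟩⟩
  have hU : IsAffineOpen (ψ ⁻¹ᵁ V) := IsAffineOpen.preimage hV ψ
  letI i1 : Algebra A.functionField (s26F f) := (φ : s26F f →+* s26F f).toAlgebra
  letI i2 : Algebra Γ(A, ψ ⁻¹ᵁ V) (s26F f) := (s26germ f (ψ ⁻¹ᵁ V)).toAlgebra
  haveI i3 : IsFractionRing Γ(A, ψ ⁻¹ᵁ V) (s26F f) :=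
    functionField_isFractionRing_of_isAffineOpen A _ hU
  obtain ⟨h1, h2, h3⟩ := s26a5_deg_abstract ψ V hV (s26F f) (fun s => hφ V ‹_› ‹_› s)
  let e₁ : A.functionField ≃+* φ.fieldRange := (AlgEquiv.ofInjectiveField φ).toRingEquiv
  have he : (algebraMap φ.fieldRange (s26F f)).comp (e₁ : A.functionField →+* φ.fieldRange) =
      ((RingEquiv.refl (s26F f) : s26F f →+* s26F f)).comp
        (algebraMap A.functionField (s26F f)) := by
    ext x
    rfl
  refine ⟨Module.Finite.of_equiv_equiv e₁ (RingEquiv.refl _) he,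
    Algebra.IsSeparable.of_equiv_equiv e₁ (RingEquiv.refl _) he, fun a => ?_⟩
  rw [← h3 a]
  exact (Algebra.finrank_eq_of_equiv_equiv e₁ (RingEquiv.refl _) he).symm

/-- the cardinality of a fibre of a finite étale `ψ` over a `K`-point is the degree of the
function field extension -/
theorem s26a5_card_fibre_deg [IsAlgClosed K] [IsIntegral A] (ψ : A ⟶ A) [IsFinite ψ] [Etale ψ]
    (φ : s26F f →ₐ[K] s26F f) (hφ : s26IsPull f ψ φ) (a : Spec (CommRingCat.of K) ⟶ A) :
    Nat.card {x : Spec (CommRingCat.of K) ⟶ A // x ≫ ψ = a} =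
      Module.finrank φ.fieldRange (s26F f) := by
  rw [s26a5_card_fibre_eq ψ a (IsLocalRing.closedPoint K), (s26a5_deg f ψ φ hφ).2.2]

/-- **A4** as a Prop: `[N]` is étale when `(N : K) ≠ 0`. -/
def s26a5_StmtEtale : Prop :=
  ∀ (K : Type u) [Field K] {A : Scheme.{u}} (f : A ⟶ Spec (CommRingCat.of K))
    (G : RelativeGroupLaw K f) (g : ℕ), S26Hyp K f G g →
    ∀ N : ℕ, (N : K) ≠ 0 → Etale (G.schemeNsmul N)

/-- **`s26_StmtDeg`** from A4 (everything else is proved: F1 by helper19, A5 here). -/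
theorem s26a5_stmtDeg_of_etale (hA4 : s26a5_StmtEtale.{u}) : s26_StmtDeg.{u} := by
  intro K _ A f G g hyp _ N hN
  haveI : IsAlgClosed K := hyp.algClosed
  haveI : Etale (G.schemeNsmul N) := hA4 K f G g hyp N hN
  haveI : IsProper f := hyp.bundle.proper
  haveI : IsFinite (G.schemeNsmul N) := s26a5_isFinite f _ (G.schemeNsmul_over N)
  haveI : Surjective (G.schemeNsmul N) := s26a5_surj_of_integral _
  haveI : IsDominant (G.schemeNsmul N) := inferInstance
  refine ⟨s26f1PullAlg f (G.schemeNsmul N) (G.schemeNsmul_over N),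
    s26f1_isPull f _ _, ?_⟩
  obtain ⟨h1, h2, h3⟩ := s26a5_deg f (G.schemeNsmul N) _
    (s26f1_isPull f (G.schemeNsmul N) (G.schemeNsmul_over N))
  refine ⟨h1, h2, ?_⟩
  have hcard := s26a5_card_fibre_deg f (G.schemeNsmul N) _
    (s26f1_isPull f (G.schemeNsmul N) (G.schemeNsmul_over N))
    (G.one (𝟙 (Spec (CommRingCat.of K)))).1
  rw [← hcard]
  exact (Nat.card_congr (s26a5LawEquiv G N (G.one (𝟙 _)))).symm

end Fermat.Agent.S26
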