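/-
S26, Stage A, piece A4 (helper33): `s26a5_StmtEtale` (the input of helper51's A5) and hence
`s26_StmtDeg`.
-/
import Mathlib
import Fermat.Agent.S26.A4
import Fermat.Agent.S26.A5Deg

set_option autoImplicit false

namespace Fermat.Agent.S26

open CategoryTheory CategoryTheory.Limits AlgebraicGeometry NeronModelInfra GoodReductionJacobian

universe u

/-- **A4**: `[N]` is étale for `N` invertible in `K`. -/
theorem s26a4_stmtEtale : s26a5_StmtEtale.{u} := by
  intro K _ A f G g hyp N hN
  haveI : SmoothOfRelativeDimension g f := hyp.smooth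
  haveI : Smooth f := SmoothOfRelativeDimension.smooth g f
  exact s26a4_etale f G hyp.comm N hN

/-- `s26_StmtDeg`, unconditionally. -/
theorem s26a4_stmtDeg : s26_StmtDeg.{u} := s26a5_stmtDeg_of_etale s26a4_stmtEtale

end Fermat.Agent.S26
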