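/-
S26-E, piece E-M part (b) (helper5): INTERFACE, the GENERATOR SIDE.

* `s26emGen_fromSpecStalk_comp` : `ψ : X ⟶ Y`, `c : X`, `e` a local equation of `Y ∖ U` at `ψ c`:
  the generator of `Spec 𝒪_{X,c} ⟶ X ⟶ Y` is `ψ^* e ∈ 𝒪_{X,c}` (up to a unit);
* `s26emGen_fromSpecStalk`      : the case `ψ = 𝟙`: the generator of `Spec 𝒪_{X,c} ⟶ X` is a local
  equation at `c`.
-/
import Fermat.Agent.S26.EMFun

set_option autoImplicit false
set_option linter.style.haveILetI false
set_option linter.unusedVariables false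
set_option linter.unusedSectionVars false

noncomputable section

namespace Fermat.Agent.S26

open AlgebraicGeometry CategoryTheory

universe u

variable {X Y : Scheme.{u}}

/-- `ev` of `Spec 𝒪_{X,c} ⟶ X ⟶ Y` is the stalk map of `ψ` at `c`. -/
theorem s26em_stalkClosedPointTo_fromSpecStalk_comp (ψ : X ⟶ Y) (c : X)
    (hs : s26emCentre (X.fromSpecStalk c ≫ ψ) ⤳ ψ c) :
    Y.presheaf.stalkSpecializes hs ≫ Scheme.stalkClosedPointTo (X.fromSpecStalk c ≫ ψ) =
      ψ.stalkMap c := by
  have hc : (X.fromSpecStalk c) (IsLocalRing.closedPoint (X.presheaf.stalk c)) = c :=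
    Scheme.fromSpecStalk_closedPoint
  rw [Scheme.stalkClosedPointTo_comp, Scheme.stalkClosedPointTo_fromSpecStalk,
    TopCat.Presheaf.stalkCongr_hom]
  have h1 := Scheme.Hom.stalkSpecializes_stalkMap ψ _ _ (specializes_of_eq hc)
  refine (Category.assoc _ _ _).symm.trans ?_
  refine (congrArg (fun q => q ≫ X.presheaf.stalkSpecializes _) h1).trans ?_
  refine (Category.assoc _ _ _).trans ?_
  refine (congrArg (fun q => ψ.stalkMap c ≫ q)
    (TopCat.Presheaf.stalkSpecializes_comp X.presheaf _ _)).trans ?_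
  exact (congrArg (fun q => ψ.stalkMap c ≫ q) (TopCat.Presheaf.stalkSpecializes_refl _ c)).trans
    (Category.comp_id _)

variable [IsIntegral Y] [IsLocallyNoetherian Y] {U : Y.Opens}

/-- the generator of `Spec 𝒪_{X,c} ⟶ X ⟶ Y` is the pull-back of a local equation at `ψ c`. -/
theorem s26emGen_fromSpecStalk_comp (hD : S26emLocData U) (ψ : X ⟶ Y) (c : X)
    {e : Y.presheaf.stalk (ψ c)} (he : S26emIsLocEq U (ψ c) e) :
    Associated (s26emGen U (X.fromSpecStalk c ≫ ψ)) ((ψ.stalkMap c).hom e) := by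
  have hc : (X.fromSpecStalk c) (IsLocalRing.closedPoint (X.presheaf.stalk c)) = c :=
    Scheme.fromSpecStalk_closedPoint
  have hs : s26emCentre (X.fromSpecStalk c ≫ ψ) ⤳ ψ c := specializes_of_eq (congrArg ψ hc)
  have he' := s26em_locEq_specializes he hs
  have h1 := s26emGen_associated hD (X.fromSpecStalk c ≫ ψ) he'
  have h2 : s26emEv (X.fromSpecStalk c ≫ ψ) ((Y.presheaf.stalkSpecializes hs).hom e) =
      (ψ.stalkMap c).hom e :=
    congrArg (fun q => q.hom e) (s26em_stalkClosedPointTo_fromSpecStalk_comp ψ c hs)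
  rw [h2] at h1
  exact h1

end Fermat.Agent.S26

end
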