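/-
S26-E, piece E-M part (b) (helper5): INTERFACE, the generator side on E-PT.

`P ∈ A(Ω)`, `V` a valuation ring of `Ω` over `K`, `c : A` with `|P| ⤳ c`, and `g : 𝒪_{A,c} →+* V`
(ANY ring homomorphism, local or not) with `(g x : Ω) = ev_P (x)`:
* `s26em_lift_eq_of_dom` : the extension of `P` to `V` is `Spec V → Spec 𝒪_{A,c} → A`;
* `s26emV_of_dom`        : `m_V(P) ~ g e` for every local equation `e` at `c`;
* `s26emV_push_of_dom`   : `m_V(ψ ∘ P) ~ g (ψ^* e)` for every local equation `e` at `ψ c`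
  (`ψ : A ⟶ A` over `K`, any morphism).
-/
import Fermat.Agent.S26.EMIface
import Fermat.Agent.S26.EMFam
import Fermat.Agent.S26.EPTDom

set_option autoImplicit false
set_option linter.style.haveILetI false
set_option linter.unusedVariables false
set_option linter.unusedSectionVars false

noncomputable section

namespace Fermat.Agent.S26

open CategoryTheory CategoryTheory.Limits AlgebraicGeometry NeronModelInfra GoodReductionJacobian

universe u

variable {K : Type u} [Field K] {A : Scheme.{u}} (f : A ⟶ Spec (CommRingCat.of K))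

section Dom

variable {Ω : Type u} [Field Ω] [Algebra K Ω]
  {V : Type u} [CommRing V] [IsDomain V] [ValuationRing V] [Algebra V Ω] [IsFractionRing V Ω]
  [Algebra K V] [IsScalarTower K V Ω] [IsProper f]

/-- the extension of `P` to `V` factors through `Spec 𝒪_{A,c}` as soon as `ev_P` maps `𝒪_{A,c}`
into `V`. -/
theorem s26em_lift_eq_of_dom (P : s26eptPts f Ω) (c : A) (h : s26eptPt f P ⤳ c)
    (g : A.presheaf.stalk c →+* V)
    (hg : ∀ x, algebraMap V Ω (g x) = s26eptEv f P (A.presheaf.stalkSpecializes h x)) :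
    (s26eptLift f Ω V P).1 = Spec.map (CommRingCat.ofHom g) ≫ A.fromSpecStalk c := by
  have hQP : s26eptSpec (s26eptIncl (K := K) Ω V) ≫
      (Spec.map (CommRingCat.ofHom g) ≫ A.fromSpecStalk c) = P.1 := by
    rw [s26ept_eq_SpecMap_ev f P]
    rw [← Scheme.SpecMap_stalkSpecializes_fromSpecStalk h]
    simp only [s26eptSpec, ← Category.assoc, ← Spec.map_comp]
    congr 2
    ext x
    exact hg x
  have hover : (Spec.map (CommRingCat.ofHom g) ≫ A.fromSpecStalk c) ≫ f = s26eptStr K V :=
    s26ept_over_of_injective f (s26eptIncl Ω V) (IsFractionRing.injective V Ω) _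
      (by rw [hQP]; exact P.2)
  have hlift : s26eptLift f Ω V P = ⟨Spec.map (CommRingCat.ofHom g) ≫ A.fromSpecStalk c, hover⟩ := by
    rw [s26eptLift_eq_iff]
    exact Subtype.ext hQP
  rw [hlift]

variable [IsIntegral A] [IsLocallyNoetherian A] {U : A.Opens}

/-- `m_V(ψ ∘ P) ~ g (ψ^* e)` for every local equation `e` of `A ∖ U` at `ψ c`. -/
theorem s26emV_push_of_dom (hD : S26emLocData U) (ψ : A ⟶ A) (hψ : ψ ≫ f = f)
    (P : s26eptPts f Ω) (c : A) (h : s26eptPt f P ⤳ c) (g : A.presheaf.stalk c →+* V)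
    (hg : ∀ x, algebraMap V Ω (g x) = s26eptEv f P (A.presheaf.stalkSpecializes h x))
    {e : A.presheaf.stalk (ψ c)} (he : S26emIsLocEq U (ψ c) e) :
    Associated (s26emV f Ω V U (s26emPush f Ω ψ hψ P)) (g ((ψ.stalkMap c).hom e)) := by
  unfold s26emV
  rw [s26emPush_lift, s26em_lift_eq_of_dom f P c h g hg, Category.assoc]
  have h1 := s26emGen_map hD (R := A.presheaf.stalk c) (S := CommRingCat.of V)
    (CommRingCat.ofHom g) (A.fromSpecStalk c ≫ ψ)
  have h2 := s26emGen_fromSpecStalk_comp hD ψ c he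
  exact h1.trans (h2.map g)

/-- `m_V(P) ~ g e` for every local equation `e` of `A ∖ U` at `c`. -/
theorem s26emV_of_dom (hD : S26emLocData U)
    (P : s26eptPts f Ω) (c : A) (h : s26eptPt f P ⤳ c) (g : A.presheaf.stalk c →+* V)
    (hg : ∀ x, algebraMap V Ω (g x) = s26eptEv f P (A.presheaf.stalkSpecializes h x))
    {e : A.presheaf.stalk c} (he : S26emIsLocEq U c e) :
    Associated (s26emV f Ω V U P) (g e) := by
  have h1 := s26emV_push_of_dom f hD (𝟙 A) (Category.id_comp f) P c h g hg (e := e) he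
  have h2 : s26emPush f Ω (𝟙 A) (Category.id_comp f) P = P :=
    Subtype.ext (Category.comp_id _)
  rw [h2] at h1
  have h3 : ((𝟙 A : A ⟶ A).stalkMap c).hom e = e := by
    rw [Scheme.Hom.stalkMap_id]
    rfl
  rw [h3] at h1
  exact h1

end Dom

end Fermat.Agent.S26

end
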