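/-
S26-E, piece E-M part (b) (helper5): the Props of S26/PlanE.lean owned by E-M (b):
`s26e_StmtGenNe` (T4), `s26e_StmtGenNeg` (T7 for `[-1]`), and the bridge
`s26eGen f U P V = s26emFam f U P V` between the sub-captain's generator and `s26emV`.
(`s26e_StmtGenFunc`: S26/EMStmtFunc.lean.)
-/
import Fermat.Agent.S26.PlanE
import Fermat.Agent.S26.EMFamVal

set_option autoImplicit false
set_option linter.style.haveILetI false
set_option linter.unusedVariables false
set_option linter.unusedSectionVars false

noncomputable section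

namespace Fermat.Agent.S26

open CategoryTheory CategoryTheory.Limits AlgebraicGeometry NeronModelInfra GoodReductionJacobian

universe u

variable {K : Type u} [Field K] {A : Scheme.{u}} (f : A ⟶ Spec (CommRingCat.of K))

section Bridge

variable {Ω : Type u} [Field Ω] [Algebra K Ω]
variable [IsIntegral A] [IsLocallyNoetherian A] [IsProper f] (U : A.Opens)

/-- the sub-captain's generator is the generator family of E-M. -/
theorem s26eGen_eq_fam (P : s26eptPts f Ω) (V : ValuationSubring Ω) :
    s26eGen f U P V = s26emFam f U P V := rfl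

/-- the sub-captain's generator in terms of `s26emV`. -/
theorem s26eGen_eq (P : s26eptPts f Ω) (V : ValuationSubring Ω) (hV : S26erOver K V) :
    letI := s26emAlg V hV
    haveI := s26emAlg_tower V hV
    s26eGen f U P V = ((s26emV f Ω V U P : V) : Ω) := by
  rw [s26eGen_eq_fam]
  exact s26emFam_eq f U P V hV

end Bridge

/-- **(G-ne)**, `s26e_StmtGenNe`. -/
theorem s26em_stmtGenNe : s26e_StmtGenNe.{u} := by
  intro K _ A f G g hyp _ _ _ U hU hD Ω _ _ P V hV hP
  rw [s26eGen_eq_fam]
  exact s26emFam_ne_zero f hD P hP V hV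

/-- **(G-neg)**, `s26e_StmtGenNeg`, from the DVR property of the stalks at the prime divisors. -/
theorem s26em_stmtGenNeg_of
    (hdvr : ∀ (K : Type u) [Field K] {A : Scheme.{u}} (f : A ⟶ Spec (CommRingCat.of K))
      (G : RelativeGroupLaw K f) (g : ℕ), S26Hyp K f G g → ∀ [IsIntegral A]
      [IsLocallyNoetherian A], ∀ z : A, Order.coheight z = 1 →
        IsDiscreteValuationRing (A.presheaf.stalk z))
    (hnn : ∀ (K : Type u) [Field K] {A : Scheme.{u}} (f : A ⟶ Spec (CommRingCat.of K))
      (G : RelativeGroupLaw K f), s26neg f G ≫ s26neg f G = 𝟙 A) :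
    s26e_StmtGenNeg.{u} := by
  intro K _ A f G g hyp _ _ _ U hU hD Ω _ _ P V hV
  rw [s26eGen_eq_fam, s26eGen_eq_fam]
  exact s26emFam_inv f G (hnn K f G) (hdvr K f G g hyp) hD hU.2.2 P V hV

end Fermat.Agent.S26

end
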