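/-
S26-E, piece E-M part (b) (helper5): INTERFACE, the generator side for the tautological generic
point `η = s26eEta f ∈ A(𝔉)`, `𝔉 = s26F f`.

For ANY point `z : A` and ANY valuation subring `V` of `𝔉` over `K` containing the image of
`𝒪_{A,z}`:
* `s26em_iface_eta`   : `v (s26eGen f U η V) = v (e)` for every local equation `e` of `A ∖ U` at `z`;
* `s26em_iface_push`  : `v (s26eGen f U (ψ ∘ η) V) = v (ψ^* e')` for every local equation `e'` at `ψ z`;
* `s26em_iface_nsmul` : the case `ψ = [N]`: `v (s26eGen f U (N η) V) = v ([N]^* e')`.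
-/
import Fermat.Agent.S26.EMIfaceEta
import Fermat.Agent.S26.EMStmt

set_option autoImplicit false
set_option linter.style.haveILetI false
set_option linter.unusedVariables false
set_option linter.unusedSectionVars false

noncomputable section

namespace Fermat.Agent.S26

open CategoryTheory CategoryTheory.Limits AlgebraicGeometry NeronModelInfra GoodReductionJacobian

universe u

variable {K : Type u} [Field K] {A : Scheme.{u}} (f : A ⟶ Spec (CommRingCat.of K))

section Eta

variable [IsIntegral A]

/-- the point of the tautological generic point is the generic point. -/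
theorem s26em_pt_eta : s26eptPt f (s26eEta f) = genericPoint A :=
  Scheme.fromSpecStalk_closedPoint

theorem s26em_pt_eta_specializes (z : A) : s26eptPt f (s26eEta f) ⤳ z :=
  (specializes_of_eq (s26em_pt_eta f)).trans (genericPoint_specializes z)

/-- `ev_η` on `𝒪_{A,z}` is the inclusion `𝒪_{A,z} ⊂ 𝔉`. -/
theorem s26em_ev_eta (z : A) (x : A.presheaf.stalk z) :
    s26eptEv f (s26eEta f) (A.presheaf.stalkSpecializes (s26em_pt_eta_specializes f z) x) =
      (algebraMap (A.presheaf.stalk z) A.functionField x : s26F f) := by
  have h1 : Scheme.stalkClosedPointTo (s26eEta f).1 =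
      (A.presheaf.stalkCongr (Inseparable.of_eq (s26em_pt_eta f))).hom :=
    Scheme.stalkClosedPointTo_fromSpecStalk (genericPoint A)
  have h2 : A.presheaf.stalkSpecializes (s26em_pt_eta_specializes f z) ≫
      Scheme.stalkClosedPointTo (s26eEta f).1 =
      A.presheaf.stalkSpecializes (genericPoint_specializes z) := by
    rw [h1, TopCat.Presheaf.stalkCongr_hom]
    exact TopCat.Presheaf.stalkSpecializes_comp A.presheaf _ _
  exact congrArg (fun q => q.hom x) h2

end Eta

section Iface

variable [IsIntegral A] [IsLocallyNoetherian A] [IsProper f] {U : A.Opens}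

/-- the canonical map `𝒪_{A,z} → V` for a valuation subring `V ⊇ 𝒪_{A,z}` of `𝔉`. -/
def s26emToV (z : A) (V : ValuationSubring (s26F f))
    (hzV : ∀ x : A.presheaf.stalk z,
      (algebraMap (A.presheaf.stalk z) A.functionField x : s26F f) ∈ V) :
    A.presheaf.stalk z →+* V :=
  (algebraMap (A.presheaf.stalk z) A.functionField).codRestrict V.toSubring hzV

/-- **interface, `ψ ∘ η`**: for `V ⊇ 𝒪_{A,z}` the value of the generator of `ψ ∘ η` is the value
of the pull-back `ψ^* e'` of a local equation `e'` at `ψ z`. -/
theorem s26em_iface_push (hD : S26emLocData U) (ψ : A ⟶ A) (hψ : ψ ≫ f = f) (z : A)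
    (V : ValuationSubring (s26F f)) (hV : S26erOver K V)
    (hzV : ∀ x : A.presheaf.stalk z,
      (algebraMap (A.presheaf.stalk z) A.functionField x : s26F f) ∈ V)
    {e : A.presheaf.stalk (ψ z)} (he : S26emIsLocEq U (ψ z) e) :
    V.valuation (s26eGen f U (s26emPush f (s26F f) ψ hψ (s26eEta f)) V) =
      V.valuation
        (algebraMap (A.presheaf.stalk z) A.functionField ((ψ.stalkMap z).hom e) : s26F f) := by
  letI := s26emAlg V hV
  haveI := s26emAlg_tower V hV
  rw [s26eGen_eq f U _ V hV]
  have h := s26emV_push_of_dom f hD ψ hψ (s26eEta f) z (s26em_pt_eta_specializes f z)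
    (s26emToV f z V hzV) (fun x => (s26em_ev_eta f z x).symm) he
  exact s26em_val_eq_of_associated V h

/-- **interface, `η`**: for `V ⊇ 𝒪_{A,z}` the value of the generator of `η` is the value of a
local equation at `z`. -/
theorem s26em_iface_eta (hD : S26emLocData U) (z : A)
    (V : ValuationSubring (s26F f)) (hV : S26erOver K V)
    (hzV : ∀ x : A.presheaf.stalk z,
      (algebraMap (A.presheaf.stalk z) A.functionField x : s26F f) ∈ V)
    {e : A.presheaf.stalk z} (he : S26emIsLocEq U z e) :
    V.valuation (s26eGen f U (s26eEta f) V) =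
      V.valuation (algebraMap (A.presheaf.stalk z) A.functionField e : s26F f) := by
  letI := s26emAlg V hV
  haveI := s26emAlg_tower V hV
  rw [s26eGen_eq f U _ V hV]
  have h := s26emV_of_dom f hD (s26eEta f) z (s26em_pt_eta_specializes f z)
    (s26emToV f z V hzV) (fun x => (s26em_ev_eta f z x).symm) he
  exact s26em_val_eq_of_associated V h

variable (G : RelativeGroupLaw K f)

/-- **interface, `N η`**. -/
theorem s26em_iface_nsmul (hD : S26emLocData U) (N : ℕ) (z : A)
    (V : ValuationSubring (s26F f)) (hV : S26erOver K V)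
    (hzV : ∀ x : A.presheaf.stalk z,
      (algebraMap (A.presheaf.stalk z) A.functionField x : s26F f) ∈ V)
    {e : A.presheaf.stalk ((G.schemeNsmul N) z)} (he : S26emIsLocEq U ((G.schemeNsmul N) z) e) :
    V.valuation (s26eGen f U (G.nsmul _ N (s26eEta f)) V) =
      V.valuation (algebraMap (A.presheaf.stalk z) A.functionField
        (((G.schemeNsmul N).stalkMap z).hom e) : s26F f) := by
  have h1 : G.nsmul _ N (s26eEta f) =
      s26emPush f (s26F f) (G.schemeNsmul N) (G.schemeNsmul_over N) (s26eEta f) :=
    Subtype.ext (s26a1_nsmul_eq G _ N (s26eEta f))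
  rw [h1]
  exact s26em_iface_push f hD (G.schemeNsmul N) (G.schemeNsmul_over N) z V hV hzV he

end Iface

end Fermat.Agent.S26

end
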