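/-
S26-E, piece E-M part (b) (helper5): INTERFACE, the side of the prime divisors.

`X` integral locally noetherian, `z : X` with `𝒪_{X,z}` a discrete valuation ring:
* `s26emVz z : ValuationSubring K(X)` : the valuation subring `𝒪_{X,z} ⊂ K(X)`;
* `s26em_ord_eq_of_val_eq` : `v_z x = v_z y` (`x, y ≠ 0`) ⇒ `ord_z x = ord_z y`;
* `s26em_ord_one/_inv/_pow/_div` : arithmetic of `Scheme.ord`.
-/
import Mathlib.AlgebraicGeometry.OrderOfVanishing
import Mathlib.RingTheory.Valuation.ValuationSubring

set_option autoImplicit false
set_option linter.style.haveILetI false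
set_option linter.unusedVariables false
set_option linter.unusedSectionVars false

noncomputable section

namespace Fermat.Agent.S26

open AlgebraicGeometry CategoryTheory

universe u

variable {X : Scheme.{u}} [IsIntegral X] [IsLocallyNoetherian X]

section Ord

theorem s26em_ord_one (z : X) : Scheme.ord (1 : X.functionField) z = 0 := by
  have h := Scheme.ord_mul (X := X) (x := z) (f := (1 : X.functionField)) (g := 1) one_ne_zero
    one_ne_zero
  rw [mul_one] at h
  omega

theorem s26em_ord_inv (z : X) {x : X.functionField} (hx : x ≠ 0) :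
    Scheme.ord x⁻¹ z = -Scheme.ord x z := by
  have h := Scheme.ord_mul (X := X) (x := z) hx (inv_ne_zero hx)
  rw [mul_inv_cancel₀ hx, s26em_ord_one] at h
  omega

theorem s26em_ord_pow (z : X) {x : X.functionField} (hx : x ≠ 0) (n : ℕ) :
    Scheme.ord (x ^ n) z = n * Scheme.ord x z := by
  induction n with
  | zero => simp [s26em_ord_one]
  | succ n ih =>
    rw [pow_succ, Scheme.ord_mul (pow_ne_zero n hx) hx, ih]
    push_cast
    ring

theorem s26em_ord_div (z : X) {x y : X.functionField} (hx : x ≠ 0) (hy : y ≠ 0) :
    Scheme.ord (x / y) z = Scheme.ord x z - Scheme.ord y z := by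
  rw [div_eq_mul_inv, Scheme.ord_mul hx (inv_ne_zero hy), s26em_ord_inv z hy]
  ring

/-- units of the local ring have order zero. -/
theorem s26em_ord_of_isUnit (z : X) (hz : Order.coheight z = 1) {u : X.presheaf.stalk z}
    (hu : IsUnit u) : Scheme.ord (algebraMap (X.presheaf.stalk z) X.functionField u) z = 0 := by
  have hne : algebraMap (X.presheaf.stalk z) X.functionField u ≠ 0 := by
    intro h0
    exact hu.ne_zero ((IsFractionRing.injective (X.presheaf.stalk z) X.functionField)
      (h0.trans (map_zero _).symm))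
  rw [Scheme.ord_eq_iff hz hne]
  haveI : Ring.KrullDimLE 1 (X.presheaf.stalk z) := krullDimLE_of_coheight_le hz.le
  exact Ring.ordFrac_of_isUnit hu

end Ord

section Vz

variable (z : X) [IsDiscreteValuationRing (X.presheaf.stalk z)]

/-- the valuation subring `𝒪_{X,z} ⊂ K(X)` of a point whose local ring is a DVR. -/
def s26emVz : ValuationSubring X.functionField :=
  ValuationSubring.ofSubring (algebraMap (X.presheaf.stalk z) X.functionField).range (fun x => by
    rcases ValuationRing.isInteger_or_isInteger (X.presheaf.stalk z) x with ⟨a, ha⟩ | ⟨a, ha⟩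
    · exact Or.inl ⟨a, ha⟩
    · exact Or.inr ⟨a, ha⟩)

theorem s26em_mem_Vz (x : X.functionField) :
    x ∈ s26emVz z ↔ ∃ a : X.presheaf.stalk z,
      algebraMap (X.presheaf.stalk z) X.functionField a = x := by
  unfold s26emVz
  rw [ValuationSubring.mem_ofSubring]
  exact Iff.rfl

theorem s26em_algebraMap_mem_Vz (a : X.presheaf.stalk z) :
    algebraMap (X.presheaf.stalk z) X.functionField a ∈ s26emVz z :=
  (s26em_mem_Vz z _).2 ⟨a, rfl⟩

/-- equal values at `𝒪_{X,z}` give equal orders at `z`. -/
theorem s26em_ord_eq_of_val_eq (hz : Order.coheight z = 1) {x y : X.functionField}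
    (hx : x ≠ 0) (hy : y ≠ 0)
    (h : (s26emVz z).valuation x = (s26emVz z).valuation y) :
    Scheme.ord x z = Scheme.ord y z := by
  have h1 : (s26emVz z).valuation (x / y) = 1 := by
    rw [map_div₀, h, div_self]
    exact (Valuation.ne_zero_iff _).2 hy
  have h2 : (s26emVz z).valuation (y / x) = 1 := by
    rw [map_div₀, h, div_self]
    rw [← h]
    exact (Valuation.ne_zero_iff _).2 hx
  have m1 : x / y ∈ s26emVz z := (ValuationSubring.valuation_le_one_iff _ _).1 h1.le
  have m2 : y / x ∈ s26emVz z := (ValuationSubring.valuation_le_one_iff _ _).1 h2.le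
  obtain ⟨a, ha⟩ := (s26em_mem_Vz z _).1 m1
  obtain ⟨b, hb⟩ := (s26em_mem_Vz z _).1 m2
  have hab : a * b = 1 := by
    apply IsFractionRing.injective (X.presheaf.stalk z) X.functionField
    rw [map_mul, ha, hb, map_one]
    field_simp
  have hu : IsUnit a := IsUnit.of_mul_eq_one b hab
  have hxy : x = algebraMap (X.presheaf.stalk z) X.functionField a * y := by
    rw [ha]
    field_simp
  have hane : algebraMap (X.presheaf.stalk z) X.functionField a ≠ 0 := by
    rw [ha]
    exact div_ne_zero hx hy
  rw [hxy, Scheme.ord_mul hane hy, s26em_ord_of_isUnit z hz hu, zero_add]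

end Vz

end Fermat.Agent.S26

end
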