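/-
S26-E, piece E-M part (b) (helper5): **(INTERFACE)** `s26e_StmtIface`.

`s26em_stmtIface_of` : from the DVR property of the stalks at the prime divisors (A2) and the
étaleness of `[N]` (A4, A5): a relation `c ([N η] − N² [η]) ≈ 0` in `𝔉`, realised by `F`, gives
`ord_z F = c ([z ∉ [N]⁻¹ U] − N² [z ∉ U])` at every prime divisor `z`.
-/
import Fermat.Agent.S26.EMIfaceGen
import Fermat.Agent.S26.EMIfaceZ
import Fermat.Agent.S26.EMPull

set_option autoImplicit false
set_option linter.style.haveILetI false
set_option linter.unusedVariables false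
set_option linter.unusedSectionVars false

noncomputable section

namespace Fermat.Agent.S26

open CategoryTheory CategoryTheory.Limits AlgebraicGeometry NeronModelInfra GoodReductionJacobian

universe u

variable {K : Type u} [Field K] {A : Scheme.{u}} (f : A ⟶ Spec (CommRingCat.of K))

section Vz

variable [IsIntegral A] [IsLocallyNoetherian A]

/-- the constants lie in the local rings. -/
theorem s26em_algMap_eq (z : A) (c : K) :
    algebraMap K (s26F f) c = algebraMap (A.presheaf.stalk z) A.functionField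
      ((A.presheaf.germ ⊤ z trivial).hom
        ((f.appTop).hom ((Scheme.ΓSpecIso (CommRingCat.of K)).inv.hom c))) := by
  have : Nonempty (⊤ : A.Opens) := ⟨⟨genericPoint A, trivial⟩⟩
  exact (Scheme.algebraMap_germ_eq_germToFunctionField (X := A) (U := ⊤) (x := z) trivial _).symm

/-- `𝒪_{A,z}` is a valuation subring of `𝔉` over `K`. -/
theorem s26emVz_over (z : A) [IsDiscreteValuationRing (A.presheaf.stalk z)] :
    S26erOver K (show ValuationSubring (s26F f) from s26emVz z) := by
  intro c
  rw [s26em_algMap_eq f z c]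
  exact s26em_algebraMap_mem_Vz z _

end Vz

section Main

variable [IsIntegral A] [IsLocallyNoetherian A] [IsProper f] {U : A.Opens}
  (G : RelativeGroupLaw K f)

open scoped Classical in
/-- **the interface at one prime divisor**. -/
theorem s26em_iface_at (hD : S26emLocData U) (N : ℕ) [IsDominant (G.schemeNsmul N)]
    [Flat (G.schemeNsmul N)] [FormallyUnramified (G.schemeNsmul N)]
    [LocallyOfFiniteType (G.schemeNsmul N)]
    (hdvr : ∀ z : A, Order.coheight z = 1 → IsDiscreteValuationRing (A.presheaf.stalk z))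
    (c : ℕ) (F : s26F f) (hF : F ≠ 0)
    (hrel : S26erIsRel K (fun V => (s26eGen f U (G.nsmul _ N (s26eEta f)) V /
        s26eGen f U (s26eEta f) V ^ (N ^ 2)) ^ c) F)
    (z : A) (hz : Order.coheight z = 1) :
    s26ord f F z =
      (c : ℤ) * ((if z ∈ (G.schemeNsmul N) ⁻¹ᵁ U then 0 else 1) -
        (N : ℤ) ^ 2 * (if z ∈ U then 0 else 1)) := by
  haveI := hdvr z hz
  have hV : S26erOver K (show ValuationSubring (s26F f) from s26emVz z) := s26emVz_over f z
  have hmem : ∀ x : A.presheaf.stalk z,
      (algebraMap (A.presheaf.stalk z) A.functionField x : s26F f) ∈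
        (show ValuationSubring (s26F f) from s26emVz z) := fun x => s26em_algebraMap_mem_Vz z x
  obtain ⟨e, he⟩ := hD.exists_locEq z
  obtain ⟨e', he'⟩ := hD.exists_locEq ((G.schemeNsmul N) z)
  have g1 := s26em_iface_eta f hD z _ hV hmem he
  have g2 := s26em_iface_nsmul f G hD N z _ hV hmem he'
  have pl := s26em_locEq_pull (G.schemeNsmul N) hdvr U z he'
  have hr := hrel _ hV
  have ha : algebraMap (A.presheaf.stalk z) A.functionField e ≠ 0 := fun h0 =>
    he.1 ((IsFractionRing.injective (A.presheaf.stalk z) A.functionField)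
      (h0.trans (map_zero _).symm))
  have hb : algebraMap (A.presheaf.stalk z) A.functionField
      (((G.schemeNsmul N).stalkMap z).hom e') ≠ 0 := fun h0 =>
    pl.1 ((IsFractionRing.injective (A.presheaf.stalk z) A.functionField)
      (h0.trans (map_zero _).symm))
  have hr' : (s26emVz z).valuation (F : A.functionField) = (s26emVz z).valuation
      ((algebraMap (A.presheaf.stalk z) A.functionField (((G.schemeNsmul N).stalkMap z).hom e') /
        algebraMap (A.presheaf.stalk z) A.functionField e ^ (N ^ 2)) ^ c) := by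
    rw [map_pow, map_div₀, map_pow]
    refine hr.trans ?_
    rw [map_pow, map_div₀, map_pow]
    exact congrArg₂ (fun p q => (p / q ^ (N ^ 2)) ^ c) g2 g1
  have key := s26em_ord_eq_of_val_eq z hz hF
    (pow_ne_zero c (div_ne_zero hb (pow_ne_zero _ ha))) hr'
  change Scheme.ord (X := A) F z = _
  rw [key, s26em_ord_pow z (div_ne_zero hb (pow_ne_zero _ ha)),
    s26em_ord_div z hb (pow_ne_zero _ ha), s26em_ord_pow z ha, he.2 z hz specializes_rfl,
    pl.2 z hz specializes_rfl]
  push_cast
  rfl

/-- the point of `N η` is the generic point. -/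
theorem s26em_pt_nsmul_eta (N : ℕ) [IsDominant (G.schemeNsmul N)] :
    s26eptPt f (G.nsmul _ N (s26eEta f)) = genericPoint A := by
  have h1 : (G.nsmul _ N (s26eEta f)).1 = (s26eEta f).1 ≫ G.schemeNsmul N :=
    s26a1_nsmul_eq G _ N (s26eEta f)
  unfold s26eptPt
  rw [h1]
  change (G.schemeNsmul N) ((s26eEta f).1 (IsLocalRing.closedPoint (s26F f))) = _
  have h2 : (s26eEta f).1 (IsLocalRing.closedPoint (s26F f)) = genericPoint A := s26em_pt_eta f
  rw [h2]
  exact s26f1_map_genericPoint (G.schemeNsmul N)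

/-- the realising function of a relation `c ([N η] − N² [η])` is not zero. -/
theorem s26em_iface_ne_zero (hD : S26emLocData U) (hne : (U : Set A).Nonempty) (N : ℕ)
    [IsDominant (G.schemeNsmul N)] (c : ℕ) (F : s26F f)
    (hrel : S26erIsRel K (fun V => (s26eGen f U (G.nsmul _ N (s26eEta f)) V /
        s26eGen f U (s26eEta f) V ^ (N ^ 2)) ^ c) F) : F ≠ 0 := by
  have hgp : genericPoint A ∈ U :=
    ((genericPoint_spec A).mem_open_set_iff U.isOpen).2 (by simpa [Set.inter_comm] using hne)
  refine S26erIsRel.ne_zero hrel ?_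
  have h1 : s26eGen f U (s26eEta f) ⊤ ≠ 0 := by
    rw [s26eGen_eq_fam]
    exact s26emFam_ne_zero f hD _ (by rw [s26em_pt_eta]; exact hgp) ⊤ s26erOver_top
  have h2 : s26eGen f U (G.nsmul _ N (s26eEta f)) ⊤ ≠ 0 := by
    rw [s26eGen_eq_fam]
    exact s26emFam_ne_zero f hD _ (by rw [s26em_pt_nsmul_eta]; exact hgp) ⊤ s26erOver_top
  exact pow_ne_zero _ (div_ne_zero h2 (pow_ne_zero _ h1))

end Main

/-- **(INTERFACE)** `s26e_StmtIface`, from A2 (DVR stalks) and A4/A5 (`[N]` étale, dominant). -/
theorem s26em_stmtIface_of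
    (hdvr : ∀ (K : Type u) [Field K] {A : Scheme.{u}} (f : A ⟶ Spec (CommRingCat.of K))
      (G : RelativeGroupLaw K f) (g : ℕ), S26Hyp K f G g → ∀ [IsIntegral A]
      [IsLocallyNoetherian A], ∀ z : A, Order.coheight z = 1 →
        IsDiscreteValuationRing (A.presheaf.stalk z))
    (hN : ∀ (K : Type u) [Field K] {A : Scheme.{u}} (f : A ⟶ Spec (CommRingCat.of K))
      (G : RelativeGroupLaw K f) (g : ℕ), S26Hyp K f G g → ∀ [IsIntegral A] (N : ℕ),
      (N : K) ≠ 0 → IsDominant (G.schemeNsmul N) ∧ Flat (G.schemeNsmul N) ∧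
        FormallyUnramified (G.schemeNsmul N) ∧ LocallyOfFiniteType (G.schemeNsmul N)) :
    s26e_StmtIface.{u} := by
  intro K _ A f G g hyp _ _ _ U hU hD N hN' c F hrel
  obtain ⟨i1, i2, i3, i4⟩ := hN K f G g hyp N hN'
  have hF : F ≠ 0 := s26em_iface_ne_zero f G hD ⟨_, hU.2.1⟩ N c F hrel
  exact ⟨hF, fun z hz => s26em_iface_at f G hD N (hdvr K f G g hyp) c F hF hrel z hz⟩

end Fermat.Agent.S26

end
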