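/-
S26-E, piece E-M part (b) (helper5): `s26e_StmtGenNeg` UNCONDITIONAL
(`s26em_stmtGenNeg_of` + A2: the stalks at the prime divisors are DVRs, `[-1] ∘ [-1] = id`).
-/
import Fermat.Agent.S26.EMStmt
import Fermat.Agent.S26.A2Final

set_option autoImplicit false
set_option linter.style.haveILetI false
set_option linter.unusedVariables false

noncomputable section

namespace Fermat.Agent.S26

open CategoryTheory CategoryTheory.Limits AlgebraicGeometry NeronModelInfra GoodReductionJacobian

universe u

/-- the stalks of `A` at the prime divisors are discrete valuation rings (from A2). -/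
theorem s26em_hdvr (K : Type u) [Field K] {A : Scheme.{u}} (f : A ⟶ Spec (CommRingCat.of K))
    (G : RelativeGroupLaw K f) (g : ℕ) (hyp : S26Hyp K f G g) [IsIntegral A]
    [IsLocallyNoetherian A] (z : A) (hz : Order.coheight z = 1) :
    IsDiscreteValuationRing (A.presheaf.stalk z) := by
  obtain ⟨_, -, -, h⟩ := s26a2_stmtA2 K f G g hyp
  exact h z hz

/-- **(G-neg)**, `s26e_StmtGenNeg`. -/
theorem s26em_stmtGenNeg : s26e_StmtGenNeg.{u} :=
  s26em_stmtGenNeg_of (fun K _ _ f G g hyp _ _ z hz => s26em_hdvr K f G g hyp z hz)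
    (fun _ _ _ _ G => s26a2_neg_neg G)

end Fermat.Agent.S26

end
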