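/-
S26-E, piece E-M part (b) (helper5): **(INTERFACE)** `s26e_StmtIface`, UNCONDITIONAL
(`s26em_stmtIface_of` + A2 `s26a2_stmtA2` + A4 `s26a4_stmtEtale` + A5 finiteness/surjectivity).
-/
import Fermat.Agent.S26.EMIfaceFinal
import Fermat.Agent.S26.EMStmtNeg
import Fermat.Agent.S26.A4Stmt

set_option autoImplicit false
set_option linter.style.haveILetI false
set_option linter.unusedVariables false

noncomputable section

namespace Fermat.Agent.S26

open CategoryTheory CategoryTheory.Limits AlgebraicGeometry NeronModelInfra GoodReductionJacobian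

universe u

/-- `[N]` is dominant, flat, unramified and locally of finite type for `(N : K) ≠ 0`. -/
theorem s26em_nsmul_inst (K : Type u) [Field K] {A : Scheme.{u}}
    (f : A ⟶ Spec (CommRingCat.of K)) (G : RelativeGroupLaw K f) (g : ℕ)
    (hyp : S26Hyp K f G g) [IsIntegral A] (N : ℕ) (hN : (N : K) ≠ 0) :
    IsDominant (G.schemeNsmul N) ∧ Flat (G.schemeNsmul N) ∧
      FormallyUnramified (G.schemeNsmul N) ∧ LocallyOfFiniteType (G.schemeNsmul N) := by
  haveI : IsAlgClosed K := hyp.algClosed
  haveI : Etale (G.schemeNsmul N) := s26a4_stmtEtale K f G g hyp N hN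
  haveI : IsProper f := hyp.bundle.proper
  haveI : IsFinite (G.schemeNsmul N) := s26a5_isFinite f _ (G.schemeNsmul_over N)
  haveI : Surjective (G.schemeNsmul N) := s26a5_surj_of_integral _
  exact ⟨inferInstance, inferInstance, inferInstance, inferInstance⟩

/-- **(INTERFACE)**, `s26e_StmtIface`. -/
theorem s26em_stmtIface : s26e_StmtIface.{u} :=
  s26em_stmtIface_of (fun K _ _ f G g hyp _ _ z hz => s26em_hdvr K f G g hyp z hz)
    (fun K _ _ f G g hyp _ N hN => s26em_nsmul_inst K f G g hyp N hN)

end Fermat.Agent.S26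

end
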