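/-
S26-E, piece E-M part (b) (helper5): `s26e_StmtGenFunc` (T5, (R1) for the generator).

* `s26emV_funct`   : `(Ω, V) → (Ω', V')` compatible `K`-algebra maps `ι`, `j` (ANY `j`, local or not):
  `m_{V'}(ι P) ~ j (m_V(P))`;
* `s26em_stmtGenFunc : s26e_StmtGenFunc`.
-/
import Fermat.Agent.S26.EMStmt

set_option autoImplicit false
set_option linter.style.haveILetI false
set_option linter.unusedVariables false
set_option linter.unusedSectionVars false

noncomputable section

namespace Fermat.Agent.S26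

open CategoryTheory CategoryTheory.Limits AlgebraicGeometry NeronModelInfra GoodReductionJacobian

universe u

variable {K : Type u} [Field K] {A : Scheme.{u}} (f : A ⟶ Spec (CommRingCat.of K))

section Funct

variable {Ω : Type u} [Field Ω] [Algebra K Ω]
  {V : Type u} [CommRing V] [IsDomain V] [ValuationRing V] [Algebra V Ω] [IsFractionRing V Ω]
  [Algebra K V] [IsScalarTower K V Ω]
  {Ω' : Type u} [Field Ω'] [Algebra K Ω']
  {V' : Type u} [CommRing V'] [IsDomain V'] [ValuationRing V'] [Algebra V' Ω']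
  [IsFractionRing V' Ω'] [Algebra K V'] [IsScalarTower K V' Ω']
  [IsIntegral A] [IsLocallyNoetherian A] [IsProper f] {U : A.Opens}

/-- functoriality of the generator in `(Ω, V) → (Ω', V')`. -/
theorem s26emV_funct (hD : S26emLocData U) (ι : Ω →ₐ[K] Ω') (j : V →ₐ[K] V')
    (hj : ∀ x : V, algebraMap V' Ω' (j x) = ι (algebraMap V Ω x)) (P : s26eptPts f Ω) :
    Associated (s26emV f Ω' V' U (s26eptMap f ι P)) (j (s26emV f Ω V U P)) := by
  have h1 := s26eptLift_funct f ι j hj P
  unfold s26emV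
  rw [h1, s26eptMap_coe]
  exact s26emGen_map hD (R := CommRingCat.of V) (S := CommRingCat.of V')
    (CommRingCat.ofHom (j : V →+* V')) (s26eptLift f Ω V P).1

end Funct

section Stmt

variable {Ω Ω' : Type u} [Field Ω] [Field Ω'] [Algebra K Ω] [Algebra K Ω']

theorem s26em_over_comap (σ : Ω →ₐ[K] Ω') (V' : ValuationSubring Ω') (hV' : S26erOver K V') :
    S26erOver K (V'.comap (σ : Ω →+* Ω')) := fun a => by
  rw [ValuationSubring.mem_comap]
  have h := hV' a
  have e : (σ : Ω →+* Ω') (algebraMap K Ω a) = algebraMap K Ω' a := σ.commutes a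
  rw [e]
  exact h

/-- the map `V' ∩ Ω → V'` induced by `σ`, as a `K`-algebra homomorphism (instances given). -/
def s26emComapHom (σ : Ω →ₐ[K] Ω') (V' : ValuationSubring Ω')
    [Algebra K ↥(V'.comap (σ : Ω →+* Ω'))] [IsScalarTower K ↥(V'.comap (σ : Ω →+* Ω')) Ω]
    [Algebra K ↥V'] [IsScalarTower K ↥V' Ω'] :
    ↥(V'.comap (σ : Ω →+* Ω')) →ₐ[K] ↥V' where
  toFun x := ⟨σ x.1, x.2⟩
  map_one' := Subtype.ext (map_one σ)
  map_mul' x y := Subtype.ext (map_mul σ _ _)
  map_zero' := Subtype.ext (map_zero σ)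
  map_add' x y := Subtype.ext (map_add σ _ _)
  commutes' c := by
    apply Subtype.ext
    have h1 : ((algebraMap K ↥(V'.comap (σ : Ω →+* Ω')) c : ↥(V'.comap (σ : Ω →+* Ω'))) : Ω) =
        algebraMap K Ω c := (IsScalarTower.algebraMap_apply K ↥(V'.comap (σ : Ω →+* Ω')) Ω c).symm
    have h2 : ((algebraMap K ↥V' c : ↥V') : Ω') = algebraMap K Ω' c :=
      (IsScalarTower.algebraMap_apply K ↥V' Ω' c).symm
    change σ ((algebraMap K ↥(V'.comap (σ : Ω →+* Ω')) c : ↥(V'.comap (σ : Ω →+* Ω'))) : Ω) = _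
    rw [h1, h2]
    exact σ.commutes c

variable [IsIntegral A] [IsLocallyNoetherian A] [IsProper f] {U : A.Opens}

/-- **(R1) for the generator family**, with an arbitrary `K`-embedding `σ`. -/
theorem s26emFam_funct (hD : S26emLocData U) (σ : Ω →ₐ[K] Ω') (P : s26eptPts f Ω)
    (V' : ValuationSubring Ω') (hV' : S26erOver K V') :
    V'.valuation (s26emFam f U (s26eptMap f σ P) V') =
      V'.valuation (σ (s26emFam f U P (V'.comap (σ : Ω →+* Ω')))) := by
  have hV := s26em_over_comap σ V' hV'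
  letI a1 := s26emAlg (V'.comap (σ : Ω →+* Ω')) hV
  haveI t1 := s26emAlg_tower (V'.comap (σ : Ω →+* Ω')) hV
  letI a2 := s26emAlg V' hV'
  haveI t2 := s26emAlg_tower V' hV'
  have h2 := s26emV_funct f hD σ (s26emComapHom σ V') (fun x => rfl) P
  rw [s26emFam_eq f U _ V' hV', s26emFam_eq f U P _ hV]
  exact s26em_val_eq_of_associated V' h2

end Stmt

/-- **(G-func)**, `s26e_StmtGenFunc`. -/
theorem s26em_stmtGenFunc : s26e_StmtGenFunc.{u} := by
  intro K _ A f G g hyp _ _ _ U hU hD Ω Ω' _ _ _ _ σ P V' hV'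
  rw [s26eGen_eq_fam, s26eGen_eq_fam]
  exact s26emFam_funct f hD σ P V' hV'

end Fermat.Agent.S26

end
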