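/-
S26-E, formal part, leaf (T-mul) (helper63): the pull-back `φ = ψ^*` along a dominant
endomorphism `ψ` of `A` over `K` moves the tautological generic point to `η ≫ ψ`; for
`ψ = [N]`, `(N : K) ≠ 0`:  `η_{j ∘ φ} = N · η_j` for every `K`-embedding `j : 𝔉 → Ω`.

* `s26etm_map_eta`      : `(s26eptMap f ψ^* η).1 = η.1 ≫ ψ`;
* `s26etm_pt_comp`      : `(s26ePt f (j.comp ψ^*)).1 = (s26ePt f j).1 ≫ ψ`;
* `s26etm_dominant`     : `[N]` is dominant for `(N : K) ≠ 0`;
* `s26etm_nsmul`        : `s26ePt f (j.comp [N]^*) = G.nsmul _ N (s26ePt f j)`;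
* `s26etm_exists`       : (T-mul) in the captain's form.
-/
import Fermat.Agent.S26.PlanE
import Fermat.Agent.S26.A4Stmt

set_option autoImplicit false
set_option linter.style.haveILetI false

noncomputable section

namespace Fermat.Agent.S26

open CategoryTheory CategoryTheory.Limits AlgebraicGeometry NeronModelInfra GoodReductionJacobian

universe u

variable {K : Type u} [Field K] {A : Scheme.{u}} (f : A ⟶ Spec (CommRingCat.of K))

/-- the pull-back along a dominant endomorphism moves the tautological point to `η ≫ ψ`. -/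
theorem s26etm_map_eta [IsIntegral A] (ψ : A ⟶ A) [IsDominant ψ] (hψ : ψ ≫ f = f) :
    (s26eptMap f (s26f1PullAlg f ψ hψ) (s26eEta f)).1 = (s26eEta f).1 ≫ ψ := by
  have h1 : (s26eEta f).1 ≫ ψ =
      Spec.map (ψ.stalkMap (genericPoint A)) ≫ A.fromSpecStalk (ψ (genericPoint A)) :=
    (Scheme.SpecMap_stalkMap_fromSpecStalk ψ (x := genericPoint A)).symm
  have h2 : A.fromSpecStalk (ψ (genericPoint A)) =
      Spec.map (A.presheaf.stalkSpecializes
        (specializes_of_eq (s26f1_map_genericPoint ψ))) ≫ A.fromSpecStalk (genericPoint A) :=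
    (Scheme.SpecMap_stalkSpecializes_fromSpecStalk
      (specializes_of_eq (s26f1_map_genericPoint ψ))).symm
  rw [h1, h2, ← Category.assoc, ← Spec.map_comp]
  rfl

section Pts

variable {Ω : Type u} [Field Ω] [Algebra K Ω]

/-- `η_{j ∘ ψ^*} = η_j ≫ ψ`. -/
theorem s26etm_pt_comp [IsIntegral A] (ψ : A ⟶ A) [IsDominant ψ] (hψ : ψ ≫ f = f)
    (j : s26F f →ₐ[K] Ω) :
    (s26ePt f (j.comp (s26f1PullAlg f ψ hψ))).1 = (s26ePt f j).1 ≫ ψ := by
  unfold s26ePt
  rw [s26eptMap_comp, s26eptMap_coe, s26etm_map_eta, s26eptMap_coe, Category.assoc]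

variable (G : RelativeGroupLaw K f)

/-- `[N]` is dominant for `(N : K) ≠ 0`. -/
theorem s26etm_dominant (g : ℕ) (H : S26Hyp K f G g) [IsIntegral A] (N : ℕ) (hN : (N : K) ≠ 0) :
    IsDominant (G.schemeNsmul N) := by
  haveI : IsAlgClosed K := H.algClosed
  haveI : Etale (G.schemeNsmul N) := s26a4_stmtEtale K f G g H N hN
  haveI : IsProper f := H.bundle.proper
  haveI : IsFinite (G.schemeNsmul N) := s26a5_isFinite f _ (G.schemeNsmul_over N)
  haveI : Surjective (G.schemeNsmul N) := s26a5_surj_of_integral _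
  infer_instance

/-- `η_{j ∘ [N]^*} = N · η_j`. -/
theorem s26etm_nsmul [IsIntegral A] (N : ℕ) [IsDominant (G.schemeNsmul N)]
    (j : s26F f →ₐ[K] Ω) :
    s26ePt f (j.comp (s26f1PullAlg f (G.schemeNsmul N) (G.schemeNsmul_over N))) =
      G.nsmul _ N (s26ePt f j) := by
  apply Subtype.ext
  rw [s26etm_pt_comp, s26a1_nsmul_eq]

end Pts

/-- **(T-mul)**: for `(N : K) ≠ 0` there is `φ : 𝔉 →ₐ[K] 𝔉` (the pull-back along `[N]`) with
`η_{j ∘ φ} = N · η_j` for every field `Ω` and every `K`-embedding `j : 𝔉 → Ω`; moreover `φ` is a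
pull-back along `[N]` in the sense of the interface. -/
theorem s26etm_exists (G : RelativeGroupLaw K f) (g : ℕ) (H : S26Hyp K f G g) [IsIntegral A]
    (N : ℕ) (hN : (N : K) ≠ 0) :
    ∃ φ : s26F f →ₐ[K] s26F f, s26IsPull f (G.schemeNsmul N) φ ∧
      ∀ (Ω : Type u) [Field Ω] [Algebra K Ω] (j : s26F f →ₐ[K] Ω),
        s26ePt f (j.comp φ) = G.nsmul _ N (s26ePt f j) := by
  haveI := s26etm_dominant f G g H N hN
  exact ⟨s26f1PullAlg f (G.schemeNsmul N) (G.schemeNsmul_over N), s26f1_isPull f _ _,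
    fun Ω _ _ j => s26etm_nsmul f G N j⟩

end Fermat.Agent.S26

end
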