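/-
S26-E — PLAN, stage 1b (captain helper77): the two Props of the formal part that PlanE.lean does not
list: the generic point of a `K`-embedding under `[-1]` and under `[N]`.

* `s26e_StmtTNeg` (helper8,  S26/ETNeg.lean): `−η_j = η_{j ∘ ι}`,   `ι = [-1]^*`;
* `s26e_StmtTMul` (helper63, S26/ETMul.lean): `N η_j = η_{j ∘ φ}`,  `φ = [N]^*`, `(N : K) ≠ 0`.

Independence is preserved by (T-pre) (helper46, S26/ETPre.lean `s26etp_pre`).
-/
import Fermat.Agent.S26.PlanE

set_option autoImplicit false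

noncomputable section

namespace Fermat.Agent.S26

open CategoryTheory CategoryTheory.Limits AlgebraicGeometry NeronModelInfra GoodReductionJacobian

universe u

/-- **(T-neg)**: the inverse of the generic point of `j` is the generic point of `j ∘ ι`. -/
def s26e_StmtTNeg : Prop :=
  ∀ (K : Type u) [Field K] {A : Scheme.{u}} (f : A ⟶ Spec (CommRingCat.of K))
    (G : RelativeGroupLaw K f) (g : ℕ), S26Hyp K f G g → ∀ [IsIntegral A],
    ∃ ι : s26F f →ₐ[K] s26F f,
      ∀ (Ω : Type u) [Field Ω] [Algebra K Ω] (j : s26F f →ₐ[K] Ω),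
        s26ePt f (j.comp ι) = G.inv _ (s26ePt f j)

/-- **(T-mul)**: for `(N : K) ≠ 0` the `N`-th multiple of the generic point of `j` is the generic
point of `j ∘ φ`. -/
def s26e_StmtTMul : Prop :=
  ∀ (K : Type u) [Field K] {A : Scheme.{u}} (f : A ⟶ Spec (CommRingCat.of K))
    (G : RelativeGroupLaw K f) (g : ℕ), S26Hyp K f G g → ∀ [IsIntegral A],
    ∀ N : ℕ, (N : K) ≠ 0 →
      ∃ φ : s26F f →ₐ[K] s26F f,
        ∀ (Ω : Type u) [Field Ω] [Algebra K Ω] (j : s26F f →ₐ[K] Ω),
          s26ePt f (j.comp φ) = G.nsmul _ N (s26ePt f j)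

end Fermat.Agent.S26

end
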