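/-
S26-E, formal part, leaf (T-mul) (helper63): `s26etm_stmt : s26e_StmtTMul` (VERBATIM Prop of
S26/PlanE1b.lean), from `s26etm_exists` (S26/ETMul.lean).
-/
import Fermat.Agent.S26.PlanE1b
import Fermat.Agent.S26.ETMul

set_option autoImplicit false

noncomputable section

namespace Fermat.Agent.S26

open CategoryTheory CategoryTheory.Limits AlgebraicGeometry NeronModelInfra GoodReductionJacobian

universe u

/-- **(T-mul)**, UNCONDITIONAL. -/
theorem s26etm_stmt : s26e_StmtTMul.{u} := by
  intro K _ A f G g H _ N hN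
  obtain ⟨φ, -, hφ⟩ := s26etm_exists f G g H N hN
  exact ⟨φ, hφ⟩

end Fermat.Agent.S26

end
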