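/-
S26-E, formal part, leaf (T-neg) (helper8): the generic point of `j ∘ [-1]^*` is `−η_j`.

Setting of `S26/PlanE.lean`: `f : A ⟶ Spec K`, `A` integral, `𝔉 = s26F f = K(A)`,
`s26eEta f ∈ A(𝔉)` the tautological generic point, `s26ePt f j = j(η) ∈ A(Ω)` for a
`K`-embedding `j : 𝔉 → Ω`.

* `s26etn_spec_pull`  : `Spec (ψ^*) ≫ (Spec K(Y) ⟶ Y) = (Spec K(X) ⟶ X) ≫ ψ` for a dominant
  morphism `ψ : X ⟶ Y` of integral schemes (`ψ^* = s26f1Pull ψ`);
* `s26etn_eta_pull`   : `(ψ^*)(η) = ψ ∘ η` in `A(𝔉)` for a dominant `ψ : A ⟶ A` over `K`;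
* `s26etn_pt_pull`    : `η_{j ∘ ψ^*} = ψ ∘ η_j` in `A(Ω)`;
* `s26etnNeg f G`     : `[-1]^* : 𝔉 ≃ₐ[K] 𝔉`;
* `s26etn_pt_neg`     : `η_{j ∘ [-1]^*} = −η_j`;
* `s26etn_main`       : (T-neg) `∃ ι : 𝔉 ≃ₐ[K] 𝔉, ∀ Ω j, η_{j ∘ ι} = −η_j`.
-/
import Fermat.Agent.S26.PlanE
import Fermat.Agent.S26.A2Final

set_option autoImplicit false
set_option linter.style.haveILetI false
set_option linter.unusedSectionVars false

noncomputable section

namespace Fermat.Agent.S26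

open CategoryTheory CategoryTheory.Limits AlgebraicGeometry NeronModelInfra GoodReductionJacobian

universe u

section Gen

variable {X Y : Scheme.{u}} [IsIntegral X] [IsIntegral Y]

/-- `Spec (ψ^*) ≫ (Spec K(Y) ⟶ Y) = (Spec K(X) ⟶ X) ≫ ψ`. -/
theorem s26etn_spec_pull (ψ : X ⟶ Y) [IsDominant ψ] :
    Spec.map (CommRingCat.ofHom (s26f1Pull ψ)) ≫ Y.fromSpecStalk (genericPoint Y) =
      X.fromSpecStalk (genericPoint X) ≫ ψ := by
  have h1 : CommRingCat.ofHom (s26f1Pull ψ) =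
      Y.presheaf.stalkSpecializes (specializes_of_eq (s26f1_map_genericPoint ψ)) ≫
        ψ.stalkMap (genericPoint X) := rfl
  rw [h1, Spec.map_comp, Category.assoc, Scheme.SpecMap_stalkSpecializes_fromSpecStalk,
    Scheme.SpecMap_stalkMap_fromSpecStalk]

end Gen

variable {K : Type u} [Field K] {A : Scheme.{u}} (f : A ⟶ Spec (CommRingCat.of K))
  [IsIntegral A]

/-- `(ψ^*)(η) = ψ ∘ η` in `A(𝔉)`. -/
theorem s26etn_eta_pull (ψ : A ⟶ A) [IsDominant ψ] (hψ : ψ ≫ f = f) :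
    (s26eptMap f (s26f1PullAlg f ψ hψ) (s26eEta f)).1 = (s26eEta f).1 ≫ ψ :=
  s26etn_spec_pull ψ

section Pts

variable {Ω : Type u} [Field Ω] [Algebra K Ω]

/-- `η_{j ∘ ψ^*} = ψ ∘ η_j` in `A(Ω)`. -/
theorem s26etn_pt_pull (ψ : A ⟶ A) [IsDominant ψ] (hψ : ψ ≫ f = f) (j : s26F f →ₐ[K] Ω) :
    (s26ePt f (j.comp (s26f1PullAlg f ψ hψ))).1 = (s26ePt f j).1 ≫ ψ := by
  unfold s26ePt
  rw [s26eptMap_comp, s26eptMap_coe, s26etn_eta_pull f ψ hψ, s26eptMap_coe, Category.assoc]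

end Pts

variable (G : RelativeGroupLaw K f)

theorem s26etn_neg_isIso : IsIso (s26neg f G) :=
  ⟨s26neg f G, s26a2_neg_neg G, s26a2_neg_neg G⟩

theorem s26etn_neg_isDominant : IsDominant (s26neg f G) :=
  haveI := s26etn_neg_isIso f G
  inferInstance

theorem s26etn_neg_comp : s26neg f G ≫ f = f := s26a1Inv_comp G

/-- `[-1]^*` as a `K`-algebra endomorphism of `𝔉`. -/
def s26etnNegHom : s26F f →ₐ[K] s26F f :=
  haveI := s26etn_neg_isDominant f G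
  s26f1PullAlg f (s26neg f G) (s26etn_neg_comp f G)

theorem s26etnNegHom_isPull : s26IsPull f (s26neg f G) (s26etnNegHom f G) :=
  haveI := s26etn_neg_isDominant f G
  s26f1_isPull f (s26neg f G) (s26etn_neg_comp f G)

theorem s26etn_id_isPull : s26IsPull f (𝟙 A) (AlgHom.id K (s26F f)) := by
  intro V hV hV' s
  rfl

theorem s26etnNegHom_comp_self :
    (s26etnNegHom f G).comp (s26etnNegHom f G) = AlgHom.id K (s26F f) := by
  have h := s26f1_isPull_comp f _ _ _ _ (s26etnNegHom_isPull f G) (s26etnNegHom_isPull f G)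
  rw [s26a2_neg_neg] at h
  exact s26f1_isPull_unique f (𝟙 A) _ _ (s26etn_id_isPull f) h

/-- `[-1]^* : 𝔉 ≃ₐ[K] 𝔉`. -/
def s26etnNeg : s26F f ≃ₐ[K] s26F f :=
  AlgEquiv.ofAlgHom (s26etnNegHom f G) (s26etnNegHom f G)
    (s26etnNegHom_comp_self f G) (s26etnNegHom_comp_self f G)

theorem s26etnNeg_coe : ((s26etnNeg f G : s26F f ≃ₐ[K] s26F f) : s26F f →ₐ[K] s26F f) =
    s26etnNegHom f G := rfl

theorem s26etnNeg_isPull :
    s26IsPull f (s26neg f G) (s26etnNeg f G : s26F f →ₐ[K] s26F f) :=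
  s26etnNegHom_isPull f G

section Pts2

variable {Ω : Type u} [Field Ω] [Algebra K Ω]

/-- `η_{j ∘ [-1]^*} = −η_j`. -/
theorem s26etn_pt_neg (j : s26F f →ₐ[K] Ω) :
    s26ePt f (j.comp (s26etnNeg f G : s26F f →ₐ[K] s26F f)) = G.inv _ (s26ePt f j) := by
  haveI := s26etn_neg_isDominant f G
  apply Subtype.ext
  rw [s26a1_inv_eq G _ (s26ePt f j)]
  exact s26etn_pt_pull f (s26neg f G) (s26etn_neg_comp f G) j

/-- the tautological point: `([-1]^*)(η) = −η`. -/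
theorem s26etn_eta_neg :
    s26eptMap f (s26etnNeg f G : s26F f →ₐ[K] s26F f) (s26eEta f) = G.inv _ (s26eEta f) := by
  haveI := s26etn_neg_isDominant f G
  apply Subtype.ext
  rw [s26a1_inv_eq G _ (s26eEta f)]
  exact s26etn_eta_pull f (s26neg f G) (s26etn_neg_comp f G)

end Pts2

/-- **(T-neg)**: there is a `K`-automorphism `ι` of `𝔉` with `η_{j ∘ ι} = −η_j` for every
`K`-embedding `j : 𝔉 → Ω`. -/
theorem s26etn_main :
    ∃ ι : s26F f ≃ₐ[K] s26F f, ∀ (Ω : Type u) [Field Ω] [Algebra K Ω] (j : s26F f →ₐ[K] Ω),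
      s26ePt f (j.comp (ι : s26F f →ₐ[K] s26F f)) = G.inv _ (s26ePt f j) :=
  ⟨s26etnNeg f G, fun _ _ _ j => s26etn_pt_neg f G j⟩

end Fermat.Agent.S26
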