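/-
S26-E, formal part, leaf (T-neg) (helper8): the Prop `s26e_StmtTNeg` of `S26/PlanE1b.lean`,
verbatim and unconditional (`ι = [-1]^*`, `S26/ETNeg.lean`).
-/
import Fermat.Agent.S26.ETNeg
import Fermat.Agent.S26.PlanE1b

set_option autoImplicit false

noncomputable section

namespace Fermat.Agent.S26

open CategoryTheory CategoryTheory.Limits AlgebraicGeometry NeronModelInfra GoodReductionJacobian

universe u

/-- **(T-neg)**, the Prop of `S26/PlanE1b.lean`. -/
theorem s26etn_stmtTNeg : s26e_StmtTNeg.{u} := by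
  intro K _ A f G g _ _
  exact ⟨(s26etnNeg f G : s26F f →ₐ[K] s26F f), fun _ _ _ j => s26etn_pt_neg f G j⟩

end Fermat.Agent.S26

end
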