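/-
S26-E, FORMAL PART §1 (captain helper77), part 1: the group of points `A(Ω)` as a commutative
group, the linear points `ℓ_v = v₁ x₁ + v₂ x₂ + v₃ x₃` (`v ∈ ℤ³`), and the point of a generic
point.

* `s26efwGrp f G hc Ω`  : the `CommGroup` structure on `A(Ω)` (multiplicative notation);
* `s26efwLin x v`       : `x₀ ^ v₀ * x₁ ^ v₁ * x₂ ^ v₂` in a commutative group;
* `s26efw_pt_gen`       : the image point of `s26ePt f j` is the generic point of `A`.
-/
import Fermat.Agent.S26.PlanE1b

set_option autoImplicit false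
set_option linter.style.haveILetI false

noncomputable section

namespace Fermat.Agent.S26

open CategoryTheory CategoryTheory.Limits AlgebraicGeometry NeronModelInfra GoodReductionJacobian

universe u

section Lin

variable {M : Type*} [CommGroup M] (x : Fin 3 → M)

/-- the linear point `ℓ_v` (multiplicative notation). -/
def s26efwLin (v : Fin 3 → ℤ) : M := x 0 ^ v 0 * x 1 ^ v 1 * x 2 ^ v 2

theorem s26efwLin_add (a b : Fin 3 → ℤ) :
    s26efwLin x (a + b) = s26efwLin x a * s26efwLin x b := by
  simp only [s26efwLin, Pi.add_apply, zpow_add]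
  ac_rfl

theorem s26efwLin_neg (a : Fin 3 → ℤ) : s26efwLin x (-a) = (s26efwLin x a)⁻¹ := by
  simp only [s26efwLin, Pi.neg_apply, zpow_neg, mul_inv]

theorem s26efwLin_smul (N : ℕ) (a : Fin 3 → ℤ) :
    s26efwLin x ((N : ℤ) • a) = s26efwLin x a ^ N := by
  simp only [s26efwLin, Pi.smul_apply, smul_eq_mul, mul_pow]
  rw [mul_comm (N : ℤ) (a 0), mul_comm (N : ℤ) (a 1), mul_comm (N : ℤ) (a 2), zpow_mul, zpow_mul,
    zpow_mul, zpow_natCast, zpow_natCast, zpow_natCast]

theorem s26efwLin_e1 : s26efwLin x ![1, 0, 0] = x 0 := by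
  simp [s26efwLin]

theorem s26efwLin_e2 : s26efwLin x ![0, 1, 0] = x 1 := by
  simp [s26efwLin]

theorem s26efwLin_e3 : s26efwLin x ![0, 0, 1] = x 2 := by
  simp [s26efwLin]

theorem s26efwLin_Ne1 (N : ℕ) : s26efwLin x ![(N : ℤ), 0, 0] = x 0 ^ N := by
  simp [s26efwLin]

end Lin

variable {K : Type u} [Field K] {A : Scheme.{u}} (f : A ⟶ Spec (CommRingCat.of K))

/-- the commutative group `A(Ω)`. -/
@[reducible] def s26efwGrp (G : RelativeGroupLaw K f) (hc : G.IsCommutative)
    (Ω : Type u) [CommRing Ω] [Algebra K Ω] : CommGroup (s26eptPts f Ω) :=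
  { G.pointGroup (s26eptStr K Ω) with mul_comm := fun x y => hc _ x y }

theorem s26efw_nsmul (G : RelativeGroupLaw K f) (hc : G.IsCommutative)
    (Ω : Type u) [CommRing Ω] [Algebra K Ω] (n : ℕ) (P : s26eptPts f Ω) :
    letI := s26efwGrp f G hc Ω
    G.nsmul _ n P = P ^ n := by
  letI := s26efwGrp f G hc Ω
  induction n with
  | zero => exact (pow_zero P).symm
  | succ n ih =>
    rw [RelativeGroupLaw.nsmul_succ, ih, pow_succ]
    rfl

/-- the image point of the tautological generic point. -/
theorem s26efw_pt_eta [IsIntegral A] : s26eptPt f (s26eEta f) = genericPoint A := by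
  unfold s26eptPt s26eEta s26eEtaHom
  exact Scheme.fromSpecStalk_closedPoint

/-- the image point of the generic point of a `K`-embedding. -/
theorem s26efw_pt_gen [IsIntegral A] {Ω : Type u} [Field Ω] [Algebra K Ω]
    (j : s26F f →ₐ[K] Ω) : s26eptPt f (s26ePt f j) = genericPoint A := by
  haveI : IsLocalHom (j : s26F f →+* Ω) := by
    constructor
    intro a ha
    have h0 : a ≠ 0 := by
      rintro rfl
      simp at ha
    exact h0.isUnit
  unfold s26ePt
  rw [s26eptPt_map f j (s26eEta f), s26efw_pt_eta]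

end Fermat.Agent.S26

end
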