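/-
S26-E, formal part, leaf (T-pre) (helper46): independence of generic triples is stable under
precomposition with `K`-algebra endomorphisms of `𝔉 = K(A)` (e.g. the pull-backs `[N]^*`, `[-1]^*`)
and under permutations of the three points.  Instance of the pure algebra of `ETPreAlg.lean`.
-/
import Fermat.Agent.S26.PlanE
import Fermat.Agent.S26.ETPreAlg

set_option autoImplicit false
set_option linter.style.haveILetI false

noncomputable section

namespace Fermat.Agent.S26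

open CategoryTheory CategoryTheory.Limits AlgebraicGeometry
open scoped TensorProduct

universe u

variable {K : Type u} [Field K] {A : Scheme.{u}} (f : A ⟶ Spec (CommRingCat.of K))
  [IsIntegral A] {Ω : Type u} [Field Ω] [Algebra K Ω]

/-- a `K`-algebra endomorphism of the field `𝔉` is injective -/
theorem s26etp_injective (φ : s26F f →ₐ[K] s26F f) : Function.Injective φ :=
  (φ : s26F f →+* s26F f).injective

/-- **(T-pre), all three slots** -/
theorem s26etp_pre3 (j₁ j₂ j₃ : s26F f →ₐ[K] Ω) (φ₁ φ₂ φ₃ : s26F f →ₐ[K] s26F f)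
    (h : S26eIndep3 f j₁ j₂ j₃) : S26eIndep3 f (j₁.comp φ₁) (j₂.comp φ₂) (j₃.comp φ₃) :=
  s26etp_indep3_pre j₁ j₂ j₃ φ₁ φ₂ φ₃ (s26etp_injective f φ₁) (s26etp_injective f φ₂)
    (s26etp_injective f φ₃) h

/-- **(T-pre)**: `(j₁, j₂, j₃)` independent ⇒ `(j₁ ∘ φ, j₂, j₃)` independent. -/
theorem s26etp_pre (j₁ j₂ j₃ : s26F f →ₐ[K] Ω) (φ : s26F f →ₐ[K] s26F f)
    (h : S26eIndep3 f j₁ j₂ j₃) : S26eIndep3 f (j₁.comp φ) j₂ j₃ := by
  have := s26etp_pre3 f j₁ j₂ j₃ φ (AlgHom.id K _) (AlgHom.id K _) h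
  rwa [AlgHom.comp_id, AlgHom.comp_id] at this

/-- (T-pre) in the second slot -/
theorem s26etp_pre_snd (j₁ j₂ j₃ : s26F f →ₐ[K] Ω) (φ : s26F f →ₐ[K] s26F f)
    (h : S26eIndep3 f j₁ j₂ j₃) : S26eIndep3 f j₁ (j₂.comp φ) j₃ := by
  have := s26etp_pre3 f j₁ j₂ j₃ (AlgHom.id K _) φ (AlgHom.id K _) h
  rwa [AlgHom.comp_id, AlgHom.comp_id] at this

/-- (T-pre) in the third slot -/
theorem s26etp_pre_trd (j₁ j₂ j₃ : s26F f →ₐ[K] Ω) (φ : s26F f →ₐ[K] s26F f)
    (h : S26eIndep3 f j₁ j₂ j₃) : S26eIndep3 f j₁ j₂ (j₃.comp φ) := by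
  have := s26etp_pre3 f j₁ j₂ j₃ (AlgHom.id K _) (AlgHom.id K _) φ h
  rwa [AlgHom.comp_id, AlgHom.comp_id] at this

/-- (T-perm), first half: swap of the first two points -/
theorem s26etp_swap12 (j₁ j₂ j₃ : s26F f →ₐ[K] Ω) (h : S26eIndep3 f j₁ j₂ j₃) :
    S26eIndep3 f j₂ j₁ j₃ :=
  s26etp_indep3_swap12 j₁ j₂ j₃ h

/-- (T-perm), second half: swap of the last two points -/
theorem s26etp_swap23 (j₁ j₂ j₃ : s26F f →ₐ[K] Ω) (h : S26eIndep3 f j₁ j₂ j₃) :
    S26eIndep3 f j₁ j₃ j₂ :=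
  s26etp_indep3_swap23 j₁ j₂ j₃ h

/-- postcomposition with a `K`-embedding of fields `σ : Ω → Ω'` preserves independence -/
theorem s26etp_post {Ω' : Type u} [Field Ω'] [Algebra K Ω'] (σ : Ω →ₐ[K] Ω')
    (j₁ j₂ j₃ : s26F f →ₐ[K] Ω) (h : S26eIndep3 f j₁ j₂ j₃) :
    S26eIndep3 f (σ.comp j₁) (σ.comp j₂) (σ.comp j₃) := by
  have e : Algebra.TensorProduct.productMap
      (Algebra.TensorProduct.productMap (σ.comp j₁) (σ.comp j₂)) (σ.comp j₃)
      = σ.comp (Algebra.TensorProduct.productMap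
          (Algebra.TensorProduct.productMap j₁ j₂) j₃) := by
    apply Algebra.TensorProduct.ext'
    intro x c
    induction x using TensorProduct.induction_on with
    | zero => simp
    | tmul a b => simp
    | add x y hx hy =>
      rw [TensorProduct.add_tmul, map_add, map_add, hx, hy]
  show Function.Injective _
  rw [e]
  exact (σ : Ω →+* Ω').injective.comp h

end Fermat.Agent.S26

end
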