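/-
S26-E, FORMAL PART §1 (captain helper77), part 2: THE WIRING

  (LF) + (G-func) + (G-ne) + (G-neg) + (INTERFACE) + (T0) + (T-shear) + (T-neg) + (T-mul) + (CUBE_gen)
      ⟹  `s26_StmtCube`.

* `s26efw_good`  : every GOOD triple of vectors of `ℤ³` (S26/ELinGood.lean) is realised by an
                   independent triple of generic points (induction on the good triples);
* `s26efw_cube`  : the wiring.
-/
import Fermat.Agent.S26.EFormalGrp
import Fermat.Agent.S26.ELinGood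
import Fermat.Agent.S26.ETPre

set_option autoImplicit false
set_option linter.style.haveILetI false

noncomputable section

namespace Fermat.Agent.S26

open CategoryTheory CategoryTheory.Limits AlgebraicGeometry NeronModelInfra GoodReductionJacobian

universe u

variable {K : Type u} [Field K] {A : Scheme.{u}} (f : A ⟶ Spec (CommRingCat.of K))

/-- the linear point `ℓ_v` of three generic points. -/
def s26efwP (G : RelativeGroupLaw K f) (hc : G.IsCommutative) [IsIntegral A]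
    {Ω : Type u} [Field Ω] [Algebra K Ω] (i : Fin 3 → (s26F f →ₐ[K] Ω)) (v : Fin 3 → ℤ) :
    s26eptPts f Ω :=
  letI := s26efwGrp f G hc Ω
  s26efwLin (fun t => s26ePt f (i t)) v

theorem s26efwP_add (G : RelativeGroupLaw K f) (hc : G.IsCommutative) [IsIntegral A]
    {Ω : Type u} [Field Ω] [Algebra K Ω] (i : Fin 3 → (s26F f →ₐ[K] Ω)) (a b : Fin 3 → ℤ) :
    G.mul _ (s26efwP f G hc i a) (s26efwP f G hc i b) = s26efwP f G hc i (a + b) := by
  letI := s26efwGrp f G hc Ω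
  exact (s26efwLin_add (fun t => s26ePt f (i t)) a b).symm

theorem s26efwP_neg (G : RelativeGroupLaw K f) (hc : G.IsCommutative) [IsIntegral A]
    {Ω : Type u} [Field Ω] [Algebra K Ω] (i : Fin 3 → (s26F f →ₐ[K] Ω)) (a : Fin 3 → ℤ) :
    G.inv _ (s26efwP f G hc i a) = s26efwP f G hc i (-a) := by
  letI := s26efwGrp f G hc Ω
  exact (s26efwLin_neg (fun t => s26ePt f (i t)) a).symm

theorem s26efwP_smul (G : RelativeGroupLaw K f) (hc : G.IsCommutative) [IsIntegral A]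
    {Ω : Type u} [Field Ω] [Algebra K Ω] (i : Fin 3 → (s26F f →ₐ[K] Ω)) (N : ℕ)
    (a : Fin 3 → ℤ) :
    G.nsmul _ N (s26efwP f G hc i a) = s26efwP f G hc i ((N : ℤ) • a) := by
  letI := s26efwGrp f G hc Ω
  rw [s26efw_nsmul f G hc Ω]
  exact (s26efwLin_smul (fun t => s26ePt f (i t)) N a).symm

theorem s26efwP_e1 (G : RelativeGroupLaw K f) (hc : G.IsCommutative) [IsIntegral A]
    {Ω : Type u} [Field Ω] [Algebra K Ω] (i : Fin 3 → (s26F f →ₐ[K] Ω)) :
    s26efwP f G hc i ![1, 0, 0] = s26ePt f (i 0) := by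
  letI := s26efwGrp f G hc Ω
  exact s26efwLin_e1 (fun t => s26ePt f (i t))

theorem s26efwP_e2 (G : RelativeGroupLaw K f) (hc : G.IsCommutative) [IsIntegral A]
    {Ω : Type u} [Field Ω] [Algebra K Ω] (i : Fin 3 → (s26F f →ₐ[K] Ω)) :
    s26efwP f G hc i ![0, 1, 0] = s26ePt f (i 1) := by
  letI := s26efwGrp f G hc Ω
  exact s26efwLin_e2 (fun t => s26ePt f (i t))

theorem s26efwP_e3 (G : RelativeGroupLaw K f) (hc : G.IsCommutative) [IsIntegral A]
    {Ω : Type u} [Field Ω] [Algebra K Ω] (i : Fin 3 → (s26F f →ₐ[K] Ω)) :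
    s26efwP f G hc i ![0, 0, 1] = s26ePt f (i 2) := by
  letI := s26efwGrp f G hc Ω
  exact s26efwLin_e3 (fun t => s26ePt f (i t))

theorem s26efwP_Ne1 (G : RelativeGroupLaw K f) (hc : G.IsCommutative) [IsIntegral A]
    {Ω : Type u} [Field Ω] [Algebra K Ω] (i : Fin 3 → (s26F f →ₐ[K] Ω)) (N : ℕ) :
    s26efwP f G hc i ![(N : ℤ), 0, 0] = G.nsmul _ N (s26ePt f (i 0)) := by
  letI := s26efwGrp f G hc Ω
  rw [s26efw_nsmul f G hc Ω]
  exact s26efwLin_Ne1 (fun t => s26ePt f (i t)) N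

/-- **good triples are realised by independent generic triples.** -/
theorem s26efw_good (G : RelativeGroupLaw K f) (g : ℕ) (hyp : S26Hyp K f G g) [IsIntegral A]
    (hShear : s26e_StmtTShear.{u}) (hTNeg : s26e_StmtTNeg.{u}) (hTMul : s26e_StmtTMul.{u})
    {Ω : Type u} [Field Ω] [Algebra K Ω] (i : Fin 3 → (s26F f →ₐ[K] Ω))
    (hind : S26eIndep3 f (i 0) (i 1) (i 2)) (a b c : Fin 3 → ℤ) (h : S26elgGood K a b c) :
    ∃ k₁ k₂ k₃ : s26F f →ₐ[K] Ω, S26eIndep3 f k₁ k₂ k₃ ∧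
      s26ePt f k₁ = s26efwP f G hyp.comm i a ∧ s26ePt f k₂ = s26efwP f G hyp.comm i b ∧
      s26ePt f k₃ = s26efwP f G hyp.comm i c := by
  induction h with
  | base =>
    exact ⟨i 0, i 1, i 2, hind, (s26efwP_e1 f G hyp.comm i).symm,
      (s26efwP_e2 f G hyp.comm i).symm, (s26efwP_e3 f G hyp.comm i).symm⟩
  | swap12 _ ih =>
    obtain ⟨k₁, k₂, k₃, hk, e1, e2, e3⟩ := ih
    exact ⟨k₂, k₁, k₃, s26etp_swap12 f k₁ k₂ k₃ hk, e2, e1, e3⟩
  | swap23 _ ih =>
    obtain ⟨k₁, k₂, k₃, hk, e1, e2, e3⟩ := ih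
    exact ⟨k₁, k₃, k₂, s26etp_swap23 f k₁ k₂ k₃ hk, e1, e3, e2⟩
  | shear _ ih =>
    obtain ⟨k₁, k₂, k₃, hk, e1, e2, e3⟩ := ih
    obtain ⟨j', hj', hind'⟩ := hShear K f G g hyp Ω k₁ k₂ k₃ hk
    refine ⟨j', k₂, k₃, hind', ?_, e2, e3⟩
    rw [hj', e1, e3, s26efwP_add]
  | neg _ ih =>
    obtain ⟨k₁, k₂, k₃, hk, e1, e2, e3⟩ := ih
    obtain ⟨ι, hι⟩ := hTNeg K f G g hyp
    refine ⟨k₁, k₂, k₃.comp ι, s26etp_pre_trd f k₁ k₂ k₃ ι hk, e1, e2, ?_⟩
    rw [hι Ω k₃, e3, s26efwP_neg]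
  | mul N hN _ ih =>
    obtain ⟨k₁, k₂, k₃, hk, e1, e2, e3⟩ := ih
    obtain ⟨φ, hφ⟩ := hTMul K f G g hyp N hN
    refine ⟨k₁.comp φ, k₂, k₃, s26etp_pre f k₁ k₂ k₃ φ hk, ?_, e2, e3⟩
    rw [hφ Ω k₁, e1, s26efwP_smul]

/-- the generic point of `A` lies in every admissible open. -/
theorem s26efw_generic_mem (G : RelativeGroupLaw K f) [IsIntegral A] (U : A.Opens)
    (hU : S26IsAdm f G U) : genericPoint A ∈ U :=
  ((genericPoint_spec A).mem_open_set_iff U.2).2 ⟨s26zero f G, trivial, hU.2.1⟩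

/-- **THE WIRING of the formal part**: the Props of S26/PlanE.lean and S26/PlanE1b.lean give the
theorem of the cube in the captain's form. -/
theorem s26efw_cube (hLF : s26e_StmtLF.{u}) (hFunc : s26e_StmtGenFunc.{u})
    (hNe : s26e_StmtGenNe.{u}) (hNeg : s26e_StmtGenNeg.{u}) (hIface : s26e_StmtIface.{u})
    (hT0 : s26e_StmtT0.{u}) (hShear : s26e_StmtTShear.{u}) (hTNeg : s26e_StmtTNeg.{u})
    (hTMul : s26e_StmtTMul.{u}) (hCube : s26e_StmtCubeGen.{u}) : s26_StmtCube.{u} := by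
  intro K _ A f G g hyp _ _ U hU N hN
  haveI : IsProper f := hyp.bundle.proper
  have LD := hLF K f G g hyp U hU
  obtain ⟨c, hc, hcube⟩ := hCube K f G g hyp U hU LD
  obtain ⟨Ω, _, _, j₁, j₂, j₃, hind, hclosed⟩ := hT0 K f G g hyp
  -- the triple, with the algebraically closed embedding FIRST
  let i : Fin 3 → (s26F f →ₐ[K] Ω) := ![j₂, j₁, j₃]
  have hind' : S26eIndep3 f (i 0) (i 1) (i 2) := s26etp_swap12 f j₁ j₂ j₃ hind
  have hgood := s26efw_good f G g hyp hShear hTNeg hTMul i hind'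
  let 𝔡 : (Fin 3 → ℤ) → ValuationSubring Ω → Ω :=
    fun v V => s26eGen f U (s26efwP f G hyp.comm i v) V
  have h0 : ∀ v, S26elgVec K v → ∀ V : ValuationSubring Ω, S26erOver K V → 𝔡 v V ≠ 0 := by
    rintro v ⟨b, c', hg⟩ V hV
    obtain ⟨k₁, _, _, _, e1, _, _⟩ := hgood v b c' hg
    show s26eGen f U (s26efwP f G hyp.comm i v) V ≠ 0
    rw [← e1]
    apply hNe K f G g hyp U hU LD Ω (s26ePt f k₁) V hV
    rw [s26efw_pt_gen]
    exact s26efw_generic_mem f G U hU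
  have hsymm : ∀ v, S26elgVec K v → ∀ V : ValuationSubring Ω, S26erOver K V →
      V.valuation (𝔡 (-v) V) = V.valuation (𝔡 v V) := by
    intro v _ V hV
    show V.valuation (s26eGen f U (s26efwP f G hyp.comm i (-v)) V) =
      V.valuation (s26eGen f U (s26efwP f G hyp.comm i v) V)
    rw [← s26efwP_neg]
    exact hNeg K f G g hyp U hU LD Ω _ V hV
  have hcube' : ∀ a b c' : Fin 3 → ℤ, S26elgGood K a b c' →
      ∃ F : Ω, S26erIsRel K (fun V => s26elinCubeFam 𝔡 a b c' V ^ c) F := by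
    intro a b c' hg
    obtain ⟨k₁, k₂, k₃, hk, e1, e2, e3⟩ := hgood a b c' hg
    obtain ⟨F, hF⟩ := hcube Ω k₁ k₂ k₃ hk
    refine ⟨F, ?_⟩
    have e : (fun V => s26eCube f G U (s26ePt f k₁) (s26ePt f k₂) (s26ePt f k₃) V ^ c) =
        fun V => s26elinCubeFam 𝔡 a b c' V ^ c := by
      funext V
      congr 1
      show s26eGen f U (G.mul _ (G.mul _ (s26ePt f k₁) (s26ePt f k₂)) (s26ePt f k₃)) V *
            s26eGen f U (s26ePt f k₁) V * s26eGen f U (s26ePt f k₂) V *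
            s26eGen f U (s26ePt f k₃) V /
          (s26eGen f U (G.mul _ (s26ePt f k₁) (s26ePt f k₂)) V *
            s26eGen f U (G.mul _ (s26ePt f k₁) (s26ePt f k₃)) V *
            s26eGen f U (G.mul _ (s26ePt f k₂) (s26ePt f k₃)) V) =
        s26eGen f U (s26efwP f G hyp.comm i (a + b + c')) V *
          (s26eGen f U (s26efwP f G hyp.comm i (a + b)) V)⁻¹ *
          (s26eGen f U (s26efwP f G hyp.comm i (a + c')) V)⁻¹ *
          (s26eGen f U (s26efwP f G hyp.comm i (b + c')) V)⁻¹ *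
          s26eGen f U (s26efwP f G hyp.comm i a) V *
          s26eGen f U (s26efwP f G hyp.comm i b) V *
          s26eGen f U (s26efwP f G hyp.comm i c') V
      rw [e1, e2, e3, s26efwP_add, s26efwP_add, s26efwP_add, s26efwP_add, div_eq_mul_inv,
        mul_inv, mul_inv]
      ring
    rw [e] at hF
    exact hF
  obtain ⟨F, hF0, hF⟩ := s26elg_rel K 𝔡 h0 hsymm c hcube' N hN
  -- DESCENT along `j₂`
  letI : Algebra (s26F f) Ω := (j₂ : s26F f →+* Ω).toAlgebra
  haveI : IsScalarTower K (s26F f) Ω :=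
    IsScalarTower.of_algebraMap_eq (fun a => (j₂.commutes a).symm)
  let 𝔡₀ : ValuationSubring (s26F f) → s26F f := fun W =>
    (s26eGen f U (G.nsmul _ N (s26eEta f)) W / s26eGen f U (s26eEta f) W ^ (N ^ 2)) ^ (2 * c)
  -- the generic point `N η`
  obtain ⟨φ, hφ⟩ := hTMul K f G g hyp N hN
  have hNη : G.nsmul _ N (s26eEta f) = s26ePt f φ := by
    have h1 := hφ (s26F f) (AlgHom.id K (s26F f))
    have h2 : s26ePt f (AlgHom.id K (s26F f)) = s26eEta f := s26eptMap_id f (s26eEta f)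
    rw [h2, AlgHom.id_comp] at h1
    exact h1.symm
  have hη : s26eEta f = s26ePt f (AlgHom.id K (s26F f)) := (s26eptMap_id f (s26eEta f)).symm
  have hgen1 : ∀ W : ValuationSubring (s26F f), S26erOver K W →
      s26eGen f U (s26eEta f) W ≠ 0 := by
    intro W hW
    apply hNe K f G g hyp U hU LD (s26F f) (s26eEta f) W hW
    rw [s26efw_pt_eta]
    exact s26efw_generic_mem f G U hU
  have hgenN : ∀ W : ValuationSubring (s26F f), S26erOver K W →
      s26eGen f U (G.nsmul _ N (s26eEta f)) W ≠ 0 := by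
    intro W hW
    apply hNe K f G g hyp U hU LD (s26F f) _ W hW
    rw [hNη, s26efw_pt_gen]
    exact s26efw_generic_mem f G U hU
  have hrel : S26erIsRel K (s26erPull (Ω' := Ω) 𝔡₀) F := by
    refine hF.congr ?_
    intro V hV
    have eN : s26efwP f G hyp.comm i ![(N : ℤ), 0, 0] =
        s26eptMap f j₂ (G.nsmul _ N (s26eEta f)) := by
      rw [s26efwP_Ne1, s26eptMap_nsmul]
      rfl
    have e1 : s26efwP f G hyp.comm i ![1, 0, 0] = s26eptMap f j₂ (s26eEta f) := by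
      rw [s26efwP_e1]
      rfl
    have fN := hFunc K f G g hyp U hU LD (s26F f) Ω j₂ (G.nsmul _ N (s26eEta f)) V hV
    have f1 := hFunc K f G g hyp U hU LD (s26F f) Ω j₂ (s26eEta f) V hV
    show V.valuation ((s26eGen f U (s26efwP f G hyp.comm i ![(N : ℤ), 0, 0]) V *
        (s26eGen f U (s26efwP f G hyp.comm i ![1, 0, 0]) V ^ (N ^ 2))⁻¹) ^ (2 * c)) =
      V.valuation ((algebraMap (s26F f) Ω)
        ((s26eGen f U (G.nsmul _ N (s26eEta f)) (V.comap (algebraMap (s26F f) Ω)) /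
          s26eGen f U (s26eEta f) (V.comap (algebraMap (s26F f) Ω)) ^ (N ^ 2)) ^ (2 * c)))
    rw [eN, e1, map_pow, map_mul, map_inv₀, map_pow, fN, f1, map_pow, map_div₀, map_pow,
      map_pow, map_div₀, map_pow, div_eq_mul_inv]
    rfl
  have halg : ∀ y : Ω, IsAlgebraic (s26F f) y → y ∈ (algebraMap (s26F f) Ω).range := by
    intro y hy
    exact hclosed y hy.isIntegral
  have h0' : 𝔡₀ ⊤ ≠ 0 := by
    apply pow_ne_zero
    apply div_ne_zero (hgenN ⊤ s26erOver_top)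
    exact pow_ne_zero _ (hgen1 ⊤ s26erOver_top)
  obtain ⟨F₀, -, hF₀⟩ := S26erIsRel.descend halg h0' hrel
  obtain ⟨hne, hord⟩ := hIface K f G g hyp U hU LD N hN (2 * c) F₀ hF₀
  refine ⟨2 * c, F₀, by omega, hne, fun z hz => ?_⟩
  rw [hord z hz]

end Fermat.Agent.S26

end
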