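/-
S26, piece F2 (helper35): the spaces `L(U, m)`.

`s26f2_stmtL : s26_StmtA2 → s26_StmtL` — given that the stalks at the prime divisors are discrete
valuation rings (piece A2), the set `s26Lset f U m` is already a `K`-subspace of `K(A)`
(so `x ∈ s26L f U m ↔ x ∈ s26Lset f U m`), and products add the pole orders.
-/
import Fermat.Agent.S26.PlanGeo

set_option autoImplicit false
noncomputable section
namespace Fermat.Agent.S26
open CategoryTheory CategoryTheory.Limits AlgebraicGeometry NeronModelInfra GoodReductionJacobian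
universe u
variable {K : Type u} [Field K] {A : Scheme.{u}} (f : A ⟶ Spec (CommRingCat.of K))

/-- `s26ord` is Mathlib's `Scheme.ord`. -/
theorem s26f2_ord_eq [IsIntegral A] [IsLocallyNoetherian A] (x : s26F f) (z : A) :
    s26ord f x z = Scheme.ord (X := A) x z := rfl

/-- the order of `0` is `0` (junk value). -/
theorem s26f2_ord_zero [IsIntegral A] [IsLocallyNoetherian A] (z : A) :
    s26ord f (0 : s26F f) z = 0 := by
  have h := congrFun (Scheme.ord_zero (X := A)) z
  exact h

/-- the order of a product. -/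
theorem s26f2_ord_mul [IsIntegral A] [IsLocallyNoetherian A] {x y : s26F f} (hx : x ≠ 0)
    (hy : y ≠ 0) (z : A) : s26ord f (x * y) z = s26ord f x z + s26ord f y z :=
  Scheme.ord_mul (X := A) hx hy

/-- the order of a sum, at a point whose stalk is a discrete valuation ring. -/
theorem s26f2_ord_add [IsIntegral A] [IsLocallyNoetherian A] {x y : s26F f} (z : A)
    [IsDiscreteValuationRing (A.presheaf.stalk z)] (hxy : x + y ≠ 0) :
    min (s26ord f x z) (s26ord f y z) ≤ s26ord f (x + y) z :=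
  Scheme.ord_add (X := A) hxy

/-- nonzero constants have order `0` everywhere. -/
theorem s26f2_ord_algebraMap [IsIntegral A] [IsLocallyNoetherian A] {c : K} (hc : c ≠ 0)
    (z : A) : s26ord f (algebraMap K (s26F f) c) z = 0 := by
  have : Nonempty (⊤ : A.Opens) := ⟨⟨genericPoint A, trivial⟩⟩
  have hu : IsUnit ((f.appTop).hom ((Scheme.ΓSpecIso (CommRingCat.of K)).inv.hom c)) :=
    ((IsUnit.mk0 c hc).map (Scheme.ΓSpecIso (CommRingCat.of K)).inv.hom).map (f.appTop).hom
  exact Scheme.ord_of_isUnit (X := A) (U := ⊤) hu (x := z) trivial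

/-- the order of a scalar multiple. -/
theorem s26f2_ord_smul [IsIntegral A] [IsLocallyNoetherian A] {c : K} (hc : c ≠ 0)
    (x : s26F f) (z : A) : s26ord f (c • x) z = s26ord f x z := by
  rcases eq_or_ne x 0 with rfl | hx
  · rw [smul_zero]
  · rw [Algebra.smul_def, s26f2_ord_mul f _ hx z, s26f2_ord_algebraMap f hc z, zero_add]
    exact (map_ne_zero_iff _ (algebraMap K (s26F f)).injective).mpr hc

/-- `0 ∈ Lset`. -/
theorem s26f2_zero_mem [IsIntegral A] [IsLocallyNoetherian A] (U : A.Opens) (m : ℕ) :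
    (0 : s26F f) ∈ s26Lset f U m := by
  intro z _
  rw [s26f2_ord_zero]
  exact ⟨fun _ => le_rfl, by omega⟩

/-- `Lset` is closed under scalar multiplication. -/
theorem s26f2_smul_mem [IsIntegral A] [IsLocallyNoetherian A] (U : A.Opens) (m : ℕ) (c : K)
    {x : s26F f} (hx : x ∈ s26Lset f U m) : c • x ∈ s26Lset f U m := by
  rcases eq_or_ne c 0 with rfl | hc
  · rw [zero_smul]; exact s26f2_zero_mem f U m
  · intro z hz
    rw [s26f2_ord_smul f hc]
    exact hx z hz

/-- `Lset` is closed under addition, if the stalks at the prime divisors are DVRs. -/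
theorem s26f2_add_mem [IsIntegral A] [IsLocallyNoetherian A]
    (hdvr : ∀ z : A, Order.coheight z = 1 → IsDiscreteValuationRing (A.presheaf.stalk z))
    (U : A.Opens) (m : ℕ) {x y : s26F f} (hx : x ∈ s26Lset f U m) (hy : y ∈ s26Lset f U m) :
    x + y ∈ s26Lset f U m := by
  rcases eq_or_ne (x + y) 0 with h0 | h0
  · rw [h0]; exact s26f2_zero_mem f U m
  · intro z hz
    have := hdvr z hz
    have h := s26f2_ord_add f z h0
    obtain ⟨hx1, hx2⟩ := hx z hz
    obtain ⟨hy1, hy2⟩ := hy z hz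
    refine ⟨fun hzU => le_trans (le_min (hx1 hzU) (hy1 hzU)) h, le_trans (le_min hx2 hy2) h⟩

/-- `Lset` is the carrier of `L`, if the stalks at the prime divisors are DVRs. -/
theorem s26f2_mem_L_iff [IsIntegral A] [IsLocallyNoetherian A]
    (hdvr : ∀ z : A, Order.coheight z = 1 → IsDiscreteValuationRing (A.presheaf.stalk z))
    (U : A.Opens) (m : ℕ) (x : s26F f) : x ∈ s26L f U m ↔ x ∈ s26Lset f U m := by
  constructor
  · intro hx
    refine Submodule.span_induction (p := fun x _ => x ∈ s26Lset f U m) (fun x hx => hx)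
      (s26f2_zero_mem f U m) (fun x y _ _ hx hy => s26f2_add_mem f hdvr U m hx hy)
      (fun c x _ hx => s26f2_smul_mem f U m c hx) hx
  · intro hx
    exact Submodule.subset_span hx

/-- `Lset` is monotone in `m`. -/
theorem s26f2_Lset_mono [IsIntegral A] [IsLocallyNoetherian A] (U : A.Opens) {a b : ℕ}
    (hab : a ≤ b) : s26Lset f U a ⊆ s26Lset f U b := by
  intro x hx z hz
  obtain ⟨h1, h2⟩ := hx z hz
  exact ⟨h1, by have : (a : ℤ) ≤ b := by exact_mod_cast hab
                omega⟩

/-- `L` is monotone in `m`. -/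
theorem s26f2_L_mono [IsIntegral A] [IsLocallyNoetherian A] (U : A.Opens) {a b : ℕ}
    (hab : a ≤ b) : s26L f U a ≤ s26L f U b :=
  Submodule.span_mono (s26f2_Lset_mono f U hab)

/-- `L` is antitone in `U`. -/
theorem s26f2_Lset_anti [IsIntegral A] [IsLocallyNoetherian A] {U V : A.Opens} (hUV : U ≤ V)
    (m : ℕ) : s26Lset f V m ⊆ s26Lset f U m := by
  intro x hx z hz
  obtain ⟨h1, h2⟩ := hx z hz
  exact ⟨fun hzU => h1 (hUV hzU), h2⟩

/-- products in `Lset`. -/
theorem s26f2_mul_mem [IsIntegral A] [IsLocallyNoetherian A] (U : A.Opens) (a b : ℕ)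
    {x y : s26F f} (hx : x ∈ s26Lset f U a) (hy : y ∈ s26Lset f U b) :
    x * y ∈ s26Lset f U (a + b) := by
  rcases eq_or_ne x 0 with rfl | hx0
  · rw [zero_mul]; exact s26f2_zero_mem f U _
  rcases eq_or_ne y 0 with rfl | hy0
  · rw [mul_zero]; exact s26f2_zero_mem f U _
  intro z hz
  rw [s26f2_ord_mul f hx0 hy0]
  obtain ⟨hx1, hx2⟩ := hx z hz
  obtain ⟨hy1, hy2⟩ := hy z hz
  refine ⟨fun hzU => add_nonneg (hx1 hzU) (hy1 hzU), ?_⟩
  push_cast
  omega

/-- `1 ∈ Lset`. -/
theorem s26f2_one_mem [IsIntegral A] [IsLocallyNoetherian A] (U : A.Opens) (m : ℕ) :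
    (1 : s26F f) ∈ s26Lset f U m := by
  intro z _
  have h : s26ord f (1 : s26F f) z = 0 := by
    have := s26f2_ord_algebraMap f (one_ne_zero (α := K)) z
    rwa [map_one] at this
  rw [h]
  exact ⟨fun _ => le_rfl, by omega⟩

/-- **F2** (`s26_StmtL`) from **A2** (`s26_StmtA2`). -/
theorem s26f2_stmtL (hA2 : s26_StmtA2.{u}) : s26_StmtL.{u} := by
  intro K _ A f G g hyp _ _ U
  obtain ⟨_, -, -, hdvr⟩ := hA2 K f G g hyp
  refine ⟨fun m x => s26f2_mem_L_iff f hdvr U m x, ?_⟩
  intro a b x hx y hy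
  rw [s26f2_mem_L_iff f hdvr] at hx hy ⊢
  exact s26f2_mul_mem f U a b hx hy

end Fermat.Agent.S26
end
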