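/-
S26, piece G1-up (helper63): INTERFACE, part 2.  The Noether normalisation of `Γ(U)`.
Statements only.
-/
import Fermat.Agent.S26.G1UpPlan

set_option autoImplicit false
noncomputable section
namespace Fermat.Agent.S26
open CategoryTheory CategoryTheory.Limits AlgebraicGeometry NeronModelInfra GoodReductionJacobian
universe u

/-- **Noether normalisation of `Γ(U)`**, `U` a nonempty affine open: a finite injective ring
homomorphism `K[y_1, …, y_s] → Γ(A, U)` which is `K`-linear for the structure map of `A`
(expressed inside `K(A)`, where the `K`-algebra structure is `s26F_algebra`). -/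
def s26g1u_StmtNoether : Prop :=
  ∀ (K : Type u) [Field K] {A : Scheme.{u}} (f : A ⟶ Spec (CommRingCat.of K))
    (G : RelativeGroupLaw K f) (g : ℕ), S26Hyp K f G g →
    ∀ [IsIntegral A] [IsLocallyNoetherian A] (U : A.Opens) [Nonempty U], IsAffineOpen U →
      ∃ (s : ℕ) (φ : MvPolynomial (Fin s) K →+* Γ(A, U)),
        (∀ c : K, s26germ f U (φ (MvPolynomial.C c)) = algebraMap K (s26F f) c) ∧
        Function.Injective φ ∧ φ.Finite

end Fermat.Agent.S26
end
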