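/-
S26, piece G1-up / Noether (helper87): `s26g1u_StmtNoether` — Noether normalisation of `Γ(U)`.

`f` proper ⇒ locally of finite type ⇒ `K → Γ(A, U)` (`s26g1liStr f U`) is of finite type for an
affine open `U`; Mathlib's `exists_finite_inj_algHom_of_fg` gives the finite injective
`K[y_1..y_s] → Γ(A, U)`.

* `s26g1n_finiteType` : `(s26g1liStr f U).FiniteType`;
* `s26g1n_noether`    : the normalisation for any integral `A`, locally of finite type over `K`;
* `s26g1n_stmt`       : `s26g1u_StmtNoether`.
-/
import Fermat.Agent.S26.G1LoInst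
import Fermat.Agent.S26.G1UpPlan2

set_option autoImplicit false
set_option linter.style.haveILetI false
set_option linter.unusedSectionVars false

noncomputable section
namespace Fermat.Agent.S26
open CategoryTheory CategoryTheory.Limits AlgebraicGeometry NeronModelInfra GoodReductionJacobian
open TopologicalSpace MvPolynomial
universe u
variable {K : Type u} [Field K] {A : Scheme.{u}} (f : A ⟶ Spec (CommRingCat.of K))

/-- `Γ(A, U)` is of finite type over `K`, `U` affine. -/
theorem s26g1n_finiteType [LocallyOfFiniteType f] (U : A.Opens) (hU : IsAffineOpen U) :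
    (s26g1liStr f U).FiniteType := by
  have he : U ≤ f ⁻¹ᵁ ⊤ := fun _ _ => trivial
  have h1 : (f.appLE ⊤ U he).hom.FiniteType := f.finiteType_appLE (isAffineOpen_top _) hU he
  let e : K ≃+* Γ(Spec (CommRingCat.of K), ⊤) :=
    (Scheme.ΓSpecIso (CommRingCat.of K)).symm.commRingCatIsoToRingEquiv
  have h2 : (e : K →+* Γ(Spec (CommRingCat.of K), ⊤)).FiniteType :=
    RingHom.FiniteType.of_surjective _ e.surjective
  exact h1.comp h2

/-- **Noether normalisation** of `Γ(A, U)`. -/
theorem s26g1n_noether [IsIntegral A] [LocallyOfFiniteType f] (U : A.Opens) [Nonempty U]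
    (hU : IsAffineOpen U) :
    ∃ (s : ℕ) (φ : MvPolynomial (Fin s) K →+* Γ(A, U)),
      (∀ c : K, φ (MvPolynomial.C c) = s26g1liStr f U c) ∧
      (∀ c : K, s26germ f U (φ (MvPolynomial.C c)) = algebraMap K (s26F f) c) ∧
      Function.Injective φ ∧ φ.Finite := by
  letI alg : Algebra K Γ(A, U) := (s26g1liStr f U).toAlgebra
  haveI hft : Algebra.FiniteType K Γ(A, U) := s26g1n_finiteType f U hU
  obtain ⟨s, γ, hinj, hfin⟩ := exists_finite_inj_algHom_of_fg K Γ(A, U)
  have hC : ∀ c : K, γ.toRingHom (MvPolynomial.C c) = s26g1liStr f U c := by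
    intro c
    have h := γ.commutes c
    rw [MvPolynomial.algebraMap_eq] at h
    exact h
  refine ⟨s, γ.toRingHom, hC, ?_, hinj, hfin⟩
  intro c
  rw [hC]
  exact congrArg (fun φ : K →+* s26F f => φ c) (s26g1li_germ_str f U)

/-- **`s26g1u_StmtNoether`**. -/
theorem s26g1n_stmt : s26g1u_StmtNoether.{u} := by
  intro K _ A f G g H _ _ U _ hU
  haveI := H.bundle.proper
  obtain ⟨s, φ, -, h2, h3, h4⟩ := s26g1n_noether f U hU
  exact ⟨s, φ, h2, h3, h4⟩

end Fermat.Agent.S26
end
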