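/-
S26, piece G1-up (helper63): PURE ALGEBRA (Mathlib only).

`K` a perfect field, `P = K[y_1, …, y_s]`, `F₀ = Frac P`, `F / F₀` a finite field extension.
`v` = the degree valuation of `F₀` (`s26g1u_degVal`), `t = 1 / y_i`.
`V_N = {f ∈ F : f integral over P, f t ^ N integral over 𝒪_v}` (`s26g1u_V`).

* `s26g1u_T1`  : `F / F₀` separable ⇒ `dim_K V_N ≤ [F : F₀] (N + C' + 1) ^ s`
                 (`f ↦ (Tr (f b_j))_j` is injective into polynomials of degree `≤ N + C'`);
* `s26g1u_T2`  : Frobenius trick, `F / E` purely inseparable, `K` perfect: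
                 `dim_K V_N (F) ≤ dim_K V_{q ^ n N} (E)`;
* `s26g1u_T3`  : the geometric hypothesis (valuation rings) ⇒ `L m ⊆ V_{C m}`;
* `s26g1u_main`: **the abstract core**: `(∀ m, L m finite) ∧ ∃ c₂, ∀ m ≥ 1, dim L m ≤ c₂ m ^ s`.
-/
import Mathlib

set_option autoImplicit false

namespace Fermat.Agent.S26

open MvPolynomial WithZero

noncomputable section

section DegVal

variable (σ : Type*) (K : Type*) [Field K]

open scoped Classical in
/-- the degree valuation on the polynomial ring: `p ↦ exp (totalDegree p)`. -/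
def s26g1u_degValP : Valuation (MvPolynomial σ K) ℤᵐ⁰ where
  toFun p := if p = 0 then 0 else exp (p.totalDegree : ℤ)
  map_zero' := if_pos rfl
  map_one' := by simp
  map_mul' x y := by
    by_cases hx : x = 0
    · simp [hx]
    by_cases hy : y = 0
    · simp [hy]
    rw [if_neg hx, if_neg hy, if_neg (mul_ne_zero hx hy), totalDegree_mul_of_isDomain hx hy,
      Nat.cast_add, exp_add]
  map_add_le_max' x y := by
    by_cases hxy : x + y = 0
    · simp [hxy]
    rw [if_neg hxy]
    by_cases hx : x = 0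
    · subst hx
      simp only [zero_add] at hxy ⊢
      simp [hxy]
    by_cases hy : y = 0
    · subst hy
      simp only [add_zero] at hxy ⊢
      simp [hxy]
    rw [if_neg hx, if_neg hy]
    have h := totalDegree_add x y
    rcases le_max_iff.1 h with h1 | h1
    · exact le_max_of_le_left (exp_le_exp.2 (by exact_mod_cast h1))
    · exact le_max_of_le_right (exp_le_exp.2 (by exact_mod_cast h1))

variable {σ K}

theorem s26g1u_degValP_apply {p : MvPolynomial σ K} (hp : p ≠ 0) :
    s26g1u_degValP σ K p = exp (p.totalDegree : ℤ) := by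
  classical
  exact if_neg hp

theorem s26g1u_degValP_ne_zero {p : MvPolynomial σ K} (hp : p ≠ 0) :
    s26g1u_degValP σ K p ≠ 0 := by
  rw [s26g1u_degValP_apply hp]
  exact exp_ne_zero

theorem s26g1u_degValP_supp : (s26g1u_degValP σ K).supp = ⊥ := by
  ext p
  simp only [Valuation.mem_supp_iff, Ideal.mem_bot]
  constructor
  · intro h
    by_contra hp
    exact s26g1u_degValP_ne_zero hp h
  · rintro rfl
    exact map_zero _

variable (σ K)

/-- the degree valuation on the fraction field. -/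
def s26g1u_degVal (F₀ : Type*) [Field F₀] [Algebra (MvPolynomial σ K) F₀]
    [IsFractionRing (MvPolynomial σ K) F₀] : Valuation F₀ ℤᵐ⁰ :=
  (s26g1u_degValP σ K).extendToLocalization
    (S := nonZeroDivisors (MvPolynomial σ K))
    (fun p hp => by
      show p ∉ (s26g1u_degValP σ K).supp
      rw [Valuation.mem_supp_iff]
      exact s26g1u_degValP_ne_zero (nonZeroDivisors.ne_zero hp)) F₀

variable {σ K}
variable {F₀ : Type*} [Field F₀] [Algebra (MvPolynomial σ K) F₀]
    [IsFractionRing (MvPolynomial σ K) F₀]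

theorem s26g1u_degVal_algebraMap (p : MvPolynomial σ K) :
    s26g1u_degVal σ K F₀ (algebraMap (MvPolynomial σ K) F₀ p) = s26g1u_degValP σ K p :=
  Valuation.extendToLocalization_apply_map_apply _ _ _ _

theorem s26g1u_degVal_poly {p : MvPolynomial σ K} (hp : p ≠ 0) :
    s26g1u_degVal σ K F₀ (algebraMap (MvPolynomial σ K) F₀ p) = exp (p.totalDegree : ℤ) := by
  rw [s26g1u_degVal_algebraMap, s26g1u_degValP_apply hp]

/-- a polynomial `p` with `v (p * X_i⁻¹ ^ N) ≤ 1` has total degree `≤ N`. -/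
theorem s26g1u_totalDegree_le (i : σ) (p : MvPolynomial σ K) (N : ℕ)
    (h : s26g1u_degVal σ K F₀ (algebraMap (MvPolynomial σ K) F₀ p * (algebraMap (MvPolynomial σ K) F₀ (X i))⁻¹ ^ N) ≤ 1) :
    p.totalDegree ≤ N := by
  by_cases hp : p = 0
  · simp [hp]
  rw [map_mul, map_pow, map_inv₀, s26g1u_degVal_poly hp,
    s26g1u_degVal_poly (X_ne_zero i), totalDegree_X] at h
  rw [← exp_neg, ← exp_nsmul, ← exp_add, ← exp_zero, exp_le_exp] at h
  simp only [Nat.cast_one, smul_neg, nsmul_eq_mul, mul_one] at h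
  omega

end DegVal

section Count

variable (K : Type*) [Field K]

/-- the number of exponent vectors with all entries `≤ M`. -/
theorem s26g1u_card_box (s M : ℕ) :
    Nat.card {n : Fin s →₀ ℕ | ∀ i, n i ≤ M} = (M + 1) ^ s := by
  have e : {n : Fin s →₀ ℕ | ∀ i, n i ≤ M} ≃ (Fin s → Fin (M + 1)) :=
    { toFun := fun n i => ⟨n.1 i, Nat.lt_succ_of_le (n.2 i)⟩
      invFun := fun a => ⟨Finsupp.equivFunOnFinite.symm (fun i => (a i : ℕ)),
        fun i => Nat.lt_succ_iff.1 (a i).2⟩
      left_inv := fun n => by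
        ext i
        simp
      right_inv := fun a => by
        funext i
        simp }
  rw [Nat.card_congr e, Nat.card_eq_fintype_card, Fintype.card_fun, Fintype.card_fin,
    Fintype.card_fin]

theorem s26g1u_finrank_restrictDegree (s M : ℕ) :
    Module.finrank K (restrictDegree (Fin s) K M) = (M + 1) ^ s := by
  have h := Module.finrank_eq_nat_card_basis
    (basisRestrictSupport K {n : Fin s →₀ ℕ | ∀ i, n i ≤ M})
  rw [s26g1u_card_box] at h
  exact h

theorem s26g1u_finrank_restrictTotalDegree_le (s M : ℕ) :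
    Module.finrank K (restrictTotalDegree (Fin s) K M) ≤ (M + 1) ^ s := by
  rw [← s26g1u_finrank_restrictDegree K s M]
  exact Submodule.finrank_mono (restrictTotalDegree_le_restrictDegree (Fin s) K M)

end Count

set_option linter.unusedSectionVars false

section VN

variable {K : Type*} [Field K] {s : ℕ}
variable {F₀ : Type*} [Field F₀] [Algebra (MvPolynomial (Fin s) K) F₀]
  [IsFractionRing (MvPolynomial (Fin s) K) F₀]
variable [Algebra K F₀] [IsScalarTower K (MvPolynomial (Fin s) K) F₀]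
variable {F : Type*} [Field F] [Algebra F₀ F]
variable [Algebra (MvPolynomial (Fin s) K) F] [IsScalarTower (MvPolynomial (Fin s) K) F₀ F]
variable [Algebra K F] [IsScalarTower K F₀ F] [IsScalarTower K (MvPolynomial (Fin s) K) F]

/-- the element `t = 1 / y_i` of `F₀`. -/
def s26g1u_t (K : Type*) [Field K] {s : ℕ} (F₀ : Type*) [Field F₀]
    [Algebra (MvPolynomial (Fin s) K) F₀] (i : Fin s) : F₀ :=
  (algebraMap (MvPolynomial (Fin s) K) F₀ (X i))⁻¹

theorem s26g1u_val_t (i : Fin s) :
    s26g1u_degVal (Fin s) K F₀ (s26g1u_t K F₀ i) = exp (-1 : ℤ) := by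
  rw [s26g1u_t, map_inv₀, s26g1u_degVal_poly (X_ne_zero i), totalDegree_X, ← exp_neg]
  rfl

theorem s26g1u_val_t_le (i : Fin s) : s26g1u_degVal (Fin s) K F₀ (s26g1u_t K F₀ i) ≤ 1 := by
  rw [s26g1u_val_t, ← exp_zero, exp_le_exp]
  norm_num

theorem s26g1u_val_const (c : K) : s26g1u_degVal (Fin s) K F₀ (algebraMap K F₀ c) ≤ 1 := by
  rw [IsScalarTower.algebraMap_apply K (MvPolynomial (Fin s) K) F₀, s26g1u_degVal_algebraMap]
  by_cases hc : algebraMap K (MvPolynomial (Fin s) K) c = 0
  · rw [hc, map_zero]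
    simp
  · rw [s26g1u_degValP_apply hc, MvPolynomial.algebraMap_eq, totalDegree_C]
    simp

/-- integrality over the valuation ring of the degree valuation: constants. -/
theorem s26g1u_isIntegral_const (c : K) :
    IsIntegral (s26g1u_degVal (Fin s) K F₀).valuationSubring (algebraMap K F c) := by
  have h : algebraMap K F c = algebraMap (s26g1u_degVal (Fin s) K F₀).valuationSubring F
      ⟨algebraMap K F₀ c, s26g1u_val_const c⟩ := by
    rw [IsScalarTower.algebraMap_apply K F₀ F]
    rfl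
  rw [h]
  exact isIntegral_algebraMap

theorem s26g1u_isIntegral_of_val_le {a : F₀} (ha : s26g1u_degVal (Fin s) K F₀ a ≤ 1) :
    IsIntegral (s26g1u_degVal (Fin s) K F₀).valuationSubring (algebraMap F₀ F a) := by
  have h : algebraMap F₀ F a = algebraMap (s26g1u_degVal (Fin s) K F₀).valuationSubring F
      ⟨a, ha⟩ := rfl
  rw [h]
  exact isIntegral_algebraMap

theorem s26g1u_isIntegralP_const (c : K) :
    IsIntegral (MvPolynomial (Fin s) K) (algebraMap K F c) := by
  rw [IsScalarTower.algebraMap_apply K (MvPolynomial (Fin s) K) F]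
  exact isIntegral_algebraMap

variable (K F₀ F) in
/-- `V_N`: integral over `K[y]`, and pole order `≤ N` at infinity. -/
def s26g1u_V (i : Fin s) (N : ℕ) : Submodule K F where
  carrier := {f | IsIntegral (MvPolynomial (Fin s) K) f ∧
    IsIntegral (s26g1u_degVal (Fin s) K F₀).valuationSubring
      (f * algebraMap F₀ F (s26g1u_t K F₀ i ^ N))}
  add_mem' := by
    rintro a b ⟨ha1, ha2⟩ ⟨hb1, hb2⟩
    refine ⟨ha1.add hb1, ?_⟩
    rw [add_mul]
    exact ha2.add hb2
  zero_mem' := by
    refine ⟨isIntegral_zero, ?_⟩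
    rw [zero_mul]
    exact isIntegral_zero
  smul_mem' := by
    rintro c a ⟨ha1, ha2⟩
    refine ⟨?_, ?_⟩
    · rw [Algebra.smul_def]
      exact (s26g1u_isIntegralP_const c).mul ha1
    · rw [Algebra.smul_def, mul_assoc]
      exact (s26g1u_isIntegral_const (F₀ := F₀) c).mul ha2

theorem s26g1u_mem_V {i : Fin s} {N : ℕ} {f : F} :
    f ∈ s26g1u_V K F₀ F i N ↔ IsIntegral (MvPolynomial (Fin s) K) f ∧
      IsIntegral (s26g1u_degVal (Fin s) K F₀).valuationSubring
        (f * algebraMap F₀ F (s26g1u_t K F₀ i ^ N)) := Iff.rfl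

/-- Claim D: every element of `F` becomes integral at infinity after multiplication by a power
of `t`. -/
theorem s26g1u_exists_pow [Algebra.IsAlgebraic F₀ F] (i : Fin s) (z : F) :
    ∃ c : ℕ, ∀ c', c ≤ c' → IsIntegral (s26g1u_degVal (Fin s) K F₀).valuationSubring
      (z * algebraMap F₀ F (s26g1u_t K F₀ i ^ c')) := by
  set v := s26g1u_degVal (Fin s) K F₀ with hv
  have hz : IsAlgebraic v.valuationSubring z :=
    (IsFractionRing.isAlgebraic_iff v.valuationSubring F₀ F).2 (Algebra.IsAlgebraic.isAlgebraic z)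
  obtain ⟨y, hy0, hy⟩ := hz.exists_integral_multiple
  have hy0' : (y : F₀) ≠ 0 := fun h => hy0 (Subtype.ext h)
  have hvy0 : v (y : F₀) ≠ 0 := (Valuation.ne_zero_iff v).2 hy0'
  have hvy1 : v (y : F₀) ≤ 1 := y.2
  -- `v y = exp (-c)`
  have hlog : log (v (y : F₀)) ≤ 0 := by
    have := (log_le_log hvy0 (one_ne_zero)).2 hvy1
    simpa using this
  obtain ⟨c, hc⟩ : ∃ c : ℕ, log (v (y : F₀)) = -(c : ℤ) :=
    ⟨(-log (v (y : F₀))).toNat, by rw [Int.toNat_of_nonneg (by omega)]; ring⟩
  refine ⟨c, fun c' hcc' => ?_⟩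
  -- `u = t ^ c' / y` has valuation `≤ 1`
  have hu : v (s26g1u_t K F₀ i ^ c' * (y : F₀)⁻¹) ≤ 1 := by
    rw [map_mul, map_pow, map_inv₀, s26g1u_val_t, ← exp_log hvy0, hc, ← exp_nsmul, ← exp_neg,
      ← exp_add, ← exp_zero, exp_le_exp]
    simp only [smul_neg, nsmul_eq_mul, mul_one, neg_neg]
    omega
  have h1 : z * algebraMap F₀ F (s26g1u_t K F₀ i ^ c') =
      (y • z) * algebraMap F₀ F (s26g1u_t K F₀ i ^ c' * (y : F₀)⁻¹) := by
    have hyz : y • z = algebraMap F₀ F (y : F₀) * z := by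
      rw [Algebra.smul_def]
      rfl
    rw [hyz, map_mul, map_inv₀]
    have : algebraMap F₀ F (y : F₀) ≠ 0 := by
      rw [Ne, map_eq_zero]
      exact hy0'
    field_simp
  rw [h1]
  exact hy.mul (s26g1u_isIntegral_of_val_le hu)

end VN
section IntVal

variable {F₀ : Type*} [Field F₀] (v : Valuation F₀ ℤᵐ⁰) {F : Type*} [Field F] [Algebra F₀ F]

/-- `V` lies above the valuation ring of `v`. -/
def s26g1u_Above (V : ValuationSubring F) : Prop :=
  ∀ a : F₀, v a ≤ 1 → algebraMap F₀ F a ∈ V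

theorem s26g1u_mem_of_isIntegral {x : F} (hx : IsIntegral v.valuationSubring x)
    {V : ValuationSubring F} (hV : s26g1u_Above v V) : x ∈ V := by
  have : IsIntegrallyClosedIn V.toSubring F := inferInstanceAs (IsIntegrallyClosedIn V F)
  have h := (Subring.integralClosure_le_iff (R := v.valuationSubring) (A := F)
    (T := V.toSubring)).2 (fun r => hV r.1 r.2)
  exact h hx

theorem s26g1u_isIntegral_of_forall_mem {x : F}
    (hx : ∀ V : ValuationSubring F, s26g1u_Above v V → x ∈ V) :
    IsIntegral v.valuationSubring x := by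
  by_contra hcon
  have hxR : x ∉ (integralClosure v.valuationSubring F).toSubring := hcon
  obtain ⟨V, hV, hxV⟩ := Subring.exists_le_valuationSubring_of_isIntegrallyClosedIn hxR
  refine hxV (hx V fun a ha => hV ?_)
  exact (integralClosure v.valuationSubring F).algebraMap_mem (⟨a, ha⟩ : v.valuationSubring)

theorem s26g1u_isIntegral_iff {x : F} :
    IsIntegral v.valuationSubring x ↔ ∀ V : ValuationSubring F, s26g1u_Above v V → x ∈ V :=
  ⟨fun h _ hV => s26g1u_mem_of_isIntegral v h hV, s26g1u_isIntegral_of_forall_mem v⟩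

/-- an element of `F₀` that is integral over the valuation ring lies in it. -/
theorem s26g1u_val_le_one_of_isIntegral {a : F₀} (ha : IsIntegral v.valuationSubring a) :
    v a ≤ 1 := by
  obtain ⟨y, hy⟩ := IsIntegrallyClosed.isIntegral_iff.1 ha
  rw [← hy]
  exact y.2

/-- trace of an integral element. -/
theorem s26g1u_val_trace_le_one [FiniteDimensional F₀ F] {x : F}
    (hx : IsIntegral v.valuationSubring x) : v (Algebra.trace F₀ F x) ≤ 1 :=
  s26g1u_val_le_one_of_isIntegral v (Algebra.isIntegral_trace hx)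

end IntVal

section T1

variable {K : Type*} [Field K] {s : ℕ}
variable {F₀ : Type*} [Field F₀] [Algebra (MvPolynomial (Fin s) K) F₀]
  [IsFractionRing (MvPolynomial (Fin s) K) F₀]
variable [Algebra K F₀] [IsScalarTower K (MvPolynomial (Fin s) K) F₀]
variable {F : Type*} [Field F] [Algebra F₀ F]
variable [Algebra (MvPolynomial (Fin s) K) F] [IsScalarTower (MvPolynomial (Fin s) K) F₀ F]
variable [Algebra K F] [IsScalarTower K F₀ F] [IsScalarTower K (MvPolynomial (Fin s) K) F]
variable [FiniteDimensional F₀ F]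

variable (K F₀) in
/-- the polynomials of total degree `≤ M`, inside `F₀`. -/
def s26g1u_W (M : ℕ) : Submodule K F₀ :=
  (restrictTotalDegree (Fin s) K M).map
    (IsScalarTower.toAlgHom K (MvPolynomial (Fin s) K) F₀).toLinearMap

instance s26g1u_W_finite (M : ℕ) : Module.Finite K (s26g1u_W K F₀ (s := s) M) := by
  unfold s26g1u_W
  infer_instance

theorem s26g1u_finrank_W_le (M : ℕ) :
    Module.finrank K (s26g1u_W K F₀ (s := s) M) ≤ (M + 1) ^ s :=
  (Submodule.finrank_map_le _ _).trans (s26g1u_finrank_restrictTotalDegree_le K s M)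

theorem s26g1u_trace_mem_W (i : Fin s) {N C' : ℕ} {f b : F} (hf : f ∈ s26g1u_V K F₀ F i N)
    (hb : IsIntegral (MvPolynomial (Fin s) K) b)
    (hb' : IsIntegral (s26g1u_degVal (Fin s) K F₀).valuationSubring
      (b * algebraMap F₀ F (s26g1u_t K F₀ i ^ C'))) :
    Algebra.trace F₀ F (f * b) ∈ s26g1u_W K F₀ (s := s) (N + C') := by
  have h1 : IsIntegral (MvPolynomial (Fin s) K) (Algebra.trace F₀ F (f * b)) :=
    Algebra.isIntegral_trace (hf.1.mul hb)
  obtain ⟨p, hp⟩ := IsIntegrallyClosed.isIntegral_iff.1 h1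
  have h2 : s26g1u_degVal (Fin s) K F₀
      (Algebra.trace F₀ F ((f * b) * algebraMap F₀ F (s26g1u_t K F₀ i ^ (N + C')))) ≤ 1 := by
    apply s26g1u_val_trace_le_one
    have : (f * b) * algebraMap F₀ F (s26g1u_t K F₀ i ^ (N + C')) =
        (f * algebraMap F₀ F (s26g1u_t K F₀ i ^ N)) *
          (b * algebraMap F₀ F (s26g1u_t K F₀ i ^ C')) := by
      rw [pow_add, map_mul]
      ring
    rw [this]
    exact hf.2.mul hb'
  have h3 : Algebra.trace F₀ F ((f * b) * algebraMap F₀ F (s26g1u_t K F₀ i ^ (N + C'))) =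
      algebraMap (MvPolynomial (Fin s) K) F₀ p *
        (algebraMap (MvPolynomial (Fin s) K) F₀ (X i))⁻¹ ^ (N + C') := by
    rw [mul_comm (f * b), ← Algebra.smul_def, map_smul, smul_eq_mul, hp, mul_comm]
    rfl
  rw [h3] at h2
  have hdeg := s26g1u_totalDegree_le i p (N + C') h2
  refine ⟨p, (mem_restrictTotalDegree _ _ _).2 hdeg, ?_⟩
  rw [← hp]
  rfl

/-- **(T1)** the separable case: `dim_K V_N ≤ [F : F₀] (N + C' + 1) ^ s`. -/
theorem s26g1u_T1 [Algebra.IsSeparable F₀ F] (i : Fin s) :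
    ∃ C' : ℕ, ∀ N, Module.Finite K (s26g1u_V K F₀ F i N) ∧
      Module.finrank K (s26g1u_V K F₀ F i N) ≤ Module.finrank F₀ F * (N + C' + 1) ^ s := by
  classical
  obtain ⟨B, b, hb⟩ := FiniteDimensional.exists_is_basis_integral (MvPolynomial (Fin s) K) F₀ F
  have hc : ∀ j : B, ∃ c : ℕ, ∀ c', c ≤ c' →
      IsIntegral (s26g1u_degVal (Fin s) K F₀).valuationSubring
        (b j * algebraMap F₀ F (s26g1u_t K F₀ i ^ c')) := fun j => s26g1u_exists_pow i (b j)
  choose c hc using hc
  have hC : ∀ j : B, c j ≤ ∑ j, c j := fun j =>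
    Finset.single_le_sum (f := c) (fun _ _ => Nat.zero_le _) (Finset.mem_univ j)
  refine ⟨∑ j, c j, fun N => ?_⟩
  set C' := ∑ j, c j with hC'
  let Φ : s26g1u_V K F₀ F i N →ₗ[K] (B → s26g1u_W K F₀ (s := s) (N + C')) :=
    { toFun := fun f j => ⟨Algebra.trace F₀ F (f.1 * b j),
        s26g1u_trace_mem_W i f.2 (hb j) (hc j C' (hC j))⟩
      map_add' := fun f g => by
        funext j
        apply Subtype.ext
        simp [add_mul]
      map_smul' := fun a f => by
        funext j
        apply Subtype.ext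
        simp only [Submodule.coe_smul, RingHom.id_apply, Pi.smul_apply, smul_mul_assoc]
        rw [← algebraMap_smul F₀ a (f.1 * b j), map_smul, algebraMap_smul] }
  have hΦ : Function.Injective Φ := by
    rw [injective_iff_map_eq_zero]
    intro f hf
    have h0 : ∀ j, Algebra.trace F₀ F (f.1 * b j) = 0 := fun j => by
      have := congrArg (fun w => ((w j : s26g1u_W K F₀ (s := s) (N + C')) : F₀)) hf
      simpa [Φ] using this
    have h1 : Algebra.traceForm F₀ F f.1 = 0 := by
      apply b.ext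
      intro j
      rw [Algebra.traceForm_apply, h0 j]
      rfl
    have h2 := (traceForm_nondegenerate F₀ F).1 f.1 (fun y => by rw [h1]; rfl)
    exact Subtype.ext h2
  have hfin : Module.Finite K (s26g1u_V K F₀ F i N) := Module.Finite.of_injective Φ hΦ
  refine ⟨hfin, ?_⟩
  calc Module.finrank K (s26g1u_V K F₀ F i N)
      ≤ Module.finrank K (B → s26g1u_W K F₀ (s := s) (N + C')) :=
        LinearMap.finrank_le_finrank_of_injective hΦ
    _ = ∑ _j : B, Module.finrank K (s26g1u_W K F₀ (s := s) (N + C')) :=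
        Module.finrank_pi_fintype K
    _ = Fintype.card B * Module.finrank K (s26g1u_W K F₀ (s := s) (N + C')) := by
        rw [Finset.sum_const, Finset.card_univ, smul_eq_mul]
    _ = Module.finrank F₀ F * Module.finrank K (s26g1u_W K F₀ (s := s) (N + C')) := by
        rw [Module.finrank_eq_card_basis b]
    _ ≤ Module.finrank F₀ F * (N + C' + 1) ^ s :=
        Nat.mul_le_mul_left _ (s26g1u_finrank_W_le _)

end T1

section T2

variable {K : Type*} [Field K] {s : ℕ}
variable {F₀ : Type*} [Field F₀] [Algebra (MvPolynomial (Fin s) K) F₀]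
  [IsFractionRing (MvPolynomial (Fin s) K) F₀]
variable [Algebra K F₀] [IsScalarTower K (MvPolynomial (Fin s) K) F₀]
variable {F : Type*} [Field F] [Algebra F₀ F]
variable [Algebra (MvPolynomial (Fin s) K) F] [IsScalarTower (MvPolynomial (Fin s) K) F₀ F]
variable [Algebra K F] [IsScalarTower K F₀ F] [IsScalarTower K (MvPolynomial (Fin s) K) F]
variable {E : Type*} [Field E] [Algebra F₀ E] [Algebra E F] [IsScalarTower F₀ E F]
variable [Algebra (MvPolynomial (Fin s) K) E] [IsScalarTower (MvPolynomial (Fin s) K) F₀ E]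
  [IsScalarTower (MvPolynomial (Fin s) K) E F]
variable [Algebra K E] [IsScalarTower K F₀ E] [IsScalarTower K (MvPolynomial (Fin s) K) E]
  [IsScalarTower K E F]

/-- membership in `V_N` can be tested after the extension `E → F`. -/
theorem s26g1u_mem_V_of_algebraMap {i : Fin s} {N : ℕ} {x : E}
    (h : algebraMap E F x ∈ s26g1u_V K F₀ F i N) : x ∈ s26g1u_V K F₀ E i N := by
  have hinj : Function.Injective (algebraMap E F) := (algebraMap E F).injective
  refine ⟨(isIntegral_algebraMap_iff hinj).1 h.1, ?_⟩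
  have h2 := h.2
  rw [IsScalarTower.algebraMap_apply F₀ E F, ← map_mul] at h2
  exact (isIntegral_algebraMap_iff hinj).1 h2

variable (E) in
/-- **(T2)** the Frobenius trick: `dim_K V_N (F) ≤ dim_K V_{q ^ n N} (E)` for `F / E` purely
inseparable of exponent `n` and `K` perfect. -/
theorem s26g1u_T2 [IsPurelyInseparable E F] [IsPurelyInseparable.HasExponent E F]
    (q : ℕ) [ExpChar K q] [PerfectRing K q] (i : Fin s) (N : ℕ)
    (hfin : Module.Finite K (s26g1u_V K F₀ E i (q ^ IsPurelyInseparable.exponent E F * N))) :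
    Module.Finite K (s26g1u_V K F₀ F i N) ∧
      Module.finrank K (s26g1u_V K F₀ F i N) ≤
        Module.finrank K (s26g1u_V K F₀ E i (q ^ IsPurelyInseparable.exponent E F * N)) := by
  have : ExpChar E q := expChar_of_injective_algebraMap (algebraMap K E).injective q
  set n := IsPurelyInseparable.exponent E F with hn
  let φ := IsPurelyInseparable.iterateFrobeniusₛₗ K E F q (le_refl n)
  have hφ : ∀ a : F, algebraMap E F (φ a) = a ^ q ^ n := fun a =>
    IsPurelyInseparable.algebraMap_iterateFrobeniusₛₗ K E F q (le_refl n) a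
  have hmem : ∀ f : F, f ∈ s26g1u_V K F₀ F i N → φ f ∈ s26g1u_V K F₀ E i (q ^ n * N) := by
    intro f hf
    apply s26g1u_mem_V_of_algebraMap (F := F)
    rw [hφ]
    refine ⟨hf.1.pow _, ?_⟩
    have : f ^ q ^ n * algebraMap F₀ F (s26g1u_t K F₀ i ^ (q ^ n * N)) =
        (f * algebraMap F₀ F (s26g1u_t K F₀ i ^ N)) ^ q ^ n := by
      rw [mul_pow, ← map_pow, ← pow_mul, mul_comm N]
    rw [this]
    exact hf.2.pow _
  let j : s26g1u_V K F₀ F i N →+ s26g1u_V K F₀ E i (q ^ n * N) :=
    { toFun := fun f => ⟨φ f.1, hmem f.1 f.2⟩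
      map_zero' := Subtype.ext (map_zero φ)
      map_add' := fun f g => Subtype.ext (map_add φ f.1 g.1) }
  have hj : Function.Injective j := by
    intro f g hfg
    have h1 : φ f.1 = φ g.1 := congrArg Subtype.val hfg
    have h2 : f.1 ^ q ^ n = g.1 ^ q ^ n := by rw [← hφ, ← hφ, h1]
    have : ExpChar F q := expChar_of_injective_algebraMap (algebraMap K F).injective q
    exact Subtype.ext (iterateFrobenius_inj F q n (by simpa [iterateFrobenius_def] using h2))
  have hc : ∀ (c : K) (f : s26g1u_V K F₀ F i N), j (c • f) = iterateFrobenius K q n c • j f := by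
    intro c f
    apply Subtype.ext
    exact φ.map_smulₛₗ c f.1
  have hrank := lift_rank_le_of_surjective_injective (iterateFrobenius K q n) j
    (bijective_iterateFrobenius K q n).2 hj hc
  have hlt : Module.rank K (s26g1u_V K F₀ E i (q ^ n * N)) < Cardinal.aleph0 :=
    Module.rank_lt_aleph0_iff.2 hfin
  have hlt' : Module.rank K (s26g1u_V K F₀ F i N) < Cardinal.aleph0 := by
    have h1 := lt_of_le_of_lt hrank (Cardinal.lift_lt_aleph0.2 hlt)
    exact Cardinal.lift_lt_aleph0.1 h1
  exact ⟨Module.rank_lt_aleph0_iff.1 hlt', Module.finrank_le_finrank_of_rank_le_rank hrank hlt⟩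

end T2

section T3

variable {K : Type*} [Field K] {s : ℕ}
variable {F₀ : Type*} [Field F₀] [Algebra (MvPolynomial (Fin s) K) F₀]
  [IsFractionRing (MvPolynomial (Fin s) K) F₀]
variable [Algebra K F₀] [IsScalarTower K (MvPolynomial (Fin s) K) F₀]
variable {F : Type*} [Field F] [Algebra F₀ F]
variable [Algebra (MvPolynomial (Fin s) K) F] [IsScalarTower (MvPolynomial (Fin s) K) F₀ F]
variable [Algebra K F] [IsScalarTower K F₀ F] [IsScalarTower K (MvPolynomial (Fin s) K) F]

/-- every element of `F₀` is a polynomial power of `y_i` times an element of the valuation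
ring. -/
theorem s26g1u_exists_pow_val_le (i : Fin s) (a : F₀) :
    ∃ c : ℕ, s26g1u_degVal (Fin s) K F₀ (a * s26g1u_t K F₀ i ^ c) ≤ 1 := by
  set v := s26g1u_degVal (Fin s) K F₀ with hv
  by_cases ha : a = 0
  · exact ⟨0, by simp [ha]⟩
  have hva : v a ≠ 0 := (Valuation.ne_zero_iff v).2 ha
  obtain ⟨k, hk⟩ : ∃ k : ℤ, v a = exp k := ⟨log (v a), (exp_log hva).symm⟩
  refine ⟨k.toNat, ?_⟩
  rw [map_mul, map_pow, s26g1u_val_t, hk, ← exp_nsmul, ← exp_add, ← exp_zero,
    exp_le_exp]
  simp only [smul_neg, nsmul_eq_mul, mul_one]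
  have := Int.self_le_toNat k
  omega

/-- a valuation ring of `F` above the degree valuation which contains `y_i` is all of `F`. -/
theorem s26g1u_eq_top_of_mem [Algebra.IsAlgebraic F₀ F] (i : Fin s) (V : ValuationSubring F)
    (hV : s26g1u_Above (s26g1u_degVal (Fin s) K F₀) V)
    (hy : algebraMap (MvPolynomial (Fin s) K) F (X i) ∈ V) (x : F) : x ∈ V := by
  have hy' : algebraMap F₀ F (algebraMap (MvPolynomial (Fin s) K) F₀ (X i)) ∈ V := by
    rw [← IsScalarTower.algebraMap_apply]
    exact hy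
  have hF₀ : ∀ a : F₀, algebraMap F₀ F a ∈ V := by
    intro a
    obtain ⟨c, hc⟩ := s26g1u_exists_pow_val_le (K := K) i a
    have h1 := hV _ hc
    have h2 : a = (a * s26g1u_t K F₀ i ^ c) * (algebraMap (MvPolynomial (Fin s) K) F₀ (X i)) ^ c := by
      have hX : algebraMap (MvPolynomial (Fin s) K) F₀ (X i) ≠ 0 := by
        rw [Ne, map_eq_zero_iff _ (IsFractionRing.injective (MvPolynomial (Fin s) K) F₀)]
        exact X_ne_zero i
      rw [s26g1u_t, inv_pow, mul_assoc, inv_mul_cancel₀ (pow_ne_zero _ hX), mul_one]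
    rw [h2, map_mul, map_pow]
    exact V.mul_mem _ _ h1 (V.pow_mem hy' c)
  have : IsIntegrallyClosedIn V.toSubring F := inferInstanceAs (IsIntegrallyClosedIn V F)
  have h := (Subring.integralClosure_le_iff (R := F₀) (A := F) (T := V.toSubring)).2 hF₀
  exact h (Algebra.IsIntegral.isIntegral (R := F₀) x)

/-- **(T3)** the geometric hypothesis gives `L m ⊆ V_{C m}`. -/
theorem s26g1u_T3 [Algebra.IsAlgebraic F₀ F] (i : Fin s) (L : ℕ → Submodule K F)
    (hint : ∀ m, ∀ f ∈ L m, IsIntegral (MvPolynomial (Fin s) K) f)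
    (S : Finset F) (hS : ∀ σ ∈ S, σ ≠ 0)
    (hval : ∀ V : ValuationSubring F, (∀ c : K, algebraMap K F c ∈ V) →
      algebraMap (MvPolynomial (Fin s) K) F (X i) ∉ V →
      ∃ σ ∈ S, ∀ m, ∀ f ∈ L m, f * σ ^ m ∈ V) :
    ∃ C : ℕ, ∀ m, L m ≤ s26g1u_V K F₀ F i (C * m) := by
  classical
  set v := s26g1u_degVal (Fin s) K F₀ with hv
  have hc : ∀ σ : F, ∃ c : ℕ, ∀ c', c ≤ c' →
      IsIntegral v.valuationSubring (σ⁻¹ * algebraMap F₀ F (s26g1u_t K F₀ i ^ c')) :=
    fun σ => s26g1u_exists_pow i σ⁻¹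
  choose c hc using hc
  refine ⟨∑ σ ∈ S, c σ, fun m f hf => ⟨hint m f hf, ?_⟩⟩
  set C := ∑ σ ∈ S, c σ with hC
  apply s26g1u_isIntegral_of_forall_mem
  intro V hV
  have ht : ∀ k : ℕ, algebraMap F₀ F (s26g1u_t K F₀ i ^ k) ∈ V := fun k =>
    hV _ (by rw [map_pow]; exact pow_le_one₀ zero_le (s26g1u_val_t_le i))
  by_cases hy : algebraMap (MvPolynomial (Fin s) K) F (X i) ∈ V
  · exact s26g1u_eq_top_of_mem i V hV hy _
  · have hK : ∀ a : K, algebraMap K F a ∈ V := fun a => by
      rw [IsScalarTower.algebraMap_apply K F₀ F]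
      exact hV _ (s26g1u_val_const a)
    obtain ⟨σ, hσS, hσ⟩ := hval V hK hy
    have h1 := hσ m f hf
    have h2 : σ⁻¹ * algebraMap F₀ F (s26g1u_t K F₀ i ^ C) ∈ V :=
      s26g1u_mem_of_isIntegral v (hc σ C (Finset.single_le_sum (f := c)
        (fun _ _ => Nat.zero_le _) hσS)) hV
    have h3 : f * algebraMap F₀ F (s26g1u_t K F₀ i ^ (C * m)) =
        (f * σ ^ m) * (σ⁻¹ * algebraMap F₀ F (s26g1u_t K F₀ i ^ C)) ^ m := by
      have hσ0 : σ ≠ 0 := hS σ hσS
      rw [mul_pow, pow_mul, map_pow, map_pow, inv_pow]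
      field_simp
    rw [h3]
    exact V.mul_mem _ _ h1 (V.pow_mem h2 m)

end T3

section Core

variable {K : Type*} [Field K] {s : ℕ}
variable {F₀ : Type*} [Field F₀] [Algebra (MvPolynomial (Fin s) K) F₀]
  [IsFractionRing (MvPolynomial (Fin s) K) F₀]
variable [Algebra K F₀] [IsScalarTower K (MvPolynomial (Fin s) K) F₀]
variable {F : Type*} [Field F] [Algebra F₀ F]
variable [Algebra (MvPolynomial (Fin s) K) F] [IsScalarTower (MvPolynomial (Fin s) K) F₀ F]
variable [Algebra K F] [IsScalarTower K F₀ F] [IsScalarTower K (MvPolynomial (Fin s) K) F]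
variable [FiniteDimensional F₀ F]

/-- **(T1) + (T2)**: `dim_K V_N ≤ e (Q N + C' + 1) ^ s` for `K` perfect. -/
theorem s26g1u_T12 [PerfectField K] (i : Fin s) :
    ∃ e Q C' : ℕ, ∀ N, Module.Finite K (s26g1u_V K F₀ F i N) ∧
      Module.finrank K (s26g1u_V K F₀ F i N) ≤ e * (Q * N + C' + 1) ^ s := by
  obtain ⟨q, hq⟩ := ExpChar.exists K
  have : PerfectRing K q := PerfectField.toPerfectRing q
  let E := separableClosure F₀ F
  have i1 : IsScalarTower K (MvPolynomial (Fin s) K) E :=
    IsScalarTower.of_algebraMap_eq fun x =>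
      Subtype.ext (IsScalarTower.algebraMap_apply K (MvPolynomial (Fin s) K) F x)
  have i2 : IsScalarTower K E F := IsScalarTower.of_algebraMap_eq fun _ => rfl
  have i3 : IsScalarTower (MvPolynomial (Fin s) K) E F :=
    IsScalarTower.of_algebraMap_eq fun _ => rfl
  obtain ⟨C', hC'⟩ := s26g1u_T1 (K := K) (F₀ := F₀) (F := E) i
  refine ⟨Module.finrank F₀ E, q ^ IsPurelyInseparable.exponent E F, C', fun N => ?_⟩
  have h2 := s26g1u_T2 (K := K) (F₀ := F₀) (F := F) E q i N (hC' _).1
  exact ⟨h2.1, h2.2.trans (hC' _).2⟩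

variable (F₀)
include F₀

/-- **The abstract core of G1-up**, `s ≥ 1`. -/
theorem s26g1u_core [PerfectField K] (i : Fin s) (L : ℕ → Submodule K F)
    (hint : ∀ m, ∀ f ∈ L m, IsIntegral (MvPolynomial (Fin s) K) f)
    (S : Finset F) (hS : ∀ σ ∈ S, σ ≠ 0)
    (hval : ∀ V : ValuationSubring F, (∀ c : K, algebraMap K F c ∈ V) →
      algebraMap (MvPolynomial (Fin s) K) F (X i) ∉ V →
      ∃ σ ∈ S, ∀ m, ∀ f ∈ L m, f * σ ^ m ∈ V) :
    (∀ m, Module.Finite K (L m)) ∧
      ∃ c₂ : ℕ, ∀ m, 1 ≤ m → Module.finrank K (L m) ≤ c₂ * m ^ s := by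
  obtain ⟨e, Q, C', h12⟩ := s26g1u_T12 (K := K) (F₀ := F₀) (F := F) i
  obtain ⟨C, hC⟩ := s26g1u_T3 (K := K) (F₀ := F₀) (F := F) i L hint S hS hval
  have hfin : ∀ m, Module.Finite K (L m) := fun m => by
    have := (h12 (C * m)).1
    exact Module.Finite.of_injective (Submodule.inclusion (hC m))
      (Submodule.inclusion_injective (hC m))
  refine ⟨hfin, e * (Q * C + C' + 1) ^ s, fun m hm => ?_⟩
  have := (h12 (C * m)).1
  calc Module.finrank K (L m) ≤ Module.finrank K (s26g1u_V K F₀ F i (C * m)) :=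
        Submodule.finrank_mono (hC m)
    _ ≤ e * (Q * (C * m) + C' + 1) ^ s := (h12 (C * m)).2
    _ ≤ e * ((Q * C + C' + 1) * m) ^ s := by
        apply Nat.mul_le_mul_left
        apply Nat.pow_le_pow_left
        nlinarith [Nat.zero_le (Q * C), Nat.zero_le C']
    _ = e * (Q * C + C' + 1) ^ s * m ^ s := by rw [mul_pow, mul_assoc]

/-- the case `s = 0`: `F` is finite over `K`. -/
theorem s26g1u_finite_of_zero (hs : s = 0) : Module.Finite K F := by
  have hemp : IsEmpty (Fin s) := by
    rw [hs]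
    infer_instance
  have hsurj : Function.Surjective (algebraMap K F₀) := by
    intro x
    obtain ⟨a, b, hb, rfl⟩ := IsFractionRing.div_surjective (A := MvPolynomial (Fin s) K) x
    have hb0 : b ≠ 0 := nonZeroDivisors.ne_zero hb
    have ha := MvPolynomial.eq_C_of_isEmpty a
    have hb' := MvPolynomial.eq_C_of_isEmpty b
    refine ⟨coeff 0 a / coeff 0 b, ?_⟩
    rw [map_div₀, IsScalarTower.algebraMap_apply K (MvPolynomial (Fin s) K) F₀,
      IsScalarTower.algebraMap_apply K (MvPolynomial (Fin s) K) F₀, MvPolynomial.algebraMap_eq,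
      ← ha, ← hb']
  have h1 : Module.Finite K F₀ :=
    Module.Finite.of_surjective (Algebra.linearMap K F₀) hsurj
  exact Module.Finite.trans F₀ F

/-- **The abstract core of G1-up**, all `s`. -/
theorem s26g1u_main [PerfectField K] (L : ℕ → Submodule K F)
    (hint : ∀ m, ∀ f ∈ L m, IsIntegral (MvPolynomial (Fin s) K) f)
    (S : Finset F) (hS : ∀ σ ∈ S, σ ≠ 0)
    (hval : ∀ i : Fin s, ∀ V : ValuationSubring F, (∀ c : K, algebraMap K F c ∈ V) →
      algebraMap (MvPolynomial (Fin s) K) F (X i) ∉ V →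
      ∃ σ ∈ S, ∀ m, ∀ f ∈ L m, f * σ ^ m ∈ V) :
    (∀ m, Module.Finite K (L m)) ∧
      ∃ c₂ : ℕ, ∀ m, 1 ≤ m → Module.finrank K (L m) ≤ c₂ * m ^ s := by
  rcases Nat.eq_zero_or_pos s with hs | hs
  · have hF : Module.Finite K F := s26g1u_finite_of_zero (K := K) F₀ (F := F) hs
    refine ⟨fun m => inferInstance, Module.finrank K F, fun m _ => ?_⟩
    rw [hs, pow_zero, mul_one]
    exact Submodule.finrank_le _
  · exact s26g1u_core (K := K) F₀ (F := F) ⟨0, hs⟩ L hint S hS (hval ⟨0, hs⟩)

end Core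

end

end Fermat.Agent.S26
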