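/-
S26, piece G1-up, geometric half (helper68): the CENTRE of a valuation ring of `K(A) / K` on the
proper scheme `A` (valuative criterion).

`s26g1g_centre` : `f : A ⟶ Spec K` proper, `A` integral, `𝒪 ⊆ K(A)` a valuation subring containing
the image of `K` ⇒ there is a point `ξ : A` such that the image of `𝒪_{A,ξ}` in `K(A)` lies in `𝒪`.
-/
import Fermat.Agent.S26.PlanGeo

set_option autoImplicit false
noncomputable section
namespace Fermat.Agent.S26
open CategoryTheory CategoryTheory.Limits AlgebraicGeometry
universe u
variable {K : Type u} [Field K] {A : Scheme.{u}} (f : A ⟶ Spec (CommRingCat.of K))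

/-- the structure morphism at the generic point is `Spec` of the structure map `K → K(A)`. -/
theorem s26g1g_fromSpecStalk_comp [IsIntegral A] :
    A.fromSpecStalk (genericPoint A) ≫ f = Spec.map (CommRingCat.ofHom (s26algMap f)) := by
  have h1 : f = A.toSpecΓ ≫ Spec.map ((Scheme.ΓSpecIso (CommRingCat.of K)).inv ≫ f.appTop) := by
    rw [Spec.map_comp, ← Scheme.toSpecΓ_naturality_assoc]
    simp
  refine (congrArg (fun t => A.fromSpecStalk (genericPoint A) ≫ t) h1).trans ?_
  rw [Scheme.fromSpecStalk_toSpecΓ_assoc, ← Spec.map_comp]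
  rfl

/-- **The centre of a valuation ring.**  `f` proper, `A` integral, `O ⊆ K(A)` a valuation subring
containing `K`: there is a point `ξ` with `𝒪_{A,ξ} ⊆ O` inside `K(A)`. -/
theorem s26g1g_centre' [IsIntegral A] [IsProper f] (O : ValuationSubring A.functionField)
    (hK : ∀ c : K, s26algMap f c ∈ O) :
    ∃ ξ : A, ∀ a : A.presheaf.stalk ξ,
      algebraMap (A.presheaf.stalk ξ) A.functionField a ∈ O := by
  let ιK : K →+* O := (s26algMap f).codRestrict O.toSubring hK
  have hcomm : A.fromSpecStalk (genericPoint A) ≫ f =
      Spec.map (CommRingCat.ofHom (algebraMap O A.functionField)) ≫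
        Spec.map (CommRingCat.ofHom ιK) := by
    refine (s26g1g_fromSpecStalk_comp f).trans ?_
    rw [← Spec.map_comp]
    rfl
  let S : ValuativeCommSq f :=
    { R := O
      K := A.functionField
      i₁ := A.fromSpecStalk (genericPoint A)
      i₂ := Spec.map (CommRingCat.ofHom ιK)
      commSq := ⟨hcomm⟩ }
  have hex : (ValuativeCriterion.Existence ⊓ @QuasiCompact) f := by
    rw [← UniversallyClosed.eq_valuativeCriterion]
    infer_instance
  obtain ⟨⟨l, hl1, -⟩⟩ := hex.1 S
  refine ⟨l (IsLocalRing.closedPoint O), fun a => ?_⟩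
  have hφ : Spec.map (Scheme.stalkClosedPointTo l) ≫
      A.fromSpecStalk (l (IsLocalRing.closedPoint O)) = l :=
    Scheme.Spec_stalkClosedPointTo_fromSpecStalk l
  have hspec : genericPoint A ⤳ l (IsLocalRing.closedPoint O) :=
    (genericPoint_spec A).specializes trivial
  have h3 : Spec.map (A.presheaf.stalkSpecializes hspec) ≫
      A.fromSpecStalk (l (IsLocalRing.closedPoint O)) = A.fromSpecStalk (genericPoint A) :=
    Scheme.SpecMap_stalkSpecializes_fromSpecStalk hspec
  have h4 : Spec.map (Scheme.stalkClosedPointTo l ≫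
        CommRingCat.ofHom (algebraMap O A.functionField)) ≫
        A.fromSpecStalk (l (IsLocalRing.closedPoint O)) =
      Spec.map (A.presheaf.stalkSpecializes hspec) ≫
        A.fromSpecStalk (l (IsLocalRing.closedPoint O)) := by
    rw [Spec.map_comp, Category.assoc, hφ, h3]
    exact hl1
  have h5 := Spec.map_injective ((cancel_mono _).1 h4)
  have h6 : algebraMap (A.presheaf.stalk (l (IsLocalRing.closedPoint O))) A.functionField a =
      algebraMap O A.functionField ((Scheme.stalkClosedPointTo l).hom a) := by
    have := congrArg (fun ψ => ψ.hom a) h5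
    exact this.symm
  rw [h6]
  exact ((Scheme.stalkClosedPointTo l).hom a).2

end Fermat.Agent.S26
end
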