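/-
S26 — GLUE of the captain (helper77): `s26_StmtGeom` from the geometric pieces of
`PlanGeo.lean`.  With `s26_of` (Plan.lean) and `s26c_stmtCore` (CFinal.lean) this reduces S26 to
the eight piece Props  A2, Adm, Deg, PullComp, L, Cover, Growth, Cube.

* `s26g_unit_nsmul`   : `e ≫ [N] = e`;
* `s26g_zero_mem`     : `0 ∈ [N]⁻¹ U` for `U ∋ 0`;
* `s26g_isPull_pow`   : `φ^k` pulls back along `[n^k]` if `φ` pulls back along `[n]`;
* `s26g_cube_le`, `s26g_cube_ge` : the two comparisons of (E) from a function `θ` with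
  `div θ = c ([N]^* D − N² D)`;
* `s26g_geom`         : the glue.
-/
import Fermat.Agent.S26.PlanGeo
import Fermat.Agent.S26.F2
import Fermat.Agent.S26.A1

set_option autoImplicit false
noncomputable section
namespace Fermat.Agent.S26
open CategoryTheory CategoryTheory.Limits AlgebraicGeometry NeronModelInfra GoodReductionJacobian
universe u
variable {K : Type u} [Field K] {A : Scheme.{u}} (f : A ⟶ Spec (CommRingCat.of K))

/-- `e ≫ [N] = e`. -/
theorem s26g_unit_nsmul (G : RelativeGroupLaw K f) (N : ℕ) :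
    s26a1Unit G ≫ G.schemeNsmul N = s26a1Unit G := by
  have h := s26a1_nsmul_eq G (𝟙 (Spec (CommRingCat.of K))) N (G.one (𝟙 (Spec (CommRingCat.of K))))
  have h2 : G.nsmul (𝟙 (Spec (CommRingCat.of K))) N (G.one (𝟙 (Spec (CommRingCat.of K)))) =
      G.one (𝟙 (Spec (CommRingCat.of K))) := by
    let _ := G.pointGroup (𝟙 (Spec (CommRingCat.of K)))
    rw [s26a1_nsmul_eq_pow]
    exact one_pow N
  rw [h2] at h
  exact h.symm

/-- `0 ∈ [N]⁻¹ U` if `0 ∈ U`. -/
theorem s26g_zero_mem (G : RelativeGroupLaw K f) (N : ℕ) (U : A.Opens)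
    (h0 : s26zero f G ∈ U) : s26zero f G ∈ (G.schemeNsmul N) ⁻¹ᵁ U := by
  show (G.schemeNsmul N).base (s26zero f G) ∈ U
  have h := s26g_unit_nsmul f G N
  have h2 : (G.schemeNsmul N).base (s26zero f G) = s26zero f G := by
    show (G.schemeNsmul N).base ((s26a1Unit G).base _) = (s26a1Unit G).base _
    rw [← Scheme.Hom.comp_apply, h]
  rw [h2]
  exact h0

/-- the identity pulls back along the identity. -/
theorem s26g_isPull_id [IsIntegral A] : s26IsPull f (𝟙 A) (AlgHom.id K (s26F f)) := by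
  intro V _ _ s
  rfl

/-- `φ ^ k` pulls back along `[n ^ k]`. -/
theorem s26g_isPull_pow [IsIntegral A] (hPC : s26_StmtPullComp.{u}) (G : RelativeGroupLaw K f)
    (n : ℕ) (φ : s26F f →ₐ[K] s26F f) (hφ : s26IsPull f (G.schemeNsmul n) φ) (k : ℕ) :
    s26IsPull f (G.schemeNsmul (n ^ k)) (φ ^ k) := by
  induction k with
  | zero =>
    rw [pow_zero, pow_zero, s26a1_schemeNsmul_one]
    exact s26g_isPull_id f
  | succ k ih =>
    have h := (hPC K f (G.schemeNsmul (n ^ k)) (G.schemeNsmul n) (φ ^ k) φ ih hφ).2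
    rw [s26a1_schemeNsmul_comp] at h
    rw [pow_succ, pow_succ]
    exact h

/-- the order of a power. -/
theorem s26g_ord_pow [IsIntegral A] [IsLocallyNoetherian A] {θ : s26F f} (hθ : θ ≠ 0) (m : ℕ)
    (z : A) : s26ord f (θ ^ m) z = (m : ℤ) * s26ord f θ z := by
  induction m with
  | zero =>
    have h : s26ord f (1 : s26F f) z = 0 := by
      have := s26f2_ord_algebraMap f (one_ne_zero (α := K)) z
      rwa [map_one] at this
    simp [h]
  | succ m ih =>
    rw [pow_succ, s26f2_ord_mul f (pow_ne_zero m hθ) hθ, ih]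
    push_cast
    ring

/-- the order of an inverse. -/
theorem s26g_ord_inv [IsIntegral A] [IsLocallyNoetherian A] {θ : s26F f} (hθ : θ ≠ 0)
    (z : A) : s26ord f θ⁻¹ z = - s26ord f θ z := by
  have h : s26ord f (1 : s26F f) z = 0 := by
    have := s26f2_ord_algebraMap f (one_ne_zero (α := K)) z
    rwa [map_one] at this
  have h2 := s26f2_ord_mul f hθ (inv_ne_zero hθ) z
  rw [mul_inv_cancel₀ hθ, h] at h2
  omega

/-- multiplication by a nonzero function compares dimensions. -/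
theorem s26g_finrank_le_of_mul [IsIntegral A] [IsLocallyNoetherian A]
    (V W : Submodule K (s26F f)) [Module.Finite K W] (t : s26F f) (ht : t ≠ 0)
    (h : ∀ x ∈ V, x * t ∈ W) : Module.finrank K V ≤ Module.finrank K W := by
  have hinj : Function.Injective (LinearMap.mulRight K t) := by
    intro x y hxy
    exact mul_right_cancel₀ ht (by simpa using hxy)
  have hle : V.map (LinearMap.mulRight K t) ≤ W := by
    rintro _ ⟨x, hx, rfl⟩
    simpa using h x hx
  calc Module.finrank K V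
      = Module.finrank K (V.map (LinearMap.mulRight K t)) :=
        (LinearEquiv.finrank_eq (Submodule.equivMapOfInjective _ hinj V))
    _ ≤ Module.finrank K W := Submodule.finrank_mono hle

open scoped Classical in
/-- (E), first half: `L(U', c m) · θ^m ⊆ L(U, M c m)`. -/
theorem s26g_cube_le [IsIntegral A] [IsLocallyNoetherian A]
    (hdvr : ∀ z : A, Order.coheight z = 1 → IsDiscreteValuationRing (A.presheaf.stalk z))
    (U U' : A.Opens) (c M : ℕ) (θ : s26F f) (hθ : θ ≠ 0)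
    (hord : ∀ z : A, Order.coheight z = 1 → s26ord f θ z =
      (c : ℤ) * ((if z ∈ U' then 0 else 1) - (M : ℤ) * (if z ∈ U then 0 else 1)))
    (m : ℕ) [Module.Finite K (s26L f U (M * (c * m)))] :
    Module.finrank K (s26L f U' (c * m)) ≤ Module.finrank K (s26L f U (M * (c * m))) := by
  refine s26g_finrank_le_of_mul f _ _ (θ ^ m) (pow_ne_zero m hθ) ?_
  intro x hx
  rw [s26f2_mem_L_iff f hdvr] at hx ⊢
  rcases eq_or_ne x 0 with rfl | hx0
  · rw [zero_mul]; exact s26f2_zero_mem f U _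
  intro z hz
  obtain ⟨h1, h2⟩ := hx z hz
  rw [s26f2_ord_mul f hx0 (pow_ne_zero m hθ), s26g_ord_pow f hθ, hord z hz]
  push_cast at h2 ⊢
  by_cases hU : z ∈ U <;> by_cases hU' : z ∈ U'
  · simp only [hU, hU', if_true]
    have := h1 hU'
    refine ⟨fun _ => by nlinarith, by nlinarith [mul_nonneg (mul_nonneg (Nat.cast_nonneg (α := ℤ) M) (Nat.cast_nonneg (α := ℤ) c)) (Nat.cast_nonneg (α := ℤ) m)]⟩
  · simp only [hU, hU', if_true, if_false]
    refine ⟨fun _ => by nlinarith, by nlinarith [mul_nonneg (mul_nonneg (Nat.cast_nonneg (α := ℤ) M) (Nat.cast_nonneg (α := ℤ) c)) (Nat.cast_nonneg (α := ℤ) m)]⟩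
  · simp only [hU, hU', if_true, if_false]
    have := h1 hU'
    refine ⟨fun h => h.elim, by nlinarith⟩
  · simp only [hU, hU', if_false]
    refine ⟨fun h => h.elim, by nlinarith⟩

open scoped Classical in
/-- (E), second half: `L(U, M c m) · θ^(-m) ⊆ L(U', c m)`. -/
theorem s26g_cube_ge [IsIntegral A] [IsLocallyNoetherian A]
    (hdvr : ∀ z : A, Order.coheight z = 1 → IsDiscreteValuationRing (A.presheaf.stalk z))
    (U U' : A.Opens) (c M : ℕ) (θ : s26F f) (hθ : θ ≠ 0)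
    (hord : ∀ z : A, Order.coheight z = 1 → s26ord f θ z =
      (c : ℤ) * ((if z ∈ U' then 0 else 1) - (M : ℤ) * (if z ∈ U then 0 else 1)))
    (m : ℕ) [Module.Finite K (s26L f U' (c * m))] :
    Module.finrank K (s26L f U (M * (c * m))) ≤ Module.finrank K (s26L f U' (c * m)) := by
  refine s26g_finrank_le_of_mul f _ _ (θ⁻¹ ^ m) (pow_ne_zero m (inv_ne_zero hθ)) ?_
  intro x hx
  rw [s26f2_mem_L_iff f hdvr] at hx ⊢
  rcases eq_or_ne x 0 with rfl | hx0
  · rw [zero_mul]; exact s26f2_zero_mem f U' _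
  intro z hz
  obtain ⟨h1, h2⟩ := hx z hz
  rw [s26f2_ord_mul f hx0 (pow_ne_zero m (inv_ne_zero hθ)), s26g_ord_pow f (inv_ne_zero hθ),
    s26g_ord_inv f hθ, hord z hz]
  push_cast at h2 ⊢
  by_cases hU : z ∈ U <;> by_cases hU' : z ∈ U'
  · simp only [hU, hU', if_true]
    have := h1 hU
    refine ⟨fun _ => by nlinarith, by nlinarith [mul_nonneg (Nat.cast_nonneg (α := ℤ) c) (Nat.cast_nonneg (α := ℤ) m)]⟩
  · simp only [hU, hU', if_true, if_false]
    have := h1 hU
    refine ⟨fun h => h.elim, by nlinarith⟩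
  · simp only [hU, hU', if_true, if_false]
    refine ⟨fun _ => by nlinarith, by nlinarith [mul_nonneg (Nat.cast_nonneg (α := ℤ) c) (Nat.cast_nonneg (α := ℤ) m)]⟩
  · simp only [hU, hU', if_false]
    refine ⟨fun h => h.elim, by nlinarith⟩

open scoped Classical in
/-- **GLUE**: the geometry statement from the pieces. -/
theorem s26g_geom (hA2 : s26_StmtA2.{u}) (hAdm : s26_StmtAdm.{u}) (hDeg : s26_StmtDeg.{u})
    (hPC : s26_StmtPullComp.{u}) (hCov : s26_StmtCover.{u}) (hGr : s26_StmtGrowth.{u})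
    (hCube : s26_StmtCube.{u}) : s26_StmtGeom.{u} := by
  intro K _ _ A f G hc hA g _ n hn
  have H : S26Hyp K f G g := ⟨inferInstance, hc, hA, inferInstance⟩
  obtain ⟨hInt, hNoeth, -, hdvr⟩ := hA2 K f G g H
  have := hInt
  have := hNoeth
  obtain ⟨U, hU⟩ := hAdm K f G g H
  have hnk : ∀ k, ((n ^ k : ℕ) : K) ≠ 0 := fun k => by
    push_cast
    exact pow_ne_zero k hn
  obtain ⟨φ, hφ, -, -, hdeg⟩ := hDeg K f G g H n hn
  have hφk := s26g_isPull_pow f hPC G n φ hφ
  obtain ⟨hfin, c₁, c₂, hG1⟩ := hGr K f G g H U hU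
  have hneU : Nonempty U := ⟨⟨s26zero f G, hU.2.1⟩⟩
  have hneUk : ∀ k, Nonempty ((G.schemeNsmul (n ^ k)) ⁻¹ᵁ U) := fun k =>
    ⟨⟨s26zero f G, s26g_zero_mem f G (n ^ k) U hU.2.1⟩⟩
  refine ⟨s26F f, s26F_field f, s26F_algebra f, φ, fun m => s26L f U m,
    fun k m => s26L f ((G.schemeNsmul (n ^ k)) ⁻¹ᵁ U) m, ?_, ?_, ?_, ?_, ?_, ?_, ?_, ?_, ?_, ?_,
    ?_, ?_⟩
  · exact fun m => hfin U hneU m
  · exact fun k m => hfin _ (hneUk k) m
  · exact ⟨c₁, c₂, hG1⟩
  · exact fun a b hab => s26f2_L_mono f U hab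
  · exact fun k a b hab => s26f2_L_mono f _ hab
  · intro k
    obtain ⟨c, θ, hc0, hθ, hord⟩ := hCube K f G g H U hU (n ^ k) (hnk k)
    have hord' : ∀ z : A, Order.coheight z = 1 → s26ord f θ z =
        (c : ℤ) * ((if z ∈ (G.schemeNsmul (n ^ k)) ⁻¹ᵁ U then 0 else 1) -
          ((n ^ (2 * k) : ℕ) : ℤ) * (if z ∈ U then 0 else 1)) := by
      intro z hz
      rw [hord z hz]
      push_cast
      ring
    refine ⟨c, 0, hc0, fun m => ⟨?_, ?_⟩⟩
    · have := hfin U hneU (n ^ (2 * k) * (c * m))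
      exact s26g_cube_le f hdvr U _ c (n ^ (2 * k)) θ hθ hord' m
    · have := hfin _ (hneUk k) (c * m)
      exact s26g_cube_ge f hdvr U _ c (n ^ (2 * k)) θ hθ hord' m
  · exact fun k m x hx => (hCov K f G g H U hU (n ^ k) (hnk k) (φ ^ k) (hφk k)).1 m x hx
  · intro k a b x hx y hy
    rw [s26f2_mem_L_iff f hdvr] at hx hy ⊢
    exact s26f2_mul_mem f _ a b hx hy
  · exact fun k => (hCov K f G g H U hU (n ^ k) (hnk k) (φ ^ k) (hφk k)).2.1
  · intro k
    obtain ⟨φk, hφk', hf, hs, -⟩ := hDeg K f G g H (n ^ k) (hnk k)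
    have he : φk = φ ^ k :=
      (hPC K f (G.schemeNsmul (n ^ k)) (G.schemeNsmul (n ^ k)) (φ ^ k) (φ ^ k) (hφk k)
        (hφk k)).1 φk hφk'
    subst he
    exact ⟨hf, hs⟩
  · exact fun k => (hCov K f G g H U hU (n ^ k) (hnk k) (φ ^ k) (hφk k)).2.2
  · exact hdeg

end Fermat.Agent.S26
end
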