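/-
S26 — algebraic Hartogs lemma (helper68).  Pure Mathlib.

`s26h_hartogs` : a noetherian integrally closed domain is the intersection of its localisations at
the primes of height one:  if `x ∈ Frac R` lies in `R_𝔭` for every prime `𝔭` of height `1`,
then `x ∈ R`.

`s26h_height_one_of_colon` : the key step: a prime of the form `(bR : c)` has height one.
-/
import Mathlib

set_option autoImplicit false

namespace Fermat.Agent.S26

open Ideal

/-- In a noetherian integrally closed domain a prime ideal of the form `(bR : c)`, `b ≠ 0`,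
has height one. -/
theorem s26h_height_one_of_colon {R : Type*} [CommRing R] [IsDomain R] [IsNoetherianRing R]
    [IsIntegrallyClosed R] (P : Ideal R) [hP : P.IsPrime] (b c : R) (hb : b ≠ 0)
    (hPc : ∀ s : R, s ∈ P ↔ b ∣ s * c) : P.height = 1 := by
  have hbP : b ∈ P := (hPc b).2 (Dvd.intro _ rfl)
  have hbc : ¬ b ∣ c := fun h => hP.ne_top ((Ideal.eq_top_iff_one P).2 ((hPc 1).2 (by simpa using h)))
  have hge : 1 ≤ P.height := by
    rw [Order.one_le_iff_pos, pos_iff_ne_zero, Ne, Ideal.height_eq_zero_iff_eq_bot]
    intro h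
    rw [h] at hbP
    exact hb (by simpa using hbP)
  refine le_antisymm ?_ hge
  by_cases hA : ∀ s ∈ P, ∀ q : R, s * c = b * q → q ∈ P
  · -- `c / b` is integral over `R`, hence in `R`: contradiction
    exfalso
    let K := FractionRing R
    have hbK : algebraMap R K b ≠ 0 := by
      simpa using (IsFractionRing.injective R K).ne hb
    let y : K := algebraMap R K c / algebraMap R K b
    let N : Submodule R K := Submodule.map (Algebra.linearMap R K) P
    have hN : N ≠ ⊥ := by
      intro h
      have : algebraMap R K b ∈ N := ⟨b, hbP, rfl⟩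
      rw [h] at this
      exact hbK (by simpa using this)
    have hNfg : N.FG := Submodule.FG.map _ (IsNoetherian.noetherian P)
    have hy : IsIntegral R y := by
      refine isIntegral_of_smul_mem_submodule (M := K) N hN hNfg y ?_
      rintro _ ⟨s, hs, rfl⟩
      obtain ⟨q, hq⟩ := (hPc s).1 hs
      refine ⟨q, hA s hs q hq, ?_⟩
      simp only [Algebra.linearMap_apply, smul_eq_mul, y]
      rw [div_mul_eq_mul_div, eq_div_iff hbK, ← map_mul, ← map_mul]
      congr 1
      rw [mul_comm q b, ← hq, mul_comm]
    obtain ⟨r, hr⟩ := IsIntegrallyClosed.isIntegral_iff.1 hy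
    apply hbc
    refine ⟨r, ?_⟩
    apply IsFractionRing.injective R K
    rw [map_mul, hr]
    show algebraMap R K c = algebraMap R K b * (algebraMap R K c / algebraMap R K b)
    exact (mul_div_cancel₀ _ hbK).symm
  · push Not at hA
    obtain ⟨t, htP, u, htu, huP⟩ := hA
    have hmin : P ∈ (Ideal.span {t}).minimalPrimes := by
      refine ⟨⟨hP, (Ideal.span_singleton_le_iff_mem P).2 htP⟩, ?_⟩
      rintro Q ⟨hQ, hQt⟩ hQP m hm
      obtain ⟨q, hq⟩ := (hPc m).1 hm
      have hum : u * m = t * q := by
        apply mul_left_cancel₀ hb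
        calc b * (u * m) = (b * u) * m := by ring
          _ = (t * c) * m := by rw [htu]
          _ = t * (m * c) := by ring
          _ = t * (b * q) := by rw [hq]
          _ = b * (t * q) := by ring
      have h1 : u * m ∈ Q := by
        rw [hum]
        exact Q.mul_mem_right _ (hQt (Ideal.mem_span_singleton_self t))
      rcases hQ.mem_or_mem h1 with h | h
      · exact absurd (hQP h) huP
      · exact h
    exact Ideal.height_le_one_of_isPrincipal_of_mem_minimalPrimes _ P hmin

/-- **Algebraic Hartogs.** A noetherian integrally closed domain is the intersection of its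
localisations at the primes of height one. -/
theorem s26h_hartogs {R F : Type*} [CommRing R] [IsDomain R] [IsNoetherianRing R]
    [IsIntegrallyClosed R] [Field F] [Algebra R F] [IsFractionRing R F] (x : F)
    (h : ∀ p : Ideal R, p.IsPrime → p.height = 1 →
      ∃ a s : R, s ∉ p ∧ x * algebraMap R F s = algebraMap R F a) :
    x ∈ Set.range (algebraMap R F) := by
  obtain ⟨a, b, hb0, rfl⟩ := IsFractionRing.div_surjective (A := R) x
  have hb : b ≠ 0 := nonZeroDivisors.ne_zero hb0
  have hbF : algebraMap R F b ≠ 0 := by
    simpa using (IsFractionRing.injective R F).ne hb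
  by_cases hab : b ∣ a
  · obtain ⟨r, rfl⟩ := hab
    exact ⟨r, by rw [map_mul]; field_simp⟩
  exfalso
  -- the module `R / bR` and the class of `a`
  let M := R ⧸ Ideal.span {b}
  have hx : (Ideal.Quotient.mk (Ideal.span {b}) a : M) ≠ 0 := by
    rw [Ne, Ideal.Quotient.eq_zero_iff_mem, Ideal.mem_span_singleton]
    exact hab
  obtain ⟨P, hPass, hle⟩ := exists_le_isAssociatedPrime_of_isNoetherianRing R
    (Ideal.Quotient.mk (Ideal.span {b}) a : M) hx
  obtain ⟨hPprime, m, hPm⟩ := isAssociatedPrime_iff.1 hPass
  obtain ⟨c, rfl⟩ := Ideal.Quotient.mk_surjective m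
  have hPc : ∀ s : R, s ∈ P ↔ b ∣ s * c := by
    intro s
    rw [hPm, Submodule.mem_colon_singleton, Submodule.mem_bot]
    rw [show s • (Ideal.Quotient.mk (Ideal.span {b}) c : M)
      = Ideal.Quotient.mk (Ideal.span {b}) (s * c) from by simp [Algebra.smul_def]]
    rw [Ideal.Quotient.eq_zero_iff_mem, Ideal.mem_span_singleton]
  have := hPprime
  have hh : P.height = 1 := s26h_height_one_of_colon P b c hb hPc
  obtain ⟨a', s, hsP, hxs⟩ := h P hPprime hh
  apply hsP
  apply hle
  rw [Submodule.mem_colon_singleton, Submodule.mem_bot]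
  rw [show s • (Ideal.Quotient.mk (Ideal.span {b}) a : M)
      = Ideal.Quotient.mk (Ideal.span {b}) (s * a) from by simp [Algebra.smul_def]]
  rw [Ideal.Quotient.eq_zero_iff_mem, Ideal.mem_span_singleton]
  refine ⟨a', ?_⟩
  apply IsFractionRing.injective R F
  rw [map_mul, map_mul, ← hxs]
  field_simp

end Fermat.Agent.S26
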