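/-
S26, piece G1-up, geometric half (helper68), for helper63's `S26/G1UpPlan.lean`:

* `s26g1g_mem_stalk`       : `0 ≤ ord_z x` at a prime divisor `z` ⇒ `x ∈ 𝒪_{A,z}`;
* `s26g1g_hartogs_affine`  : `U` affine, `ord_z x ≥ 0` at all prime divisors `z ∈ U` ⇒ `x ∈ Γ(U)`
                             (algebraic Hartogs, `S26/Hartogs.lean`);
* `s26g1g_stmtHartogs`     : `s26g1u_StmtHartogs` (G-a);
* `s26g1g_stmtCentre`      : `s26g1u_StmtCentre` (G-c) (centre of a valuation ring, finite affine
                             cover, one local equation of `A ∖ U` per chart).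
-/
import Fermat.Agent.S26.G1UpPlan
import Fermat.Agent.S26.G1UpCentre
import Fermat.Agent.S26.Hartogs
import Fermat.Agent.S26.A2Final
import Fermat.Agent.S26.F2
import Fermat.Agent.S26.Geom
import Fermat.Agent.S26.G1LoInst

set_option autoImplicit false
set_option linter.style.haveILetI false
noncomputable section
namespace Fermat.Agent.S26
open CategoryTheory CategoryTheory.Limits AlgebraicGeometry NeronModelInfra GoodReductionJacobian
universe u
variable {K : Type u} [Field K] {A : Scheme.{u}} (f : A ⟶ Spec (CommRingCat.of K))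

/-- a function with nonnegative order at a prime divisor lies in the local ring. -/
theorem s26g1g_mem_stalk [IsIntegral A] [IsLocallyNoetherian A] (z : A)
    (hz : Order.coheight z = 1) [IsDiscreteValuationRing (A.presheaf.stalk z)]
    (x : A.functionField) (hx : 0 ≤ Scheme.ord (X := A) x z) :
    ∃ y : A.presheaf.stalk z, algebraMap (A.presheaf.stalk z) A.functionField y = x := by
  by_cases hx0 : x = 0
  · exact ⟨0, by rw [hx0, map_zero]⟩
  have h1 : (1 : WithZero (Multiplicative ℤ)) ≤ Scheme.ordHom z hz x := by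
    have := (Scheme.le_ord_iff hz hx0 (n := 0)).1 hx
    simpa using this
  have h2 : Scheme.ordHom z hz x =
      ((IsDiscreteValuationRing.maximalIdeal (A.presheaf.stalk z)).valuation
        A.functionField x)⁻¹ := Ring.ordFrac_eq_valuation_inv x
  rw [h2] at h1
  apply IsDiscreteValuationRing.exists_lift_of_le_one
  have hv0 : ((IsDiscreteValuationRing.maximalIdeal (A.presheaf.stalk z)).valuation
        A.functionField x) ≠ 0 := by
    rw [Ne, Valuation.zero_iff]
    exact hx0
  exact (one_le_inv₀ (zero_lt_iff.2 hv0)).1 h1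

/-- **Hartogs on an affine open**: a function without poles at the prime divisors of `U` is a
section over `U`. -/
theorem s26g1g_hartogs_affine [IsIntegral A] [IsLocallyNoetherian A] [Smooth f] {U : A.Opens}
    (hU : IsAffineOpen U) [Nonempty U] (x : A.functionField)
    (hx : ∀ z : A, z ∈ U → Order.coheight z = 1 → 0 ≤ Scheme.ord (X := A) x z) :
    ∃ r : Γ(A, U), A.germToFunctionField U r = x := by
  haveI : IsNoetherianRing Γ(A, U) := IsLocallyNoetherian.component_noetherian ⟨U, hU⟩
  haveI := s26a2_isIntegrallyClosed_section f hU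
  haveI : IsFractionRing Γ(A, U) A.functionField :=
    functionField_isFractionRing_of_isAffineOpen A U hU
  have key := s26h_hartogs (R := Γ(A, U)) (F := A.functionField) x ?_
  · obtain ⟨r, hr⟩ := key
    exact ⟨r, hr⟩
  intro p hp hph
  have hzU : hU.fromSpec ⟨p, hp⟩ ∈ U := by
    have : hU.fromSpec ⟨p, hp⟩ ∈ Set.range hU.fromSpec := ⟨_, rfl⟩
    rw [hU.range_fromSpec] at this
    exact this
  letI := TopCat.Presheaf.algebra_section_stalk A.presheaf
    (⟨hU.fromSpec ⟨p, hp⟩, hzU⟩ : U)
  haveI hloc : IsLocalization.AtPrime (A.presheaf.stalk (hU.fromSpec ⟨p, hp⟩)) p :=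
    hU.isLocalization_stalk' ⟨p, hp⟩ hzU
  have hcoh : Order.coheight (hU.fromSpec ⟨p, hp⟩) = 1 := by
    have h1 := ringKrullDim_stalk_eq_coheight (hU.fromSpec ⟨p, hp⟩)
    have h2 := IsLocalization.AtPrime.ringKrullDim_eq_height p
      (A.presheaf.stalk (hU.fromSpec ⟨p, hp⟩))
    rw [h1, hph] at h2
    exact_mod_cast h2
  haveI := s26a2_isDVR_stalk f _ hcoh
  obtain ⟨y, hy⟩ := s26g1g_mem_stalk _ hcoh x (hx _ hzU hcoh)
  obtain ⟨⟨a, s⟩, has⟩ := IsLocalization.surj p.primeCompl y
  refine ⟨a, s.1, s.2, ?_⟩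
  have h3 := congrArg (algebraMap (A.presheaf.stalk (hU.fromSpec ⟨p, hp⟩)) A.functionField) has
  rw [map_mul, hy] at h3
  have e1 : algebraMap (A.presheaf.stalk (hU.fromSpec ⟨p, hp⟩)) A.functionField
      (algebraMap Γ(A, U) (A.presheaf.stalk (hU.fromSpec ⟨p, hp⟩)) s.1) =
      algebraMap Γ(A, U) A.functionField s.1 :=
    Scheme.algebraMap_germ_eq_germToFunctionField (X := A) hzU s.1
  have e2 : algebraMap (A.presheaf.stalk (hU.fromSpec ⟨p, hp⟩)) A.functionField
      (algebraMap Γ(A, U) (A.presheaf.stalk (hU.fromSpec ⟨p, hp⟩)) a) =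
      algebraMap Γ(A, U) A.functionField a :=
    Scheme.algebraMap_germ_eq_germToFunctionField (X := A) hzU a
  rw [← e1, ← e2]
  exact h3

/-- a nonzero non-unit of the local ring at a prime divisor has order `≥ 1`. -/
theorem s26g1g_one_le_ord [IsIntegral A] [IsLocallyNoetherian A] (z : A)
    (hz : Order.coheight z = 1) [IsDiscreteValuationRing (A.presheaf.stalk z)]
    (y : A.presheaf.stalk z) (hy0 : y ≠ 0) (hy : ¬ IsUnit y) :
    1 ≤ Scheme.ord (X := A) (algebraMap (A.presheaf.stalk z) A.functionField y) z := by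
  have hinj := IsFractionRing.injective (A.presheaf.stalk z) A.functionField
  have hne : algebraMap (A.presheaf.stalk z) A.functionField y ≠ 0 := by
    rw [Ne, map_eq_zero_iff _ hinj]; exact hy0
  rw [Scheme.le_ord_iff hz hne]
  obtain ⟨ϖ, hϖ⟩ := IsDiscreteValuationRing.exists_irreducible (A.presheaf.stalk z)
  have hmem : y ∈ IsLocalRing.maximalIdeal (A.presheaf.stalk z) :=
    (IsLocalRing.mem_maximalIdeal y).2 hy
  rw [hϖ.maximalIdeal_eq, Ideal.mem_span_singleton] at hmem
  obtain ⟨u, rfl⟩ := hmem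
  have hu0 : u ≠ 0 := fun h => hy0 (by rw [h, mul_zero])
  have h1 : Scheme.ordHom z hz (algebraMap (A.presheaf.stalk z) A.functionField ϖ) =
      WithZero.exp 1 := Ring.ordFrac_irreducible hϖ
  have h2 : (1 : WithZero (Multiplicative ℤ)) ≤
      Scheme.ordHom z hz (algebraMap (A.presheaf.stalk z) A.functionField u) :=
    haveI : Ring.KrullDimLE 1 (A.presheaf.stalk z) := krullDimLE_of_coheight_le hz.le
    Ring.ordFrac_ge_one_of_ne_zero hu0
  rw [map_mul, map_mul, h1]
  exact le_mul_of_one_le_right' h2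

/-- **(G-a)** Hartogs: `L(U, m) ⊆ Γ(U)` for `U` affine. -/
theorem s26g1g_stmtHartogs : s26g1u_StmtHartogs.{u} := by
  intro K _ A f G g H _ _ U _ hU m x hx
  haveI := H.bundle.smooth
  have hdvr : ∀ z : A, Order.coheight z = 1 → IsDiscreteValuationRing (A.presheaf.stalk z) :=
    fun z hz => s26a2_isDVR_stalk f z hz
  have hx' := (s26f2_mem_L_iff f hdvr U m x).1 hx
  exact s26g1g_hartogs_affine f hU x (fun z hzU hz => (hx' z hz).1 hzU)

end Fermat.Agent.S26
end
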