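/-
S26, piece G1-up, geometric half (helper68): **(G-c)** `s26g1u_StmtCentre`.

Finitely many affine charts `W a` cover `A` (quasi-compact); on each chart one section `h a ≠ 0`
with `D(h a) ⊆ U`; a valuation ring `O ⊇ K` of `K(A)` has a centre `ξ` (valuative criterion),
`ξ ∈ W a`; for `x ∈ L(U, m)` the function `x · (h a)^m` has no pole at the prime divisors of
`W a`, hence is a section over `W a` (Hartogs) and lies in `𝒪_{A,ξ} ⊆ O`.
-/
import Fermat.Agent.S26.G1UpGeo

set_option autoImplicit false
set_option linter.style.haveILetI false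
noncomputable section
namespace Fermat.Agent.S26
open CategoryTheory CategoryTheory.Limits AlgebraicGeometry NeronModelInfra GoodReductionJacobian
universe u
variable {K : Type u} [Field K] {A : Scheme.{u}} (f : A ⟶ Spec (CommRingCat.of K))

/-- the generic point lies in every nonempty open. -/
theorem s26g1g_generic_mem [IsIntegral A] (V : A.Opens) [h : Nonempty V] :
    genericPoint A ∈ V :=
  ((genericPoint_spec A).mem_open_set_iff V.isOpen).mpr (by simpa using h)

/-- the pole bound on one chart: `x ∈ L(U, m)`, `h` a section over `W` with `D(h) ⊆ U`, `h ≠ 0`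
⇒ `x · h^m` has nonnegative order at every prime divisor of `W`. -/
theorem s26g1g_chart_ord [IsIntegral A] [IsLocallyNoetherian A]
    (hdvr : ∀ z : A, Order.coheight z = 1 → IsDiscreteValuationRing (A.presheaf.stalk z))
    (U W : A.Opens) [Nonempty W] (h : Γ(A, W)) (hh0 : h ≠ 0) (hhU : A.basicOpen h ≤ U)
    (m : ℕ) (x : A.functionField) (hx : x ∈ s26Lset f U m) (z : A) (hzW : z ∈ W)
    (hz : Order.coheight z = 1) :
    0 ≤ Scheme.ord (X := A) (x * (A.germToFunctionField W h) ^ m) z := by
  by_cases hx0 : x = 0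
  · rw [hx0, zero_mul]
    have := congrFun (Scheme.ord_zero (X := A)) z
    rw [this]; rfl
  have hσ0 : (A.germToFunctionField W h : A.functionField) ≠ 0 := by
    intro h0
    apply hh0
    apply Scheme.germToFunctionField_injective A W
    rw [h0, map_zero]
  have h1 : Scheme.ord (X := A) (x * (A.germToFunctionField W h) ^ m) z =
      Scheme.ord (X := A) x z + (m : ℤ) * Scheme.ord (X := A) (A.germToFunctionField W h) z := by
    have e1 : Scheme.ord (X := A) (x * (A.germToFunctionField W h) ^ m) z =
        Scheme.ord (X := A) x z + Scheme.ord (X := A) ((A.germToFunctionField W h) ^ m) z :=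
      Scheme.ord_mul (X := A) hx0 (pow_ne_zero m hσ0)
    have e2 : Scheme.ord (X := A) ((A.germToFunctionField W h) ^ m) z =
        (m : ℤ) * Scheme.ord (X := A) (A.germToFunctionField W h) z :=
      s26g_ord_pow f (θ := (A.germToFunctionField W h : A.functionField)) hσ0 m z
    rw [e1, e2]
  have hσ : 0 ≤ Scheme.ord (X := A) (A.germToFunctionField W h) z :=
    s26g1li_ord_nonneg f W h z hzW
  obtain ⟨hxU, hxm⟩ := hx z hz
  have hxm' : -(m : ℤ) ≤ Scheme.ord (X := A) x z := hxm
  rw [h1]
  by_cases hzU : z ∈ U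
  · have h4 : 0 ≤ Scheme.ord (X := A) x z := hxU hzU
    exact add_nonneg h4 (mul_nonneg (Int.natCast_nonneg m) hσ)
  · haveI := hdvr z hz
    have hnu : ¬ IsUnit (A.presheaf.germ W z hzW h) := by
      intro hu
      exact hzU (hhU ((Scheme.mem_basicOpen A h z hzW).2 hu))
    have hg0 : A.presheaf.germ W z hzW h ≠ 0 := by
      intro h0
      apply hh0
      apply germ_injective_of_isIntegral A z hzW
      rw [h0, map_zero]
    have h2 := s26g1g_one_le_ord z hz (A.presheaf.germ W z hzW h) hg0 hnu
    rw [Scheme.algebraMap_germ_eq_germToFunctionField] at h2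
    nlinarith [Int.natCast_nonneg m]

/-- **(G-c)** centres. -/
theorem s26g1g_stmtCentre : s26g1u_StmtCentre.{u} := by
  classical
  intro K _ A f G g H _ _ U _ hU
  haveI := H.bundle.smooth
  haveI := H.bundle.proper
  haveI : CompactSpace A := s26g1li_compact f G g H
  have hdvr : ∀ z : A, Order.coheight z = 1 → IsDiscreteValuationRing (A.presheaf.stalk z) :=
    fun z hz => s26a2_isDVR_stalk f z hz
  have hW : ∀ a : A, ∃ W : A.Opens, IsAffineOpen W ∧ a ∈ W := fun a => by
    obtain ⟨W, hW, haW, -⟩ := exists_isAffineOpen_mem_and_subset (x := a) (U := ⊤) trivial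
    exact ⟨W, hW, haW⟩
  choose W hWaff hWmem using hW
  haveI : ∀ a, Nonempty (W a) := fun a => ⟨⟨a, hWmem a⟩⟩
  have hηU : genericPoint A ∈ U := s26g1g_generic_mem U
  have hσ : ∀ a : A, ∃ h : Γ(A, W a), A.basicOpen h ≤ U ∧ genericPoint A ∈ A.basicOpen h :=
    fun a => (hWaff a).exists_basicOpen_le (V := U) ⟨genericPoint A, hηU⟩
      (s26g1g_generic_mem (W a))
  choose h hhU hhη using hσ
  have hh0 : ∀ a, h a ≠ 0 := by
    intro a h0
    have hu := (Scheme.mem_basicOpen A (h a) (genericPoint A) (s26g1g_generic_mem (W a))).1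
      (hhη a)
    rw [h0, map_zero] at hu
    exact not_isUnit_zero hu
  obtain ⟨t, ht⟩ := isCompact_univ.elim_finite_subcover (fun a => (W a : Set A))
    (fun a => (W a).isOpen) (fun x _ => Set.mem_iUnion.2 ⟨x, hWmem x⟩)
  refine ⟨t.image (fun a => s26germ f (W a) (h a)), ?_, ?_⟩
  · intro σ hσmem
    obtain ⟨a, -, rfl⟩ := Finset.mem_image.1 hσmem
    intro h0
    apply hh0 a
    apply Scheme.germToFunctionField_injective A (W a)
    rw [map_zero]
    exact h0
  · intro O hK _
    obtain ⟨ξ, hξ⟩ := s26g1g_centre' f O hK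
    obtain ⟨a, hat, hξa⟩ : ∃ a ∈ t, ξ ∈ W a := by
      have := ht (Set.mem_univ ξ)
      simpa using this
    refine ⟨s26germ f (W a) (h a), Finset.mem_image_of_mem _ hat, fun m x hx => ?_⟩
    have hx' := (s26f2_mem_L_iff f hdvr U m x).1 hx
    obtain ⟨r, hr⟩ := s26g1g_hartogs_affine f (hWaff a)
      ((show A.functionField from x) * (A.germToFunctionField (W a) (h a)) ^ m)
      (fun z hzW hz => s26g1g_chart_ord f hdvr U (W a) (h a) (hh0 a) (hhU a) m x hx' z hzW hz)
    have h3 := hξ (A.presheaf.germ (W a) ξ hξa r)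
    rw [Scheme.algebraMap_germ_eq_germToFunctionField, hr] at h3
    exact h3

end Fermat.Agent.S26
end
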