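/-
S26, piece G1-up (helper63): FINAL WIRING.

* `s26g1u_wrap`    : the abstract core (`S26/G1UpAlg.lean`) for a Noether normalisation
                     `φ : K[y] → R` of a domain `R` with fraction field `𝔉` (Mathlib only);
* `s26g1u_affine`  : `(fin)` and `dim L(U, m) ≤ c₂ m ^ g` for a nonempty affine open `U`, from the
                     four inputs (Hartogs, Centre, Noether, TrdegLe);
* `s26g1u_stmtUp_of`, `s26g1u_stmtUp : s26g1u_StmtUp`   (UNCONDITIONAL);
* `s26g1u_stmtLoUp : s26g1lo_StmtUp`, `s26g1u_growth : s26_StmtGrowth`   (UNCONDITIONAL).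
-/
import Fermat.Agent.S26.G1UpAlg
import Fermat.Agent.S26.G1UpPlan2
import Fermat.Agent.S26.G1UpGeo
import Fermat.Agent.S26.G1UpCentreFin
import Fermat.Agent.S26.G1Noether
import Fermat.Agent.S26.G1Trdeg
import Fermat.Agent.S26.G1LoInst
import Fermat.Agent.S26.F2

set_option autoImplicit false
set_option linter.style.haveILetI false

namespace Fermat.Agent.S26

open MvPolynomial

noncomputable section

/-- **G1-up, algebraic wrapper**: the abstract core in terms of a Noether normalisation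
`φ : K[y] → R` of a domain `R` with fraction field `𝔉`. -/
theorem s26g1u_wrap {K : Type*} [Field K] [PerfectField K] {𝔉 : Type*} [Field 𝔉] [Algebra K 𝔉]
    {R : Type*} [CommRing R] [IsDomain R] [Algebra R 𝔉] [IsFractionRing R 𝔉] {s : ℕ}
    (φ : MvPolynomial (Fin s) K →+* R)
    (hφK : ∀ c : K, algebraMap R 𝔉 (φ (C c)) = algebraMap K 𝔉 c)
    (hφinj : Function.Injective φ) (hφfin : φ.Finite)
    (L : ℕ → Submodule K 𝔉) (hL : ∀ m, ∀ x ∈ L m, ∃ r : R, algebraMap R 𝔉 r = x)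
    (S : Finset 𝔉) (hS : ∀ σ ∈ S, σ ≠ 0)
    (hcen : ∀ V : ValuationSubring 𝔉, (∀ c : K, algebraMap K 𝔉 c ∈ V) →
      (∃ r : R, algebraMap R 𝔉 r ∉ V) → ∃ σ ∈ S, ∀ m, ∀ x ∈ L m, x * σ ^ m ∈ V) :
    ((∀ m, Module.Finite K (L m)) ∧
      ∃ c₂ : ℕ, ∀ m, 1 ≤ m → Module.finrank K (L m) ≤ c₂ * m ^ s) ∧
    AlgebraicIndependent K (fun i : Fin s => algebraMap R 𝔉 (φ (X i))) := by
  classical
  set ψ : MvPolynomial (Fin s) K →+* 𝔉 := (algebraMap R 𝔉).comp φ with hψ
  have hψinj : Function.Injective ψ := (IsFractionRing.injective R 𝔉).comp hφinj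
  letI algPR : Algebra (MvPolynomial (Fin s) K) R := φ.toAlgebra
  letI algP : Algebra (MvPolynomial (Fin s) K) 𝔉 := ψ.toAlgebra
  haveI t1 : IsScalarTower (MvPolynomial (Fin s) K) R 𝔉 :=
    IsScalarTower.of_algebraMap_eq (fun _ => rfl)
  haveI fin1 : Module.Finite (MvPolynomial (Fin s) K) R := hφfin
  letI algF₀ : Algebra (FractionRing (MvPolynomial (Fin s) K)) 𝔉 :=
    (IsFractionRing.lift hψinj).toAlgebra
  haveI t2 : IsScalarTower (MvPolynomial (Fin s) K) (FractionRing (MvPolynomial (Fin s) K)) 𝔉 :=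
    IsScalarTower.of_algebraMap_eq (fun x => (IsFractionRing.lift_algebraMap hψinj x).symm)
  haveI t3 : IsScalarTower K (MvPolynomial (Fin s) K) 𝔉 :=
    IsScalarTower.of_algebraMap_eq (fun c => (hφK c).symm)
  haveI t4 : IsScalarTower K (FractionRing (MvPolynomial (Fin s) K)) 𝔉 :=
    IsScalarTower.of_algebraMap_eq (fun c => by
      rw [IsScalarTower.algebraMap_apply K (MvPolynomial (Fin s) K)
          (FractionRing (MvPolynomial (Fin s) K)),
        ← IsScalarTower.algebraMap_apply (MvPolynomial (Fin s) K)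
          (FractionRing (MvPolynomial (Fin s) K)) 𝔉,
        ← IsScalarTower.algebraMap_apply K (MvPolynomial (Fin s) K) 𝔉])
  haveI f1 : FaithfulSMul (MvPolynomial (Fin s) K) R :=
    (faithfulSMul_iff_algebraMap_injective _ _).2 hφinj
  haveI a1 : Algebra.IsAlgebraic (MvPolynomial (Fin s) K) R := inferInstance
  haveI l1 : IsLocalization
      (Algebra.algebraMapSubmonoid R (nonZeroDivisors (MvPolynomial (Fin s) K))) 𝔉 :=
    inferInstance
  haveI fd : FiniteDimensional (FractionRing (MvPolynomial (Fin s) K)) 𝔉 :=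
    Module.Finite.of_isLocalization (MvPolynomial (Fin s) K) R
      (nonZeroDivisors (MvPolynomial (Fin s) K))
  have hint : ∀ m, ∀ x ∈ L m, IsIntegral (MvPolynomial (Fin s) K) x := by
    intro m x hx
    obtain ⟨r, rfl⟩ := hL m x hx
    exact (Algebra.IsIntegral.isIntegral (R := MvPolynomial (Fin s) K) r).algebraMap
  have hval : ∀ i : Fin s, ∀ V : ValuationSubring 𝔉, (∀ c : K, algebraMap K 𝔉 c ∈ V) →
      algebraMap (MvPolynomial (Fin s) K) 𝔉 (X i) ∉ V →
      ∃ σ ∈ S, ∀ m, ∀ f ∈ L m, f * σ ^ m ∈ V :=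
    fun i V hK hy => hcen V hK ⟨φ (X i), hy⟩
  refine ⟨s26g1u_main (FractionRing (MvPolynomial (Fin s) K)) L hint S hS hval, ?_⟩
  rw [algebraicIndependent_iff_injective_aeval]
  have haeval : (aeval (fun i : Fin s => algebraMap R 𝔉 (φ (X i))) :
      MvPolynomial (Fin s) K →ₐ[K] 𝔉) = IsScalarTower.toAlgHom K (MvPolynomial (Fin s) K) 𝔉 := by
    apply MvPolynomial.algHom_ext
    intro i
    rw [aeval_X]
    rfl
  rw [haeval]
  exact hψinj

end

open CategoryTheory CategoryTheory.Limits AlgebraicGeometry NeronModelInfra GoodReductionJacobian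

universe u

noncomputable section

/-- **G1-up on a nonempty affine open**, from the four inputs. -/
theorem s26g1u_affine (hH : s26g1u_StmtHartogs.{u}) (hC : s26g1u_StmtCentre.{u})
    (hN : s26g1u_StmtNoether.{u}) (hT : s26g1u_StmtTrdegLe.{u})
    (K : Type u) [Field K] {A : Scheme.{u}} (f : A ⟶ Spec (CommRingCat.of K))
    (G : RelativeGroupLaw K f) (g : ℕ) (H : S26Hyp K f G g)
    [IsIntegral A] [IsLocallyNoetherian A] (U : A.Opens) [Nonempty U] (hU : IsAffineOpen U) :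
    (∀ m, Module.Finite K (s26L f U m)) ∧
      ∃ c₂ : ℕ, ∀ m, 1 ≤ m → Module.finrank K (s26L f U m) ≤ c₂ * m ^ g := by
  obtain ⟨s, φ, hφK, hφinj, hφfin⟩ := hN K f G g H U hU
  obtain ⟨S, hS, hcen⟩ := hC K f G g H U hU
  haveI := H.algClosed
  letI algR : Algebra Γ(A, U) (s26F f) := (s26germ f U).toAlgebra
  haveI hfrac : IsFractionRing Γ(A, U) (s26F f) :=
    functionField_isFractionRing_of_isAffineOpen A U hU
  obtain ⟨⟨hfin, c₂, hc₂⟩, hind⟩ := s26g1u_wrap (K := K) (𝔉 := s26F f) (R := Γ(A, U)) φ hφK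
    hφinj hφfin (fun m => s26L f U m) (fun m x hx => hH K f G g H U hU m x hx) S hS hcen
  have hsg : s ≤ g := hT K f G g H s _ hind
  exact ⟨hfin, c₂, fun m hm =>
    (hc₂ m hm).trans (Nat.mul_le_mul_left _ (Nat.pow_le_pow_right hm hsg))⟩

/-- **G1-up** from the four inputs. -/
theorem s26g1u_stmtUp_of (hH : s26g1u_StmtHartogs.{u}) (hC : s26g1u_StmtCentre.{u})
    (hN : s26g1u_StmtNoether.{u}) (hT : s26g1u_StmtTrdegLe.{u}) : s26g1u_StmtUp.{u} := by
  intro K _ A f G g H _ _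
  refine ⟨fun V hV m => ?_, fun U hU hUaff => ?_⟩
  · obtain ⟨⟨x, hx⟩⟩ := hV
    obtain ⟨W, hW, hxW, hWV⟩ := exists_isAffineOpen_mem_and_subset (x := x) (U := V) hx
    haveI : Nonempty W := ⟨⟨x, hxW⟩⟩
    have hfinW := (s26g1u_affine hH hC hN hT K f G g H W hW).1 m
    have hle : s26L f V m ≤ s26L f W m :=
      Submodule.span_mono (s26f2_Lset_anti f (U := W) (V := V) hWV m)
    exact Module.Finite.of_injective (Submodule.inclusion hle) (Submodule.inclusion_injective hle)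
  · haveI := hU
    exact (s26g1u_affine hH hC hN hT K f G g H U hUaff).2

/-- **G1-up, UNCONDITIONAL.** -/
theorem s26g1u_stmtUp : s26g1u_StmtUp.{u} :=
  s26g1u_stmtUp_of s26g1g_stmtHartogs s26g1g_stmtCentre s26g1n_stmt s26g1t_stmt

/-- **G1-up in the shape of `G1LoInst`, UNCONDITIONAL.** -/
theorem s26g1u_stmtLoUp : s26g1lo_StmtUp.{u} := by
  intro K _ A f G g H _ _ U hU
  obtain ⟨hfin, hup⟩ := s26g1u_stmtUp K f G g H
  exact ⟨hfin, hup U ⟨⟨s26zero f G, hU.2.1⟩⟩ hU.1⟩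

/-- **G1 = `s26_StmtGrowth`, UNCONDITIONAL.** -/
theorem s26g1u_growth : s26_StmtGrowth.{u} := s26g1lo_growth s26g1u_stmtLoUp

end

end Fermat.Agent.S26
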