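import Fermat.Agent.S26.F1Gen

/-!
# S26, piece F3 (part 3): local rings of an integral scheme inside its function field

`X` an integral, locally noetherian scheme, `z : X`.

* `s26f3_mem_stalk_iff`   : for an affine open `V ∋ z`, `x ∈ O_{X,z}` iff `x = s / t` with
                            `s, t ∈ Γ(V)`, `t ∉ 𝔭_z`;
* `s26f3_ord_nonneg_iff`  : if `O_{X,z}` is a discrete valuation ring and `x ≠ 0`:
                            `0 ≤ ord_z x ↔ x ∈ O_{X,z}`;
* `s26f3_exists_ord_one`  : a uniformiser: `t` with `ord_z t = 1`;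
* `s26f3_stalk_intClosed` : a root in `K(X)` of a monic polynomial over `Γ(V)` lies in `O_{X,z}`
                            (`O_{X,z}` a DVR);
* `s26f3_stalk_dvr_up`    : for `ψ : X ⟶ Y` dominant, unramified, locally of finite type: if
                            `O_{Y,ψ z}` is a DVR then so is `O_{X,z}`.
-/

set_option autoImplicit false
set_option linter.style.haveILetI false
set_option linter.unusedSectionVars false
set_option linter.overlappingInstances false

noncomputable section

namespace Fermat.Agent.S26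

open AlgebraicGeometry CategoryTheory TopologicalSpace IsLocalRing

universe u

section Stalk

variable {X : Scheme.{u}} [IsIntegral X]

/-- `x ∈ O_{X,z}` in terms of fractions on an affine open. -/
theorem s26f3_mem_stalk_iff {V : X.Opens} (hV : IsAffineOpen V) [Nonempty V] (z : X)
    (hz : z ∈ V) (x : X.functionField) :
    x ∈ Set.range (algebraMap (X.presheaf.stalk z) X.functionField) ↔
      ∃ s t : Γ(X, V), t ∉ (hV.primeIdealOf ⟨z, hz⟩).asIdeal ∧
        x * (X.germToFunctionField V).hom t = (X.germToFunctionField V).hom s := by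
  letI : Algebra Γ(X, V) (X.presheaf.stalk z) := (X.presheaf.germ V z hz).hom.toAlgebra
  haveI : IsLocalization.AtPrime (X.presheaf.stalk z) (hV.primeIdealOf ⟨z, hz⟩).asIdeal :=
    hV.isLocalization_stalk ⟨z, hz⟩
  haveI : IsScalarTower Γ(X, V) (X.presheaf.stalk z) X.functionField :=
    functionField_isScalarTower X V ⟨z, hz⟩
  have hgerm : ∀ s : Γ(X, V), (X.germToFunctionField V).hom s =
      algebraMap (X.presheaf.stalk z) X.functionField
        (algebraMap Γ(X, V) (X.presheaf.stalk z) s) := by
    intro s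
    rw [← IsScalarTower.algebraMap_apply]
    rfl
  constructor
  · rintro ⟨ρ, rfl⟩
    obtain ⟨⟨s, ⟨t, ht⟩⟩, h⟩ :=
      IsLocalization.surj (hV.primeIdealOf ⟨z, hz⟩).asIdeal.primeCompl ρ
    refine ⟨s, t, ht, ?_⟩
    rw [hgerm, hgerm, ← map_mul]
    exact congrArg _ h
  · rintro ⟨s, t, ht, h⟩
    have hu : IsUnit (algebraMap Γ(X, V) (X.presheaf.stalk z) t) :=
      IsLocalization.map_units (X.presheaf.stalk z)
        (⟨t, ht⟩ : (hV.primeIdealOf ⟨z, hz⟩).asIdeal.primeCompl)
    obtain ⟨u, hu'⟩ := hu
    refine ⟨algebraMap Γ(X, V) (X.presheaf.stalk z) s * ((u⁻¹ : (X.presheaf.stalk z)ˣ) :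
      X.presheaf.stalk z), ?_⟩
    have hne : algebraMap (X.presheaf.stalk z) X.functionField
        (algebraMap Γ(X, V) (X.presheaf.stalk z) t) ≠ 0 := by
      intro h0
      have := (IsFractionRing.injective (X.presheaf.stalk z) X.functionField)
        (h0.trans (map_zero _).symm)
      rw [← hu'] at this
      exact u.ne_zero this
    apply mul_right_cancel₀ hne
    rw [← hgerm t, h, hgerm s, hgerm t, ← map_mul, ← hu', mul_assoc, Units.inv_mul, mul_one]

variable [IsLocallyNoetherian X]

/-- **`0 ≤ ord_z x ↔ x ∈ O_{X,z}`** at a point whose local ring is a discrete valuation ring. -/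
theorem s26f3_ord_nonneg_iff (z : X) [IsDiscreteValuationRing (X.presheaf.stalk z)]
    {x : X.functionField} (hx : x ≠ 0) :
    0 ≤ Scheme.ord x z ↔ x ∈ Set.range (algebraMap (X.presheaf.stalk z) X.functionField) := by
  have hz : Order.coheight z = 1 := s26f1_coheight_of_dvr z
  rw [Scheme.le_ord_iff hz hx]
  change (((Multiplicative.ofAdd (0 : ℤ) : Multiplicative ℤ)) : WithZero (Multiplicative ℤ)) ≤
    Ring.ordFrac (X.presheaf.stalk z) x ↔ _
  rw [Ring.ordFrac_eq_valuation_inv]
  have hv0 : 0 < (IsDiscreteValuationRing.maximalIdeal (X.presheaf.stalk z)).valuation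
      X.functionField x := by
    rw [Valuation.pos_iff]
    exact hx
  have h1 : (((Multiplicative.ofAdd (0 : ℤ) : Multiplicative ℤ)) :
      WithZero (Multiplicative ℤ)) = 1 := rfl
  rw [h1, one_le_inv₀ hv0]
  constructor
  · intro h
    obtain ⟨a, ha⟩ := IsDiscreteValuationRing.exists_lift_of_le_one h
    exact ⟨a, ha⟩
  · rintro ⟨a, rfl⟩
    exact IsDedekindDomain.HeightOneSpectrum.valuation_le_one _ a

/-- A uniformiser at `z`. -/
theorem s26f3_exists_ord_one (z : X) [IsDiscreteValuationRing (X.presheaf.stalk z)] :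
    ∃ t : X.functionField, t ≠ 0 ∧ Scheme.ord t z = 1 := by
  have hz : Order.coheight z = 1 := s26f1_coheight_of_dvr z
  obtain ⟨ϖ, hϖ⟩ := IsDiscreteValuationRing.exists_irreducible (X.presheaf.stalk z)
  have hne : algebraMap (X.presheaf.stalk z) X.functionField ϖ ≠ 0 := by
    intro h0
    exact hϖ.ne_zero ((IsFractionRing.injective (X.presheaf.stalk z) X.functionField)
      (h0.trans (map_zero _).symm))
  refine ⟨algebraMap (X.presheaf.stalk z) X.functionField ϖ, hne, ?_⟩
  rw [Scheme.ord_eq_iff hz hne]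
  change Ring.ordFrac (X.presheaf.stalk z) _ = _
  rw [Ring.ordFrac_irreducible hϖ]
  rfl

/-- `O_{X,z}` (a DVR) is integrally closed in `K(X)`: elementary form. -/
theorem s26f3_stalk_intClosed {V : X.Opens} (hV : IsAffineOpen V) [Nonempty V] (z : X)
    (hz : z ∈ V) [IsDiscreteValuationRing (X.presheaf.stalk z)] (y : X.functionField)
    (hy : ∃ p : Polynomial Γ(X, V), p.Monic ∧
      Polynomial.eval₂ (X.germToFunctionField V).hom y p = 0) :
    ∃ r u : Γ(X, V), u ∉ (hV.primeIdealOf ⟨z, hz⟩).asIdeal ∧
      y * (X.germToFunctionField V).hom u = (X.germToFunctionField V).hom r := by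
  letI : Algebra Γ(X, V) (X.presheaf.stalk z) := (X.presheaf.germ V z hz).hom.toAlgebra
  haveI : IsScalarTower Γ(X, V) (X.presheaf.stalk z) X.functionField :=
    functionField_isScalarTower X V ⟨z, hz⟩
  obtain ⟨p, hp, hp0⟩ := hy
  have hint : IsIntegral (X.presheaf.stalk z) y := by
    refine ⟨p.map (algebraMap Γ(X, V) (X.presheaf.stalk z)), hp.map _, ?_⟩
    rw [Polynomial.eval₂_map]
    have : (algebraMap (X.presheaf.stalk z) X.functionField).comp
        (algebraMap Γ(X, V) (X.presheaf.stalk z)) = (X.germToFunctionField V).hom := by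
      rw [← IsScalarTower.algebraMap_eq]
      rfl
    rw [this]
    exact hp0
  have hmem : y ∈ Set.range (algebraMap (X.presheaf.stalk z) X.functionField) := by
    obtain ⟨a, ha⟩ := IsIntegrallyClosed.isIntegral_iff.mp hint
    exact ⟨a, ha⟩
  obtain ⟨s, t, ht, h⟩ := (s26f3_mem_stalk_iff hV z hz y).mp hmem
  exact ⟨s, t, ht, h⟩

end Stalk

section Up

variable {X Y : Scheme.{u}} [IsIntegral X] [IsIntegral Y]

/-- The stalk maps of a dominant morphism of integral schemes are injective. -/
theorem s26f3_stalkMap_injective (ψ : X ⟶ Y) [IsDominant ψ] (z : X) :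
    Function.Injective (ψ.stalkMap z).hom := by
  intro a b hab
  apply IsFractionRing.injective (Y.presheaf.stalk (ψ z)) Y.functionField
  apply s26f1Pull_injective ψ
  rw [s26f1Pull_algebraMap, s26f1Pull_algebraMap, hab]

variable [IsLocallyNoetherian X]

/-- **Going up**: over a point with a DVR as local ring, an unramified morphism has DVRs as
local rings. -/
theorem s26f3_stalk_dvr_up (ψ : X ⟶ Y) [IsDominant ψ] [FormallyUnramified ψ]
    [LocallyOfFiniteType ψ] (z : X) [IsDiscreteValuationRing (Y.presheaf.stalk (ψ z))] :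
    IsDiscreteValuationRing (X.presheaf.stalk z) := by
  obtain ⟨ϖ, hϖ⟩ := IsDiscreteValuationRing.exists_irreducible (Y.presheaf.stalk (ψ z))
  have hm := s26f1_map_maximalIdeal ψ z
  rw [(IsDiscreteValuationRing.irreducible_iff_uniformizer ϖ).mp hϖ, Ideal.map_span,
    Set.image_singleton] at hm
  have hne : (ψ.stalkMap z).hom ϖ ≠ 0 := by
    intro h0
    exact hϖ.ne_zero (s26f3_stalkMap_injective ψ z (h0.trans (map_zero _).symm))
  have hnf : ¬ IsField (X.presheaf.stalk z) := by
    rw [IsLocalRing.isField_iff_maximalIdeal_eq]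
    intro hbot
    rw [hbot] at hm
    have : (ψ.stalkMap z).hom ϖ ∈ (⊥ : Ideal (X.presheaf.stalk z)) := by
      rw [← hm]
      exact Ideal.subset_span rfl
    exact hne (by simpa using this)
  have hprin : (maximalIdeal (X.presheaf.stalk z)).IsPrincipal := ⟨⟨_, hm.symm⟩⟩
  exact ((IsDiscreteValuationRing.TFAE (X.presheaf.stalk z) hnf).out 0 4).mpr hprin

end Up

end Fermat.Agent.S26
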