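/-
S26-E, piece E-INT (helper77): the INTERFACE between local equations and the captain's Prop
`s26_StmtCube`.

* `s26_StmtCubeRel` : the TARGET SHAPE for E-ASM: `θ · h ^ (c N²) = u · h' ^ c` with `u` a unit of
  `O_{A,z}`, for ALL local equations `h` of `A ∖ U` and `h'` of `A ∖ [N]⁻¹U` at every prime divisor
  `z` (`S26emIsLocEq`, helper5's EMPlan.lean);
* `s26eint_ord_unit`     : `ord_z` of a unit of `O_{A,z}` is `0`;
* `s26eint_eq_of_specializes` : prime divisors do not specialise to each other;
* `s26eint_exists_locEq` : at a prime divisor with DVR stalk a local equation exists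
  (a uniformiser, or `1`);
* `s26eint_ord_locEq`    : `ord_z h = [z ∉ U]` for a local equation `h` at `z`;
* `s26eint_cube`         : `s26_StmtA2 → s26_StmtCubeRel → s26_StmtCube`.
-/
import Fermat.Agent.S26.PlanGeo
import Fermat.Agent.S26.EMPlan
import Fermat.Agent.S26.F3Stalk
import Fermat.Agent.S26.Geom

set_option autoImplicit false
set_option linter.unusedSectionVars false
noncomputable section
namespace Fermat.Agent.S26
open CategoryTheory CategoryTheory.Limits AlgebraicGeometry NeronModelInfra GoodReductionJacobian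
universe u

/-- **TARGET SHAPE for E-ASM.** -/
def s26_StmtCubeRel : Prop :=
  ∀ (K : Type u) [Field K] {A : Scheme.{u}} (f : A ⟶ Spec (CommRingCat.of K))
    (G : RelativeGroupLaw K f) (g : ℕ), S26Hyp K f G g →
    ∀ [IsIntegral A] [IsLocallyNoetherian A] (U : A.Opens), S26IsAdm f G U →
    ∀ (N : ℕ), (N : K) ≠ 0 →
      ∃ (c : ℕ) (θ : A.functionField), 0 < c ∧ θ ≠ 0 ∧ ∀ z : A, Order.coheight z = 1 →
        ∀ h h' : A.presheaf.stalk z, S26emIsLocEq U z h →
          S26emIsLocEq ((G.schemeNsmul N) ⁻¹ᵁ U) z h' →
          ∃ u : (A.presheaf.stalk z)ˣ,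
            θ * algebraMap (A.presheaf.stalk z) A.functionField h ^ (c * N ^ 2) =
              algebraMap (A.presheaf.stalk z) A.functionField (u : A.presheaf.stalk z) *
                algebraMap (A.presheaf.stalk z) A.functionField h' ^ c

section Local

variable {X : Scheme.{u}} [IsIntegral X] [IsLocallyNoetherian X]

/-- `ord_z` of a unit of `O_{X,z}` is `0`. -/
theorem s26eint_ord_unit (z : X) (hz : Order.coheight z = 1) (u : (X.presheaf.stalk z)ˣ) :
    Scheme.ord (algebraMap (X.presheaf.stalk z) X.functionField (u : X.presheaf.stalk z)) z =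
      0 := by
  have hne : algebraMap (X.presheaf.stalk z) X.functionField (u : X.presheaf.stalk z) ≠ 0 := by
    intro h0
    exact u.ne_zero ((IsFractionRing.injective (X.presheaf.stalk z) X.functionField)
      (h0.trans (map_zero _).symm))
  rw [Scheme.ord_eq_iff hz hne]
  have : Ring.KrullDimLE 1 (X.presheaf.stalk z) := krullDimLE_of_coheight_le hz.le
  change Ring.ordFrac (X.presheaf.stalk z) _ = _
  rw [Ring.ordFrac_of_isUnit u.isUnit]
  rfl

/-- prime divisors do not specialise to each other. -/
theorem s26eint_eq_of_specializes {z z' : X} (hz : Order.coheight z = 1)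
    (hz' : Order.coheight z' = 1) (h : z' ⤳ z) : z' = z := by
  have hle : z ≤ z' := Scheme.le_iff_specializes.mpr h
  by_cases h1 : z' ≤ z
  · have h2 : z ⤳ z' := Scheme.le_iff_specializes.mp h1
    exact (Inseparable.eq (inseparable_iff_specializes_and.mpr ⟨h, h2⟩))
  · exfalso
    have h2 := Order.coheight_add_one_le (lt_of_le_not_ge hle h1)
    rw [hz, hz'] at h2
    exact absurd h2 (by decide)

/-- the order of a power. -/
theorem s26eint_ord_pow {θ : X.functionField} (hθ : θ ≠ 0) (m : ℕ) (z : X) :
    Scheme.ord (θ ^ m) z = (m : ℤ) * Scheme.ord θ z := by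
  induction m with
  | zero =>
    have h : Scheme.ord (1 : X.functionField) z = 0 := by
      by_cases hz : Order.coheight z = 1
      · have := s26eint_ord_unit z hz 1
        simpa using this
      · exact Scheme.ord_eq_zero_of_coheight_neq_one hz _
    simp [h]
  | succ m ih =>
    rw [pow_succ, Scheme.ord_mul (pow_ne_zero m hθ) hθ, ih]
    push_cast
    ring

open scoped Classical in
/-- `ord_z h = [z ∉ U]` for a local equation at `z`. -/
theorem s26eint_ord_locEq (U : X.Opens) (z : X) (hz : Order.coheight z = 1)
    (h : X.presheaf.stalk z) (hh : S26emIsLocEq U z h) :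
    Scheme.ord (algebraMap (X.presheaf.stalk z) X.functionField h) z =
      if z ∈ U then 0 else 1 :=
  hh.2 z hz specializes_rfl

open scoped Classical in
/-- at a prime divisor with DVR stalk a local equation exists. -/
theorem s26eint_exists_locEq (U : X.Opens) (z : X) (hz : Order.coheight z = 1)
    [IsDiscreteValuationRing (X.presheaf.stalk z)] :
    ∃ h : X.presheaf.stalk z, S26emIsLocEq U z h := by
  by_cases hU : z ∈ U
  · refine ⟨1, one_ne_zero, fun z' hz' hs => ?_⟩
    have e := s26eint_eq_of_specializes hz hz' hs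
    subst e
    rw [if_pos hU]
    have := s26eint_ord_unit z' hz' 1
    simpa using this
  · obtain ⟨ϖ, hϖ⟩ := IsDiscreteValuationRing.exists_irreducible (X.presheaf.stalk z)
    refine ⟨ϖ, hϖ.ne_zero, fun z' hz' hs => ?_⟩
    have e := s26eint_eq_of_specializes hz hz' hs
    subst e
    rw [if_neg hU]
    have hne : algebraMap (X.presheaf.stalk z') X.functionField ϖ ≠ 0 := by
      intro h0
      exact hϖ.ne_zero ((IsFractionRing.injective (X.presheaf.stalk z') X.functionField)
        (h0.trans (map_zero _).symm))
    rw [Scheme.ord_eq_iff hz' hne]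
    change Ring.ordFrac (X.presheaf.stalk z') _ = _
    rw [Ring.ordFrac_irreducible hϖ]
    rfl

end Local

open scoped Classical in
/-- **E-INT**: the target shape of E-ASM gives the captain's `s26_StmtCube`. -/
theorem s26eint_cube (hA2 : s26_StmtA2.{u}) (hRel : s26_StmtCubeRel.{u}) : s26_StmtCube.{u} := by
  intro K _ A f G g H _ _ U hU N hN
  obtain ⟨_, -, -, hdvr⟩ := hA2 K f G g H
  obtain ⟨c, θ, hc, hθ, hrel⟩ := hRel K f G g H U hU N hN
  refine ⟨c, θ, hc, hθ, fun z hz => ?_⟩
  have := hdvr z hz
  obtain ⟨h, hh⟩ := s26eint_exists_locEq U z hz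
  obtain ⟨h', hh'⟩ := s26eint_exists_locEq ((G.schemeNsmul N) ⁻¹ᵁ U) z hz
  obtain ⟨u, hu⟩ := hrel z hz h h' hh hh'
  have hne : algebraMap (A.presheaf.stalk z) A.functionField h ≠ 0 := by
    intro h0
    exact hh.1 ((IsFractionRing.injective (A.presheaf.stalk z) A.functionField)
      (h0.trans (map_zero _).symm))
  have hne' : algebraMap (A.presheaf.stalk z) A.functionField h' ≠ 0 := by
    intro h0
    exact hh'.1 ((IsFractionRing.injective (A.presheaf.stalk z) A.functionField)
      (h0.trans (map_zero _).symm))
  have hneu : algebraMap (A.presheaf.stalk z) A.functionField (u : A.presheaf.stalk z) ≠ 0 := by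
    intro h0
    exact u.ne_zero ((IsFractionRing.injective (A.presheaf.stalk z) A.functionField)
      (h0.trans (map_zero _).symm))
  have e : Scheme.ord (θ * algebraMap (A.presheaf.stalk z) A.functionField h ^ (c * N ^ 2)) z =
      Scheme.ord (algebraMap (A.presheaf.stalk z) A.functionField (u : A.presheaf.stalk z) *
        algebraMap (A.presheaf.stalk z) A.functionField h' ^ c) z := by rw [hu]
  rw [Scheme.ord_mul hθ (pow_ne_zero _ hne), Scheme.ord_mul hneu (pow_ne_zero _ hne'),
    s26eint_ord_pow hne, s26eint_ord_pow hne', s26eint_ord_unit z hz u,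
    s26eint_ord_locEq U z hz h hh, s26eint_ord_locEq _ z hz h' hh'] at e
  show Scheme.ord θ z = _
  push_cast at e ⊢
  linear_combination e

end Fermat.Agent.S26
end
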