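import Fermat.Agent.S26.F3Geo
import Fermat.Agent.S26.A5Deg

/-!
# S26, piece F3 (part 5): `s26_StmtCover`

* `s26f3_point_over`  : the primes of `Γ(ψ⁻¹W)` over the prime of `w` are the points over `w`;
* `s26f3_trace_stalk` : if `x ∈ O_{A,z}` for every `z` over `w` (`O_{A,w}` a DVR), then the `y`
                        with `φ y = Tr_{K(A)/φK(A)} x` lies in `O_{A,w}`;
* `s26f3_c2_set`      : **(c2)** on `s26Lset`: `x ∈ L(ψ⁻¹U, m)`, `φ y = Tr x` ⇒ `y ∈ L(U, m)`;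
* `s26f3_b3`          : **(b3)**: every `x ∈ K(A)` lies in the `φ K(A)`-span of some `L(ψ⁻¹U, c)`;
* `s26f3_cover_gen`   : (b1) ∧ (b3) ∧ (c2) for a finite étale dominant `ψ`;
* **`s26f3_cover : s26_StmtA2 → s26a5_StmtEtale → s26_StmtCover`**.
-/

set_option autoImplicit false
set_option linter.style.haveILetI false
set_option linter.unusedSectionVars false
set_option linter.overlappingInstances false

noncomputable section

namespace Fermat.Agent.S26

open AlgebraicGeometry CategoryTheory CategoryTheory.Limits TopologicalSpace IsLocalRing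
  NeronModelInfra GoodReductionJacobian

universe u

variable {K : Type u} [Field K] {A : Scheme.{u}} (f : A ⟶ Spec (CommRingCat.of K))
  [IsIntegral A]

/-- The primes of `Γ(ψ⁻¹W)` over the prime of `w ∈ W` are the points of `ψ⁻¹W` over `w`. -/
theorem s26f3_point_over (ψ : A ⟶ A) {W : A.Opens} (hW : IsAffineOpen W)
    (hV : IsAffineOpen (ψ ⁻¹ᵁ W)) (w : A) (hw : w ∈ W) (q : Ideal Γ(A, ψ ⁻¹ᵁ W))
    (hq : q.IsPrime)
    (hqw : q.comap (ψ.app W).hom = (hW.primeIdealOf ⟨w, hw⟩).asIdeal) :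
    ∃ (z : A) (hz : z ∈ ψ ⁻¹ᵁ W), ψ z = w ∧ (hV.primeIdealOf ⟨z, hz⟩).asIdeal = q := by
  let Q : ↥(Spec Γ(A, ψ ⁻¹ᵁ W)) := (⟨q, hq⟩ : PrimeSpectrum Γ(A, ψ ⁻¹ᵁ W))
  let z' : (ψ ⁻¹ᵁ W : A.Opens) := hV.isoSpec.inv Q
  have h1 : hV.primeIdealOf ⟨z'.1, z'.2⟩ = Q := by
    change hV.isoSpec.hom (hV.isoSpec.inv Q) = Q
    have := Scheme.Hom.comp_apply hV.isoSpec.inv hV.isoSpec.hom Q
    rw [← this, Iso.inv_hom_id]
    rfl
  refine ⟨z'.1, z'.2, ?_, ?_⟩
  · have h2 := IsAffineOpen.comap_primeIdealOf_appLE (f := ψ) W hW (ψ ⁻¹ᵁ W) hV le_rfl z'.2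
    have h3 : hW.primeIdealOf ⟨ψ z'.1, z'.2⟩ = hW.primeIdealOf ⟨w, hw⟩ := by
      rw [← h2, h1]
      apply PrimeSpectrum.ext
      rw [← hqw, Scheme.Hom.app_eq_appLE]
      rfl
    have h4 := hW.fromSpec_primeIdealOf ⟨ψ z'.1, z'.2⟩
    rw [h3, hW.fromSpec_primeIdealOf] at h4
    exact h4.symm
  · rw [h1]

variable [IsLocallyNoetherian A]

/-- **(c2), local form.** -/
theorem s26f3_trace_stalk (ψ : A ⟶ A) [IsFinite ψ] [IsDominant ψ]
    (φ : s26F f →ₐ[K] s26F f) (hφ : s26IsPull f ψ φ)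
    (w : A) [IsDiscreteValuationRing (A.presheaf.stalk w)] (x : s26F f)
    (hx : ∀ z : A, ψ z = w →
      x ∈ Set.range (algebraMap (A.presheaf.stalk z) A.functionField))
    (y : s26F f)
    (hy : ((Algebra.trace φ.fieldRange (s26F f) x : φ.fieldRange) : s26F f) = φ y) :
    y ∈ Set.range (algebraMap (A.presheaf.stalk w) A.functionField) := by
  obtain ⟨W, hW, hwW⟩ : ∃ W : A.Opens, IsAffineOpen W ∧ w ∈ W := by
    obtain ⟨_, ⟨W, hW, rfl⟩, hxW, -⟩ :=
      A.isBasis_affineOpens.exists_subset_of_mem_open (Set.mem_univ w) isOpen_univ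
    exact ⟨W, hW, hxW⟩
  haveI : Nonempty W := ⟨⟨w, hwW⟩⟩
  haveI : Nonempty (ψ ⁻¹ᵁ W) := s26f1_nonempty_preimage ψ W
  have hV : IsAffineOpen (ψ ⁻¹ᵁ W) := IsAffineHom.isAffine_preimage W hW
  have hc := s26f3_chart f ψ φ hφ hW
  have key := s26f3_phi_trace hc (hW.primeIdealOf ⟨w, hwW⟩).asIdeal
    (fun y hy => s26f3_stalk_intClosed hW w hwW y hy) x
    (by
      intro q hq hqw
      obtain ⟨z, hz, hψz, hzq⟩ := s26f3_point_over ψ hW hV w hwW q hq hqw
      obtain ⟨s, t, ht, hst⟩ := (s26f3_mem_stalk_iff hV z hz x).mp (hx z hψz)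
      exact ⟨s, t, hzq ▸ ht, hst⟩) y hy
  exact (s26f3_mem_stalk_iff hW w hwW y).mpr key

/-- the order of `1`. -/
theorem s26f3_ord_one (z : A) : s26ord f (1 : s26F f) z = 0 := by
  have := s26f2_ord_algebraMap f (one_ne_zero (α := K)) z
  rwa [map_one] at this

/-- the order of a power. -/
theorem s26f3_ord_pow {t : s26F f} (ht : t ≠ 0) (n : ℕ) (z : A) :
    s26ord f (t ^ n) z = n * s26ord f t z := by
  induction n with
  | zero => simp [s26f3_ord_one]
  | succ n ih =>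
    rw [pow_succ, s26f2_ord_mul f (pow_ne_zero n ht) ht, ih]
    push_cast
    ring

/-- a uniformiser, in the captain's interface. -/
theorem s26f3_exists_ord_one' (w : A) [IsDiscreteValuationRing (A.presheaf.stalk w)] :
    ∃ t : s26F f, t ≠ 0 ∧ s26ord f t w = 1 :=
  s26f3_exists_ord_one (X := A) w

/-- `0 ≤ ord ↔ ∈ O`, in the captain's interface. -/
theorem s26f3_ord_nonneg_iff' (z : A) [IsDiscreteValuationRing (A.presheaf.stalk z)]
    {x : s26F f} (hx : x ≠ 0) :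
    0 ≤ s26ord f x z ↔ x ∈ Set.range (algebraMap (A.presheaf.stalk z) A.functionField) :=
  s26f3_ord_nonneg_iff (X := A) z hx

/-- **(c2)** on the level of `s26Lset`. -/
theorem s26f3_c2_set
    (hdvr : ∀ z : A, Order.coheight z = 1 → IsDiscreteValuationRing (A.presheaf.stalk z))
    (ψ : A ⟶ A) [IsFinite ψ] [IsDominant ψ] [Flat ψ] [FormallyUnramified ψ]
    (φ : s26F f →ₐ[K] s26F f) (hφ : s26IsPull f ψ φ) (U : A.Opens) (m : ℕ) (x : s26F f)
    (hx : x ∈ s26Lset f (ψ ⁻¹ᵁ U) m) (y : s26F f)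
    (hy : ((Algebra.trace φ.fieldRange (s26F f) x : φ.fieldRange) : s26F f) = φ y) :
    y ∈ s26Lset f U m := by
  intro w hw1
  haveI hdw := hdvr w hw1
  -- the points over `w` are prime divisors
  have hover : ∀ z : A, ψ z = w → Order.coheight z = 1 := by
    intro z hz
    subst hz
    haveI := s26f3_stalk_dvr_up ψ z
    exact s26f1_coheight_of_dvr z
  have key : ∀ m' : ℕ, (∀ z, ψ z = w → -(m' : ℤ) ≤ s26ord f x z) →
      -(m' : ℤ) ≤ s26ord f y w := by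
    intro m' hm'
    rcases eq_or_ne y 0 with rfl | hy0
    · rw [s26f2_ord_zero]
      omega
    have hx0 : x ≠ 0 := by
      rintro rfl
      rw [map_zero] at hy
      exact hy0 ((map_eq_zero_iff φ φ.injective).mp hy.symm)
    obtain ⟨t, ht0', ht1⟩ := s26f3_exists_ord_one' f w
    have hφt : φ (t ^ m') ≠ 0 := (map_ne_zero_iff φ φ.injective).mpr (pow_ne_zero _ ht0')
    have hy' : ((Algebra.trace φ.fieldRange (s26F f) (φ (t ^ m') * x) : φ.fieldRange) :
        s26F f) = φ (t ^ m' * y) := by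
      have e : φ (t ^ m') * x = (⟨φ (t ^ m'), ⟨t ^ m', rfl⟩⟩ : φ.fieldRange) • x := rfl
      rw [e, map_smul, smul_eq_mul, map_mul, ← hy]
      rfl
    have hmem := s26f3_trace_stalk f ψ φ hφ w (φ (t ^ m') * x)
      (by
        intro z hz
        have hz1 := hover z hz
        haveI := hdvr z hz1
        obtain ⟨-, ho⟩ := s26f1_ord_isPull f ψ φ hφ z
        refine (s26f3_ord_nonneg_iff' f z (mul_ne_zero hφt hx0)).mp ?_
        have h1 : s26ord f (φ (t ^ m') * x) z = m' + s26ord f x z := by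
          rw [s26f2_ord_mul f hφt hx0, ho, hz, s26f3_ord_pow f ht0', ht1, mul_one]
        have h2 := hm' z hz
        omega) (t ^ m' * y) hy'
    have h3 : 0 ≤ s26ord f (t ^ m' * y) w :=
      (s26f3_ord_nonneg_iff' f w (mul_ne_zero (pow_ne_zero _ ht0') hy0)).mpr hmem
    rw [s26f2_ord_mul f (pow_ne_zero _ ht0') hy0, s26f3_ord_pow f ht0', ht1, mul_one] at h3
    omega
  refine ⟨fun hwU => ?_, key m (fun z hz => (hx z (hover z hz)).2)⟩
  have := key 0 (fun z hz => by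
    have hzU : z ∈ ψ ⁻¹ᵁ U := by
      change ψ z ∈ U
      rw [hz]
      exact hwU
    have := (hx z (hover z hz)).1 hzU
    simpa using this)
  simpa using this

/-- **(b3)**. -/
theorem s26f3_b3 [IsNoetherian A] (ψ : A ⟶ A) [IsFinite ψ] [IsDominant ψ]
    (φ : s26F f →ₐ[K] s26F f) (hφ : s26IsPull f ψ φ) (U : A.Opens) (hU : IsAffineOpen U)
    [Nonempty U] (x : s26F f) :
    ∃ c, x ∈ Submodule.span φ.fieldRange
      ((s26L f (ψ ⁻¹ᵁ U) c : Submodule K (s26F f)) : Set (s26F f)) := by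
  haveI : Nonempty (ψ ⁻¹ᵁ U) := s26f1_nonempty_preimage ψ U
  have hc := s26f3_chart f ψ φ hφ hU
  have hspan := s26f3_phi_span hc x
  refine Submodule.span_induction
    (p := fun x _ => ∃ c, x ∈ Submodule.span φ.fieldRange
      ((s26L f (ψ ⁻¹ᵁ U) c : Submodule K (s26F f)) : Set (s26F f))) ?_ ?_ ?_ ?_ hspan
  · rintro _ ⟨s, rfl⟩
    obtain ⟨c, hc⟩ := s26f3_germ_mem_Lset f (ψ ⁻¹ᵁ U) s
    exact ⟨c, Submodule.subset_span (Submodule.subset_span hc)⟩
  · exact ⟨0, Submodule.zero_mem _⟩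
  · rintro a b - - ⟨c₁, h₁⟩ ⟨c₂, h₂⟩
    refine ⟨max c₁ c₂, Submodule.add_mem _ ?_ ?_⟩
    · exact Submodule.span_mono (fun v hv => s26f2_L_mono f _ (le_max_left c₁ c₂) hv) h₁
    · exact Submodule.span_mono (fun v hv => s26f2_L_mono f _ (le_max_right c₁ c₂) hv) h₂
  · rintro a b - ⟨c, h⟩
    exact ⟨c, Submodule.smul_mem _ a h⟩

/-- **F3, generic form**: (b1) ∧ (b3) ∧ (c2) for a finite, flat, unramified, dominant `ψ`. -/
theorem s26f3_cover_gen [IsNoetherian A]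
    (hdvr : ∀ z : A, Order.coheight z = 1 → IsDiscreteValuationRing (A.presheaf.stalk z))
    (ψ : A ⟶ A) [IsFinite ψ] [IsDominant ψ] [Flat ψ] [FormallyUnramified ψ]
    (φ : s26F f →ₐ[K] s26F f) (hφ : s26IsPull f ψ φ) (U : A.Opens) (hU : IsAffineOpen U)
    [Nonempty U] :
    (∀ m, ∀ x ∈ s26L f U m, φ x ∈ s26L f (ψ ⁻¹ᵁ U) m) ∧
    (∀ x : s26F f, ∃ c, x ∈ Submodule.span φ.fieldRange
      ((s26L f (ψ ⁻¹ᵁ U) c : Submodule K (s26F f)) : Set (s26F f))) ∧
    (∀ m, ∀ x ∈ s26L f (ψ ⁻¹ᵁ U) m, ∃ y ∈ s26L f U m,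
      ((Algebra.trace φ.fieldRange (s26F f) x : φ.fieldRange) : s26F f) = φ y) := by
  refine ⟨?_, fun x => s26f3_b3 f ψ φ hφ U hU x, ?_⟩
  · intro m x hx
    rw [s26f2_mem_L_iff f hdvr] at hx ⊢
    exact s26f1_b1_set f ψ φ hφ hdvr U m x hx
  · intro m x hx
    obtain ⟨y, hy⟩ := s26f3_phi_trace_exists φ x
    refine ⟨y, ?_, hy⟩
    rw [s26f2_mem_L_iff f hdvr] at hx ⊢
    exact s26f3_c2_set f hdvr ψ φ hφ U m x hx y hy

/-- **F3** (`s26_StmtCover`) from A2 (`s26_StmtA2`) and A4 (`s26a5_StmtEtale`). -/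
theorem s26f3_cover (hA2 : s26_StmtA2.{u}) (hA4 : s26a5_StmtEtale.{u}) :
    s26_StmtCover.{u} := by
  intro K _ A f G g hyp _ _ U hU N hN φ hφ
  obtain ⟨_, hnoeth, -, hdvr⟩ := hA2 K f G g hyp
  haveI : IsNoetherian A := hnoeth
  haveI : Etale (G.schemeNsmul N) := hA4 K f G g hyp N hN
  haveI : IsProper f := hyp.bundle.proper
  haveI : IsFinite (G.schemeNsmul N) := s26a5_isFinite f _ (G.schemeNsmul_over N)
  haveI : Surjective (G.schemeNsmul N) := s26a5_surj_of_integral _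
  haveI : IsDominant (G.schemeNsmul N) := inferInstance
  haveI : Flat (G.schemeNsmul N) := inferInstance
  haveI : FormallyUnramified (G.schemeNsmul N) := inferInstance
  haveI : Nonempty U := ⟨⟨s26zero f G, hU.2.1⟩⟩
  exact s26f3_cover_gen f hdvr (G.schemeNsmul N) φ hφ U hU.1

end Fermat.Agent.S26
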