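/-
S26 — REDUCTION of the captain (helper77): the frozen statement `s26_Stmt` from the six open
geometric Props of `PlanGeo.lean`
  A2 (the scheme), Adm (admissible opens), Deg (degree of `[N]`), Cover (finite étale covers and
  `L`), Growth (growth of `dim L(mD)`), Cube (theorem of the cube),
using the landed pieces CORE (`s26c_stmtCore`, helper25), F1 (`stmtPullComp`, helper19) and the
glue `s26g_geom`.
-/
import Fermat.Agent.S26.Geom
import Fermat.Agent.S26.F1
import Fermat.Agent.S26.CFinal

set_option autoImplicit false
namespace Fermat.Agent.S26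
universe u

/-- **S26 from the six open pieces.** -/
theorem s26_of_pieces (hA2 : s26_StmtA2.{u}) (hAdm : s26_StmtAdm.{u}) (hDeg : s26_StmtDeg.{u})
    (hCov : s26_StmtCover.{u}) (hGr : s26_StmtGrowth.{u}) (hCube : s26_StmtCube.{u}) :
    s26_Stmt.{u} :=
  s26_of s26c_stmtCore (s26g_geom hA2 hAdm hDeg stmtPullComp hCov hGr hCube)

end Fermat.Agent.S26
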