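/-
S26 — REDUCTION, second stage (captain helper77): the frozen statement `s26_Stmt` from the THREE
Props that are still open,
  * `s26_StmtCover`   (F3: finite étale covers and `L`, helper20),
  * `s26g1lo_StmtUp`  (G1-up + (fin): `dim L(U,m) ≤ c₂ m^g`, helper63 / helper68),
  * `s26_StmtCube`    (E: the theorem of the cube, sub-captain helper73).
Landed inputs: A2 + Adm (`s26a2_stmtA2`, `s26a2_stmtAdm`, helper39 / helper91), Deg (`s26a4_stmtDeg`,
helper33 / helper51), G1-lo (`s26g1lo_growth`, helper87), CORE (helper25), F1 (helper19), glue.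
-/
import Fermat.Agent.S26.Reduce
import Fermat.Agent.S26.A2Final
import Fermat.Agent.S26.A4Stmt
import Fermat.Agent.S26.G1LoInst

set_option autoImplicit false
namespace Fermat.Agent.S26
universe u

/-- **S26 from the three open pieces.** -/
theorem s26_of_three (hCov : s26_StmtCover.{u}) (hUp : s26g1lo_StmtUp.{u})
    (hCube : s26_StmtCube.{u}) : s26_Stmt.{u} :=
  s26_of_pieces s26a2_stmtA2 s26a2_stmtAdm s26a4_stmtDeg hCov (s26g1lo_growth hUp) hCube

end Fermat.Agent.S26
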