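/-
S26 — REDUCTION, third stage (captain helper77): the frozen statement `s26_Stmt` from the TWO
Props that are still open,
  * `s26g1lo_StmtUp`  (G1-up + (fin): `dim L(U,m) ≤ c₂ m^g`, helper63 / helper68),
  * `s26_StmtCube`    (E: the theorem of the cube, sub-captain helper73).
New landed input: Cover (`s26f3_cover`, helper20).
-/
import Fermat.Agent.S26.Reduce2
import Fermat.Agent.S26.F3Cover

set_option autoImplicit false
namespace Fermat.Agent.S26
universe u

/-- **F3** closed: `s26_StmtCover`. -/
theorem s26_stmtCover : s26_StmtCover.{u} := s26f3_cover s26a2_stmtA2 s26a4_stmtEtale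

/-- **S26 from the two open pieces.** -/
theorem s26_of_two (hUp : s26g1lo_StmtUp.{u}) (hCube : s26_StmtCube.{u}) : s26_Stmt.{u} :=
  s26_of_three s26_stmtCover hUp hCube

end Fermat.Agent.S26
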