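/-
S26 — REDUCTION, fourth stage (captain helper77): the frozen statement from
  * `s26g1u_StmtUp` (G1-up in helper63's shape, S26/G1UpPlan.lean: every nonempty affine open),
  * `s26_StmtCube`  (E: the theorem of the cube).
-/
import Fermat.Agent.S26.Reduce3
import Fermat.Agent.S26.G1UpPlan

set_option autoImplicit false
namespace Fermat.Agent.S26
universe u

/-- helper63's shape of G1-up implies helper87's. -/
theorem s26_up_of_up (h : s26g1u_StmtUp.{u}) : s26g1lo_StmtUp.{u} := by
  intro K _ A f G g H _ _ U hU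
  obtain ⟨hfin, hup⟩ := h K f G g H
  exact ⟨hfin, hup U ⟨⟨s26zero f G, hU.2.1⟩⟩ hU.1⟩

/-- **S26 from G1-up and the cube.** -/
theorem s26_of_up_cube (hUp : s26g1u_StmtUp.{u}) (hCube : s26_StmtCube.{u}) : s26_Stmt.{u} :=
  s26_of_two (s26_up_of_up hUp) hCube

end Fermat.Agent.S26
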