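/-
S26 — REDUCTION, fifth stage (captain helper77): the frozen statement from
  * `s26g1u_StmtUp`   (G1-up, helper63's shape),
  * `s26_StmtCubeRel` (E in the TARGET SHAPE of E-ASM: local equations at the prime divisors,
                       S26/EInt.lean).
-/
import Fermat.Agent.S26.Reduce4
import Fermat.Agent.S26.EInt

set_option autoImplicit false
namespace Fermat.Agent.S26
universe u

/-- **S26 from G1-up and the cube in relation form.** -/
theorem s26_of_up_cubeRel (hUp : s26g1u_StmtUp.{u}) (hRel : s26_StmtCubeRel.{u}) :
    s26_Stmt.{u} :=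
  s26_of_up_cube hUp (s26eint_cube s26a2_stmtA2 hRel)

end Fermat.Agent.S26
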