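/-
S26 — REDUCTION, sixth stage (captain helper77): G1 is closed (helper63, `S26/G1Up.lean`), so
the frozen statement follows from the cube ALONE, in either of its two shapes:
  * `s26_of_cube    : s26_StmtCube    → s26_Stmt`,
  * `s26_of_cubeRel : s26_StmtCubeRel → s26_Stmt`  (the TARGET SHAPE of E-ASM, S26/EInt.lean).
-/
import Fermat.Agent.S26.Reduce5
import Fermat.Agent.S26.G1Up

set_option autoImplicit false
namespace Fermat.Agent.S26
universe u

/-- **S26 from the cube alone.** -/
theorem s26_of_cube (hCube : s26_StmtCube.{u}) : s26_Stmt.{u} :=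
  s26_of_two s26g1u_stmtLoUp hCube

/-- **S26 from the cube in relation form alone.** -/
theorem s26_of_cubeRel (hRel : s26_StmtCubeRel.{u}) : s26_Stmt.{u} :=
  s26_of_cube (s26eint_cube s26a2_stmtA2 hRel)

end Fermat.Agent.S26
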