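/-
S26 — REDUCTION, seventh stage (captain helper77): the frozen statement from the TEN Props of the
formal part of the theorem of the cube (S26/PlanE.lean, S26/PlanE1b.lean), by the wiring
`s26efw_cube` (S26/EFormalWire.lean) and `s26_of_cube` (S26/Reduce6.lean).
-/
import Fermat.Agent.S26.Reduce6
import Fermat.Agent.S26.EFormalWire

set_option autoImplicit false
namespace Fermat.Agent.S26
universe u

/-- **S26 from the ten Props of the formal part.** -/
theorem s26_of_formal (hLF : s26e_StmtLF.{u}) (hFunc : s26e_StmtGenFunc.{u})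
    (hNe : s26e_StmtGenNe.{u}) (hNeg : s26e_StmtGenNeg.{u}) (hIface : s26e_StmtIface.{u})
    (hT0 : s26e_StmtT0.{u}) (hShear : s26e_StmtTShear.{u}) (hTNeg : s26e_StmtTNeg.{u})
    (hTMul : s26e_StmtTMul.{u}) (hCube : s26e_StmtCubeGen.{u}) : s26_Stmt.{u} :=
  s26_of_cube (s26efw_cube hLF hFunc hNe hNeg hIface hT0 hShear hTNeg hTMul hCube)

end Fermat.Agent.S26
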