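/-
S26 — REDUCTION, eighth stage (captain helper77): eight of the ten Props of the formal part are
PROVED (LF helper8, G-func / G-ne / G-neg / INTERFACE helper5, T0 helper19, T-neg helper8,
T-mul helper63), so the frozen statement follows from
  * `s26e_StmtTShear`   (the shear of independent generic triples) and
  * `s26e_StmtCubeGen`  (the theorem of the cube for independent generic triples).
-/
import Fermat.Agent.S26.Reduce7
import Fermat.Agent.S26.ELFStmt
import Fermat.Agent.S26.EMStmt
import Fermat.Agent.S26.EMStmtFunc
import Fermat.Agent.S26.EMStmtNeg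
import Fermat.Agent.S26.EMIfaceStmt
import Fermat.Agent.S26.EG3T0
import Fermat.Agent.S26.ETNegStmt
import Fermat.Agent.S26.ETMulStmt

set_option autoImplicit false
namespace Fermat.Agent.S26
universe u

/-- **the theorem of the cube (captain's form) from (T-shear) and (CUBE_gen).** -/
theorem s26_cube_of_shear_cubeGen (hShear : s26e_StmtTShear.{u})
    (hCube : s26e_StmtCubeGen.{u}) : s26_StmtCube.{u} :=
  s26efw_cube s26e_stmtLF s26em_stmtGenFunc s26em_stmtGenNe s26em_stmtGenNeg s26em_stmtIface
    s26eg3_stmtT0 hShear s26etn_stmtTNeg s26etm_stmt hCube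

/-- **S26 from (T-shear) and (CUBE_gen).** -/
theorem s26_of_shear_cubeGen (hShear : s26e_StmtTShear.{u}) (hCube : s26e_StmtCubeGen.{u}) :
    s26_Stmt.{u} :=
  s26_of_cube (s26_cube_of_shear_cubeGen hShear hCube)

end Fermat.Agent.S26
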