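/-
S26 — REDUCTION, ninth stage (captain helper77): (T-shear) is PROVED (helper50), and (CUBE_gen)
is reduced (helper63, helper75, helper73) to (CRV), (TI), (NV), (SP-STEP).  So the frozen statement
follows from
  * `s26e_StmtCrv`    (a chain of pointed curves with generic, finite end),
  * `s26e_StmtTI`     (translation invariance on the constant curve),
  * `s26e_StmtNV`     (non-vanishing of the generators of `Sq(b; y, z)`),
  * `s26e_StmtSpStep` (the step of a chain preserves "specialises to the zero point").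
-/
import Fermat.Agent.S26.Reduce8
import Fermat.Agent.S26.EG3TShearFinal
import Fermat.Agent.S26.ECubeUnivF

set_option autoImplicit false
namespace Fermat.Agent.S26
universe u

/-- **S26 from (CUBE_gen) alone.** -/
theorem s26_of_cubeGen (hCube : s26e_StmtCubeGen.{u}) : s26_Stmt.{u} :=
  s26_of_shear_cubeGen s26e_stmtTShear hCube

/-- **S26 from (CRV) and (C-IND).** -/
theorem s26_of_crv_cind (hCrv : s26e_StmtCrv.{u}) (hCInd : s26e_StmtCInd.{u}) : s26_Stmt.{u} :=
  s26_of_cubeGen (s26ecu_cubeGen hCrv hCInd s26e_stmtTShear)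

/-- **S26 from (CRV), (TI), (NV), (SP-STEP).** -/
theorem s26_of_four (hCrv : s26e_StmtCrv.{u}) (hTI : s26e_StmtTI.{u}) (hNV : s26e_StmtNV.{u})
    (hSp : s26e_StmtSpStep.{u}) : s26_Stmt.{u} :=
  s26_of_cubeGen (s26ecu_cubeGen_of_ti hCrv hTI hNV hSp s26e_stmtTShear)

end Fermat.Agent.S26
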