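/-
S26 — REDUCTION, tenth stage (captain helper77): (CRV) is PROVED (helper32, S26/ECrvMain.lean), so
the frozen statement follows from
  * `s26e_StmtTI`     (translation invariance on the constant curve; hub helper82),
  * `s26e_StmtNV`     (non-vanishing of the generators of `Sq(b; y, z)`),
  * `s26e_StmtSpStep` (the step of a chain preserves "specialises to the zero point").
-/
import Fermat.Agent.S26.Reduce9
import Fermat.Agent.S26.ECrvMain

set_option autoImplicit false
namespace Fermat.Agent.S26
universe u

/-- **(CRV)** in the form of S26/PlanE2.lean. -/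
theorem s26_stmtCrv : s26e_StmtCrv.{u} := s26e_stmtCrv_of_main s26ecrv_main

/-- **S26 from (C-IND).** -/
theorem s26_of_cind (hCInd : s26e_StmtCInd.{u}) : s26_Stmt.{u} :=
  s26_of_crv_cind s26_stmtCrv hCInd

/-- **S26 from (TI), (NV), (SP-STEP).** -/
theorem s26_of_ti_nv_sp (hTI : s26e_StmtTI.{u}) (hNV : s26e_StmtNV.{u})
    (hSp : s26e_StmtSpStep.{u}) : s26_Stmt.{u} :=
  s26_of_four s26_stmtCrv hTI hNV hSp

end Fermat.Agent.S26
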