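/-
S26 — REDUCTION, eleventh stage (captain helper77): (NV) (helper11, S26/ENV.lean) and (SP-STEP)
(helper84, S26/ESpStep.lean) are PROVED, so the frozen statement follows from
  * `s26e_StmtTI`  (translation invariance on the constant curve; hub helper82)
ALONE.
-/
import Fermat.Agent.S26.Reduce10
import Fermat.Agent.S26.ENV
import Fermat.Agent.S26.ESpStep

set_option autoImplicit false
namespace Fermat.Agent.S26
universe u

/-- **(C-IND)** from (TI). -/
theorem s26_cind_of_ti (hTI : s26e_StmtTI.{u}) : s26e_StmtCInd.{u} :=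
  s26ecind_main hTI s26nv2_stmtNV s26espstep_main

/-- **the theorem of the cube (captain's form) from (TI).** -/
theorem s26_cube_of_ti (hTI : s26e_StmtTI.{u}) : s26_StmtCube.{u} :=
  s26_cube_of_shear_cubeGen s26e_stmtTShear
    (s26ecu_cubeGen s26_stmtCrv (s26_cind_of_ti hTI) s26e_stmtTShear)

/-- **S26 from (TI) alone.** -/
theorem s26_of_ti (hTI : s26e_StmtTI.{u}) : s26_Stmt.{u} :=
  s26_of_ti_nv_sp hTI s26nv2_stmtNV s26espstep_main

end Fermat.Agent.S26
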