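/-
S26 — REDUCTION, twelfth stage (captain helper77): (TI) is reduced (helper21, helper33, helper82:
S26/ETiTopW.lean) to (TI) over `F = Frac (Γ ⊗[K] L)`, `L` algebraically closed, in the concrete
model of S26/ETiPlanC.lean.  So the frozen statement follows from
  * `s26eti_StmtTIFc`   (the (c) + (d) instance over `F`)
ALONE.
-/
import Fermat.Agent.S26.Reduce11
import Fermat.Agent.S26.ETiTopW

set_option autoImplicit false
namespace Fermat.Agent.S26
universe u

/-- **(TI)** from (TI) over `F`. -/
theorem s26_ti_of_tifc (hTIF : s26eti_StmtTIFc.{u}) : s26e_StmtTI.{u} :=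
  s26ettw_ti hTIF s26nv2_stmtNV s26espstep_main

/-- **S26 from (TI) over `F` alone.** -/
theorem s26_of_tifc (hTIF : s26eti_StmtTIFc.{u}) : s26_Stmt.{u} :=
  s26_of_ti (s26_ti_of_tifc hTIF)

end Fermat.Agent.S26
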