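/-
S26-E, helper25: LOCAL EQUATIONS IN CODIMENSION TWO without "regular ⇒ factorial".

`s26e2_prime_principal` : `R` a noetherian local ring, `t ∈ 𝔪` with `R ⧸ (t)` a principal ideal
ring (e.g. a discrete valuation ring: the local ring of a normal Cartier prime divisor `Y = {t = 0}`
at a point of codimension two of `X`).  Then every prime `𝔭 ∌ t` of `R` is principal.
Proof: the image of `𝔭` in `R ⧸ (t)` is `(f̄)`, `f ∈ 𝔭`; `𝔭 = (f) + t 𝔭`; Nakayama.
-/
import Mathlib.RingTheory.Nakayama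
import Mathlib.RingTheory.LocalRing.Basic
import Mathlib.RingTheory.LocalRing.MaximalIdeal.Basic
import Mathlib.RingTheory.PrincipalIdealDomain
import Mathlib.RingTheory.Ideal.Quotient.Operations
import Mathlib.RingTheory.Noetherian.Defs

set_option autoImplicit false

namespace Fermat.Agent.S26

/-- **Nakayama trick**: primes not containing `t` are principal when `R ⧸ (t)` is a PIR. -/
theorem s26e2_prime_principal {R : Type*} [CommRing R] [IsLocalRing R] [IsNoetherianRing R]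
    (t : R) (ht : t ∈ IsLocalRing.maximalIdeal R)
    [IsPrincipalIdealRing (R ⧸ Ideal.span {t})]
    (𝔭 : Ideal R) [h𝔭 : 𝔭.IsPrime] (ht𝔭 : t ∉ 𝔭) :
    ∃ f ∈ 𝔭, 𝔭 = Ideal.span {f} := by
  classical
  set φ := Ideal.Quotient.mk (Ideal.span {t}) with hφ
  have hsurj : Function.Surjective φ := Ideal.Quotient.mk_surjective
  -- a generator of the image
  obtain ⟨fbar, hfbar⟩ := (IsPrincipalIdealRing.principal (Ideal.map φ 𝔭)).principal
  have hfmem : fbar ∈ Ideal.map φ 𝔭 := by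
    rw [hfbar]
    exact Submodule.mem_span_singleton_self fbar
  obtain ⟨f, hf𝔭, hf⟩ := (Ideal.mem_map_iff_of_surjective φ hsurj).1 hfmem
  refine ⟨f, hf𝔭, le_antisymm ?_ ((Ideal.span_singleton_le_iff_mem _).2 hf𝔭)⟩
  -- `𝔭 ≤ (f) ⊔ 𝔪 • 𝔭`
  have key : 𝔭 ≤ Ideal.span {f} ⊔ IsLocalRing.maximalIdeal R • 𝔭 := by
    intro x hx
    have hx' : φ x ∈ Ideal.map φ 𝔭 := Ideal.mem_map_of_mem φ hx
    rw [hfbar] at hx'
    obtain ⟨rbar, hr⟩ := Submodule.mem_span_singleton.1 hx'
    obtain ⟨r, rfl⟩ := hsurj rbar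
    have h0 : φ (x - r * f) = 0 := by
      rw [map_sub, map_mul, hf, ← hr, smul_eq_mul, sub_self]
    rw [hφ, Ideal.Quotient.eq_zero_iff_mem, Ideal.mem_span_singleton] at h0
    obtain ⟨y, hy⟩ := h0
    have hy𝔭 : y ∈ 𝔭 := by
      have h1 : t * y ∈ 𝔭 := by
        rw [← hy]
        exact 𝔭.sub_mem hx (𝔭.mul_mem_left r hf𝔭)
      exact (h𝔭.mem_or_mem h1).resolve_left ht𝔭
    have hx2 : x = r * f + t * y := by rw [← hy]; ring
    rw [hx2]
    refine Submodule.add_mem_sup ?_ ?_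
    · exact Ideal.mul_mem_left _ r (Ideal.subset_span rfl)
    · rw [smul_eq_mul]
      exact Ideal.mul_mem_mul ht hy𝔭
  refine Submodule.le_of_le_smul_of_le_jacobson_bot (IsNoetherian.noetherian 𝔭) ?_ key
  exact IsLocalRing.maximalIdeal_le_jacobson ⊥

end Fermat.Agent.S26
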