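/-
S26-E, piece E-CRV ROUTE B (adaptive curves, valuative), pure algebra (helper60).  Mathlib only.

* `s26ecad_eq_zero_of_isAlgebraic` : an element of a prime `𝔮` of a domain `B` that is algebraic
  over a ring `R` with `R ∩ 𝔮 = 0` is `0`.
* `s26ecad_trdeg_quot_lt` : **(L1)** a strict specialisation drops the transcendence degree:
  `𝔮 ≠ ⊥` prime of a `K`-domain `B` of finite transcendence degree ⇒
  `trdeg K (B ⧸ 𝔮) < trdeg K B`.
* `s26ecad_exists_curve` : **(L2)** `B` a domain integral over `K[x₁..x_s]` via `g` (Noether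
  normalisation), `s ≥ 1`, `K` infinite, `o ∈ K^s`, `w ≠ 0`: a prime `𝔭 ∌ w`, a maximal ideal
  `𝔪 ⊇ 𝔭` over `o`, and `φ : K[t] →ₐ B ⧸ 𝔭` injective and integral (a curve through a point of
  the fibre over `o`, not inside `V(w)`).  Lying over + going up only (no going down).
* `s26ecad_fibre_finite` : the fibre over `o` is finite (`g` finite).
* `s26ecad_residue_bijective` : `K ≃ B ⧸ 𝔪` for `𝔪` in the fibre over `o` (`K` alg. closed).
* `s26ecad_finite_of_trdeg_le` : **(L3)** `Ω/K` finitely generated field extension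
  (`Algebra.EssFiniteType`), `K ⊆ F ⊆ Ω`, `trdeg K Ω ≤ trdeg K F` ⇒ `Ω / F` finite.
-/
import Mathlib.RingTheory.AlgebraicIndependent.TranscendenceBasis
import Mathlib.RingTheory.AlgebraicIndependent.Transcendental
import Mathlib.RingTheory.Ideal.GoingUp
import Mathlib.RingTheory.NoetherNormalization
import Mathlib.Algebra.MvPolynomial.Funext
import Mathlib.FieldTheory.FinTrdeg
import Mathlib.FieldTheory.IsAlgClosed.Basic
import Mathlib.RingTheory.QuasiFinite.Basic

set_option autoImplicit false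

namespace Fermat.Agent.S26

open Cardinal Polynomial

universe u v

/-- an element of a prime ideal `𝔮` of a domain that is algebraic over a ring `R` meeting `𝔮`
trivially is zero -/
theorem s26ecad_eq_zero_of_isAlgebraic {R : Type*} [CommRing R] {B : Type*} [CommRing B]
    [IsDomain B] [Algebra R B] (𝔮 : Ideal B) [𝔮.IsPrime]
    (hR : ∀ r : R, algebraMap R B r ∈ 𝔮 → r = 0) {y : B} (hy : y ∈ 𝔮) (halg : IsAlgebraic R y) :
    y = 0 := by
  by_contra hy0
  obtain ⟨P, hP0, hPy⟩ := halg
  -- strong induction on the degree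
  have key : ∀ n : ℕ, ∀ P : R[X], P.natDegree = n → P ≠ 0 → aeval y P = 0 → False := by
    intro n
    induction n using Nat.strong_induction_on with
    | _ n ih =>
    intro P h hP0 hPy
    by_cases hc : P.coeff 0 = 0
    · -- `P = divX P * X`
      have hPX : P = P.divX * X := by
        conv_lhs => rw [← Polynomial.divX_mul_X_add P, hc, map_zero, add_zero]
      have hd0 : P.divX ≠ 0 := by
        intro h0
        apply hP0
        rw [hPX, h0, zero_mul]
      have hdy : aeval y P.divX = 0 := by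
        have h1 : aeval y P = aeval y P.divX * y := by
          conv_lhs => rw [hPX]
          rw [map_mul, aeval_X]
        rw [h1] at hPy
        rcases mul_eq_zero.1 hPy with h2 | h2
        · exact h2
        · exact absurd h2 hy0
      have hdeg : P.divX.natDegree < n := by
        rw [← h, Polynomial.natDegree_divX_eq_natDegree_tsub_one]
        have hpos : 0 < P.natDegree := by
          rw [Nat.pos_iff_ne_zero]
          intro h0
          rw [Polynomial.eq_C_of_natDegree_eq_zero h0, hc, map_zero] at hP0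
          exact hP0 rfl
        omega
      exact ih _ hdeg P.divX rfl hd0 hdy
    · apply hc
      apply hR
      have h1 : aeval y P = aeval y P.divX * y + algebraMap R B (P.coeff 0) := by
        conv_lhs => rw [← Polynomial.divX_mul_X_add P]
        rw [map_add, map_mul, aeval_X, aeval_C]
      rw [h1] at hPy
      have h2 : algebraMap R B (P.coeff 0) = -(aeval y P.divX * y) := by
        rw [eq_neg_iff_add_eq_zero, add_comm]
        exact hPy
      rw [h2]
      exact 𝔮.neg_mem (𝔮.mul_mem_left _ hy)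
  exact key _ P rfl hP0 hPy

/-- **(L1)** a strict specialisation drops the transcendence degree -/
theorem s26ecad_trdeg_quot_lt (K : Type u) [Field K] {B : Type v} [CommRing B] [IsDomain B]
    [Algebra K B] (𝔮 : Ideal B) [𝔮.IsPrime] (h𝔮 : 𝔮 ≠ ⊥) (hfin : Algebra.trdeg K B < ℵ₀) :
    Algebra.trdeg K (B ⧸ 𝔮) < Algebra.trdeg K B := by
  obtain ⟨y, hy, hy0⟩ := Submodule.exists_mem_ne_zero_of_ne_bot h𝔮
  have : Nontrivial (B ⧸ 𝔮) := Ideal.Quotient.nontrivial_iff.2 (Ideal.IsPrime.ne_top ‹_›)
  have : FaithfulSMul K (B ⧸ 𝔮) :=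
    (faithfulSMul_iff_algebraMap_injective K (B ⧸ 𝔮)).2 (algebraMap K (B ⧸ 𝔮)).injective
  obtain ⟨s, hs⟩ := exists_isTranscendenceBasis K (B ⧸ 𝔮)
  have hsurj := Ideal.Quotient.mk_surjective (I := 𝔮)
  let x : s → B := fun i => (hsurj i.1).choose
  have hx : ∀ i, Ideal.Quotient.mk 𝔮 (x i) = i.1 := fun i => (hsurj i.1).choose_spec
  have hcomp : (Ideal.Quotient.mk 𝔮) ∘ x = ((↑) : s → B ⧸ 𝔮) := funext hx
  have hxi : AlgebraicIndependent K x := by
    refine AlgebraicIndependent.of_ringHom_of_comp_eq (S := K) (B := B ⧸ 𝔮) (RingHom.id K)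
      (Ideal.Quotient.mk 𝔮) ?_ Function.injective_id ?_
    · rw [hcomp]
      exact hs.1
    · ext r
      rfl
  have htr : Transcendental (Algebra.adjoin K (Set.range x)) y := by
    intro halg
    apply hy0
    refine s26ecad_eq_zero_of_isAlgebraic 𝔮 ?_ hy halg
    intro r hr
    obtain ⟨p, rfl⟩ := hxi.aevalEquiv.surjective r
    have h1 : ((hxi.aevalEquiv p : Algebra.adjoin K (Set.range x)) : B) = MvPolynomial.aeval x p :=
      hxi.algebraMap_aevalEquiv p
    have h2 : algebraMap (Algebra.adjoin K (Set.range x)) B (hxi.aevalEquiv p) =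
        MvPolynomial.aeval x p := h1
    rw [h2] at hr
    have h3 : MvPolynomial.aeval ((↑) : s → B ⧸ 𝔮) p = 0 := by
      rw [← hcomp]
      have h4 : MvPolynomial.aeval ((Ideal.Quotient.mk 𝔮) ∘ x) p =
          Ideal.Quotient.mk 𝔮 (MvPolynomial.aeval x p) := by
        have := MvPolynomial.comp_aeval_apply (R := K) (f := x) (Ideal.Quotient.mkₐ K 𝔮) p
        rw [Ideal.Quotient.mkₐ_eq_mk] at this
        rw [this]
        rfl
      rw [h4]
      exact Ideal.Quotient.eq_zero_iff_mem.2 hr
    have h5 : p = 0 := by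
      have hinj := (algebraicIndependent_iff_injective_aeval.1 hs.1)
      apply hinj
      rw [h3, map_zero]
    rw [h5, map_zero]
  have hopt := (hxi.option_iff_transcendental y).mpr htr
  have h1 := hopt.cardinalMk_le_trdeg
  have h2 : #s = Algebra.trdeg K (B ⧸ 𝔮) := hs.cardinalMk_eq_trdeg
  rw [mk_option] at h1
  rw [← h2]
  have h3 : #s < ℵ₀ := lt_of_le_of_lt (le_trans le_self_add h1) hfin
  obtain ⟨n, hn⟩ := Cardinal.lt_aleph0.1 h3
  refine lt_of_lt_of_le ?_ h1
  rw [hn]
  exact_mod_cast Nat.lt_succ_self n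


/-- evaluation of the restriction of a polynomial to the line `o + t a` -/
theorem s26ecad_eval_line {K : Type u} [Field K] {s : ℕ} (o a : Fin s → K) (t : K)
    (c : MvPolynomial (Fin s) K) :
    Polynomial.eval t (MvPolynomial.aeval
      (fun i => (Polynomial.C (o i) + Polynomial.C (a i) * Polynomial.X : Polynomial K)) c) =
      MvPolynomial.eval (fun i => o i + a i * t) c := by
  have h := MvPolynomial.comp_aeval_apply (R := K)
    (f := fun i => (Polynomial.C (o i) + Polynomial.C (a i) * Polynomial.X : Polynomial K))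
    (Polynomial.aeval t) c
  rw [Polynomial.coe_aeval_eq_eval] at h
  have key : (fun i => Polynomial.eval t
      (Polynomial.C (o i) + Polynomial.C (a i) * Polynomial.X : Polynomial K)) =
      fun i => o i + a i * t := by
    funext i
    simp
  rw [h, key]
  rfl

/-- **(L2)** existence of a curve: `B` a domain, integral over `K[x₁..x_s]` (`s ≥ 1`, `K`
infinite), `o ∈ K^s`, `w ≠ 0` in `B`.  There are a prime `𝔭` with `w ∉ 𝔭` and a maximal ideal
`𝔪 ⊇ 𝔭` over `o` such that `B ⧸ 𝔭` is integral over a polynomial ring `K[t]` in one variable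
(`φ` injective): `V(𝔭)` is a curve through a point of the fibre over `o`, not inside `V(w)`. -/
theorem s26ecad_exists_curve (K : Type u) [Field K] [Infinite K] {B : Type v} [CommRing B]
    [IsDomain B] [Algebra K B] {s : ℕ} (hs : 0 < s) (g : MvPolynomial (Fin s) K →ₐ[K] B)
    (hinj : Function.Injective g) (hint : g.IsIntegral) (o : Fin s → K) (w : B) (hw : w ≠ 0) :
    ∃ (𝔭 𝔪 : Ideal B), 𝔭.IsPrime ∧ 𝔪.IsMaximal ∧ 𝔭 ≤ 𝔪 ∧ w ∉ 𝔭 ∧
      𝔪.comap (g : MvPolynomial (Fin s) K →+* B) = RingHom.ker (MvPolynomial.eval o) ∧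
      ∃ φ : Polynomial K →ₐ[K] B ⧸ 𝔭, Function.Injective φ ∧ φ.IsIntegral := by
  classical
  -- step 1: a nonzero `c ∈ K[x]` with `g c ∈ (w)`
  obtain ⟨P, hPm, hPw⟩ := hint w
  obtain ⟨i, hci, hcm⟩ := Ideal.exists_coeff_ne_zero_mem_comap_of_root_mem
    (I := Ideal.span {w}) hw (Ideal.subset_span rfl) hPm.ne_zero hPw
  -- step 2: a point where `c` does not vanish
  obtain ⟨x, hx⟩ : ∃ x : Fin s → K, MvPolynomial.eval x (P.coeff i) ≠ 0 := by
    by_contra h
    push Not at h
    exact hci (MvPolynomial.funext (fun x => by rw [h x, map_zero]))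
  obtain ⟨a, ha0, hca⟩ : ∃ a : Fin s → K, a ≠ 0 ∧ MvPolynomial.aeval
      (fun i => (Polynomial.C (o i) + Polynomial.C (a i) * Polynomial.X : Polynomial K))
      (P.coeff i) ≠ 0 := by
    by_cases hxo : x = o
    · refine ⟨fun _ => 1, ?_, ?_⟩
      · intro h
        have := congrFun h ⟨0, hs⟩
        simp at this
      · intro h
        apply hx
        have h1 := s26ecad_eval_line o (fun _ => 1) 0 (P.coeff i)
        rw [h, Polynomial.eval_zero] at h1
        have key : (fun i : Fin s => o i + (fun _ => (1 : K)) i * 0) = o := by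
          funext i
          simp
        rw [key] at h1
        rw [hxo, ← h1]
    · refine ⟨x - o, sub_ne_zero.2 hxo, ?_⟩
      intro h
      apply hx
      have h1 := s26ecad_eval_line o (x - o) 1 (P.coeff i)
      rw [h, Polynomial.eval_zero] at h1
      have key : (fun i : Fin s => o i + (x - o) i * 1) = x := by
        funext i
        simp
      rw [key] at h1
      rw [← h1]
  set lam : MvPolynomial (Fin s) K →ₐ[K] Polynomial K := MvPolynomial.aeval
      (fun i => (Polynomial.C (o i) + Polynomial.C (a i) * Polynomial.X : Polynomial K)) with hlam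
  -- step 3: the line
  have hLprime : (RingHom.ker (lam : MvPolynomial (Fin s) K →+* Polynomial K)).IsPrime :=
    RingHom.ker_isPrime _
  have hLo : RingHom.ker (lam : MvPolynomial (Fin s) K →+* Polynomial K) ≤
      RingHom.ker (MvPolynomial.eval o) := by
    intro r hr
    rw [RingHom.mem_ker] at hr ⊢
    have hr' : lam r = 0 := hr
    have h1 := s26ecad_eval_line o a 0 r
    rw [← hlam, hr', Polynomial.eval_zero] at h1
    have key : (fun i : Fin s => o i + a i * 0) = o := by
      funext i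
      simp
    rw [key] at h1
    exact h1.symm
  have hOmax : (RingHom.ker (MvPolynomial.eval o : MvPolynomial (Fin s) K →+* K)).IsMaximal :=
    RingHom.ker_isMaximal_of_surjective _ (fun k => ⟨MvPolynomial.C k, by simp⟩)
  -- step 4: lying over
  let _ : Algebra (MvPolynomial (Fin s) K) B := (g : MvPolynomial (Fin s) K →+* B).toAlgebra
  have halg : Algebra.IsIntegral (MvPolynomial (Fin s) K) B := ⟨hint⟩
  have hker : RingHom.ker (algebraMap (MvPolynomial (Fin s) K) B) ≤
      RingHom.ker (lam : MvPolynomial (Fin s) K →+* Polynomial K) := by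
    intro r hr
    rw [RingHom.mem_ker] at hr
    have : r = 0 := hinj (by rw [map_zero]; exact hr)
    rw [this]
    exact Ideal.zero_mem _
  obtain ⟨𝔭, h𝔭, h𝔭L⟩ := Ideal.exists_ideal_over_prime_of_isIntegral_of_isDomain
    (S := B) (RingHom.ker (lam : MvPolynomial (Fin s) K →+* Polynomial K)) hker
  -- step 5: going up
  obtain ⟨𝔪, h𝔭𝔪, h𝔪p, h𝔪o⟩ := Ideal.exists_ideal_over_prime_of_isIntegral_of_isPrime
    (S := B) (RingHom.ker (MvPolynomial.eval o : MvPolynomial (Fin s) K →+* K)) 𝔭
    (by rw [h𝔭L]; exact hLo)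
  have h𝔪max : 𝔪.IsMaximal :=
    Ideal.isMaximal_of_isIntegral_of_isMaximal_comap (R := MvPolynomial (Fin s) K) 𝔪
      (by rw [h𝔪o]; exact hOmax)
  have hcomap : ∀ r : MvPolynomial (Fin s) K, g r ∈ 𝔭 ↔ lam r = 0 := by
    intro r
    have : r ∈ 𝔭.comap (algebraMap (MvPolynomial (Fin s) K) B) ↔
        r ∈ RingHom.ker (lam : MvPolynomial (Fin s) K →+* Polynomial K) := by rw [h𝔭L]
    exact this
  refine ⟨𝔭, 𝔪, h𝔭, h𝔪max, h𝔭𝔪, ?_, h𝔪o, ?_⟩
  · -- step 6
    intro hw𝔭
    apply hca
    rw [← hcomap]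
    have h1 : g (P.coeff i) ∈ Ideal.span {w} := hcm
    exact (Ideal.span_singleton_le_iff_mem (I := 𝔭)).2 hw𝔭 h1
  · -- step 7: the parameter
    obtain ⟨j, hj⟩ := Function.ne_iff.1 ha0
    have haj : a j ≠ 0 := hj
    set sig : Polynomial K →ₐ[K] MvPolynomial (Fin s) K :=
      Polynomial.aeval ((MvPolynomial.X j - MvPolynomial.C (o j)) * MvPolynomial.C (a j)⁻¹)
      with hsig
    have hls : ∀ q : Polynomial K, lam (sig q) = q := by
      intro q
      have : lam.comp sig = AlgHom.id K (Polynomial K) := by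
        apply Polynomial.algHom_ext
        rw [AlgHom.comp_apply, hsig, Polynomial.aeval_X, map_mul, map_sub, hlam,
          MvPolynomial.aeval_X, MvPolynomial.aeval_C, MvPolynomial.aeval_C]
        simp only [Polynomial.algebraMap_eq, AlgHom.coe_id, id_eq]
        rw [add_sub_cancel_left, mul_comm (Polynomial.C (a j)), mul_assoc, ← Polynomial.C_mul,
          mul_inv_cancel₀ haj, Polynomial.C_1, mul_one]
      exact congrArg (fun f => f q) this
    set φ : Polynomial K →ₐ[K] B ⧸ 𝔭 := (Ideal.Quotient.mkₐ K 𝔭).comp (g.comp sig) with hφ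
    have hφl : ∀ r : MvPolynomial (Fin s) K, φ (lam r) = Ideal.Quotient.mk 𝔭 (g r) := by
      intro r
      rw [hφ, AlgHom.comp_apply, AlgHom.comp_apply, Ideal.Quotient.mkₐ_eq_mk,
        Ideal.Quotient.eq, ← map_sub, hcomap, map_sub, hls, sub_self]
    refine ⟨φ, ?_, ?_⟩
    · rw [injective_iff_map_eq_zero]
      intro q hq
      rw [hφ, AlgHom.comp_apply, AlgHom.comp_apply, Ideal.Quotient.mkₐ_eq_mk,
        Ideal.Quotient.eq_zero_iff_mem, hcomap, hls] at hq
      exact hq
    · intro b
      obtain ⟨b, rfl⟩ := Ideal.Quotient.mk_surjective b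
      obtain ⟨Q, hQm, hQb⟩ := hint b
      refine ⟨Q.map (lam : MvPolynomial (Fin s) K →+* Polynomial K), hQm.map _, ?_⟩
      rw [Polynomial.eval₂_map]
      have hcomp : ((φ : Polynomial K →+* B ⧸ 𝔭).comp
          (lam : MvPolynomial (Fin s) K →+* Polynomial K)) =
          (Ideal.Quotient.mk 𝔭).comp (g : MvPolynomial (Fin s) K →+* B) := by
        ext r
        · simp only [RingHom.coe_comp, Function.comp_apply, RingHom.coe_coe]
          rw [hφl]
        · simp only [RingHom.coe_comp, Function.comp_apply, RingHom.coe_coe]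
          rw [hφl]
      have h2 : Polynomial.eval₂ ((Ideal.Quotient.mk 𝔭).comp (g : MvPolynomial (Fin s) K →+* B))
          (Ideal.Quotient.mk 𝔭 b) Q = Ideal.Quotient.mk 𝔭 (Polynomial.eval₂ g b Q) := by
        rw [Polynomial.hom_eval₂]
      have h3 : Polynomial.eval₂ (g : MvPolynomial (Fin s) K →+* B) b Q = 0 := hQb
      change Polynomial.eval₂ ((φ : Polynomial K →+* B ⧸ 𝔭).comp
          (lam : MvPolynomial (Fin s) K →+* Polynomial K)) _ Q = 0
      rw [hcomp, h2, h3, map_zero]


/-- the fibre of `Spec B → 𝔸^s` over the point `o` is finite -/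
theorem s26ecad_fibre_finite (K : Type u) [Field K] {B : Type v} [CommRing B]
    [Algebra K B] {s : ℕ} (g : MvPolynomial (Fin s) K →ₐ[K] B) (hfin : g.Finite)
    (o : Fin s → K) :
    {𝔪 : Ideal B | 𝔪.IsMaximal ∧
      𝔪.comap (g : MvPolynomial (Fin s) K →+* B) = RingHom.ker (MvPolynomial.eval o)}.Finite := by
  let _ : Algebra (MvPolynomial (Fin s) K) B := (g : MvPolynomial (Fin s) K →+* B).toAlgebra
  have hmf : Module.Finite (MvPolynomial (Fin s) K) B := hfin
  refine Set.Finite.subset (Algebra.QuasiFinite.finite_primesOver (S := B)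
    (RingHom.ker (MvPolynomial.eval o : MvPolynomial (Fin s) K →+* K))) ?_
  rintro 𝔪 ⟨h1, h2⟩
  refine ⟨h1.isPrime, ⟨?_⟩⟩
  exact h2.symm

/-- the residue field at a point of the fibre over `o` is `K` (`K` algebraically closed) -/
theorem s26ecad_residue_bijective (K : Type u) [Field K] [IsAlgClosed K] {B : Type v}
    [CommRing B] [Algebra K B] {s : ℕ} (g : MvPolynomial (Fin s) K →ₐ[K] B)
    (hint : g.IsIntegral) (o : Fin s → K) (𝔪 : Ideal B) [h𝔪 : 𝔪.IsMaximal]
    (ho : 𝔪.comap (g : MvPolynomial (Fin s) K →+* B) = RingHom.ker (MvPolynomial.eval o)) :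
    Function.Bijective (algebraMap K (B ⧸ 𝔪)) := by
  let _ : Field (B ⧸ 𝔪) := Ideal.Quotient.field 𝔪
  have hcomp : (algebraMap K (B ⧸ 𝔪)).comp (MvPolynomial.eval o) =
      (Ideal.Quotient.mk 𝔪).comp (g : MvPolynomial (Fin s) K →+* B) := by
    apply MvPolynomial.ringHom_ext
    · intro k
      simp only [RingHom.coe_comp, Function.comp_apply, MvPolynomial.eval_C, RingHom.coe_coe,
        MvPolynomial.algHom_C]
      rfl
    · intro i
      simp only [RingHom.coe_comp, Function.comp_apply, MvPolynomial.eval_X, RingHom.coe_coe]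
      have h1 : (MvPolynomial.X i - MvPolynomial.C (o i) : MvPolynomial (Fin s) K) ∈
          𝔪.comap (g : MvPolynomial (Fin s) K →+* B) := by
        rw [ho, RingHom.mem_ker]
        simp
      have h2 : g (MvPolynomial.X i) - g (MvPolynomial.C (o i)) ∈ 𝔪 := by
        rw [← map_sub]
        exact h1
      have h3 := (Ideal.Quotient.eq (I := 𝔪)).2 h2
      rw [h3, MvPolynomial.algHom_C]
      rfl
  have halg : Algebra.IsIntegral K (B ⧸ 𝔪) := by
    refine ⟨fun b => ?_⟩
    obtain ⟨b, rfl⟩ := Ideal.Quotient.mk_surjective b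
    obtain ⟨Q, hQm, hQb⟩ := hint b
    refine ⟨Q.map (MvPolynomial.eval o), hQm.map _, ?_⟩
    rw [Polynomial.eval₂_map, hcomp]
    have h2 : Polynomial.eval₂ ((Ideal.Quotient.mk 𝔪).comp (g : MvPolynomial (Fin s) K →+* B))
        (Ideal.Quotient.mk 𝔪 b) Q = Ideal.Quotient.mk 𝔪 (Polynomial.eval₂ g b Q) := by
      rw [Polynomial.hom_eval₂]
    have h3 : Polynomial.eval₂ (g : MvPolynomial (Fin s) K →+* B) b Q = 0 := hQb
    rw [h2, h3, map_zero]
  exact IsAlgClosed.algebraMap_bijective_of_isIntegral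

/-- **(L3)** finiteness: `Ω / K` a finitely generated field extension, `F` an intermediate
field with `trdeg K Ω ≤ trdeg K F` ⇒ `Ω / F` is finite. -/
theorem s26ecad_finite_of_trdeg_le (K : Type u) [Field K] (F Ω : Type v) [Field F] [Field Ω]
    [Algebra K F] [Algebra F Ω] [Algebra K Ω] [IsScalarTower K F Ω]
    [Algebra.EssFiniteType K Ω] (h : Algebra.trdeg K Ω ≤ Algebra.trdeg K F) :
    Module.Finite F Ω := by
  have h1 : Algebra.trdeg K F + Algebra.trdeg F Ω = Algebra.trdeg K Ω :=
    trdeg_add_eq K F (A := Ω)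
  have h2 : Algebra.trdeg K Ω < ℵ₀ := trdeg_lt_aleph0 K Ω
  have h3 : Algebra.trdeg K F < ℵ₀ := lt_of_le_of_lt (h1 ▸ le_self_add) h2
  have h4 : Algebra.trdeg F Ω < ℵ₀ := lt_of_le_of_lt (h1 ▸ le_add_self) h2
  obtain ⟨n, hn⟩ := Cardinal.lt_aleph0.1 h3
  obtain ⟨m, hm⟩ := Cardinal.lt_aleph0.1 h4
  have h5 : Algebra.trdeg F Ω = 0 := by
    rw [← h1, hn, hm] at h
    have h6 : n + m ≤ n := by exact_mod_cast h
    have h7 : m = 0 := by omega
    rw [hm, h7, Nat.cast_zero]
  have halg : Algebra.IsAlgebraic F Ω := trdeg_eq_zero_iff.1 h5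
  have hess : Algebra.EssFiniteType F Ω := Algebra.EssFiniteType.of_comp K F Ω
  exact Algebra.finite_of_essFiniteType_of_isAlgebraic

end Fermat.Agent.S26
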