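/-
S26-E, piece E-CRV, sub-leaf (X2) (helper6): THE GENERIC POINT FROM AN INJECTIVE EVALUATION.

`A` integral, `W` a field over `K`, `P ∈ A(W)`, `x : A` a specialisation of `|P|`, and the
evaluation `s26ecrvEv f P x h : 𝒪_{A,x} →+* W` INJECTIVE.  Then

* `s26ecrvg_generic` : **(a)** `|P|` is the generic point of `A`;
* `s26ecrvgJ`        : the `K`-embedding `j : 𝔉 → W` of a point with generic image
                       (`j = ev_P` transported along `|P| = genericPoint A`);
* `s26ecrvg_pt_eq`   : `P = s26ePt f j`;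
* `s26ecrvgJ_stalk`  : `j (algebraMap 𝒪_{A,x} 𝔉 a) = s26ecrvEv f P x h a`;
* `s26ecrvg_exists`  : **(b)** `∃ j : 𝔉 →ₐ[K] W, P = s26ePt f j ∧ ∀ a, j (algebraMap _ _ a) = ev a`;
* `s26ecrvg_exists_of_generic` : the same for ANY point with `|P| = genericPoint A`
                       (no injectivity needed), at every `x`.
-/
import Fermat.Agent.S26.ECrvPt
import Fermat.Agent.S26.PlanE

set_option autoImplicit false
set_option linter.style.haveILetI false
set_option linter.unusedSectionVars false
set_option linter.unusedVariables false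

noncomputable section

namespace Fermat.Agent.S26

open CategoryTheory CategoryTheory.Limits AlgebraicGeometry NeronModelInfra GoodReductionJacobian

universe u

variable {K : Type u} [Field K] {A : Scheme.{u}} (f : A ⟶ Spec (CommRingCat.of K))
variable {W : Type u} [Field W] [Algebra K W]

/-- the evaluation of a point with values in a field kills the sections vanishing at `|P|` -/
theorem s26ecrvg_ev_eq_zero (P : s26eptPts f W)
    {a : A.presheaf.stalk (s26eptPt f P)} (ha : ¬ IsUnit a) : s26eptEv f P a = 0 := by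
  by_contra h0
  exact ha (isUnit_of_map_unit (s26eptEv f P) a (isUnit_iff_ne_zero.mpr h0))

/-- **(a)**: a point `P ∈ A(W)`, `W` a field, whose evaluation on the germs at a specialisation
`x` of `|P|` is injective, has the generic point as image. -/
theorem s26ecrvg_generic [IsIntegral A] (P : s26eptPts f W) (x : A) (h : s26eptPt f P ⤳ x)
    (hinj : Function.Injective (s26ecrvEv f P x h)) : s26eptPt f P = genericPoint A := by
  obtain ⟨_, ⟨U, hU, rfl⟩, hxU, -⟩ :=
    A.isBasis_affineOpens.exists_subset_of_mem_open (Set.mem_univ x) isOpen_univ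
  have hyU : s26eptPt f P ∈ U := h.mem_open U.2 hxU
  haveI : Nonempty U := ⟨⟨x, hxU⟩⟩
  have hηU : genericPoint A ∈ U :=
    ((genericPoint_spec A).mem_open_set_iff U.isOpen).mpr (by simpa using ‹Nonempty U›)
  have key : hU.primeIdealOf ⟨s26eptPt f P, hyU⟩ = hU.primeIdealOf ⟨genericPoint A, hηU⟩ := by
    rw [hU.primeIdealOf_genericPoint, genericPoint_eq_bot_of_affine]
    apply PrimeSpectrum.ext
    show (hU.primeIdealOf ⟨s26eptPt f P, hyU⟩).asIdeal = ⊥
    rw [eq_bot_iff]
    intro s hs
    rw [hU.primeIdealOf_eq_map_closedPoint] at hs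
    have hs' : (A.presheaf.germ U (s26eptPt f P) hyU).hom s ∈
        IsLocalRing.maximalIdeal (A.presheaf.stalk (s26eptPt f P)) := hs
    rw [IsLocalRing.mem_maximalIdeal, mem_nonunits_iff] at hs'
    have h1 : s26eptEv f P ((A.presheaf.germ U (s26eptPt f P) hyU).hom s) = 0 :=
      s26ecrvg_ev_eq_zero f P hs'
    have h2 : s26ecrvEv f P x h (A.presheaf.germ U x hxU s) = 0 := by
      rw [s26ecrvEv_germ]
      exact h1
    have h3 : A.presheaf.germ U x hxU s = 0 := hinj (by rw [h2, map_zero])
    have h4 : s = 0 := germ_injective_of_isIntegral A x hxU (by rw [h3, map_zero])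
    rw [h4]
    exact Submodule.zero_mem _
  have e1 := hU.fromSpec_primeIdealOf ⟨s26eptPt f P, hyU⟩
  have e2 := hU.fromSpec_primeIdealOf ⟨genericPoint A, hηU⟩
  rw [key] at e1
  exact e1.symm.trans e2

section J

variable [IsIntegral A]

/-- the ring homomorphism `𝔉 → W` of a point with generic image -/
def s26ecrvgJ₀ (P : s26eptPts f W) (hP : s26eptPt f P = genericPoint A) : s26F f →+* W :=
  (s26eptEv f P).comp (A.presheaf.stalkSpecializes (specializes_of_eq hP)).hom

theorem s26ecrvg_coe (P : s26eptPts f W) (hP : s26eptPt f P = genericPoint A) :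
    P.1 = Spec.map (CommRingCat.ofHom (s26ecrvgJ₀ f P hP)) ≫ s26eEtaHom f := by
  rw [s26ept_eq_SpecMap_ev f P]
  show _ = Spec.map (CommRingCat.ofHom (s26ecrvgJ₀ f P hP)) ≫ A.fromSpecStalk (genericPoint A)
  rw [← Scheme.SpecMap_stalkSpecializes_fromSpecStalk (specializes_of_eq hP), ← Category.assoc,
    ← Spec.map_comp]
  rfl

theorem s26ecrvgJ₀_commutes (P : s26eptPts f W) (hP : s26eptPt f P = genericPoint A) (c : K) :
    s26ecrvgJ₀ f P hP (algebraMap K (s26F f) c) = algebraMap K W c := by
  have h1 : P.1 ≫ f = s26eptStr K W := P.2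
  rw [s26ecrvg_coe f P hP, Category.assoc, s26eEtaHom_comp f] at h1
  unfold s26eptStr at h1
  rw [← Spec.map_comp] at h1
  have h2 := Spec.map_injective h1
  exact congrArg (fun q => q.hom c) h2

/-- **the `K`-embedding `j : 𝔉 → W`** of a point `P ∈ A(W)` with generic image -/
def s26ecrvgJ (P : s26eptPts f W) (hP : s26eptPt f P = genericPoint A) : s26F f →ₐ[K] W :=
  { s26ecrvgJ₀ f P hP with commutes' := s26ecrvgJ₀_commutes f P hP }

theorem s26ecrvgJ_apply (P : s26eptPts f W) (hP : s26eptPt f P = genericPoint A)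
    (a : s26F f) :
    s26ecrvgJ f P hP a =
      s26eptEv f P ((A.presheaf.stalkSpecializes (specializes_of_eq hP)).hom a) := rfl

/-- `P = A(j)(η)` -/
theorem s26ecrvg_pt_eq (P : s26eptPts f W) (hP : s26eptPt f P = genericPoint A) :
    P = s26ePt f (s26ecrvgJ f P hP) := by
  apply Subtype.ext
  show P.1 = s26eptSpec (s26ecrvgJ f P hP) ≫ s26eEtaHom f
  rw [s26ecrvg_coe f P hP]
  rfl

/-- **`j` on the germs at a specialisation `x` of `|P|`** is the evaluation at `P`. -/
theorem s26ecrvgJ_stalk (P : s26eptPts f W) (hP : s26eptPt f P = genericPoint A)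
    (x : A) (h : s26eptPt f P ⤳ x) (a : A.presheaf.stalk x) :
    s26ecrvgJ f P hP (algebraMap (A.presheaf.stalk x) A.functionField a) =
      s26ecrvEv f P x h a := by
  rw [s26ecrvgJ_apply]
  unfold s26ecrvEv
  rw [RingHom.comp_apply, RingHom.algebraMap_toAlgebra]
  congr 1
  exact congrArg (fun q => q.hom a)
    (A.presheaf.stalkSpecializes_comp (specializes_of_eq hP)
      ((genericPoint_spec A).specializes trivial))

/-- **(b)** for any point with generic image. -/
theorem s26ecrvg_exists_of_generic (P : s26eptPts f W)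
    (hP : s26eptPt f P = genericPoint A) :
    ∃ j : s26F f →ₐ[K] W, P = s26ePt f j ∧
      ∀ (x : A) (h : s26eptPt f P ⤳ x) (a : A.presheaf.stalk x),
        j (algebraMap (A.presheaf.stalk x) A.functionField a) = s26ecrvEv f P x h a :=
  ⟨s26ecrvgJ f P hP, s26ecrvg_pt_eq f P hP, fun x h a => s26ecrvgJ_stalk f P hP x h a⟩

/-- **(b)**: a point whose evaluation on the germs at a specialisation `x` of `|P|` is
injective is the generic point `s26ePt f j` of a `K`-embedding `j : 𝔉 → W`, and `j` is the
evaluation on the germs at `x`. -/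
theorem s26ecrvg_exists (P : s26eptPts f W) (x : A) (h : s26eptPt f P ⤳ x)
    (hinj : Function.Injective (s26ecrvEv f P x h)) :
    ∃ j : s26F f →ₐ[K] W, P = s26ePt f j ∧
      ∀ a : A.presheaf.stalk x,
        j (algebraMap (A.presheaf.stalk x) A.functionField a) = s26ecrvEv f P x h a :=
  ⟨s26ecrvgJ f P (s26ecrvg_generic f P x h hinj),
    s26ecrvg_pt_eq f P (s26ecrvg_generic f P x h hinj),
    fun a => s26ecrvgJ_stalk f P (s26ecrvg_generic f P x h hinj) x h a⟩

end J

end Fermat.Agent.S26

end
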