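/-
S26-E, piece E-CRV, leaf (Y) (helper6): YONEDA for the local ring `O = 𝒪_{A,0}`.

For a local `K`-algebra `R`:
* `s26ecrvy_specializes`    : the point `lam_* univ` of a ring map `lam : O →ₐ[K] R` specialises
  to `0`;
* `s26ecrvy_ev_univ`, `s26ecrvy_evAlg_univ` : the evaluation of the universal point is the
  identity;
* `s26ecrvy_evAlg_map_univ` : (Y1) `ev (lam_* univ) = lam`;
* `s26ecrvy_map_evAlg_univ` : (Y2) `(ev_P)_* univ = P` for `|P| ⤳ 0`;
* `s26ecrvy_ext`            : points specialising to `0` with the same evaluation are equal;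
* `s26ecrvyEquiv`           : the bijection `{P ∈ A(R) // |P| ⤳ 0} ≃ (O →ₐ[K] R)`.
-/
import Fermat.Agent.S26.ECrvYon

set_option autoImplicit false
set_option linter.style.haveILetI false

noncomputable section

namespace Fermat.Agent.S26

open CategoryTheory CategoryTheory.Limits AlgebraicGeometry NeronModelInfra GoodReductionJacobian

universe u

variable {K : Type u} [Field K] {A : Scheme.{u}} (f : A ⟶ Spec (CommRingCat.of K))
  (G : RelativeGroupLaw K f)

section Y

variable {R : Type u} [CommRing R] [Algebra K R] [IsLocalRing R]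

/-- the point of a ring map `lam : O →ₐ[K] R` specialises to `0` -/
theorem s26ecrvy_specializes (lam : S26ecrvO f G →ₐ[K] R) :
    s26eptPt f (s26eptMap f lam (s26ecrvUniv f G)) ⤳ s26zero f G := by
  have h := s26eptPt_map_specializes f lam (s26ecrvUniv f G)
  rwa [s26ecrvUniv_pt] at h

/-- the evaluation of the universal point is the identity -/
theorem s26ecrvy_ev_univ (h : s26eptPt f (s26ecrvUniv f G) ⤳ s26zero f G) (a : S26ecrvO f G) :
    s26ecrvEv f (s26ecrvUniv f G) (s26zero f G) h a = a := by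
  have h1 : s26eptEv f (s26ecrvUniv f G) =
      (A.presheaf.stalkSpecializes (specializes_of_eq (s26ecrvUniv_pt f G).symm)).hom := by
    have h2 := Scheme.stalkClosedPointTo_fromSpecStalk (X := A) (s26zero f G)
    rw [TopCat.Presheaf.stalkCongr_hom] at h2
    exact congrArg (fun g => g.hom) h2
  unfold s26ecrvEv
  rw [h1]
  have h3 := A.presheaf.stalkSpecializes_comp (specializes_of_eq (s26ecrvUniv_pt f G).symm) h
  have h4 := congrArg (fun g => g.hom a) h3
  simp only [CommRingCat.hom_comp, RingHom.coe_comp, Function.comp_apply] at h4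
  rw [RingHom.comp_apply]
  refine h4.trans ?_
  rw [TopCat.Presheaf.stalkSpecializes_refl]
  rfl

/-- the evaluation of the universal point is the identity, `K`-algebra form -/
theorem s26ecrvy_evAlg_univ (h : s26eptPt f (s26ecrvUniv f G) ⤳ s26zero f G) :
    s26ecrvEvAlg f G (s26ecrvUniv f G) h = AlgHom.id K (S26ecrvO f G) :=
  AlgHom.ext fun a => s26ecrvy_ev_univ f G h a

/-- **(Y1)** the evaluation of the point of a ring map `lam` is `lam` -/
theorem s26ecrvy_evAlg_map_univ (lam : S26ecrvO f G →ₐ[K] R)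
    (h : s26eptPt f (s26eptMap f lam (s26ecrvUniv f G)) ⤳ s26zero f G) :
    s26ecrvEvAlg f G (s26eptMap f lam (s26ecrvUniv f G)) h = lam := by
  rw [s26ecrvEvAlg_map f G lam (s26ecrvUniv f G) (specializes_of_eq (s26ecrvUniv_pt f G)) h,
    s26ecrvy_evAlg_univ]
  exact AlgHom.comp_id lam

/-- (Y1), pointwise ring-hom form -/
theorem s26ecrvy_ev_map_univ (lam : S26ecrvO f G →ₐ[K] R)
    (h : s26eptPt f (s26eptMap f lam (s26ecrvUniv f G)) ⤳ s26zero f G) (a : S26ecrvO f G) :
    s26ecrvEv f (s26eptMap f lam (s26ecrvUniv f G)) (s26zero f G) h a = lam a := by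
  have := s26ecrvy_evAlg_map_univ f G lam h
  exact congrArg (fun g : S26ecrvO f G →ₐ[K] R => g a) this

/-- a point with values in a local ring, through the local ring of a specialisation `x` of its
image point -/
theorem s26ecrvy_SpecMap_ev (P : s26eptPts f R) (x : A) (h : s26eptPt f P ⤳ x) :
    P.1 = Spec.map (CommRingCat.ofHom (s26ecrvEv f P x h)) ≫ A.fromSpecStalk x := by
  rw [s26ept_eq_SpecMap_ev f P]
  conv_lhs => rw [← Scheme.SpecMap_stalkSpecializes_fromSpecStalk h]
  rw [← Category.assoc, ← Spec.map_comp]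
  rfl

/-- **(Y2)** a point `P` with `|P| ⤳ 0` is the point of its evaluation -/
theorem s26ecrvy_map_evAlg_univ (P : s26eptPts f R) (h : s26eptPt f P ⤳ s26zero f G) :
    s26eptMap f (s26ecrvEvAlg f G P h) (s26ecrvUniv f G) = P := by
  apply Subtype.ext
  rw [s26eptMap_coe]
  exact (s26ecrvy_SpecMap_ev f P (s26zero f G) h).symm

/-- points specialising to `0` with the same evaluation are equal -/
theorem s26ecrvy_ext (P Q : s26eptPts f R) (hP : s26eptPt f P ⤳ s26zero f G)
    (hQ : s26eptPt f Q ⤳ s26zero f G)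
    (h : s26ecrvEvAlg f G P hP = s26ecrvEvAlg f G Q hQ) : P = Q := by
  rw [← s26ecrvy_map_evAlg_univ f G P hP, ← s26ecrvy_map_evAlg_univ f G Q hQ, h]

/-- the map `lam ↦ lam_* univ` is injective -/
theorem s26ecrvy_map_univ_injective :
    Function.Injective fun lam : S26ecrvO f G →ₐ[K] R => s26eptMap f lam (s26ecrvUniv f G) := by
  intro lam lam' h
  have h1 := s26ecrvy_evAlg_map_univ f G lam (s26ecrvy_specializes f G lam)
  have h2 := s26ecrvy_evAlg_map_univ f G lam' (s26ecrvy_specializes f G lam')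
  rw [← h1, ← h2]
  simp only at h
  congr 1

/-- **Yoneda**: the points of `A(R)` (`R` local) specialising to `0` are the `K`-algebra
homomorphisms `O → R`. -/
def s26ecrvyEquiv :
    {P : s26eptPts f R // s26eptPt f P ⤳ s26zero f G} ≃ (S26ecrvO f G →ₐ[K] R) where
  toFun P := s26ecrvEvAlg f G P.1 P.2
  invFun lam := ⟨s26eptMap f lam (s26ecrvUniv f G), s26ecrvy_specializes f G lam⟩
  left_inv P := Subtype.ext (s26ecrvy_map_evAlg_univ f G P.1 P.2)
  right_inv lam := s26ecrvy_evAlg_map_univ f G lam _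

theorem s26ecrvyEquiv_apply (P : {P : s26eptPts f R // s26eptPt f P ⤳ s26zero f G}) :
    s26ecrvyEquiv f G P = s26ecrvEvAlg f G P.1 P.2 := rfl

theorem s26ecrvyEquiv_symm_apply_coe (lam : S26ecrvO f G →ₐ[K] R) :
    ((s26ecrvyEquiv f G).symm lam).1 = s26eptMap f lam (s26ecrvUniv f G) := rfl

end Y

end Fermat.Agent.S26

end
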