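/-
S26-E, piece E-CRV, leaf (Y) YONEDA (helper61; pair of helper6's S26/ECrvYonB.lean, same
statements under the names `s26ecrvyc_*`): points of `A` with values in a local `K`-algebra `R`
whose image point specialises to `0` are the same as `K`-algebra homomorphisms `𝒪_{A,0} → R`.

* `s26ecrvyc_specializes`    : the point of `lam : O →ₐ[K] R` specialises to `0`;
* `s26ecrvyc_ev_univ`        : the evaluation at the universal point is the identity;
* `s26ecrvyc_evAlg_map_univ` : `ev (lam_* univ) = lam`                                   (Y1);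
* `s26ecrvyc_map_evAlg_univ` : `(ev P)_* univ = P`                                       (Y2).
-/
import Fermat.Agent.S26.ECrvYon
import Fermat.Agent.S26.EZero

set_option autoImplicit false
set_option linter.style.haveILetI false

noncomputable section

namespace Fermat.Agent.S26

open CategoryTheory CategoryTheory.Limits AlgebraicGeometry NeronModelInfra GoodReductionJacobian

universe u

variable {K : Type u} [Field K] {A : Scheme.{u}} (f : A ⟶ Spec (CommRingCat.of K))
  (G : RelativeGroupLaw K f)

set_option backward.isDefEq.respectTransparency.types false in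
/-- the evaluation at the universal point is the identity of `𝒪_{A,0}` -/
theorem s26ecrvyc_ev_univ (h : s26eptPt f (s26ecrvUniv f G) ⤳ s26zero f G)
    (a : S26ecrvO f G) :
    s26ecrvEv f (s26ecrvUniv f G) (s26zero f G) h a = a := by
  have h1 := Scheme.stalkClosedPointTo_fromSpecStalk (X := A) (s26zero f G)
  have h2 : A.presheaf.stalkSpecializes h ≫
      Scheme.stalkClosedPointTo (A.fromSpecStalk (s26zero f G)) = 𝟙 _ := by
    have hge : s26zero f G ⤳ s26eptPt f (s26ecrvUniv f G) :=
      specializes_of_eq (s26ecrvUniv_pt f G).symm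
    rw [h1]
    exact (TopCat.Presheaf.stalkSpecializes_comp A.presheaf hge h).trans
      (TopCat.Presheaf.stalkSpecializes_refl _ _)
  exact congrArg (fun g => g.hom a) h2

/-- the evaluation at the universal point is the identity, algebra form -/
theorem s26ecrvyc_evAlg_univ (h : s26eptPt f (s26ecrvUniv f G) ⤳ s26zero f G) :
    s26ecrvEvAlg f G (s26ecrvUniv f G) h = AlgHom.id K (S26ecrvO f G) :=
  AlgHom.ext fun a => s26ecrvyc_ev_univ f G h a

variable {R : Type u} [CommRing R] [Algebra K R] [IsLocalRing R]

/-- the point of a `K`-algebra homomorphism `lam : 𝒪_{A,0} → R` specialises to `0` -/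
theorem s26ecrvyc_specializes (lam : S26ecrvO f G →ₐ[K] R) :
    s26eptPt f (s26eptMap f lam (s26ecrvUniv f G)) ⤳ s26zero f G := by
  have h := s26eptPt_map_specializes f lam (s26ecrvUniv f G)
  rwa [s26ecrvUniv_pt] at h

/-- **(Y1)**: the evaluation at the point of `lam` is `lam` -/
theorem s26ecrvyc_evAlg_map_univ (lam : S26ecrvO f G →ₐ[K] R)
    (h : s26eptPt f (s26eptMap f lam (s26ecrvUniv f G)) ⤳ s26zero f G) :
    s26ecrvEvAlg f G (s26eptMap f lam (s26ecrvUniv f G)) h = lam := by
  rw [s26ecrvEvAlg_map f G lam (s26ecrvUniv f G) (specializes_of_eq (s26ecrvUniv_pt f G)) h,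
    s26ecrvyc_evAlg_univ, AlgHom.comp_id]

/-- **(Y2)**: a point `P` whose image point specialises to `0` is the point of its evaluation -/
theorem s26ecrvyc_map_evAlg_univ (P : s26eptPts f R) (h : s26eptPt f P ⤳ s26zero f G) :
    s26eptMap f (s26ecrvEvAlg f G P h) (s26ecrvUniv f G) = P := by
  apply Subtype.ext
  rw [s26eptMap_coe, s26ez_SpecMap_ev f P (s26zero f G) h]
  rfl

end Fermat.Agent.S26

end
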