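/-
S26 — the TOP after (CUBE_gen) (helper63): with (T-shear) proved (helper50, S26/EG3TShearFinal.lean)
and the assembly of (CUBE_gen) (S26/ECubeUnivF.lean), the statement `s26_Stmt` (= the frozen S26)
follows from the four Props
  * `s26e_StmtCrv`    (a chain of pointed curves with generic, finite end),
  * `s26e_StmtTI`     (translation invariance on the constant curve),
  * `s26e_StmtNV`     (non-vanishing of the generators of the squares),
  * `s26e_StmtSpStep` (the step of a chain preserves "specialises to the zero point").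
-/
import Fermat.Agent.S26.Reduce8
import Fermat.Agent.S26.ECubeUnivF
import Fermat.Agent.S26.EG3TShearFinal

set_option autoImplicit false

namespace Fermat.Agent.S26

universe u

/-- **(CUBE_gen)** from (CRV), (TI), (NV), (SP-STEP). -/
theorem s26ecu_cubeGen_of_four (hCrv : s26e_StmtCrv.{u}) (hTI : s26e_StmtTI.{u})
    (hNV : s26e_StmtNV.{u}) (hSp : s26e_StmtSpStep.{u}) : s26e_StmtCubeGen.{u} :=
  s26ecu_cubeGen_of_ti hCrv hTI hNV hSp s26e_stmtTShear

/-- **S26** from (CRV), (TI), (NV), (SP-STEP). -/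
theorem s26ecu_s26_of_four (hCrv : s26e_StmtCrv.{u}) (hTI : s26e_StmtTI.{u})
    (hNV : s26e_StmtNV.{u}) (hSp : s26e_StmtSpStep.{u}) : s26_Stmt.{u} :=
  s26_of_shear_cubeGen s26e_stmtTShear (s26ecu_cubeGen_of_four hCrv hTI hNV hSp)

/-- **S26** from (CRV) and (C-IND). -/
theorem s26ecu_s26_of_crv_cind (hCrv : s26e_StmtCrv.{u}) (hCInd : s26e_StmtCInd.{u}) :
    s26_Stmt.{u} :=
  s26_of_shear_cubeGen s26e_stmtTShear (s26ecu_cubeGen hCrv hCInd s26e_stmtTShear)

end Fermat.Agent.S26
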