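/-
S26-E, CUBE_gen assembly (helper63): TRANSPORT and NORM DESCENT of the cube relation.

`K ⊆ Ω ⊆ Ω'` fields, `x y z ∈ A(Ω)`.  With (G-func) (`S26ectGenFunc`, the local form of
`s26e_StmtGenFunc`):

* `s26ect_cube_pull`  : the pull-back of the cube family of `(x, y, z)` to `Ω'` has the values of
                        the cube family of the images of `x, y, z` in `A(Ω')`;
* `s26ect_cube_map`   : (TR) a cube relation in `Ω` gives the cube relation of the images in `Ω'`;
* `s26ect_cube_of_map`: a cube relation of the images, realised by an element of `Ω`, is a cube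
                        relation in `Ω`;
* `s26ect_cube_descend`: (R3) `Ω` algebraically closed in `Ω'`;
* `s26ect_cube_norm`  : (NM) `Ω' / Ω` finite: the cube relation of the images in `Ω'` with
                        multiplier `c` gives the cube relation in `Ω` with multiplier `c [Ω' : Ω]`.
-/
import Fermat.Agent.S26.PlanE

set_option autoImplicit false
set_option linter.style.haveILetI false

noncomputable section

namespace Fermat.Agent.S26

open CategoryTheory CategoryTheory.Limits AlgebraicGeometry NeronModelInfra GoodReductionJacobian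

universe u

variable {K : Type u} [Field K] {A : Scheme.{u}} (f : A ⟶ Spec (CommRingCat.of K))

/-- the local form of (G-func): the conclusion of `s26e_StmtGenFunc` for `f`, `U`. -/
def S26ectGenFunc [IsIntegral A] [IsLocallyNoetherian A] [IsProper f] (U : A.Opens) : Prop :=
  ∀ (Ω Ω' : Type u) [Field Ω] [Field Ω'] [Algebra K Ω] [Algebra K Ω'] (σ : Ω →ₐ[K] Ω')
    (P : s26eptPts f Ω) (V' : ValuationSubring Ω'), S26erOver K V' →
    V'.valuation (s26eGen f U (s26eptMap f σ P) V') =
      V'.valuation (σ (s26eGen f U P (V'.comap (σ : Ω →+* Ω'))))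

theorem s26ect_genFunc_of (hGF : s26e_StmtGenFunc.{u}) (G : RelativeGroupLaw K f) (g : ℕ)
    (H : S26Hyp K f G g) [IsIntegral A] [IsLocallyNoetherian A] [IsProper f] (U : A.Opens)
    (hU : S26IsAdm f G U) (hLoc : S26emLocData U) : S26ectGenFunc f U :=
  fun Ω Ω' _ _ _ _ σ P V' hV' => hGF K f G g H U hU hLoc Ω Ω' σ P V' hV'

variable {Ω Ω' : Type u} [Field Ω] [Field Ω'] [Algebra K Ω] [Algebra K Ω'] [Algebra Ω Ω']
  [IsScalarTower K Ω Ω']
variable [IsIntegral A] [IsLocallyNoetherian A] [IsProper f] (G : RelativeGroupLaw K f)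
  (U : A.Opens)

/-- the image of a point of `A(Ω)` in `A(Ω')`. -/
abbrev s26ectUp (P : s26eptPts f Ω) : s26eptPts f Ω' :=
  s26eptMap f (IsScalarTower.toAlgHom K Ω Ω') P

variable {f U}

/-- pull-back of one generator. -/
theorem s26ect_gen_pull (hGF : S26ectGenFunc f U) (P : s26eptPts f Ω)
    (V' : ValuationSubring Ω') (hV' : S26erOver K V') :
    V'.valuation (algebraMap Ω Ω' (s26eGen f U P (V'.comap (algebraMap Ω Ω')))) =
      V'.valuation (s26eGen f U (s26ectUp f (Ω' := Ω') P) V') :=
  (hGF Ω Ω' (IsScalarTower.toAlgHom K Ω Ω') P V' hV').symm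

/-- pull-back of the cube family. -/
theorem s26ect_cube_pull (hGF : S26ectGenFunc f U) (x y z : s26eptPts f Ω) (c : ℕ)
    (V' : ValuationSubring Ω') (hV' : S26erOver K V') :
    V'.valuation (s26erPull (Ω' := Ω') (fun V => s26eCube f G U x y z V ^ c) V') =
      V'.valuation (s26eCube f G U (s26ectUp f (Ω' := Ω') x) (s26ectUp f (Ω' := Ω') y)
        (s26ectUp f (Ω' := Ω') z) V' ^ c) := by
  unfold s26erPull s26eCube
  simp only [map_pow, map_mul, map_div₀]
  rw [s26ect_gen_pull hGF _ V' hV', s26ect_gen_pull hGF x V' hV', s26ect_gen_pull hGF y V' hV',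
    s26ect_gen_pull hGF z V' hV', s26ect_gen_pull hGF (G.mul _ x y) V' hV',
    s26ect_gen_pull hGF (G.mul _ x z) V' hV', s26ect_gen_pull hGF (G.mul _ y z) V' hV']
  simp only [s26ectUp, s26eptMap_mul]

/-- **(TR)** a cube relation in `Ω` gives the cube relation of the images in `Ω'`. -/
theorem s26ect_cube_map (hGF : S26ectGenFunc f U) (x y z : s26eptPts f Ω) (c : ℕ) {F : Ω}
    (h : S26erIsRel K (fun V => s26eCube f G U x y z V ^ c) F) :
    S26erIsRel K (fun V' => s26eCube f G U (s26ectUp f (Ω' := Ω') x) (s26ectUp f (Ω' := Ω') y)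
      (s26ectUp f (Ω' := Ω') z) V' ^ c) (algebraMap Ω Ω' F) :=
  (h.map (Ω' := Ω')).congr (fun V' hV' => s26ect_cube_pull G hGF x y z c V' hV')

/-- the cube relation of the images is the relation of the pulled-back family. -/
theorem s26ect_cube_pull_rel (hGF : S26ectGenFunc f U) (x y z : s26eptPts f Ω) (c : ℕ) {F' : Ω'}
    (h : S26erIsRel K (fun V' => s26eCube f G U (s26ectUp f (Ω' := Ω') x)
      (s26ectUp f (Ω' := Ω') y) (s26ectUp f (Ω' := Ω') z) V' ^ c) F') :
    S26erIsRel K (s26erPull (Ω' := Ω') (fun V => s26eCube f G U x y z V ^ c)) F' :=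
  h.congr (fun V' hV' => (s26ect_cube_pull G hGF x y z c V' hV').symm)

/-- a cube relation of the images which is realised by an element of `Ω` is a cube relation in
`Ω`. -/
theorem s26ect_cube_of_map (hGF : S26ectGenFunc f U) (x y z : s26eptPts f Ω) (c : ℕ) {F : Ω}
    (h : S26erIsRel K (fun V' => s26eCube f G U (s26ectUp f (Ω' := Ω') x)
      (s26ectUp f (Ω' := Ω') y) (s26ectUp f (Ω' := Ω') z) V' ^ c) (algebraMap Ω Ω' F)) :
    S26erIsRel K (fun V => s26eCube f G U x y z V ^ c) F :=
  (s26ect_cube_pull_rel G hGF x y z c h).of_map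

/-- **(R3)** descent of the cube relation to a subfield that is algebraically closed in `Ω'`. -/
theorem s26ect_cube_descend (hGF : S26ectGenFunc f U) (x y z : s26eptPts f Ω) (c : ℕ)
    (halg : ∀ y : Ω', IsAlgebraic Ω y → y ∈ (algebraMap Ω Ω').range)
    (h0 : s26eCube f G U x y z ⊤ ≠ 0) {F' : Ω'}
    (h : S26erIsRel K (fun V' => s26eCube f G U (s26ectUp f (Ω' := Ω') x)
      (s26ectUp f (Ω' := Ω') y) (s26ectUp f (Ω' := Ω') z) V' ^ c) F') :
    ∃ F : Ω, algebraMap Ω Ω' F = F' ∧ S26erIsRel K (fun V => s26eCube f G U x y z V ^ c) F :=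
  (s26ect_cube_pull_rel G hGF x y z c h).descend halg (pow_ne_zero c h0)

/-- **(NM)** norm descent of the cube relation along a finite extension. -/
theorem s26ect_cube_norm (hGF : S26ectGenFunc f U) (x y z : s26eptPts f Ω) (c : ℕ)
    (h0 : ∀ V : ValuationSubring Ω, S26erOver K V → s26eCube f G U x y z V ≠ 0) {F' : Ω'}
    (h : S26erIsRel K (fun V' => s26eCube f G U (s26ectUp f (Ω' := Ω') x)
      (s26ectUp f (Ω' := Ω') y) (s26ectUp f (Ω' := Ω') z) V' ^ c) F') :
    S26erIsRel K (fun V => s26eCube f G U x y z V ^ (c * Module.finrank Ω Ω'))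
      (Algebra.norm Ω F') := by
  have h1 := (s26ect_cube_pull_rel G hGF x y z c h).norm
    (fun V hV => pow_ne_zero c (h0 V hV))
  refine h1.congr (fun V _ => ?_)
  rw [← pow_mul]

end Fermat.Agent.S26

end
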