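/-
S26-E, CUBE_gen assembly (helper63): (CUBE_univ) and the wrapper (CUBE_univ) ⇒ (CUBE_gen).

* `s26ecu_StmtFieldStep` : the FIELD STEP (F), in the shape of helper75's `s26ecgf_fieldStep`:
  `W / 𝔉` finite, `(j₁, j₂, j₃)` independent in `Ω`; then there is a finite extension `Ω' / Ω`
  and `ιW : W → Ω'` over `j₁` such that `(ιW, j₂, j₃)` is independent in `Ω'`;
* `s26ecu_gen_one_val`   : the generator of the zero point has value `1`;
* `s26ecu_sq_div_val`    : `Sq(a; y, z) / Sq(0; y, z)` has the values of `Cube(a, y, z)`;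
* `s26ecu_cube_ne_zero`  : the cube family of an independent generic triple does not vanish;
* `s26ecu_cubeUniv_of`   : (CRV) + (C-IND) + (T-shear) + (F) ⇒ (CUBE_univ);
* `s26ecu_cubeGen_of_univ` : (CUBE_univ) ⇒ (CUBE_gen)  (uniform multiplier: the universal
  triple in `Frac ((𝔉 ⊗ 𝔉) ⊗ 𝔉)`, transported by (TR)).
-/
import Fermat.Agent.S26.PlanE3
import Fermat.Agent.S26.ECubeTr
import Fermat.Agent.S26.EMStmtFunc
import Fermat.Agent.S26.EMFamVal
import Fermat.Agent.S26.EPTGen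
import Fermat.Agent.S26.ETPre

set_option autoImplicit false
set_option linter.style.haveILetI false
set_option linter.unusedSectionVars false
set_option linter.unusedVariables false

noncomputable section

namespace Fermat.Agent.S26

open CategoryTheory CategoryTheory.Limits AlgebraicGeometry NeronModelInfra GoodReductionJacobian
open scoped TensorProduct

universe u

/-- **(F)** the field step (helper75, `s26ecgf_fieldStep`). -/
def s26ecu_StmtFieldStep : Prop :=
  ∀ (K : Type u) [Field K] [IsAlgClosed K] (F W Ω : Type u) [Field F] [Field W] [Field Ω]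
    [Algebra K F] [Algebra K W] [Algebra K Ω]
    (j : F →ₐ[K] W), (j : F →+* W).Finite → ∀ (j₁ j₂ j₃ : F →ₐ[K] Ω),
    Function.Injective
      (Algebra.TensorProduct.productMap (Algebra.TensorProduct.productMap j₁ j₂) j₃) →
    ∃ (Ω' : Type u) (_ : Field Ω') (_ : Algebra K Ω') (_ : Algebra Ω Ω')
      (_ : IsScalarTower K Ω Ω') (_ : FiniteDimensional Ω Ω') (ιW : W →ₐ[K] Ω'),
      ιW.comp j = (IsScalarTower.toAlgHom K Ω Ω').comp j₁ ∧
      Function.Injective (Algebra.TensorProduct.productMap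
        (Algebra.TensorProduct.productMap ιW ((IsScalarTower.toAlgHom K Ω Ω').comp j₂))
        ((IsScalarTower.toAlgHom K Ω Ω').comp j₃))

variable {K : Type u} [Field K] {A : Scheme.{u}} (f : A ⟶ Spec (CommRingCat.of K))

section Val

variable {Ω : Type u} [Field Ω] [Algebra K Ω]
variable [IsIntegral A] [IsLocallyNoetherian A] [IsProper f] (G : RelativeGroupLaw K f)
  {U : A.Opens}

/-- the generator of the zero point has value `1` (the zero point lies in `U`). -/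
theorem s26ecu_gen_one_val (hD : S26emLocData U) (hU0 : s26zero f G ∈ U)
    (V : ValuationSubring Ω) (hV : S26erOver K V) :
    V.valuation (s26eGen f U (G.one _) V) = 1 := by
  letI := s26emAlg V hV
  haveI := s26emAlg_tower V hV
  rw [s26eGen_eq_emFam]
  refine (s26emFam_val_eq_one_iff f hD (G.one _) V hV).2 ?_
  unfold s26eptCentre
  rw [s26eptLift_one, s26e_pt_one]
  exact hU0

omit [IsIntegral A] [IsLocallyNoetherian A] [IsProper f] in
theorem s26ecu_aux {Γ₀ : Type*} [CommGroupWithZero Γ₀] (p1 p2 p3 p4 p5 p6 p7 : Γ₀) :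
    p1 * p2 / (p3 * p4) / (p7 * 1 / (p5 * p6)) = p1 * p2 * p5 * p6 / (p3 * p4 * p7) := by
  rw [mul_one]
  simp only [div_eq_mul_inv, mul_inv_rev, inv_inv, mul_assoc, mul_comm, mul_left_comm]

/-- `Sq(a; y, z) / Sq(0; y, z)` has the values of the cube family of `(a, y, z)`. -/
theorem s26ecu_sq_div_val (hD : S26emLocData U) (hU0 : s26zero f G ∈ U)
    (a y z : s26eptPts f Ω) (V : ValuationSubring Ω) (hV : S26erOver K V) :
    V.valuation (s26eSq f G U a y z V / s26eSq f G U (G.one _) y z V) =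
      V.valuation (s26eCube f G U a y z V) := by
  unfold s26eSq s26eCube
  rw [G.one_mul, G.one_mul]
  simp only [map_div₀, map_mul]
  rw [s26ecu_gen_one_val f G hD hU0 V hV]
  exact s26ecu_aux _ _ _ _ _ _ _

/-- the generator of a generic point does not vanish. -/
theorem s26ecu_gen_ne_zero (hD : S26emLocData U) (hU0 : s26zero f G ∈ U)
    (P : s26eptPts f Ω) (hP : s26eptPt f P = genericPoint A)
    (V : ValuationSubring Ω) (hV : S26erOver K V) : s26eGen f U P V ≠ 0 := by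
  rw [s26eGen_eq_emFam]
  refine s26emFam_ne_zero f hD P ?_ V hV
  rw [hP]
  exact ((genericPoint_spec A).mem_open_set_iff U.2).2 ⟨s26zero f G, trivial, hU0⟩

end Val

/-! ### (CUBE_univ) -/

section Main

variable [IsIntegral A] [IsLocallyNoetherian A] [IsProper f] (G : RelativeGroupLaw K f)
  {U : A.Opens}

/-- the local form of (T-shear). -/
def S26ecuShear : Prop :=
  ∀ (Ω : Type u) [Field Ω] [Algebra K Ω] (j₁ j₂ j₃ : s26F f →ₐ[K] Ω),
    S26eIndep3 f j₁ j₂ j₃ →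
    ∃ j' : s26F f →ₐ[K] Ω, s26ePt f j' = G.mul _ (s26ePt f j₁) (s26ePt f j₃) ∧
      S26eIndep3 f j' j₂ j₃

omit [IsLocallyNoetherian A] [IsProper f] in
theorem s26ecu_shear_of (hTS : s26e_StmtTShear.{u}) (g : ℕ) (H : S26Hyp K f G g) :
    S26ecuShear f G :=
  fun Ω _ _ j₁ j₂ j₃ h => hTS K f G g H Ω j₁ j₂ j₃ h

variable {Ω : Type u} [Field Ω] [Algebra K Ω]

/-- the cube family of an independent generic triple does not vanish: the seven points are
generic, by (T-shear). -/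
theorem s26ecu_cube_ne_zero (hTS : S26ecuShear f G) (hD : S26emLocData U)
    (hU0 : s26zero f G ∈ U) (j₁ j₂ j₃ : s26F f →ₐ[K] Ω) (hind : S26eIndep3 f j₁ j₂ j₃)
    (V : ValuationSubring Ω) (hV : S26erOver K V) :
    s26eCube f G U (s26ePt f j₁) (s26ePt f j₂) (s26ePt f j₃) V ≠ 0 := by
  obtain ⟨jxz, hxz, -⟩ := hTS Ω j₁ j₂ j₃ hind
  obtain ⟨jxy, hxy, hxy'⟩ := hTS Ω j₁ j₃ j₂ (s26etp_swap23 f j₁ j₂ j₃ hind)
  obtain ⟨jxyz, hxyz, -⟩ := hTS Ω jxy j₂ j₃ (s26etp_swap23 f jxy j₃ j₂ hxy')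
  obtain ⟨jyz, hyz, -⟩ := hTS Ω j₂ j₁ j₃ (s26etp_swap12 f j₁ j₂ j₃ hind)
  rw [hxy] at hxyz
  have gen : ∀ j : s26F f →ₐ[K] Ω, s26eGen f U (s26ePt f j) V ≠ 0 := fun j =>
    s26ecu_gen_ne_zero f G hD hU0 _ (s26eptPt_pt f j) V hV
  have h1 := gen jxyz
  have h2 := gen jxy
  have h3 := gen jxz
  have h4 := gen jyz
  rw [hxyz] at h1
  rw [hxy] at h2
  rw [hxz] at h3
  rw [hyz] at h4
  unfold s26eCube
  exact div_ne_zero (mul_ne_zero (mul_ne_zero (mul_ne_zero h1 (gen j₁)) (gen j₂)) (gen j₃))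
    (mul_ne_zero (mul_ne_zero h2 h3) h4)

end Main

/-- **(CUBE_univ)** from (CRV), (C-IND), (T-shear) and the field step (F). -/
theorem s26ecu_cubeUniv_of (hCrv : s26e_StmtCrv.{u}) (hCInd : s26e_StmtCInd.{u})
    (hTS : s26e_StmtTShear.{u}) (hF : s26ecu_StmtFieldStep.{u}) : s26e_StmtCubeUniv.{u} := by
  intro K _ A f G g H _ _ _ U hU hLoc Ω _ _ j₁ j₂ j₃ hind
  haveI : IsAlgClosed K := H.algClosed
  obtain ⟨W, iW, aW, b, j, hch, hb, hfin⟩ := hCrv K f G g H
  obtain ⟨Ω', iΩ', aKΩ', aΩΩ', tower, fin, ιW, hιW, hinj⟩ :=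
    hF K (s26F f) W Ω j hfin j₁ j₂ j₃ hind
  obtain ⟨c, F, hc, hrel⟩ := hCInd K f G g H U hU hLoc W b hch Ω' ιW _ _ hinj
  have hGF : S26ectGenFunc f U := s26ect_genFunc_of f s26em_stmtGenFunc G g H U hU hLoc
  have hx : s26eptMap f ιW b = s26ectUp f (Ω' := Ω') (s26ePt f j₁) := by
    rw [← hb]
    unfold s26ePt s26ectUp
    rw [← s26eptMap_comp, ← s26eptMap_comp, hιW]
  have hy : ∀ i : s26F f →ₐ[K] Ω, s26ePt f ((IsScalarTower.toAlgHom K Ω Ω').comp i) =
      s26ectUp f (Ω' := Ω') (s26ePt f i) := by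
    intro i
    unfold s26ePt s26ectUp
    rw [s26eptMap_comp]
  rw [hx, hy j₂, hy j₃] at hrel
  have hrel' : S26erIsRel K (fun V' => s26eCube f G U (s26ectUp f (Ω' := Ω') (s26ePt f j₁))
      (s26ectUp f (Ω' := Ω') (s26ePt f j₂)) (s26ectUp f (Ω' := Ω') (s26ePt f j₃)) V' ^ c) F :=
    hrel.congr (fun V' hV' => by
      rw [map_pow, map_pow, s26ecu_sq_div_val f G hLoc hU.2.1 _ _ _ V' hV'])
  have h0 : ∀ V : ValuationSubring Ω, S26erOver K V →
      s26eCube f G U (s26ePt f j₁) (s26ePt f j₂) (s26ePt f j₃) V ≠ 0 := fun V hV =>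
    s26ecu_cube_ne_zero f G (s26ecu_shear_of f G hTS g H) hLoc hU.2.1 j₁ j₂ j₃ hind V hV
  exact ⟨c * Module.finrank Ω Ω', Algebra.norm Ω F, Nat.mul_pos hc Module.finrank_pos,
    s26ect_cube_norm G hGF _ _ _ c h0 hrel'⟩

/-! ### (CUBE_univ) ⇒ (CUBE_gen): the universal triple -/

section Univ

open Algebra.TensorProduct

/-- a homomorphism from the triple tensor product is the product of its three restrictions. -/
theorem s26ecu_productMap_incl {K F Ω : Type*} [CommRing K] [CommRing F] [Algebra K F]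
    [CommRing Ω] [Algebra K Ω] (σ : (F ⊗[K] F) ⊗[K] F →ₐ[K] Ω) :
    productMap (productMap (σ.comp (includeLeft.comp includeLeft))
      (σ.comp (includeLeft.comp includeRight))) (σ.comp includeRight) = σ := by
  apply Algebra.TensorProduct.ext'
  intro x c
  induction x using TensorProduct.induction_on with
  | zero => simp
  | tmul a b =>
    simp only [productMap_apply_tmul, AlgHom.comp_apply, includeLeft_apply, includeRight_apply]
    rw [← map_mul, ← map_mul]
    congr 1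
    simp [Algebra.TensorProduct.tmul_mul_tmul]
  | add x y hx hy => rw [TensorProduct.add_tmul, map_add, map_add, hx, hy]

/-- **the universal independent triple**: in `Ω₃ = Frac ((F ⊗ F) ⊗ F)`; every independent
triple is its image under a `K`-embedding of `Ω₃`. -/
theorem s26ecu_univ_exists (K F : Type u) [Field K] [Field F] [Algebra K F]
    [IsDomain ((F ⊗[K] F) ⊗[K] F)] :
    ∃ (Ω₃ : Type u) (_ : Field Ω₃) (_ : Algebra K Ω₃) (u₁ u₂ u₃ : F →ₐ[K] Ω₃),
      Function.Injective (productMap (productMap u₁ u₂) u₃) ∧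
      ∀ (Ω : Type u) [Field Ω] [Algebra K Ω] (j₁ j₂ j₃ : F →ₐ[K] Ω),
        Function.Injective (productMap (productMap j₁ j₂) j₃) →
        ∃ τ : Ω₃ →ₐ[K] Ω, τ.comp u₁ = j₁ ∧ τ.comp u₂ = j₂ ∧ τ.comp u₃ = j₃ := by
  let σ : (F ⊗[K] F) ⊗[K] F →ₐ[K] FractionRing ((F ⊗[K] F) ⊗[K] F) :=
    IsScalarTower.toAlgHom K _ _
  have hσ : Function.Injective σ := IsFractionRing.injective ((F ⊗[K] F) ⊗[K] F) _
  refine ⟨FractionRing ((F ⊗[K] F) ⊗[K] F), inferInstance, inferInstance,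
    σ.comp (includeLeft.comp includeLeft), σ.comp (includeLeft.comp includeRight),
    σ.comp includeRight, ?_, ?_⟩
  · rw [s26ecu_productMap_incl σ]
    exact hσ
  · intro Ω _ _ j₁ j₂ j₃ hind
    let τ : FractionRing ((F ⊗[K] F) ⊗[K] F) →ₐ[K] Ω :=
      IsFractionRing.liftAlgHom (g := productMap (productMap j₁ j₂) j₃) hind
    have hτ : τ.comp σ = productMap (productMap j₁ j₂) j₃ :=
      AlgHom.ext fun x => IsFractionRing.lift_algebraMap hind x
    refine ⟨τ, ?_, ?_, ?_⟩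
    · rw [← AlgHom.comp_assoc, hτ, ← AlgHom.comp_assoc, productMap_left, productMap_left]
    · rw [← AlgHom.comp_assoc, hτ, ← AlgHom.comp_assoc, productMap_left, productMap_right]
    · rw [← AlgHom.comp_assoc, hτ, productMap_right]

end Univ

section Transport

variable [IsIntegral A] [IsLocallyNoetherian A] [IsProper f] (G : RelativeGroupLaw K f)
  {U : A.Opens}

/-- (TR) along an arbitrary `K`-embedding of fields. -/
theorem s26ecu_cube_transport {Ω₃ Ω : Type u} [Field Ω₃] [Field Ω] [Algebra K Ω₃] [Algebra K Ω]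
    (τ : Ω₃ →ₐ[K] Ω) (hGF : S26ectGenFunc f U) (x y z : s26eptPts f Ω₃) (c : ℕ) {F : Ω₃}
    (h : S26erIsRel K (fun V => s26eCube f G U x y z V ^ c) F) :
    S26erIsRel K (fun V' => s26eCube f G U (s26eptMap f τ x) (s26eptMap f τ y)
      (s26eptMap f τ z) V' ^ c) (τ F) := by
  letI : Algebra Ω₃ Ω := τ.toRingHom.toAlgebra
  haveI : IsScalarTower K Ω₃ Ω := IsScalarTower.of_algebraMap_eq (fun a => (τ.commutes a).symm)
  have hτ' : IsScalarTower.toAlgHom K Ω₃ Ω = τ := AlgHom.ext fun _ => rfl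
  have h1 := s26ect_cube_map (Ω' := Ω) G hGF x y z c h
  unfold s26ectUp at h1
  rw [hτ'] at h1
  exact h1

end Transport

/-- **(CUBE_univ) ⇒ (CUBE_gen)**: the multiplier of the universal triple in
`Frac ((𝔉 ⊗ 𝔉) ⊗ 𝔉)` works for all independent generic triples, by (TR). -/
theorem s26ecu_cubeGen_of_univ (hCU : s26e_StmtCubeUniv.{u}) : s26e_StmtCubeGen.{u} := by
  intro K _ A f G g H _ _ _ U hU hLoc
  by_cases hex : ∃ (Ω₀ : Type u) (_ : Field Ω₀) (_ : Algebra K Ω₀)
      (i₁ i₂ i₃ : s26F f →ₐ[K] Ω₀), S26eIndep3 f i₁ i₂ i₃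
  · obtain ⟨Ω₀, _, _, i₁, i₂, i₃, hi⟩ := hex
    haveI : IsDomain ((s26F f ⊗[K] s26F f) ⊗[K] s26F f) :=
      Function.Injective.isDomain (Algebra.TensorProduct.productMap
        (Algebra.TensorProduct.productMap i₁ i₂) i₃).toRingHom hi
    obtain ⟨Ω₃, _, _, u₁, u₂, u₃, hu, huniv⟩ := s26ecu_univ_exists K (s26F f)
    obtain ⟨c, F, hc, hrel⟩ := hCU K f G g H U hU hLoc Ω₃ u₁ u₂ u₃ hu
    have hGF : S26ectGenFunc f U := s26ect_genFunc_of f s26em_stmtGenFunc G g H U hU hLoc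
    refine ⟨c, hc, fun Ω _ _ j₁ j₂ j₃ hind => ?_⟩
    obtain ⟨τ, h1, h2, h3⟩ := huniv Ω j₁ j₂ j₃ hind
    have h := s26ecu_cube_transport f G τ hGF _ _ _ c hrel
    unfold s26ePt at h
    rw [← s26eptMap_comp, ← s26eptMap_comp, ← s26eptMap_comp, h1, h2, h3] at h
    exact ⟨_, h⟩
  · exact ⟨1, one_pos, fun Ω _ _ j₁ j₂ j₃ h => absurd ⟨Ω, _, _, j₁, j₂, j₃, h⟩ hex⟩

end Fermat.Agent.S26

end
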