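import Mathlib

/-!
# S26 / E-FORMAL (helper19): from the parallelogram law to `2 [N]^* D ~ 2 N² D`, formally

Abstract setting: `F` a field (`= K(A × A)`), `P` a set of "prime divisors", `ord : F → P → ℤ`
additive on nonzero functions; `Q : ℤ × ℤ → P → ℤ` a family of divisors (`Q (a, b)` = the pull-back
of `D` by the linear form `(x, y) ↦ a x + b y`).

* `s26efPrin ord hone hmul` : the subgroup of principal divisors;
* `s26ef_pull` : pull-back of a principal divisor along `(ψs, ψ)` with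
  `ord (ψs h) w = ord h (ψ w)`;
* `s26ef_pull_star` : the pull-back of the parallelogram law (★) by `ψ_M`, `M` with rows `r₁, r₂`:
  `Q (r₁ + r₂) + Q (r₁ - r₂) - 2 Q r₁ - 2 Q r₂` is principal;
* `s26ef_quad_abs` : a function `q : ℤ → G` with constant second difference `2 c` is
  `n² c + n b + q 0`;
* `s26ef_main_abs`, `s26ef_main` : `2 Q (N, 0) - 2 N² Q (1, 0)` is principal.
-/

set_option autoImplicit false
set_option linter.unusedSectionVars false
set_option linter.unusedVariables false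

noncomputable section

namespace Fermat.Agent.S26

section Prin

variable {F : Type*} [Field F] {P : Type*} (ord : F → P → ℤ)

/-- The subgroup of principal divisors. -/
def s26efPrin (hone : ord 1 = 0)
    (hmul : ∀ h₁ h₂ : F, h₁ ≠ 0 → h₂ ≠ 0 → ord (h₁ * h₂) = ord h₁ + ord h₂) :
    AddSubgroup (P → ℤ) where
  carrier := {E | ∃ h : F, h ≠ 0 ∧ ord h = E}
  zero_mem' := ⟨1, one_ne_zero, hone⟩
  add_mem' := by
    rintro _ _ ⟨h₁, h₁0, rfl⟩ ⟨h₂, h₂0, rfl⟩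
    exact ⟨h₁ * h₂, mul_ne_zero h₁0 h₂0, hmul h₁ h₂ h₁0 h₂0⟩
  neg_mem' := by
    rintro _ ⟨h, h0, rfl⟩
    refine ⟨h⁻¹, inv_ne_zero h0, ?_⟩
    have h1 := hmul h⁻¹ h (inv_ne_zero h0) h0
    rw [inv_mul_cancel₀ h0, hone] at h1
    exact eq_neg_of_add_eq_zero_left h1.symm

theorem s26ef_mem_prin (hone : ord 1 = 0)
    (hmul : ∀ h₁ h₂ : F, h₁ ≠ 0 → h₂ ≠ 0 → ord (h₁ * h₂) = ord h₁ + ord h₂) (E : P → ℤ) :
    E ∈ s26efPrin ord hone hmul ↔ ∃ h : F, h ≠ 0 ∧ ord h = E := Iff.rfl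

/-- Pull-back of a principal divisor. -/
theorem s26ef_pull (hone : ord 1 = 0)
    (hmul : ∀ h₁ h₂ : F, h₁ ≠ 0 → h₂ ≠ 0 → ord (h₁ * h₂) = ord h₁ + ord h₂)
    (ψs : F →+* F) (ψ : P → P) (hψ : ∀ h : F, h ≠ 0 → ∀ w, ord (ψs h) w = ord h (ψ w))
    (E : P → ℤ) (hE : E ∈ s26efPrin ord hone hmul) :
    (fun w => E (ψ w)) ∈ s26efPrin ord hone hmul := by
  obtain ⟨h, h0, rfl⟩ := hE
  exact ⟨ψs h, (map_ne_zero ψs).mpr h0, funext fun w => hψ h h0 w⟩

/-- **Pull-back of the parallelogram law** by `ψ_M`, `M` with rows `r₁`, `r₂`. -/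
theorem s26ef_pull_star (hone : ord 1 = 0)
    (hmul : ∀ h₁ h₂ : F, h₁ ≠ 0 → h₂ ≠ 0 → ord (h₁ * h₂) = ord h₁ + ord h₂)
    (Q : ℤ × ℤ → P → ℤ)
    (hstar : Q (1, 1) + Q (1, -1) - 2 • Q (1, 0) - 2 • Q (0, 1) ∈ s26efPrin ord hone hmul)
    (ψs : F →+* F) (ψ : P → P) (hψ : ∀ h : F, h ≠ 0 → ∀ w, ord (ψs h) w = ord h (ψ w))
    (r₁ r₂ : ℤ × ℤ)
    (h10 : ∀ w, Q (1, 0) (ψ w) = Q r₁ w) (h01 : ∀ w, Q (0, 1) (ψ w) = Q r₂ w)
    (h11 : ∀ w, Q (1, 1) (ψ w) = Q (r₁ + r₂) w) (h1m : ∀ w, Q (1, -1) (ψ w) = Q (r₁ - r₂) w) :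
    Q (r₁ + r₂) + Q (r₁ - r₂) - 2 • Q r₁ - 2 • Q r₂ ∈ s26efPrin ord hone hmul := by
  have h := s26ef_pull ord hone hmul ψs ψ hψ _ hstar
  convert h using 1
  funext w
  simp only [Pi.add_apply, Pi.sub_apply, Pi.smul_apply, h10, h01, h11, h1m]

end Prin

section Quad

/-- A function on `ℤ` with constant second difference `2 c` is quadratic. -/
theorem s26ef_quad_abs {G : Type*} [AddCommGroup G] (q : ℤ → G) (c : G)
    (h : ∀ n : ℤ, q (n + 1) + q (n - 1) = 2 • q n + 2 • c) (n : ℤ) :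
    q n = (n ^ 2) • c + n • (q 1 - c - q 0) + q 0 := by
  have key : ∀ n : ℤ, (q n = (n ^ 2) • c + n • (q 1 - c - q 0) + q 0) ∧
      (q (n + 1) = ((n + 1) ^ 2) • c + (n + 1) • (q 1 - c - q 0) + q 0) := by
    intro n
    induction n using Int.induction_on with
    | zero =>
      constructor
      · simp
      · simp only [zero_add, one_pow, one_smul]
        abel
    | succ i ih =>
      obtain ⟨h0, h1⟩ := ih
      refine ⟨h1, ?_⟩
      have h2 := h ((i : ℤ) + 1)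
      rw [add_sub_cancel_right] at h2
      have e : q ((i : ℤ) + 1 + 1) = 2 • q ((i : ℤ) + 1) + 2 • c - q (i : ℤ) :=
        eq_sub_of_add_eq h2
      rw [e, h0, h1]
      module
    | pred i ih =>
      obtain ⟨h0, h1⟩ := ih
      have h2 := h (-(i : ℤ))
      refine ⟨?_, ?_⟩
      · have e : q (-(i : ℤ) - 1) = 2 • q (-(i : ℤ)) + 2 • c - q (-(i : ℤ) + 1) :=
          eq_sub_of_add_eq' h2
        rw [e, h0, h1]
        module
      · rw [sub_add_cancel]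
        exact h0
  exact (key n).1

/-- **E-FORMAL**, abstract form. -/
theorem s26ef_main_abs {G : Type*} [AddCommGroup G] (Q : ℤ × ℤ → G)
    (hsymm : ∀ v, Q (-v) = Q v)
    (h1 : ∀ n : ℤ, Q (n + 1, 1) + Q (n - 1, 1) = 2 • Q (n, 1) + 2 • Q (1, 0))
    (N : ℤ) (h2 : Q (N, 1) + Q (N, -1) = 2 • Q (N, 0) + 2 • Q (0, 1)) :
    2 • Q (N, 0) = (2 * N ^ 2) • Q (1, 0) := by
  have hq := s26ef_quad_abs (fun n => Q (n, 1)) (Q (1, 0)) h1
  have hN := hq N
  have hN' := hq (-N)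
  have e : Q (N, -1) = Q (-N, 1) := by
    rw [← hsymm (N, -1)]
    simp
  have h3 : 2 • Q (N, 0) = Q (N, 1) + Q (N, -1) - 2 • Q (0, 1) := eq_sub_of_add_eq h2.symm
  rw [h3, e, hN, hN']
  module

variable {P : Type*} (Prin : AddSubgroup (P → ℤ)) (Q : ℤ × ℤ → P → ℤ)

/-- **E-FORMAL**: if the pulled-back parallelogram laws hold modulo `Prin`, then
`2 Q (N, 0) - 2 N² Q (1, 0) ∈ Prin`. -/
theorem s26ef_main (hsymm : ∀ v, Q (-v) = Q v)
    (h1 : ∀ n : ℤ, Q (n + 1, 1) + Q (n - 1, 1) - 2 • Q (n, 1) - 2 • Q (1, 0) ∈ Prin)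
    (N : ℤ) (h2 : Q (N, 1) + Q (N, -1) - 2 • Q (N, 0) - 2 • Q (0, 1) ∈ Prin) :
    2 • Q (N, 0) - (2 * N ^ 2) • Q (1, 0) ∈ Prin := by
  have key := s26ef_main_abs (G := (P → ℤ) ⧸ Prin) (fun v => QuotientAddGroup.mk (Q v))
    (fun v => by rw [hsymm v])
    (fun n => by
      have := (QuotientAddGroup.eq_zero_iff _).mpr (h1 n)
      simp only [QuotientAddGroup.mk_sub, QuotientAddGroup.mk_add, QuotientAddGroup.mk_nsmul]
        at this
      rw [sub_sub, sub_eq_zero] at this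
      exact this)
    N
    (by
      have := (QuotientAddGroup.eq_zero_iff _).mpr h2
      simp only [QuotientAddGroup.mk_sub, QuotientAddGroup.mk_add, QuotientAddGroup.mk_nsmul]
        at this
      rw [sub_sub, sub_eq_zero] at this
      exact this)
  rw [← QuotientAddGroup.eq_zero_iff]
  simp only [QuotientAddGroup.mk_sub, QuotientAddGroup.mk_nsmul, QuotientAddGroup.mk_zsmul]
  rw [sub_eq_zero]
  exact key

end Quad

end Fermat.Agent.S26
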