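/-
S26-E-G3, LEAF E of helper50's route to `s26eg3t_StmtShearFrac` (helper19).  Mathlib only.

`Ω` a field which is the field of fractions of the image of an injective `Φ : T →ₐ[K] Ω`; every
injective `Ψ : T →ₐ[K] L` into a field extends to `ε : Ω →ₐ[K] L` with `ε ∘ Φ = Ψ`.
-/
import Mathlib

set_option autoImplicit false
set_option linter.style.haveILetI false

namespace Fermat.Agent.S26

universe u

theorem s26eg3t_fracLift {K T Ω L : Type u} [Field K] [CommRing T] [Algebra K T]
    [Field Ω] [Algebra K Ω] [Field L] [Algebra K L]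
    (Φ : T →ₐ[K] Ω) (hΦ : Function.Injective Φ)
    (hfrac : ∀ y : Ω, ∃ a b : T, Φ b ≠ 0 ∧ y * Φ b = Φ a)
    (Ψ : T →ₐ[K] L) (hΨ : Function.Injective Ψ) :
    ∃ ε : Ω →ₐ[K] L, ∀ t, ε (Φ t) = Ψ t := by
  letI : Algebra T Ω := Φ.toRingHom.toAlgebra
  haveI : IsScalarTower K T Ω := IsScalarTower.of_algebraMap_eq (fun c => (Φ.commutes c).symm)
  haveI : IsDomain T := hΦ.isDomain Φ.toRingHom
  have hmap : ∀ t : T, algebraMap T Ω t = Φ t := fun _ => rfl
  haveI : IsFractionRing T Ω :=
    { map_units := by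
        rintro ⟨t, ht⟩
        have ht0 : t ≠ 0 := nonZeroDivisors.ne_zero ht
        have : Φ t ≠ 0 := fun h => ht0 (hΦ (by rw [h, map_zero]))
        exact (hmap t) ▸ this.isUnit
      surj := by
        intro y
        obtain ⟨a, b, hb, hab⟩ := hfrac y
        have hb0 : b ≠ 0 := fun h => hb (by rw [h, map_zero])
        exact ⟨(a, ⟨b, mem_nonZeroDivisors_of_ne_zero hb0⟩), by simpa [hmap] using hab⟩
      exists_of_eq := by
        intro x y hxy
        exact ⟨1, by rw [hΦ hxy]⟩ }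
  refine ⟨IsFractionRing.liftAlgHom (K := Ω) (g := Ψ) hΨ, fun t => ?_⟩
  rw [IsFractionRing.liftAlgHom_apply, ← hmap t, IsFractionRing.lift_algebraMap]
  rfl

end Fermat.Agent.S26
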