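/-
S26-E-G3 (T), LEAF Φ (helper18, for helper50's `s26eg3t_StmtShearFrac`): pure algebra.

* `s26eg3t_prod3_eq`        : `(b₁a₁ ⊗ b₁a₂) ⊗ b₂a₃ = (b₁ ⊗ b₂) ∘ ((a₁ ⊗ a₂) ⊗ a₃)` as product maps;
* `s26eg3t_map_injective`   : the tensor product of two injective `K`-algebra maps (`K` a field) is
                              injective;
* **`s26eg3t_prod3_injective`** : `a₁ ⊗ a₂ : F ⊗ F → L` and `b₁ ⊗ b₂ : L ⊗ L → M` injective ⇒
                              `(b₁a₁ ⊗ b₁a₂) ⊗ b₂a₃ : (F ⊗ F) ⊗ F → M` injective.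
Mathlib only.
-/
import Mathlib

set_option autoImplicit false

namespace Fermat.Agent.S26

open scoped TensorProduct
open Algebra.TensorProduct

universe u

/-- the tensor product of two injective `K`-algebra maps over a field is injective -/
theorem s26eg3t_map_injective {K A B C D : Type u} [Field K] [CommRing A] [Algebra K A]
    [CommRing B] [Algebra K B] [CommRing C] [Algebra K C] [CommRing D] [Algebra K D]
    (φ : A →ₐ[K] C) (ψ : B →ₐ[K] D) (hφ : Function.Injective φ) (hψ : Function.Injective ψ) :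
    Function.Injective (Algebra.TensorProduct.map φ ψ) :=
  TensorProduct.map_injective_of_flat_flat φ.toLinearMap ψ.toLinearMap hφ hψ

/-- `(b₁a₁ ⊗ b₁a₂) ⊗ b₂a₃ = (b₁ ⊗ b₂) ∘ ((a₁ ⊗ a₂) ⊗ a₃)` -/
theorem s26eg3t_prod3_eq {K F₁ F₂ F₃ L₁ L₂ M : Type u} [Field K]
    [CommRing F₁] [Algebra K F₁] [CommRing F₂] [Algebra K F₂] [CommRing F₃] [Algebra K F₃]
    [CommRing L₁] [Algebra K L₁] [CommRing L₂] [Algebra K L₂] [CommRing M] [Algebra K M]
    (a₁ : F₁ →ₐ[K] L₁) (a₂ : F₂ →ₐ[K] L₁) (a₃ : F₃ →ₐ[K] L₂) (b₁ : L₁ →ₐ[K] M)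
    (b₂ : L₂ →ₐ[K] M) :
    productMap (productMap (b₁.comp a₁) (b₁.comp a₂)) (b₂.comp a₃) =
      (productMap b₁ b₂).comp (Algebra.TensorProduct.map (productMap a₁ a₂) a₃) := by
  apply Algebra.TensorProduct.ext
  · apply Algebra.TensorProduct.ext
    · ext x
      simp
    · ext x
      simp
  · ext x
    simp

/-- **LEAF Φ.** -/
theorem s26eg3t_prod3_injective {K F L M : Type u} [Field K] [Field F] [Algebra K F]
    [Field L] [Algebra K L] [CommRing M] [Algebra K M]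
    (a₁ a₂ a₃ : F →ₐ[K] L) (b₁ b₂ : L →ₐ[K] M)
    (ha : Function.Injective (productMap a₁ a₂))
    (hb : Function.Injective (productMap b₁ b₂)) :
    Function.Injective (productMap (productMap (b₁.comp a₁) (b₁.comp a₂)) (b₂.comp a₃)) := by
  rw [s26eg3t_prod3_eq]
  exact hb.comp (s26eg3t_map_injective (productMap a₁ a₂) a₃ ha (a₃ : F →+* L).injective)

end Fermat.Agent.S26
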