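import Fermat.Agent.S26.EG3TShear
import Fermat.Agent.S26.EG3TFrac
import Fermat.Agent.S26.EG3TTens
import Fermat.Agent.S26.EG3TPlan

/-!
# S26-E-G3, part (T) (helper50), file 4: `s26eg3t_StmtShearFrac`

`Ω = Frac ((𝔉 ⊗ 𝔉) ⊗ 𝔉)` through an independent triple `(ι₁, ι₂, ι₃)`.  `B₄ := (A × A) × (A × A)`,
`L := K(B₄)`; `Φ₄ : (𝔉 ⊗ 𝔉) ⊗ 𝔉 → L` (the first three coordinates) is injective (`s26eg3t_disj`
for `A` and for `A × A`, `s26eg3t_prod3_injective`), so `Ω` embeds in `L` by `ε`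
(`s26eg3t_fracLift`), `ε ∘ ι_i = c_i^*`.  The shear `σ` of `B₄` is surjective, hence
`ε (x₁ + x₃) = η₄ ≫ σ ≫ c₁ = A(σ^* ∘ c₁^*)(η)` is generic, so `x₁ + x₃ = η_{j'}` and
`ε ∘ j' = σ^* ∘ c₁^*`, `ε ∘ ι₂ = σ^* ∘ c₂^*`, `ε ∘ ι₃ = σ^* ∘ c₃^*`: `ε ∘ Φ' = σ^* ∘ Φ₄` is injective.
-/

set_option autoImplicit false
set_option linter.style.haveILetI false
set_option linter.unusedSectionVars false
set_option linter.overlappingInstances false

noncomputable section

namespace Fermat.Agent.S26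

open CategoryTheory CategoryTheory.Limits AlgebraicGeometry TopologicalSpace NeronModelInfra
  GoodReductionJacobian
open scoped TensorProduct

universe u

section Tools

variable {K : Type u} [Field K] {X Y Z : Scheme.{u}}
  (hX : X ⟶ Spec (CommRingCat.of K)) (hY : Y ⟶ Spec (CommRingCat.of K))
  (hZ : Z ⟶ Spec (CommRingCat.of K))

/-- (L1) `Y(ψ^*)(η_Y) = ψ ∘ η_X`. -/
theorem s26eg3ta_map_pull_eta [IsIntegral X] [IsIntegral Y] (ψ : X ⟶ Y) [IsDominant ψ]
    (hψ : ψ ≫ hY = hX) :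
    s26eptMap hY (s26eg3tPull hX hY ψ hψ) (s26eg3tEta hY) =
      s26eg3tPush hY hX ψ hψ (s26eg3tEta hX) :=
  (s26eg3tEta_comp hX hY ψ hψ).symm

/-- (L3) push along a composition. -/
theorem s26eg3ta_push_push {R : Type u} [CommRing R] [Algebra K R] (ψ : X ⟶ Y) (χ : Y ⟶ Z)
    (hψ : ψ ≫ hY = hX) (hχ : χ ≫ hZ = hY) (P : s26eptPts hX R) :
    s26eg3tPush hZ hY χ hχ (s26eg3tPush hY hX ψ hψ P) =
      s26eg3tPush hZ hX (ψ ≫ χ) (by rw [Category.assoc, hχ, hψ]) P :=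
  Subtype.ext (Category.assoc _ _ _)

theorem s26eg3ta_push_congr {R : Type u} [CommRing R] [Algebra K R] (ψ ψ' : X ⟶ Y)
    (hψ : ψ ≫ hY = hX) (hψ' : ψ' ≫ hY = hX) (h : ψ = ψ') (P : s26eptPts hX R) :
    s26eg3tPush hY hX ψ hψ P = s26eg3tPush hY hX ψ' hψ' P := by
  subst h; rfl

/-- (L4) `Z(ψ^* ∘ u)(η_Z) = η_X ≫ ψ ≫ c` if `Z(u)(η_Z) = η_Y ≫ c`. -/
theorem s26eg3ta_map_comp_eta [IsIntegral X] [IsIntegral Y] [IsIntegral Z] (ψ : X ⟶ Y)
    [IsDominant ψ] (hψ : ψ ≫ hY = hX) (u : s26F hZ →ₐ[K] s26F hY) (c : Y ⟶ Z)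
    (hc : c ≫ hZ = hY)
    (hu : s26eptMap hZ u (s26eg3tEta hZ) = s26eg3tPush hZ hY c hc (s26eg3tEta hY)) :
    s26eptMap hZ ((s26eg3tPull hX hY ψ hψ).comp u) (s26eg3tEta hZ) =
      s26eg3tPush hZ hX (ψ ≫ c) (by rw [Category.assoc, hc, hψ]) (s26eg3tEta hX) := by
  have e1 := s26eptMap_comp hZ u (s26eg3tPull hX hY ψ hψ) (s26eg3tEta hZ)
  have e2 := congrArg (s26eptMap hZ (s26eg3tPull hX hY ψ hψ)) hu
  have e3 := (s26eg3tPush_map hZ hY (s26eg3tPull hX hY ψ hψ) c hc (s26eg3tEta hY)).symm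
  have e4 := congrArg (s26eg3tPush hZ hY c hc) (s26eg3ta_map_pull_eta hX hY ψ hψ)
  have e5 := s26eg3ta_push_push hX hY hZ ψ c hψ hc (s26eg3tEta hX)
  exact e1.trans (e2.trans (e3.trans (e4.trans e5)))

/-- composition with a product map. -/
theorem s26eg3ta_comp_prod3 {F₁ F₂ F₃ Ω L : Type u} [CommRing F₁] [Algebra K F₁]
    [CommRing F₂] [Algebra K F₂] [CommRing F₃] [Algebra K F₃] [CommRing Ω] [Algebra K Ω]
    [CommRing L] [Algebra K L] (ε : Ω →ₐ[K] L) (u₁ : F₁ →ₐ[K] Ω) (u₂ : F₂ →ₐ[K] Ω)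
    (u₃ : F₃ →ₐ[K] Ω) :
    ε.comp (Algebra.TensorProduct.productMap (Algebra.TensorProduct.productMap u₁ u₂) u₃) =
      Algebra.TensorProduct.productMap
        (Algebra.TensorProduct.productMap (ε.comp u₁) (ε.comp u₂)) (ε.comp u₃) := by
  apply Algebra.TensorProduct.ext
  · apply Algebra.TensorProduct.ext
    · ext x
      simp
    · ext x
      simp
  · ext x
    simp

end Tools

section Main

variable {K : Type u} [Field K] {A : Scheme.{u}} (f : A ⟶ Spec (CommRingCat.of K))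
  (G : RelativeGroupLaw K f)

/-- the sum of the first and the third coordinate of a point of `B₄` is the first coordinate
of its shear. -/
theorem s26eg3ta_mul_eq {R : Type u} [CommRing R] [Algebra K R]
    (Y : s26eptPts (s26epH (s26epH f)) R) :
    G.mul _ (s26eg3tPush f (s26epH (s26epH f)) s26eg3tC1 s26eg3tC1_over Y)
        (s26eg3tPush f (s26epH (s26epH f)) s26eg3tC3 s26eg3tC3_over Y) =
      s26eg3tPush f (s26epH (s26epH f)) s26eg3tC1 s26eg3tC1_over
        (s26eg3tPush (s26epH (s26epH f)) (s26epH (s26epH f)) (s26eg3tSh G) (s26eg3tSh_over G)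
          Y) := by
  have h := s26eg3tShPt_c1 G Y
  have e1 : s26epP1 (s26epP1 Y) =
      s26eg3tPush f (s26epH (s26epH f)) s26eg3tC1 s26eg3tC1_over Y :=
    Subtype.ext (Category.assoc _ _ _)
  have e3 : s26epP1 (s26epP2 Y) =
      s26eg3tPush f (s26epH (s26epH f)) s26eg3tC3 s26eg3tC3_over Y :=
    Subtype.ext (Category.assoc _ _ _)
  rw [e1, e3] at h
  rw [← h]
  apply Subtype.ext
  show ((s26eg3tShPt G Y).1 ≫ _) ≫ _ = (Y.1 ≫ s26eg3tSh G) ≫ s26eg3tC1
  rw [s26eg3tShPt_coe, Category.assoc]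
  rfl

/-- **(T-shear) in the fraction field of `(𝔉 ⊗ 𝔉) ⊗ 𝔉`** (scheme route). -/
theorem s26eg3t_stmtShearFrac : s26eg3t_StmtShearFrac.{u} := by
  intro K _ A f G g hyp _ Ω _ _ ι₁ ι₂ ι₃ hind hfrac
  haveI := hyp.algClosed
  have hypB := s26ep_hyp G g hyp
  have hypB4 := s26ep_hyp (s26epG G) (g + g) hypB
  haveI hIB : IsIntegral (pullback f f) := s26a2_isIntegral (s26epG G) hypB.bundle
  haveI hIB4 : IsIntegral (pullback (s26epH f) (s26epH f)) :=
    s26a2_isIntegral (s26epG (s26epG G)) hypB4.bundle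
  haveI := hyp.bundle.proper
  haveI := hypB.bundle.proper
  haveI : LocallyOfFiniteType f := inferInstance
  haveI : LocallyOfFiniteType (s26epH f) := inferInstance
  haveI hdSh : IsDominant (s26eg3tSh G) := by
    haveI := s26eg3tSh_surjective G
    infer_instance
  -- the pull-backs
  let P1 : s26F f →ₐ[K] s26F (s26epH f) := s26eg3tPr1 f
  let P2 : s26F f →ₐ[K] s26F (s26epH f) := s26eg3tPr2 f
  let Q1 : s26F (s26epH f) →ₐ[K] s26F (s26epH (s26epH f)) := s26eg3tPr1 (s26epH f)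
  let Q2 : s26F (s26epH f) →ₐ[K] s26F (s26epH (s26epH f)) := s26eg3tPr2 (s26epH f)
  let S : s26F (s26epH (s26epH f)) →ₐ[K] s26F (s26epH (s26epH f)) :=
    s26eg3tPull (s26epH (s26epH f)) (s26epH (s26epH f)) (s26eg3tSh G) (s26eg3tSh_over G)
  have hΦ₄ : Function.Injective (Algebra.TensorProduct.productMap
      (Algebra.TensorProduct.productMap (Q1.comp P1) (Q1.comp P2)) (Q2.comp P1)) :=
    s26eg3t_prod3_injective P1 P2 P1 Q1 Q2 (s26eg3t_disj f) (s26eg3t_disj (s26epH f))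
  obtain ⟨ε, hε⟩ := s26eg3t_fracLift
    (Algebra.TensorProduct.productMap (Algebra.TensorProduct.productMap ι₁ ι₂) ι₃) hind hfrac
    (Algebra.TensorProduct.productMap
      (Algebra.TensorProduct.productMap (Q1.comp P1) (Q1.comp P2)) (Q2.comp P1)) hΦ₄
  have hε1 : ε.comp ι₁ = Q1.comp P1 := by
    ext x
    have h := hε ((x ⊗ₜ[K] (1 : s26F f)) ⊗ₜ[K] (1 : s26F f))
    simpa using h
  have hε2 : ε.comp ι₂ = Q1.comp P2 := by
    ext x
    have h := hε (((1 : s26F f) ⊗ₜ[K] x) ⊗ₜ[K] (1 : s26F f))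
    simpa using h
  have hε3 : ε.comp ι₃ = Q2.comp P1 := by
    ext x
    have h := hε (((1 : s26F f) ⊗ₜ[K] (1 : s26F f)) ⊗ₜ[K] x)
    simpa using h
  -- the coordinates of the generic point of `B₄`
  haveI := s26eg3t_dominant_fst f
  haveI := s26eg3t_dominant_snd f
  haveI := s26eg3t_dominant_fst (s26epH f)
  haveI := s26eg3t_dominant_snd (s26epH f)
  have hP1 : s26eptMap f P1 (s26eg3tEta f) =
      s26eg3tPush f (s26epH f) (pullback.fst f f) rfl (s26eg3tEta (s26epH f)) :=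
    s26eg3ta_map_pull_eta (s26epH f) f (pullback.fst f f) rfl
  have hP2 : s26eptMap f P2 (s26eg3tEta f) =
      s26eg3tPush f (s26epH f) (pullback.snd f f) pullback.condition.symm
        (s26eg3tEta (s26epH f)) :=
    s26eg3ta_map_pull_eta (s26epH f) f (pullback.snd f f) pullback.condition.symm
  have hc1 : s26eptMap f (Q1.comp P1) (s26eg3tEta f) =
      s26eg3tPush f (s26epH (s26epH f)) s26eg3tC1 s26eg3tC1_over
        (s26eg3tEta (s26epH (s26epH f))) :=
    s26eg3ta_map_comp_eta (s26epH (s26epH f)) (s26epH f) f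
      (pullback.fst (s26epH f) (s26epH f)) rfl P1 (pullback.fst f f) rfl hP1
  have hc2 : s26eptMap f (Q1.comp P2) (s26eg3tEta f) =
      s26eg3tPush f (s26epH (s26epH f)) s26eg3tC2 s26eg3tC2_over
        (s26eg3tEta (s26epH (s26epH f))) :=
    s26eg3ta_map_comp_eta (s26epH (s26epH f)) (s26epH f) f
      (pullback.fst (s26epH f) (s26epH f)) rfl P2 (pullback.snd f f) pullback.condition.symm hP2
  have hc3 : s26eptMap f (Q2.comp P1) (s26eg3tEta f) =
      s26eg3tPush f (s26epH (s26epH f)) s26eg3tC3 s26eg3tC3_over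
        (s26eg3tEta (s26epH (s26epH f))) :=
    s26eg3ta_map_comp_eta (s26epH (s26epH f)) (s26epH f) f
      (pullback.snd (s26epH f) (s26epH f)) pullback.condition.symm P1 (pullback.fst f f) rfl hP1
  -- the shear
  have hS : ∀ (u : s26F f →ₐ[K] s26F (s26epH (s26epH f)))
      (c : pullback (s26epH f) (s26epH f) ⟶ A) (hc : c ≫ f = s26epH (s26epH f)),
      s26eptMap f u (s26eg3tEta f) =
        s26eg3tPush f (s26epH (s26epH f)) c hc (s26eg3tEta (s26epH (s26epH f))) →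
      s26eptMap f (S.comp u) (s26eg3tEta f) =
        s26eg3tPush f (s26epH (s26epH f)) (s26eg3tSh G ≫ c)
          (by rw [Category.assoc, hc, s26eg3tSh_over]) (s26eg3tEta (s26epH (s26epH f))) :=
    fun u c hc hu => s26eg3ta_map_comp_eta (s26epH (s26epH f)) (s26epH (s26epH f)) f
      (s26eg3tSh G) (s26eg3tSh_over G) u c hc hu
  have hSc2 : S.comp (Q1.comp P2) = Q1.comp P2 := by
    apply s26eg3t_map_eta_injective f
    show s26eptMap f (S.comp (Q1.comp P2)) (s26eg3tEta f) =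
      s26eptMap f (Q1.comp P2) (s26eg3tEta f)
    rw [hS _ _ _ hc2, hc2]
    exact s26eg3ta_push_congr _ _ _ _ _ _ (s26eg3tSh_c2 G) _
  have hSc3 : S.comp (Q2.comp P1) = Q2.comp P1 := by
    apply s26eg3t_map_eta_injective f
    show s26eptMap f (S.comp (Q2.comp P1)) (s26eg3tEta f) =
      s26eptMap f (Q2.comp P1) (s26eg3tEta f)
    rw [hS _ _ _ hc3, hc3]
    exact s26eg3ta_push_congr _ _ _ _ _ _ (s26eg3tSh_c3 G) _
  -- the sum
  have hpt : ∀ j : s26F f →ₐ[K] Ω, s26eptMap f ε (s26ePt f j) =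
      s26eptMap f (ε.comp j) (s26eg3tEta f) := by
    intro j
    rw [s26eptMap_comp]
    rfl
  have hεP : s26eptMap f ε (G.mul _ (s26ePt f ι₁) (s26ePt f ι₃)) =
      s26eptMap f (S.comp (Q1.comp P1)) (s26eg3tEta f) := by
    rw [s26eptMap_mul, hpt, hpt, hε1, hε3, hc1, hc3, s26eg3ta_mul_eq, hS _ _ _ hc1,
      s26eg3ta_push_push]
  have hgen : s26eptPt f (G.mul _ (s26ePt f ι₁) (s26ePt f ι₃)) = genericPoint A := by
    haveI : IsLocalHom ((ε : Ω →ₐ[K] s26F (s26epH (s26epH f))) :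
        Ω →+* s26F (s26epH (s26epH f))) := s26eg3t_isLocalHom _
    rw [← s26eptPt_map f ε (G.mul _ (s26ePt f ι₁) (s26ePt f ι₃)), hεP]
    exact s26eg3t_pt_map_eta f _
  obtain ⟨j', hj'⟩ := s26eg3t_exists_of_generic f _ hgen
  refine ⟨j', hj', ?_⟩
  have hεj : ε.comp j' = S.comp (Q1.comp P1) := by
    apply s26eg3t_map_eta_injective f
    show s26eptMap f (ε.comp j') (s26eg3tEta f) =
      s26eptMap f (S.comp (Q1.comp P1)) (s26eg3tEta f)
    rw [s26eptMap_comp, hj', hεP]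
  have hcomp : ε.comp (Algebra.TensorProduct.productMap
        (Algebra.TensorProduct.productMap j' ι₂) ι₃) =
      S.comp (Algebra.TensorProduct.productMap
        (Algebra.TensorProduct.productMap (Q1.comp P1) (Q1.comp P2)) (Q2.comp P1)) := by
    rw [s26eg3ta_comp_prod3, s26eg3ta_comp_prod3, hεj, hε2, hε3, hSc2, hSc3]
  have hinj : Function.Injective (ε.comp (Algebra.TensorProduct.productMap
      (Algebra.TensorProduct.productMap j' ι₂) ι₃)) := by
    rw [hcomp]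
    intro a b hab
    apply hΦ₄
    apply s26eg3tPull_injective (s26epH (s26epH f)) (s26epH (s26epH f)) (s26eg3tSh G)
      (s26eg3tSh_over G)
    exact hab
  intro a b hab
  apply hinj
  show ε (Algebra.TensorProduct.productMap (Algebra.TensorProduct.productMap j' ι₂) ι₃ a) =
    ε (Algebra.TensorProduct.productMap (Algebra.TensorProduct.productMap j' ι₂) ι₃ b)
  rw [hab]

end Main

end Fermat.Agent.S26

end
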