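import Mathlib
import Fermat.Agent.S26.A1

/-!
# S26-E, piece (P1), part 1: the product `B = A ×_R A` with its group law

`f : A ⟶ Spec R`, `G : RelativeGroupLaw R f`.  `B := pullback f f` with structure map
`s26epH f := pullback.fst f f ≫ f`.

* `s26epP1`, `s26epP2`, `s26epMk`     : `B(T) ≃ A(T) × A(T)`, natural in `T` (`s26epEquiv`);
* `s26epG G : RelativeGroupLaw R (s26epH f)` : the product group law (componentwise);
* `s26epG_comm`                        : it is commutative if `G` is;
* `s26epG_nsmul`                       : `nsmul` is componentwise;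
* `s26ep_isTorsionPoint_iff`.
-/

set_option autoImplicit false

noncomputable section

universe u

open CategoryTheory CategoryTheory.Limits AlgebraicGeometry NeronModelInfra GoodReductionJacobian

namespace Fermat.Agent.S26

variable {R : Type u} [CommRing R] {A : Scheme.{u}} (f : A ⟶ Spec (CommRingCat.of R))

/-- the structure map of `B = A ×_R A`. -/
def s26epH : pullback f f ⟶ Spec (CommRingCat.of R) := pullback.fst f f ≫ f

theorem s26epH_eq_snd : s26epH f = pullback.snd f f ≫ f := pullback.condition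

variable {f}
variable {T T' : Scheme.{u}} {t : T ⟶ Spec (CommRingCat.of R)}
  {t' : T' ⟶ Spec (CommRingCat.of R)}

/-- first component of a point of `B`. -/
def s26epP1 (x : SchemeHomOver t (s26epH f)) : SchemeHomOver t f :=
  ⟨x.1 ≫ pullback.fst f f, by rw [Category.assoc]; exact x.2⟩

/-- second component of a point of `B`. -/
def s26epP2 (x : SchemeHomOver t (s26epH f)) : SchemeHomOver t f :=
  ⟨x.1 ≫ pullback.snd f f, by rw [Category.assoc, ← pullback.condition]; exact x.2⟩

/-- the point of `B` with given components. -/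
def s26epMk (a b : SchemeHomOver t f) : SchemeHomOver t (s26epH f) :=
  ⟨pullback.lift a.1 b.1 (a.2.trans b.2.symm), by
    show pullback.lift a.1 b.1 _ ≫ pullback.fst f f ≫ f = t
    rw [pullback.lift_fst_assoc]; exact a.2⟩

@[simp] theorem s26epP1_coe (x : SchemeHomOver t (s26epH f)) :
    (s26epP1 x).1 = x.1 ≫ pullback.fst f f := rfl

@[simp] theorem s26epP2_coe (x : SchemeHomOver t (s26epH f)) :
    (s26epP2 x).1 = x.1 ≫ pullback.snd f f := rfl

@[simp] theorem s26epMk_coe (a b : SchemeHomOver t f) :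
    (s26epMk a b).1 = pullback.lift a.1 b.1 (a.2.trans b.2.symm) := rfl

@[simp] theorem s26epP1_mk (a b : SchemeHomOver t f) : s26epP1 (s26epMk a b) = a :=
  Subtype.ext (by rw [s26epP1_coe, s26epMk_coe]; exact pullback.lift_fst _ _ _)

@[simp] theorem s26epP2_mk (a b : SchemeHomOver t f) : s26epP2 (s26epMk a b) = b :=
  Subtype.ext (by rw [s26epP2_coe, s26epMk_coe]; exact pullback.lift_snd _ _ _)

theorem s26ep_ext {x y : SchemeHomOver t (s26epH f)} (h1 : s26epP1 x = s26epP1 y)
    (h2 : s26epP2 x = s26epP2 y) : x = y := by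
  apply Subtype.ext
  apply pullback.hom_ext
  · exact congrArg Subtype.val h1
  · exact congrArg Subtype.val h2

@[simp] theorem s26epMk_eta (x : SchemeHomOver t (s26epH f)) :
    s26epMk (s26epP1 x) (s26epP2 x) = x :=
  s26ep_ext (by simp) (by simp)

/-- `B(T) ≃ A(T) × A(T)`. -/
def s26epEquiv : SchemeHomOver t (s26epH f) ≃ SchemeHomOver t f × SchemeHomOver t f where
  toFun x := (s26epP1 x, s26epP2 x)
  invFun p := s26epMk p.1 p.2
  left_inv x := by simp
  right_inv p := by simp

theorem s26epP1_comp (ψ : T' ⟶ T) (hψ : ψ ≫ t = t') (x : SchemeHomOver t (s26epH f)) :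
    s26epP1 (schemeHomOverComp ψ hψ x) = schemeHomOverComp ψ hψ (s26epP1 x) :=
  Subtype.ext (by simp)

theorem s26epP2_comp (ψ : T' ⟶ T) (hψ : ψ ≫ t = t') (x : SchemeHomOver t (s26epH f)) :
    s26epP2 (schemeHomOverComp ψ hψ x) = schemeHomOverComp ψ hψ (s26epP2 x) :=
  Subtype.ext (by simp)

theorem s26epMk_comp (ψ : T' ⟶ T) (hψ : ψ ≫ t = t') (a b : SchemeHomOver t f) :
    schemeHomOverComp ψ hψ (s26epMk a b)
      = s26epMk (schemeHomOverComp ψ hψ a) (schemeHomOverComp ψ hψ b) :=
  s26ep_ext (by rw [s26epP1_comp]; simp) (by rw [s26epP2_comp]; simp)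

/-- the product group law on `B = A ×_R A`. -/
def s26epG (G : RelativeGroupLaw R f) : RelativeGroupLaw R (s26epH f) where
  mul t x y := s26epMk (G.mul t (s26epP1 x) (s26epP1 y)) (G.mul t (s26epP2 x) (s26epP2 y))
  one t := s26epMk (G.one t) (G.one t)
  inv t x := s26epMk (G.inv t (s26epP1 x)) (G.inv t (s26epP2 x))
  mul_assoc t x y z := by simp only [s26epP1_mk, s26epP2_mk, G.mul_assoc]
  one_mul t x := by simp only [s26epP1_mk, s26epP2_mk, G.one_mul, s26epMk_eta]
  mul_one t x := by simp only [s26epP1_mk, s26epP2_mk, G.mul_one, s26epMk_eta]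
  inv_mul_cancel t x := by simp only [s26epP1_mk, s26epP2_mk, G.inv_mul_cancel]
  mul_natural t t' ψ hψ x y := by
    rw [s26epMk_comp, G.mul_natural t t' ψ hψ, G.mul_natural t t' ψ hψ,
      s26epP1_comp, s26epP1_comp, s26epP2_comp, s26epP2_comp]

variable (G : RelativeGroupLaw R f)

@[simp] theorem s26epG_mul (x y : SchemeHomOver t (s26epH f)) :
    (s26epG G).mul t x y
      = s26epMk (G.mul t (s26epP1 x) (s26epP1 y)) (G.mul t (s26epP2 x) (s26epP2 y)) := rfl

@[simp] theorem s26epG_one : (s26epG G).one t = s26epMk (G.one t) (G.one t) := rfl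

@[simp] theorem s26epG_inv (x : SchemeHomOver t (s26epH f)) :
    (s26epG G).inv t x = s26epMk (G.inv t (s26epP1 x)) (G.inv t (s26epP2 x)) := rfl

theorem s26epG_comm (hc : G.IsCommutative) : (s26epG G).IsCommutative := by
  intro T t x y
  rw [s26epG_mul, s26epG_mul, hc t (s26epP1 x), hc t (s26epP2 x)]

theorem s26epG_nsmul (n : ℕ) (x : SchemeHomOver t (s26epH f)) :
    (s26epG G).nsmul t n x = s26epMk (G.nsmul t n (s26epP1 x)) (G.nsmul t n (s26epP2 x)) := by
  induction n with
  | zero => rfl
  | succ n ih =>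
    rw [RelativeGroupLaw.nsmul_succ, ih, s26epG_mul, s26epP1_mk, s26epP2_mk]
    rfl

theorem s26ep_isTorsionPoint_iff (n : ℕ) (x : SchemeHomOver t (s26epH f)) :
    (s26epG G).IsTorsionPoint t n x ↔
      G.IsTorsionPoint t n (s26epP1 x) ∧ G.IsTorsionPoint t n (s26epP2 x) := by
  unfold RelativeGroupLaw.IsTorsionPoint
  rw [s26epG_nsmul, s26epG_one]
  constructor
  · intro h
    have h1 := congrArg s26epP1 h
    have h2 := congrArg s26epP2 h
    simp only [s26epP1_mk, s26epP2_mk] at h1 h2
    exact ⟨h1, h2⟩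
  · rintro ⟨h1, h2⟩
    rw [h1, h2]

end Fermat.Agent.S26
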