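import Mathlib
import Fermat.Agent.S26.EProd
import Fermat.Agent.S26.A2Sch
import Fermat.Agent.S26.PlanGeo

/-!
# S26-E, piece (P1), part 2: `B = A ×_K A` is again an abelian variety

`K` algebraically closed, `f : A ⟶ Spec K`, `G : RelativeGroupLaw K f`,
`S26Hyp K f G g`.  Then `S26Hyp K (s26epH f) (s26epG G) (g + g)`, so that ALL the pieces
proved for `A` (A2: integral, noetherian, separated, DVR stalks at prime divisors; F1; F2; …)
apply verbatim to `B`.

* `s26ep_smooth`, `s26ep_isProper`, `s26ep_smoothOfRelDim`;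
* `s26epSliceL x : A ⟶ B`, `a ↦ (x, a)` and `s26epSliceR y : A ⟶ B`, `a ↦ (a, y)`;
* `s26ep_connectedSpace`   : `B` is connected;
* `s26ep_bundle`           : `AbelianSchemePropertyBundle K (s26epH f)`;
* `s26ep_hyp`              : `S26Hyp K f G g → S26Hyp K (s26epH f) (s26epG G) (g + g)`.
-/

set_option autoImplicit false
set_option linter.style.haveILetI false

noncomputable section

universe u

open CategoryTheory CategoryTheory.Limits AlgebraicGeometry NeronModelInfra GoodReductionJacobian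

namespace Fermat.Agent.S26

variable {K : Type u} [Field K] {A : Scheme.{u}} {f : A ⟶ Spec (CommRingCat.of K)}

theorem s26ep_smooth [Smooth f] : Smooth (s26epH f) := by
  unfold s26epH; infer_instance

theorem s26ep_isProper [IsProper f] : IsProper (s26epH f) := by
  unfold s26epH; infer_instance

theorem s26ep_smoothOfRelDim (g : ℕ) [SmoothOfRelativeDimension g f] :
    SmoothOfRelativeDimension (g + g) (s26epH f) := by
  unfold s26epH
  haveI : SmoothOfRelativeDimension g (pullback.fst f f) :=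
    (smoothOfRelativeDimension_isStableUnderBaseChange g).of_isPullback
      (IsPullback.of_hasPullback f f).flip inferInstance
  exact smoothOfRelativeDimension_comp g g (pullback.fst f f) f

/-- the slice `a ↦ (x, a)`. -/
def s26epSliceL (x : Spec (CommRingCat.of K) ⟶ A) (hx : x ≫ f = 𝟙 _) : A ⟶ pullback f f :=
  pullback.lift (f ≫ x) (𝟙 A) (by rw [Category.assoc, hx, Category.comp_id, Category.id_comp])

/-- the slice `a ↦ (a, y)`. -/
def s26epSliceR (y : Spec (CommRingCat.of K) ⟶ A) (hy : y ≫ f = 𝟙 _) : A ⟶ pullback f f :=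
  pullback.lift (𝟙 A) (f ≫ y) (by rw [Category.assoc, hy, Category.comp_id, Category.id_comp])

theorem s26epSliceL_comp (x y : Spec (CommRingCat.of K) ⟶ A) (hx : x ≫ f = 𝟙 _)
    (hy : y ≫ f = 𝟙 _) :
    y ≫ s26epSliceL x hx = pullback.lift x y (hx.trans hy.symm) := by
  apply pullback.hom_ext
  · rw [Category.assoc, s26epSliceL, pullback.lift_fst, pullback.lift_fst, ← Category.assoc, hy,
      Category.id_comp]
  · rw [Category.assoc, s26epSliceL, pullback.lift_snd, pullback.lift_snd, Category.comp_id]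

theorem s26epSliceR_comp (x y : Spec (CommRingCat.of K) ⟶ A) (hx : x ≫ f = 𝟙 _)
    (hy : y ≫ f = 𝟙 _) :
    x ≫ s26epSliceR y hy = pullback.lift x y (hx.trans hy.symm) := by
  apply pullback.hom_ext
  · rw [Category.assoc, s26epSliceR, pullback.lift_fst, pullback.lift_fst, Category.comp_id]
  · rw [Category.assoc, s26epSliceR, pullback.lift_snd, pullback.lift_snd, ← Category.assoc, hx,
      Category.id_comp]

/-- a clopen subset of `B` containing the `K`-point `(x₀, y₀)` contains every `K`-point. -/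
theorem s26ep_clopen_mem [ConnectedSpace A] {Z : Set ↥(pullback f f)} (hZ : IsClopen Z)
    (x₀ y₀ x y : Spec (CommRingCat.of K) ⟶ A) (hx₀ : x₀ ≫ f = 𝟙 _) (hy₀ : y₀ ≫ f = 𝟙 _)
    (hx : x ≫ f = 𝟙 _) (hy : y ≫ f = 𝟙 _) (p : Spec (CommRingCat.of K))
    (h₀ : (pullback.lift x₀ y₀ (hx₀.trans hy₀.symm)) p ∈ Z) :
    (pullback.lift x y (hx.trans hy.symm)) p ∈ Z := by
  -- step 1: `(x₀, y) ∈ Z`
  have h1 : (pullback.lift x₀ y (hx₀.trans hy.symm)) p ∈ Z := by
    have hc : IsClopen ((s26epSliceL x₀ hx₀) ⁻¹' Z) := hZ.preimage (s26epSliceL x₀ hx₀).continuous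
    have hne : ((s26epSliceL x₀ hx₀) ⁻¹' Z).Nonempty := by
      refine ⟨y₀ p, ?_⟩
      show (s26epSliceL x₀ hx₀) (y₀ p) ∈ Z
      rw [← Scheme.Hom.comp_apply, s26epSliceL_comp x₀ y₀ hx₀ hy₀]
      exact h₀
    have hu := hc.eq_univ hne
    have hm : y p ∈ (s26epSliceL x₀ hx₀) ⁻¹' Z := by rw [hu]; trivial
    have hm' : (s26epSliceL x₀ hx₀) (y p) ∈ Z := hm
    rw [← Scheme.Hom.comp_apply, s26epSliceL_comp x₀ y hx₀ hy] at hm'
    exact hm'
  -- step 2: `(x, y) ∈ Z`
  have hc : IsClopen ((s26epSliceR y hy) ⁻¹' Z) := hZ.preimage (s26epSliceR y hy).continuous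
  have hne : ((s26epSliceR y hy) ⁻¹' Z).Nonempty := by
    refine ⟨x₀ p, ?_⟩
    show (s26epSliceR y hy) (x₀ p) ∈ Z
    rw [← Scheme.Hom.comp_apply, s26epSliceR_comp x₀ y hx₀ hy]
    exact h1
  have hu := hc.eq_univ hne
  have hm : x p ∈ (s26epSliceR y hy) ⁻¹' Z := by rw [hu]; trivial
  have hm' : (s26epSliceR y hy) (x p) ∈ Z := hm
  rw [← Scheme.Hom.comp_apply, s26epSliceR_comp x y hx hy] at hm'
  exact hm'

/-- a `K`-point of `B` is the pair of its components. -/
theorem s26ep_point_eq (c : Spec (CommRingCat.of K) ⟶ pullback f f)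
    (_hc : c ≫ s26epH f = 𝟙 _) :
    c = pullback.lift (c ≫ pullback.fst f f) (c ≫ pullback.snd f f)
      (by rw [Category.assoc, Category.assoc, pullback.condition]) := by
  apply pullback.hom_ext
  · rw [pullback.lift_fst]
  · rw [pullback.lift_snd]

/-- `B = A ×_K A` is connected. -/
theorem s26ep_connectedSpace [IsAlgClosed K] [LocallyOfFiniteType f] [ConnectedSpace A] :
    ConnectedSpace ↥(pullback f f) := by
  haveI hlft : LocallyOfFiniteType (s26epH f) := by unfold s26epH; infer_instance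
  haveI : JacobsonSpace ↥(pullback f f) := LocallyOfFiniteType.jacobsonSpace (s26epH f)
  haveI : JacobsonSpace A := LocallyOfFiniteType.jacobsonSpace f
  -- a `K`-point of `A`
  obtain ⟨a₀, -, ha₀⟩ := nonempty_inter_closedPoints (X := A) Set.univ_nonempty
    isOpen_univ.isLocallyClosed
  have ha₀c : IsClosed ({a₀} : Set A) := ha₀
  let x₀ : Spec (CommRingCat.of K) ⟶ A := pointOfClosedPoint f a₀ ha₀c
  have hx₀ : x₀ ≫ f = 𝟙 _ := pointOfClosedPoint_comp f a₀ ha₀c
  let p : Spec (CommRingCat.of K) := IsLocalRing.closedPoint K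
  have hne : Nonempty ↥(pullback f f) := ⟨(pullback.lift x₀ x₀ rfl) p⟩
  rw [connectedSpace_iff_clopen]
  refine ⟨hne, ?_⟩
  intro Z hZ
  by_cases hZe : Z = ∅
  · exact Or.inl hZe
  right
  have hZne : Z.Nonempty := Set.nonempty_iff_ne_empty.mpr hZe
  -- a closed point of `Z`
  obtain ⟨b₀, hb₀Z, hb₀⟩ := nonempty_inter_closedPoints hZne hZ.isOpen.isLocallyClosed
  have hb₀c : IsClosed ({b₀} : Set ↥(pullback f f)) := hb₀
  let c₀ : Spec (CommRingCat.of K) ⟶ pullback f f := pointOfClosedPoint (s26epH f) b₀ hb₀c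
  have hc₀ : c₀ ≫ s26epH f = 𝟙 _ := pointOfClosedPoint_comp (s26epH f) b₀ hb₀c
  have hc₀p : c₀ p = b₀ := pointOfClosedPoint_apply (s26epH f) b₀ hb₀c p
  by_contra hZu
  have hcne : (Zᶜ).Nonempty := Set.nonempty_compl.mpr hZu
  obtain ⟨b, hbZ, hb⟩ := nonempty_inter_closedPoints hcne hZ.compl.isOpen.isLocallyClosed
  have hbc : IsClosed ({b} : Set ↥(pullback f f)) := hb
  let c : Spec (CommRingCat.of K) ⟶ pullback f f := pointOfClosedPoint (s26epH f) b hbc
  have hc : c ≫ s26epH f = 𝟙 _ := pointOfClosedPoint_comp (s26epH f) b hbc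
  have hcp : c p = b := pointOfClosedPoint_apply (s26epH f) b hbc p
  have e1 : (c₀ ≫ pullback.fst f f) ≫ f = 𝟙 _ := by rw [Category.assoc]; exact hc₀
  have e2 : (c₀ ≫ pullback.snd f f) ≫ f = 𝟙 _ := by
    rw [Category.assoc, ← pullback.condition]; exact hc₀
  have e3 : (c ≫ pullback.fst f f) ≫ f = 𝟙 _ := by rw [Category.assoc]; exact hc
  have e4 : (c ≫ pullback.snd f f) ≫ f = 𝟙 _ := by
    rw [Category.assoc, ← pullback.condition]; exact hc
  have key := s26ep_clopen_mem hZ (c₀ ≫ pullback.fst f f) (c₀ ≫ pullback.snd f f)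
    (c ≫ pullback.fst f f) (c ≫ pullback.snd f f) e1 e2 e3 e4 p
    (by
      have := s26ep_point_eq c₀ hc₀
      rw [← this, hc₀p]; exact hb₀Z)
  have := s26ep_point_eq c hc
  rw [← this, hcp] at key
  exact hbZ key

/-- the bundle of `B`. -/
theorem s26ep_bundle [IsAlgClosed K] (G : RelativeGroupLaw K f)
    (hA : AbelianSchemePropertyBundle K f) : AbelianSchemePropertyBundle K (s26epH f) := by
  haveI := hA.smooth
  haveI := hA.proper
  haveI := s26a2_connectedSpace hA
  haveI := s26ep_connectedSpace (f := f)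
  refine ⟨s26ep_smooth, s26ep_isProper, ?_, ⟨s26epG G⟩⟩
  intro s
  have h2 : ((s26epH f).base ⁻¹' {s}) = Set.univ := by
    apply Set.eq_univ_of_forall
    intro a
    exact Subsingleton.elim _ _
  rw [h2]
  exact isConnected_univ

/-- **(P1)**: `B = A ×_K A` with the product group law is again an abelian variety. -/
theorem s26ep_hyp (G : RelativeGroupLaw K f) (g : ℕ) (h : S26Hyp K f G g) :
    S26Hyp K (s26epH f) (s26epG G) (g + g) := by
  haveI := h.algClosed
  haveI := h.smooth
  exact ⟨h.algClosed, s26epG_comm G h.comm, s26ep_bundle G h.bundle, s26ep_smoothOfRelDim g⟩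

end Fermat.Agent.S26
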