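import Fermat.Agent.S26.EG3TGen
import Fermat.Agent.S26.EPTVal
import Fermat.Agent.S26.EProdGeo

/-!
# S26-E-G3, part (T) (helper50), file 2: linear disjointness in the function field of `X ×_K X`

`K` algebraically closed, `h : X ⟶ Spec K` locally of finite type, `X` and `X ×_K X` integral.
Then the two pull-backs `pr₁^*, pr₂^* : K(X) → K(X × X)` are linearly disjoint over `K`:

* `s26eg3t_disj : Function.Injective (productMap pr₁^* pr₂^*)`, `K(X) ⊗[K] K(X) → K(X × X)`.

Proof: a relation `∑ pr₁^*(a_s) pr₂^*(e_s) = 0` with `e_s` linearly independent is restricted to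
the slices `{u} × X`, `u` a `K`-point: `∑ a_s(u) e_s = 0`, so `a_s(u) = 0` for all `u`.

Tools (any schemes over `K`):
* `s26eg3tPush` : post-composition of a point with a `K`-morphism, `s26eg3tPush_val` (V1);
* `s26eg3t_val_eta` : the value of a section at the generic point is its germ (V2).
-/

set_option autoImplicit false
set_option linter.style.haveILetI false
set_option linter.unusedSectionVars false
set_option linter.overlappingInstances false

noncomputable section

namespace Fermat.Agent.S26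

open CategoryTheory CategoryTheory.Limits AlgebraicGeometry TopologicalSpace NeronModelInfra
  GoodReductionJacobian

universe u

variable {K : Type u} [Field K] {X Y Z : Scheme.{u}}
  (hX : X ⟶ Spec (CommRingCat.of K)) (hY : Y ⟶ Spec (CommRingCat.of K))
  (hZ : Z ⟶ Spec (CommRingCat.of K))

section Push

variable {R : Type u} [CommRing R] [Algebra K R]

/-- post-composition of a point with a morphism over `K`. -/
def s26eg3tPush (ψ : Z ⟶ Y) (hψ : ψ ≫ hY = hZ) (P : s26eptPts hZ R) : s26eptPts hY R :=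
  ⟨P.1 ≫ ψ, by rw [Category.assoc, hψ]; exact P.2⟩

@[simp] theorem s26eg3tPush_coe (ψ : Z ⟶ Y) (hψ : ψ ≫ hY = hZ) (P : s26eptPts hZ R) :
    (s26eg3tPush hY hZ ψ hψ P).1 = P.1 ≫ ψ := rfl

theorem s26eg3tPush_map {R' : Type u} [CommRing R'] [Algebra K R'] (φ : R →ₐ[K] R')
    (ψ : Z ⟶ Y) (hψ : ψ ≫ hY = hZ) (P : s26eptPts hZ R) :
    s26eg3tPush hY hZ ψ hψ (s26eptMap hZ φ P) = s26eptMap hY φ (s26eg3tPush hY hZ ψ hψ P) :=
  Subtype.ext (by simp [s26eptMap_coe, Category.assoc])

variable [IsLocalRing R]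

theorem s26eg3tPush_pt (ψ : Z ⟶ Y) (hψ : ψ ≫ hY = hZ) (P : s26eptPts hZ R) :
    s26eptPt hY (s26eg3tPush hY hZ ψ hψ P) = ψ (s26eptPt hZ P) := rfl

/-- **(V1)** the value of `ψ^♯ s` at `P` is the value of `s` at `ψ ∘ P`. -/
theorem s26eg3tPush_val (ψ : Z ⟶ Y) (hψ : ψ ≫ hY = hZ) (P : s26eptPts hZ R)
    (V : Y.Opens) (W : Z.Opens) (hle : W ≤ ψ ⁻¹ᵁ V) (hW : s26eptPt hZ P ∈ W)
    (s : Γ(Y, V)) :
    s26eptVal hZ P W hW ((ψ.appLE V W hle).hom s) =
      s26eptVal hY (s26eg3tPush hY hZ ψ hψ P) V (hle hW) s := by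
  have e1 := s26eptVal_eq_appLE hZ P W hW ((ψ.appLE V W hle).hom s)
  have e2 := s26eptVal_eq_appLE hY (s26eg3tPush hY hZ ψ hψ P) V (hle hW) s
  rw [e1, e2]
  have h1 : ψ.appLE V W hle ≫ P.1.appLE W ⊤ (s26ept_preimage_eq_top hZ P W hW).ge =
      (P.1 ≫ ψ).appLE V ⊤ (s26ept_preimage_eq_top hY (s26eg3tPush hY hZ ψ hψ P) V (hle hW)).ge :=
    Scheme.Hom.appLE_comp_appLE P.1 ψ V W ⊤ _ _
  have h2 := congrArg (fun g => g.hom s) h1
  exact congrArg (fun x => (Scheme.ΓSpecIso (CommRingCat.of R)).hom x) h2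

end Push

section Eta

variable [IsIntegral X]

/-- **(V2)** the value of a section at the generic point is its germ. -/
theorem s26eg3t_val_eta (W : X.Opens) (hW : s26eptPt hX (s26eg3tEta hX) ∈ W)
    (hW' : genericPoint X ∈ W) (s : Γ(X, W)) :
    s26eptVal hX (s26eg3tEta hX) W hW s = (X.presheaf.germ W (genericPoint X) hW').hom s := by
  have h := Scheme.stalkClosedPointTo_fromSpecStalk (X := X) (genericPoint X)
  show ((X.presheaf.germ W _ hW) ≫ Scheme.stalkClosedPointTo
    (X.fromSpecStalk (genericPoint X))).hom s = _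
  rw [h, TopCat.Presheaf.stalkCongr_hom]
  have hsp : genericPoint X ⤳ s26eptPt hX (s26eg3tEta hX) :=
    specializes_of_eq (s26eg3t_pt_eta hX).symm
  exact congrArg (fun g : Γ(X, W) ⟶ X.presheaf.stalk (genericPoint X) => g.hom s)
    (X.presheaf.germ_stalkSpecializes hW hsp)

/-- the germ of a pulled back section is the pull-back of the germ. -/
theorem s26eg3t_germ_appLE [IsIntegral Y] (ψ : X ⟶ Y) [IsDominant ψ] (V : Y.Opens) (W : X.Opens)
    (hle : W ≤ ψ ⁻¹ᵁ V) (hV : genericPoint Y ∈ V) (hW : genericPoint X ∈ W) (r : Γ(Y, V)) :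
    (X.presheaf.germ W (genericPoint X) hW).hom ((ψ.appLE V W hle).hom r) =
      s26f1Pull ψ ((Y.presheaf.germ V (genericPoint Y) hV).hom r) := by
  haveI : Nonempty V := ⟨⟨_, hV⟩⟩
  haveI : Nonempty (ψ ⁻¹ᵁ V) := ⟨⟨_, hle hW⟩⟩
  have h1 := s26f1Pull_germ ψ V r
  have h2 : s26f1Pull ψ ((Y.presheaf.germ V (genericPoint Y) hV).hom r) =
      s26f1Pull ψ ((Y.germToFunctionField V).hom r) := rfl
  rw [h2, h1]
  exact congrArg (fun g : Γ(X, ψ ⁻¹ᵁ V) ⟶ X.presheaf.stalk (genericPoint X) =>
      g.hom ((ψ.app V).hom r))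
    (X.presheaf.germ_res (homOfLE hle) (genericPoint X) hW)

/-- a section with zero germ at the generic point is zero. -/
theorem s26eg3t_eq_zero_of_germ (W : X.Opens) (hW : genericPoint X ∈ W) (H : Γ(X, W))
    (h0 : (X.presheaf.germ W (genericPoint X) hW).hom H = 0) : H = 0 := by
  haveI : Nonempty W := ⟨⟨_, hW⟩⟩
  apply Scheme.germToFunctionField_injective X W
  rw [map_zero]
  exact h0

end Eta

section Disj

variable (h : X ⟶ Spec (CommRingCat.of K)) [AlgebraicGeometry.IsIntegral X]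

theorem s26eg3t_surjective : Surjective h :=
  ⟨fun _ => ⟨(inferInstance : Nonempty X).some, Subsingleton.elim _ _⟩⟩

variable [AlgebraicGeometry.IsIntegral (pullback h h)]

theorem s26eg3t_dominant_fst : IsDominant (pullback.fst h h) := by
  haveI := s26eg3t_surjective h
  infer_instance

theorem s26eg3t_dominant_snd : IsDominant (pullback.snd h h) := by
  haveI := s26eg3t_surjective h
  infer_instance

/-- `pr₁^* : K(X) → K(X × X)`. -/
def s26eg3tPr1 : s26F h →ₐ[K] s26F (s26epH h) :=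
  haveI := s26eg3t_dominant_fst h
  s26eg3tPull (s26epH h) h (pullback.fst h h) rfl

/-- `pr₂^* : K(X) → K(X × X)`. -/
def s26eg3tPr2 : s26F h →ₐ[K] s26F (s26epH h) :=
  haveI := s26eg3t_dominant_snd h
  s26eg3tPull (s26epH h) h (pullback.snd h h) pullback.condition.symm

/-- a homomorphism of fields is local. -/
theorem s26eg3t_isLocalHom {F Ω : Type*} [Field F] [Field Ω] (j : F →+* Ω) : IsLocalHom j := by
  constructor
  intro a ha
  have ha0 : a ≠ 0 := by
    rintro rfl
    simp at ha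
  exact isUnit_iff_ne_zero.mpr ha0

omit [AlgebraicGeometry.IsIntegral (pullback h h)] in
/-- **values at `K`-points detect zero** (`X` reduced, Jacobson). -/
theorem s26eg3t_eq_zero_of_val [IsAlgClosed K] [LocallyOfFiniteType h] (U : X.Opens)
    (α : Γ(X, U))
    (H : ∀ (u : s26eptPts h K) (hu : s26eptPt h u ∈ U), s26eptVal h u U hu α = 0) : α = 0 := by
  by_contra hα
  haveI : JacobsonSpace X := LocallyOfFiniteType.jacobsonSpace h
  have hne : X.basicOpen α ≠ ⊥ := fun hb => hα ((basicOpen_eq_bot_iff α).mp hb)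
  have hne' : ((X.basicOpen α : X.Opens) : Set X).Nonempty := by
    rw [Set.nonempty_iff_ne_empty]
    intro he
    exact hne (TopologicalSpace.Opens.ext he)
  obtain ⟨ū, hūD, hūc⟩ := nonempty_inter_closedPoints hne' (X.basicOpen α).2.isLocallyClosed
  have hūc' : IsClosed ({ū} : Set X) := hūc
  have hūU : ū ∈ U := X.basicOpen_le α hūD
  have hu₀ : pointOfClosedPoint h ū hūc' ≫ h = s26eptStr K K := by
    rw [pointOfClosedPoint_comp]
    exact (Spec.map_id _).symm
  let u : s26eptPts h K := ⟨pointOfClosedPoint h ū hūc', hu₀⟩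
  have hupt : s26eptPt h u = ū := pointOfClosedPoint_apply h ū hūc' _
  have huU : s26eptPt h u ∈ U := by rw [hupt]; exact hūU
  have h0 := H u huU
  have hunit : IsUnit ((X.presheaf.germ U (s26eptPt h u) huU).hom α) :=
    (X.mem_basicOpen α (s26eptPt h u) huU).mp (by rw [hupt]; exact hūD)
  have h1 : IsUnit (s26eptVal h u U huU α) := hunit.map (s26eptEv h u)
  rw [h0] at h1
  exact not_isUnit_zero h1

/-- the point `(u, η) ∈ (X × X)(K(X))` of the slice `{u} × X`. -/
def s26eg3tSlicePt (u : s26eptPts h K) : s26eptPts (s26epH h) (s26F h) :=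
  s26epMk (s26eptMap h (Algebra.ofId K (s26F h)) u) (s26eg3tEta h)

omit [AlgebraicGeometry.IsIntegral (pullback h h)] in
theorem s26eg3tSlicePt_fst (u : s26eptPts h K) :
    s26eg3tPush h (s26epH h) (pullback.fst h h) rfl (s26eg3tSlicePt h u) =
      s26eptMap h (Algebra.ofId K (s26F h)) u := by
  have : s26eg3tPush h (s26epH h) (pullback.fst h h) rfl (s26eg3tSlicePt h u) =
      s26epP1 (s26eg3tSlicePt h u) := Subtype.ext rfl
  rw [this, s26eg3tSlicePt, s26epP1_mk]

omit [AlgebraicGeometry.IsIntegral (pullback h h)] in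
theorem s26eg3tSlicePt_snd (u : s26eptPts h K) :
    s26eg3tPush h (s26epH h) (pullback.snd h h) pullback.condition.symm (s26eg3tSlicePt h u) =
      s26eg3tEta h := by
  have : s26eg3tPush h (s26epH h) (pullback.snd h h) pullback.condition.symm
      (s26eg3tSlicePt h u) = s26epP2 (s26eg3tSlicePt h u) := Subtype.ext rfl
  rw [this, s26eg3tSlicePt, s26epP2_mk]

omit [AlgebraicGeometry.IsIntegral (pullback h h)] in
theorem s26eg3tSlicePt_mem (u : s26eptPts h K) (U : X.Opens) (hu : s26eptPt h u ∈ U)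
    (hgen : genericPoint X ∈ U) :
    s26eptPt (s26epH h) (s26eg3tSlicePt h u) ∈
      (pullback.fst h h) ⁻¹ᵁ U ⊓ (pullback.snd h h) ⁻¹ᵁ U := by
  constructor
  · show (pullback.fst h h) (s26eptPt (s26epH h) (s26eg3tSlicePt h u)) ∈ U
    rw [← s26eg3tPush_pt h (s26epH h) (pullback.fst h h) rfl, s26eg3tSlicePt_fst]
    haveI : IsLocalHom ((Algebra.ofId K (s26F h) : K →ₐ[K] s26F h) : K →+* s26F h) :=
      s26eg3t_isLocalHom _
    rw [s26eptPt_map h (Algebra.ofId K (s26F h)) u]
    exact hu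
  · show (pullback.snd h h) (s26eptPt (s26epH h) (s26eg3tSlicePt h u)) ∈ U
    rw [← s26eg3tPush_pt h (s26epH h) (pullback.snd h h) pullback.condition.symm,
      s26eg3tSlicePt_snd, s26eg3t_pt_eta]
    exact hgen

/-- the germ at the generic point, with values in `s26F h`. -/
def s26eg3tGerm (U : X.Opens) (hgen : genericPoint X ∈ U) : Γ(X, U) →+* s26F h :=
  (X.presheaf.germ U (genericPoint X) hgen).hom

/-- the generic point of `X × X` lies over the generic points. -/
theorem s26eg3t_gen_mem (U : X.Opens) (hgen : genericPoint X ∈ U) :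
    genericPoint ↥(pullback h h) ∈ (pullback.fst h h) ⁻¹ᵁ U ⊓ (pullback.snd h h) ⁻¹ᵁ U := by
  haveI := s26eg3t_dominant_fst h
  haveI := s26eg3t_dominant_snd h
  constructor
  · show (pullback.fst h h) (genericPoint ↥(pullback h h)) ∈ U
    rw [s26f1_map_genericPoint]
    exact hgen
  · show (pullback.snd h h) (genericPoint ↥(pullback h h)) ∈ U
    rw [s26f1_map_genericPoint]
    exact hgen

/-- **evaluation of a relation on the slice `{u} × X`.** -/
theorem s26eg3t_eval_rel {ι : Type*} (U : X.Opens) (hgen : genericPoint X ∈ U)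
    (S : Finset ι) (α β : ι → Γ(X, U))
    (hrel : ∑ s ∈ S, s26eg3tPr1 h (s26eg3tGerm h U hgen (α s)) *
        s26eg3tPr2 h (s26eg3tGerm h U hgen (β s)) = 0)
    (u : s26eptPts h K) (hu : s26eptPt h u ∈ U) :
    ∑ s ∈ S, algebraMap K (s26F h) (s26eptVal h u U hu (α s)) *
        s26eg3tGerm h U hgen (β s) = 0 := by
  have hQW := s26eg3tSlicePt_mem h u U hu hgen
  have hgW := s26eg3t_gen_mem h U hgen
  haveI := s26eg3t_dominant_fst h
  haveI := s26eg3t_dominant_snd h
  have hH : (∑ s ∈ S, ((pullback.fst h h).appLE U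
        ((pullback.fst h h) ⁻¹ᵁ U ⊓ (pullback.snd h h) ⁻¹ᵁ U) inf_le_left).hom (α s) *
      ((pullback.snd h h).appLE U
        ((pullback.fst h h) ⁻¹ᵁ U ⊓ (pullback.snd h h) ⁻¹ᵁ U) inf_le_right).hom (β s)) = 0 := by
    apply s26eg3t_eq_zero_of_germ _ hgW
    rw [map_sum]
    refine Eq.trans ?_ hrel
    refine Finset.sum_congr rfl (fun s _ => ?_)
    rw [map_mul]
    have e1 := s26eg3t_germ_appLE (pullback.fst h h) U _ inf_le_left hgen hgW (α s)
    have e2 := s26eg3t_germ_appLE (pullback.snd h h) U _ inf_le_right hgen hgW (β s)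
    rw [e1, e2]
    rfl
  have hval := congrArg (s26eptVal (s26epH h) (s26eg3tSlicePt h u) _ hQW) hH
  rw [map_zero, map_sum] at hval
  rw [← hval]
  refine Finset.sum_congr rfl (fun s _ => ?_)
  rw [map_mul]
  congr 1
  · rw [s26eg3tPush_val h (s26epH h) (pullback.fst h h) rfl (s26eg3tSlicePt h u) U _ inf_le_left
      hQW (α s)]
    have e := s26eptVal_map h (Algebra.ofId K (s26F h)) u U hu (α s)
    rw [show algebraMap K (s26F h) (s26eptVal h u U hu (α s)) =
      (Algebra.ofId K (s26F h)) (s26eptVal h u U hu (α s)) from rfl, ← e]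
    exact s26eptVal_congr h (s26eg3tSlicePt_fst h u).symm U _ _ (α s)
  · rw [s26eg3tPush_val h (s26epH h) (pullback.snd h h) pullback.condition.symm
      (s26eg3tSlicePt h u) U _ inf_le_right hQW (β s)]
    have hη : s26eptPt h (s26eg3tEta h) ∈ U := by rw [s26eg3t_pt_eta]; exact hgen
    have e2 := s26eg3t_val_eta h U hη hgen (β s)
    exact e2.symm.trans (s26eptVal_congr h (s26eg3tSlicePt_snd h u).symm U _ _ (β s))

/-- **the geometric lemma**: a relation `∑ pr₁^*(a_s) pr₂^*(e_s) = 0` with `e` linearly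
independent over `K` has all `a_s = 0`. -/
theorem s26eg3t_rel_zero [IsAlgClosed K] [LocallyOfFiniteType h] {ι : Type*} (e : ι → s26F h)
    (he : LinearIndependent K e) (S : Finset ι) (a : ι → s26F h)
    (hrel : ∑ s ∈ S, s26eg3tPr1 h (a s) * s26eg3tPr2 h (e s) = 0) : ∀ s ∈ S, a s = 0 := by
  classical
  obtain ⟨U, hU, hgen⟩ : ∃ U : X.Opens, IsAffineOpen U ∧ genericPoint X ∈ U := by
    obtain ⟨_, ⟨V, hV, rfl⟩, hxV, -⟩ :=
      X.isBasis_affineOpens.exists_subset_of_mem_open
        (Set.mem_univ (genericPoint X)) isOpen_univ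
    exact ⟨V, hV, hxV⟩
  haveI : Nonempty U := ⟨⟨_, hgen⟩⟩
  haveI hfr : IsFractionRing Γ(X, U) X.functionField :=
    functionField_isFractionRing_of_isAffineOpen X U hU
  have hgerm : ∀ r : Γ(X, U), algebraMap Γ(X, U) X.functionField r = s26eg3tGerm h U hgen r :=
    fun _ => rfl
  let a' : ι → X.functionField := a
  let e' : ι → X.functionField := e
  obtain ⟨d, hd⟩ := IsLocalization.exist_integer_multiples_of_finset
    (nonZeroDivisors Γ(X, U)) (S.image a')
  obtain ⟨d', hd'⟩ := IsLocalization.exist_integer_multiples_of_finset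
    (nonZeroDivisors Γ(X, U)) (S.image e')
  have hα' : ∀ s, s ∈ S → ∃ r : Γ(X, U), s26eg3tGerm h U hgen r =
      s26eg3tGerm h U hgen (d : Γ(X, U)) * a s := by
    intro s hs
    obtain ⟨r, hr⟩ := hd (a' s) (Finset.mem_image_of_mem a' hs)
    refine ⟨r, ?_⟩
    have h5 : algebraMap Γ(X, U) X.functionField r =
        algebraMap Γ(X, U) X.functionField (d : Γ(X, U)) * a' s := by
      rw [hr, Algebra.smul_def]
    exact h5
  have hβ' : ∀ s, s ∈ S → ∃ r : Γ(X, U), s26eg3tGerm h U hgen r =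
      s26eg3tGerm h U hgen (d' : Γ(X, U)) * e s := by
    intro s hs
    obtain ⟨r, hr⟩ := hd' (e' s) (Finset.mem_image_of_mem e' hs)
    refine ⟨r, ?_⟩
    have h5 : algebraMap Γ(X, U) X.functionField r =
        algebraMap Γ(X, U) X.functionField (d' : Γ(X, U)) * e' s := by
      rw [hr, Algebra.smul_def]
    exact h5
  choose! α hα using hα'
  choose! β hβ using hβ'
  have hd0 : s26eg3tGerm h U hgen (d : Γ(X, U)) ≠ 0 := by
    have h6 : algebraMap Γ(X, U) X.functionField (d : Γ(X, U)) ≠ 0 :=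
      IsFractionRing.to_map_ne_zero_of_mem_nonZeroDivisors d.2
    exact h6
  have hd'0 : s26eg3tGerm h U hgen (d' : Γ(X, U)) ≠ 0 := by
    have h6 : algebraMap Γ(X, U) X.functionField (d' : Γ(X, U)) ≠ 0 :=
      IsFractionRing.to_map_ne_zero_of_mem_nonZeroDivisors d'.2
    exact h6
  have hrel' : ∑ s ∈ S, s26eg3tPr1 h (s26eg3tGerm h U hgen (α s)) *
      s26eg3tPr2 h (s26eg3tGerm h U hgen (β s)) = 0 := by
    have hterm : ∀ s ∈ S, s26eg3tPr1 h (s26eg3tGerm h U hgen (α s)) *
        s26eg3tPr2 h (s26eg3tGerm h U hgen (β s)) =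
        (s26eg3tPr1 h (s26eg3tGerm h U hgen (d : Γ(X, U))) *
          s26eg3tPr2 h (s26eg3tGerm h U hgen (d' : Γ(X, U)))) *
          (s26eg3tPr1 h (a s) * s26eg3tPr2 h (e s)) := by
      intro s hs
      rw [hα s hs, hβ s hs, map_mul, map_mul]
      ring
    rw [Finset.sum_congr rfl hterm, ← Finset.mul_sum, hrel, mul_zero]
  have hval : ∀ (u : s26eptPts h K) (hu : s26eptPt h u ∈ U), ∀ s ∈ S,
      s26eptVal h u U hu (α s) = 0 := by
    intro u hu
    have h1 := s26eg3t_eval_rel h U hgen S α β hrel' u hu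
    have h2 : s26eg3tGerm h U hgen (d' : Γ(X, U)) *
        ∑ s ∈ S, (s26eptVal h u U hu (α s)) • e s = 0 := by
      rw [Finset.mul_sum, ← h1]
      refine Finset.sum_congr rfl (fun s hs => ?_)
      rw [hβ s hs, Algebra.smul_def]
      ring
    have h3 : ∑ s ∈ S, (s26eptVal h u U hu (α s)) • e s = 0 :=
      (mul_eq_zero.mp h2).resolve_left hd'0
    exact linearIndependent_iff'.mp he S (fun s => s26eptVal h u U hu (α s)) h3
  intro s hs
  have hαs : α s = 0 := s26eg3t_eq_zero_of_val h U (α s) (fun u hu => hval u hu s hs)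
  have h4 := hα s hs
  rw [hαs, map_zero] at h4
  exact (mul_eq_zero.mp h4.symm).resolve_left hd0

/-- **linear disjointness**: `K(X) ⊗[K] K(X) → K(X ×_K X)` is injective. -/
theorem s26eg3t_disj [IsAlgClosed K] [LocallyOfFiniteType h] :
    Function.Injective (Algebra.TensorProduct.productMap (s26eg3tPr1 h) (s26eg3tPr2 h)) := by
  classical
  rw [injective_iff_map_eq_zero]
  intro t ht
  let b := Module.Basis.ofVectorSpace K (s26F h)
  let B := Algebra.TensorProduct.basis (s26F h) b
  have hrepr : t = ∑ s ∈ (B.repr t).support, (B.repr t s) ⊗ₜ[K] (b s) := by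
    conv_lhs => rw [← B.linearCombination_repr t, Finsupp.linearCombination_apply, Finsupp.sum]
    refine Finset.sum_congr rfl (fun s _ => ?_)
    rw [Algebra.TensorProduct.basis_apply, TensorProduct.smul_tmul', smul_eq_mul, mul_one]
  have h0 : ∑ s ∈ (B.repr t).support, s26eg3tPr1 h (B.repr t s) * s26eg3tPr2 h (b s) = 0 := by
    rw [hrepr, map_sum] at ht
    rw [← ht]
    refine Finset.sum_congr rfl (fun s _ => ?_)
    rw [Algebra.TensorProduct.productMap_apply_tmul]
  have hz := s26eg3t_rel_zero h b b.linearIndependent _ (fun s => B.repr t s) h0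
  have h1 : B.repr t = 0 := by
    ext s
    by_cases hs : s ∈ (B.repr t).support
    · exact hz s hs
    · exact Finsupp.notMem_support_iff.mp hs
  exact (LinearEquiv.map_eq_zero_iff _).mp h1

end Disj

end Fermat.Agent.S26
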