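import Fermat.Agent.S26.F1
import Fermat.Agent.S26.EPTDom

/-!
# S26-E-G3, part (T) (helper50), file 1: generic points as points with values in function fields

`hX : X ⟶ Spec K`, `X` integral; `s26F hX = K(X)` with its `K`-algebra structure (PlanGeo).

* `s26eg3tPull hX hY ψ hψ : s26F hY →ₐ[K] s26F hX` : pull-back of rational functions along a
  dominant `K`-morphism `ψ : X ⟶ Y`;  `s26eg3tPull_comp`;
* `s26eg3tEta hX : s26eptPts hX (s26F hX)` : the generic point `η_X ∈ X(K(X))`;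
* `s26eg3tEta_comp` : `η_X ≫ ψ = Spec (ψ^*) ≫ η_Y`;
* `s26eg3t_pt_eta` : `|η_X|` is the generic point;
* `s26eg3t_exists_of_generic` : a point `P ∈ X(Ω)`, `Ω` a field, with `|P|` generic is
  `X(j)(η_X)` for a `K`-embedding `j : K(X) → Ω`;  `s26eg3t_map_eta_injective` : `j` is unique.
-/

set_option autoImplicit false
set_option linter.style.haveILetI false
set_option linter.unusedSectionVars false
set_option linter.overlappingInstances false

noncomputable section

namespace Fermat.Agent.S26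

open CategoryTheory CategoryTheory.Limits AlgebraicGeometry TopologicalSpace NeronModelInfra
  GoodReductionJacobian

universe u

variable {K : Type u} [Field K] {X Y Z : Scheme.{u}}
  (hX : X ⟶ Spec (CommRingCat.of K)) (hY : Y ⟶ Spec (CommRingCat.of K))
  (hZ : Z ⟶ Spec (CommRingCat.of K))
  [IsIntegral X] [IsIntegral Y] [IsIntegral Z]

/-- The pull-back commutes with the structure maps. -/
theorem s26eg3tPull_algMap (ψ : X ⟶ Y) [IsDominant ψ] (hψ : ψ ≫ hY = hX) (c : K) :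
    s26f1Pull ψ (s26algMap hY c) = s26algMap hX c := by
  haveI : Nonempty (⊤ : Y.Opens) := ⟨⟨genericPoint Y, trivial⟩⟩
  haveI : Nonempty (⊤ : X.Opens) := ⟨⟨genericPoint X, trivial⟩⟩
  haveI : Nonempty (ψ ⁻¹ᵁ (⊤ : Y.Opens)) := ⟨⟨genericPoint X, trivial⟩⟩
  change s26f1Pull ψ ((Y.germToFunctionField ⊤).hom
    ((hY.appTop).hom ((Scheme.ΓSpecIso (CommRingCat.of K)).inv.hom c))) =
    (X.germToFunctionField ⊤).hom
      ((hX.appTop).hom ((Scheme.ΓSpecIso (CommRingCat.of K)).inv.hom c))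
  rw [s26f1Pull_germ]
  have h1 : (ψ.app ⊤).hom ((hY.appTop).hom ((Scheme.ΓSpecIso (CommRingCat.of K)).inv.hom c)) =
      ((ψ ≫ hY).appTop).hom ((Scheme.ΓSpecIso (CommRingCat.of K)).inv.hom c) := rfl
  have h2 : (ψ ≫ hY).appTop = hX.appTop := by rw [hψ]
  rw [h1, h2]
  rfl

/-- **The pull-back of rational functions as a `K`-algebra homomorphism.** -/
def s26eg3tPull (ψ : X ⟶ Y) [IsDominant ψ] (hψ : ψ ≫ hY = hX) : s26F hY →ₐ[K] s26F hX :=
  { (s26f1Pull ψ : Y.functionField →+* X.functionField) with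
    commutes' := fun c => s26eg3tPull_algMap hX hY ψ hψ c }

theorem s26eg3tPull_apply (ψ : X ⟶ Y) [IsDominant ψ] (hψ : ψ ≫ hY = hX) (x : s26F hY) :
    s26eg3tPull hX hY ψ hψ x = s26f1Pull ψ x := rfl

theorem s26eg3tPull_injective (ψ : X ⟶ Y) [IsDominant ψ] (hψ : ψ ≫ hY = hX) :
    Function.Injective (s26eg3tPull hX hY ψ hψ) :=
  (s26eg3tPull hX hY ψ hψ : s26F hY →+* s26F hX).injective

theorem s26eg3tPull_comp (ψ : X ⟶ Y) (χ : Y ⟶ Z) [IsDominant ψ] [IsDominant χ]
    [IsDominant (ψ ≫ χ)] (hψ : ψ ≫ hY = hX) (hχ : χ ≫ hZ = hY) :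
    s26eg3tPull hX hZ (ψ ≫ χ) (by rw [Category.assoc, hχ, hψ]) =
      (s26eg3tPull hX hY ψ hψ).comp (s26eg3tPull hY hZ χ hχ) := by
  ext x
  have h := s26f1Pull_comp ψ χ
  exact congrArg (fun g : Z.functionField →+* X.functionField => g x) h

/-- the generic point of `X`, as a morphism `Spec K(X) ⟶ X`. -/
def s26eg3tEta₀ : Spec (CommRingCat.of (s26F hX)) ⟶ X :=
  X.fromSpecStalk (genericPoint X)

theorem s26eg3tEta₀_over :
    s26eg3tEta₀ hX ≫ hX = s26eptStr K (s26F hX) := by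
  rw [s26ept_over_iff]
  intro c
  show _ = s26algMap hX c
  have h1 : (s26eg3tEta₀ hX ≫ hX).appTop = hX.appTop ≫ (s26eg3tEta₀ hX).appTop := rfl
  rw [h1]
  have h2 : (s26eg3tEta₀ hX).appTop = X.presheaf.germ ⊤ (genericPoint X) trivial ≫
      (Scheme.ΓSpecIso (X.presheaf.stalk (genericPoint X))).inv :=
    Scheme.fromSpecStalk_appTop (X := X) (x := genericPoint X)
  rw [h2]
  exact congrArg (fun q => q.hom ((X.presheaf.germ ⊤ (genericPoint X) trivial).hom
        (hX.appTop.hom ((Scheme.ΓSpecIso (CommRingCat.of K)).inv.hom c))))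
    (Scheme.ΓSpecIso (X.presheaf.stalk (genericPoint X))).inv_hom_id

/-- **the generic point** `η_X ∈ X(K(X))`. -/
def s26eg3tEta : s26eptPts hX (s26F hX) := ⟨s26eg3tEta₀ hX, s26eg3tEta₀_over hX⟩

@[simp] theorem s26eg3tEta_coe : (s26eg3tEta hX).1 = s26eg3tEta₀ hX := rfl

/-- `|η_X|` is the generic point. -/
theorem s26eg3t_pt_eta : s26eptPt hX (s26eg3tEta hX) = genericPoint X :=
  Scheme.fromSpecStalk_closedPoint

/-- `η_X ≫ ψ = Spec (ψ^*) ≫ η_Y` for a dominant `ψ`. -/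
theorem s26eg3tEta₀_comp (ψ : X ⟶ Y) [IsDominant ψ] (hψ : ψ ≫ hY = hX) :
    s26eg3tEta₀ hX ≫ ψ = s26eptSpec (s26eg3tPull hX hY ψ hψ) ≫ s26eg3tEta₀ hY := by
  show X.fromSpecStalk (genericPoint X) ≫ ψ =
    Spec.map (CommRingCat.ofHom (s26f1Pull ψ)) ≫ Y.fromSpecStalk (genericPoint Y)
  unfold s26f1Pull
  rw [← Scheme.SpecMap_stalkMap_fromSpecStalk,
    ← Scheme.SpecMap_stalkSpecializes_fromSpecStalk
      (specializes_of_eq (s26f1_map_genericPoint ψ)), ← Category.assoc, ← Spec.map_comp]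
  rfl

/-- `η_X ≫ ψ = Y(ψ^*)(η_Y)` as points. -/
theorem s26eg3tEta_comp (ψ : X ⟶ Y) [IsDominant ψ] (hψ : ψ ≫ hY = hX) :
    (⟨(s26eg3tEta hX).1 ≫ ψ, by rw [Category.assoc, hψ]; exact (s26eg3tEta hX).2⟩ :
        s26eptPts hY (s26F hX)) =
      s26eptMap hY (s26eg3tPull hX hY ψ hψ) (s26eg3tEta hY) := by
  apply Subtype.ext
  exact s26eg3tEta₀_comp hX hY ψ hψ

section Generic

variable {Ω : Type u} [Field Ω] [Algebra K Ω]

/-- **(T1)**: a point `P ∈ X(Ω)` whose image is the generic point is `X(j)(η_X)` for a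
`K`-embedding `j : K(X) → Ω`. -/
theorem s26eg3t_exists_of_generic (P : s26eptPts hX Ω)
    (hP : s26eptPt hX P = genericPoint X) :
    ∃ j : s26F hX →ₐ[K] Ω, s26eptMap hX j (s26eg3tEta hX) = P := by
  have hs : s26eptPt hX P ⤳ genericPoint X := specializes_of_eq hP
  let j₀ : s26F hX →+* Ω := (s26eptEv hX P).comp (X.presheaf.stalkSpecializes hs).hom
  have hP1 : P.1 = Spec.map (CommRingCat.ofHom j₀) ≫ s26eg3tEta₀ hX := by
    rw [s26ept_eq_SpecMap_ev hX P]
    show _ = Spec.map (CommRingCat.ofHom j₀) ≫ X.fromSpecStalk (genericPoint X)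
    rw [← Scheme.SpecMap_stalkSpecializes_fromSpecStalk hs, ← Category.assoc, ← Spec.map_comp]
    rfl
  have hK : ∀ c : K, j₀ (algebraMap K (s26F hX) c) = algebraMap K Ω c := by
    intro c
    have h1 : P.1 ≫ hX = s26eptStr K Ω := P.2
    rw [hP1, Category.assoc, s26eg3tEta₀_over hX] at h1
    unfold s26eptStr at h1
    rw [← Spec.map_comp] at h1
    have h2 := Spec.map_injective h1
    exact congrArg (fun q => q.hom c) h2
  refine ⟨{ j₀ with commutes' := hK }, ?_⟩
  apply Subtype.ext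
  rw [s26eptMap_coe, hP1]
  rfl

/-- the embedding `j` with `X(j)(η_X) = P` is unique. -/
theorem s26eg3t_map_eta_injective :
    Function.Injective (fun j : s26F hX →ₐ[K] Ω => s26eptMap hX j (s26eg3tEta hX)) := by
  intro j j' h
  have h1 : s26eptSpec j ≫ s26eg3tEta₀ hX = s26eptSpec j' ≫ s26eg3tEta₀ hX :=
    congrArg Subtype.val h
  haveI : Mono (s26eg3tEta₀ hX) := by
    haveI hpre : IsPreimmersion (X.fromSpecStalk (genericPoint X)) := inferInstance
    exact (inferInstance : Mono (X.fromSpecStalk (genericPoint X)))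
  have h2 := (cancel_mono _).mp h1
  have h3 := Spec.map_injective h2
  ext x
  exact congrArg (fun q => q.hom x) h3

/-- the point of `X(j)(η_X)` is generic. -/
theorem s26eg3t_pt_map_eta (j : s26F hX →ₐ[K] Ω) :
    s26eptPt hX (s26eptMap hX j (s26eg3tEta hX)) = genericPoint X := by
  haveI : IsLocalHom (j : s26F hX →+* Ω) := by
    constructor
    intro a ha
    have ha0 : a ≠ 0 := by
      rintro rfl
      simp at ha
    exact isUnit_iff_ne_zero.mpr ha0
  rw [s26eptPt_map hX j, s26eg3t_pt_eta]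

end Generic

end Fermat.Agent.S26
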