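import Fermat.Agent.S26.EG3TDisj

/-!
# S26-E-G3, part (T) (helper50), file 3: the shear `(x, y, z, w) ↦ (x + z, y, z, w)` of
`B₄ = (A ×_K A) ×_K (A ×_K A)`

* `s26eg3tShPt G`, `s26eg3tShInvPt G` : the shear and its inverse on `T`-points;
* `s26eg3tSh G : B₄ ⟶ B₄` (over the base), `s26eg3tSh_surjective`;
* `s26eg3tC1/C2/C3 : B₄ ⟶ A` the first three coordinates, `s26eg3tSh_c2`, `s26eg3tSh_c3`,
  `s26eg3tSh_c1` (the first coordinate of the shear is the sum of `c₁` and `c₃`).
-/

set_option autoImplicit false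
set_option linter.style.haveILetI false
set_option linter.unusedSectionVars false
set_option linter.overlappingInstances false
set_option linter.unusedSimpArgs false

noncomputable section

namespace Fermat.Agent.S26

open CategoryTheory CategoryTheory.Limits AlgebraicGeometry TopologicalSpace NeronModelInfra
  GoodReductionJacobian

universe u

section Shear

variable {R : Type u} [CommRing R] {A : Scheme.{u}} {f : A ⟶ Spec (CommRingCat.of R)}
  (G : RelativeGroupLaw R f)
variable {T T' : Scheme.{u}} {t : T ⟶ Spec (CommRingCat.of R)}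
  {t' : T' ⟶ Spec (CommRingCat.of R)}

/-- the shear on points: `((x, y), (z, w)) ↦ ((x + z, y), (z, w))`. -/
def s26eg3tShPt (X : SchemeHomOver t (s26epH (s26epH f))) :
    SchemeHomOver t (s26epH (s26epH f)) :=
  s26epMk (s26epMk (G.mul t (s26epP1 (s26epP1 X)) (s26epP1 (s26epP2 X))) (s26epP2 (s26epP1 X)))
    (s26epP2 X)

/-- the inverse shear on points: `((x, y), (z, w)) ↦ ((x - z, y), (z, w))`. -/
def s26eg3tShInvPt (X : SchemeHomOver t (s26epH (s26epH f))) :
    SchemeHomOver t (s26epH (s26epH f)) :=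
  s26epMk (s26epMk (G.mul t (s26epP1 (s26epP1 X)) (G.inv t (s26epP1 (s26epP2 X))))
    (s26epP2 (s26epP1 X))) (s26epP2 X)

theorem s26eg3tShPt_shInvPt (X : SchemeHomOver t (s26epH (s26epH f))) :
    s26eg3tShPt G (s26eg3tShInvPt G X) = X := by
  unfold s26eg3tShPt s26eg3tShInvPt
  simp only [s26epP1_mk, s26epP2_mk]
  rw [G.mul_assoc, G.inv_mul_cancel, G.mul_one]
  simp only [s26epMk_eta]

theorem s26eg3tShPt_comp (ψ : T' ⟶ T) (hψ : ψ ≫ t = t')
    (X : SchemeHomOver t (s26epH (s26epH f))) :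
    schemeHomOverComp ψ hψ (s26eg3tShPt G X) = s26eg3tShPt G (schemeHomOverComp ψ hψ X) := by
  unfold s26eg3tShPt
  rw [s26epMk_comp, s26epMk_comp, G.mul_natural t t' ψ hψ]
  simp only [s26epP1_comp, s26epP2_comp]

theorem s26eg3tShInvPt_comp (ψ : T' ⟶ T) (hψ : ψ ≫ t = t')
    (X : SchemeHomOver t (s26epH (s26epH f))) :
    schemeHomOverComp ψ hψ (s26eg3tShInvPt G X) =
      s26eg3tShInvPt G (schemeHomOverComp ψ hψ X) := by
  unfold s26eg3tShInvPt
  rw [s26epMk_comp, s26epMk_comp, G.mul_natural t t' ψ hψ, s26a1_inv_natural G t t' ψ hψ]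
  simp only [s26epP1_comp, s26epP2_comp]

/-- the tautological point of `B₄`. -/
def s26eg3tTaut : SchemeHomOver (s26epH (s26epH f)) (s26epH (s26epH f)) :=
  ⟨𝟙 _, Category.id_comp _⟩

theorem s26eg3tTaut_comp (X : SchemeHomOver t (s26epH (s26epH f))) :
    schemeHomOverComp X.1 X.2 (s26eg3tTaut (f := f)) = X :=
  Subtype.ext (Category.comp_id _)

/-- the shear `B₄ ⟶ B₄`. -/
def s26eg3tSh : pullback (s26epH f) (s26epH f) ⟶ pullback (s26epH f) (s26epH f) :=
  (s26eg3tShPt G (s26eg3tTaut (f := f))).1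

/-- the inverse shear `B₄ ⟶ B₄`. -/
def s26eg3tShInv : pullback (s26epH f) (s26epH f) ⟶ pullback (s26epH f) (s26epH f) :=
  (s26eg3tShInvPt G (s26eg3tTaut (f := f))).1

theorem s26eg3tSh_over : s26eg3tSh G ≫ s26epH (s26epH f) = s26epH (s26epH f) :=
  (s26eg3tShPt G (s26eg3tTaut (f := f))).2

theorem s26eg3tShInv_over : s26eg3tShInv G ≫ s26epH (s26epH f) = s26epH (s26epH f) :=
  (s26eg3tShInvPt G (s26eg3tTaut (f := f))).2

/-- the shear on points is the composition with the shear. -/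
theorem s26eg3tShPt_coe (X : SchemeHomOver t (s26epH (s26epH f))) :
    (s26eg3tShPt G X).1 = X.1 ≫ s26eg3tSh G := by
  have h := s26eg3tShPt_comp G X.1 X.2 (s26eg3tTaut (f := f))
  rw [s26eg3tTaut_comp] at h
  exact (congrArg Subtype.val h).symm

theorem s26eg3tShInv_sh : s26eg3tShInv G ≫ s26eg3tSh G = 𝟙 _ := by
  have h := s26eg3tShPt_coe G (s26eg3tShInvPt G (s26eg3tTaut (f := f)))
  rw [s26eg3tShPt_shInvPt] at h
  exact h.symm

theorem s26eg3tSh_surjective : Surjective (s26eg3tSh G) := by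
  constructor
  intro p
  refine ⟨(s26eg3tShInv G) p, ?_⟩
  have h := congrArg (fun φ : pullback (s26epH f) (s26epH f) ⟶ pullback (s26epH f) (s26epH f) =>
    φ p) (s26eg3tShInv_sh G)
  exact h

/-- first coordinate `B₄ ⟶ A`. -/
def s26eg3tC1 : pullback (s26epH f) (s26epH f) ⟶ A :=
  pullback.fst (s26epH f) (s26epH f) ≫ pullback.fst f f

/-- second coordinate `B₄ ⟶ A`. -/
def s26eg3tC2 : pullback (s26epH f) (s26epH f) ⟶ A :=
  pullback.fst (s26epH f) (s26epH f) ≫ pullback.snd f f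

/-- third coordinate `B₄ ⟶ A`. -/
def s26eg3tC3 : pullback (s26epH f) (s26epH f) ⟶ A :=
  pullback.snd (s26epH f) (s26epH f) ≫ pullback.fst f f

theorem s26eg3tC1_over : s26eg3tC1 (f := f) ≫ f = s26epH (s26epH f) := by
  unfold s26eg3tC1; rw [Category.assoc]; rfl

theorem s26eg3tC2_over : s26eg3tC2 (f := f) ≫ f = s26epH (s26epH f) := by
  unfold s26eg3tC2; rw [Category.assoc, ← pullback.condition]; rfl

theorem s26eg3tC3_over : s26eg3tC3 (f := f) ≫ f = s26epH (s26epH f) := by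
  unfold s26eg3tC3; rw [Category.assoc]
  exact (pullback.condition (f := s26epH f) (g := s26epH f)).symm

theorem s26eg3tSh_c2 : s26eg3tSh G ≫ s26eg3tC2 (f := f) = s26eg3tC2 := by
  have h : s26epP2 (s26epP1 (s26eg3tShPt G (s26eg3tTaut (f := f)))) =
      s26epP2 (s26epP1 (s26eg3tTaut (f := f))) := by
    unfold s26eg3tShPt
    simp only [s26epP1_mk, s26epP2_mk]
  have h2 := congrArg Subtype.val h
  simp only [s26epP1_coe, s26epP2_coe, Category.assoc] at h2
  refine h2.trans ?_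
  show 𝟙 _ ≫ _ = _
  rw [Category.id_comp]
  rfl

theorem s26eg3tSh_c3 : s26eg3tSh G ≫ s26eg3tC3 (f := f) = s26eg3tC3 := by
  have h : s26epP1 (s26epP2 (s26eg3tShPt G (s26eg3tTaut (f := f)))) =
      s26epP1 (s26epP2 (s26eg3tTaut (f := f))) := by
    unfold s26eg3tShPt
    simp only [s26epP1_mk, s26epP2_mk]
  have h2 := congrArg Subtype.val h
  simp only [s26epP1_coe, s26epP2_coe, Category.assoc] at h2
  refine h2.trans ?_
  show 𝟙 _ ≫ _ = _
  rw [Category.id_comp]
  rfl

/-- the first coordinate of the shear of `X` is `x + z`. -/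
theorem s26eg3tShPt_c1 (X : SchemeHomOver t (s26epH (s26epH f))) :
    s26epP1 (s26epP1 (s26eg3tShPt G X)) = G.mul t (s26epP1 (s26epP1 X)) (s26epP1 (s26epP2 X)) := by
  unfold s26eg3tShPt
  simp only [s26epP1_mk]

end Shear

end Fermat.Agent.S26

end
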