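/-
S26-E-G3 (b), helper19: TRANSCENDENCE CORE for `Ω₃ = Frac (𝔉 ⊗ 𝔉 ⊗ 𝔉)`.  Mathlib only.

* `s26eg3t_eq_zero_of_algebraic`  (C′) `e : O →ₐ[K] Ω`, `e ∘ z` algebraically independent, `w`
                                  algebraic over `K[z]`, `e w = 0` ⇒ `w = 0`;
* `s26eg3t_injective`             (C) injectivity criterion: `T` algebraic over `K[z]`,
                                  `e ∘ z` algebraically independent ⇒ `e` injective;
* `s26eg3t_drop`                  (A) the DROP lemma: `e ∘ u` algebraically independent,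
                                  `b ≠ 0`, `e b = 0` ⇒ `(u, b)` algebraically independent;
* `s26eg3t_algInd_tensor`         tensor product of algebraically independent families;
* `s26eg3t_isAlgebraic_tensor`    `A ⊗ B` is algebraic over `K[x ⊗ 1, 1 ⊗ y]`.
-/
import Mathlib

set_option autoImplicit false

namespace Fermat.Agent.S26

open TensorProduct

section Core

variable {K : Type*} [Field K] {O : Type*} [CommRing O] [IsDomain O] [Algebra K O]
  {Ω : Type*} [CommRing Ω] [Algebra K Ω]

/-- (C′): an element algebraic over `K[z]` which is killed by `e` vanishes, if `e ∘ z` is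
algebraically independent. -/
theorem s26eg3t_eq_zero_of_algebraic {σ : Type*} (z : σ → O) (e : O →ₐ[K] Ω)
    (he : AlgebraicIndependent K (e ∘ z)) {w : O}
    (hw : IsAlgebraic (Algebra.adjoin K (Set.range z)) w) (hew : e w = 0) : w = 0 := by
  by_contra hw0
  obtain ⟨q, hq0, hq⟩ := hw.exists_nonzero_coeff_and_aeval_eq_zero
    (mem_nonZeroDivisors_of_ne_zero hw0)
  have h1 : (e : O →+* Ω) (Polynomial.aeval w q) = 0 := by rw [hq, map_zero]
  rw [Polynomial.aeval_def, Polynomial.hom_eval₂] at h1
  have hew' : (e : O →+* Ω) w = 0 := hew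
  rw [hew', Polynomial.eval₂_at_zero] at h1
  have h2 : e ((q.coeff 0 : Algebra.adjoin K (Set.range z)) : O) = 0 := h1
  have h3 : ((q.coeff 0 : Algebra.adjoin K (Set.range z)) : O) ∈
      (MvPolynomial.aeval z : MvPolynomial σ K →ₐ[K] O).range := by
    rw [← Algebra.adjoin_range_eq_range_aeval]
    exact (q.coeff 0).2
  obtain ⟨P, hP⟩ := h3
  have h4 : MvPolynomial.aeval (e ∘ z) P = 0 := by
    have : MvPolynomial.aeval (e ∘ z) P = e (MvPolynomial.aeval z P) := by
      rw [← AlgHom.comp_apply, MvPolynomial.comp_aeval]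
      rfl
    rw [this]
    have hP' : (MvPolynomial.aeval z) P = ((q.coeff 0 : Algebra.adjoin K (Set.range z)) : O) := hP
    rw [hP', h2]
  have h5 : P = 0 := by
    have := (algebraicIndependent_iff_injective_aeval.1 he)
    exact this (by rw [h4, map_zero])
  apply hq0
  apply Subtype.ext
  have hP' : (MvPolynomial.aeval z) P = ((q.coeff 0 : Algebra.adjoin K (Set.range z)) : O) := hP
  rw [← hP', h5, map_zero]
  rfl

/-- (C) **injectivity criterion**. -/
theorem s26eg3t_injective {σ : Type*} (z : σ → O)
    [Algebra.IsAlgebraic (Algebra.adjoin K (Set.range z)) O] (e : O →ₐ[K] Ω)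
    (he : AlgebraicIndependent K (e ∘ z)) : Function.Injective e := by
  rw [injective_iff_map_eq_zero]
  intro w hw
  exact s26eg3t_eq_zero_of_algebraic z e he (Algebra.IsAlgebraic.isAlgebraic w) hw

/-- (A) the **drop lemma**: a nonzero element of the kernel of `e` is transcendental over
`K[u]` when `e ∘ u` is algebraically independent. -/
theorem s26eg3t_drop {ι : Type*} (u : ι → O) (e : O →ₐ[K] Ω)
    (he : AlgebraicIndependent K (e ∘ u)) {b : O} (hb : b ≠ 0) (heb : e b = 0) :
    AlgebraicIndependent K (fun o : Option ι => o.elim b u) := by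
  rw [(AlgebraicIndependent.of_comp e he).option_iff_transcendental]
  intro halg
  exact hb (s26eg3t_eq_zero_of_algebraic u e he halg heb)

end Core

section Tensor

variable {K : Type*} [Field K] {A B : Type*} [CommRing A] [CommRing B] [Algebra K A]
  [Algebra K B]

/-- the family `x ⊗ 1, 1 ⊗ y` -/
def s26eg3tFam {ι κ : Type*} (x : ι → A) (y : κ → B) : ι ⊕ κ → A ⊗[K] B :=
  Sum.elim (fun i => x i ⊗ₜ[K] (1 : B)) (fun j => (1 : A) ⊗ₜ[K] y j)

theorem s26eg3t_aeval_fam {ι κ : Type*} (x : ι → A) (y : κ → B) :
    (MvPolynomial.aeval (s26eg3tFam (K := K) x y) : MvPolynomial (ι ⊕ κ) K →ₐ[K] A ⊗[K] B) =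
      (Algebra.TensorProduct.map (MvPolynomial.aeval x) (MvPolynomial.aeval y)).comp
        (MvPolynomial.tensorEquivSum K ι κ K).symm.toAlgHom := by
  apply MvPolynomial.algHom_ext
  rintro (i | j)
  · have : (MvPolynomial.tensorEquivSum K ι κ K).symm (MvPolynomial.X (Sum.inl i)) =
        MvPolynomial.X i ⊗ₜ 1 := by
      rw [AlgEquiv.symm_apply_eq, MvPolynomial.tensorEquivSum_X_tmul_one]
    simp [s26eg3tFam, this]
  · have : (MvPolynomial.tensorEquivSum K ι κ K).symm (MvPolynomial.X (Sum.inr j)) =
        1 ⊗ₜ MvPolynomial.X j := by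
      rw [AlgEquiv.symm_apply_eq, MvPolynomial.tensorEquivSum_one_tmul_X]
    simp [s26eg3tFam, this]

/-- tensor product of algebraically independent families -/
theorem s26eg3t_algInd_tensor {ι κ : Type*} {x : ι → A} {y : κ → B}
    (hx : AlgebraicIndependent K x) (hy : AlgebraicIndependent K y) :
    AlgebraicIndependent K (s26eg3tFam (K := K) x y) := by
  rw [algebraicIndependent_iff_injective_aeval, s26eg3t_aeval_fam]
  have h1 : Function.Injective
      (Algebra.TensorProduct.map (MvPolynomial.aeval x : MvPolynomial ι K →ₐ[K] A)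
        (MvPolynomial.aeval y : MvPolynomial κ K →ₐ[K] B)) :=
    TensorProduct.map_injective_of_flat_flat
      (MvPolynomial.aeval x : MvPolynomial ι K →ₐ[K] A).toLinearMap
      (MvPolynomial.aeval y : MvPolynomial κ K →ₐ[K] B).toLinearMap
      (algebraicIndependent_iff_injective_aeval.1 hx)
      (algebraicIndependent_iff_injective_aeval.1 hy)
  exact h1.comp (MvPolynomial.tensorEquivSum K ι κ K).symm.injective

/-- `A ⊗ B` is algebraic over `K[x ⊗ 1, 1 ⊗ y]` if `A` is algebraic over `K[x]` and `B` over
`K[y]`. -/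
theorem s26eg3t_isAlgebraic_tensor [IsDomain (A ⊗[K] B)] {ι κ : Type*} (x : ι → A) (y : κ → B)
    [hA : Algebra.IsAlgebraic (Algebra.adjoin K (Set.range x)) A]
    [hB : Algebra.IsAlgebraic (Algebra.adjoin K (Set.range y)) B] :
    Algebra.IsAlgebraic (Algebra.adjoin K (Set.range (s26eg3tFam (K := K) x y))) (A ⊗[K] B) := by
  have hnA : Nontrivial A := by
    by_contra h
    rw [not_nontrivial_iff_subsingleton] at h
    have : Subsingleton (A ⊗[K] B) := by
      refine ⟨fun a b => ?_⟩
      have h0 : ∀ w : A ⊗[K] B, w = 0 := fun w => by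
        induction w using TensorProduct.induction_on with
        | zero => rfl
        | tmul a b => rw [Subsingleton.elim a 0, zero_tmul]
        | add a b ha hb => rw [ha, hb, add_zero]
      rw [h0 a, h0 b]
    exact not_subsingleton (A ⊗[K] B) this
  have hnB : Nontrivial B := by
    by_contra h
    rw [not_nontrivial_iff_subsingleton] at h
    have : Subsingleton (A ⊗[K] B) := by
      refine ⟨fun a b => ?_⟩
      have h0 : ∀ w : A ⊗[K] B, w = 0 := fun w => by
        induction w using TensorProduct.induction_on with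
        | zero => rfl
        | tmul a b => rw [Subsingleton.elim b 0, tmul_zero]
        | add a b ha hb => rw [ha, hb, add_zero]
      rw [h0 a, h0 b]
    exact not_subsingleton (A ⊗[K] B) this
  have hL : Function.Injective
      (Algebra.TensorProduct.includeLeft : A →ₐ[K] A ⊗[K] B) :=
    Algebra.TensorProduct.includeLeft_injective (algebraMap K B).injective
  have hR : Function.Injective
      (Algebra.TensorProduct.includeRight : B →ₐ[K] A ⊗[K] B) :=
    Algebra.TensorProduct.includeRight_injective (algebraMap K A).injective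
  -- the restrictions of the inclusions to the subalgebras
  have hleL : (Algebra.adjoin K (Set.range x)).map
      (Algebra.TensorProduct.includeLeft : A →ₐ[K] A ⊗[K] B) ≤
      Algebra.adjoin K (Set.range (s26eg3tFam (K := K) x y)) := by
    rw [AlgHom.map_adjoin]
    apply Algebra.adjoin_mono
    rintro _ ⟨_, ⟨i, rfl⟩, rfl⟩
    exact ⟨Sum.inl i, rfl⟩
  have hleR : (Algebra.adjoin K (Set.range y)).map
      (Algebra.TensorProduct.includeRight : B →ₐ[K] A ⊗[K] B) ≤
      Algebra.adjoin K (Set.range (s26eg3tFam (K := K) x y)) := by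
    rw [AlgHom.map_adjoin]
    apply Algebra.adjoin_mono
    rintro _ ⟨_, ⟨j, rfl⟩, rfl⟩
    exact ⟨Sum.inr j, rfl⟩
  let fL : Algebra.adjoin K (Set.range x) →ₐ[K]
      Algebra.adjoin K (Set.range (s26eg3tFam (K := K) x y)) :=
    ((Algebra.TensorProduct.includeLeft : A →ₐ[K] A ⊗[K] B).comp
      (Algebra.adjoin K (Set.range x)).val).codRestrict _ (fun c => hleL ⟨c, c.2, rfl⟩)
  let fR : Algebra.adjoin K (Set.range y) →ₐ[K]
      Algebra.adjoin K (Set.range (s26eg3tFam (K := K) x y)) :=
    ((Algebra.TensorProduct.includeRight : B →ₐ[K] A ⊗[K] B).comp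
      (Algebra.adjoin K (Set.range y)).val).codRestrict _ (fun c => hleR ⟨c, c.2, rfl⟩)
  have hfL : Function.Injective fL := fun a b h => by
    apply Subtype.ext
    apply hL
    exact congrArg Subtype.val h
  have hfR : Function.Injective fR := fun a b h => by
    apply Subtype.ext
    apply hR
    exact congrArg Subtype.val h
  have halgL : ∀ a : A, IsAlgebraic (Algebra.adjoin K (Set.range (s26eg3tFam (K := K) x y)))
      (a ⊗ₜ[K] (1 : B)) := fun a =>
    (hA.isAlgebraic a).ringHom_of_comp_eq fL.toRingHom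
      (Algebra.TensorProduct.includeLeft : A →ₐ[K] A ⊗[K] B).toRingHom hfL (by ext c; rfl)
  have halgR : ∀ b : B, IsAlgebraic (Algebra.adjoin K (Set.range (s26eg3tFam (K := K) x y)))
      ((1 : A) ⊗ₜ[K] b) := fun b =>
    (hB.isAlgebraic b).ringHom_of_comp_eq fR.toRingHom
      (Algebra.TensorProduct.includeRight : B →ₐ[K] A ⊗[K] B).toRingHom hfR (by ext c; rfl)
  refine ⟨fun w => ?_⟩
  induction w using TensorProduct.induction_on with
  | zero => exact isAlgebraic_zero
  | tmul a b =>
    have : a ⊗ₜ[K] b = (a ⊗ₜ[K] (1 : B)) * ((1 : A) ⊗ₜ[K] b) := by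
      rw [Algebra.TensorProduct.tmul_mul_tmul, mul_one, one_mul]
    rw [this]
    exact (halgL a).mul (halgR b)
  | add a b ha hb => exact ha.add hb

end Tensor

end Fermat.Agent.S26
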