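/-
S26-E-G3 (b), algebra (helper98): **injectivity of `j₁ ⊗ j₂ ⊗ j₃` from the transcendence degree**.

`K` a field, `R` a `K`-algebra which is a DOMAIN (e.g. `(F₁ ⊗[K] F₂) ⊗[K] F₃` for `K` algebraically
closed: `s26eg3d_isDomain`, helper19), generated by the images of three fields `ι_i : F_i →ₐ[K] R`,
`e : R →ₐ[K] Ω` a `K`-algebra map to a field.

* `s26eg3tr_injective_of_algebraic` : `e` injective on a subalgebra `S` over which `R` is algebraic
  ⇒ `e` injective;
* `s26eg3tr_algebraic_of_adjoin`    : `R = K[G]`, the elements of `G` algebraic over `S` ⇒ `R` is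
  algebraic over `S`;
* `s26eg3tr_isAlgebraic_map`        : transport of algebraicity along `F →ₐ[K] R`, `F` a field;
* `s26eg3tr_injective_of_algInd`    : `e ∘ x` algebraically independent, `R = K[G]`, `G` algebraic
  over `K[x]` ⇒ `e` injective;
* **`s26eg3tr_injective₃_of_algInd`** : transcendence bases `t_i` of `F_i` whose images in `Ω` are
  (jointly) algebraically independent ⇒ `e` injective;
(names `s26eg3tr_*`; helper50's scheme route for (T) uses `s26eg3t_*` in `S26/EG3T*.lean`.)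

Mathlib only.
-/
import Mathlib

set_option autoImplicit false
set_option linter.unusedSectionVars false

namespace Fermat.Agent.S26

open TensorProduct Cardinal

section Core

variable {K R Ω : Type*} [Field K] [CommRing R] [IsDomain R] [Algebra K R] [Field Ω]
  [Algebra K Ω]

/-- a ring homomorphism from a domain which is injective on a subalgebra `S` over which the domain
is algebraic, is injective -/
theorem s26eg3tr_injective_of_algebraic (e : R →+* Ω) (S : Subalgebra K R)
    (hS : ∀ s ∈ S, e s = 0 → s = 0) (halg : ∀ r : R, IsAlgebraic S r) :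
    Function.Injective e := by
  rw [injective_iff_map_eq_zero]
  intro r hr
  by_contra hr0
  have h := Ideal.comap_ne_bot_of_algebraic_mem (R := S) (I := RingHom.ker e) hr0
    (RingHom.mem_ker.2 hr) (halg r)
  obtain ⟨s, hs, hs0⟩ := Submodule.exists_mem_ne_zero_of_ne_bot h
  apply hs0
  apply Subtype.ext
  exact hS s s.2 (RingHom.mem_ker.1 (Ideal.mem_comap.1 hs))

/-- `R = K[G]` with the elements of `G` algebraic over `S` ⇒ `R` is algebraic over `S` -/
theorem s26eg3tr_algebraic_of_adjoin (S : Subalgebra K R) (G : Set R)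
    (hG : Algebra.adjoin K G = ⊤) (halg : ∀ g ∈ G, IsAlgebraic S g) (r : R) :
    IsAlgebraic S r := by
  have h1 : Algebra.adjoin K G ≤ (Subalgebra.algebraicClosure S R).restrictScalars K :=
    Algebra.adjoin_le fun g hg => halg g hg
  rw [hG] at h1
  exact h1 (Algebra.mem_top : r ∈ (⊤ : Subalgebra K R))

/-- transport of algebraicity along a `K`-algebra map from a field -/
theorem s26eg3tr_isAlgebraic_map {F : Type*} [Field F] [Algebra K F] (ι : F →ₐ[K] R)
    {T : Subalgebra K F} {S : Subalgebra K R} (hTS : ∀ t ∈ T, ι t ∈ S) {f : F}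
    (hf : IsAlgebraic T f) : IsAlgebraic S (ι f) := by
  obtain ⟨p, hp0, hp⟩ := hf
  let φ : T →+* S :=
    { toFun := fun t => ⟨ι (t : F), hTS t t.2⟩
      map_one' := Subtype.ext (map_one ι)
      map_mul' := fun a b => Subtype.ext (map_mul ι (a : F) (b : F))
      map_zero' := Subtype.ext (map_zero ι)
      map_add' := fun a b => Subtype.ext (map_add ι (a : F) (b : F)) }
  have hφ : Function.Injective φ := by
    intro a b hab
    have h1 : ι (a : F) = ι (b : F) := congrArg (fun s : S => (s : R)) hab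
    exact Subtype.ext (ι.toRingHom.injective h1)
  refine ⟨p.map φ, (Polynomial.map_ne_zero_iff hφ).2 hp0, ?_⟩
  have h2 : (algebraMap S R).comp φ = (ι : F →+* R).comp (algebraMap T F) :=
    RingHom.ext fun _ => rfl
  have h3 := Polynomial.hom_eval₂ p (algebraMap T F) (ι : F →+* R) f
  rw [← Polynomial.aeval_def, hp, map_zero] at h3
  rw [Polynomial.aeval_def, Polynomial.eval₂_map, h2]
  exact h3.symm

/-- `e ∘ x` algebraically independent, `R = K[G]`, `G` algebraic over `K[x]` ⇒ `e` injective -/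
theorem s26eg3tr_injective_of_algInd {ι : Type*} (e : R →ₐ[K] Ω) (x : ι → R)
    (hx : AlgebraicIndependent K (fun i => e (x i))) (G : Set R)
    (hG : Algebra.adjoin K G = ⊤)
    (halg : ∀ g ∈ G, IsAlgebraic (Algebra.adjoin K (Set.range x)) g) :
    Function.Injective e := by
  refine s26eg3tr_injective_of_algebraic (e : R →+* Ω) (Algebra.adjoin K (Set.range x)) ?_
    (s26eg3tr_algebraic_of_adjoin _ G hG halg)
  intro s hs hes
  rw [Algebra.adjoin_range_eq_range_aeval] at hs
  obtain ⟨p, rfl⟩ := hs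
  have h1 : MvPolynomial.aeval (fun i => e (x i)) p = 0 := by
    have h2 : MvPolynomial.aeval (fun i => e (x i)) p = e (MvPolynomial.aeval x p) := by
      rw [← AlgHom.comp_apply, MvPolynomial.comp_aeval]
    rw [h2]
    exact hes
  have h3 : p = 0 := hx (by rw [h1, map_zero])
  rw [h3, map_zero]

end Core

section Three

variable {K R Ω F₁ F₂ F₃ : Type*} [Field K] [CommRing R] [IsDomain R] [Algebra K R] [Field Ω]
  [Algebra K Ω] [Field F₁] [Field F₂] [Field F₃] [Algebra K F₁] [Algebra K F₂] [Algebra K F₃]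

/-- `ι f` is algebraic over any subalgebra containing the image of a transcendence basis -/
theorem s26eg3tr_isAlgebraic_of_basis {F : Type*} [Field F] [Algebra K F] (ι : F →ₐ[K] R)
    {κ : Type*} {t : κ → F} (ht : IsTranscendenceBasis K t) (S : Subalgebra K R)
    (hS : ∀ i, ι (t i) ∈ S) (f : F) : IsAlgebraic S (ι f) := by
  refine s26eg3tr_isAlgebraic_map ι (T := Algebra.adjoin K (Set.range t)) ?_
    (ht.isAlgebraic.isAlgebraic f)
  intro a ha
  induction ha using Algebra.adjoin_induction with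
  | mem a ha =>
    obtain ⟨i, rfl⟩ := ha
    exact hS i
  | algebraMap k =>
    rw [AlgHom.commutes]
    exact S.algebraMap_mem k
  | add a b _ _ ha hb =>
    rw [map_add]
    exact S.add_mem ha hb
  | mul a b _ _ ha hb =>
    rw [map_mul]
    exact S.mul_mem ha hb

/-- the generators `ι_i (F_i)` are algebraic over `K[ι₁ t₁, ι₂ t₂, ι₃ t₃]` -/
theorem s26eg3tr_gen_algebraic (ι₁ : F₁ →ₐ[K] R) (ι₂ : F₂ →ₐ[K] R) (ι₃ : F₃ →ₐ[K] R)
    {κ₁ κ₂ κ₃ : Type*} {t₁ : κ₁ → F₁} {t₂ : κ₂ → F₂} {t₃ : κ₃ → F₃}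
    (ht₁ : IsTranscendenceBasis K t₁) (ht₂ : IsTranscendenceBasis K t₂)
    (ht₃ : IsTranscendenceBasis K t₃) :
    ∀ g ∈ Set.range ι₁ ∪ Set.range ι₂ ∪ Set.range ι₃,
      IsAlgebraic (Algebra.adjoin K (Set.range
        (Sum.elim (Sum.elim (fun i => ι₁ (t₁ i)) (fun i => ι₂ (t₂ i))) (fun i => ι₃ (t₃ i))))) g := by
  rintro g ((⟨f, rfl⟩ | ⟨f, rfl⟩) | ⟨f, rfl⟩)
  · exact s26eg3tr_isAlgebraic_of_basis ι₁ ht₁ _ (fun i => Algebra.subset_adjoin
      (Set.mem_range.2 ⟨Sum.inl (Sum.inl i), rfl⟩)) f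
  · exact s26eg3tr_isAlgebraic_of_basis ι₂ ht₂ _ (fun i => Algebra.subset_adjoin
      (Set.mem_range.2 ⟨Sum.inl (Sum.inr i), rfl⟩)) f
  · exact s26eg3tr_isAlgebraic_of_basis ι₃ ht₃ _ (fun i => Algebra.subset_adjoin
      (Set.mem_range.2 ⟨Sum.inr i, rfl⟩)) f

/-- **injectivity from algebraic independence**: `R` a domain generated by `ι_i (F_i)`, `t_i`
transcendence bases of the `F_i` whose images under `e` are jointly algebraically independent
⇒ `e` is injective. -/
theorem s26eg3tr_injective₃_of_algInd (e : R →ₐ[K] Ω)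
    (ι₁ : F₁ →ₐ[K] R) (ι₂ : F₂ →ₐ[K] R) (ι₃ : F₃ →ₐ[K] R)
    (hgen : Algebra.adjoin K (Set.range ι₁ ∪ Set.range ι₂ ∪ Set.range ι₃) = ⊤)
    {κ₁ κ₂ κ₃ : Type*} {t₁ : κ₁ → F₁} {t₂ : κ₂ → F₂} {t₃ : κ₃ → F₃}
    (ht₁ : IsTranscendenceBasis K t₁) (ht₂ : IsTranscendenceBasis K t₂)
    (ht₃ : IsTranscendenceBasis K t₃)
    (hind : AlgebraicIndependent K
      (Sum.elim (Sum.elim (fun i => e (ι₁ (t₁ i))) (fun i => e (ι₂ (t₂ i))))
        (fun i => e (ι₃ (t₃ i))))) :
    Function.Injective e := by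
  refine s26eg3tr_injective_of_algInd e
    (Sum.elim (Sum.elim (fun i => ι₁ (t₁ i)) (fun i => ι₂ (t₂ i))) (fun i => ι₃ (t₃ i))) ?_ _
    hgen (s26eg3tr_gen_algebraic ι₁ ι₂ ι₃ ht₁ ht₂ ht₃)
  convert hind using 1
  funext i
  rcases i with (i | i) | i <;> rfl

end Three

end Fermat.Agent.S26
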