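/-
S26-E, Prop `s26e_StmtGenNeg` of PlanE (helper36): `v (gen (−P, V)) = v (gen (P, V))`.

On helper5's `s26emV_inv` (EMFam.lean), A2 (`s26a2_stmtA2`, `s26a2_neg_neg`).
* `s26egn_valuation_eq_of_associated` : associated elements of `V` have the same valuation;
* `s26egn_gen_eq` : `s26eGen f U P V = ↑(s26emV f Ω V U P)` for `V` over `K`;
* `s26egn_genNeg : s26e_StmtGenNeg`.
-/
import Fermat.Agent.S26.PlanE
import Fermat.Agent.S26.EMFam
import Fermat.Agent.S26.A2Final

set_option autoImplicit false
set_option linter.style.haveILetI false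
set_option linter.unusedVariables false
set_option linter.unusedSectionVars false

noncomputable section

namespace Fermat.Agent.S26

open CategoryTheory CategoryTheory.Limits AlgebraicGeometry NeronModelInfra GoodReductionJacobian

universe u

/-- associated elements of a valuation subring have the same valuation -/
theorem s26egn_valuation_eq_of_associated {Ω : Type*} [Field Ω] (V : ValuationSubring Ω)
    {a b : V} (h : Associated a b) : V.valuation (a : Ω) = V.valuation (b : Ω) := by
  obtain ⟨u, rfl⟩ := h
  have h1 : (((a * (u : V) : V)) : Ω) = (a : Ω) * ((u : V) : Ω) := rfl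
  rw [h1, map_mul, V.valuation_unit u, mul_one]

variable {K : Type u} [Field K] {A : Scheme.{u}} (f : A ⟶ Spec (CommRingCat.of K))
  {Ω : Type u} [Field Ω] [Algebra K Ω] [IsIntegral A] [IsLocallyNoetherian A] [IsProper f]

/-- the generator of PlanE in terms of helper5's `s26emV` -/
theorem s26egn_gen_eq (U : A.Opens) (P : s26eptPts f Ω) (V : ValuationSubring Ω)
    (hV : S26erOver K V) :
    letI := s26eAlgV V hV
    haveI := s26eAlgV_tower V hV
    s26eGen f U P V = ((s26emV f Ω V U P : V) : Ω) := by
  unfold s26eGen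
  rw [dif_pos hV]
  rfl

/-- **(G-neg)** -/
theorem s26egn_genNeg : s26e_StmtGenNeg.{u} := by
  intro K _ A f G g hyp _ _ _ U hU hD Ω _ _ P V hV
  obtain ⟨_, _, _, hdvr⟩ := s26a2_stmtA2 K f G g hyp
  letI := s26eAlgV V hV
  haveI := s26eAlgV_tower V hV
  rw [s26egn_gen_eq f U (G.inv _ P) V hV, s26egn_gen_eq f U P V hV]
  exact s26egn_valuation_eq_of_associated V
    (s26emV_inv f Ω V G (s26a2_neg_neg G) hdvr hD hU.2.2 P)

end Fermat.Agent.S26

end
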