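/-
S26-E-LF2 (helper36), part (b2): THE POINT.  For a nonzero power series `f` in `n + 1` variables
over an infinite field there are `d` and `c ∈ Kⁿ` with
`∑_{|α| = d} f_α ∏ᵢ cᵢ ^ α_{i+1} ≠ 0`
(= the coefficient of `X₀ ^ d` in `f (X₀, X₁ + c₁ X₀, …, Xₙ + cₙ X₀)`).
-/
import Mathlib.RingTheory.MvPowerSeries.Basic
import Mathlib.Algebra.MvPolynomial.Funext
import Mathlib.Algebra.Order.Antidiag.Finsupp
import Mathlib.Data.Finsupp.Fin

set_option autoImplicit false
set_option linter.unusedSectionVars false
set_option linter.unusedVariables false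

namespace Fermat.Agent.S26

open Finset

variable (K : Type*) [Field K]

/-- an exponent vector is determined by its degree and its tail -/
theorem s26elf2_eq_of_tail_eq {n : ℕ} {α β : Fin (n + 1) →₀ ℕ} (ht : α.tail = β.tail)
    (hd : (Finset.univ : Finset (Fin (n + 1))).sum α = (Finset.univ : Finset (Fin (n + 1))).sum β) :
    α = β := by
  have h0 : α 0 = β 0 := by
    rw [Fin.sum_univ_succ, Fin.sum_univ_succ] at hd
    have h1 : ∀ i : Fin n, α i.succ = β i.succ := fun i => by
      have := congrArg (fun t : Fin n →₀ ℕ => t i) ht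
      simpa [Finsupp.tail_apply] using this
    simp only [h1] at hd
    exact Nat.add_right_cancel hd
  rw [← Finsupp.cons_tail α, ← Finsupp.cons_tail β, ht, h0]

/-- **the point** -/
theorem s26elf2_exists_point [Infinite K] (n : ℕ) (f : MvPowerSeries (Fin (n + 1)) K)
    (hf : f ≠ 0) :
    ∃ (d : ℕ) (c : Fin n → K),
      (∑ α ∈ (Finset.univ : Finset (Fin (n + 1))).finsuppAntidiag d,
        MvPowerSeries.coeff α f * ∏ i : Fin n, c i ^ α i.succ) ≠ 0 := by
  classical
  obtain ⟨α₀, hα₀⟩ : ∃ α, MvPowerSeries.coeff α f ≠ 0 := by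
    by_contra h
    push Not at h
    exact hf (MvPowerSeries.ext fun α => by rw [h α, map_zero])
  set d := (Finset.univ : Finset (Fin (n + 1))).sum α₀ with hd
  set S := (Finset.univ : Finset (Fin (n + 1))).finsuppAntidiag d with hS
  have hα₀S : α₀ ∈ S := by
    rw [hS, Finset.mem_finsuppAntidiag]
    exact ⟨rfl, Finset.subset_univ _⟩
  set p : MvPolynomial (Fin n) K :=
    ∑ α ∈ S, MvPolynomial.monomial α.tail (MvPowerSeries.coeff α f) with hp
  have hcoeff : MvPolynomial.coeff α₀.tail p = MvPowerSeries.coeff α₀ f := by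
    rw [hp, MvPolynomial.coeff_sum, Finset.sum_eq_single α₀]
    · rw [MvPolynomial.coeff_monomial, if_pos rfl]
    · intro β hβ hne
      rw [MvPolynomial.coeff_monomial, if_neg]
      intro ht
      apply hne
      rw [hS, Finset.mem_finsuppAntidiag] at hβ
      exact s26elf2_eq_of_tail_eq ht hβ.1
    · intro h
      exact absurd hα₀S h
  have hp0 : p ≠ 0 := by
    intro h0
    rw [h0, MvPolynomial.coeff_zero] at hcoeff
    exact hα₀ hcoeff.symm
  have hex : ∃ c : Fin n → K, MvPolynomial.eval c p ≠ 0 := by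
    by_contra h
    push Not at h
    exact hp0 (MvPolynomial.funext fun c => by rw [h c, map_zero])
  obtain ⟨c, hc⟩ := hex
  refine ⟨d, c, ?_⟩
  have he : MvPolynomial.eval c p
      = ∑ α ∈ S, MvPowerSeries.coeff α f * ∏ i : Fin n, c i ^ α i.succ := by
    rw [hp, map_sum]
    refine Finset.sum_congr rfl fun α _ => ?_
    rw [MvPolynomial.eval_monomial, Finsupp.prod_fintype _ _ (fun i => pow_zero _)]
    simp only [Finsupp.tail_apply]
  rw [← he]
  exact hc

end Fermat.Agent.S26
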