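/-
S26-E-LF2, the Weierstrass step (helper31; names s26elf2w_*).

`A` a complete local domain which is a UFD, `g ∈ A⟦X⟧` regular in `X` (its reduction modulo the
maximal ideal is nonzero).  Then `g` is associated to a product of prime elements of `A⟦X⟧`.

Proof: Weierstrass preparation (Mathlib) `g = f * h`, `f` distinguished, `h` a unit; `f` is a
product of monic irreducible polynomials, each of them distinguished; a distinguished polynomial
`q` which is prime in `A[X]` is prime in `A⟦X⟧` because `A[X] / (q) ≃ A⟦X⟧ / (q)`.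
-/
import Mathlib

set_option autoImplicit false

noncomputable section

namespace Fermat.Agent.S26

open Polynomial PowerSeries

/-- A monic polynomial over a domain is a product of monic irreducible polynomials. -/
theorem s26elf2w_monic_factors {A : Type*} [CommRing A] [IsDomain A] :
    ∀ (n : ℕ) (P : A[X]), P.Monic → P.natDegree = n →
      ∃ s : Multiset A[X], (∀ q ∈ s, q.Monic ∧ Irreducible q) ∧ s.prod = P := by
  intro n
  induction n using Nat.strong_induction_on with
  | _ n ih =>
    intro P hP hn
    by_cases h1 : P = 1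
    · exact ⟨0, by simp, by simp [h1]⟩
    by_cases hirr : Irreducible P
    · exact ⟨{P}, by simpa using ⟨hP, hirr⟩, by simp⟩
    rw [hP.irreducible_iff_natDegree] at hirr
    push Not at hirr
    obtain ⟨f, g, hf, hg, hfg, hf0, hg0⟩ := hirr h1
    have hdeg : f.natDegree + g.natDegree = n := by
      rw [← hn, ← hfg, hf.natDegree_mul hg]
    obtain ⟨s, hs, hsP⟩ := ih f.natDegree (by omega) f hf rfl
    obtain ⟨t, ht, htP⟩ := ih g.natDegree (by omega) g hg rfl
    refine ⟨s + t, ?_, by rw [Multiset.prod_add, hsP, htP, hfg]⟩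
    intro q hq
    rcases Multiset.mem_add.mp hq with h | h
    · exact hs q h
    · exact ht q h

/-- A monic factor of a polynomial which is distinguished at a prime ideal is distinguished. -/
theorem s26elf2w_distinguished_of_mul {A : Type*} [CommRing A] {I : Ideal A} [I.IsPrime]
    {f g : A[X]} (hf : f.Monic) (_hg : g.Monic) (h : (f * g).IsDistinguishedAt I) :
    f.IsDistinguishedAt I := by
  refine ⟨⟨?_⟩, hf⟩
  intro n hn
  have hmap : (f * g).map (Ideal.Quotient.mk I) = Polynomial.X ^ (f * g).natDegree :=
    h.map_eq_X_pow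
  rw [Polynomial.map_mul] at hmap
  have hdvd : f.map (Ideal.Quotient.mk I) ∣ Polynomial.X ^ (f * g).natDegree :=
    ⟨_, hmap.symm⟩
  obtain ⟨i, -, hi⟩ := (dvd_prime_pow (Polynomial.prime_X (R := A ⧸ I)) _).mp hdvd
  have hfm : (f.map (Ideal.Quotient.mk I)).Monic := hf.map _
  have heq : f.map (Ideal.Quotient.mk I) = Polynomial.X ^ i :=
    Polynomial.eq_of_monic_of_associated hfm (Polynomial.monic_X_pow i) hi
  have hdeg : i = f.natDegree := by
    have := congrArg Polynomial.natDegree heq
    rw [hf.natDegree_map, Polynomial.natDegree_X_pow] at this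
    exact this.symm
  have hc := congrArg (fun p => Polynomial.coeff p n) heq
  simp only [Polynomial.coeff_map, Polynomial.coeff_X_pow] at hc
  rw [if_neg (by omega)] at hc
  exact Ideal.Quotient.eq_zero_iff_mem.mp hc

/-- A distinguished polynomial which is prime in `A[X]` is prime in `A⟦X⟧`. -/
theorem s26elf2w_prime_coe {A : Type*} [CommRing A] [IsDomain A] {I : Ideal A}
    [IsAdicComplete I A] {q : A[X]} (hq : q.IsDistinguishedAt I) (hp : Prime q) :
    Prime (q : A⟦X⟧) := by
  have hq0 : (q : A⟦X⟧) ≠ 0 := by
    intro h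
    exact hp.ne_zero (Polynomial.coe_eq_zero_iff.mp h)
  rw [← Ideal.span_singleton_prime hq0]
  have hP : (Ideal.span {q} : Ideal A[X]).IsPrime :=
    (Ideal.span_singleton_prime hp.ne_zero).mpr hp
  have hdom : IsDomain (A[X] ⧸ Ideal.span {q}) := (Ideal.Quotient.isDomain_iff_prime _).mpr hP
  have e := hq.algEquivQuotient
  have hdom' : IsDomain (A⟦X⟧ ⧸ Ideal.span {(q : A⟦X⟧)}) :=
    e.symm.toMulEquiv.isDomain _
  exact (Ideal.Quotient.isDomain_iff_prime _).mp hdom'

/-- **Weierstrass step**: over a complete local UFD, a power series which is regular in `X` is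
associated to a product of prime elements. -/
theorem s26elf2w_regular_factors {A : Type*} [CommRing A] [IsDomain A] [IsLocalRing A]
    [UniqueFactorizationMonoid A] [IsAdicComplete (IsLocalRing.maximalIdeal A) A]
    (g : A⟦X⟧) (hg : g.map (IsLocalRing.residue A) ≠ 0) :
    ∃ s : Multiset A⟦X⟧, (∀ p ∈ s, Prime p) ∧ Associated s.prod g := by
  obtain ⟨f, h, H⟩ := g.exists_isWeierstrassFactorization hg
  obtain ⟨s, hs, hsf⟩ := s26elf2w_monic_factors f.natDegree f H.isDistinguishedAt.monic rfl
  -- every factor is distinguished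
  have hdist : ∀ q ∈ s, q.IsDistinguishedAt (IsLocalRing.maximalIdeal A) := by
    intro q hq
    obtain ⟨t, rfl⟩ := Multiset.exists_cons_of_mem hq
    have ht : t.prod.Monic := by
      have := Polynomial.monic_multiset_prod_of_monic t id
        (fun x hx => (hs x (Multiset.mem_cons_of_mem hx)).1)
      simpa using this
    refine s26elf2w_distinguished_of_mul (hs q hq).1 ht ?_
    rw [← Multiset.prod_cons, hsf]
    exact H.isDistinguishedAt
  refine ⟨s.map (fun q : A[X] => (q : A⟦X⟧)), ?_, ?_⟩
  · intro p hp
    obtain ⟨q, hq, rfl⟩ := Multiset.mem_map.mp hp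
    exact s26elf2w_prime_coe (hdist q hq) (hs q hq).2.prime
  · have hprod : (s.map (fun q : A[X] => (q : A⟦X⟧))).prod = (f : A⟦X⟧) := by
      rw [← hsf]
      exact (map_multiset_prod (Polynomial.coeToPowerSeries.ringHom (R := A)) s).symm
    rw [hprod, H.eq_mul]
    exact (associated_mul_unit_right _ _ H.isUnit)

end Fermat.Agent.S26

end
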