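/-
S26-E-LF3 (helper25): DESCENT OF FACTORIALITY along a faithfully flat local extension
(Mori; Bourbaki AC VII §3 no. 6).  Mathlib only.

`R` a noetherian domain, `S` a local domain which is a UFD, `R → S` faithfully flat
(e.g. `R` local noetherian, `S = R^` its completion `≅ K⟦y₁,…,y_g⟧`).  Then

* `s26elf3_minimalPrime_principal` : every minimal prime over a principal ideal `(a)`, `a ≠ 0`,
  is principal;
* `s26elf3_ufd` : `R` is a UFD.

Steps: (A) `𝔭 = ((a) : b)` (associated prime); (B) flat base change of the colon by the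
equational criterion, and `((a) : b)` is principal in a UFD; (C) `𝔭 S` principal, `S` local
⇒ `𝔭 S = p S` for a generator `p` of `𝔭`, and `𝔭 = 𝔭 S ∩ R = p R`.
-/
import Mathlib.RingTheory.Flat.EquationalCriterion
import Mathlib.RingTheory.Flat.FaithfullyFlat.Algebra
import Mathlib.RingTheory.Ideal.AssociatedPrime.Localization
import Mathlib.RingTheory.UniqueFactorizationDomain.GCDMonoid
import Mathlib.RingTheory.UniqueFactorizationDomain.Kaplansky
import Mathlib.RingTheory.Ideal.MinimalPrime.Basic
import Mathlib.RingTheory.Ideal.Colon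

set_option autoImplicit false
set_option linter.style.haveILetI false

namespace Fermat.Agent.S26

/-- **(A)** a minimal prime over `(a)` is the colon `((a) : b)`. -/
theorem s26elf3_eq_colon {R : Type*} [CommRing R] [IsNoetherianRing R] (a : R) (𝔭 : Ideal R)
    (h : 𝔭 ∈ (Ideal.span {a}).minimalPrimes) : ∃ b : R, ∀ r, r ∈ 𝔭 ↔ a ∣ r * b := by
  have hann : Module.annihilator R (R ⧸ Ideal.span {a}) = Ideal.span {a} :=
    Ideal.annihilator_quotient
  have h1 : 𝔭 ∈ associatedPrimes R (R ⧸ Ideal.span {a}) := by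
    apply Module.associatedPrimes.minimalPrimes_annihilator_subset_associatedPrimes
    rw [hann]
    exact h
  obtain ⟨-, x, hx⟩ := (isAssociatedPrime_iff).1 h1
  obtain ⟨b, rfl⟩ := Ideal.Quotient.mk_surjective x
  refine ⟨b, fun r => ?_⟩
  rw [hx, Submodule.mem_colon_singleton, Submodule.mem_bot]
  have : r • (Ideal.Quotient.mk (Ideal.span {a}) b) = Ideal.Quotient.mk (Ideal.span {a}) (r * b) := by
    rw [map_mul]
    rfl
  rw [this, Ideal.Quotient.eq_zero_iff_mem, Ideal.mem_span_singleton]

/-- **(B1)** in a UFD the colon `((a) : b)` of a nonzero `a` is principal. -/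
theorem s26elf3_colon_principal {S : Type*} [CommRing S] [IsDomain S]
    [UniqueFactorizationMonoid S] (a b : S) (ha : a ≠ 0) :
    ∃ c : S, ∀ y, a ∣ y * b ↔ c ∣ y := by
  classical
  letI : GCDMonoid S := UniqueFactorizationMonoid.toGCDMonoid S
  obtain ⟨a', b', ea, eb, hu⟩ := extract_gcd a b
  have hd : gcd a b ≠ 0 := by
    intro h
    rw [h, zero_mul] at ea
    exact ha ea
  have hrel : IsRelPrime a' b' := gcd_isUnit_iff_isRelPrime.1 hu
  refine ⟨a', fun y => ⟨fun h => ?_, fun h => ?_⟩⟩
  · have h1 : gcd a b * a' ∣ gcd a b * (y * b') := by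
      have : gcd a b * (y * b') = y * b := by
        conv_rhs => rw [eb]
        ring
      rw [this, ← ea]
      exact h
    have h2 : a' ∣ y * b' := (mul_dvd_mul_iff_left hd).1 h1
    exact hrel.dvd_of_dvd_mul_right h2
  · obtain ⟨t, rfl⟩ := h
    refine ⟨t * b', ?_⟩
    conv_lhs => rw [eb]
    conv_rhs => rw [ea]
    ring

/-- **(B2)** flat base change of the colon (equational criterion of flatness). -/
theorem s26elf3_map_colon {R S : Type*} [CommRing R] [CommRing S] [Algebra R S]
    [Module.Flat R S] (a b : R) (𝔭 : Ideal R) (h𝔭 : ∀ r, r ∈ 𝔭 ↔ a ∣ r * b) (y : S) :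
    y ∈ Ideal.map (algebraMap R S) 𝔭 ↔ algebraMap R S a ∣ y * algebraMap R S b := by
  constructor
  · intro hy
    have key : ∀ y ∈ Ideal.span ((algebraMap R S) '' (𝔭 : Set R)),
        algebraMap R S a ∣ y * algebraMap R S b := by
      intro y hy'
      induction hy' using Submodule.span_induction with
      | mem x hx =>
        obtain ⟨r, hr, rfl⟩ := hx
        obtain ⟨t, ht⟩ := (h𝔭 r).1 hr
        exact ⟨algebraMap R S t, by rw [← map_mul, ht, map_mul]⟩
      | zero => simp
      | add x z _ _ hx hz =>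
        rw [add_mul]
        exact dvd_add hx hz
      | smul c x _ hx =>
        rw [smul_eq_mul, mul_assoc]
        exact Dvd.dvd.mul_left hx c
    exact key y hy
  · rintro ⟨s, hs⟩
    -- the relation `b • y + (-a) • s = 0`
    have hrel : ∑ i : Fin 2, (![b, -a] i) • (![y, s] i) = 0 := by
      rw [Fin.sum_univ_two]
      simp only [Matrix.cons_val_zero, Matrix.cons_val_one, Algebra.smul_def, map_neg]
      rw [mul_comm (algebraMap R S b) y, hs]
      ring
    obtain ⟨k, α, z, hz, hα⟩ := Module.Flat.isTrivialRelation_of_sum_smul_eq_zero hrel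
    have hy : y = ∑ j, α 0 j • z j := by simpa using hz 0
    rw [hy]
    refine Submodule.sum_mem _ fun j _ => ?_
    rw [Algebra.smul_def]
    refine Ideal.mul_mem_right _ _ (Ideal.mem_map_of_mem _ ?_)
    rw [h𝔭]
    have h1 := hα j
    rw [Fin.sum_univ_two] at h1
    simp only [Matrix.cons_val_zero, Matrix.cons_val_one] at h1
    refine ⟨α 1 j, ?_⟩
    linear_combination h1

/-- **(C)** descent of principality: `S` a local domain, `R → S` faithfully flat, `𝔭 S`
principal ⇒ `𝔭` principal. -/
theorem s26elf3_principal_descent {R S : Type*} [CommRing R] [IsNoetherianRing R]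
    [CommRing S] [IsDomain S] [IsLocalRing S] [Algebra R S] [Module.FaithfullyFlat R S]
    (𝔭 : Ideal R) (g : S) (h : Ideal.map (algebraMap R S) 𝔭 = Ideal.span {g}) :
    ∃ f ∈ 𝔭, 𝔭 = Ideal.span {f} := by
  classical
  have hcm : ∀ I : Ideal R, Ideal.comap (algebraMap R S) (Ideal.map (algebraMap R S) I) = I :=
    fun I => Ideal.comap_map_eq_self_of_faithfullyFlat I
  by_cases hg : g = 0
  · -- `𝔭 S = 0`, so `𝔭 = 0`
    refine ⟨0, 𝔭.zero_mem, ?_⟩
    have h0 : Ideal.map (algebraMap R S) 𝔭 = Ideal.map (algebraMap R S) (Ideal.span {(0 : R)}) := by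
      rw [h, hg, Ideal.map_span]
      simp
    have := congrArg (Ideal.comap (algebraMap R S)) h0
    rwa [hcm, hcm] at this
  -- generators of `𝔭`
  obtain ⟨T, hT⟩ := (isNoetherianRing_iff_ideal_fg R).1 inferInstance 𝔭
  have hTmem : ∀ p ∈ T, p ∈ 𝔭 := fun p hp => by
    rw [← hT]
    exact Ideal.subset_span hp
  -- each generator is `g * t p`
  have hdiv : ∀ p ∈ T, ∃ t : S, algebraMap R S p = g * t := by
    intro p hp
    have : algebraMap R S p ∈ Ideal.span {g} := by
      rw [← h]
      exact Ideal.mem_map_of_mem _ (hTmem p hp)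
    obtain ⟨t, ht⟩ := Ideal.mem_span_singleton.1 this
    exact ⟨t, ht⟩
  -- `g` is a combination of the generators
  have hgmem : g ∈ Ideal.span ((algebraMap R S) '' (T : Set R)) := by
    have : g ∈ Ideal.map (algebraMap R S) 𝔭 := by
      rw [h]
      exact Ideal.mem_span_singleton_self g
    rwa [← hT, Ideal.map_span] at this
  -- some generator `p` has `t p` a unit
  have hex : ∃ p ∈ T, ∃ t : S, algebraMap R S p = g * t ∧ IsUnit t := by
    by_contra hcon
    push Not at hcon
    -- then every generator lies in `g • 𝔪`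
    have hsub : Ideal.span ((algebraMap R S) '' (T : Set R)) ≤
        Ideal.span {g} * IsLocalRing.maximalIdeal S := by
      rw [Ideal.span_le]
      rintro _ ⟨p, hp, rfl⟩
      obtain ⟨t, ht⟩ := hdiv p hp
      have htm : t ∈ IsLocalRing.maximalIdeal S := by
        rw [IsLocalRing.mem_maximalIdeal]
        exact hcon p hp t ht
      rw [ht]
      exact Ideal.mul_mem_mul (Ideal.mem_span_singleton_self g) htm
    have hg2 := hsub hgmem
    rw [Ideal.mem_span_singleton_mul] at hg2
    obtain ⟨m, hm, hgm⟩ := hg2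
    have h1 : m = 1 := by
      have : g * m = g * 1 := by rw [hgm, mul_one]
      exact mul_left_cancel₀ hg this
    rw [h1] at hm
    exact (IsLocalRing.maximalIdeal.isMaximal S).ne_top ((Ideal.eq_top_iff_one _).2 hm)
  obtain ⟨p, hp, t, hpt, htu⟩ := hex
  refine ⟨p, hTmem p hp, ?_⟩
  have hmap : Ideal.map (algebraMap R S) 𝔭 = Ideal.map (algebraMap R S) (Ideal.span {p}) := by
    rw [h, Ideal.map_span, Set.image_singleton, hpt]
    exact (Ideal.span_singleton_mul_right_unit htu g).symm
  have := congrArg (Ideal.comap (algebraMap R S)) hmap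
  rwa [hcm, hcm] at this

/-- **Minimal primes over a principal ideal are principal.** -/
theorem s26elf3_minimalPrime_principal {R S : Type*} [CommRing R] [IsDomain R]
    [IsNoetherianRing R] [CommRing S] [IsDomain S] [IsLocalRing S]
    [UniqueFactorizationMonoid S] [Algebra R S] [Module.FaithfullyFlat R S]
    (a : R) (ha : a ≠ 0) (𝔭 : Ideal R) (h : 𝔭 ∈ (Ideal.span {a}).minimalPrimes) :
    ∃ f ∈ 𝔭, 𝔭 = Ideal.span {f} := by
  obtain ⟨b, hb⟩ := s26elf3_eq_colon a 𝔭 h
  have haS : algebraMap R S a ≠ 0 := by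
    intro h0
    exact ha ((FaithfulSMul.algebraMap_injective R S) (by rw [h0, map_zero]))
  obtain ⟨c, hc⟩ := s26elf3_colon_principal (algebraMap R S a) (algebraMap R S b) haS
  apply s26elf3_principal_descent (S := S) 𝔭 c
  ext y
  rw [s26elf3_map_colon a b 𝔭 hb y, hc y, Ideal.mem_span_singleton]

/-- **Descent of factoriality.** -/
theorem s26elf3_ufd {R S : Type*} [CommRing R] [IsDomain R]
    [IsNoetherianRing R] [CommRing S] [IsDomain S] [IsLocalRing S]
    [UniqueFactorizationMonoid S] [Algebra R S] [Module.FaithfullyFlat R S] :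
    UniqueFactorizationMonoid R := by
  rw [UniqueFactorizationMonoid.iff_exists_prime_mem_of_isPrime]
  intro I hI hIp
  obtain ⟨a, haI, ha0⟩ := Submodule.exists_mem_ne_zero_of_ne_bot hI
  have hle : Ideal.span {a} ≤ I := (Ideal.span_singleton_le_iff_mem _).2 haI
  obtain ⟨𝔭, h𝔭, h𝔭I⟩ := Ideal.exists_minimalPrimes_le hle
  obtain ⟨f, hf, hf𝔭⟩ := s26elf3_minimalPrime_principal (S := S) a ha0 𝔭 h𝔭
  have h𝔭prime : 𝔭.IsPrime := h𝔭.1.1
  have hf0 : f ≠ 0 := by
    rintro rfl
    have ha𝔭 : a ∈ 𝔭 := h𝔭.1.2 (Ideal.mem_span_singleton_self a)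
    rw [hf𝔭] at ha𝔭
    simp at ha𝔭
    exact ha0 ha𝔭
  refine ⟨f, h𝔭I hf, ?_⟩
  rw [← Ideal.span_singleton_prime hf0, ← hf𝔭]
  exact h𝔭prime

/-- The same for a flat LOCAL homomorphism of local rings (e.g. the completion). -/
theorem s26elf3_ufd_of_flat_local {R S : Type*} [CommRing R] [IsDomain R] [IsLocalRing R]
    [IsNoetherianRing R] [CommRing S] [IsDomain S] [IsLocalRing S]
    [UniqueFactorizationMonoid S] [Algebra R S] [Module.Flat R S]
    [IsLocalHom (algebraMap R S)] : UniqueFactorizationMonoid R :=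
  haveI : Module.FaithfullyFlat R S := Module.FaithfullyFlat.of_flat_of_isLocalHom
  s26elf3_ufd (S := S)

end Fermat.Agent.S26
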