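/-
S26-E (LF), CLOSED (helper21): the stalks of a smooth integral scheme of finite type over an
algebraically closed field are unique factorisation domains.

= LF1 (helper21, `s26elf1_ufd`: completion ≅ `K⟦Y⟧`) + LF2 (helper36, helper56: `K⟦Y⟧` is a UFD)
+ LF3 (helper8, helper25: descent from the completion) + LF-W (helper39: the scheme wrapper).
-/
import Fermat.Agent.S26.ELFWUfd
import Fermat.Agent.S26.ELF1Final

set_option autoImplicit false

universe u

open CategoryTheory AlgebraicGeometry

namespace Fermat.Agent.S26

/-- **LF1 + LF2 + LF3**: the hypothesis `S26elfwLoc K` of the wrapper holds for every infinite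
field `K`. -/
theorem s26elf_loc (K : Type u) [Field K] [Infinite K] : S26elfwLoc K := by
  intro R _ _ _ _ _ _ hres
  exact s26elf1_ufd hres

/-- **(LF)**: every stalk of `A` is a unique factorisation domain. -/
theorem s26elf_stalk_ufd {K : Type u} [Field K] [IsAlgClosed K] {A : Scheme.{u}}
    (f : A ⟶ Spec (CommRingCat.of K)) [IsIntegral A] [IsLocallyNoetherian A] [Smooth f]
    [LocallyOfFiniteType f] (z : A) : UniqueFactorizationMonoid (A.presheaf.stalk z) :=
  haveI : Infinite K := IsAlgClosed.instInfinite
  s26elfw_ufd f (s26elf_loc K) z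

end Fermat.Agent.S26
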