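/-
S26-E, piece E-LIN (helper77): the LATTICE LEMMA, abstract form.  Mathlib only.

`q : (Fin 3 → ℤ) → G` a function on the lattice `ℤ³` with values in an abelian group (`q v` = the
class of the divisor `[ℓ_v]`, `ℓ_v = v₁ x + v₂ y + v₃ z`), symmetric (`q (-v) = q v`, `D` symmetric),
such that `c •` the CUBE EXPRESSION vanishes on the rows of every integral matrix whose determinant
is nonzero in `K` (blueprint NOTES/S26-E.md §1: `CUBE_gen(c)` + (T)).  Then
`(2 c) • (q (N e₁) - N² q (e₁)) = 0` for every `N` that is nonzero in `K`.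

* `s26elinCube q a b c`     : `q(a+b+c) − q(a+b) − q(a+c) − q(b+c) + q a + q b + q c`;
* `s26elin_parallelogram`   : `q(b+c) + q(b−c) − 2 q b − 2 q c = −(cube(a,b,c) + cube(a+c,b,−c))`;
* `s26elin_quad`            : constant second difference ⇒ quadratic;
* `s26elin_main`            : the lattice lemma.
Only matrices of determinant `±1` and `±N` are used.
-/
import Mathlib

set_option autoImplicit false

namespace Fermat.Agent.S26

variable {G : Type*} [AddCommGroup G]

/-- the cube expression. -/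
def s26elinCube (q : (Fin 3 → ℤ) → G) (a b c : Fin 3 → ℤ) : G :=
  q (a + b + c) - q (a + b) - q (a + c) - q (b + c) + q a + q b + q c

/-- the parallelogram expression is minus the sum of two cube expressions. -/
theorem s26elin_parallelogram (q : (Fin 3 → ℤ) → G) (hsymm : ∀ v, q (-v) = q v)
    (a b c : Fin 3 → ℤ) :
    q (b + c) + q (b - c) - 2 • q b - 2 • q c =
      -(s26elinCube q a b c + s26elinCube q (a + c) b (-c)) := by
  unfold s26elinCube
  have e1 : a + c + b + -c = a + b := by abel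
  have e2 : a + c + b = a + b + c := by abel
  have e3 : a + c + -c = a := by abel
  have e4 : b + -c = b - c := by abel
  rw [e1, e2, e3, e4, hsymm c]
  abel

/-- a function on `ℤ` with constant second difference `2 t` is quadratic. -/
theorem s26elin_quad (r : ℤ → G) (t : G)
    (h : ∀ n : ℤ, r (n + 1) + r (n - 1) = 2 • r n + 2 • t) (n : ℤ) :
    r n = (n ^ 2) • t + n • (r 1 - t - r 0) + r 0 := by
  have key : ∀ n : ℤ, (r n = (n ^ 2) • t + n • (r 1 - t - r 0) + r 0) ∧
      (r (n + 1) = ((n + 1) ^ 2) • t + (n + 1) • (r 1 - t - r 0) + r 0) := by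
    intro n
    induction n using Int.induction_on with
    | zero =>
      constructor
      · simp
      · simp only [zero_add, one_pow, one_smul]
        abel
    | succ i ih =>
      obtain ⟨h0, h1⟩ := ih
      refine ⟨h1, ?_⟩
      have h2 := h ((i : ℤ) + 1)
      rw [add_sub_cancel_right] at h2
      have e : r ((i : ℤ) + 1 + 1) = 2 • r ((i : ℤ) + 1) + 2 • t - r (i : ℤ) :=
        eq_sub_of_add_eq h2
      rw [e, h0, h1]
      module
    | pred i ih =>
      obtain ⟨h0, h1⟩ := ih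
      have h2 := h (-(i : ℤ))
      refine ⟨?_, ?_⟩
      · have e : r (-(i : ℤ) - 1) = 2 • r (-(i : ℤ)) + 2 • t - r (-(i : ℤ) + 1) :=
          eq_sub_of_add_eq' h2
        rw [e, h0, h1]
        module
      · rw [sub_add_cancel]
        exact h0
  exact (key n).1

/-- the matrix with rows `a, b, c`. -/
def s26elinMat (a b c : Fin 3 → ℤ) : Matrix (Fin 3) (Fin 3) ℤ := Matrix.of ![a, b, c]

theorem s26elin_det (a b c : Fin 3 → ℤ) :
    (s26elinMat a b c).det =
      a 0 * b 1 * c 2 - a 0 * b 2 * c 1 - a 1 * b 0 * c 2 + a 1 * b 2 * c 0 + a 2 * b 0 * c 1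
        - a 2 * b 1 * c 0 := by
  rw [Matrix.det_fin_three]
  simp [s26elinMat]

/-- **parallelogram law** from the cube relations: if `b, c` extend to a matrix `(a, b, c)` whose
determinant is nonzero in `K`, then `k • (q(b+c) + q(b−c) − 2 q b − 2 q c) = 0`. -/
theorem s26elin_par_of_cube {K : Type*} [Field K] (q : (Fin 3 → ℤ) → G)
    (hsymm : ∀ v, q (-v) = q v) (k : ℕ)
    (hcube : ∀ a b c : Fin 3 → ℤ, (((s26elinMat a b c).det : ℤ) : K) ≠ 0 →
      k • s26elinCube q a b c = 0)
    (a b c : Fin 3 → ℤ) (hdet : (((s26elinMat a b c).det : ℤ) : K) ≠ 0) :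
    k • (q (b + c) + q (b - c) - 2 • q b - 2 • q c) = 0 := by
  have hdet' : (((s26elinMat (a + c) b (-c)).det : ℤ) : K) ≠ 0 := by
    have e : (s26elinMat (a + c) b (-c)).det = -(s26elinMat a b c).det := by
      rw [s26elin_det, s26elin_det]
      simp only [Pi.add_apply, Pi.neg_apply]
      ring
    rw [e, Int.cast_neg]
    exact neg_ne_zero.mpr hdet
  rw [s26elin_parallelogram q hsymm a b c, smul_neg, smul_add, hcube a b c hdet,
    hcube (a + c) b (-c) hdet', add_zero, neg_zero]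

/-- **E-LIN, the lattice lemma.**  `(2k) • (q (N e₁) − N² q e₁) = 0`. -/
theorem s26elin_main {K : Type*} [Field K] (q : (Fin 3 → ℤ) → G)
    (hsymm : ∀ v, q (-v) = q v) (k : ℕ)
    (hcube : ∀ a b c : Fin 3 → ℤ, (((s26elinMat a b c).det : ℤ) : K) ≠ 0 →
      k • s26elinCube q a b c = 0)
    (N : ℤ) (hN : (N : K) ≠ 0) :
    (2 * k) • (q ![N, 0, 0] - (N ^ 2) • q ![1, 0, 0]) = 0 := by
  -- the function `r n = k • q (n, 1, 0)` has constant second difference `2 k • q (1,0,0)`
  have h1 : ∀ n : ℤ, k • q ![n + 1, 1, 0] + k • q ![n - 1, 1, 0] =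
      2 • (k • q ![n, 1, 0]) + 2 • (k • q ![1, 0, 0]) := by
    intro n
    have hdet : (((s26elinMat ![0, 0, 1] ![n, 1, 0] ![1, 0, 0]).det : ℤ) : K) ≠ 0 := by
      rw [s26elin_det]
      simp
    have h := s26elin_par_of_cube q hsymm k hcube ![0, 0, 1] ![n, 1, 0] ![1, 0, 0] hdet
    have e1 : (![n, 1, 0] : Fin 3 → ℤ) + ![1, 0, 0] = ![n + 1, 1, 0] := by
      ext i; fin_cases i <;> simp
    have e2 : (![n, 1, 0] : Fin 3 → ℤ) - ![1, 0, 0] = ![n - 1, 1, 0] := by
      ext i; fin_cases i <;> simp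
    rw [e1, e2, smul_sub, smul_sub, smul_add, sub_sub, sub_eq_zero] at h
    rw [h, smul_comm k 2, smul_comm k 2]
  have hq := s26elin_quad (fun n => k • q ![n, 1, 0]) (k • q ![1, 0, 0]) h1
  have hNq := hq N
  have hNq' := hq (-N)
  -- the parallelogram law for `(N, 0, 0)` and `(0, 1, 0)`
  have h2 : k • q ![N, 1, 0] + k • q ![N, -1, 0] =
      2 • (k • q ![N, 0, 0]) + 2 • (k • q ![0, 1, 0]) := by
    have hdet : (((s26elinMat ![0, 0, 1] ![N, 0, 0] ![0, 1, 0]).det : ℤ) : K) ≠ 0 := by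
      rw [s26elin_det]
      simpa using hN
    have h := s26elin_par_of_cube q hsymm k hcube ![0, 0, 1] ![N, 0, 0] ![0, 1, 0] hdet
    have e1 : (![N, 0, 0] : Fin 3 → ℤ) + ![0, 1, 0] = ![N, 1, 0] := by
      ext i; fin_cases i <;> simp
    have e2 : (![N, 0, 0] : Fin 3 → ℤ) - ![0, 1, 0] = ![N, -1, 0] := by
      ext i; fin_cases i <;> simp
    rw [e1, e2, smul_sub, smul_sub, smul_add, sub_sub, sub_eq_zero] at h
    rw [h, smul_comm k 2, smul_comm k 2]
  have e : q ![N, -1, 0] = q ![-N, 1, 0] := by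
    rw [← hsymm ![N, -1, 0]]
    congr 1
    ext i; fin_cases i <;> simp
  have h3 : 2 • (k • q ![N, 0, 0]) =
      k • q ![N, 1, 0] + k • q ![N, -1, 0] - 2 • (k • q ![0, 1, 0]) :=
    eq_sub_of_add_eq h2.symm
  have h4 : (2 * k) • (q ![N, 0, 0] - (N ^ 2) • q ![1, 0, 0]) =
      2 • (k • q ![N, 0, 0]) - (2 * N ^ 2) • (k • q ![1, 0, 0]) := by
    rw [mul_smul, smul_sub, smul_sub, smul_comm k (N ^ 2)]
    module
  rw [h4, h3, e]
  beta_reduce at hNq hNq'
  rw [hNq, hNq']
  simp only [neg_sq]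
  module

end Fermat.Agent.S26
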