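/-
S26-E, piece E-LIN (helper77), RELATION FORM: the lattice lemma `s26elin_main` in the language of
the relations calculus `S26erIsRel` (helper80, S26/ERAbs.lean).

`𝔡 v : ValuationSubring Ω → Ω` the generator family of the point `ℓ_v = v₁ x + v₂ y + v₃ z`
(`v ∈ ℤ³`).  Hypotheses: the families do not vanish over `K`, `𝔡 (-v)` and `𝔡 v` have the same
values (`D` symmetric), and the `k`-th power of the CUBE family of the rows of every integral matrix
with determinant nonzero in `K` is a relation.  Conclusion: the `2k`-th power of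
`𝔡 (N e₁) / 𝔡 (e₁) ^ (N²)` is a relation.
-/
import Fermat.Agent.S26.ERAbs
import Fermat.Agent.S26.ELin

set_option autoImplicit false

noncomputable section

namespace Fermat.Agent.S26

variable (K : Type*) {Ω : Type*} [Field K] [Field Ω] [Algebra K Ω]

/-- the families of units that are relations: a subgroup. -/
def s26elinRel : Subgroup (ValuationSubring Ω → Ωˣ) where
  carrier := {𝔢 | ∃ F : Ωˣ, ∀ V : ValuationSubring Ω, S26erOver K V →
    V.valuation (F : Ω) = V.valuation (𝔢 V : Ω)}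
  one_mem' := ⟨1, fun V _ => rfl⟩
  mul_mem' := by
    rintro a b ⟨F, hF⟩ ⟨F', hF'⟩
    refine ⟨F * F', fun V hV => ?_⟩
    simp only [Units.val_mul, Pi.mul_apply, map_mul, hF V hV, hF' V hV]
  inv_mem' := by
    rintro a ⟨F, hF⟩
    refine ⟨F⁻¹, fun V hV => ?_⟩
    simp only [Units.val_inv_eq_inv_val, Pi.inv_apply, map_inv₀, hF V hV]

variable {K}

theorem s26elin_mem_rel (𝔢 : ValuationSubring Ω → Ωˣ) :
    𝔢 ∈ s26elinRel K ↔ ∃ F : Ωˣ, ∀ V : ValuationSubring Ω, S26erOver K V →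
      V.valuation (F : Ω) = V.valuation (𝔢 V : Ω) := Iff.rfl

open scoped Classical in
/-- the unit version of a family (junk `1` where the family vanishes). -/
def s26elinUnit (𝔡 : ValuationSubring Ω → Ω) : ValuationSubring Ω → Ωˣ :=
  fun V => if h : 𝔡 V ≠ 0 then Units.mk0 (𝔡 V) h else 1

theorem s26elinUnit_val (𝔡 : ValuationSubring Ω → Ω) (V : ValuationSubring Ω) (h : 𝔡 V ≠ 0) :
    (s26elinUnit 𝔡 V : Ω) = 𝔡 V := by
  simp [s26elinUnit, h]

/-- the cube family. -/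
def s26elinCubeFam (𝔡 : (Fin 3 → ℤ) → ValuationSubring Ω → Ω) (a b c : Fin 3 → ℤ) :
    ValuationSubring Ω → Ω :=
  fun V => 𝔡 (a + b + c) V * (𝔡 (a + b) V)⁻¹ * (𝔡 (a + c) V)⁻¹ * (𝔡 (b + c) V)⁻¹ * 𝔡 a V * 𝔡 b V
    * 𝔡 c V

/-- **E-LIN, relation form.** -/
theorem s26elin_rel (𝔡 : (Fin 3 → ℤ) → ValuationSubring Ω → Ω)
    (h0 : ∀ v (V : ValuationSubring Ω), S26erOver K V → 𝔡 v V ≠ 0)
    (hsymm : ∀ v (V : ValuationSubring Ω), S26erOver K V →
      V.valuation (𝔡 (-v) V) = V.valuation (𝔡 v V))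
    (k : ℕ)
    (hcube : ∀ a b c : Fin 3 → ℤ, (((s26elinMat a b c).det : ℤ) : K) ≠ 0 →
      ∃ F : Ω, S26erIsRel K (fun V => s26elinCubeFam 𝔡 a b c V ^ k) F)
    (N : ℕ) (hN : (N : K) ≠ 0) :
    ∃ F : Ω, F ≠ 0 ∧ S26erIsRel K
      (fun V => (𝔡 ![(N : ℤ), 0, 0] V * ((𝔡 ![1, 0, 0] V) ^ (N ^ 2))⁻¹) ^ (2 * k)) F := by
  classical
  -- the class group
  let H := (ValuationSubring Ω → Ωˣ) ⧸ s26elinRel (Ω := Ω) K
  let q : (Fin 3 → ℤ) → Additive H := fun v =>
    Additive.ofMul (QuotientGroup.mk (s26elinUnit (𝔡 v)))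
  have hq_symm : ∀ v, q (-v) = q v := by
    intro v
    show Additive.ofMul (QuotientGroup.mk (s26elinUnit (𝔡 (-v)))) =
      Additive.ofMul (QuotientGroup.mk (s26elinUnit (𝔡 v)))
    congr 1
    rw [QuotientGroup.eq]
    refine ⟨1, fun V hV => ?_⟩
    simp only [Units.val_one, map_one, Pi.mul_apply, Pi.inv_apply, Units.val_mul,
      Units.val_inv_eq_inv_val, map_mul, map_inv₀]
    rw [s26elinUnit_val _ V (h0 (-v) V hV), s26elinUnit_val _ V (h0 v V hV), hsymm v V hV]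
    have hne : V.valuation (𝔡 v V) ≠ 0 := (Valuation.ne_zero_iff _).mpr (h0 v V hV)
    exact (inv_mul_cancel₀ hne).symm
  have hq_cube : ∀ a b c : Fin 3 → ℤ, (((s26elinMat a b c).det : ℤ) : K) ≠ 0 →
      k • s26elinCube q a b c = 0 := by
    intro a b c hdet
    obtain ⟨F, hF⟩ := hcube a b c hdet
    have hF0 : F ≠ 0 := by
      rintro rfl
      have h1 := hF ⊤ s26erOver_top
      rw [map_zero] at h1
      have h2 := (Valuation.zero_iff _).1 h1.symm
      have h3 : s26elinCubeFam 𝔡 a b c ⊤ ≠ 0 := by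
        unfold s26elinCubeFam
        have := fun v => h0 v (⊤ : ValuationSubring Ω) s26erOver_top
        simp [this]
      exact pow_ne_zero k h3 h2
    show k • (Additive.ofMul (QuotientGroup.mk (s26elinUnit (𝔡 (a + b + c)))) -
      Additive.ofMul (QuotientGroup.mk (s26elinUnit (𝔡 (a + b)))) -
      Additive.ofMul (QuotientGroup.mk (s26elinUnit (𝔡 (a + c)))) -
      Additive.ofMul (QuotientGroup.mk (s26elinUnit (𝔡 (b + c)))) +
      Additive.ofMul (QuotientGroup.mk (s26elinUnit (𝔡 a))) +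
      Additive.ofMul (QuotientGroup.mk (s26elinUnit (𝔡 b))) +
      Additive.ofMul (QuotientGroup.mk (s26elinUnit (𝔡 c))) : Additive H) = 0
    rw [← ofMul_div, ← ofMul_div, ← ofMul_div, ← ofMul_mul, ← ofMul_mul, ← ofMul_mul, ← ofMul_pow,
      ← ofMul_one]
    congr 1
    rw [← QuotientGroup.mk_div, ← QuotientGroup.mk_div, ← QuotientGroup.mk_div,
      ← QuotientGroup.mk_mul, ← QuotientGroup.mk_mul, ← QuotientGroup.mk_mul,
      ← QuotientGroup.mk_pow, QuotientGroup.eq_one_iff]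
    refine ⟨Units.mk0 F hF0, fun V hV => ?_⟩
    rw [Units.val_mk0, hF V hV]
    simp only [s26elinCubeFam, Pi.pow_apply, Pi.mul_apply, Pi.inv_apply,
      Units.val_pow_eq_pow_val, Units.val_mul, Units.val_inv_eq_inv_val,
      s26elinUnit_val _ V (h0 _ V hV), div_eq_mul_inv]
  have key := s26elin_main (K := K) q hq_symm k hq_cube (N : ℤ) (by exact_mod_cast hN)
  -- translate back
  have key' : (QuotientGroup.mk ((s26elinUnit (𝔡 ![(N : ℤ), 0, 0]) *
      (s26elinUnit (𝔡 ![1, 0, 0]) ^ (N ^ 2))⁻¹) ^ (2 * k)) : H) = 1 := by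
    have e : (2 * k) • (q ![(N : ℤ), 0, 0] - ((N : ℤ) ^ 2) • q ![1, 0, 0]) =
        Additive.ofMul (QuotientGroup.mk ((s26elinUnit (𝔡 ![(N : ℤ), 0, 0]) *
          (s26elinUnit (𝔡 ![1, 0, 0]) ^ (N ^ 2))⁻¹) ^ (2 * k)) : H) := by
      show (2 * k) • (Additive.ofMul (QuotientGroup.mk (s26elinUnit (𝔡 ![(N : ℤ), 0, 0]))) -
        ((N : ℤ) ^ 2) • Additive.ofMul (QuotientGroup.mk (s26elinUnit (𝔡 ![1, 0, 0]))) :
          Additive H) = _
      have e2 : ((N : ℤ) ^ 2) • (Additive.ofMul (QuotientGroup.mk (s26elinUnit (𝔡 ![1, 0, 0]))) :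
          Additive H) =
          (N ^ 2 : ℕ) • (Additive.ofMul (QuotientGroup.mk (s26elinUnit (𝔡 ![1, 0, 0]))) :
            Additive H) := by
        have e3 : ((N : ℤ) ^ 2) = ((N ^ 2 : ℕ) : ℤ) := by push_cast; rfl
        rw [e3, natCast_zsmul]
      rw [e2, ← ofMul_pow, ← ofMul_div, ← ofMul_pow, ← QuotientGroup.mk_pow,
        ← QuotientGroup.mk_div, ← QuotientGroup.mk_pow, div_eq_mul_inv]
    rw [e] at key
    exact key
  rw [QuotientGroup.eq_one_iff] at key'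
  obtain ⟨F, hF⟩ := key'
  refine ⟨F, F.ne_zero, fun V hV => ?_⟩
  rw [hF V hV]
  simp only [Pi.pow_apply, Pi.mul_apply, Pi.inv_apply, Units.val_pow_eq_pow_val, Units.val_mul,
    Units.val_inv_eq_inv_val, s26elinUnit_val _ V (h0 _ V hV)]

end Fermat.Agent.S26
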