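/-
S26-E, piece E-LIN (helper77), GOOD TRIPLES: the lattice lemma with the cube relations assumed only
for the triples that the formal part can reach.

* `S26elgGood K a b c` : the triples of vectors of `ℤ³` reached from `(e₁, e₂, e₃)` by the swaps, the
  SHEAR `(a, b, c) ↦ (a + c, b, c)`, NEG `(a, b, c) ↦ (a, b, −c)` and MUL `(a, b, c) ↦ (N a, b, c)`
  with `(N : K) ≠ 0`  (no Smith normal form, no general integral matrix);
* `S26elgVec K v`      : `v` is the first vector of a good triple;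
* `s26elg_main`        : the abstract lattice lemma, cube relations for good triples only,
  symmetry for good vectors only;
* `s26elg_rel`         : the same in the relations calculus `S26erIsRel` (helper80).
-/
import Fermat.Agent.S26.ELinRel

set_option autoImplicit false

noncomputable section

namespace Fermat.Agent.S26

/-- **good triples** of vectors of `ℤ³`. -/
inductive S26elgGood (K : Type*) [Field K] :
    (Fin 3 → ℤ) → (Fin 3 → ℤ) → (Fin 3 → ℤ) → Prop
  | base : S26elgGood K ![1, 0, 0] ![0, 1, 0] ![0, 0, 1]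
  | swap12 {a b c : Fin 3 → ℤ} : S26elgGood K a b c → S26elgGood K b a c
  | swap23 {a b c : Fin 3 → ℤ} : S26elgGood K a b c → S26elgGood K a c b
  | shear {a b c : Fin 3 → ℤ} : S26elgGood K a b c → S26elgGood K (a + c) b c
  | neg {a b c : Fin 3 → ℤ} : S26elgGood K a b c → S26elgGood K a b (-c)
  | mul {a b c : Fin 3 → ℤ} (N : ℕ) (hN : (N : K) ≠ 0) :
      S26elgGood K a b c → S26elgGood K ((N : ℤ) • a) b c

/-- the first vectors of the good triples. -/
def S26elgVec (K : Type*) [Field K] (v : Fin 3 → ℤ) : Prop :=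
  ∃ b c : Fin 3 → ℤ, S26elgGood K v b c

section Good

variable {K : Type*} [Field K] {a b c : Fin 3 → ℤ}

theorem S26elgGood.swap13 (h : S26elgGood K a b c) : S26elgGood K c b a :=
  h.swap12.swap23.swap12

theorem S26elgGood.add12 (h : S26elgGood K a b c) : S26elgGood K (a + b) b c :=
  h.swap23.shear.swap23

theorem S26elgGood.shearNat (h : S26elgGood K a b c) (n : ℕ) :
    S26elgGood K (a + (n : ℤ) • c) b c := by
  induction n with
  | zero => simpa using h
  | succ n ih =>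
    have e : a + ((n + 1 : ℕ) : ℤ) • c = a + (n : ℤ) • c + c := by
      push_cast
      rw [add_smul, one_smul, add_assoc]
    rw [e]
    exact ih.shear

theorem S26elgGood.shearInt (h : S26elgGood K a b c) (n : ℤ) :
    S26elgGood K (a + n • c) b c := by
  obtain ⟨m, rfl | rfl⟩ := Int.eq_nat_or_neg n
  · exact h.shearNat m
  · have h1 := (h.neg.shearNat m).neg
    rw [neg_neg] at h1
    have e : a + (m : ℤ) • -c = a + (-(m : ℤ)) • c := by
      rw [smul_neg, neg_smul]
    rw [e] at h1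
    exact h1

/-- the companion triple of the parallelogram law. -/
theorem S26elgGood.companion (h : S26elgGood K a b c) : S26elgGood K (a + c) b (-c) :=
  h.shear.neg

theorem S26elgGood.vec1 (h : S26elgGood K a b c) : S26elgVec K a := ⟨b, c, h⟩

theorem S26elgGood.vec2 (h : S26elgGood K a b c) : S26elgVec K b := ⟨a, c, h.swap12⟩

theorem S26elgGood.vec3 (h : S26elgGood K a b c) : S26elgVec K c := ⟨b, a, h.swap13⟩

theorem S26elgGood.vec12 (h : S26elgGood K a b c) : S26elgVec K (a + b) := ⟨b, c, h.add12⟩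

theorem S26elgGood.vec13 (h : S26elgGood K a b c) : S26elgVec K (a + c) := ⟨b, c, h.shear⟩

theorem S26elgGood.vec23 (h : S26elgGood K a b c) : S26elgVec K (b + c) :=
  ⟨a, c, h.swap12.shear⟩

theorem S26elgGood.vec123 (h : S26elgGood K a b c) : S26elgVec K (a + b + c) :=
  ⟨b, c, h.add12.shear⟩

theorem S26elgVec.neg {v : Fin 3 → ℤ} (h : S26elgVec K v) : S26elgVec K (-v) := by
  obtain ⟨b, c, h⟩ := h
  exact ⟨b, c, h.swap13.neg.swap13⟩

variable (K)

/-- the triple `(e₃, n e₁ + e₂, e₁)`. -/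
theorem s26elg_good_M1 (n : ℤ) : S26elgGood K ![0, 0, 1] ![n, 1, 0] ![1, 0, 0] := by
  have h := ((S26elgGood.base (K := K)).swap12.swap23.shearInt n).swap12
  have e : (![0, 1, 0] : Fin 3 → ℤ) + n • ![1, 0, 0] = ![n, 1, 0] := by
    ext i; fin_cases i <;> simp
  rw [e] at h
  exact h

/-- the triple `(e₃, N e₁, e₂)`. -/
theorem s26elg_good_M2 (N : ℕ) (hN : (N : K) ≠ 0) :
    S26elgGood K ![0, 0, 1] ![(N : ℤ), 0, 0] ![0, 1, 0] := by
  have h := ((S26elgGood.base (K := K)).mul N hN).swap13.swap23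
  have e : (N : ℤ) • (![1, 0, 0] : Fin 3 → ℤ) = ![(N : ℤ), 0, 0] := by
    ext i; fin_cases i <;> simp
  rw [e] at h
  exact h

theorem s26elg_vec_e1 : S26elgVec K ![1, 0, 0] := (S26elgGood.base (K := K)).vec1

theorem s26elg_vec_Ne1 (N : ℕ) (hN : (N : K) ≠ 0) : S26elgVec K ![(N : ℤ), 0, 0] :=
  (s26elg_good_M2 K N hN).vec2

end Good

section Abstract

variable {G : Type*} [AddCommGroup G]

/-- the parallelogram expression is minus the sum of two cube expressions (symmetry at `c` only). -/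
theorem s26elg_parallelogram (q : (Fin 3 → ℤ) → G) (a b c : Fin 3 → ℤ) (hc : q (-c) = q c) :
    q (b + c) + q (b - c) - 2 • q b - 2 • q c =
      -(s26elinCube q a b c + s26elinCube q (a + c) b (-c)) := by
  unfold s26elinCube
  have e1 : a + c + b + -c = a + b := by abel
  have e2 : a + c + b = a + b + c := by abel
  have e3 : a + c + -c = a := by abel
  have e4 : b + -c = b - c := by abel
  rw [e1, e2, e3, e4, hc]
  abel

variable {K : Type*} [Field K]

/-- **parallelogram law** from the cube relations of the good triples. -/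
theorem s26elg_par_of_cube (q : (Fin 3 → ℤ) → G)
    (hsymm : ∀ v, S26elgVec K v → q (-v) = q v) (k : ℕ)
    (hcube : ∀ a b c : Fin 3 → ℤ, S26elgGood K a b c → k • s26elinCube q a b c = 0)
    (a b c : Fin 3 → ℤ) (h : S26elgGood K a b c) :
    k • (q (b + c) + q (b - c) - 2 • q b - 2 • q c) = 0 := by
  rw [s26elg_parallelogram q a b c (hsymm c h.vec3), smul_neg, smul_add, hcube a b c h,
    hcube _ _ _ h.companion]
  simp

/-- **E-LIN for good triples** (abstract form). -/
theorem s26elg_main (q : (Fin 3 → ℤ) → G)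
    (hsymm : ∀ v, S26elgVec K v → q (-v) = q v) (k : ℕ)
    (hcube : ∀ a b c : Fin 3 → ℤ, S26elgGood K a b c → k • s26elinCube q a b c = 0)
    (N : ℕ) (hN : (N : K) ≠ 0) :
    (2 * k) • (q ![(N : ℤ), 0, 0] - ((N : ℤ) ^ 2) • q ![1, 0, 0]) = 0 := by
  have h1 : ∀ n : ℤ, k • q ![n + 1, 1, 0] + k • q ![n - 1, 1, 0] =
      2 • (k • q ![n, 1, 0]) + 2 • (k • q ![1, 0, 0]) := by
    intro n
    have h := s26elg_par_of_cube q hsymm k hcube ![0, 0, 1] ![n, 1, 0] ![1, 0, 0]
      (s26elg_good_M1 K n)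
    have e1 : (![n, 1, 0] : Fin 3 → ℤ) + ![1, 0, 0] = ![n + 1, 1, 0] := by
      ext i; fin_cases i <;> simp
    have e2 : (![n, 1, 0] : Fin 3 → ℤ) - ![1, 0, 0] = ![n - 1, 1, 0] := by
      ext i; fin_cases i <;> simp
    rw [e1, e2, smul_sub, smul_sub, smul_add, sub_sub, sub_eq_zero] at h
    rw [h, smul_comm k 2, smul_comm k 2]
  have hq := s26elin_quad (fun n => k • q ![n, 1, 0]) (k • q ![1, 0, 0]) h1
  have hNq := hq N
  have hNq' := hq (-N)
  have hM2 := s26elg_good_M2 K N hN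
  have h2 : k • q ![(N : ℤ), 1, 0] + k • q ![(N : ℤ), -1, 0] =
      2 • (k • q ![(N : ℤ), 0, 0]) + 2 • (k • q ![0, 1, 0]) := by
    have h := s26elg_par_of_cube q hsymm k hcube ![0, 0, 1] ![(N : ℤ), 0, 0] ![0, 1, 0] hM2
    have e1 : (![(N : ℤ), 0, 0] : Fin 3 → ℤ) + ![0, 1, 0] = ![(N : ℤ), 1, 0] := by
      ext i; fin_cases i <;> simp
    have e2 : (![(N : ℤ), 0, 0] : Fin 3 → ℤ) - ![0, 1, 0] = ![(N : ℤ), -1, 0] := by
      ext i; fin_cases i <;> simp
    rw [e1, e2, smul_sub, smul_sub, smul_add, sub_sub, sub_eq_zero] at h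
    rw [h, smul_comm k 2, smul_comm k 2]
  have e : q ![(N : ℤ), -1, 0] = q ![-(N : ℤ), 1, 0] := by
    have hv : S26elgVec K ![(N : ℤ), -1, 0] := by
      have h := hM2.companion.vec23
      have e0 : (![(N : ℤ), 0, 0] : Fin 3 → ℤ) + -![0, 1, 0] = ![(N : ℤ), -1, 0] := by
        ext i; fin_cases i <;> simp
      rw [e0] at h
      exact h
    rw [← hsymm ![(N : ℤ), -1, 0] hv]
    congr 1
    ext i; fin_cases i <;> simp
  have h3 : 2 • (k • q ![(N : ℤ), 0, 0]) =
      k • q ![(N : ℤ), 1, 0] + k • q ![(N : ℤ), -1, 0] - 2 • (k • q ![0, 1, 0]) :=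
    eq_sub_of_add_eq h2.symm
  have h4 : (2 * k) • (q ![(N : ℤ), 0, 0] - ((N : ℤ) ^ 2) • q ![1, 0, 0]) =
      2 • (k • q ![(N : ℤ), 0, 0]) - (2 * (N : ℤ) ^ 2) • (k • q ![1, 0, 0]) := by
    rw [mul_smul, smul_sub, smul_sub, smul_comm k ((N : ℤ) ^ 2)]
    module
  rw [h4, h3, e]
  beta_reduce at hNq hNq'
  rw [hNq, hNq']
  simp only [neg_sq]
  module

end Abstract

section Rel

variable (K : Type*) {Ω : Type*} [Field K] [Field Ω] [Algebra K Ω]

/-- **E-LIN for good triples, relation form.**  `𝔡 v` = the generator family of the point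
`v₁ x + v₂ y + v₃ z`;  nonvanishing and symmetry are asked for GOOD vectors only, the cube relation
for GOOD triples only. -/
theorem s26elg_rel (𝔡 : (Fin 3 → ℤ) → ValuationSubring Ω → Ω)
    (h0 : ∀ v, S26elgVec K v → ∀ V : ValuationSubring Ω, S26erOver K V → 𝔡 v V ≠ 0)
    (hsymm : ∀ v, S26elgVec K v → ∀ V : ValuationSubring Ω, S26erOver K V →
      V.valuation (𝔡 (-v) V) = V.valuation (𝔡 v V))
    (k : ℕ)
    (hcube : ∀ a b c : Fin 3 → ℤ, S26elgGood K a b c →
      ∃ F : Ω, S26erIsRel K (fun V => s26elinCubeFam 𝔡 a b c V ^ k) F)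
    (N : ℕ) (hN : (N : K) ≠ 0) :
    ∃ F : Ω, F ≠ 0 ∧ S26erIsRel K
      (fun V => (𝔡 ![(N : ℤ), 0, 0] V * ((𝔡 ![1, 0, 0] V) ^ (N ^ 2))⁻¹) ^ (2 * k)) F := by
  classical
  let H := (ValuationSubring Ω → Ωˣ) ⧸ s26elinRel (Ω := Ω) K
  let q : (Fin 3 → ℤ) → Additive H := fun v =>
    Additive.ofMul (QuotientGroup.mk (s26elinUnit (𝔡 v)))
  have hq_symm : ∀ v, S26elgVec K v → q (-v) = q v := by
    intro v hv
    show Additive.ofMul (QuotientGroup.mk (s26elinUnit (𝔡 (-v)))) =
      Additive.ofMul (QuotientGroup.mk (s26elinUnit (𝔡 v)))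
    congr 1
    rw [QuotientGroup.eq]
    refine ⟨1, fun V hV => ?_⟩
    simp only [Units.val_one, map_one, Pi.mul_apply, Pi.inv_apply, Units.val_mul,
      Units.val_inv_eq_inv_val, map_mul, map_inv₀]
    rw [s26elinUnit_val _ V (h0 (-v) hv.neg V hV), s26elinUnit_val _ V (h0 v hv V hV),
      hsymm v hv V hV]
    have hne : V.valuation (𝔡 v V) ≠ 0 := (Valuation.ne_zero_iff _).mpr (h0 v hv V hV)
    exact (inv_mul_cancel₀ hne).symm
  have hq_cube : ∀ a b c : Fin 3 → ℤ, S26elgGood K a b c →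
      k • s26elinCube q a b c = 0 := by
    intro a b c hg
    obtain ⟨F, hF⟩ := hcube a b c hg
    have n1 := h0 _ hg.vec1
    have n2 := h0 _ hg.vec2
    have n3 := h0 _ hg.vec3
    have n12 := h0 _ hg.vec12
    have n13 := h0 _ hg.vec13
    have n23 := h0 _ hg.vec23
    have n123 := h0 _ hg.vec123
    have hF0 : F ≠ 0 := by
      rintro rfl
      have h1 := hF ⊤ s26erOver_top
      rw [map_zero] at h1
      have h2 := (Valuation.zero_iff _).1 h1.symm
      have h3 : s26elinCubeFam 𝔡 a b c ⊤ ≠ 0 := by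
        unfold s26elinCubeFam
        have t1 := n1 ⊤ s26erOver_top
        have t2 := n2 ⊤ s26erOver_top
        have t3 := n3 ⊤ s26erOver_top
        have t12 := n12 ⊤ s26erOver_top
        have t13 := n13 ⊤ s26erOver_top
        have t23 := n23 ⊤ s26erOver_top
        have t123 := n123 ⊤ s26erOver_top
        simp [t1, t2, t3, t12, t13, t23, t123]
      exact pow_ne_zero k h3 h2
    show k • (Additive.ofMul (QuotientGroup.mk (s26elinUnit (𝔡 (a + b + c)))) -
      Additive.ofMul (QuotientGroup.mk (s26elinUnit (𝔡 (a + b)))) -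
      Additive.ofMul (QuotientGroup.mk (s26elinUnit (𝔡 (a + c)))) -
      Additive.ofMul (QuotientGroup.mk (s26elinUnit (𝔡 (b + c)))) +
      Additive.ofMul (QuotientGroup.mk (s26elinUnit (𝔡 a))) +
      Additive.ofMul (QuotientGroup.mk (s26elinUnit (𝔡 b))) +
      Additive.ofMul (QuotientGroup.mk (s26elinUnit (𝔡 c))) : Additive H) = 0
    rw [← ofMul_div, ← ofMul_div, ← ofMul_div, ← ofMul_mul, ← ofMul_mul, ← ofMul_mul, ← ofMul_pow,
      ← ofMul_one]
    congr 1
    rw [← QuotientGroup.mk_div, ← QuotientGroup.mk_div, ← QuotientGroup.mk_div,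
      ← QuotientGroup.mk_mul, ← QuotientGroup.mk_mul, ← QuotientGroup.mk_mul,
      ← QuotientGroup.mk_pow, QuotientGroup.eq_one_iff]
    refine ⟨Units.mk0 F hF0, fun V hV => ?_⟩
    rw [Units.val_mk0, hF V hV]
    simp only [s26elinCubeFam, Pi.pow_apply, Pi.mul_apply, Pi.inv_apply,
      Units.val_pow_eq_pow_val, Units.val_mul, Units.val_inv_eq_inv_val,
      s26elinUnit_val _ V (n1 V hV), s26elinUnit_val _ V (n2 V hV),
      s26elinUnit_val _ V (n3 V hV), s26elinUnit_val _ V (n12 V hV),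
      s26elinUnit_val _ V (n13 V hV), s26elinUnit_val _ V (n23 V hV),
      s26elinUnit_val _ V (n123 V hV), div_eq_mul_inv]
  have key := s26elg_main (K := K) q hq_symm k hq_cube N hN
  have hN0 := h0 _ (s26elg_vec_Ne1 K N hN)
  have h10 := h0 _ (s26elg_vec_e1 K)
  have key' : (QuotientGroup.mk ((s26elinUnit (𝔡 ![(N : ℤ), 0, 0]) *
      (s26elinUnit (𝔡 ![1, 0, 0]) ^ (N ^ 2))⁻¹) ^ (2 * k)) : H) = 1 := by
    have e : (2 * k) • (q ![(N : ℤ), 0, 0] - ((N : ℤ) ^ 2) • q ![1, 0, 0]) =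
        Additive.ofMul (QuotientGroup.mk ((s26elinUnit (𝔡 ![(N : ℤ), 0, 0]) *
          (s26elinUnit (𝔡 ![1, 0, 0]) ^ (N ^ 2))⁻¹) ^ (2 * k)) : H) := by
      show (2 * k) • (Additive.ofMul (QuotientGroup.mk (s26elinUnit (𝔡 ![(N : ℤ), 0, 0]))) -
        ((N : ℤ) ^ 2) • Additive.ofMul (QuotientGroup.mk (s26elinUnit (𝔡 ![1, 0, 0]))) :
          Additive H) = _
      have e2 : ((N : ℤ) ^ 2) • (Additive.ofMul (QuotientGroup.mk (s26elinUnit (𝔡 ![1, 0, 0]))) :
          Additive H) =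
          (N ^ 2 : ℕ) • (Additive.ofMul (QuotientGroup.mk (s26elinUnit (𝔡 ![1, 0, 0]))) :
            Additive H) := by
        have e3 : ((N : ℤ) ^ 2) = ((N ^ 2 : ℕ) : ℤ) := by push_cast; rfl
        rw [e3, natCast_zsmul]
      rw [e2, ← ofMul_pow, ← ofMul_div, ← ofMul_pow, ← QuotientGroup.mk_pow,
        ← QuotientGroup.mk_div, ← QuotientGroup.mk_pow, div_eq_mul_inv]
    rw [e] at key
    exact key
  rw [QuotientGroup.eq_one_iff] at key'
  obtain ⟨F, hF⟩ := key'
  refine ⟨F, F.ne_zero, fun V hV => ?_⟩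
  rw [hF V hV]
  simp only [Pi.pow_apply, Pi.mul_apply, Pi.inv_apply, Units.val_pow_eq_pow_val, Units.val_mul,
    Units.val_inv_eq_inv_val, s26elinUnit_val _ V (hN0 V hV), s26elinUnit_val _ V (h10 V hV)]

end Rel

end Fermat.Agent.S26
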