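/-
S26-E-M (a), helper8: LOCAL EQUATIONS — the algebraic core.  Mathlib only.

`R` a unique factorisation domain (the local ring `O_{X,c}`), `𝔭 ⊂ R` a prime with `O = R_𝔭` a
discrete valuation ring (the local ring `O_{X,z}` of a prime divisor `z ⤳ c`).

* `s26emq_isUnit_of_not_mem`, `s26emq_ordFrac_of_not_mem` : `y ∉ 𝔭 ⇒ ord y = 0`.
* `s26emq_span_eq`        : a prime element `π ∈ 𝔭` generates `𝔭`.
* `s26emq_ordFrac_prime`  : `ord π = 1` for a prime element `π ∈ 𝔭`.
* `s26emq_ordFrac_ne_one_of_mem` : `y ∈ 𝔭 ⇒ ord y ≠ 0`.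
* `s26emq_isDVR_of_prime` : the localisation at a principal prime is a DVR.
* `s26emq_exists_sqfree`  : for `x ≠ 0` and a set `S` of ideals there is `h ≠ 0` which is exactly
  divisible by the primes `π ∣ x` with `(π) ∈ S` and by no other prime.
* `s26emq_isUnit_of_forall` : an element without prime divisors is a unit.
* `s26emq_associated`     : two nonzero elements with the same "values" at all primes are
  associated (the values being given by multiplicative functions `v_π`).
-/
import Mathlib.RingTheory.OrderOfVanishing.Noetherian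
import Mathlib.RingTheory.Localization.AtPrime.Basic
import Mathlib.RingTheory.UniqueFactorizationDomain.NormalizedFactors
import Mathlib.RingTheory.UniqueFactorizationDomain.GCDMonoid
import Mathlib.RingTheory.DiscreteValuationRing.Basic
import Mathlib.RingTheory.DedekindDomain.Basic
import Mathlib.RingTheory.DiscreteValuationRing.TFAE
import Mathlib.Algebra.BigOperators.Associated

set_option autoImplicit false
set_option linter.unusedSectionVars false
set_option linter.style.haveILetI false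

namespace Fermat.Agent.S26

section Single

variable {R O F : Type*} [CommRing R] [IsDomain R] [CommRing O] [IsDomain O]
  [IsDiscreteValuationRing O] [Algebra R O] (𝔭 : Ideal R) [𝔭.IsPrime]
  [IsLocalization.AtPrime O 𝔭] [Field F] [Algebra O F] [IsFractionRing O F]

include 𝔭 in
theorem s26emq_algebraMap_injective : Function.Injective (algebraMap R O) :=
  IsLocalization.injective O (Ideal.primeCompl_le_nonZeroDivisors 𝔭)

theorem s26emq_isUnit_of_not_mem {y : R} (hy : y ∉ 𝔭) : IsUnit (algebraMap R O y) :=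
  (IsLocalization.AtPrime.isUnit_to_map_iff O 𝔭 y).2 hy

theorem s26emq_ordFrac_of_not_mem {y : R} (hy : y ∉ 𝔭) :
    Ring.ordFrac O (algebraMap O F (algebraMap R O y)) = 1 :=
  Ring.ordFrac_of_isUnit (s26emq_isUnit_of_not_mem 𝔭 hy)

/-- a prime element of `R` lying in `𝔭` generates `𝔭` (`R_𝔭` is a DVR). -/
theorem s26emq_span_eq {R : Type*} (O : Type*) [CommRing R] [IsDomain R] [CommRing O]
    [IsDomain O] [IsDiscreteValuationRing O] [Algebra R O] (𝔭 : Ideal R) [𝔭.IsPrime]
    [IsLocalization.AtPrime O 𝔭] {π : R} (hπ : Prime π) (hmem : π ∈ 𝔭) :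
    𝔭 = Ideal.span {π} := by
  have hQ : (Ideal.span {π} : Ideal R).IsPrime := (Ideal.span_singleton_prime hπ.ne_zero).2 hπ
  have hle : Ideal.span {π} ≤ 𝔭 := (Ideal.span_singleton_le_iff_mem 𝔭).2 hmem
  have hdQ : Disjoint (𝔭.primeCompl : Set R) (Ideal.span {π} : Ideal R) := by
    rw [Set.disjoint_left]
    intro a ha haQ
    exact ha (hle haQ)
  have hd𝔭 : Disjoint (𝔭.primeCompl : Set R) (𝔭 : Set R) := by
    rw [Set.disjoint_left]
    intro a ha ha𝔭
    exact ha ha𝔭
  have hQ' : ((Ideal.span {π} : Ideal R).map (algebraMap R O)).IsPrime :=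
    IsLocalization.isPrime_of_isPrime_disjoint 𝔭.primeCompl O _ hQ hdQ
  have hQ0 : (Ideal.span {π} : Ideal R).map (algebraMap R O) ≠ ⊥ := by
    intro h0
    have h1 : algebraMap R O π ∈ (Ideal.span {π} : Ideal R).map (algebraMap R O) :=
      Ideal.mem_map_of_mem _ (Ideal.mem_span_singleton_self π)
    rw [h0, Ideal.mem_bot] at h1
    exact hπ.ne_zero (s26emq_algebraMap_injective (O := O) 𝔭 (by rw [h1, map_zero]))
  have hmax : ((Ideal.span {π} : Ideal R).map (algebraMap R O)).IsMaximal :=
    hQ'.isMaximal hQ0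
  have h1 : (Ideal.span {π} : Ideal R).map (algebraMap R O) = 𝔭.map (algebraMap R O) := by
    rw [IsLocalization.AtPrime.map_eq_maximalIdeal 𝔭 O]
    exact IsLocalRing.eq_maximalIdeal hmax
  have h2 := IsLocalization.under_map_of_isPrime_disjoint 𝔭.primeCompl O hQ hdQ
  have h3 := IsLocalization.under_map_of_isPrime_disjoint 𝔭.primeCompl O
    (inferInstance : 𝔭.IsPrime) hd𝔭
  rw [← h3, ← h2, h1]

/-- a prime element of `R` lying in `𝔭` becomes a uniformizer of `O = R_𝔭`. -/
theorem s26emq_irreducible_map {π : R} (hπ : Prime π) (hmem : π ∈ 𝔭) :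
    Irreducible (algebraMap R O π) := by
  rw [IsDiscreteValuationRing.irreducible_iff_uniformizer,
    ← IsLocalization.AtPrime.map_eq_maximalIdeal 𝔭 O]
  conv_lhs => rw [s26emq_span_eq O 𝔭 hπ hmem]
  rw [Ideal.map_span, Set.image_singleton]

theorem s26emq_ordFrac_prime {π : R} (hπ : Prime π) (hmem : π ∈ 𝔭) :
    Ring.ordFrac O (algebraMap O F (algebraMap R O π)) = WithZero.exp 1 :=
  Ring.ordFrac_irreducible (s26emq_irreducible_map 𝔭 hπ hmem)

theorem s26emq_ordFrac_ne_one_of_mem {y : R} (hy : y ∈ 𝔭) :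
    Ring.ordFrac O (algebraMap O F (algebraMap R O y)) ≠ 1 := by
  intro h
  have hu : IsUnit (algebraMap R O y) :=
    Ring.isUnit_iff_ordFrac_one_of_isDiscreteValuationRing.2 h
  exact ((IsLocalization.AtPrime.isUnit_to_map_iff O 𝔭 y).1 hu) hy

end Single

/-- the localisation of a domain at a principal prime `(π)` is a discrete valuation ring
(if it is noetherian). -/
theorem s26emq_isDVR_of_prime {R : Type*} (O : Type*) [CommRing R] [IsDomain R] [CommRing O]
    [IsDomain O] [IsNoetherianRing O] [IsLocalRing O] [Algebra R O] (𝔭 : Ideal R) [𝔭.IsPrime]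
    [IsLocalization.AtPrime O 𝔭] {π : R} (hπ : π ≠ 0) (h𝔭 : 𝔭 = Ideal.span {π}) :
    IsDiscreteValuationRing O := by
  have hinj : Function.Injective (algebraMap R O) :=
    IsLocalization.injective O (Ideal.primeCompl_le_nonZeroDivisors 𝔭)
  have hmax : IsLocalRing.maximalIdeal O = Ideal.span {algebraMap R O π} := by
    rw [← IsLocalization.AtPrime.map_eq_maximalIdeal 𝔭 O, h𝔭, Ideal.map_span,
      Set.image_singleton]
  have hnf : ¬ IsField O := by
    intro hf
    have h0 : IsLocalRing.maximalIdeal O = ⊥ := IsLocalRing.isField_iff_maximalIdeal_eq.mp hf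
    rw [hmax, Ideal.span_singleton_eq_bot] at h0
    exact hπ (hinj (by rw [h0, map_zero]))
  have hprin : (IsLocalRing.maximalIdeal O).IsPrincipal := ⟨⟨algebraMap R O π, hmax⟩⟩
  exact ((IsDiscreteValuationRing.TFAE O hnf).out 4 0).mp hprin

section UFD

variable {R : Type*} [CommRing R] [IsDomain R] [UniqueFactorizationMonoid R]

/-- A prime dividing a prime is associated to it. -/
theorem s26emq_associated_of_prime_dvd {π p : R} (hπ : Prime π) (hp : Prime p) (h : π ∣ p) :
    Associated π p :=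
  hπ.irreducible.associated_of_dvd hp.irreducible h

/-- **The squarefree part along `S`.**  For `x ≠ 0` and a set `S` of ideals of `R` there is
`h ≠ 0` such that a prime element `π` divides `h` exactly once if `(π) ∈ S` and `π ∣ x`, and does
not divide `h` otherwise. -/
theorem s26emq_exists_sqfree (x : R) (hx : x ≠ 0) (S : Set (Ideal R)) :
    ∃ h : R, h ≠ 0 ∧ ∀ π : R, Prime π →
      ((Ideal.span {π} ∈ S ∧ π ∣ x) → ∃ u, ¬ π ∣ u ∧ h = π * u) ∧
      (¬ (Ideal.span {π} ∈ S ∧ π ∣ x) → ¬ π ∣ h) := by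
  classical
  letI : StrongNormalizationMonoid R := UniqueFactorizationMonoid.strongNormalizationMonoid
  set fs : Finset R := (UniqueFactorizationMonoid.normalizedFactors x).toFinset.filter
    (fun p => Ideal.span {p} ∈ S) with hfs
  have hmem : ∀ p, p ∈ fs ↔ p ∈ UniqueFactorizationMonoid.normalizedFactors x ∧
      Ideal.span {p} ∈ S := by
    intro p
    rw [hfs, Finset.mem_filter, Multiset.mem_toFinset]
  have hfs_prime : ∀ p ∈ fs, Prime p := fun p hp =>
    UniqueFactorizationMonoid.prime_of_normalized_factor p ((hmem p).1 hp).1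
  have hfs_norm : ∀ p ∈ fs, normalize p = p := fun p hp =>
    UniqueFactorizationMonoid.normalize_normalized_factor p ((hmem p).1 hp).1
  have hfs_dvd : ∀ p ∈ fs, p ∣ x := fun p hp =>
    UniqueFactorizationMonoid.dvd_of_mem_normalizedFactors ((hmem p).1 hp).1
  refine ⟨∏ p ∈ fs, p, Finset.prod_ne_zero_iff.2 (fun p hp => (hfs_prime p hp).ne_zero),
    fun π hπ => ⟨?_, ?_⟩⟩
  · rintro ⟨hS, hdx⟩
    obtain ⟨q, hq, hπq⟩ := UniqueFactorizationMonoid.exists_mem_normalizedFactors_of_dvd hx
      hπ.irreducible hdx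
    have hqS : Ideal.span {q} ∈ S := by
      rwa [← Ideal.span_singleton_eq_span_singleton.2 hπq]
    have hqfs : q ∈ fs := (hmem q).2 ⟨hq, hqS⟩
    obtain ⟨u0, hu0⟩ := hπq
    refine ⟨(u0 : R) * ∏ p ∈ fs.erase q, p, ?_, ?_⟩
    · intro hdiv
      have h1 : π ∣ ∏ p ∈ fs.erase q, p := (IsUnit.dvd_mul_left u0.isUnit).1 hdiv
      obtain ⟨p, hp, hπp⟩ := (Prime.dvd_finsetProd_iff hπ _).1 h1
      have hp' : p ∈ fs := Finset.mem_of_mem_erase hp
      have hne : p ≠ q := Finset.ne_of_mem_erase hp
      have h2 : Associated π p := s26emq_associated_of_prime_dvd hπ (hfs_prime p hp') hπp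
      have h3 : Associated q p := (Associated.symm ⟨u0, hu0⟩).trans h2
      have h4 : normalize q = normalize p := normalize_eq_normalize h3.dvd h3.symm.dvd
      rw [hfs_norm q hqfs, hfs_norm p hp'] at h4
      exact hne h4.symm
    · rw [← Finset.mul_prod_erase fs _ hqfs, ← hu0]
      ring
  · intro hno hdiv
    obtain ⟨p, hp, hπp⟩ := (Prime.dvd_finsetProd_iff hπ _).1 hdiv
    have h2 : Associated π p := s26emq_associated_of_prime_dvd hπ (hfs_prime p hp) hπp
    apply hno
    refine ⟨?_, h2.dvd.trans (hfs_dvd p hp)⟩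
    rw [Ideal.span_singleton_eq_span_singleton.2 h2]
    exact ((hmem p).1 hp).2

/-- An element of a UFD without prime divisors is a unit (or zero). -/
theorem s26emq_isUnit_of_forall {y : R} (hy : y ≠ 0) (h : ∀ π : R, Prime π → ¬ π ∣ y) :
    IsUnit y := by
  by_contra hu
  obtain ⟨p, hp, hpy⟩ := WfDvdMonoid.exists_irreducible_factor hu hy
  exact h p (UniqueFactorizationMonoid.irreducible_iff_prime.1 hp) hpy

/-- **Uniqueness up to units.**  If for every prime element `π` there is a multiplicative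
function `v` on `R` (`= ord` at the prime divisor `(π)`), not `0` on nonzero elements, trivial on
the elements prime to `π`, nontrivial on the nonzero multiples of `π`, with `v h = v h'`, then `h`
and `h'` are associated. -/
theorem s26emq_associated {M : Type*} [CommGroupWithZero M] {h h' : R} (hh : h ≠ 0)
    (hh' : h' ≠ 0)
    (H : ∀ π : R, Prime π → ∃ v : R → M, (∀ a b, v (a * b) = v a * v b) ∧
      (∀ a, a ≠ 0 → v a ≠ 0) ∧ (∀ a, ¬ π ∣ a → v a = 1) ∧
      (∀ a, a ≠ 0 → π ∣ a → v a ≠ 1) ∧ v h = v h') :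
    Associated h h' := by
  classical
  letI : GCDMonoid R := UniqueFactorizationMonoid.toGCDMonoid R
  obtain ⟨a, b, ha, hb, hu⟩ := extract_gcd h h'
  have hg0 : gcd h h' ≠ 0 := by
    intro h0
    exact hh (by rw [ha, h0, zero_mul])
  have ha0 : a ≠ 0 := by
    rintro rfl
    exact hh (by rw [ha, mul_zero])
  have hb0 : b ≠ 0 := by
    rintro rfl
    exact hh' (by rw [hb, mul_zero])
  -- a prime dividing `a` does not divide `b` and conversely
  have hcop : ∀ π : R, Prime π → π ∣ a → π ∣ b → False := by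
    intro π hπ h1 h2
    exact hπ.not_isUnit (isUnit_of_dvd_unit (dvd_gcd h1 h2) hu)
  have key : ∀ a b : R, a ≠ 0 → b ≠ 0 → h = gcd h h' * a → h' = gcd h h' * b →
      (∀ π : R, Prime π → π ∣ a → π ∣ b → False) →
      (∀ π : R, Prime π → ∃ v : R → M, (∀ a b, v (a * b) = v a * v b) ∧
        (∀ a, a ≠ 0 → v a ≠ 0) ∧ (∀ a, ¬ π ∣ a → v a = 1) ∧
        (∀ a, a ≠ 0 → π ∣ a → v a ≠ 1) ∧ v h = v h') → IsUnit a := by
    intro a b ha0 hb0 ha hb hcop H
    apply s26emq_isUnit_of_forall ha0
    intro π hπ hπa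
    obtain ⟨v, hmul, hv0, hv1, hvne, hveq⟩ := H π hπ
    have hπb : ¬ π ∣ b := fun h2 => hcop π hπ hπa h2
    have e1 : v h = v (gcd h h') * v a := by
      conv_lhs => rw [ha]
      exact hmul _ _
    have e2 : v h' = v (gcd h h') * v b := by
      conv_lhs => rw [hb]
      exact hmul _ _
    rw [e1, e2, hv1 b hπb, mul_one] at hveq
    have e3 : v a = 1 := by
      have := mul_left_cancel₀ (hv0 _ hg0) (hveq.trans (mul_one _).symm)
      exact this
    exact hvne a ha0 hπa e3
  have hua : IsUnit a := key a b ha0 hb0 ha hb hcop H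
  have hub : IsUnit b := by
    have H' : ∀ π : R, Prime π → ∃ v : R → M, (∀ a b, v (a * b) = v a * v b) ∧
        (∀ a, a ≠ 0 → v a ≠ 0) ∧ (∀ a, ¬ π ∣ a → v a = 1) ∧
        (∀ a, a ≠ 0 → π ∣ a → v a ≠ 1) ∧ v h' = v h := by
      intro π hπ
      obtain ⟨v, h1, h2, h3, h4, h5⟩ := H π hπ
      exact ⟨v, h1, h2, h3, h4, h5.symm⟩
    apply s26emq_isUnit_of_forall hb0
    intro π hπ hπb
    obtain ⟨v, hmul, hv0, hv1, hvne, hveq⟩ := H π hπ
    have hπa : ¬ π ∣ a := fun h2 => hcop π hπ h2 hπb
    have e1 : v h = v (gcd h h') * v a := by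
      conv_lhs => rw [ha]
      exact hmul _ _
    have e2 : v h' = v (gcd h h') * v b := by
      conv_lhs => rw [hb]
      exact hmul _ _
    rw [e1, e2, hv1 a hπa, mul_one] at hveq
    have e3 : v b = 1 := by
      have := mul_left_cancel₀ (hv0 _ hg0) (hveq.symm.trans (mul_one _).symm)
      exact this
    exact hvne b hb0 hπb e3
  -- h = g a, h' = g b with a, b units
  obtain ⟨ua, rfl⟩ := hua
  obtain ⟨ub, rfl⟩ := hub
  refine ⟨ua⁻¹ * ub, ?_⟩
  conv_lhs => rw [ha]
  conv_rhs => rw [hb]
  simp only [Units.val_mul]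
  rw [mul_assoc, ← mul_assoc (ua : R), Units.mul_inv, one_mul]

end UFD

end Fermat.Agent.S26
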