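/-
S26-E-M (a), helper8: LOCAL EQUATIONS — the dictionary between the generisations `z ⤳ c` of a
point `c` of an integral scheme `X` and the primes of `O_{X,c}`.  Mathlib only.

* `s26emqPrime h`          : the prime `𝔭_z ⊂ O_{X,c}` of `z ⤳ c`.
* `s26emq_isLocalization`  : `O_{X,z}` is the localisation of `O_{X,c}` at `𝔭_z`
                             (for the algebra structure `stalkSpecializes`).
* `s26emq_algebraMap_specializes` : compatibility with the maps to the function field.
* `s26emq_exists_point`    : every prime of `O_{X,c}` is `𝔭_z` for some `z ⤳ c`.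
-/
import Mathlib.AlgebraicGeometry.OrderOfVanishing
import Mathlib.AlgebraicGeometry.Stalk
import Mathlib.AlgebraicGeometry.FunctionField
import Mathlib.RingTheory.Localization.LocalizationLocalization

set_option autoImplicit false
set_option linter.unusedSectionVars false
set_option linter.style.haveILetI false

noncomputable section

namespace Fermat.Agent.S26

open AlgebraicGeometry CategoryTheory TopologicalSpace

universe u

variable {X : Scheme.{u}}

/-- the prime of `O_{X,c}` of a generisation `z ⤳ c`. -/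
def s26emqPrime {z c : X} (h : z ⤳ c) : Ideal (X.presheaf.stalk c) :=
  (IsLocalRing.maximalIdeal (X.presheaf.stalk z)).comap (X.presheaf.stalkSpecializes h).hom

instance s26emqPrime_isPrime {z c : X} (h : z ⤳ c) : (s26emqPrime h).IsPrime :=
  Ideal.comap_isPrime _ _

theorem s26emq_mem_prime_iff {z c : X} (h : z ⤳ c) (y : X.presheaf.stalk c) :
    y ∈ s26emqPrime h ↔ ¬ IsUnit ((X.presheaf.stalkSpecializes h).hom y) := by
  rw [s26emqPrime, Ideal.mem_comap, IsLocalRing.mem_maximalIdeal, mem_nonunits_iff]

/-- `O_{X,z}` is the localisation of `O_{X,c}` at the prime of `z`. -/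
theorem s26emq_isLocalization {z c : X} (h : z ⤳ c) :
    letI := (X.presheaf.stalkSpecializes h).hom.toAlgebra
    IsLocalization.AtPrime (X.presheaf.stalk z) (s26emqPrime h) := by
  letI alg_cz := (X.presheaf.stalkSpecializes h).hom.toAlgebra
  obtain ⟨W, hW, hcW, -⟩ := exists_isAffineOpen_mem_and_subset (x := c) (U := ⊤) trivial
  have hzW : z ∈ W := h.mem_open W.2 hcW
  letI algc : Algebra Γ(X, W) (X.presheaf.stalk c) :=
    TopCat.Presheaf.algebra_section_stalk X.presheaf (⟨c, hcW⟩ : W)
  letI algz : Algebra Γ(X, W) (X.presheaf.stalk z) :=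
    TopCat.Presheaf.algebra_section_stalk X.presheaf (⟨z, hzW⟩ : W)
  haveI locc : IsLocalization.AtPrime (X.presheaf.stalk c)
      (hW.primeIdealOf ⟨c, hcW⟩).asIdeal := hW.isLocalization_stalk ⟨c, hcW⟩
  haveI locz : IsLocalization.AtPrime (X.presheaf.stalk z)
      (hW.primeIdealOf ⟨z, hzW⟩).asIdeal := hW.isLocalization_stalk ⟨z, hzW⟩
  have htower : ∀ b : Γ(X, W), algebraMap (X.presheaf.stalk c) (X.presheaf.stalk z)
      (algebraMap Γ(X, W) (X.presheaf.stalk c) b) = algebraMap Γ(X, W) (X.presheaf.stalk z) b := by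
    intro b
    change (X.presheaf.stalkSpecializes h).hom ((X.presheaf.germ W c hcW).hom b) =
      (X.presheaf.germ W z hzW).hom b
    rw [← CommRingCat.comp_apply, TopCat.Presheaf.germ_stalkSpecializes]
  haveI : IsScalarTower Γ(X, W) (X.presheaf.stalk c) (X.presheaf.stalk z) :=
    IsScalarTower.of_algebraMap_eq fun b => (htower b).symm
  have hle : (hW.primeIdealOf ⟨c, hcW⟩).asIdeal.primeCompl ≤
      (hW.primeIdealOf ⟨z, hzW⟩).asIdeal.primeCompl := by
    intro b hb
    have h1 : IsUnit (algebraMap Γ(X, W) (X.presheaf.stalk c) b) :=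
      (IsLocalization.AtPrime.isUnit_to_map_iff _ (hW.primeIdealOf ⟨c, hcW⟩).asIdeal b).2 hb
    have h2 : IsUnit (algebraMap Γ(X, W) (X.presheaf.stalk z) b) := by
      rw [← htower b]
      exact h1.map _
    exact (IsLocalization.AtPrime.isUnit_to_map_iff _ (hW.primeIdealOf ⟨z, hzW⟩).asIdeal b).1 h2
  haveI h3 := IsLocalization.isLocalization_of_submonoid_le (X.presheaf.stalk c)
    (X.presheaf.stalk z) _ _ hle
  refine IsLocalization.of_le (M := (hW.primeIdealOf ⟨z, hzW⟩).asIdeal.primeCompl.map
    (algebraMap Γ(X, W) (X.presheaf.stalk c))) (s26emqPrime h).primeCompl ?_ ?_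
  · rintro _ ⟨b, hb, rfl⟩
    change algebraMap Γ(X, W) (X.presheaf.stalk c) b ∉ s26emqPrime h
    rw [s26emq_mem_prime_iff, not_not]
    have h2 : IsUnit (algebraMap Γ(X, W) (X.presheaf.stalk z) b) :=
      (IsLocalization.AtPrime.isUnit_to_map_iff _ (hW.primeIdealOf ⟨z, hzW⟩).asIdeal b).2 hb
    rw [← htower b] at h2
    exact h2
  · intro r hr
    have : ¬ r ∈ s26emqPrime h := hr
    rw [s26emq_mem_prime_iff, not_not] at this
    exact this

/-- compatibility of the maps to the function field with specialisation. -/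
theorem s26emq_algebraMap_specializes [IrreducibleSpace X] {z c : X} (h : z ⤳ c)
    (y : X.presheaf.stalk c) :
    algebraMap (X.presheaf.stalk z) X.functionField ((X.presheaf.stalkSpecializes h).hom y) =
      algebraMap (X.presheaf.stalk c) X.functionField y := by
  simp only [RingHom.algebraMap_toAlgebra]
  rw [← CommRingCat.comp_apply, TopCat.Presheaf.stalkSpecializes_comp]

/-- every prime of `O_{X,c}` is the prime of a generisation of `c`. -/
theorem s26emq_exists_point (c : X) (𝔭 : Ideal (X.presheaf.stalk c)) [h𝔭 : 𝔭.IsPrime] :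
    ∃ (z : X) (h : z ⤳ c), s26emqPrime h = 𝔭 := by
  set p : Spec (X.presheaf.stalk c) := ⟨𝔭, h𝔭⟩ with hp
  set z : X := X.fromSpecStalk c p with hz
  have hzc : z ⤳ c := by
    have : z ∈ Set.range (X.fromSpecStalk c) := ⟨p, rfl⟩
    rw [Scheme.range_fromSpecStalk] at this
    exact this
  refine ⟨z, hzc, ?_⟩
  -- the point of `Spec O_c` defined by `𝔭_z` maps to `z`, and `fromSpecStalk` is injective
  set q : Spec (X.presheaf.stalk c) :=
    Spec.map (X.presheaf.stalkSpecializes hzc) (IsLocalRing.closedPoint (X.presheaf.stalk z))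
    with hq
  have h1 : X.fromSpecStalk c q = z := by
    have := Scheme.fromSpecStalk_closedPoint (X := X) (x := z)
    rw [← Scheme.SpecMap_stalkSpecializes_fromSpecStalk hzc] at this
    exact this
  have hinj : Function.Injective (X.fromSpecStalk c) :=
    (X.fromSpecStalk c).isEmbedding.injective
  have h2 : q = p := hinj (h1.trans hz)
  have h3 : q.asIdeal = 𝔭 := by rw [h2]
  rw [← h3]
  rfl

end Fermat.Agent.S26

end
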