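/-
S26-E-M (a), helper8: LOCAL EQUATIONS on an integral locally noetherian scheme `X` whose local
rings are unique factorisation domains (and DVRs at the prime divisors).

For `U ⊂ X` open and nonempty, `D` = the reduced sum of the prime divisors outside `U`:

* `s26em_exists_locEq`  : (LF) every point `c` has a local equation of `D`.
* `s26em_associated`    : two local equations at `c` are associated.
* `s26em_isUnit_of_mem` : a local equation at a point of `U` is a unit.
* `s26em_mem_of_isUnit` : conversely, GIVEN PURITY (every point outside `U` lies on a prime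
                          divisor outside `U`).
* `s26em_locData`       : `S26emLocData U` (the target of helper5's interface `S26/EMPlan.lean`).
-/
import Fermat.Agent.S26.EMPlan
import Fermat.Agent.S26.EMEqAlg
import Fermat.Agent.S26.EMEqSch

set_option autoImplicit false
set_option linter.unusedSectionVars false
set_option linter.style.haveILetI false

noncomputable section

namespace Fermat.Agent.S26

open AlgebraicGeometry CategoryTheory TopologicalSpace

universe u

variable {X : Scheme.{u}} [IsIntegral X] [IsLocallyNoetherian X]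

/-- `ordHom` at `z` of an element of `O_{X,c}`, computed in `O_{X,z}`. -/
theorem s26em_ordHom_eq {z c : X} (hz : Order.coheight z = 1) (h : z ⤳ c)
    (y : X.presheaf.stalk c) :
    Scheme.ordHom z hz (algebraMap (X.presheaf.stalk c) X.functionField y) =
      Scheme.ordHom z hz (algebraMap (X.presheaf.stalk z) X.functionField
        ((X.presheaf.stalkSpecializes h).hom y)) := by
  rw [s26emq_algebraMap_specializes]

theorem s26em_ordHom_of_not_mem {z c : X} (hz : Order.coheight z = 1) (h : z ⤳ c)
    [IsDiscreteValuationRing (X.presheaf.stalk z)] {y : X.presheaf.stalk c}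
    (hy : y ∉ s26emqPrime h) :
    Scheme.ordHom z hz (algebraMap (X.presheaf.stalk c) X.functionField y) = 1 := by
  rw [s26em_ordHom_eq hz h]
  letI := (X.presheaf.stalkSpecializes h).hom.toAlgebra
  haveI := s26emq_isLocalization h
  exact s26emq_ordFrac_of_not_mem (O := X.presheaf.stalk z) (F := X.functionField)
    (s26emqPrime h) hy

theorem s26em_ordHom_prime {z c : X} (hz : Order.coheight z = 1) (h : z ⤳ c)
    [IsDiscreteValuationRing (X.presheaf.stalk z)] {π : X.presheaf.stalk c}
    (hπ : Prime π) (hmem : π ∈ s26emqPrime h) :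
    Scheme.ordHom z hz (algebraMap (X.presheaf.stalk c) X.functionField π) = WithZero.exp 1 := by
  rw [s26em_ordHom_eq hz h]
  letI := (X.presheaf.stalkSpecializes h).hom.toAlgebra
  haveI := s26emq_isLocalization h
  exact s26emq_ordFrac_prime (O := X.presheaf.stalk z) (F := X.functionField)
    (s26emqPrime h) hπ hmem

theorem s26em_ordHom_ne_one_of_mem {z c : X} (hz : Order.coheight z = 1) (h : z ⤳ c)
    [IsDiscreteValuationRing (X.presheaf.stalk z)] {y : X.presheaf.stalk c}
    (hy : y ∈ s26emqPrime h) :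
    Scheme.ordHom z hz (algebraMap (X.presheaf.stalk c) X.functionField y) ≠ 1 := by
  rw [s26em_ordHom_eq hz h]
  letI := (X.presheaf.stalkSpecializes h).hom.toAlgebra
  haveI := s26emq_isLocalization h
  exact s26emq_ordFrac_ne_one_of_mem (O := X.presheaf.stalk z) (F := X.functionField)
    (s26emqPrime h) hy

theorem s26em_algebraMap_ne_zero {c : X} {y : X.presheaf.stalk c} (hy : y ≠ 0) :
    algebraMap (X.presheaf.stalk c) X.functionField y ≠ 0 := by
  intro h0
  exact hy (IsFractionRing.injective (X.presheaf.stalk c) X.functionField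
    (by rw [h0, map_zero]))

/-- `ord_z y = 0` for `y ∈ O_{X,c}` outside the prime of `z`. -/
theorem s26em_ord_of_not_mem {z c : X} (hz : Order.coheight z = 1) (h : z ⤳ c)
    [IsDiscreteValuationRing (X.presheaf.stalk z)] {y : X.presheaf.stalk c}
    (hy : y ∉ s26emqPrime h) :
    Scheme.ord (algebraMap (X.presheaf.stalk c) X.functionField y) z = 0 := by
  have hy0 : y ≠ 0 := by
    rintro rfl
    exact hy (Ideal.zero_mem _)
  rw [Scheme.ord_eq_iff hz (s26em_algebraMap_ne_zero hy0), s26em_ordHom_of_not_mem hz h hy]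
  rfl

/-- `ord_z π = 1` for a prime element `π ∈ O_{X,c}` in the prime of `z`. -/
theorem s26em_ord_prime {z c : X} (hz : Order.coheight z = 1) (h : z ⤳ c)
    [IsDiscreteValuationRing (X.presheaf.stalk z)] {π : X.presheaf.stalk c}
    (hπ : Prime π) (hmem : π ∈ s26emqPrime h) :
    Scheme.ord (algebraMap (X.presheaf.stalk c) X.functionField π) z = 1 := by
  rw [Scheme.ord_eq_iff hz (s26em_algebraMap_ne_zero hπ.ne_zero), s26em_ordHom_prime hz h hπ hmem]
  rfl

/-- `ord_z y ≠ 0` for `0 ≠ y ∈ O_{X,c}` in the prime of `z`. -/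
theorem s26em_ord_ne_zero_of_mem {z c : X} (hz : Order.coheight z = 1) (h : z ⤳ c)
    [IsDiscreteValuationRing (X.presheaf.stalk z)] {y : X.presheaf.stalk c} (hy0 : y ≠ 0)
    (hy : y ∈ s26emqPrime h) :
    Scheme.ord (algebraMap (X.presheaf.stalk c) X.functionField y) z ≠ 0 := by
  intro h0
  rw [Scheme.ord_eq_iff hz (s26em_algebraMap_ne_zero hy0)] at h0
  exact s26em_ordHom_ne_one_of_mem hz h hy (h0.trans rfl)

/-- the point of a generisation is determined by its prime. -/
theorem s26em_fromSpecStalk_prime {z c : X} (h : z ⤳ c) :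
    X.fromSpecStalk c ⟨s26emqPrime h, inferInstance⟩ = z := by
  have := Scheme.fromSpecStalk_closedPoint (X := X) (x := z)
  rw [← Scheme.SpecMap_stalkSpecializes_fromSpecStalk h] at this
  exact this

theorem s26em_point_eq_of_prime_eq {z z' c : X} (h : z ⤳ c) (h' : z' ⤳ c)
    (e : s26emqPrime h = s26emqPrime h') : z = z' := by
  rw [← s26em_fromSpecStalk_prime h, ← s26em_fromSpecStalk_prime h']
  congr 1
  exact PrimeSpectrum.ext e

/-- the prime of a prime divisor `z ⤳ c` is not zero. -/
theorem s26em_prime_ne_bot {z c : X} (h : z ⤳ c)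
    [IsDiscreteValuationRing (X.presheaf.stalk z)] : s26emqPrime h ≠ ⊥ := by
  intro h0
  obtain ⟨ϖ, hϖ⟩ := IsDiscreteValuationRing.exists_irreducible (X.presheaf.stalk z)
  letI := (X.presheaf.stalkSpecializes h).hom.toAlgebra
  haveI := s26emq_isLocalization h
  obtain ⟨⟨a, s⟩, has⟩ := IsLocalization.surj (s26emqPrime h).primeCompl ϖ
  -- `ϖ * s = a` with `s` a unit of `O_z`; `a` is a nonunit, so `a ∈ 𝔭_z = 0`
  have hsu : IsUnit (algebraMap (X.presheaf.stalk c) (X.presheaf.stalk z) s) :=
    IsLocalization.map_units _ s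
  have ha : a ∈ s26emqPrime h := by
    rw [s26emq_mem_prime_iff]
    intro hu
    have h1 : IsUnit (ϖ * algebraMap (X.presheaf.stalk c) (X.presheaf.stalk z) s) := by
      rw [has]
      exact hu
    exact hϖ.not_isUnit (isUnit_of_mul_isUnit_left h1)
  rw [h0, Ideal.mem_bot] at ha
  rw [ha, map_zero] at has
  rcases mul_eq_zero.1 has with h1 | h1
  · exact hϖ.ne_zero h1
  · exact hsu.ne_zero h1

/-- for a prime divisor `z ⤳ c` of a scheme with factorial `O_{X,c}`, the prime of `z` is
generated by a prime element. -/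
theorem s26em_exists_prime_gen {z c : X} (h : z ⤳ c)
    [IsDiscreteValuationRing (X.presheaf.stalk z)]
    [UniqueFactorizationMonoid (X.presheaf.stalk c)] :
    ∃ π : X.presheaf.stalk c, Prime π ∧ s26emqPrime h = Ideal.span {π} := by
  obtain ⟨π, hmem, hπ⟩ :=
    Ideal.IsPrime.exists_mem_prime_of_ne_bot (s26emqPrime_isPrime h) (s26em_prime_ne_bot h)
  letI := (X.presheaf.stalkSpecializes h).hom.toAlgebra
  haveI := s26emq_isLocalization h
  exact ⟨π, hπ, s26emq_span_eq (X.presheaf.stalk z) (s26emqPrime h) hπ hmem⟩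

/-- for a prime element `π` of `O_{X,c}` there is a prime divisor `z ⤳ c` with prime `(π)`. -/
theorem s26em_exists_divisor (c : X) {π : X.presheaf.stalk c} (hπ : Prime π) :
    ∃ (z : X) (h : z ⤳ c), Order.coheight z = 1 ∧ s26emqPrime h = Ideal.span {π} ∧
      IsDiscreteValuationRing (X.presheaf.stalk z) := by
  haveI hQ : (Ideal.span {π} : Ideal (X.presheaf.stalk c)).IsPrime :=
    (Ideal.span_singleton_prime hπ.ne_zero).2 hπ
  obtain ⟨z, h, e⟩ := s26emq_exists_point c (Ideal.span {π})
  letI := (X.presheaf.stalkSpecializes h).hom.toAlgebra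
  haveI := s26emq_isLocalization h
  have hdvr : IsDiscreteValuationRing (X.presheaf.stalk z) :=
    s26emq_isDVR_of_prime (X.presheaf.stalk z) (s26emqPrime h) hπ.ne_zero e
  refine ⟨z, h, ?_, e, hdvr⟩
  have h1 := ringKrullDim_stalk_eq_coheight z
  rw [IsDiscreteValuationRing.ringKrullDim_eq_one] at h1
  exact_mod_cast h1.symm

/-- a nonzero element of `O_{X,c}` vanishing at all generisations of `c` outside `U`. -/
theorem s26em_exists_vanishing (U : X.Opens) [Nonempty U] (c : X) :
    ∃ x : X.presheaf.stalk c, x ≠ 0 ∧ ∀ (z : X) (h : z ⤳ c), z ∉ U → x ∈ s26emqPrime h := by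
  obtain ⟨W, hW, hcW, -⟩ := exists_isAffineOpen_mem_and_subset (x := c) (U := ⊤) trivial
  have hgU : genericPoint X ∈ U :=
    ((genericPoint_spec X).mem_open_set_iff U.isOpen).mpr (by simpa using ‹Nonempty U›)
  have hgW : genericPoint X ∈ W :=
    ((genericPoint_spec X).mem_open_set_iff W.isOpen).mpr ⟨c, trivial, hcW⟩
  obtain ⟨b, hbU, hgb⟩ := hW.exists_basicOpen_le (V := U) ⟨genericPoint X, hgU⟩ hgW
  have hb0 : b ≠ 0 := by
    rintro rfl
    rw [Scheme.mem_basicOpen X _ _ hgW, map_zero] at hgb
    exact not_isUnit_zero hgb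
  refine ⟨X.presheaf.germ W c hcW b, ?_, ?_⟩
  · intro h0
    exact hb0 (germ_injective_of_isIntegral X c hcW (by rw [h0, map_zero]))
  · intro z h hzU
    have hzW : z ∈ W := h.mem_open W.2 hcW
    rw [s26emq_mem_prime_iff]
    intro hu
    have h1 : (X.presheaf.stalkSpecializes h).hom (X.presheaf.germ W c hcW b) =
        X.presheaf.germ W z hzW b := by
      rw [← CommRingCat.comp_apply, TopCat.Presheaf.germ_stalkSpecializes]
    rw [h1] at hu
    exact hzU (hbU ((Scheme.mem_basicOpen X b z hzW).2 hu))

variable (U : X.Opens)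

/-- **(LF)**: local equations exist at every point with a factorial local ring. -/
theorem s26em_exists_locEq [Nonempty U]
    (hDVR : ∀ z : X, Order.coheight z = 1 → IsDiscreteValuationRing (X.presheaf.stalk z))
    (c : X) [UniqueFactorizationMonoid (X.presheaf.stalk c)] :
    ∃ h : X.presheaf.stalk c, S26emIsLocEq U c h := by
  classical
  obtain ⟨x, hx0, hx⟩ := s26em_exists_vanishing U c
  set S : Set (Ideal (X.presheaf.stalk c)) :=
    {𝔮 | ∃ (z : X) (h : z ⤳ c), Order.coheight z = 1 ∧ z ∉ U ∧ 𝔮 = s26emqPrime h} with hS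
  obtain ⟨h₀, hh0, hh⟩ := s26emq_exists_sqfree x hx0 S
  refine ⟨h₀, hh0, fun z hz hzc => ?_⟩
  haveI := hDVR z hz
  obtain ⟨π, hπ, hspan⟩ := s26em_exists_prime_gen hzc
  have hπmem : π ∈ s26emqPrime hzc := by
    rw [hspan]
    exact Ideal.mem_span_singleton_self π
  by_cases hzU : z ∈ U
  · rw [if_pos hzU]
    have hno : ¬ (Ideal.span {π} ∈ S ∧ π ∣ x) := by
      rintro ⟨⟨z', h', -, hz'U, e⟩, -⟩
      have : z = z' := s26em_point_eq_of_prime_eq hzc h' (hspan.trans e)
      exact hz'U (this ▸ hzU)
    have hnd : ¬ π ∣ h₀ := (hh π hπ).2 hno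
    apply s26em_ord_of_not_mem hz hzc
    rw [hspan, Ideal.mem_span_singleton]
    exact hnd
  · rw [if_neg hzU]
    have hyes : Ideal.span {π} ∈ S ∧ π ∣ x := by
      refine ⟨⟨z, hzc, hz, hzU, hspan.symm⟩, ?_⟩
      have := hx z hzc hzU
      rw [hspan, Ideal.mem_span_singleton] at this
      exact this
    obtain ⟨u, hu, rfl⟩ := (hh π hπ).1 hyes
    have hu0 : u ≠ 0 := by
      rintro rfl
      exact hu (dvd_zero π)
    have humem : u ∉ s26emqPrime hzc := by
      rw [hspan, Ideal.mem_span_singleton]
      exact hu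
    rw [map_mul, Scheme.ord_mul (s26em_algebraMap_ne_zero hπ.ne_zero)
      (s26em_algebraMap_ne_zero hu0), s26em_ord_prime hz hzc hπ hπmem,
      s26em_ord_of_not_mem hz hzc humem, add_zero]

/-- the value function at the prime divisor of a prime element. -/
theorem s26em_exists_value (c : X) {π : X.presheaf.stalk c} (hπ : Prime π) :
    ∃ (z : X) (_ : z ⤳ c) (hz : Order.coheight z = 1),
      (∀ a : X.presheaf.stalk c, ¬ π ∣ a →
        Scheme.ordHom z hz (algebraMap (X.presheaf.stalk c) X.functionField a) = 1) ∧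
      (∀ a : X.presheaf.stalk c, π ∣ a →
        Scheme.ordHom z hz (algebraMap (X.presheaf.stalk c) X.functionField a) ≠ 1) := by
  obtain ⟨z, h, hz, e, hdvr⟩ := s26em_exists_divisor c hπ
  refine ⟨z, h, hz, fun a ha => ?_, fun a ha => ?_⟩
  · apply s26em_ordHom_of_not_mem hz h
    rw [e, Ideal.mem_span_singleton]
    exact ha
  · apply s26em_ordHom_ne_one_of_mem hz h
    rw [e, Ideal.mem_span_singleton]
    exact ha

/-- **Uniqueness**: two local equations at `c` are associated. -/
theorem s26em_associated (c : X) [UniqueFactorizationMonoid (X.presheaf.stalk c)]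
    (h h' : X.presheaf.stalk c) (hh : S26emIsLocEq U c h) (hh' : S26emIsLocEq U c h') :
    Associated h h' := by
  refine s26emq_associated (M := WithZero (Multiplicative ℤ)) hh.1 hh'.1 fun π hπ => ?_
  obtain ⟨z, hzc, hz, h1, h2⟩ := s26em_exists_value c hπ
  refine ⟨fun a => Scheme.ordHom z hz (algebraMap (X.presheaf.stalk c) X.functionField a),
    fun a b => by beta_reduce; rw [map_mul, map_mul], fun a ha => ?_, h1,
    fun a _ ha => h2 a ha, ?_⟩
  · exact (map_ne_zero _).2 (s26em_algebraMap_ne_zero ha)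
  · have e1 := hh.2 z hz hzc
    have e2 := hh'.2 z hz hzc
    rw [Scheme.ord_eq_iff hz (s26em_algebraMap_ne_zero hh.1)] at e1
    rw [Scheme.ord_eq_iff hz (s26em_algebraMap_ne_zero hh'.1)] at e2
    beta_reduce
    rw [e1, e2]

/-- a local equation at a point of `U` is a unit. -/
theorem s26em_isUnit_of_mem (c : X) [UniqueFactorizationMonoid (X.presheaf.stalk c)]
    (h : X.presheaf.stalk c) (hh : S26emIsLocEq U c h) (hc : c ∈ U) : IsUnit h := by
  apply s26emq_isUnit_of_forall hh.1
  intro π hπ hdvd
  obtain ⟨z, hzc, hz, -, h2⟩ := s26em_exists_value c hπ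
  have hzU : z ∈ U := hzc.mem_open U.2 hc
  have e1 := hh.2 z hz hzc
  rw [if_pos hzU, Scheme.ord_eq_iff hz (s26em_algebraMap_ne_zero hh.1)] at e1
  exact h2 h hdvd (e1.trans rfl)

/-- a local equation which is a unit has no prime divisor outside `U` through the point. -/
theorem s26em_mem_of_isUnit_of_divisor
    (hDVR : ∀ z : X, Order.coheight z = 1 → IsDiscreteValuationRing (X.presheaf.stalk z))
    (c : X) (h : X.presheaf.stalk c) (hh : S26emIsLocEq U c h) (hu : IsUnit h)
    (z : X) (hz : Order.coheight z = 1) (hzc : z ⤳ c) : z ∈ U := by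
  classical
  by_contra hzU
  haveI := hDVR z hz
  have e1 := hh.2 z hz hzc
  rw [if_neg hzU] at e1
  have hnm : h ∉ s26emqPrime hzc := by
    rw [s26emq_mem_prime_iff, not_not]
    exact hu.map _
  rw [s26em_ord_of_not_mem hz hzc hnm] at e1
  exact zero_ne_one e1

/-- **the target of piece (a)**: `S26emLocData U`, from factorial local rings, DVRs at the prime
divisors, and PURITY of `X ∖ U`. -/
theorem s26em_locData [Nonempty U]
    (hDVR : ∀ z : X, Order.coheight z = 1 → IsDiscreteValuationRing (X.presheaf.stalk z))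
    (hUFD : ∀ c : X, UniqueFactorizationMonoid (X.presheaf.stalk c))
    (hpure : ∀ c : X, c ∉ U → ∃ z : X, Order.coheight z = 1 ∧ z ⤳ c ∧ z ∉ U) :
    S26emLocData U where
  exists_locEq c := by
    haveI := hUFD c
    exact s26em_exists_locEq U hDVR c
  associated c h h' hh hh' := by
    haveI := hUFD c
    exact s26em_associated U c h h' hh hh'
  isUnit_iff c h hh := by
    haveI := hUFD c
    refine ⟨fun hu => ?_, fun hc => s26em_isUnit_of_mem U c h hh hc⟩
    by_contra hc
    obtain ⟨z, hz, hzc, hzU⟩ := hpure c hc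
    exact hzU (s26em_mem_of_isUnit_of_divisor U hDVR c h hh hu z hz hzc)

end Fermat.Agent.S26

end
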