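/-
S26-E, piece E-M part (b) (helper5): **(LG) LOCAL GENERATORS** for the generator family
(the hypothesis (LG) of E-VERT, helper38's plan).

`S` a LOCAL `K`-algebra, `ι : S →ₐ[K] Ω`, `Q ∈ A(S)` with `ι Q = P ∈ A(Ω)`.  Then ONE element
`D := ι (s26emGen U Q.1) ∈ Ω` computes the generator family of `P` at EVERY valuation subring
`V ⊇ ι(S)` over `K` (domination is NOT required):
`s26emFam_of_point : V.valuation (s26emFam f U P V) = V.valuation (ι (s26emGen U Q.1))`,
`s26eGen_of_point` (the same for the sub-captain's `s26eGen`).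
-/
import Fermat.Agent.S26.EMStmt

set_option autoImplicit false
set_option linter.style.haveILetI false
set_option linter.unusedVariables false
set_option linter.unusedSectionVars false

noncomputable section

namespace Fermat.Agent.S26

open CategoryTheory CategoryTheory.Limits AlgebraicGeometry NeronModelInfra GoodReductionJacobian

universe u

variable {K : Type u} [Field K] {A : Scheme.{u}} (f : A ⟶ Spec (CommRingCat.of K))

variable {Ω : Type u} [Field Ω] [Algebra K Ω]
variable [IsIntegral A] [IsLocallyNoetherian A] [IsProper f] {U : A.Opens}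

/-- the corestriction of `ι : S →ₐ[K] Ω` to a valuation subring containing the image. -/
def s26emCod {S : Type u} [CommRing S] [Algebra K S] (ι : S →ₐ[K] Ω) (V : ValuationSubring Ω)
    [Algebra K ↥V] [IsScalarTower K ↥V Ω] (hSV : ∀ s : S, ι s ∈ V) : S →ₐ[K] ↥V where
  toFun s := ⟨ι s, hSV s⟩
  map_one' := Subtype.ext (map_one ι)
  map_mul' x y := Subtype.ext (map_mul ι _ _)
  map_zero' := Subtype.ext (map_zero ι)
  map_add' x y := Subtype.ext (map_add ι _ _)
  commutes' c := by
    apply Subtype.ext
    have h2 : ((algebraMap K ↥V c : ↥V) : Ω) = algebraMap K Ω c :=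
      (IsScalarTower.algebraMap_apply K ↥V Ω c).symm
    rw [h2]
    exact ι.commutes c

/-- **(LG)**: one element computes the generator family at every `V ⊇ ι(S)`. -/
theorem s26emFam_of_point (hD : S26emLocData U) {S : Type u} [CommRing S] [Algebra K S]
    [IsLocalRing S] (ι : S →ₐ[K] Ω) (Q : s26eptPts f S) (P : s26eptPts f Ω)
    (hQ : s26eptMap f ι Q = P) (V : ValuationSubring Ω) (hV : S26erOver K V)
    (hSV : ∀ s : S, ι s ∈ V) :
    V.valuation (s26emFam f U P V) =
      V.valuation (ι (s26emGen U (R := CommRingCat.of S) Q.1)) := by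
  letI := s26emAlg V hV
  haveI := s26emAlg_tower V hV
  rw [s26emFam_eq f U P V hV]
  have hQ' : s26eptMap f ((s26eptIncl (K := K) Ω ↥V).comp (s26emCod ι V hSV)) Q = P := by
    have e : (s26eptIncl (K := K) Ω ↥V).comp (s26emCod ι V hSV) = ι := by
      ext s
      rfl
    rw [e]
    exact hQ
  have h := s26emV_of_point f Ω ↥V hD (s26emCod ι V hSV) Q P hQ'
  exact s26em_val_eq_of_associated V h

/-- **(LG)** for the sub-captain's generator `s26eGen`. -/
theorem s26eGen_of_point (hD : S26emLocData U) {S : Type u} [CommRing S] [Algebra K S]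
    [IsLocalRing S] (ι : S →ₐ[K] Ω) (Q : s26eptPts f S) (P : s26eptPts f Ω)
    (hQ : s26eptMap f ι Q = P) (V : ValuationSubring Ω) (hV : S26erOver K V)
    (hSV : ∀ s : S, ι s ∈ V) :
    V.valuation (s26eGen f U P V) =
      V.valuation (ι (s26emGen U (R := CommRingCat.of S) Q.1)) := by
  rw [s26eGen_eq_fam]
  exact s26emFam_of_point f hD ι Q P hQ V hV hSV

/-- the local generator is not zero if `|P| ∈ U` (`ι` injective is not needed). -/
theorem s26em_point_ne_zero (hD : S26emLocData U) {S : Type u} [CommRing S] [Algebra K S]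
    [IsLocalRing S] (ι : S →ₐ[K] Ω) (Q : s26eptPts f S) (P : s26eptPts f Ω)
    (hQ : s26eptMap f ι Q = P) (hP : s26eptPt f P ∈ U) :
    ι (s26emGen U (R := CommRingCat.of S) Q.1) ≠ 0 := by
  have h := s26emGen_isUnit_map hD (R := CommRingCat.of S) (S := CommRingCat.of Ω)
    (CommRingCat.ofHom (ι : S →+* Ω)) Q.1 (by
      have h1 : Spec.map (CommRingCat.ofHom (ι : S →+* Ω)) ≫ Q.1 = P.1 := by
        rw [← hQ, s26eptMap_coe]
      rw [h1]
      exact hP)
  exact h.ne_zero

end Fermat.Agent.S26

end
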