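/-
S26-E-M (a), helper8: PURITY of the complement of an affine open.

`X` integral, locally noetherian, separated, with integrally closed local rings; `U ⊂ X` a
nonempty AFFINE open.  Then every point `c ∉ U` lies on a prime divisor outside `U`:

* `s26emp_exists_section_map` : if all prime divisors through `c` lie in `U`, every section of
  `U` is regular at `c` (algebraic Hartogs, `S26/Hartogs.lean`).
* `s26em_purity`              : `c ∉ U → ∃ z, coheight z = 1 ∧ z ⤳ c ∧ z ∉ U`.
* `s26em_locData_affine`      : `S26emLocData U` for `U` affine (DVR + UFD stalks).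
-/
import Fermat.Agent.S26.EMEq
import Fermat.Agent.S26.Hartogs

set_option autoImplicit false
set_option linter.unusedSectionVars false
set_option linter.style.haveILetI false

noncomputable section

namespace Fermat.Agent.S26

open AlgebraicGeometry CategoryTheory TopologicalSpace

universe u

variable {X : Scheme.{u}} [IsIntegral X] [IsLocallyNoetherian X]

/-- the point of a prime of height one of `O_{X,c}` has coheight one. -/
theorem s26emp_coheight {z c : X} (h : z ⤳ c) (hh : (s26emqPrime h).height = 1) :
    Order.coheight z = 1 := by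
  letI := (X.presheaf.stalkSpecializes h).hom.toAlgebra
  haveI := s26emq_isLocalization h
  have h1 := ringKrullDim_stalk_eq_coheight z
  rw [IsLocalization.AtPrime.ringKrullDim_eq_height (s26emqPrime h) (X.presheaf.stalk z),
    hh] at h1
  exact_mod_cast h1.symm

/-- **Hartogs on the scheme**: if all prime divisors through `c` lie in `U`, then every section
over `U` is regular at `c`. -/
theorem s26emp_exists_section_map (U : X.Opens) [Nonempty U] (c : X)
    [IsIntegrallyClosed (X.presheaf.stalk c)]
    (hall : ∀ z : X, Order.coheight z = 1 → z ⤳ c → z ∈ U) (s : Γ(X, U)) :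
    ∃ r : X.presheaf.stalk c,
      algebraMap (X.presheaf.stalk c) X.functionField r = X.germToFunctionField U s := by
  have := s26h_hartogs (R := X.presheaf.stalk c) (F := X.functionField)
    (X.germToFunctionField U s) ?_
  · obtain ⟨r, hr⟩ := this
    exact ⟨r, hr⟩
  intro p hp hh
  haveI := hp
  obtain ⟨z, h, e⟩ := s26emq_exists_point c p
  have hz : Order.coheight z = 1 := s26emp_coheight h (by rw [e]; exact hh)
  have hzU : z ∈ U := hall z hz h
  letI := (X.presheaf.stalkSpecializes h).hom.toAlgebra
  haveI := s26emq_isLocalization h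
  obtain ⟨⟨a, t⟩, hat⟩ := IsLocalization.surj (s26emqPrime h).primeCompl
    (X.presheaf.germ U z hzU s)
  refine ⟨a, t, ?_, ?_⟩
  · rw [← e]
    exact t.2
  · have h1 := congrArg (algebraMap (X.presheaf.stalk z) X.functionField) hat
    rw [map_mul] at h1
    have e1 : algebraMap (X.presheaf.stalk z) X.functionField (X.presheaf.germ U z hzU s) =
        X.germToFunctionField U s := Scheme.algebraMap_germ_eq_germToFunctionField X hzU s
    have e2 : ∀ y : X.presheaf.stalk c, algebraMap (X.presheaf.stalk z) X.functionField
        (algebraMap (X.presheaf.stalk c) (X.presheaf.stalk z) y) =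
        algebraMap (X.presheaf.stalk c) X.functionField y :=
      fun y => s26emq_algebraMap_specializes h y
    rw [e1, e2, e2] at h1
    exact h1

/-- **Purity.**  `U` a nonempty affine open of a separated integral locally noetherian scheme with
integrally closed local rings: every point outside `U` lies on a prime divisor outside `U`. -/
theorem s26em_purity [X.IsSeparated] (U : X.Opens) (hU : IsAffineOpen U) [Nonempty U]
    (hnor : ∀ c : X, IsIntegrallyClosed (X.presheaf.stalk c)) (c : X) (hc : c ∉ U) :
    ∃ z : X, Order.coheight z = 1 ∧ z ⤳ c ∧ z ∉ U := by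
  by_contra hno
  have hall : ∀ z : X, Order.coheight z = 1 → z ⤳ c → z ∈ U := by
    intro z hz hzc
    by_contra hzU
    exact hno ⟨z, hz, hzc, hzU⟩
  haveI := hnor c
  -- the ring homomorphism `ρ : Γ(X, U) → O_{X,c}`
  have hinj : Function.Injective (algebraMap (X.presheaf.stalk c) X.functionField) :=
    IsFractionRing.injective _ _
  choose ρ hρ using s26emp_exists_section_map U c hall
  let ρhom : Γ(X, U) →+* X.presheaf.stalk c :=
    { toFun := ρ
      map_one' := hinj (by rw [hρ, map_one, map_one])
      map_mul' := fun a b => hinj (by rw [hρ, map_mul, map_mul, hρ, hρ])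
      map_zero' := hinj (by rw [hρ, map_zero, map_zero])
      map_add' := fun a b => hinj (by rw [hρ, map_add, map_add, hρ, hρ]) }
  have hgU : genericPoint X ∈ U :=
    ((genericPoint_spec X).mem_open_set_iff U.isOpen).mpr (by simpa using ‹Nonempty U›)
  have hgc : genericPoint X ⤳ c := (genericPoint_spec X).specializes trivial
  -- the two morphisms `Spec O_c ⟶ X`
  let ρ' : Γ(X, U) ⟶ X.presheaf.stalk c := CommRingCat.ofHom ρhom
  let g : Spec (X.presheaf.stalk c) ⟶ X := Spec.map ρ' ≫ hU.fromSpec
  let ι : Spec (X.functionField) ⟶ Spec (X.presheaf.stalk c) :=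
    Spec.map (X.presheaf.stalkSpecializes hgc)
  have hcomp : ρ' ≫ X.presheaf.stalkSpecializes hgc =
      X.presheaf.germ U (genericPoint X) hgU := by
    ext s
    exact hρ s
  have e1 : ι ≫ g = X.fromSpecStalk (genericPoint X) := by
    have h0 : ι ≫ g = Spec.map (ρ' ≫ X.presheaf.stalkSpecializes hgc) ≫ hU.fromSpec := by
      rw [Spec.map_comp, Category.assoc]
    rw [h0, hcomp]
    exact hU.fromSpecStalk_eq_fromSpecStalk hgU
  have e2 : ι ≫ X.fromSpecStalk c = X.fromSpecStalk (genericPoint X) :=
    Scheme.SpecMap_stalkSpecializes_fromSpecStalk hgc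
  haveI : IsDominant ι := by
    constructor
    change DenseRange (PrimeSpectrum.comap (X.presheaf.stalkSpecializes hgc).hom)
    rw [PrimeSpectrum.denseRange_comap_iff_ker_le_nilRadical]
    intro y hy
    have hy0 : y = 0 := hinj (by rw [map_zero]; exact hy)
    rw [hy0]
    exact Ideal.zero_mem _
  have hgj : g = X.fromSpecStalk c := ext_of_isDominant ι (e1.trans e2.symm)
  apply hc
  have h1 : g (IsLocalRing.closedPoint (X.presheaf.stalk c)) = c := by
    rw [hgj]
    exact Scheme.fromSpecStalk_closedPoint
  have h2 : g (IsLocalRing.closedPoint (X.presheaf.stalk c)) ∈ (U : Set X) := by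
    rw [← hU.range_fromSpec]
    exact ⟨_, rfl⟩
  rw [h1] at h2
  exact h2

/-- **`S26emLocData U` for an affine open `U`** of a separated integral locally noetherian scheme
whose local rings are unique factorisation domains (and DVRs at the prime divisors). -/
theorem s26em_locData_affine [X.IsSeparated] (U : X.Opens) (hU : IsAffineOpen U) [Nonempty U]
    (hDVR : ∀ z : X, Order.coheight z = 1 → IsDiscreteValuationRing (X.presheaf.stalk z))
    (hUFD : ∀ c : X, UniqueFactorizationMonoid (X.presheaf.stalk c)) :
    S26emLocData U :=
  s26em_locData U hDVR hUFD fun c hc =>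
    s26em_purity U hU (fun c => by haveI := hUFD c; infer_instance) c hc

end Fermat.Agent.S26

end
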