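/-
S26-E (helper73): NON-VANISHING, part 0.  A point of `A` with values in a field over `K` whose
image point is the zero of `A` IS the zero point (`s26env_eq_one_of_pt`); hence the CENTRE form of
"specialises to `0`" is equivalent to the POINT form (`s26env_spOneV_of_centre`,
`s26env_spOne_of_spZero`).
-/
import Fermat.Agent.S26.PlanE3

set_option autoImplicit false
set_option linter.style.haveILetI false

noncomputable section

namespace Fermat.Agent.S26

open CategoryTheory CategoryTheory.Limits AlgebraicGeometry NeronModelInfra GoodReductionJacobian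
open scoped TensorProduct

universe u

variable {K : Type u} [Field K] {A : Scheme.{u}} (f : A ⟶ Spec (CommRingCat.of K))
  (G : RelativeGroupLaw K f)

theorem s26env_factor_congr (R : Type u) [Field R] {x y : A} (h : x = y)
    (a : A.residueField x ⟶ CommRingCat.of R) :
    ∃ a' : A.residueField y ⟶ CommRingCat.of R,
      Spec.map a' ≫ A.fromSpecResidueField y = Spec.map a ≫ A.fromSpecResidueField x := by
  subst h
  exact ⟨a, rfl⟩

theorem s26env_eq_of_factor (R : Type u) [Field R] (x : A)
    (he' : A.residueField x ⟶ CommRingCat.of K) (a' : A.residueField x ⟶ CommRingCat.of R)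
    (e : Spec (CommRingCat.of K) ⟶ A) (P : Spec (CommRingCat.of R) ⟶ A)
    (h1 : Spec.map he' ≫ A.fromSpecResidueField x = e)
    (ha' : Spec.map a' ≫ A.fromSpecResidueField x = P) (he : e ≫ f = 𝟙 _) :
    P = (P ≫ f) ≫ e := by
  obtain ⟨as, has⟩ := Spec.map_surjective (A.fromSpecResidueField x ≫ f)
  have h3 : as ≫ he' = 𝟙 _ := by
    apply Spec.map_injective
    rw [Spec.map_comp, has, ← Category.assoc, h1, he, Spec.map_id]
  have h4 : he' ≫ as = 𝟙 _ := by
    ext y
    have hinj : Function.Injective he'.hom := he'.hom.injective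
    apply hinj
    have := congrArg (fun q => q.hom (he'.hom y)) h3
    simpa using this
  have h5 : (A.fromSpecResidueField x ≫ f) ≫ Spec.map he' = 𝟙 _ := by
    rw [← has, ← Spec.map_comp, h4, Spec.map_id]
  calc P = Spec.map a' ≫ A.fromSpecResidueField x := ha'.symm
    _ = Spec.map a' ≫ ((A.fromSpecResidueField x ≫ f) ≫ Spec.map he') ≫
          A.fromSpecResidueField x := by rw [h5, Category.id_comp]
    _ = ((Spec.map a' ≫ A.fromSpecResidueField x) ≫ f) ≫ (Spec.map he' ≫
          A.fromSpecResidueField x) := by simp only [Category.assoc]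
    _ = (P ≫ f) ≫ e := by rw [ha', h1]

/-- a field-valued point whose image point is the image of a section `e` of `f` is the
constant point `e`. -/
theorem s26env_eq_of_pt_eq (R : Type u) [Field R] (e : Spec (CommRingCat.of K) ⟶ A)
    (he : e ≫ f = 𝟙 _) (P : Spec (CommRingCat.of R) ⟶ A)
    (hP : P (IsLocalRing.closedPoint R) = e (IsLocalRing.closedPoint K)) :
    P = (P ≫ f) ≫ e := by
  have h1 := Scheme.descResidueField_stalkClosedPointTo_fromSpecResidueField K A e
  have h2 := Scheme.descResidueField_stalkClosedPointTo_fromSpecResidueField R A P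
  obtain ⟨a', ha'⟩ := s26env_factor_congr R hP
    (Scheme.descResidueField (Scheme.stalkClosedPointTo P))
  rw [h2] at ha'
  exact s26env_eq_of_factor f R _ _ a' e P h1 ha' he

/-- **(NV0)** a point of `A` with values in a field over `K` whose image point is the zero of
`A` is the zero point. -/
theorem s26env_eq_one_of_pt (R : Type u) [Field R] [Algebra K R] (P : s26eptPts f R)
    (hP : s26eptPt f P = s26zero f G) : P = G.one _ := by
  apply Subtype.ext
  rw [s26a1_one_eq G (s26eptStr K R)]
  have h := s26env_eq_of_pt_eq f R (s26a1Unit G) (s26a1Unit_comp G) P.1 (by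
    rw [show P.1 (IsLocalRing.closedPoint R) = s26eptPt f P from rfl, hP]
    unfold s26zero
    change (s26a1Unit G) _ = (s26a1Unit G) _
    congr 1
    exact Subsingleton.elim _ _)
  rw [P.2] at h
  exact h

variable [IsProper f]

/-- CENTRE form ⇒ POINT form. -/
theorem s26env_spOneV_of_centre {Ω : Type u} [Field Ω] [Algebra K Ω] (P : s26eptPts f Ω)
    (V : ValuationSubring Ω) (hV : S26erOver K V)
    (h : s26emCentre (s26eLiftV f V hV P) = s26zero f G) : S26eSpOneV f G P V hV := by
  letI := s26eAlgV V hV
  haveI := s26eAlgV_tower V hV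
  show s26eptSp f Ω V P = G.one _
  apply s26env_eq_one_of_pt
  rw [s26eptPt_sp f Ω V P]
  exact h

theorem s26env_spOne_of_spZero {Ω : Type u} [Field Ω] [Algebra K Ω] (P : s26eptPts f Ω)
    (h : S26eSpZero f G P) : S26eSpOne f G P := by
  obtain ⟨V, hV, h⟩ := h
  exact ⟨V, hV, s26env_spOneV_of_centre f G P V hV h⟩

theorem s26env_spOneAt_of_spZeroAt {Γ : Type u} [Field Γ] [Algebra K Γ] (ν : s26eptPts f Γ)
    (γ₀ : AlgebraicCurve.Place K Γ) (h : S26eSpZeroAt f G ν γ₀) : S26eSpOneAt f G ν γ₀ :=
  s26env_spOneV_of_centre f G ν γ₀.toValuationSubring γ₀.algebraMap_mem' h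

end Fermat.Agent.S26

end
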