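/-
S26-E (P2), helper25: the NORM of a function whose divisor is a pull-back.

`R` an integrally closed domain with fraction field `F` (the local ring `O_{A,z}` of a prime
divisor `z`), `E / F` a finite field extension (`K(W) / K(A)`).

* `s26en_norm_unit`  : if `x` and `x⁻¹` are integral over `R`, then `N_{E/F} x` is a unit of `R`.
* `s26en_norm_eq`    : if `ϑ · π^(-m)` and its inverse are integral over `R` (i.e. `ϑ` has order
  `e(Z/z) · m` at every prime divisor `Z` over `z`), then `N_{E/F} ϑ = u · π ^ ([E:F] · m)` with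
  `u ∈ Rˣ`.  No separability, no `Σ e f = n`.
-/
import Mathlib.RingTheory.Norm.Transitivity
import Mathlib.RingTheory.IntegralClosure.IntegrallyClosed
import Mathlib.RingTheory.Localization.FractionRing
import Mathlib.RingTheory.OrderOfVanishing.Noetherian

set_option autoImplicit false
set_option linter.unusedSectionVars false

namespace Fermat.Agent.S26

open Module

variable (R : Type*) {F E : Type*} [CommRing R] [IsDomain R] [IsIntegrallyClosed R]
  [Field F] [Algebra R F] [IsFractionRing R F] [Field E] [Algebra F E] [Algebra R E]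
  [IsScalarTower R F E] [FiniteDimensional F E]

/-- The norm of a unit of the integral closure is a unit of `R`. -/
theorem s26en_norm_unit (x : E) (hx0 : x ≠ 0) (hx : IsIntegral R x) (hx' : IsIntegral R x⁻¹) :
    ∃ u : Rˣ, Algebra.norm F x = algebraMap R F u := by
  obtain ⟨a, ha⟩ := (IsIntegrallyClosed.isIntegral_iff (R := R) (K := F)).1
    (Algebra.isIntegral_norm F hx)
  obtain ⟨b, hb⟩ := (IsIntegrallyClosed.isIntegral_iff (R := R) (K := F)).1
    (Algebra.isIntegral_norm F hx')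
  have hab : a * b = 1 := by
    apply IsFractionRing.injective R F
    rw [map_mul, ha, hb, ← map_mul, mul_inv_cancel₀ hx0, map_one, map_one]
  exact ⟨⟨a, b, hab, by rw [mul_comm]; exact hab⟩, ha.symm⟩

omit [IsIntegrallyClosed R] [IsDomain R] in
/-- The norm commutes with integer powers. -/
theorem s26en_norm_zpow (a : E) (ha : a ≠ 0) (m : ℤ) :
    Algebra.norm F (a ^ m) = (Algebra.norm F a) ^ m := by
  have hinv : ∀ x : E, x ≠ 0 → Algebra.norm F x⁻¹ = (Algebra.norm F x)⁻¹ := by
    intro x hx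
    have h : Algebra.norm F x * Algebra.norm F x⁻¹ = 1 := by
      rw [← map_mul, mul_inv_cancel₀ hx, map_one]
    exact eq_inv_of_mul_eq_one_right h
  cases m with
  | ofNat k => simp [map_pow]
  | negSucc k =>
    rw [zpow_negSucc, zpow_negSucc, hinv _ (pow_ne_zero _ ha), map_pow]

/-- **Norm of a pulled-back divisor.** -/
theorem s26en_norm_eq (π : F) (hπ : π ≠ 0) (ϑ : E) (hϑ : ϑ ≠ 0) (m : ℤ)
    (h1 : IsIntegral R (ϑ * (algebraMap F E π) ^ (-m)))
    (h2 : IsIntegral R (ϑ * (algebraMap F E π) ^ (-m))⁻¹) :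
    ∃ u : Rˣ, Algebra.norm F ϑ = algebraMap R F u * π ^ ((finrank F E : ℤ) * m) := by
  have hπE : algebraMap F E π ≠ 0 := by
    rwa [Ne, map_eq_zero]
  have hx0 : ϑ * (algebraMap F E π) ^ (-m) ≠ 0 := mul_ne_zero hϑ (zpow_ne_zero _ hπE)
  obtain ⟨u, hu⟩ := s26en_norm_unit R (F := F) _ hx0 h1 h2
  refine ⟨u, ?_⟩
  have hN : Algebra.norm F ((algebraMap F E π) ^ (-m)) = (π ^ ((finrank F E : ℤ) * m))⁻¹ := by
    rw [s26en_norm_zpow (F := F) _ hπE, Algebra.norm_algebraMap, ← zpow_natCast, ← zpow_mul,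
      mul_neg, zpow_neg]
  rw [map_mul, hN] at hu
  have hne : π ^ ((finrank F E : ℤ) * m) ≠ 0 := zpow_ne_zero _ hπ
  field_simp at hu
  rw [hu, mul_comm]

/-- The same in terms of the order of vanishing `Ring.ordFrac R` (the one behind `Scheme.ord`):
`ord (N ϑ) = [E:F] · m · ord π`. -/
theorem s26en_ordFrac_norm [IsNoetherianRing R] [Ring.KrullDimLE 1 R]
    (π : F) (hπ : π ≠ 0) (ϑ : E) (hϑ : ϑ ≠ 0) (m : ℤ)
    (h1 : IsIntegral R (ϑ * (algebraMap F E π) ^ (-m)))
    (h2 : IsIntegral R (ϑ * (algebraMap F E π) ^ (-m))⁻¹) :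
    Ring.ordFrac R (Algebra.norm F ϑ) = (Ring.ordFrac R π) ^ ((finrank F E : ℤ) * m) := by
  obtain ⟨u, hu⟩ := s26en_norm_eq R π hπ ϑ hϑ m h1 h2
  rw [hu, map_mul, Ring.ordFrac_of_isUnit u.isUnit, one_mul, map_zpow₀]

end Fermat.Agent.S26
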