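/-
S26-E, piece E-PT (helper51), part 5: POINTS AT A `K`-RATIONAL POINT.

* `s26eptratEv f Q z hQ : 𝒪_{A,z} →+* R` : `ev_Q` transported to `z = |Q|` (local homomorphism),
  `s26eptratEv_germ`, `s26eptratEv_str`, `s26eptrat_eq_SpecMap`.
* `s26eptrat_ev_eq`, `s26eptrat_ext` : for a FIELD `k ⊇ K`, a `k`-point whose image is the image
  of a `K`-point `E` is unique (`= s26eptMap f (Algebra.ofId K k) E`).
* `s26eptrat_eq_one (_iff)` : `Q ∈ A(k)` with `|Q| = s26zero f G` is `G.one`.
* `s26eptSp_eq_one_iff` : `sp_V P = 0 ∈ A(k_V)` iff the centre of `P` along `V` is the zero point.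
* `s26eptrat_spOneV_of_centre`, `s26eptrat_spOneV_iff`, `s26eptrat_spOne_of_spZero`,
  `s26eptrat_spOneAt_of_spZeroAt` : the CENTRE form of PlanE2 implies the POINT form.
-/
import Fermat.Agent.S26.EPTGen
import Fermat.Agent.S26.PlanE2

set_option autoImplicit false
set_option linter.style.haveILetI false

noncomputable section

namespace Fermat.Agent.S26

open CategoryTheory CategoryTheory.Limits AlgebraicGeometry NeronModelInfra GoodReductionJacobian

universe u

variable {K : Type u} [Field K] {A : Scheme.{u}} (f : A ⟶ Spec (CommRingCat.of K))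

section Ev

variable {R : Type u} [CommRing R] [Algebra K R] [IsLocalRing R]

/-- `ev_Q` transported to the stalk at `z = |Q|` -/
def s26eptratEv (Q : s26eptPts f R) (z : A) (hQ : s26eptPt f Q = z) :
    A.presheaf.stalk z →+* R :=
  (s26eptEv f Q).comp (A.presheaf.stalkSpecializes (specializes_of_eq hQ)).hom

theorem s26eptratEv_germ (Q : s26eptPts f R) (z : A) (hQ : s26eptPt f Q = z)
    (W : A.Opens) (hW : z ∈ W) (hW' : s26eptPt f Q ∈ W) (s : Γ(A, W)) :
    s26eptratEv f Q z hQ (A.presheaf.germ W z hW s) = s26eptVal f Q W hW' s := by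
  show s26eptEv f Q (A.presheaf.stalkSpecializes (specializes_of_eq hQ)
    (A.presheaf.germ W z hW s)) = _
  rw [← s26eptEv_germ]
  congr 1
  have h0 : A.presheaf.germ W z hW ≫ A.presheaf.stalkSpecializes (specializes_of_eq hQ) =
      A.presheaf.germ W (s26eptPt f Q) hW' :=
    A.presheaf.germ_stalkSpecializes hW (specializes_of_eq hQ)
  exact congrArg (fun g => g.hom s) h0

instance s26eptratEv_isLocalHom (Q : s26eptPts f R) (z : A) (hQ : s26eptPt f Q = z) :
    IsLocalHom (s26eptratEv f Q z hQ) := by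
  subst hQ
  have h1 : s26eptratEv f Q (s26eptPt f Q) rfl = s26eptEv f Q := by
    ext x
    show s26eptEv f Q (A.presheaf.stalkSpecializes (specializes_of_eq rfl) x) = _
    congr 1
    have h0 : A.presheaf.stalkSpecializes (specializes_of_eq (rfl : s26eptPt f Q = _)) = 𝟙 _ :=
      A.presheaf.stalkSpecializes_refl _
    exact congrArg (fun g => g.hom x) h0
  rw [h1]
  infer_instance

/-- a point with values in a local ring is `Spec (ev_Q)` followed by `Spec 𝒪_{A,z} ⟶ A` -/
theorem s26eptrat_eq_SpecMap (Q : s26eptPts f R) (z : A) (hQ : s26eptPt f Q = z) :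
    Q.1 = Spec.map (CommRingCat.ofHom (s26eptratEv f Q z hQ)) ≫ A.fromSpecStalk z := by
  rw [s26ept_eq_SpecMap_ev f Q]
  rw [← Scheme.SpecMap_stalkSpecializes_fromSpecStalk (specializes_of_eq hQ), ← Category.assoc,
    ← Spec.map_comp]
  rfl

/-- the structure map `K → 𝒪_{A,z}` -/
def s26eptratStr (z : A) : K →+* A.presheaf.stalk z :=
  ((Scheme.ΓSpecIso (CommRingCat.of K)).inv ≫ f.appTop ≫
    A.presheaf.germ ⊤ z (TopologicalSpace.Opens.mem_top z)).hom

theorem s26eptratEv_str (Q : s26eptPts f R) (z : A) (hQ : s26eptPt f Q = z) (c : K) :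
    s26eptratEv f Q z hQ (s26eptratStr f z c) = algebraMap K R c := by
  have hW' : s26eptPt f Q ∈ (⊤ : A.Opens) := TopologicalSpace.Opens.mem_top _
  have h1 := s26eptratEv_germ f Q z hQ ⊤ (TopologicalSpace.Opens.mem_top z) hW'
    (f.appTop.hom ((Scheme.ΓSpecIso (CommRingCat.of K)).inv.hom c))
  exact h1.trans (s26eptVal_const f Q hW' c)

end Ev

section Rat

variable {k : Type u} [Field k] [Algebra K k]

/-- **at a `K`-rational point `z = |E|`, `E ∈ A(K)`, the evaluation of every `k`-point is the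
evaluation of `E`** -/
theorem s26eptrat_ev_eq (E : s26eptPts f K) (Q : s26eptPts f k) (z : A)
    (hE : s26eptPt f E = z) (hQ : s26eptPt f Q = z) (x : A.presheaf.stalk z) :
    s26eptratEv f Q z hQ x = algebraMap K k (s26eptratEv f E z hE x) := by
  set c : K := s26eptratEv f E z hE x with hc
  have hy : s26eptratEv f E z hE (x - s26eptratStr f z c) = 0 := by
    rw [map_sub, s26eptratEv_str]
    show c - c = 0
    exact sub_self c
  have hnu : ¬ IsUnit (x - s26eptratStr f z c) := by
    intro hu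
    have := hu.map (s26eptratEv f E z hE)
    rw [hy] at this
    exact not_isUnit_zero this
  have hQ0 : s26eptratEv f Q z hQ (x - s26eptratStr f z c) = 0 := by
    by_contra hne
    exact hnu (IsLocalHom.map_nonunit (f := s26eptratEv f Q z hQ) _ (Ne.isUnit hne))
  rw [map_sub, s26eptratEv_str, sub_eq_zero] at hQ0
  exact hQ0

/-- **a `k`-point with image a `K`-rational point is unique** -/
theorem s26eptrat_ext (E : s26eptPts f K) (Q Q' : s26eptPts f k)
    (hQ : s26eptPt f Q = s26eptPt f E) (hQ' : s26eptPt f Q' = s26eptPt f E) : Q = Q' := by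
  apply Subtype.ext
  rw [s26eptrat_eq_SpecMap f Q _ hQ, s26eptrat_eq_SpecMap f Q' _ hQ']
  congr 3
  ext x
  rw [s26eptrat_ev_eq f E Q _ rfl hQ x, s26eptrat_ev_eq f E Q' _ rfl hQ' x]

/-- a `k`-point with image a `K`-rational point `|E|` is the image of `E` -/
theorem s26eptrat_eq_map (E : s26eptPts f K) (Q : s26eptPts f k)
    (hQ : s26eptPt f Q = s26eptPt f E) : Q = s26eptMap f (Algebra.ofId K k) E := by
  haveI : IsLocalHom ((Algebra.ofId K k : K →ₐ[K] k) : K →+* k) :=
    inferInstanceAs (IsLocalHom (algebraMap K k))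
  exact s26eptrat_ext f E Q _ hQ (s26eptPt_map f (Algebra.ofId K k) E)

variable (G : RelativeGroupLaw K f)

theorem s26eptrat_pt_one (R : Type u) [CommRing R] [Algebra K R] [IsLocalRing R] :
    s26eptPt f (G.one (s26eptStr K R)) = s26zero f G := by
  unfold s26eptPt s26zero
  rw [s26a1_one_eq G (s26eptStr K R)]
  change (s26a1Unit G) ((s26eptStr K R) (IsLocalRing.closedPoint R)) = _
  congr 1
  exact Subsingleton.elim _ _

/-- **a `k`-point with image the zero point of `A` is the zero of `A(k)`** -/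
theorem s26eptrat_eq_one (Q : s26eptPts f k) (hQ : s26eptPt f Q = s26zero f G) :
    Q = G.one (s26eptStr K k) :=
  s26eptrat_ext f (G.one (s26eptStr K K)) Q _
    (hQ.trans (s26eptrat_pt_one f G K).symm)
    ((s26eptrat_pt_one f G k).trans (s26eptrat_pt_one f G K).symm)

theorem s26eptrat_eq_one_iff (Q : s26eptPts f k) :
    Q = G.one (s26eptStr K k) ↔ s26eptPt f Q = s26zero f G :=
  ⟨fun h => by rw [h]; exact s26eptrat_pt_one f G k, s26eptrat_eq_one f G Q⟩

end Rat

section Sp

variable (G : RelativeGroupLaw K f) [IsProper f]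

variable (Ω : Type u) [Field Ω] [Algebra K Ω]
  (V : Type u) [CommRing V] [IsDomain V] [ValuationRing V] [Algebra V Ω] [IsFractionRing V Ω]
  [Algebra K V] [IsScalarTower K V Ω]

/-- **`sp_V P = 0 ∈ A(k_V)` iff the centre of `P` along `V` is the zero point of `A`** -/
theorem s26eptSp_eq_one_iff (P : s26eptPts f Ω) :
    s26eptSp f Ω V P = G.one _ ↔ s26eptCentre f Ω V P = s26zero f G := by
  rw [s26eptrat_eq_one_iff, s26eptPt_sp]

end Sp

section Plan

variable (G : RelativeGroupLaw K f) [IsProper f]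

variable {Ω : Type u} [Field Ω] [Algebra K Ω]

/-- CENTRE form ⇒ POINT form (the converse of `s26e_centre_of_spOneV`) -/
theorem s26eptrat_spOneV_of_centre (P : s26eptPts f Ω) (V : ValuationSubring Ω)
    (hV : S26erOver K V) (h : s26emCentre (s26eLiftV f V hV P) = s26zero f G) :
    S26eSpOneV f G P V hV := by
  letI := s26eAlgV V hV
  haveI := s26eAlgV_tower V hV
  exact (s26eptSp_eq_one_iff f G Ω V P).2 h

theorem s26eptrat_spOneV_iff (P : s26eptPts f Ω) (V : ValuationSubring Ω)
    (hV : S26erOver K V) :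
    S26eSpOneV f G P V hV ↔ s26emCentre (s26eLiftV f V hV P) = s26zero f G := by
  letI := s26eAlgV V hV
  haveI := s26eAlgV_tower V hV
  exact s26eptSp_eq_one_iff f G Ω V P

theorem s26eptrat_spOne_of_spZero (P : s26eptPts f Ω) (h : S26eSpZero f G P) :
    S26eSpOne f G P := by
  obtain ⟨V, hV, h⟩ := h
  exact ⟨V, hV, s26eptrat_spOneV_of_centre f G P V hV h⟩

theorem s26eptrat_spOneAt_of_spZeroAt (P : s26eptPts f Ω) (γ₀ : AlgebraicCurve.Place K Ω)
    (h : S26eSpZeroAt f G P γ₀) : S26eSpOneAt f G P γ₀ :=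
  s26eptrat_spOneV_of_centre f G P γ₀.toValuationSubring γ₀.algebraMap_mem' h

end Plan

end Fermat.Agent.S26
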