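/-
S26, wall (E), piece E-RR (helper79), part C: **the instance for the constant extension**
`Ω = Frac(𝔠 ⊗_K 𝔎)` (setting of `S26/ERRGaussPlace.lean`, helper96; basis transfer of
`S26/ERRD3.lean`, helper65): `[Ω : 𝔎(x)] < ∞`, hence `HasPrincipalDivisors 𝔎 Ω`, finite residue
fields, finite-dimensional Riemann–Roch spaces — any fields `K ⊆ 𝔎`, any characteristic.
-/
import Fermat.Agent.S26.ERR2c
import Fermat.Agent.S26.ERRD4
import Fermat.Agent.S26.ERRGaussAlg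

set_option autoImplicit false
set_option linter.unusedSectionVars false
set_option linter.unusedVariables false
set_option linter.style.haveILetI false

open AlgebraicCurve Module Polynomial IntermediateField TensorProduct

namespace Fermat.Agent.S26

variable {K 𝔠 𝔎 Ω : Type*} [Field K] [Field 𝔠] [Field 𝔎] [Field Ω]
  [Algebra K 𝔠] [Algebra K 𝔎] [Algebra K Ω] [Algebra 𝔠 Ω] [Algebra 𝔎 Ω]
  [IsScalarTower K 𝔠 Ω] [IsScalarTower K 𝔎 Ω]

/-- `[Ω : 𝔎(x)] < ∞` -/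
theorem s26err_gauss_finiteDimensional (hld : Function.Injective (s26gspMu K 𝔠 𝔎 Ω))
    (hgen : S26gspGen K 𝔠 𝔎 Ω) {x : 𝔠} (hx : Transcendental K x) [FiniteDimensional K⟮x⟯ 𝔠] :
    FiniteDimensional 𝔎⟮algebraMap 𝔠 Ω x⟯ Ω := by
  obtain ⟨n, e, -⟩ := s26errd_exists_basis (K := K) x
  obtain ⟨b, -⟩ := s26errd_exists_basis_F (L := 𝔎) (F := Ω)
    (fun ι e he => s26errd_LD_of_inj hld e he) (s26errd_gen_of_gen hgen) hx rfl e
  exact Module.Finite.of_basis b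

/-- `[Ω : 𝔎(x)] = [𝔠 : K(x)]` -/
theorem s26err_gauss_finrank (hld : Function.Injective (s26gspMu K 𝔠 𝔎 Ω))
    (hgen : S26gspGen K 𝔠 𝔎 Ω) {x : 𝔠} (hx : Transcendental K x) [FiniteDimensional K⟮x⟯ 𝔠] :
    finrank 𝔎⟮algebraMap 𝔠 Ω x⟯ Ω = finrank K⟮x⟯ 𝔠 := by
  obtain ⟨n, e, -⟩ := s26errd_exists_basis (K := K) x
  obtain ⟨b, -⟩ := s26errd_exists_basis_F (L := 𝔎) (F := Ω)
    (fun ι e he => s26errd_LD_of_inj hld e he) (s26errd_gen_of_gen hgen) hx rfl e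
  rw [Module.finrank_eq_card_basis b, Module.finrank_eq_card_basis e]

/-- **`HasPrincipalDivisors 𝔎 Ω`** for the constant extension -/
theorem s26err_gauss_hpd (hld : Function.Injective (s26gspMu K 𝔠 𝔎 Ω))
    (hgen : S26gspGen K 𝔠 𝔎 Ω) {x : 𝔠} (hx : Transcendental K x) [FiniteDimensional K⟮x⟯ 𝔠] :
    HasPrincipalDivisors 𝔎 Ω :=
  haveI := s26err_gauss_finiteDimensional hld hgen hx
  s26err_hasPrincipalDivisors (algebraMap 𝔠 Ω x) (s26gspc_transcendental hld hx)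

/-- the residue fields of `Ω / 𝔎` are finite over `𝔎` -/
theorem s26err_gauss_hfin (hld : Function.Injective (s26gspMu K 𝔠 𝔎 Ω))
    (hgen : S26gspGen K 𝔠 𝔎 Ω) {x : 𝔠} (hx : Transcendental K x) [FiniteDimensional K⟮x⟯ 𝔠]
    (v : Place 𝔎 Ω) : Module.Finite 𝔎 v.ResidueField :=
  haveI := s26err_gauss_finiteDimensional hld hgen hx
  s26err_residue_finite (algebraMap 𝔠 Ω x) (s26gspc_transcendental hld hx) v

/-- the Riemann–Roch spaces of `Ω / 𝔎` are finite-dimensional -/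
theorem s26err_gauss_rr_finite (hld : Function.Injective (s26gspMu K 𝔠 𝔎 Ω))
    (hgen : S26gspGen K 𝔠 𝔎 Ω) {x : 𝔠} (hx : Transcendental K x) [FiniteDimensional K⟮x⟯ 𝔠]
    (D : Divisor 𝔎 Ω) : Module.Finite 𝔎 ↥(riemannRochSpace D) :=
  haveI := s26err_gauss_finiteDimensional hld hgen hx
  s26err_rr_finite' (algebraMap 𝔠 Ω x) (s26gspc_transcendental hld hx) D

/-- every valuation subring `≠ ⊤` of `Ω` containing `𝔎` is a place of `Ω / 𝔎` -/
theorem s26err_gauss_exists_place (hld : Function.Injective (s26gspMu K 𝔠 𝔎 Ω))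
    (hgen : S26gspGen K 𝔠 𝔎 Ω) {x : 𝔠} (hx : Transcendental K x) [FiniteDimensional K⟮x⟯ 𝔠]
    (V : ValuationSubring Ω) (hV : ∀ a : 𝔎, algebraMap 𝔎 Ω a ∈ V) (hne : V ≠ ⊤) :
    ∃ v : Place 𝔎 Ω, v.toValuationSubring = V :=
  haveI := s26err_gauss_finiteDimensional hld hgen hx
  ⟨s26errPlaceOf V hV hne (algebraMap 𝔠 Ω x) (s26gspc_transcendental hld hx), rfl⟩

end Fermat.Agent.S26
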