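/-
S26-E-RR-C (helper33), ABSTRACT part: the Gauss extension of a discrete valuation ring along a
constant field extension.

Setting: `K` a field, `O` a `K`-algebra with a `K`-point `res : O →ₐ[K] K` whose kernel is
generated by `π` and which is `π`-adically separated (`hsep`), `E ⊇ K` a field.
`s26errcRed res : O ⊗[K] E →ₐ[K] E` is the reduction.

* `s26errc_red_eq_zero` : `red t = 0 → ∃ t₁, t = (π ⊗ 1) * t₁`.
* `s26errc_nf` : every `t ≠ 0` of `O ⊗ E` is `(π ⊗ 1)ⁿ * u` with `red u ≠ 0`.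
-/
import Mathlib

set_option autoImplicit false
set_option linter.unusedVariables false
set_option linter.unusedSectionVars false

namespace Fermat.Agent.S26

open TensorProduct

universe u

section Core

variable {K : Type u} [Field K] {O : Type u} [CommRing O] [Algebra K O]
  {E : Type u} [Field E] [Algebra K E] (res : O →ₐ[K] K) (π : O)

/-- the reduction `O ⊗ E → E`, `a ⊗ c ↦ res(a) c` -/
noncomputable def s26errcRed : O ⊗[K] E →ₐ[K] E :=
  Algebra.TensorProduct.productMap ((Algebra.ofId K E).comp res) (AlgHom.id K E)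

theorem s26errcRed_tmul (a : O) (c : E) :
    s26errcRed res (a ⊗ₜ[K] c) = algebraMap K E (res a) * c := rfl

theorem s26errcRed_tmul' (a : O) (c : E) :
    s26errcRed res (a ⊗ₜ[K] c) = res a • c := by
  rw [s26errcRed_tmul, Algebra.smul_def]

variable {ι : Type u} (b : Module.Basis ι K E)

/-- the coordinates of the reduction are the reductions of the coordinates -/
theorem s26errc_repr_red (t : O ⊗[K] E) (i : ι) :
    b.repr (s26errcRed res t) i = res ((Algebra.TensorProduct.basis O b).repr t i) := by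
  induction t using TensorProduct.induction_on with
  | zero => simp
  | tmul a c =>
    rw [s26errcRed_tmul', Algebra.TensorProduct.basis_repr_tmul]
    simp only [map_smul, Finsupp.smul_apply, Finsupp.mapRange_apply, smul_eq_mul, map_mul]
    congr 1
    exact (res.commutes _).symm
  | add x y hx hy =>
    simp only [map_add, Finsupp.add_apply, hx, hy]

/-- every element is the sum of its coordinates -/
theorem s26errc_sum_repr (t : O ⊗[K] E) :
    t = ∑ i ∈ ((Algebra.TensorProduct.basis O b).repr t).support,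
      ((Algebra.TensorProduct.basis O b).repr t i) ⊗ₜ[K] (b i) := by
  conv_lhs => rw [← (Algebra.TensorProduct.basis O b).linearCombination_repr t]
  rw [Finsupp.linearCombination_apply, Finsupp.sum]
  refine Finset.sum_congr rfl fun i _ => ?_
  exact Algebra.TensorProduct.basis_repr_symm_apply' b _ i

variable {res π}

/-- the kernel of the reduction is generated by `π ⊗ 1` -/
theorem s26errc_red_eq_zero (hker : ∀ a : O, res a = 0 → ∃ a', a = π * a')
    (t : O ⊗[K] E) (ht : s26errcRed res t = 0) :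
    ∃ t₁ : O ⊗[K] E, t = (π ⊗ₜ[K] (1 : E)) * t₁ := by
  classical
  have h1 : ∀ i, res ((Algebra.TensorProduct.basis O (Module.Free.chooseBasis K E)).repr t i)
      = 0 := by
    intro i
    rw [← s26errc_repr_red res (Module.Free.chooseBasis K E) t i, ht, map_zero,
      Finsupp.zero_apply]
  choose a' ha' using fun i => hker _ (h1 i)
  refine ⟨∑ i ∈ ((Algebra.TensorProduct.basis O (Module.Free.chooseBasis K E)).repr t).support,
    (a' i) ⊗ₜ[K] (Module.Free.chooseBasis K E i), ?_⟩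
  rw [Finset.mul_sum]
  conv_lhs => rw [s26errc_sum_repr (Module.Free.chooseBasis K E) t]
  refine Finset.sum_congr rfl fun i _ => ?_
  rw [Algebra.TensorProduct.tmul_mul_tmul, one_mul, ← ha' i]

theorem s26errc_red_pi (hπ : res π = 0) (t : O ⊗[K] E) :
    s26errcRed res ((π ⊗ₜ[K] (1 : E)) * t) = 0 := by
  rw [map_mul, s26errcRed_tmul, hπ, map_zero, zero_mul, zero_mul]

theorem s26errc_repr_pi_mul (π : O) (t₁ : O ⊗[K] E) (i : ι) :
    (Algebra.TensorProduct.basis O b).repr ((π ⊗ₜ[K] (1 : E)) * t₁) i =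
      π * (Algebra.TensorProduct.basis O b).repr t₁ i := by
  have h : (π ⊗ₜ[K] (1 : E)) * t₁ = π • t₁ := by
    rw [Algebra.smul_def]
    rfl
  rw [h, map_smul, Finsupp.smul_apply, smul_eq_mul]

theorem s26errc_nf_aux (hker : ∀ a : O, res a = 0 → ∃ a', a = π * a') (N : ℕ) :
    ∀ (t : O ⊗[K] E) (i : ι), ¬ π ^ (N + 1) ∣ (Algebra.TensorProduct.basis O b).repr t i →
      ∃ (n : ℕ) (u : O ⊗[K] E), t = (π ⊗ₜ[K] (1 : E)) ^ n * u ∧ s26errcRed res u ≠ 0 := by
  induction N with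
  | zero =>
    intro t i hi
    by_cases ht : s26errcRed res t = 0
    · exfalso
      obtain ⟨t₁, rfl⟩ := s26errc_red_eq_zero hker t ht
      apply hi
      rw [s26errc_repr_pi_mul, zero_add, pow_one]
      exact dvd_mul_right _ _
    · exact ⟨0, t, by rw [pow_zero, one_mul], ht⟩
  | succ N ih =>
    intro t i hi
    by_cases ht : s26errcRed res t = 0
    · obtain ⟨t₁, rfl⟩ := s26errc_red_eq_zero hker t ht
      have h1 : ¬ π ^ (N + 1) ∣ (Algebra.TensorProduct.basis O b).repr t₁ i := by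
        intro hd
        apply hi
        rw [s26errc_repr_pi_mul, pow_succ' π (N + 1)]
        exact mul_dvd_mul_left π hd
      obtain ⟨n, u, hu1, hu2⟩ := ih t₁ i h1
      refine ⟨n + 1, u, ?_, hu2⟩
      rw [hu1, pow_succ', mul_assoc]
    · exact ⟨0, t, by rw [pow_zero, one_mul], ht⟩

/-- **normal form**: every nonzero element of `O ⊗ E` is `(π ⊗ 1)ⁿ u` with `red u ≠ 0` -/
theorem s26errc_nf (hker : ∀ a : O, res a = 0 → ∃ a', a = π * a')
    (hsep : ∀ a : O, a ≠ 0 → ∃ N : ℕ, ¬ π ^ (N + 1) ∣ a)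
    (t : O ⊗[K] E) (ht : t ≠ 0) :
    ∃ (n : ℕ) (u : O ⊗[K] E), t = (π ⊗ₜ[K] (1 : E)) ^ n * u ∧ s26errcRed res u ≠ 0 := by
  classical
  have h1 : (Algebra.TensorProduct.basis O (Module.Free.chooseBasis K E)).repr t ≠ 0 := by
    intro h
    exact ht ((LinearEquiv.map_eq_zero_iff _).mp h)
  obtain ⟨i, hi⟩ := Finsupp.ne_iff.mp h1
  rw [Finsupp.zero_apply] at hi
  obtain ⟨N, hN⟩ := hsep _ hi
  exact s26errc_nf_aux (Module.Free.chooseBasis K E) hker N t i hN

/-- an element with nonzero reduction is a constant unit plus a multiple of `π` -/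
theorem s26errc_eq_const_add (hker : ∀ a : O, res a = 0 → ∃ a', a = π * a')
    (u : O ⊗[K] E) :
    ∃ t₁ : O ⊗[K] E, u = (1 : O) ⊗ₜ[K] (s26errcRed res u) + (π ⊗ₜ[K] (1 : E)) * t₁ := by
  have h : s26errcRed res (u - (1 : O) ⊗ₜ[K] (s26errcRed res u)) = 0 := by
    rw [map_sub, s26errcRed_tmul, map_one, map_one, one_mul, sub_self]
  obtain ⟨t₁, ht₁⟩ := s26errc_red_eq_zero hker _ h
  exact ⟨t₁, by rw [← ht₁]; ring⟩

end Core

section Field

variable {K : Type u} [Field K] {O : Type u} [CommRing O] [Algebra K O]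
  {E : Type u} [Field E] [Algebra K E] {res : O →ₐ[K] K} {π : O}
  {Ω : Type u} [Field Ω] {μ : O ⊗[K] E →+* Ω}

/-- the standing hypotheses: `O` is "a discrete valuation ring with uniformizer `π` and residue
field `K`", and `Ω` is the fraction field of `O ⊗ E`. -/
structure S26errcHyp (res : O →ₐ[K] K) (π : O) (μ : O ⊗[K] E →+* Ω) : Prop where
  ker : ∀ a : O, res a = 0 → ∃ a', a = π * a'
  pi : res π = 0
  sep : ∀ a : O, a ≠ 0 → ∃ N : ℕ, ¬ π ^ (N + 1) ∣ a
  inj : Function.Injective μ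
  gen : ∀ ω : Ω, ∃ x y : O ⊗[K] E, y ≠ 0 ∧ ω * μ y = μ x
  pi_ne : μ (π ⊗ₜ[K] (1 : E)) ≠ 0

variable (h : S26errcHyp res π μ)

include h in
theorem s26errc_mu_ne_zero {u : O ⊗[K] E} (hu : s26errcRed res u ≠ 0) : μ u ≠ 0 := by
  intro h0
  have h1 : u = 0 := h.inj (by rw [h0, map_zero])
  exact hu (by rw [h1, map_zero])

include h in
theorem s26errc_mu_ne_zero' {u : O ⊗[K] E} (hu : u ≠ 0) : μ u ≠ 0 := by
  intro h0
  exact hu (h.inj (by rw [h0, map_zero]))

theorem s26errc_red_mul_ne {u u' : O ⊗[K] E} (hu : s26errcRed res u ≠ 0)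
    (hu' : s26errcRed res u' ≠ 0) : s26errcRed res (u * u') ≠ 0 := by
  rw [map_mul]
  exact mul_ne_zero hu hu'

theorem s26errc_red_one_ne : s26errcRed res (1 : O ⊗[K] E) ≠ 0 := by
  rw [map_one]
  exact one_ne_zero

/-- the uniformizer in `Ω` -/
def s26errcPi (π : O) (μ : O ⊗[K] E →+* Ω) : Ω := μ (π ⊗ₜ[K] (1 : E))

/-- **the Gauss valuation ring** of `Ω` -/
def s26errcVal (h : S26errcHyp res π μ) : ValuationSubring Ω where
  carrier := {ω | ∃ a u : O ⊗[K] E, s26errcRed res u ≠ 0 ∧ ω * μ u = μ a}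
  mul_mem' := by
    rintro x y ⟨a, u, hu, hxu⟩ ⟨a', u', hu', hyu'⟩
    refine ⟨a * a', u * u', s26errc_red_mul_ne hu hu', ?_⟩
    rw [map_mul, map_mul, ← hxu, ← hyu']
    ring
  one_mem' := ⟨1, 1, s26errc_red_one_ne, by rw [map_one, mul_one]⟩
  add_mem' := by
    rintro x y ⟨a, u, hu, hxu⟩ ⟨a', u', hu', hyu'⟩
    refine ⟨a * u' + a' * u, u * u', s26errc_red_mul_ne hu hu', ?_⟩
    rw [map_add, map_mul, map_mul, map_mul, ← hxu, ← hyu']
    ring
  zero_mem' := ⟨0, 1, s26errc_red_one_ne, by rw [map_zero, zero_mul]⟩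
  neg_mem' := by
    rintro x ⟨a, u, hu, hxu⟩
    refine ⟨-a, u, hu, ?_⟩
    rw [map_neg, ← hxu]
    ring
  mem_or_inv_mem' := by
    intro x
    by_cases hx : x = 0
    · left
      exact ⟨0, 1, s26errc_red_one_ne, by rw [hx, map_zero, zero_mul]⟩
    obtain ⟨a, y, hy, hxy⟩ := h.gen x
    have hμy : μ y ≠ 0 := s26errc_mu_ne_zero' h hy
    have ha : a ≠ 0 := by
      rintro rfl
      rw [map_zero] at hxy
      exact (mul_ne_zero hx hμy) hxy
    obtain ⟨n, u, rfl, hu⟩ := s26errc_nf h.ker h.sep a ha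
    obtain ⟨m, u', rfl, hu'⟩ := s26errc_nf h.ker h.sep y hy
    rw [map_mul, map_mul, map_pow, map_pow] at hxy
    have hϖm : μ (π ⊗ₜ[K] (1 : E)) ^ m ≠ 0 := by
      intro h0
      apply hμy
      rw [map_mul, map_pow, h0, zero_mul]
    have hϖn : μ (π ⊗ₜ[K] (1 : E)) ^ n ≠ 0 := by
      intro h0
      rw [h0, zero_mul] at hxy
      exact (mul_ne_zero hx (mul_ne_zero hϖm (s26errc_mu_ne_zero h hu'))) hxy
    rcases le_total m n with hmn | hnm
    · left
      obtain ⟨d, rfl⟩ := Nat.exists_eq_add_of_le hmn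
      refine ⟨(π ⊗ₜ[K] (1 : E)) ^ d * u, u', hu', ?_⟩
      rw [map_mul, map_pow]
      apply mul_left_cancel₀ hϖm
      linear_combination hxy
    · right
      obtain ⟨d, rfl⟩ := Nat.exists_eq_add_of_le hnm
      refine ⟨(π ⊗ₜ[K] (1 : E)) ^ d * u', u, hu, ?_⟩
      rw [map_mul, map_pow]
      apply mul_left_cancel₀ (mul_ne_zero hx hϖn)
      have e1 : x * μ (π ⊗ₜ[K] (1 : E)) ^ n * (x⁻¹ * μ u) =
          μ (π ⊗ₜ[K] (1 : E)) ^ n * μ u := by
        field_simp
      rw [e1]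
      linear_combination -hxy

theorem s26errc_mem_iff (ω : Ω) : ω ∈ s26errcVal h ↔
    ∃ a u : O ⊗[K] E, s26errcRed res u ≠ 0 ∧ ω * μ u = μ a := Iff.rfl

theorem s26errc_mu_mem (t : O ⊗[K] E) : μ t ∈ s26errcVal h :=
  ⟨t, 1, s26errc_red_one_ne, by rw [map_one, mul_one]⟩

theorem s26errc_pi_mem : s26errcPi π μ ∈ s26errcVal h := s26errc_mu_mem h _

/-- the inverse of an element with nonzero reduction is integral -/
theorem s26errc_inv_mem {u : O ⊗[K] E} (hu : s26errcRed res u ≠ 0) :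
    (μ u)⁻¹ ∈ s26errcVal h :=
  ⟨1, u, hu, by rw [map_one, inv_mul_cancel₀ (s26errc_mu_ne_zero h hu)]⟩

/-- `π` is not invertible in the Gauss ring -/
theorem s26errc_pi_inv_not_mem : (s26errcPi π μ)⁻¹ ∉ s26errcVal h := by
  rintro ⟨a, u, hu, hau⟩
  have h1 : μ u = μ ((π ⊗ₜ[K] (1 : E)) * a) := by
    rw [map_mul, ← hau]
    have h2 : μ (π ⊗ₜ[K] (1 : E)) ≠ 0 := h.pi_ne
    show μ u = μ (π ⊗ₜ[K] (1 : E)) * ((μ (π ⊗ₜ[K] (1 : E)))⁻¹ * μ u)
    field_simp
  have h5 := h.inj h1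
  apply hu
  rw [h5]
  exact s26errc_red_pi h.pi a

include h in
theorem s26errc_pi_ne : s26errcPi π μ ≠ 0 := h.pi_ne

theorem s26errc_pi_pow_mem (k : ℕ) : s26errcPi π μ ^ k ∈ s26errcVal h :=
  pow_mem (s26errc_pi_mem h) k

/-- **structure of the elements of `Ω`**: `ω = πᵏ ε` with `ε` a unit of the Gauss ring -/
theorem s26errc_exists_zpow {ω : Ω} (hω : ω ≠ 0) :
    ∃ (k : ℤ) (ε : Ω), ε ∈ s26errcVal h ∧ ε⁻¹ ∈ s26errcVal h ∧ ε ≠ 0 ∧
      ω = s26errcPi π μ ^ k * ε := by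
  obtain ⟨a, y, hy, hxy⟩ := h.gen ω
  have hμy : μ y ≠ 0 := s26errc_mu_ne_zero' h hy
  have ha : a ≠ 0 := by
    rintro rfl
    rw [map_zero] at hxy
    exact (mul_ne_zero hω hμy) hxy
  obtain ⟨n, u, rfl, hu⟩ := s26errc_nf h.ker h.sep a ha
  obtain ⟨m, u', rfl, hu'⟩ := s26errc_nf h.ker h.sep y hy
  have hμu : μ u ≠ 0 := s26errc_mu_ne_zero h hu
  have hμu' : μ u' ≠ 0 := s26errc_mu_ne_zero h hu'
  have hϖ : s26errcPi π μ ≠ 0 := h.pi_ne
  refine ⟨(n : ℤ) - m, μ u * (μ u')⁻¹, ?_, ?_, mul_ne_zero hμu (inv_ne_zero hμu'), ?_⟩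
  · exact mul_mem (s26errc_mu_mem h u) (s26errc_inv_mem h hu')
  · rw [mul_inv, inv_inv]
    exact mul_mem (s26errc_inv_mem h hu) (s26errc_mu_mem h u')
  · rw [map_mul, map_mul, map_pow, map_pow] at hxy
    have hxy' : ω * (s26errcPi π μ ^ m * μ u') = s26errcPi π μ ^ n * μ u := hxy
    rw [zpow_sub₀ hϖ, zpow_natCast, zpow_natCast]
    field_simp
    linear_combination hxy'

/-- **Lemma Z**: `πᵏ ε` is integral iff `k ≥ 0` -/
theorem s26errc_zpow_mem_iff (k : ℤ) {ε : Ω} (hε : ε ∈ s26errcVal h)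
    (hε' : ε⁻¹ ∈ s26errcVal h) (hε0 : ε ≠ 0) :
    s26errcPi π μ ^ k * ε ∈ s26errcVal h ↔ 0 ≤ k := by
  have hϖ : s26errcPi π μ ≠ 0 := h.pi_ne
  constructor
  · intro hmem
    by_contra hk
    have hk := not_le.mp hk
    obtain ⟨d, hd⟩ : ∃ d : ℕ, (d : ℤ) = -k - 1 := ⟨(-k - 1).toNat, Int.toNat_of_nonneg (by omega)⟩
    apply s26errc_pi_inv_not_mem h
    have e : (s26errcPi π μ)⁻¹ = s26errcPi π μ ^ d * (s26errcPi π μ ^ k * ε) * ε⁻¹ := by
      rw [← zpow_natCast, hd, mul_assoc, mul_assoc, mul_inv_cancel₀ hε0, mul_one,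
        ← zpow_add₀ hϖ]
      have : -k - 1 + k = -1 := by ring
      rw [this, zpow_neg_one]
    rw [e]
    exact mul_mem (mul_mem (s26errc_pi_pow_mem h d) hmem) hε'
  · intro hk
    obtain ⟨d, rfl⟩ := Int.eq_ofNat_of_zero_le hk
    rw [zpow_natCast]
    exact mul_mem (s26errc_pi_pow_mem h d) hε

/-- the integral elements are `πᵏ ε`, `k : ℕ` -/
theorem s26errc_exists_pow {ω : Ω} (hω : ω ≠ 0) (hmem : ω ∈ s26errcVal h) :
    ∃ (k : ℕ) (ε : Ω), ε ∈ s26errcVal h ∧ ε⁻¹ ∈ s26errcVal h ∧ ε ≠ 0 ∧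
      ω = s26errcPi π μ ^ k * ε := by
  obtain ⟨k, ε, h1, h2, h3, rfl⟩ := s26errc_exists_zpow h hω
  have hk := (s26errc_zpow_mem_iff h k h1 h2 h3).mp hmem
  obtain ⟨d, rfl⟩ := Int.eq_ofNat_of_zero_le hk
  exact ⟨d, ε, h1, h2, h3, by rw [zpow_natCast]⟩

/-- a nonzero multiple of `π` is not a unit -/
theorem s26errc_pi_mul_inv_not_mem {y : Ω} (hy : y ∈ s26errcVal h) (hy0 : y ≠ 0) :
    (s26errcPi π μ * y)⁻¹ ∉ s26errcVal h := by
  intro hmem
  apply s26errc_pi_inv_not_mem h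
  have e : (s26errcPi π μ)⁻¹ = (s26errcPi π μ * y)⁻¹ * y := by
    rw [mul_inv, mul_assoc, inv_mul_cancel₀ hy0, mul_one]
  rw [e]
  exact mul_mem hmem hy

/-- units of the Gauss ring -/
theorem s26errc_isUnit_of_inv_mem (x : ↥(s26errcVal h)) (hx0 : (x : Ω) ≠ 0)
    (hx : (x : Ω)⁻¹ ∈ s26errcVal h) : IsUnit x :=
  isUnit_iff_exists_inv.mpr ⟨⟨(x : Ω)⁻¹, hx⟩, Subtype.ext (mul_inv_cancel₀ hx0)⟩

theorem s26errc_inv_mem_of_isUnit (x : ↥(s26errcVal h)) (hx : IsUnit x) :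
    (x : Ω)⁻¹ ∈ s26errcVal h := by
  obtain ⟨y, hy⟩ := isUnit_iff_exists_inv.mp hx
  have h1 : (x : Ω) * (y : Ω) = 1 := congrArg Subtype.val hy
  have h2 : (x : Ω)⁻¹ = (y : Ω) := inv_eq_of_mul_eq_one_right h1
  rw [h2]
  exact y.2

/-- the uniformizer as an element of the Gauss ring -/
def s26errcPiElt (h : S26errcHyp res π μ) : ↥(s26errcVal h) := ⟨s26errcPi π μ, s26errc_pi_mem h⟩

theorem s26errc_piElt_not_isUnit : ¬ IsUnit (s26errcPiElt h) := fun hu =>
  s26errc_pi_inv_not_mem h (s26errc_inv_mem_of_isUnit h _ hu)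

theorem s26errc_piElt_irreducible : Irreducible (s26errcPiElt h) := by
  rw [irreducible_iff]
  refine ⟨s26errc_piElt_not_isUnit h, fun a b hab => ?_⟩
  have hϖ : s26errcPi π μ ≠ 0 := h.pi_ne
  have hab' : s26errcPi π μ = (a : Ω) * (b : Ω) := congrArg Subtype.val hab
  have ha0 : (a : Ω) ≠ 0 := by
    intro h0
    rw [h0, zero_mul] at hab'
    exact hϖ hab'
  have hb0 : (b : Ω) ≠ 0 := by
    intro h0
    rw [h0, mul_zero] at hab'
    exact hϖ hab'
  obtain ⟨k, ε, hε, hε', hε0, hak⟩ := s26errc_exists_pow h ha0 a.2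
  obtain ⟨l, ε', hε₂, hε₂', hε₂0, hbl⟩ := s26errc_exists_pow h hb0 b.2
  rcases Nat.eq_zero_or_pos k with hk | hk
  · left
    apply s26errc_isUnit_of_inv_mem h a ha0
    rw [hak, hk, pow_zero, one_mul]
    exact hε'
  rcases Nat.eq_zero_or_pos l with hl | hl
  · right
    apply s26errc_isUnit_of_inv_mem h b hb0
    rw [hbl, hl, pow_zero, one_mul]
    exact hε₂'
  exfalso
  apply s26errc_pi_inv_not_mem h
  obtain ⟨k', rfl⟩ := Nat.exists_eq_add_of_le hk
  obtain ⟨l', rfl⟩ := Nat.exists_eq_add_of_le hl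
  have e : (s26errcPi π μ)⁻¹ = s26errcPi π μ ^ (k' + l') * (ε⁻¹ * ε'⁻¹) * (ε * ε') * (ε * ε') := by
    have h1 : s26errcPi π μ = s26errcPi π μ ^ (1 + k') * ε * (s26errcPi π μ ^ (1 + l') * ε') := by
      rw [← hak, ← hbl]
      exact hab'
    have h2 : (1 : Ω) = s26errcPi π μ ^ (k' + l' + 1) * (ε * ε') := by
      apply mul_left_cancel₀ hϖ
      rw [mul_one]
      conv_lhs => rw [h1]
      ring
    have h3 : (s26errcPi π μ)⁻¹ = s26errcPi π μ ^ (k' + l') * (ε * ε') := by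
      rw [inv_eq_iff_eq_inv]
      apply eq_inv_of_mul_eq_one_left
      rw [h2]
      ring
    rw [h3]
    field_simp
  rw [e]
  exact mul_mem (mul_mem (mul_mem (s26errc_pi_pow_mem h _) (mul_mem hε' hε₂'))
    (mul_mem hε hε₂)) (mul_mem hε hε₂)

theorem s26errc_hasFactorization :
    IsDiscreteValuationRing.HasUnitMulPowIrreducibleFactorization ↥(s26errcVal h) := by
  refine ⟨s26errcPiElt h, s26errc_piElt_irreducible h, fun {x} hx => ?_⟩
  have hx0 : (x : Ω) ≠ 0 := fun h0 => hx (Subtype.ext h0)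
  obtain ⟨k, ε, hε, hε', hε0, hxk⟩ := s26errc_exists_pow h hx0 x.2
  refine ⟨k, ?_⟩
  have hu : IsUnit (⟨ε, hε⟩ : ↥(s26errcVal h)) := s26errc_isUnit_of_inv_mem h ⟨ε, hε⟩ hε0 hε'
  refine ⟨hu.unit, Subtype.ext ?_⟩
  show s26errcPi π μ ^ k * ε = (x : Ω)
  exact hxk.symm

/-- **the Gauss ring is a discrete valuation ring** -/
theorem s26errc_isDVR : IsDiscreteValuationRing ↥(s26errcVal h) :=
  IsDiscreteValuationRing.ofHasUnitMulPowIrreducibleFactorization (s26errc_hasFactorization h)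

theorem s26errc_isPID : IsPrincipalIdealRing ↥(s26errcVal h) :=
  haveI := s26errc_isDVR h
  inferInstance

theorem s26errc_ne_top : s26errcVal h ≠ ⊤ := by
  intro htop
  apply s26errc_pi_inv_not_mem h
  rw [htop]
  exact ValuationSubring.mem_top _

/-- **the residue field is `E`**: every integral element is congruent to a constant mod `π` -/
theorem s26errc_residue {ω : Ω} (hω : ω ∈ s26errcVal h) :
    ∃ (c : E) (y : Ω), y ∈ s26errcVal h ∧ ω = μ ((1 : O) ⊗ₜ[K] c) + s26errcPi π μ * y := by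
  obtain ⟨a, u, hu, hωu⟩ := hω
  have hμu : μ u ≠ 0 := s26errc_mu_ne_zero h hu
  have hred : s26errcRed res (a - ((1 : O) ⊗ₜ[K] (s26errcRed res a / s26errcRed res u)) * u)
      = 0 := by
    rw [map_sub, map_mul, s26errcRed_tmul, map_one, map_one, one_mul,
      div_mul_cancel₀ _ hu, sub_self]
  obtain ⟨t₁, ht₁⟩ := s26errc_red_eq_zero h.ker _ hred
  refine ⟨s26errcRed res a / s26errcRed res u, μ t₁ * (μ u)⁻¹,
    mul_mem (s26errc_mu_mem h t₁) (s26errc_inv_mem h hu), ?_⟩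
  have e := congrArg μ ht₁
  rw [map_sub, map_mul, map_mul] at e
  have e' : μ a - μ ((1 : O) ⊗ₜ[K] (s26errcRed res a / s26errcRed res u)) * μ u =
      s26errcPi π μ * μ t₁ := e
  field_simp
  linear_combination hωu + e'

/-- **uniqueness**: a valuation ring of `Ω` containing `O` and `E` in which `π` is not
invertible is the Gauss ring. -/
theorem s26errc_unique (W : ValuationSubring Ω) (hW : ∀ t : O ⊗[K] E, μ t ∈ W)
    (hEW : ∀ c : E, c ≠ 0 → (μ ((1 : O) ⊗ₜ[K] c))⁻¹ ∈ W)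
    (hπW : (s26errcPi π μ)⁻¹ ∉ W) : W = s26errcVal h := by
  have hϖ : s26errcPi π μ ≠ 0 := h.pi_ne
  -- elements with nonzero reduction are units of `W`
  have hunit : ∀ u : O ⊗[K] E, s26errcRed res u ≠ 0 → (μ u)⁻¹ ∈ W := by
    intro u hu
    obtain ⟨t₁, ht₁⟩ := s26errc_eq_const_add (π := π) h.ker u
    have hc1 : W.valuation (μ ((1 : O) ⊗ₜ[K] (s26errcRed res u))) = 1 := by
      apply le_antisymm
      · exact (W.valuation_le_one_iff _).mpr (hW _)
      · have h1 := (W.valuation_le_one_iff _).mpr (hEW _ hu)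
        rw [map_inv₀] at h1
        have h0 : W.valuation (μ ((1 : O) ⊗ₜ[K] (s26errcRed res u))) ≠ 0 := by
          rw [Valuation.ne_zero_iff]
          intro h00
          have h2 : (1 : O) ⊗ₜ[K] (s26errcRed res u) = 0 := h.inj (by rw [h00, map_zero])
          have h3 := congrArg (s26errcRed res) h2
          rw [s26errcRed_tmul, map_one, map_one, one_mul, map_zero] at h3
          exact hu h3
        exact (inv_le_one₀ (zero_lt_iff.mpr h0)).mp h1
    have hπ1 : W.valuation (s26errcPi π μ * μ t₁) < 1 := by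
      have h1 : W.valuation (s26errcPi π μ) < 1 := by
        rw [← ValuationSubring.mem_nonunits_iff, ValuationSubring.mem_nonunits_iff_or]
        exact Or.inr hπW
      have h2 : W.valuation (μ t₁) ≤ 1 := (W.valuation_le_one_iff _).mpr (hW _)
      rw [map_mul]
      exact mul_lt_one_of_lt_of_le h1 h2
    have hu1 : W.valuation (μ u) = 1 := by
      have e : μ u = μ ((1 : O) ⊗ₜ[K] (s26errcRed res u)) + s26errcPi π μ * μ t₁ := by
        conv_lhs => rw [ht₁]
        rw [map_add, map_mul]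
        rfl
      rw [e, Valuation.map_add_eq_of_lt_left _ (by rw [hc1]; exact hπ1), hc1]
    rw [← W.valuation_le_one_iff, map_inv₀, hu1, inv_one]
  have hle : s26errcVal h ≤ W := by
    rintro ω ⟨a, u, hu, hωu⟩
    have hμu : μ u ≠ 0 := s26errc_mu_ne_zero h hu
    have e : ω = μ a * (μ u)⁻¹ := by
      rw [← hωu, mul_assoc, mul_inv_cancel₀ hμu, mul_one]
    rw [e]
    exact W.mul_mem _ _ (hW a) (hunit u hu)
  refine le_antisymm ?_ hle
  intro ω hω
  by_contra hnot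
  have hω0 : ω ≠ 0 := by
    rintro rfl
    exact hnot (s26errcVal h).zero_mem
  obtain ⟨k, ε, hε, hε', hε0, rfl⟩ := s26errc_exists_zpow h hω0
  have hk : ¬ 0 ≤ k := fun hk => hnot ((s26errc_zpow_mem_iff h k hε hε' hε0).mpr hk)
  have hk := not_le.mp hk
  obtain ⟨d, hd⟩ : ∃ d : ℕ, (d : ℤ) = -k - 1 := ⟨(-k - 1).toNat, Int.toNat_of_nonneg (by omega)⟩
  apply hπW
  have e : (s26errcPi π μ)⁻¹ = s26errcPi π μ ^ d * (s26errcPi π μ ^ k * ε) * ε⁻¹ := by
    rw [← zpow_natCast, hd, mul_assoc, mul_assoc, mul_inv_cancel₀ hε0, mul_one,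
      ← zpow_add₀ hϖ]
    have : -k - 1 + k = -1 := by ring
    rw [this, zpow_neg_one]
  rw [e]
  have hπmem : s26errcPi π μ ∈ W := hW _
  exact W.mul_mem _ _ (W.mul_mem _ _ (pow_mem hπmem d) hω) (hle hε')

end Field

end Fermat.Agent.S26
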