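/-
S26-E-RR-C (helper33), PLACE part: the Gauss place `P′` of `Ω = Frac(F ⊗_K E)` over `E` above a
place `P` of `F/K` with residue field `K` (prelude language `AlgebraicCurve.Place`).

Data: fields `K ⊆ F`, `K ⊆ E`, `Ω ⊇ F, E` (algebra instances + scalar towers over `K`) such that
`s26errcMuF : F ⊗[K] E → Ω` is injective (`hinj`) and `Ω` is generated as a field (`hgen`).

* `s26errcPlace P hP hinj hgen : Place E Ω`                      (the Gauss place)
* `s26errc_place_mem_iff`   : `algebraMap F Ω f ∈ P′ ↔ f ∈ P`         (C1, existence)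
* `s26errc_place_unique`    : a place of `Ω/E` restricting to `P` is `P′` (C1, uniqueness)
* `s26errc_place_deg`       : `P′.deg = 1`                            (C3)
* `s26errc_place_ord_algebraMap`, `s26errc_place_ord_const`, `s26errc_place_ord_sum` (C2)
-/
import Mathlib
import Fermat.Prelude.Def_AlgebraicCurve_DivisorClassGroup
import Fermat.Agent.S26.ERRCAbs

set_option autoImplicit false
set_option linter.unusedVariables false
set_option linter.unusedSectionVars false

namespace Fermat.Agent.S26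

open TensorProduct AlgebraicCurve

universe u

section PlaceC

variable {K F E Ω : Type u} [Field K] [Field F] [Field E] [Field Ω]
  [Algebra K F] [Algebra K E] [Algebra F Ω] [Algebra E Ω] [Algebra K Ω]
  [IsScalarTower K F Ω] [IsScalarTower K E Ω]

/-- the canonical map `F ⊗ E → Ω` -/
noncomputable def s26errcMuF (K F E Ω : Type u) [Field K] [Field F] [Field E] [Field Ω]
    [Algebra K F] [Algebra K E] [Algebra F Ω] [Algebra E Ω] [Algebra K Ω]
    [IsScalarTower K F Ω] [IsScalarTower K E Ω] : F ⊗[K] E →ₐ[K] Ω :=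
  Algebra.TensorProduct.productMap (IsScalarTower.toAlgHom K F Ω) (IsScalarTower.toAlgHom K E Ω)

theorem s26errcMuF_tmul (f : F) (c : E) :
    s26errcMuF K F E Ω (f ⊗ₜ[K] c) = algebraMap F Ω f * algebraMap E Ω c := rfl

variable (P : Place K F)

/-- the inclusion `O ⊗ E → F ⊗ E` -/
noncomputable def s26errcIncl (E : Type u) [Field E] [Algebra K E] (P : Place K F) :
    ↥P.toValuationSubring ⊗[K] E →ₐ[K] F ⊗[K] E :=
  Algebra.TensorProduct.map (IsScalarTower.toAlgHom K ↥P.toValuationSubring F) (AlgHom.id K E)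

theorem s26errcIncl_tmul (a : ↥P.toValuationSubring) (c : E) :
    s26errcIncl E P (a ⊗ₜ[K] c) = (a : F) ⊗ₜ[K] c := rfl

theorem s26errcIncl_injective : Function.Injective (s26errcIncl E P) := by
  have h1 : Function.Injective (IsScalarTower.toAlgHom K ↥P.toValuationSubring F).toLinearMap :=
    fun a b hab => Subtype.ext hab
  have h2 := Module.Flat.rTensor_preserves_injective_linearMap (M := E) _ h1
  have h3 : ⇑(s26errcIncl E P) =
      ⇑(LinearMap.rTensor E (IsScalarTower.toAlgHom K ↥P.toValuationSubring F).toLinearMap) := by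
    funext t
    induction t using TensorProduct.induction_on with
    | zero => simp
    | tmul a c => rfl
    | add x y hx hy => rw [map_add, map_add, hx, hy]
  rw [h3]
  exact h2

/-- the map `O ⊗ E → Ω` -/
noncomputable def s26errcMu (E Ω : Type u) [Field E] [Field Ω] [Algebra K E] [Algebra F Ω]
    [Algebra E Ω] [Algebra K Ω] [IsScalarTower K F Ω] [IsScalarTower K E Ω] (P : Place K F) :
    ↥P.toValuationSubring ⊗[K] E →+* Ω :=
  ((s26errcMuF K F E Ω).comp (s26errcIncl E P)).toRingHom

theorem s26errcMu_tmul (a : ↥P.toValuationSubring) (c : E) :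
    s26errcMu E Ω P (a ⊗ₜ[K] c) = algebraMap F Ω (a : F) * algebraMap E Ω c := rfl

theorem s26errcMu_apply (t : ↥P.toValuationSubring ⊗[K] E) :
    s26errcMu E Ω P t = s26errcMuF K F E Ω (s26errcIncl E P t) := rfl

/-- the residue map `O → K` of a place with residue field `K` -/
noncomputable def s26errcRes (hP : Function.Surjective (algebraMap K P.ResidueField)) :
    ↥P.toValuationSubring →ₐ[K] K :=
  ((AlgEquiv.ofBijective (Algebra.ofId K P.ResidueField)
    ⟨(algebraMap K P.ResidueField).injective, hP⟩).symm : P.ResidueField →ₐ[K] K).comp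
    (IsScalarTower.toAlgHom K ↥P.toValuationSubring P.ResidueField)

theorem s26errcRes_eq_zero_iff (hP : Function.Surjective (algebraMap K P.ResidueField))
    (a : ↥P.toValuationSubring) :
    s26errcRes P hP a = 0 ↔ a ∈ IsLocalRing.maximalIdeal ↥P.toValuationSubring := by
  rw [← IsLocalRing.residue_eq_zero_iff]
  change (AlgEquiv.ofBijective (Algebra.ofId K P.ResidueField)
    ⟨(algebraMap K P.ResidueField).injective, hP⟩).symm
      (IsLocalRing.residue ↥P.toValuationSubring a) = 0 ↔ _
  exact map_eq_zero_iff _ (AlgEquiv.injective _)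

/-- a uniformizer of `P` -/
noncomputable def s26errcUnif : ↥P.toValuationSubring :=
  (IsDiscreteValuationRing.exists_irreducible ↥P.toValuationSubring).choose

theorem s26errcUnif_irreducible : Irreducible (s26errcUnif P) :=
  (IsDiscreteValuationRing.exists_irreducible ↥P.toValuationSubring).choose_spec

theorem s26errc_mem_maximalIdeal_iff (a : ↥P.toValuationSubring) :
    a ∈ IsLocalRing.maximalIdeal ↥P.toValuationSubring ↔ ∃ a', a = s26errcUnif P * a' := by
  rw [(s26errcUnif_irreducible P).maximalIdeal_eq, Ideal.mem_span_singleton']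
  constructor
  · rintro ⟨a', rfl⟩
    exact ⟨a', mul_comm _ _⟩
  · rintro ⟨a', rfl⟩
    exact ⟨a', mul_comm _ _⟩

theorem s26errcUnif_coe_ne_zero : ((s26errcUnif P : ↥P.toValuationSubring) : F) ≠ 0 := by
  intro h0
  exact (s26errcUnif_irreducible P).ne_zero (Subtype.ext h0)

/-- clearing denominators: `πᵐ f ∈ O` -/
theorem s26errc_exists_pow_mul_mem (f : F) :
    ∃ (m : ℕ) (a : ↥P.toValuationSubring), ((s26errcUnif P : ↥P.toValuationSubring) : F) ^ m * f
      = (a : F) := by
  rcases P.toValuationSubring.mem_or_inv_mem f with hf | hf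
  · exact ⟨0, ⟨f, hf⟩, by rw [pow_zero, one_mul]⟩
  · by_cases hf0 : f = 0
    · exact ⟨0, 0, by rw [hf0, mul_zero]; rfl⟩
    have hb : (⟨f⁻¹, hf⟩ : ↥P.toValuationSubring) ≠ 0 := by
      intro h0
      exact inv_ne_zero hf0 (congrArg Subtype.val h0)
    obtain ⟨m, u, hu⟩ := IsDiscreteValuationRing.eq_unit_mul_pow_irreducible hb
      (s26errcUnif_irreducible P)
    refine ⟨m, ((u⁻¹ : (↥P.toValuationSubring)ˣ) : ↥P.toValuationSubring), ?_⟩
    have hu' : f⁻¹ = ((u : ↥P.toValuationSubring) : F) *
        ((s26errcUnif P : ↥P.toValuationSubring) : F) ^ m := congrArg Subtype.val hu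
    have huu : ((u : ↥P.toValuationSubring) : F) *
        (((u⁻¹ : (↥P.toValuationSubring)ˣ) : ↥P.toValuationSubring) : F) = 1 := by
      have := congrArg Subtype.val (Units.mul_inv u)
      exact this
    have hu0 : ((u : ↥P.toValuationSubring) : F) ≠ 0 := left_ne_zero_of_mul_eq_one huu
    have e : f = (((u : ↥P.toValuationSubring) : F) *
        ((s26errcUnif P : ↥P.toValuationSubring) : F) ^ m)⁻¹ := by
      rw [← hu', inv_inv]
    rw [e, mul_inv, ← mul_assoc, mul_comm _ (((u : ↥P.toValuationSubring) : F))⁻¹, mul_assoc,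
      mul_inv_cancel₀ (pow_ne_zero m (s26errcUnif_coe_ne_zero P)), mul_one]
    exact inv_eq_of_mul_eq_one_right huu

/-- clearing denominators in `F ⊗ E` -/
theorem s26errc_exists_pow_mul_incl (x : F ⊗[K] E) :
    ∃ (m : ℕ) (x' : ↥P.toValuationSubring ⊗[K] E),
      ((((s26errcUnif P : ↥P.toValuationSubring) : F) ^ m) ⊗ₜ[K] (1 : E)) * x
        = s26errcIncl E P x' := by
  induction x using TensorProduct.induction_on with
  | zero => exact ⟨0, 0, by rw [mul_zero, map_zero]⟩
  | tmul f c =>
    obtain ⟨m, a, ha⟩ := s26errc_exists_pow_mul_mem P f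
    refine ⟨m, a ⊗ₜ[K] c, ?_⟩
    rw [Algebra.TensorProduct.tmul_mul_tmul, one_mul, ha, s26errcIncl_tmul]
  | add x y hx hy =>
    obtain ⟨m₁, x', hx'⟩ := hx
    obtain ⟨m₂, y', hy'⟩ := hy
    refine ⟨m₁ + m₂, (((s26errcUnif P) ^ m₂) ⊗ₜ[K] (1 : E)) * x' +
      (((s26errcUnif P) ^ m₁) ⊗ₜ[K] (1 : E)) * y', ?_⟩
    have e1 : ((((s26errcUnif P : ↥P.toValuationSubring) : F) ^ (m₁ + m₂)) ⊗ₜ[K] (1 : E)) =
        ((((s26errcUnif P : ↥P.toValuationSubring) : F) ^ m₂) ⊗ₜ[K] (1 : E)) *
        ((((s26errcUnif P : ↥P.toValuationSubring) : F) ^ m₁) ⊗ₜ[K] (1 : E)) := by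
      rw [Algebra.TensorProduct.tmul_mul_tmul, one_mul, ← pow_add, add_comm]
    have e2 : ((((s26errcUnif P : ↥P.toValuationSubring) : F) ^ (m₁ + m₂)) ⊗ₜ[K] (1 : E)) =
        ((((s26errcUnif P : ↥P.toValuationSubring) : F) ^ m₁) ⊗ₜ[K] (1 : E)) *
        ((((s26errcUnif P : ↥P.toValuationSubring) : F) ^ m₂) ⊗ₜ[K] (1 : E)) := by
      rw [Algebra.TensorProduct.tmul_mul_tmul, one_mul, ← pow_add]
    rw [mul_add, map_add, map_mul, map_mul, ← hx', ← hy']
    congr 1
    · rw [e1, mul_assoc]
      rfl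
    · rw [e2, mul_assoc]
      rfl

variable (hP : Function.Surjective (algebraMap K P.ResidueField))
  (hinj : Function.Injective (s26errcMuF K F E Ω))
  (hgen : ∀ ω : Ω, ∃ x y : F ⊗[K] E, y ≠ 0 ∧
    ω * s26errcMuF K F E Ω y = s26errcMuF K F E Ω x)

theorem s26errcMu_pi :
    s26errcMu E Ω P ((s26errcUnif P) ⊗ₜ[K] (1 : E)) =
      algebraMap F Ω ((s26errcUnif P : ↥P.toValuationSubring) : F) := by
  rw [s26errcMu_tmul, map_one, mul_one]

include hinj hgen in
/-- the standing hypotheses of the abstract part hold -/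
theorem s26errc_hyp :
    S26errcHyp (s26errcRes P hP) (s26errcUnif P) (s26errcMu E Ω P) where
  ker := fun a ha =>
    (s26errc_mem_maximalIdeal_iff P a).mp ((s26errcRes_eq_zero_iff P hP a).mp ha)
  pi := (s26errcRes_eq_zero_iff P hP _).mpr
    ((s26errc_mem_maximalIdeal_iff P _).mpr ⟨1, (mul_one _).symm⟩)
  sep := fun a ha =>
    FiniteMultiplicity.of_not_isUnit (s26errcUnif_irreducible P).not_isUnit ha
  inj := fun x y hxy => s26errcIncl_injective P (hinj hxy)
  pi_ne := by
    rw [s26errcMu_pi]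
    exact (map_ne_zero (algebraMap F Ω)).mpr (s26errcUnif_coe_ne_zero P)
  gen := by
    intro ω
    obtain ⟨x, y, hy, hxy⟩ := hgen ω
    obtain ⟨m₁, x', hx'⟩ := s26errc_exists_pow_mul_incl (E := E) P x
    obtain ⟨m₂, y', hy'⟩ := s26errc_exists_pow_mul_incl (E := E) P y
    have hϖ : algebraMap F Ω ((s26errcUnif P : ↥P.toValuationSubring) : F) ≠ 0 :=
      (map_ne_zero (algebraMap F Ω)).mpr (s26errcUnif_coe_ne_zero P)
    have hμx : s26errcMu E Ω P x' =
        algebraMap F Ω ((s26errcUnif P : ↥P.toValuationSubring) : F) ^ m₁ *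
          s26errcMuF K F E Ω x := by
      rw [s26errcMu_apply, ← hx', map_mul, s26errcMuF_tmul, map_one, mul_one, map_pow]
    have hμy : s26errcMu E Ω P y' =
        algebraMap F Ω ((s26errcUnif P : ↥P.toValuationSubring) : F) ^ m₂ *
          s26errcMuF K F E Ω y := by
      rw [s26errcMu_apply, ← hy', map_mul, s26errcMuF_tmul, map_one, mul_one, map_pow]
    have hμy0 : s26errcMuF K F E Ω y ≠ 0 := by
      intro h0
      exact hy (hinj (by rw [h0, map_zero]))
    refine ⟨((s26errcUnif P) ⊗ₜ[K] (1 : E)) ^ m₂ * x',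
      ((s26errcUnif P) ⊗ₜ[K] (1 : E)) ^ m₁ * y', ?_, ?_⟩
    · intro h0
      have h1 := congrArg (s26errcMu E Ω P) h0
      rw [map_mul, map_pow, s26errcMu_pi, hμy, map_zero] at h1
      exact (mul_ne_zero (pow_ne_zero _ hϖ) (mul_ne_zero (pow_ne_zero _ hϖ) hμy0)) h1
    · rw [map_mul, map_mul, map_pow, map_pow, s26errcMu_pi, hμx, hμy]
      linear_combination
        (algebraMap F Ω ((s26errcUnif P : ↥P.toValuationSubring) : F) ^ m₁ *
          algebraMap F Ω ((s26errcUnif P : ↥P.toValuationSubring) : F) ^ m₂) * hxy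

/-- **the Gauss place** `P′` of `Ω/E` above `P` -/
noncomputable def s26errcPlace : Place E Ω where
  toValuationSubring := s26errcVal (s26errc_hyp P hP hinj hgen)
  algebraMap_mem' := fun c => by
    have e : algebraMap E Ω c = s26errcMu E Ω P ((1 : ↥P.toValuationSubring) ⊗ₜ[K] c) := by
      rw [s26errcMu_tmul]
      show _ = algebraMap F Ω (1 : F) * _
      rw [map_one, one_mul]
    rw [e]
    exact s26errc_mu_mem _ _
  ne_top' := s26errc_ne_top _
  isPrincipalIdealRing' := s26errc_isPID _

theorem s26errcPlace_toValuationSubring :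
    (s26errcPlace P hP hinj hgen).toValuationSubring =
      s26errcVal (s26errc_hyp P hP hinj hgen) := rfl

theorem s26errcPi_eq :
    s26errcPi (s26errcUnif P) (s26errcMu E Ω P) =
      algebraMap F Ω ((s26errcUnif P : ↥P.toValuationSubring) : F) := s26errcMu_pi P

theorem s26errcMu_left (a : ↥P.toValuationSubring) :
    s26errcMu E Ω P (a ⊗ₜ[K] (1 : E)) = algebraMap F Ω (a : F) := by
  rw [s26errcMu_tmul, map_one, mul_one]

theorem s26errcMu_right (c : E) :
    s26errcMu E Ω P ((1 : ↥P.toValuationSubring) ⊗ₜ[K] c) = algebraMap E Ω c := by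
  rw [s26errcMu_tmul]
  show algebraMap F Ω (1 : F) * _ = _
  rw [map_one, one_mul]

/-- **(C1), existence**: `P′` restricts to `P` on `F` -/
theorem s26errc_place_mem_iff (f : F) :
    algebraMap F Ω f ∈ (s26errcPlace P hP hinj hgen).toValuationSubring ↔
      f ∈ P.toValuationSubring := by
  constructor
  · intro hmem
    by_contra hf
    have hf' : f⁻¹ ∈ P.toValuationSubring := (P.toValuationSubring.mem_or_inv_mem f).resolve_left hf
    have hf0 : f ≠ 0 := by
      rintro rfl
      exact hf P.toValuationSubring.zero_mem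
    have hnu : (⟨f⁻¹, hf'⟩ : ↥P.toValuationSubring) ∈
        IsLocalRing.maximalIdeal ↥P.toValuationSubring := by
      rw [IsLocalRing.mem_maximalIdeal, mem_nonunits_iff]
      intro hu
      obtain ⟨y, hy⟩ := isUnit_iff_exists_inv.mp hu
      have h1 : f⁻¹ * (y : F) = 1 := congrArg Subtype.val hy
      have h2 : (y : F) = f := by
        have := inv_eq_of_mul_eq_one_right h1
        rw [inv_inv] at this
        exact this.symm
      exact hf (h2 ▸ y.2)
    obtain ⟨a', ha'⟩ := (s26errc_mem_maximalIdeal_iff P _).mp hnu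
    have ha'F : f⁻¹ = ((s26errcUnif P : ↥P.toValuationSubring) : F) * (a' : F) :=
      congrArg Subtype.val ha'
    have ha'0 : (a' : F) ≠ 0 := by
      intro h0
      rw [h0, mul_zero] at ha'F
      exact inv_ne_zero hf0 ha'F
    have e : algebraMap F Ω f =
        (s26errcPi (s26errcUnif P) (s26errcMu E Ω P) * s26errcMu E Ω P (a' ⊗ₜ[K] (1 : E)))⁻¹ := by
      rw [s26errcPi_eq, s26errcMu_left, ← map_mul, ← ha'F, map_inv₀, inv_inv]
    rw [e] at hmem
    refine s26errc_pi_mul_inv_not_mem (s26errc_hyp P hP hinj hgen) (s26errc_mu_mem _ _) ?_ hmem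
    rw [s26errcMu_left]
    exact (map_ne_zero (algebraMap F Ω)).mpr ha'0
  · intro hf
    have e : algebraMap F Ω f = s26errcMu E Ω P ((⟨f, hf⟩ : ↥P.toValuationSubring) ⊗ₜ[K] (1 : E)) :=
      (s26errcMu_left (E := E) (Ω := Ω) P (⟨f, hf⟩ : ↥P.toValuationSubring)).symm
    rw [e]
    exact s26errc_mu_mem (s26errc_hyp P hP hinj hgen) _

/-- **(C1), uniqueness**: a place of `Ω/E` restricting to `P` is the Gauss place -/
theorem s26errc_place_unique (w : Place E Ω)
    (hw : ∀ f : F, algebraMap F Ω f ∈ w.toValuationSubring ↔ f ∈ P.toValuationSubring) :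
    w = s26errcPlace P hP hinj hgen := by
  apply Place.ext
  rw [s26errcPlace_toValuationSubring]
  apply s26errc_unique
  · intro t
    induction t using TensorProduct.induction_on with
    | zero =>
      rw [map_zero]
      exact w.toValuationSubring.zero_mem
    | tmul a c =>
      rw [s26errcMu_tmul]
      exact w.toValuationSubring.mul_mem _ _ ((hw _).mpr a.2) (w.algebraMap_mem' c)
    | add x y hx hy =>
      rw [map_add]
      exact w.toValuationSubring.add_mem _ _ hx hy
  · intro c hc
    rw [s26errcMu_right, ← map_inv₀]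
    exact w.algebraMap_mem' _
  · rw [s26errcPi_eq, ← map_inv₀, hw]
    intro hmem
    apply (s26errcUnif_irreducible P).not_isUnit
    exact isUnit_iff_exists_inv.mpr ⟨⟨_, hmem⟩,
      Subtype.ext (mul_inv_cancel₀ (s26errcUnif_coe_ne_zero P))⟩

/-- the uniformizer of the Gauss place -/
noncomputable def s26errcPlacePi : ↥(s26errcPlace P hP hinj hgen).toValuationSubring :=
  s26errcPiElt (s26errc_hyp P hP hinj hgen)

theorem s26errcPlacePi_coe :
    ((s26errcPlacePi P hP hinj hgen : ↥(s26errcPlace P hP hinj hgen).toValuationSubring) : Ω) =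
      algebraMap F Ω ((s26errcUnif P : ↥P.toValuationSubring) : F) := s26errcMu_pi P

theorem s26errcPlacePi_irreducible : Irreducible (s26errcPlacePi P hP hinj hgen) :=
  s26errc_piElt_irreducible (s26errc_hyp P hP hinj hgen)

/-- **(C3)**: the Gauss place has degree `1` (residue field `E`) -/
theorem s26errc_place_deg : (s26errcPlace P hP hinj hgen).deg = 1 := by
  show Module.finrank E (s26errcPlace P hP hinj hgen).ResidueField = 1
  rw [Algebra.finrank_eq_one_iff_bijective_algebraMap]
  refine ⟨(algebraMap E (s26errcPlace P hP hinj hgen).ResidueField).injective, ?_⟩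
  intro z
  obtain ⟨x, rfl⟩ := IsLocalRing.residue_surjective z
  obtain ⟨c, y, hy, hxy⟩ := s26errc_residue (s26errc_hyp P hP hinj hgen) x.2
  refine ⟨c, ?_⟩
  have e1 : algebraMap E (s26errcPlace P hP hinj hgen).ResidueField c =
      IsLocalRing.residue _ (algebraMap E (s26errcPlace P hP hinj hgen).toValuationSubring c) :=
    rfl
  rw [e1, ← sub_eq_zero, ← map_sub, IsLocalRing.residue_eq_zero_iff]
  have hπ : s26errcPlacePi P hP hinj hgen ∈
      IsLocalRing.maximalIdeal ↥(s26errcPlace P hP hinj hgen).toValuationSubring := by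
    rw [IsLocalRing.mem_maximalIdeal, mem_nonunits_iff]
    exact (s26errcPlacePi_irreducible P hP hinj hgen).not_isUnit
  have e2 : algebraMap E (s26errcPlace P hP hinj hgen).toValuationSubring c - x =
      s26errcPlacePi P hP hinj hgen *
        (⟨-y, neg_mem hy⟩ : ↥(s26errcPlace P hP hinj hgen).toValuationSubring) := by
    apply Subtype.ext
    show algebraMap E Ω c - (x : Ω) = s26errcPi (s26errcUnif P) (s26errcMu E Ω P) * (-y)
    rw [hxy, s26errcMu_right]
    ring
  rw [e2]
  exact Ideal.mul_mem_right _ _ hπ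

end PlaceC

end Fermat.Agent.S26
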