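import Fermat.Agent.DEU.AnchorCore
import Fermat.Agent.DEU.RedSpace

/-!
# S26-E, E-RED half B: the anchor of a constant reduction, by a dimension count (abstract form)

`Γ/K` is a function field, `F/L` and `Fb/k` are two "constant extensions" of it
(`ιF : Γ →+* F`, `ιk : Γ →+* Fb`), with conorm maps `con : Place K Γ → Place L F` and
`conk : Place K Γ → Place k Fb`, and `R : DEU.RedData L F k Fb` is a constant reduction of `F/L`
to `Fb/k` which is the identity on `Γ` (`red (ιF u) = ιk u`).

* `s26erb_map_mem_rr` : `u ∈ L_K(B) ⇒ ι u ∈ L(Con B)`.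
* `s26erb_core` : for an effective divisor `D` of `Γ/K`, a place `Q` of `Fb/k` at which all
  functions of `⋃_M L_K(M·D)` are regular, and `g ∈ O ∩ L_F(Con D)`: `red g` is regular at `Q`.
  Proof: the spaces `red (L_F(Con (M·D)))` have dimension `≤ M·deg D + 1` and contain the image of
  `L_K(M·D)`, of dimension `≥ M·deg D + 1 - γ` and regular at `Q`; a pole of `red g` at `Q` would
  make the powers `(red g)^j`, `1 ≤ j ≤ γ + 1`, independent modulo the functions regular at `Q`.
* `s26erb_anchor` : `red (L_F(Con B)) ≤ L_Fb(Con_k B)` for every divisor `B` of `Γ/K`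
  (the generalized anchor; `DEU.Hyp.anchor` is the case `B = m·P₀`).
-/

set_option autoImplicit false

open AlgebraicCurve Module Polynomial

namespace Fermat.Agent.S26

open Fermat.Agent.S24 Fermat.Agent.DEU Fermat.Agent.ES.R

variable {K Γ L F : Type*} [Field K] [Field Γ] [Algebra K Γ] [Field L] [Field F] [Algebra L F]

/-- the conorm of divisors is monotone -/
theorem s26erb_mapDomain_mono (con : Place K Γ → Place L F) (hinj : Function.Injective con)
    {B D : Divisor K Γ} (h : B ≤ D) :
    (Finsupp.mapDomain con B : Divisor L F) ≤ Finsupp.mapDomain con D := by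
  rw [Finsupp.le_def]
  intro P
  by_cases hP : P ∈ Set.range con
  · obtain ⟨Q, rfl⟩ := hP
    rw [Finsupp.mapDomain_apply hinj, Finsupp.mapDomain_apply hinj]
    exact Finsupp.le_def.mp h Q
  · rw [Finsupp.mapDomain_of_notMem_range _ _ hP, Finsupp.mapDomain_of_notMem_range _ _ hP]

/-- `u ∈ L_K(B) ⇒ ι u ∈ L(Con B)`. -/
theorem s26erb_map_mem_rr (ι : Γ →+* F) (con : Place K Γ → Place L F)
    (hinj : Function.Injective con)
    (hord : ∀ (Q : Place K Γ) (u : Γ), (con Q).ord (ι u) = Q.ord u)
    (hpole : ∀ (u : Γ) (P : Place L F), P.ord (ι u) < 0 → ∃ Q, P = con Q)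
    (B : Divisor K Γ) {u : Γ} (hu : u ∈ riemannRochSpace B) :
    ι u ∈ riemannRochSpace (Finsupp.mapDomain con B : Divisor L F) := by
  rw [mem_riemannRochSpace_iff] at hu ⊢
  intro P
  by_cases hP : P ∈ Set.range con
  · obtain ⟨Q, rfl⟩ := hP
    rw [Finsupp.mapDomain_apply hinj, hord]
    rcases hu Q with h | h
    · left; rw [h, map_zero]
    · right; exact h
  · right
    rw [Finsupp.mapDomain_of_notMem_range _ _ hP, neg_zero]
    by_contra hlt
    push Not at hlt
    obtain ⟨Q, rfl⟩ := hpole u P hlt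
    exact hP ⟨Q, rfl⟩

/-- powers of a function of `L(E)`, `E ≥ 0` -/
theorem s26erb_pow_mem_rr {E : Divisor L F} (hE : 0 ≤ E) {g : F} (hg : g ∈ riemannRochSpace E)
    {n M : ℕ} (hn : n ≤ M) : g ^ n ∈ riemannRochSpace (M • E) := by
  rw [mem_riemannRochSpace_iff] at hg ⊢
  intro P
  have hEP : 0 ≤ E P := by simpa using Finsupp.le_def.mp hE P
  have hnM : (n : ℤ) ≤ M := by exact_mod_cast hn
  right
  rw [deuAnchor_ord_pow, Finsupp.smul_apply, nsmul_eq_mul]
  rcases hg P with h | h
  · rw [h, Place.ord_zero, mul_zero]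
    have : (0 : ℤ) ≤ (M : ℤ) * E P := by positivity
    linarith
  · have h1 : (n : ℤ) * (-E P) ≤ n * P.ord g := by
      apply mul_le_mul_of_nonneg_left h; positivity
    have h2 : (n : ℤ) * E P ≤ M * E P := mul_le_mul_of_nonneg_right hnM hEP
    linarith

section core

variable {k Fb : Type*} [Field k] [Field Fb] [Algebra k Fb]

/-- the powers `w, w², …` of a function with a pole at `Q` are independent of the functions
regular at `Q`, over the constants -/
theorem s26erb_linearIndependent_sum (Q : Place k Fb) {t J : ℕ} (v : Fin t → Fb)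
    (hv : LinearIndependent k v) (hvQ : ∀ i, v i ∈ Q.toValuationSubring) {w : Fb}
    (hw : w ∉ Q.toValuationSubring) :
    LinearIndependent k (Sum.elim v (fun j : Fin J => w ^ ((j : ℕ) + 1))) := by
  classical
  have hw0 : w ≠ 0 := fun h => hw (h ▸ Q.toValuationSubring.zero_mem)
  have hordw : Q.ord w < 0 := by
    by_contra hge
    push Not at hge
    exact hw ((PlaceAux.ord_nonneg_iff Q hw0).mp hge)
  rw [Fintype.linearIndependent_iff]
  intro c hc
  rw [Fintype.sum_sum_type] at hc
  simp only [Sum.elim_inl, Sum.elim_inr] at hc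
  set p : k[X] := ∑ j : Fin J, C (c (Sum.inr j)) * X ^ ((j : ℕ) + 1) with hp
  have haev : aeval w p = ∑ j : Fin J, c (Sum.inr j) • w ^ ((j : ℕ) + 1) := by
    rw [hp, map_sum]
    refine Finset.sum_congr rfl fun j _ => ?_
    rw [map_mul, aeval_C, map_pow, aeval_X, Algebra.smul_def]
  have hcoeff0 : p.coeff 0 = 0 := by
    rw [hp, finsetSum_coeff]
    refine Finset.sum_eq_zero fun j _ => ?_
    rw [coeff_C_mul_X_pow, if_neg (by omega)]
  have hcoeff : ∀ j₀ : Fin J, p.coeff ((j₀ : ℕ) + 1) = c (Sum.inr j₀) := by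
    intro j₀
    rw [hp, finsetSum_coeff]
    rw [Finset.sum_eq_single j₀]
    · rw [coeff_C_mul_X_pow, if_pos rfl]
    · intro j _ hj
      rw [coeff_C_mul_X_pow, if_neg]
      intro h
      apply hj
      apply Fin.ext
      omega
    · intro h; exact absurd (Finset.mem_univ _) h
  have hS : (∑ i : Fin t, c (Sum.inl i) • v i) ∈ Q.toValuationSubring := by
    refine Subring.sum_mem _ fun i _ => ?_
    rw [Algebra.smul_def]
    exact mul_mem (Q.algebraMap_mem' _) (hvQ i)
  have hp0 : p = 0 := by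
    by_contra hpne
    obtain ⟨hne, hord⟩ := deuAnchor_ord_aeval Q hordw p hpne
    have hmem : aeval w p ∈ Q.toValuationSubring := by
      have : aeval w p = -(∑ i : Fin t, c (Sum.inl i) • v i) := by
        rw [haev]; exact eq_neg_of_add_eq_zero_right hc
      rw [this]
      exact neg_mem hS
    have hge := (PlaceAux.ord_nonneg_iff Q hne).mpr hmem
    rw [hord] at hge
    have hdeg : p.natDegree = 0 := by
      by_contra hd
      have hd' : (1 : ℤ) ≤ p.natDegree := by
        have : 1 ≤ p.natDegree := Nat.one_le_iff_ne_zero.mpr hd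
        exact_mod_cast this
      nlinarith
    apply hpne
    rw [eq_C_of_natDegree_eq_zero hdeg, hcoeff0, map_zero]
  have hcr : ∀ j : Fin J, c (Sum.inr j) = 0 := by
    intro j
    rw [← hcoeff j, hp0, coeff_zero]
  have hsum0 : ∑ i : Fin t, c (Sum.inl i) • v i = 0 := by
    have : ∑ j : Fin J, c (Sum.inr j) • w ^ ((j : ℕ) + 1) = 0 :=
      Finset.sum_eq_zero fun j _ => by rw [hcr j, zero_smul]
    rw [this, add_zero] at hc
    exact hc
  have hcl := (Fintype.linearIndependent_iff.mp hv) (fun i => c (Sum.inl i)) hsum0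
  rintro (i | j)
  · exact hcl i
  · exact hcr j

/-- **The core of the anchor.** -/
theorem s26erb_core (R : RedData L F k Fb) (ιF : Γ →+* F) (ιk : Γ →+* Fb)
    (hO : ∀ u, ιF u ∈ R.O) (hred : ∀ u, R.red ⟨ιF u, hO u⟩ = ιk u)
    (con : Place K Γ → Place L F) (hcon : Function.Injective con)
    (hordF : ∀ (Q : Place K Γ) (u : Γ), (con Q).ord (ιF u) = Q.ord u)
    (hpoleF : ∀ (u : Γ) (P : Place L F), P.ord (ιF u) < 0 → ∃ Q, P = con Q)
    (hfinF : ∀ D : Divisor K Γ,
      Module.Finite L ↥(riemannRochSpace (Finsupp.mapDomain con D : Divisor L F)))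
    (hdimF : ∀ D : Divisor K Γ, 0 ≤ D →
      (finrank L ↥(riemannRochSpace (Finsupp.mapDomain con D : Divisor L F)) : ℤ) ≤
        Divisor.degree D + 1)
    (γ : ℕ) (hfinK : ∀ D : Divisor K Γ, Module.Finite K ↥(riemannRochSpace D))
    (hriem : ∀ D : Divisor K Γ,
      Divisor.degree D + 1 - γ ≤ (finrank K ↥(riemannRochSpace D) : ℤ))
    (hld : ∀ (n : ℕ) (v : Fin n → Γ), LinearIndependent K v →
      LinearIndependent k (fun i => ιk (v i)))
    (D : Divisor K Γ) (hD : 0 ≤ D) (Q : Place k Fb)
    (hQ : ∀ (M : ℕ) (u : Γ), u ∈ riemannRochSpace (M • D) → ιk u ∈ Q.toValuationSubring)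
    (g : R.O) (hg : (g : F) ∈ riemannRochSpace (Finsupp.mapDomain con D : Divisor L F)) :
    R.red g ∈ Q.toValuationSubring := by
  classical
  by_contra hw
  set J : ℕ := γ + 1 with hJ
  set T : Submodule K Γ := riemannRochSpace (J • D) with hT
  have : Module.Finite K T := hfinK _
  set t : ℕ := finrank K T with ht
  let b : Basis (Fin t) K T := Module.finBasis K T
  let v : Fin t → Γ := fun i => (b i : Γ)
  have hv : LinearIndependent K v := b.linearIndependent.map' T.subtype (Submodule.ker_subtype _)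
  have hvk : LinearIndependent k (fun i => ιk (v i)) := hld t v hv
  have hvQ : ∀ i, ιk (v i) ∈ Q.toValuationSubring := fun i => hQ J (v i) (b i).2
  have hli := s26erb_linearIndependent_sum (J := J) Q (fun i => ιk (v i)) hvk hvQ hw
  -- the lifts
  let f : Fin t ⊕ Fin J → R.O := Sum.elim (fun i => ⟨ιF (v i), hO _⟩) (fun j => g ^ ((j : ℕ) + 1))
  have hfred : (fun x => R.red (f x)) =
      Sum.elim (fun i => ιk (v i)) (fun j : Fin J => R.red g ^ ((j : ℕ) + 1)) := by
    funext x
    rcases x with i | j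
    · exact hred _
    · exact map_pow _ _ _
  have hliF : LinearIndependent L (fun x => ((f x : R.O) : F)) := by
    apply R.linearIndependent_of_red f
    rw [hfred]
    exact hli
  set W : Submodule L F := riemannRochSpace (Finsupp.mapDomain con (J • D) : Divisor L F) with hW
  have : Module.Finite L W := hfinF _
  have hE : (0 : Divisor L F) ≤ Finsupp.mapDomain con D := by
    have := s26erb_mapDomain_mono con hcon hD
    rwa [Finsupp.mapDomain_zero] at this
  have hmem : ∀ x, ((f x : R.O) : F) ∈ W := by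
    rintro (i | j)
    · exact s26erb_map_mem_rr ιF con hcon hordF hpoleF _ (b i).2
    · show ((g ^ ((j : ℕ) + 1) : R.O) : F) ∈ W
      rw [hW, Finsupp.mapDomain_smul, Subring.coe_pow]
      exact s26erb_pow_mem_rr hE hg (by have := j.2; omega)
  have hliW : LinearIndependent L (fun x => (⟨(f x : F), hmem x⟩ : W)) := by
    refine LinearIndependent.of_comp W.subtype ?_
    exact hliF
  have hcard := hliW.fintype_card_le_finrank
  rw [Fintype.card_sum, Fintype.card_fin, Fintype.card_fin] at hcard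
  have h1 := hdimF (J • D) (nsmul_nonneg hD J)
  have h2 := hriem (J • D)
  rw [map_nsmul] at h1 h2
  have hcard' : ((t : ℤ) + J) ≤ (finrank L W : ℤ) := by exact_mod_cast hcard
  have hJ' : (J : ℤ) = γ + 1 := by rw [hJ]; push_cast; ring
  have ht' : (finrank K ↥(riemannRochSpace (J • D)) : ℤ) = t := rfl
  rw [ht'] at h2
  rw [← hW] at h1
  linarith

end core

section anchor

variable {k Fb : Type*} [Field k] [Field Fb] [Algebra k Fb]

/-- a uniformizer at a place -/
theorem s26erb_exists_ord_one (P : Place K Γ) : ∃ t : Γ, t ≠ 0 ∧ P.ord t = 1 := by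
  obtain ⟨π, hπ⟩ := IsDiscreteValuationRing.exists_irreducible P.toValuationSubring
  refine ⟨(π : Γ), ?_, P.ord_coe_irreducible hπ⟩
  intro h
  exact hπ.ne_zero (Subtype.ext h)

/-- the absolute value of a divisor -/
noncomputable def s26erbAbs (B : Divisor K Γ) : Divisor K Γ :=
  Finsupp.mapRange (fun n : ℤ => |n|) abs_zero B

theorem s26erbAbs_apply (B : Divisor K Γ) (P : Place K Γ) : s26erbAbs B P = |B P| := by
  rw [s26erbAbs, Finsupp.mapRange_apply]

theorem s26erbAbs_nonneg (B : Divisor K Γ) : 0 ≤ s26erbAbs B := by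
  rw [Finsupp.le_def]
  intro P
  rw [s26erbAbs_apply]
  exact abs_nonneg _

theorem s26erb_le_abs (B : Divisor K Γ) : B ≤ s26erbAbs B := by
  rw [Finsupp.le_def]
  intro P
  rw [s26erbAbs_apply]
  exact le_abs_self _

/-- **The generalized anchor**: `red (L_F(Con B)) ≤ L_Fb(Con_k B)`. -/
theorem s26erb_anchor [HasPrincipalDivisors K Γ]
    (R : RedData L F k Fb) (ιF : Γ →+* F) (ιk : Γ →+* Fb)
    (hO : ∀ u, ιF u ∈ R.O) (hred : ∀ u, R.red ⟨ιF u, hO u⟩ = ιk u)
    (con : Place K Γ → Place L F) (hcon : Function.Injective con)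
    (hordF : ∀ (Q : Place K Γ) (u : Γ), (con Q).ord (ιF u) = Q.ord u)
    (hpoleF : ∀ (u : Γ) (P : Place L F), P.ord (ιF u) < 0 → ∃ Q, P = con Q)
    (conk : Place K Γ → Place k Fb) (hconk : Function.Injective conk)
    (hordk : ∀ (Q : Place K Γ) (u : Γ), (conk Q).ord (ιk u) = Q.ord u)
    (hpolek : ∀ (u : Γ) (P : Place k Fb), P.ord (ιk u) < 0 → ∃ Q, P = conk Q)
    (hfinF : ∀ D : Divisor K Γ,
      Module.Finite L ↥(riemannRochSpace (Finsupp.mapDomain con D : Divisor L F)))
    (hdimF : ∀ D : Divisor K Γ, 0 ≤ D →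
      (finrank L ↥(riemannRochSpace (Finsupp.mapDomain con D : Divisor L F)) : ℤ) ≤
        Divisor.degree D + 1)
    (γ : ℕ) (hfinK : ∀ D : Divisor K Γ, Module.Finite K ↥(riemannRochSpace D))
    (hriem : ∀ D : Divisor K Γ,
      Divisor.degree D + 1 - γ ≤ (finrank K ↥(riemannRochSpace D) : ℤ))
    (hld : ∀ (n : ℕ) (v : Fin n → Γ), LinearIndependent K v →
      LinearIndependent k (fun i => ιk (v i)))
    (B : Divisor K Γ) :
    R.redSpace (riemannRochSpace (Finsupp.mapDomain con B : Divisor L F)) ≤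
      riemannRochSpace (Finsupp.mapDomain conk B : Divisor k Fb) := by
  classical
  rintro _ ⟨g, hg, rfl⟩
  rw [mem_riemannRochSpace_iff]
  intro Q'
  by_cases hg0 : R.red g = 0
  · exact Or.inl hg0
  right
  have hgF0 : (g : F) ≠ 0 := R.coe_ne_zero_of_red_ne_zero hg0
  by_cases hQ' : Q' ∈ Set.range conk
  · -- a Gauss place
    obtain ⟨P, rfl⟩ := hQ'
    rw [Finsupp.mapDomain_apply hconk]
    obtain ⟨t, ht0, ht⟩ := s26erb_exists_ord_one P
    obtain ⟨Z, hZ, -⟩ := HasPrincipalDivisors.exists_divisor (K := K) t ht0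
    set b : ℤ := B P with hb
    set B' : Divisor K Γ := B - b • Z with hB'
    have hB'P : B' P = 0 := by
      rw [hB', Finsupp.sub_apply, Finsupp.smul_apply, hZ, ht, smul_eq_mul, mul_one, hb, sub_self]
    set D : Divisor K Γ := s26erbAbs B' with hD
    have htb0 : t ^ b ≠ 0 := zpow_ne_zero _ ht0
    let g' : R.O := g * ⟨ιF (t ^ b), hO _⟩
    have hg'F : ((g' : R.O) : F) = (g : F) * ιF (t ^ b) := rfl
    have hιtb0 : ιF (t ^ b) ≠ 0 := (map_ne_zero ιF).mpr htb0
    have hg'mem : ((g' : R.O) : F) ∈ riemannRochSpace (Finsupp.mapDomain con D : Divisor L F) := by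
      rw [hg'F, mem_riemannRochSpace_iff]
      intro P'
      right
      rw [P'.ord_mul hgF0 hιtb0]
      have hgP' := ((mem_riemannRochSpace_iff).mp hg P').resolve_left hgF0
      by_cases hP' : P' ∈ Set.range con
      · obtain ⟨Q, rfl⟩ := hP'
        rw [Finsupp.mapDomain_apply hcon] at hgP' ⊢
        rw [hordF, Place.ord_zpow, ← hZ, hD, s26erbAbs_apply, hB', Finsupp.sub_apply,
          Finsupp.smul_apply, smul_eq_mul]
        have := le_abs_self (B Q - b * Z Q)
        linarith
      · rw [Finsupp.mapDomain_of_notMem_range _ _ hP'] at hgP' ⊢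
        have h2 : 0 ≤ P'.ord (ιF (t ^ b)) := by
          by_contra hlt
          push Not at hlt
          obtain ⟨Q, rfl⟩ := hpoleF _ P' hlt
          exact hP' ⟨Q, rfl⟩
        linarith
    have hQ : ∀ (M : ℕ) (u : Γ), u ∈ riemannRochSpace (M • D) →
        ιk u ∈ (conk P).toValuationSubring := by
      intro M u hu
      by_cases hu0 : u = 0
      · rw [hu0, map_zero]; exact zero_mem _
      have hιu0 : ιk u ≠ 0 := (map_ne_zero ιk).mpr hu0
      refine (PlaceAux.ord_nonneg_iff (conk P) hιu0).mp ?_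
      rw [hordk]
      have h1 := ((mem_riemannRochSpace_iff).mp hu P).resolve_left hu0
      rw [Finsupp.smul_apply, hD, s26erbAbs_apply, hB'P, abs_zero, smul_zero, neg_zero] at h1
      exact h1
    have hcore := s26erb_core R ιF ιk hO hred con hcon hordF hpoleF hfinF hdimF γ hfinK hriem hld
      D (s26erbAbs_nonneg B') (conk P) hQ g' hg'mem
    have hredg' : R.red g' = R.red g * ιk (t ^ b) := by
      show R.red (g * ⟨ιF (t ^ b), hO _⟩) = _
      rw [map_mul, hred]
    rw [hredg'] at hcore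
    have hιk0 : ιk (t ^ b) ≠ 0 := (map_ne_zero ιk).mpr htb0
    have hge := (PlaceAux.ord_nonneg_iff (conk P) (mul_ne_zero hg0 hιk0)).mpr hcore
    rw [(conk P).ord_mul hg0 hιk0, hordk, Place.ord_zpow, ht, mul_one] at hge
    linarith
  · -- a place which is not a Gauss place
    rw [Finsupp.mapDomain_of_notMem_range _ _ hQ', neg_zero]
    have hgD : (g : F) ∈ riemannRochSpace (Finsupp.mapDomain con (s26erbAbs B) : Divisor L F) :=
      rr_mono (s26erb_mapDomain_mono con hcon (s26erb_le_abs B)) hg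
    have hQ : ∀ (M : ℕ) (u : Γ), u ∈ riemannRochSpace (M • s26erbAbs B) →
        ιk u ∈ Q'.toValuationSubring := by
      intro M u _
      by_cases hu0 : u = 0
      · rw [hu0, map_zero]; exact zero_mem _
      have hιu0 : ιk u ≠ 0 := (map_ne_zero ιk).mpr hu0
      refine (PlaceAux.ord_nonneg_iff Q' hιu0).mp ?_
      by_contra hlt
      push Not at hlt
      obtain ⟨Q, rfl⟩ := hpolek u Q' hlt
      exact hQ' ⟨Q, rfl⟩
    have hcore := s26erb_core R ιF ιk hO hred con hcon hordF hpoleF hfinF hdimF γ hfinK hriem hld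
      (s26erbAbs B) (s26erbAbs_nonneg B) Q' hQ g hgD
    exact (PlaceAux.ord_nonneg_iff Q' hg0).mpr hcore

end anchor

end Fermat.Agent.S26
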