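/-
S26, wall (E), piece **E-RED**, half B, part (Bd) (helper12, for helper17/helper28):
**Riemann's inequality for a constant extension `F / L` of `Γ / K`**, abstract form.

`Γ / K` a function field, `F / L` a "constant extension" (`ι : Γ →+* F`, conorm
`con : Place K Γ → Place L F`), all places of degree one on both sides.
* `s26erq_finrank_le` : `dim_K L_K(B) ≤ dim_L L_F(Con B)`  (from the linear disjointness `hld`).
* **`s26erq_riemann`** : Riemann's inequality for `Γ / K` with the constant `γ` gives Riemann's
  inequality for `F / L` with the SAME constant `γ`  (= field `riemann` of `DEU.Hyp`).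
  Proof: `B_n = Con (n·P₀)` has degree `n` and `dim_L L_F(B_n) ≥ dim_K L_K(n·P₀) ≥ n + 1 - γ`;
  then `ES.R.riemann_transfer`.
The hypotheses `ι, con, hinj, hord, hpole, hld` are those of helper17's `s26erb_anchor`.
-/
import Fermat.Agent.S26.ERedBootA
import Fermat.Agent.ES.RiemannGeneric

set_option autoImplicit false

open AlgebraicCurve Module

namespace Fermat.Agent.S26

open Fermat.Agent.S24 Fermat.Agent.DEU Fermat.Agent.ES.R

variable {K Γ L F : Type*} [Field K] [Field Γ] [Algebra K Γ] [Field L] [Field F] [Algebra L F]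

/-- `dim_K L_K(B) ≤ dim_L L_F(Con B)` -/
theorem s26erq_finrank_le (ι : Γ →+* F) (con : Place K Γ → Place L F)
    (hinj : Function.Injective con)
    (hord : ∀ (Q : Place K Γ) (u : Γ), (con Q).ord (ι u) = Q.ord u)
    (hpole : ∀ (u : Γ) (P : Place L F), P.ord (ι u) < 0 → ∃ Q, P = con Q)
    (hld : ∀ (n : ℕ) (v : Fin n → Γ), LinearIndependent K v →
      LinearIndependent L (fun i => ι (v i)))
    (B : Divisor K Γ) (hfinK : Module.Finite K ↥(riemannRochSpace B))
    (hfinF : Module.Finite L ↥(riemannRochSpace (Finsupp.mapDomain con B : Divisor L F))) :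
    finrank K ↥(riemannRochSpace B) ≤
      finrank L ↥(riemannRochSpace (Finsupp.mapDomain con B : Divisor L F)) := by
  classical
  let b := Module.finBasis K ↥(riemannRochSpace B)
  have hv : LinearIndependent K (fun i => ((b i : ↥(riemannRochSpace B)) : Γ)) :=
    b.linearIndependent.map' (Submodule.subtype _) (Submodule.ker_subtype _)
  have hL := hld _ _ hv
  let w : Fin (finrank K ↥(riemannRochSpace B)) →
      ↥(riemannRochSpace (Finsupp.mapDomain con B : Divisor L F)) :=
    fun i => ⟨ι (b i), s26erb_map_mem_rr ι con hinj hord hpole B (b i).2⟩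
  have hw : LinearIndependent L w :=
    LinearIndependent.of_comp (Submodule.subtype _) hL
  have h := hw.fintype_card_le_finrank
  simpa using h

/-- **(Bd): Riemann's inequality for `F / L`** from Riemann's inequality for `Γ / K`, with the
same constant. -/
theorem s26erq_riemann [HasPrincipalDivisors L F]
    (hresF : ∀ v : Place L F, Function.Bijective (algebraMap L v.ResidueField))
    (hresK : ∀ v : Place K Γ, Function.Bijective (algebraMap K v.ResidueField))
    (ι : Γ →+* F) (con : Place K Γ → Place L F)
    (hinj : Function.Injective con)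
    (hord : ∀ (Q : Place K Γ) (u : Γ), (con Q).ord (ι u) = Q.ord u)
    (hpole : ∀ (u : Γ) (P : Place L F), P.ord (ι u) < 0 → ∃ Q, P = con Q)
    (hld : ∀ (n : ℕ) (v : Fin n → Γ), LinearIndependent K v →
      LinearIndependent L (fun i => ι (v i)))
    (γ : ℤ) (hfinK : ∀ D : Divisor K Γ, Module.Finite K ↥(riemannRochSpace D))
    (hriem : ∀ D : Divisor K Γ,
      Divisor.degree D + 1 - γ ≤ (finrank K ↥(riemannRochSpace D) : ℤ))
    (P₀ : Place K Γ) (𝔞 : Divisor L F) :
    Divisor.degree 𝔞 + 1 - γ ≤ (finrank L ↥(riemannRochSpace 𝔞) : ℤ) := by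
  refine riemann_transfer hresF γ (fun m => ?_) 𝔞
  set B : Divisor K Γ := Finsupp.single P₀ (m.toNat : ℤ) with hB
  have hdegB : Divisor.degree B = (m.toNat : ℤ) := by
    rw [hB, Divisor.degree_single, place_deg_eq_one P₀ (hresK P₀)]
    simp
  have hdegC : Divisor.degree (Finsupp.mapDomain con B : Divisor L F) = (m.toNat : ℤ) := by
    rw [hB, Finsupp.mapDomain_single, Divisor.degree_single,
      place_deg_eq_one (con P₀) (hresF (con P₀))]
    simp
  refine ⟨Finsupp.mapDomain con B, ?_, ?_⟩
  · rw [hdegC]
    exact Int.self_le_toNat m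
  · have h1 := hriem B
    have h2 := s26erq_finrank_le ι con hinj hord hpole hld B (hfinK B)
      (rr_finite (con P₀) hresF _)
    rw [hdegC]
    rw [hdegB] at h1
    have h3 : (finrank K ↥(riemannRochSpace B) : ℤ) ≤
        (finrank L ↥(riemannRochSpace (Finsupp.mapDomain con B : Divisor L F)) : ℤ) := by
      exact_mod_cast h2
    linarith

end Fermat.Agent.S26
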