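/-
S26-E, piece E-RIG, step 2 (helper97): steps 4–6 of (c) (NOTES/S26-E-RIG-plan.md) in ELEMENTARY
valuation language (prelude `Place`, no DEU, no scheme).

`K ⊆ Γ` (function field of one variable), `K ⊆ L` (algebraically closed in the application),
`F ⊇ Γ, L` (`= Frac(Γ·L)`).  `S` a finite set of places of `Γ/K` (`= supp E₀`), `P` a place of `F/L`.

* `S26erigHV S P V` : the statement (H_V) for one valuation subring `V` of `L`:
  every `u ∈ Γ` regular on `S` is regular at `P`, and its value at `P` is congruent modulo `𝔪_V`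
  to its value at some `Q ∈ S`.
* `s26erig_value_const` (step 4, uses CONST′ = `s26erig_rigid`): (H_V) for all `V` centred at
  `z = 0` and for one `V ⊇ M` ⇒ the value at `P` of every `u` regular on `S` IS its value at some
  `Q ∈ S`.
* `s26erig_place_const` (step 5): then `P ∩ Γ = O_Q` for some `Q ∈ S`.
* `s26erig_divisor_const` (step 6): an effective divisor `D` of `F/L` all of whose places lie over
  `S`, with `r_* D = Con_k E₀` for one reduction `r`, is `Con E₀`.
* `s26erig_A` : steps 4–6 together.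
-/
import Fermat.Prelude.Def_AlgebraicCurve_DivisorClassGroup
import Fermat.Agent.S26.ERigCore

set_option autoImplicit false
set_option linter.unusedSectionVars false

namespace Fermat.Agent.S26

open AlgebraicCurve IsLocalRing

section Val

variable {Ω : Type*} [Field Ω]

/-- `𝔪_V` is an ideal of `V`, elementwise. -/
theorem s26erig_mul_mem_nonunits (V : ValuationSubring Ω) {x y : Ω} (hx : x ∈ V)
    (hy : y ∈ V.nonunits) : x * y ∈ V.nonunits := by
  rw [ValuationSubring.mem_nonunits_iff] at hy ⊢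
  rw [map_mul]
  have hx1 : V.valuation x ≤ 1 := (V.valuation_le_one_iff x).2 hx
  calc V.valuation x * V.valuation y ≤ 1 * V.valuation y := mul_le_mul_left hx1 _
    _ = V.valuation y := one_mul _
    _ < 1 := hy

theorem s26erig_nonunits_mem (V : ValuationSubring Ω) {x : Ω} (hx : x ∈ V.nonunits) : x ∈ V :=
  (ValuationSubring.mem_nonunits_iff_exists_mem_maximalIdeal.1 hx).1

/-- a finite product of elements of `V`, one of which lies in `𝔪_V`, lies in `𝔪_V`. -/
theorem s26erig_prod_mem_nonunits {ι : Type*} (V : ValuationSubring Ω) (s : Finset ι)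
    (a : ι → Ω) (ha : ∀ i ∈ s, a i ∈ V) (i₀ : ι) (hi₀ : i₀ ∈ s) (h₀ : a i₀ ∈ V.nonunits) :
    ∏ i ∈ s, a i ∈ V.nonunits := by
  classical
  rw [← Finset.mul_prod_erase s a hi₀, mul_comm]
  refine s26erig_mul_mem_nonunits V ?_ h₀
  exact Subring.prod_mem V.toSubring (fun i hi => ha i (Finset.mem_of_mem_erase hi))

/-- a constant which is a non-unit is zero. -/
theorem s26erig_const_nonunit {k : Type*} [Field k] (j : k →+* Ω) (V : ValuationSubring Ω)
    (hV : ∀ a, j a ∈ V) (a : k) (h : j a ∈ V.nonunits) : a = 0 := by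
  have := s26erig_eq_of_sub_mem_nonunits j V hV a 0 (by rwa [map_zero, sub_zero])
  exact this

end Val

variable {K Γ L F : Type*} [Field K] [Field Γ] [Field L] [Field F]
  [Algebra K Γ] [Algebra K L] [Algebra Γ F] [Algebra L F] [Algebra K F]
  [IsScalarTower K Γ F] [IsScalarTower K L F]

/-- **(H_V)**: for the valuation subring `V` of `L`: every `u ∈ Γ` regular on `S` is regular at
`P`, and its value `c ∈ L` at `P` is congruent modulo `𝔪_V` to its value `c₀ ∈ K` at some
`Q ∈ S`. -/
def S26erigHV (S : Finset (Place K Γ)) (P : Place L F) (V : ValuationSubring L) : Prop :=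
  ∀ u : Γ, (∀ Q ∈ S, u ∈ Q.toValuationSubring) →
    algebraMap Γ F u ∈ P.toValuationSubring ∧
    ∀ c : L, algebraMap Γ F u - algebraMap L F c ∈ P.toValuationSubring.nonunits →
      ∃ Q ∈ S, ∀ c₀ : K, u - algebraMap K Γ c₀ ∈ Q.toValuationSubring.nonunits →
        c - algebraMap K L c₀ ∈ V.nonunits

/-- **Step 4.**  (H_V) for all `V` centred at `z = 0` (dominating `j (i R₀)`) and for one
`V ⊇ j M`, `M` algebraically closed in `L` ⇒ every `u ∈ Γ` regular on `S` is regular at `P` and
its value at `P` is its value at some `Q ∈ S`. -/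
theorem s26erig_value_const {R₀ M : Type*} [CommRing R₀] [IsLocalRing R₀] [Field M]
    (i : R₀ →+* M) (j : M →+* L)
    (hM : ∀ x : L, j.IsIntegralElem x → x ∈ j.range)
    (hKR : ∀ a : K, ∃ r : R₀, j (i r) = algebraMap K L a)
    (S : Finset (Place K Γ)) (P : Place L F)
    (hresP : ∀ x ∈ P.toValuationSubring, ∃ c : L,
      x - algebraMap L F c ∈ P.toValuationSubring.nonunits)
    (hresS : ∀ Q ∈ S, ∀ u ∈ Q.toValuationSubring, ∃ c₀ : K,
      u - algebraMap K Γ c₀ ∈ Q.toValuationSubring.nonunits)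
    (hz : ∀ V : ValuationSubring L, (∀ r, j (i r) ∈ V) →
      (∀ r ∈ maximalIdeal R₀, j (i r) ∈ V.nonunits) → S26erigHV S P V)
    (hy : ∃ V : ValuationSubring L, (∀ m, j m ∈ V) ∧ S26erigHV S P V)
    (u : Γ) (hu : ∀ Q ∈ S, u ∈ Q.toValuationSubring) :
    algebraMap Γ F u ∈ P.toValuationSubring ∧
      ∃ Q ∈ S, ∃ c₀ : K, u - algebraMap K Γ c₀ ∈ Q.toValuationSubring.nonunits ∧
        algebraMap Γ F u - algebraMap K F c₀ ∈ P.toValuationSubring.nonunits := by
  classical
  obtain ⟨V₁, hV₁M, hV₁⟩ := hy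
  have huP : algebraMap Γ F u ∈ P.toValuationSubring := (hV₁ u hu).1
  refine ⟨huP, ?_⟩
  obtain ⟨c, hc⟩ := hresP _ huP
  -- the values of `u` on `S`
  choose! val hval using fun Q (hQ : Q ∈ S) => hresS Q hQ u (hu Q hQ)
  have hKV : ∀ V : ValuationSubring L, (∀ r, j (i r) ∈ V) → ∀ a : K, algebraMap K L a ∈ V := by
    intro V hV a
    obtain ⟨r, hr⟩ := hKR a
    rw [← hr]
    exact hV r
  have hKM : ∀ a : K, ∃ m : M, j m = algebraMap K L a := fun a => by
    obtain ⟨r, hr⟩ := hKR a
    exact ⟨i r, hr⟩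
  -- the product
  set β : L := ∏ Q ∈ S, (c - algebraMap K L (val Q)) with hβ
  have key : ∀ V : ValuationSubring L, (∀ a : K, algebraMap K L a ∈ V) → S26erigHV S P V →
      β ∈ V.nonunits := by
    intro V hKV' hHV
    obtain ⟨Q, hQ, hQc⟩ := (hHV u hu).2 c hc
    have h1 : c - algebraMap K L (val Q) ∈ V.nonunits := hQc (val Q) (hval Q hQ)
    have hcV : c ∈ V := by
      have := V.add_mem _ _ (s26erig_nonunits_mem V h1) (hKV' (val Q))
      simpa using this
    refine s26erig_prod_mem_nonunits V S _ (fun Q' _ => ?_) Q hQ h1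
    exact V.sub_mem hcV (hKV' _)
  have hβ0 : β = j 0 := by
    refine s26erig_rigid i j hM β 0 ?_ ?_
    · intro V h1 h2
      rw [map_zero, sub_zero]
      exact key V (hKV V h1) (hz V h1 h2)
    · refine ⟨V₁, hV₁M, ?_⟩
      rw [map_zero, sub_zero]
      refine key V₁ (fun a => ?_) hV₁
      obtain ⟨m, hm⟩ := hKM a
      rw [← hm]
      exact hV₁M m
  rw [map_zero, hβ, Finset.prod_eq_zero_iff] at hβ0
  obtain ⟨Q, hQ, hQ0⟩ := hβ0
  refine ⟨Q, hQ, val Q, hval Q hQ, ?_⟩
  have hcQ : c = algebraMap K L (val Q) := sub_eq_zero.1 hQ0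
  have : algebraMap K F (val Q) = algebraMap L F c := by
    rw [hcQ, ← IsScalarTower.algebraMap_apply]
  rw [this]
  exact hc

/-- **Step 5.**  If every `u ∈ Γ` regular on `S` is regular at `P` with a constant value, then
`P ∩ Γ` is the valuation ring of a place `Q ∈ S`. -/
theorem s26erig_place_const (S : Finset (Place K Γ)) (P : Place L F)
    (hcomp : ∀ W : ValuationSubring Γ, (∀ a : K, algebraMap K Γ a ∈ W) → W ≠ ⊤ →
      ∃ Q : Place K Γ, Q.toValuationSubring = W)
    (hpole : ∀ Q : Place K Γ, Q ∉ S →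
      ∃ u : Γ, u ∉ Q.toValuationSubring ∧ ∀ Q' ∈ S, u ∈ Q'.toValuationSubring)
    (hnc : ∃ u : Γ, (∀ Q' ∈ S, u ∈ Q'.toValuationSubring) ∧ ∀ a : K, u ≠ algebraMap K Γ a)
    (hval : ∀ u : Γ, (∀ Q ∈ S, u ∈ Q.toValuationSubring) →
      algebraMap Γ F u ∈ P.toValuationSubring ∧
        ∃ c₀ : K, algebraMap Γ F u - algebraMap K F c₀ ∈ P.toValuationSubring.nonunits) :
    ∃ Q ∈ S, P.toValuationSubring.comap (algebraMap Γ F) = Q.toValuationSubring := by
  set W : ValuationSubring Γ := P.toValuationSubring.comap (algebraMap Γ F) with hW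
  have hKW : ∀ a : K, algebraMap K Γ a ∈ W := by
    intro a
    rw [hW, ValuationSubring.mem_comap, ← IsScalarTower.algebraMap_apply,
      IsScalarTower.algebraMap_apply K L F]
    exact P.algebraMap_mem' _
  have hWtop : W ≠ ⊤ := by
    intro htop
    obtain ⟨u, hu, hunc⟩ := hnc
    obtain ⟨-, c₀, hc₀⟩ := hval u hu
    have hne : u - algebraMap K Γ c₀ ≠ 0 := sub_ne_zero.2 (hunc c₀)
    have hinv : (u - algebraMap K Γ c₀)⁻¹ ∈ W := by rw [htop]; exact ValuationSubring.mem_top _
    rw [hW, ValuationSubring.mem_comap, map_inv₀, map_sub,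
      ← IsScalarTower.algebraMap_apply] at hinv
    rw [ValuationSubring.mem_nonunits_iff_or] at hc₀
    rcases hc₀ with h0 | h0
    · apply hne
      have : algebraMap Γ F (u - algebraMap K Γ c₀) = 0 := by
        rw [map_sub, ← IsScalarTower.algebraMap_apply]
        exact h0
      exact (map_eq_zero _).1 this
    · exact h0 hinv
  obtain ⟨Q, hQ⟩ := hcomp W hKW hWtop
  refine ⟨Q, ?_, hQ.symm⟩
  by_contra hQS
  obtain ⟨u, huQ, huS⟩ := hpole Q hQS
  apply huQ
  rw [hQ, hW, ValuationSubring.mem_comap]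
  exact (hval u huS).1

omit [Algebra K L] [Algebra Γ F] [Algebra K F] [IsScalarTower K Γ F] [IsScalarTower K L F] in
/-- **Step 6.**  A divisor `D` of `F/L` supported on constant places, whose reduction by `r` is
`Con_k E₀`, is `Con E₀`. -/
theorem s26erig_divisor_const {k Fb : Type*} [Field k] [Field Fb] [Algebra k Fb]
    (con : Place K Γ → Place L F) (conk : Place K Γ → Place k Fb) (r : Place L F → Place k Fb)
    (hrc : ∀ Q, r (con Q) = conk Q) (hinj : Function.Injective conk)
    (D : Divisor L F) (E₀ : Divisor K Γ)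
    (hsupp : ∀ P, D P ≠ 0 → ∃ Q, P = con Q)
    (hmult : Finsupp.mapDomain r D = Finsupp.mapDomain conk E₀) :
    D = Finsupp.mapDomain con E₀ := by
  classical
  have hcinj : Function.Injective con := by
    intro Q Q' h
    apply hinj
    rw [← hrc, ← hrc, h]
  have hrange : (D.support : Set (Place L F)) ⊆ Set.range con := by
    intro P hP
    obtain ⟨Q, rfl⟩ := hsupp P (Finsupp.mem_support_iff.1 hP)
    exact ⟨Q, rfl⟩
  have hD : Finsupp.mapDomain con (Finsupp.comapDomain con D hcinj.injOn) = D :=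
    Finsupp.mapDomain_comapDomain con hcinj D hrange
  have hcomp : r ∘ con = conk := funext hrc
  have h1 : Finsupp.mapDomain conk (Finsupp.comapDomain con D hcinj.injOn) =
      Finsupp.mapDomain conk E₀ := by
    rw [← hmult, ← hcomp, Finsupp.mapDomain_comp, hD]
  have h2 := Finsupp.mapDomain_injective hinj h1
  rw [← hD, h2]

/-- **E-RIG, steps 4–6.**  Let `D ≥ 0` be a divisor of `F/L` such that (H_V) holds at every
place of its support, for every valuation subring `V` of `L` centred at `z = 0` and for one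
`V ⊇ M`; let `r` be ONE reduction with `r_* D = Con_k E₀`.  Then `D = Con E₀`. -/
theorem s26erig_A {R₀ M : Type*} [CommRing R₀] [IsLocalRing R₀] [Field M]
    (i : R₀ →+* M) (j : M →+* L)
    (hM : ∀ x : L, j.IsIntegralElem x → x ∈ j.range)
    (hKR : ∀ a : K, ∃ r : R₀, j (i r) = algebraMap K L a)
    (E₀ : Divisor K Γ) (D : Divisor L F)
    (hresF : ∀ P : Place L F, ∀ x ∈ P.toValuationSubring, ∃ c : L,
      x - algebraMap L F c ∈ P.toValuationSubring.nonunits)
    (hresΓ : ∀ Q : Place K Γ, ∀ u ∈ Q.toValuationSubring, ∃ c₀ : K,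
      u - algebraMap K Γ c₀ ∈ Q.toValuationSubring.nonunits)
    (hcomp : ∀ W : ValuationSubring Γ, (∀ a : K, algebraMap K Γ a ∈ W) → W ≠ ⊤ →
      ∃ Q : Place K Γ, Q.toValuationSubring = W)
    (hpole : ∀ Q : Place K Γ, Q ∉ E₀.support →
      ∃ u : Γ, u ∉ Q.toValuationSubring ∧ ∀ Q' ∈ E₀.support, u ∈ Q'.toValuationSubring)
    (hnc : ∃ u : Γ, (∀ Q' ∈ E₀.support, u ∈ Q'.toValuationSubring) ∧
      ∀ a : K, u ≠ algebraMap K Γ a)
    (hz : ∀ P : Place L F, D P ≠ 0 → ∀ V : ValuationSubring L, (∀ r, j (i r) ∈ V) →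
      (∀ r ∈ maximalIdeal R₀, j (i r) ∈ V.nonunits) → S26erigHV E₀.support P V)
    (hy : ∀ P : Place L F, D P ≠ 0 →
      ∃ V : ValuationSubring L, (∀ m, j m ∈ V) ∧ S26erigHV E₀.support P V)
    {k Fb : Type*} [Field k] [Field Fb] [Algebra k Fb]
    (con : Place K Γ → Place L F) (conk : Place K Γ → Place k Fb) (r : Place L F → Place k Fb)
    (hcon : ∀ (P : Place L F) (Q : Place K Γ),
      P.toValuationSubring.comap (algebraMap Γ F) = Q.toValuationSubring → P = con Q)
    (hrc : ∀ Q, r (con Q) = conk Q) (hinj : Function.Injective conk)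
    (hmult : Finsupp.mapDomain r D = Finsupp.mapDomain conk E₀) :
    D = Finsupp.mapDomain con E₀ := by
  refine s26erig_divisor_const con conk r hrc hinj D E₀ (fun P hP => ?_) hmult
  have h4 := s26erig_value_const i j hM hKR E₀.support P (hresF P)
    (fun Q _ => hresΓ Q) (hz P hP) (hy P hP)
  obtain ⟨Q, -, hQ⟩ := s26erig_place_const E₀.support P hcomp hpole hnc (fun u hu => by
    obtain ⟨h1, Q, -, c₀, -, h2⟩ := h4 u hu
    exact ⟨h1, c₀, h2⟩)
  exact ⟨Q, hcon P Q hQ⟩

end Fermat.Agent.S26
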