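/-
S26-E-SPEC, piece (B2b) (helper58): the SCHEME SIDE of steps (1) and (2) of (SPEC), on
`S26/ESpecB2.lean` (helper5's interface `S26/EMPlan.lean` + Prelude places).  No DEU, no E-PT.

`X` integral locally noetherian, `U ⊂ X` open, `hD : S26emLocData U`, `F / L` a function field,
`x x' : Spec F ⟶ X`, `P` a place, `ψ : R ⟶ F` a local ring with `ord_P ∘ ψ = 0` on units,
`φ φ' : Spec R ⟶ X` extensions of `x`, `x'`.

* `s26espfLoc x hx h`   : the value `ev_x (h|_{|x|}) ∈ F` of `h ∈ O_{X,c}` at `x`, for `|x| ⤳ c`.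
* `s26espfLoc_mul/_one` : multiplicativity.
* `s26espfLoc_isUnit`   : the value of a local equation is a unit of `F` if `|x| ∈ U`.
* `s26espfLoc_trans`    : `ev_x ((h|_ξ)|_{|x|}) = ev_x (h|_{|x|})`.
* `s26espf_ord_eq_of_specializes` : **step (2)**: if the centre of `φ` specialises to `c` and `h`
  is a local equation at `c`, then `ord_P (ψ (gen φ)) = ord_P (ev_x h)`.
* `s26espf_ord_sub`     : **step (2), difference form**:
  `ord_P (ψ (gen φ)) - ord_P (ψ (gen φ')) = ord_P (ev_x h / ev_{x'} h)`.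
* `s26espf_loc_factor`  : **step (1)**: for `ξ ⤳ c`, `h₀` a local equation at `ξ`, `h` one at `c`,
  there is a unit `u` of `O_{X,ξ}` with `ev_x h = ev_x h₀ * ev_x u` for EVERY `x` with `|x| ⤳ ξ`.
* `s26espf_Phi_factor`  : hence `ev_x h / ev_{x'} h = (ev_x h₀ / ev_{x'} h₀) * (ev_x u / ev_{x'} u)`.
-/
import Fermat.Agent.S26.ESpecB2

set_option autoImplicit false
set_option linter.style.haveILetI false
set_option linter.unusedVariables false
set_option linter.unusedSectionVars false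

noncomputable section

namespace Fermat.Agent.S26

open AlgebraicGeometry CategoryTheory TopologicalSpace AlgebraicCurve

universe u v

variable {X : Scheme.{u}}

section Loc

variable {F : Type u} [Field F]

/-- the value at `x : Spec F ⟶ X` of `h ∈ O_{X,c}`, for `|x| ⤳ c`. -/
def s26espfLoc (x : Spec (CommRingCat.of F) ⟶ X) {c : X} (hx : s26emCentre x ⤳ c)
    (h : X.presheaf.stalk c) : F :=
  s26emEv x ((X.presheaf.stalkSpecializes hx).hom h)

theorem s26espfLoc_mul (x : Spec (CommRingCat.of F) ⟶ X) {c : X} (hx : s26emCentre x ⤳ c)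
    (h h' : X.presheaf.stalk c) :
    s26espfLoc x hx (h * h') = s26espfLoc x hx h * s26espfLoc x hx h' := by
  unfold s26espfLoc
  rw [map_mul, map_mul]

theorem s26espfLoc_one (x : Spec (CommRingCat.of F) ⟶ X) {c : X} (hx : s26emCentre x ⤳ c) :
    s26espfLoc x hx (1 : X.presheaf.stalk c) = 1 := by
  unfold s26espfLoc
  rw [map_one, map_one]

theorem s26espfLoc_isUnit_of_isUnit (x : Spec (CommRingCat.of F) ⟶ X) {c : X}
    (hx : s26emCentre x ⤳ c) {h : X.presheaf.stalk c} (hu : IsUnit h) :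
    IsUnit (s26espfLoc x hx h) :=
  (hu.map (X.presheaf.stalkSpecializes hx).hom).map (s26emEv x)

theorem s26espfLoc_unit_ne_zero (x : Spec (CommRingCat.of F) ⟶ X) {c : X}
    (hx : s26emCentre x ⤳ c) (u : (X.presheaf.stalk c)ˣ) :
    s26espfLoc x hx (u : X.presheaf.stalk c) ≠ 0 :=
  (s26espfLoc_isUnit_of_isUnit x hx u.isUnit).ne_zero

/-- transitivity: the value of `h|_ξ` is the value of `h`. -/
theorem s26espfLoc_trans (x : Spec (CommRingCat.of F) ⟶ X) {ξ c : X}
    (hx : s26emCentre x ⤳ ξ) (hξ : ξ ⤳ c) (h : X.presheaf.stalk c) :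
    s26espfLoc x hx ((X.presheaf.stalkSpecializes hξ).hom h) =
      s26espfLoc x (hx.trans hξ) h := by
  unfold s26espfLoc
  have := TopCat.Presheaf.stalkSpecializes_comp X.presheaf hx hξ
  rw [← this]
  rfl

variable [IsIntegral X] [IsLocallyNoetherian X] {U : X.Opens}

/-- the value of a local equation at `x` is a unit of `F` if `|x| ∈ U`. -/
theorem s26espfLoc_isUnit (hD : S26emLocData U) (x : Spec (CommRingCat.of F) ⟶ X) {c : X}
    (hx : s26emCentre x ⤳ c) {h : X.presheaf.stalk c} (hh : S26emIsLocEq U c h)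
    (hxU : s26emCentre x ∈ U) : IsUnit (s26espfLoc x hx h) := by
  have h1 := s26em_locEq_specializes hh hx
  have h2 : IsUnit ((X.presheaf.stalkSpecializes hx).hom h) := (hD.isUnit_iff _ _ h1).2 hxU
  exact h2.map (s26emEv x)

theorem s26espfLoc_ne_zero (hD : S26emLocData U) (x : Spec (CommRingCat.of F) ⟶ X) {c : X}
    (hx : s26emCentre x ⤳ c) {h : X.presheaf.stalk c} (hh : S26emIsLocEq U c h)
    (hxU : s26emCentre x ∈ U) : s26espfLoc x hx h ≠ 0 :=
  (s26espfLoc_isUnit hD x hx hh hxU).ne_zero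

/-- **step (1)**: two local equations `h₀` at `ξ` and `h` at `c`, `ξ ⤳ c`, differ at every
`x` with `|x| ⤳ ξ` by the value of ONE unit `u` of `O_{X,ξ}`. -/
theorem s26espf_loc_factor (hD : S26emLocData U) {ξ c : X} (hξ : ξ ⤳ c)
    {h₀ : X.presheaf.stalk ξ} (hh₀ : S26emIsLocEq U ξ h₀)
    {h : X.presheaf.stalk c} (hh : S26emIsLocEq U c h) :
    ∃ u : (X.presheaf.stalk ξ)ˣ, (X.presheaf.stalkSpecializes hξ).hom h = h₀ * u ∧
      ∀ (x : Spec (CommRingCat.of F) ⟶ X) (hx : s26emCentre x ⤳ ξ),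
        s26espfLoc x (hx.trans hξ) h =
          s26espfLoc x hx h₀ * s26espfLoc x hx (u : X.presheaf.stalk ξ) := by
  have h1 := s26em_locEq_specializes hh hξ
  obtain ⟨u, hu⟩ := hD.associated ξ h₀ _ hh₀ h1
  refine ⟨u, hu.symm, fun x hx => ?_⟩
  rw [← s26espfLoc_trans x hx hξ h, ← hu, s26espfLoc_mul]

/-- **step (1)**, quotient form: `Φ = Φ₀ · ε` with `ε = ev_x u / ev_{x'} u`. -/
theorem s26espf_Phi_factor (hD : S26emLocData U) {ξ c : X} (hξ : ξ ⤳ c)
    {h₀ : X.presheaf.stalk ξ} (hh₀ : S26emIsLocEq U ξ h₀)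
    {h : X.presheaf.stalk c} (hh : S26emIsLocEq U c h) :
    ∃ u : (X.presheaf.stalk ξ)ˣ, (X.presheaf.stalkSpecializes hξ).hom h = h₀ * u ∧
      ∀ (x x' : Spec (CommRingCat.of F) ⟶ X) (hx : s26emCentre x ⤳ ξ)
        (hx' : s26emCentre x' ⤳ ξ),
        s26espfLoc x (hx.trans hξ) h / s26espfLoc x' (hx'.trans hξ) h =
          (s26espfLoc x hx h₀ / s26espfLoc x' hx' h₀) *
            (s26espfLoc x hx (u : X.presheaf.stalk ξ) /
              s26espfLoc x' hx' (u : X.presheaf.stalk ξ)) := by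
  obtain ⟨u, hu, hfac⟩ := s26espf_loc_factor (F := F) hD hξ hh₀ hh
  refine ⟨u, hu, fun x x' hx hx' => ?_⟩
  rw [hfac x hx, hfac x' hx', mul_div_mul_comm]

end Loc

section Ord

variable [IsIntegral X] [IsLocallyNoetherian X] {U : X.Opens}
variable {L : Type v} {F : Type u} [Field L] [Field F] [Algebra L F]

/-- `ord_P (a / b) = ord_P a - ord_P b`. -/
theorem s26espf_ord_div (P : Place L F) {a b : F} (ha : a ≠ 0) (hb : b ≠ 0) :
    P.ord (a / b) = P.ord a - P.ord b := by
  rw [div_eq_mul_inv, Place.ord_mul P ha (inv_ne_zero hb), Place.ord_inv, sub_eq_add_neg]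

/-- **step (2)**: if the centre of `φ` specialises to `c` and `h` is a local equation at `c`, then
`ord_P (ψ (gen φ)) = ord_P (ev_x h)`. -/
theorem s26espf_ord_eq_of_specializes (hD : S26emLocData U) (P : Place L F)
    {R : CommRingCat.{u}} [IsLocalRing R] (ψ : R ⟶ CommRingCat.of F)
    (hψ : ∀ v : R, IsUnit v → P.ord (ψ.hom v) = 0)
    (φ : Spec R ⟶ X) (x : Spec (CommRingCat.of F) ⟶ X) (hφ : Spec.map ψ ≫ φ = x)
    {c : X} (hc : s26emCentre φ ⤳ c) {h : X.presheaf.stalk c} (hh : S26emIsLocEq U c h)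
    (hx : s26emCentre x ⤳ c) :
    P.ord (ψ.hom (s26emGen U φ)) = P.ord (s26espfLoc x hx h) := by
  unfold s26espfLoc
  refine s26espf_ord_eq hD P ψ hψ φ x hφ (s26em_locEq_specializes hh hc) ?_
  rw [s26em_algebraMap_stalkSpecializes, s26em_algebraMap_stalkSpecializes]

/-- the centre of `x` specialises to the centre of every extension `φ`. -/
theorem s26espf_centre_specializes {R : CommRingCat.{u}} [IsLocalRing R]
    (ψ : R ⟶ CommRingCat.of F) (φ : Spec R ⟶ X) (x : Spec (CommRingCat.of F) ⟶ X)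
    (hφ : Spec.map ψ ≫ φ = x) : s26emCentre x ⤳ s26emCentre φ := by
  subst hφ
  exact s26em_centre_specializes ψ φ

/-- **step (2), difference form**: for two points `x`, `x'` with extensions `φ`, `φ'` whose
centres both specialise to `c`, and a local equation `h` at `c`:
`ord_P (gen φ) - ord_P (gen φ') = ord_P (ev_x h / ev_{x'} h)`. -/
theorem s26espf_ord_sub (hD : S26emLocData U) (P : Place L F)
    {R : CommRingCat.{u}} [IsLocalRing R] (ψ : R ⟶ CommRingCat.of F)
    (hψ : ∀ v : R, IsUnit v → P.ord (ψ.hom v) = 0)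
    (φ φ' : Spec R ⟶ X) (x x' : Spec (CommRingCat.of F) ⟶ X)
    (hφ : Spec.map ψ ≫ φ = x) (hφ' : Spec.map ψ ≫ φ' = x')
    {c : X} (hc : s26emCentre φ ⤳ c) (hc' : s26emCentre φ' ⤳ c)
    {h : X.presheaf.stalk c} (hh : S26emIsLocEq U c h)
    (hx : s26emCentre x ⤳ c) (hx' : s26emCentre x' ⤳ c)
    (hxU : s26emCentre x ∈ U) (hx'U : s26emCentre x' ∈ U) :
    P.ord (ψ.hom (s26emGen U φ)) - P.ord (ψ.hom (s26emGen U φ')) =
      P.ord (s26espfLoc x hx h / s26espfLoc x' hx' h) := by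
  rw [s26espf_ord_div P (s26espfLoc_ne_zero hD x hx hh hxU)
      (s26espfLoc_ne_zero hD x' hx' hh hx'U),
    s26espf_ord_eq_of_specializes hD P ψ hψ φ x hφ hc hh hx,
    s26espf_ord_eq_of_specializes hD P ψ hψ φ' x' hφ' hc' hh hx']

end Ord

end Fermat.Agent.S26

end
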