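/-
S26-E-SPEC, piece SPEC-CEN (helper58; leaf of helper82's round 3): "equal specialisations ⇒ equal
centres, Gauss unit of reduction 1".  On helper51's E-PT (`S26/EPTFun.lean`) and `S26/ESpecB2b.lean`.

`f : A ⟶ Spec K` proper with a group law `G`; `(L, V)` and `(F, W)` fields over `K` with valuation
rings over `K`; `ι : L → F`, `j : V → W` LOCAL and compatible (`W ∩ L = V`).

* `s26espc_sp_mul_eq`  : **(C1)** `sp_V a = sp_V a'` ⇒ `sp_W (ν · ι a) = sp_W (ν · ι a')`
                         (`s26espc_sp_mul_eq'` : the same with `ι a · ν`).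
* `s26espc_centre_eq`  : `sp_W x = sp_W x'` ⇒ the centres along `W` agree.
* `s26espc_residue_val_eq`, `s26espc_residue_evV_eq` : **(C2)** `sp_W x = sp_W x'` ⇒ the values of
                         a section / a germ at the extensions of `x` and `x'` to `W` have the SAME
                         RESIDUE in `k_W`.
* `s26espc_exists_unit`: **(C2)** for a unit `u` of `O_{A,c}`: `evV_x u = evV_{x'} u · ε` with
                         `ε ∈ Wˣ`, `ε - 1 ∈ 𝔪_W`.
* `s26espc_loc_eq_evV` : `ev_x u = (evV_x u : F)` (the bridge to `s26espfLoc`).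
* `s26espc_loc_unit_ratio` : **(C2)** in `F`: `ev_x u / ev_{x'} u = (ε : F)`, `ε ∈ 1 + 𝔪_W`.
* `s26espc_Phi`        : **(C3)** `h₀` a local equation at the centre `ξ_W`, `h` a local equation
                         at `c`, `ξ_W ⤳ c`:  `Φ = Φ₀ · ε` with `ε ∈ Wˣ`, `ε - 1 ∈ 𝔪_W`, where
                         `Φ = ev_x h / ev_{x'} h`, `Φ₀ = ev_x h₀ / ev_{x'} h₀`.
* `s26espc_Phi_mul`    : **(C1) + (C3)** for `x = ν · ι a`, `x' = ν · ι a'`.
-/
import Fermat.Agent.S26.EPTFun
import Fermat.Agent.S26.ESpecB2b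

set_option autoImplicit false
set_option linter.style.haveILetI false
set_option linter.unusedVariables false
set_option linter.unusedSectionVars false

noncomputable section

namespace Fermat.Agent.S26

open CategoryTheory CategoryTheory.Limits AlgebraicGeometry NeronModelInfra GoodReductionJacobian

universe u

variable {K : Type u} [Field K] {A : Scheme.{u}} (f : A ⟶ Spec (CommRingCat.of K))

section C1

variable {L : Type u} [Field L] [Algebra K L]
  {V : Type u} [CommRing V] [IsDomain V] [ValuationRing V] [Algebra V L] [IsFractionRing V L]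
  [Algebra K V] [IsScalarTower K V L]
  {F : Type u} [Field F] [Algebra K F]
  {W : Type u} [CommRing W] [IsDomain W] [ValuationRing W] [Algebra W F] [IsFractionRing W F]
  [Algebra K W] [IsScalarTower K W F]
  [IsProper f] (G : RelativeGroupLaw K f)

/-- **(C1)**: if `a`, `a'` have the same specialisation along `V`, then `ν · ι a` and `ν · ι a'`
have the same specialisation along every `W` dominating `V`. -/
theorem s26espc_sp_mul_eq (ι : L →ₐ[K] F) (j : V →ₐ[K] W) [IsLocalHom j]
    (hj : ∀ x : V, algebraMap W F (j x) = ι (algebraMap V L x))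
    (ν : s26eptPts f F) (a a' : s26eptPts f L)
    (hsp : s26eptSp f L V a = s26eptSp f L V a') :
    s26eptSp f F W (G.mul _ ν (s26eptMap f ι a)) =
      s26eptSp f F W (G.mul _ ν (s26eptMap f ι a')) := by
  rw [s26eptSp_mul, s26eptSp_mul, s26eptSp_funct f ι j hj a, s26eptSp_funct f ι j hj a', hsp]

/-- **(C1)**, the other order. -/
theorem s26espc_sp_mul_eq' (ι : L →ₐ[K] F) (j : V →ₐ[K] W) [IsLocalHom j]
    (hj : ∀ x : V, algebraMap W F (j x) = ι (algebraMap V L x))
    (ν : s26eptPts f F) (a a' : s26eptPts f L)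
    (hsp : s26eptSp f L V a = s26eptSp f L V a') :
    s26eptSp f F W (G.mul _ (s26eptMap f ι a) ν) =
      s26eptSp f F W (G.mul _ (s26eptMap f ι a') ν) := by
  rw [s26eptSp_mul, s26eptSp_mul, s26eptSp_funct f ι j hj a, s26eptSp_funct f ι j hj a', hsp]

end C1

section C2

variable {F : Type u} [Field F] [Algebra K F]
  {W : Type u} [CommRing W] [IsDomain W] [ValuationRing W] [Algebra W F] [IsFractionRing W F]
  [Algebra K W] [IsScalarTower K W F]
  [IsProper f]

/-- equal specialisations ⇒ equal centres. -/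
theorem s26espc_centre_eq (x x' : s26eptPts f F)
    (hxx : s26eptSp f F W x = s26eptSp f F W x') :
    s26eptCentre f F W x = s26eptCentre f F W x' := by
  rw [← s26eptPt_sp, ← s26eptPt_sp, hxx]

/-- **(C2)**, sections: equal specialisations ⇒ the values of a section at the extensions to `W`
have the same residue. -/
theorem s26espc_residue_val_eq (x x' : s26eptPts f F)
    (hxx : s26eptSp f F W x = s26eptSp f F W x') (W₀ : A.Opens)
    (hW : s26eptPt f (s26eptLift f F W x) ∈ W₀) (hW' : s26eptPt f (s26eptLift f F W x') ∈ W₀)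
    (s : Γ(A, W₀)) :
    IsLocalRing.residue W (s26eptVal f (s26eptLift f F W x) W₀ hW s) =
      IsLocalRing.residue W (s26eptVal f (s26eptLift f F W x') W₀ hW' s) := by
  have h1 := s26eptVal_map f (s26eptRes (K := K) W) (s26eptLift f F W x) W₀ hW s
  have h2 := s26eptVal_map f (s26eptRes (K := K) W) (s26eptLift f F W x') W₀ hW' s
  have h3 := s26eptVal_congr f hxx W₀
    (s26eptPt_map_mem f (s26eptRes (K := K) W) (s26eptLift f F W x) W₀ hW)
    (s26eptPt_map_mem f (s26eptRes (K := K) W) (s26eptLift f F W x') W₀ hW') s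
  exact (h1.symm.trans h3).trans h2

/-- **(C2)**, germs: for `c` a specialisation of both centres and `u ∈ O_{A,c}`, the values
`evV_x u`, `evV_{x'} u ∈ W` have the same residue. -/
theorem s26espc_residue_evV_eq (x x' : s26eptPts f F)
    (hxx : s26eptSp f F W x = s26eptSp f F W x') {c : A}
    (hc : s26eptCentre f F W x ⤳ c) (hc' : s26eptCentre f F W x' ⤳ c)
    (u : A.presheaf.stalk c) :
    IsLocalRing.residue W (s26eptEvV f F W x ((A.presheaf.stalkSpecializes hc).hom u)) =
      IsLocalRing.residue W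
        (s26eptEvV f F W x' ((A.presheaf.stalkSpecializes hc').hom u)) := by
  obtain ⟨W₀, hW₀, s, rfl⟩ := A.presheaf.exists_germ_eq u
  have hW : s26eptCentre f F W x ∈ W₀ := hc.mem_open W₀.isOpen hW₀
  have hW' : s26eptCentre f F W x' ∈ W₀ := hc'.mem_open W₀.isOpen hW₀
  have e1 : (A.presheaf.stalkSpecializes hc).hom (A.presheaf.germ W₀ c hW₀ s) =
      A.presheaf.germ W₀ (s26eptCentre f F W x) hW s :=
    congrArg (fun g => g.hom s) (A.presheaf.germ_stalkSpecializes hW₀ hc)
  have e1' : (A.presheaf.stalkSpecializes hc').hom (A.presheaf.germ W₀ c hW₀ s) =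
      A.presheaf.germ W₀ (s26eptCentre f F W x') hW' s :=
    congrArg (fun g => g.hom s) (A.presheaf.germ_stalkSpecializes hW₀ hc')
  have e2 : s26eptEvV f F W x ((A.presheaf.stalkSpecializes hc).hom
      (A.presheaf.germ W₀ c hW₀ s)) = s26eptVal f (s26eptLift f F W x) W₀ hW s := by
    rw [e1]
    rfl
  have e2' : s26eptEvV f F W x' ((A.presheaf.stalkSpecializes hc').hom
      (A.presheaf.germ W₀ c hW₀ s)) = s26eptVal f (s26eptLift f F W x') W₀ hW' s := by
    rw [e1']
    rfl
  have key := s26espc_residue_val_eq f x x' hxx W₀ hW hW' s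
  exact (congrArg (IsLocalRing.residue W) e2).trans
    (key.trans (congrArg (IsLocalRing.residue W) e2').symm)

/-- **(C2)**, units: for a unit `u` of `O_{A,c}`, `evV_x u = evV_{x'} u · ε` with `ε ∈ Wˣ`,
`ε - 1 ∈ 𝔪_W`. -/
theorem s26espc_exists_unit (x x' : s26eptPts f F)
    (hxx : s26eptSp f F W x = s26eptSp f F W x') {c : A}
    (hc : s26eptCentre f F W x ⤳ c) (hc' : s26eptCentre f F W x' ⤳ c)
    (u : (A.presheaf.stalk c)ˣ) :
    ∃ ε : Wˣ, (ε : W) - 1 ∈ IsLocalRing.maximalIdeal W ∧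
      s26eptEvV f F W x ((A.presheaf.stalkSpecializes hc).hom (u : A.presheaf.stalk c)) =
        s26eptEvV f F W x' ((A.presheaf.stalkSpecializes hc').hom (u : A.presheaf.stalk c)) *
          ε := by
  have hα : IsUnit (s26eptEvV f F W x ((A.presheaf.stalkSpecializes hc).hom
      (u : A.presheaf.stalk c))) :=
    (u.isUnit.map (A.presheaf.stalkSpecializes hc).hom).map (s26eptEvV f F W x)
  have hβ : IsUnit (s26eptEvV f F W x' ((A.presheaf.stalkSpecializes hc').hom
      (u : A.presheaf.stalk c))) :=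
    (u.isUnit.map (A.presheaf.stalkSpecializes hc').hom).map (s26eptEvV f F W x')
  have hres := s26espc_residue_evV_eq f x x' hxx hc hc' (u : A.presheaf.stalk c)
  refine ⟨hβ.unit⁻¹ * hα.unit, ?_, ?_⟩
  · rw [← IsLocalRing.residue_eq_zero_iff, map_sub, map_one, sub_eq_zero, Units.val_mul,
      map_mul]
    have h1 : IsLocalRing.residue W ((hα.unit : Wˣ) : W) =
        IsLocalRing.residue W ((hβ.unit : Wˣ) : W) := hres
    rw [h1, ← map_mul, Units.inv_mul, map_one]
  · rw [Units.val_mul, ← mul_assoc, IsUnit.mul_val_inv hβ, one_mul]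
    rfl

/-- the bridge to `s26espfLoc`: `ev_x u = (evV_x u : F)`. -/
theorem s26espc_loc_eq_evV (x : s26eptPts f F) {c : A} (hc : s26eptCentre f F W x ⤳ c)
    (hx : s26emCentre x.1 ⤳ c) (u : A.presheaf.stalk c) :
    s26espfLoc x.1 hx u =
      algebraMap W F (s26eptEvV f F W x ((A.presheaf.stalkSpecializes hc).hom u)) := by
  rw [← s26eptEvV_compat]
  have h1 := TopCat.Presheaf.stalkSpecializes_comp A.presheaf
    (s26eptCentre_specializes f F W x) hc
  have h2 := congrArg (fun g => g.hom u) h1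
  exact congrArg (s26eptEv f x) h2.symm

/-- **(C2)** in `F`: for a unit `u` of `O_{A,c}`, `ev_x u / ev_{x'} u = (ε : F)` with `ε ∈ Wˣ`,
`ε - 1 ∈ 𝔪_W`. -/
theorem s26espc_loc_unit_ratio (x x' : s26eptPts f F)
    (hxx : s26eptSp f F W x = s26eptSp f F W x') {c : A}
    (hc : s26eptCentre f F W x ⤳ c) (hc' : s26eptCentre f F W x' ⤳ c)
    (hx : s26emCentre x.1 ⤳ c) (hx' : s26emCentre x'.1 ⤳ c)
    (u : (A.presheaf.stalk c)ˣ) :
    ∃ ε : Wˣ, (ε : W) - 1 ∈ IsLocalRing.maximalIdeal W ∧
      s26espfLoc x.1 hx (u : A.presheaf.stalk c) /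
        s26espfLoc x'.1 hx' (u : A.presheaf.stalk c) = algebraMap W F ε := by
  obtain ⟨ε, hε, he⟩ := s26espc_exists_unit f x x' hxx hc hc' u
  refine ⟨ε, hε, ?_⟩
  have hne : s26espfLoc x'.1 hx' (u : A.presheaf.stalk c) ≠ 0 :=
    s26espfLoc_unit_ne_zero x'.1 hx' u
  rw [div_eq_iff hne, s26espc_loc_eq_evV f x hc hx, s26espc_loc_eq_evV f x' hc' hx', he,
    map_mul, mul_comm]

variable [IsIntegral A] [IsLocallyNoetherian A] {U : A.Opens}

/-- **(C3)**: `x`, `x'` with the same specialisation along `W`, `ξ` their common centre, `ξ ⤳ c`,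
`h₀` a local equation at `ξ`, `h` a local equation at `c`.  Then
`Φ = Φ₀ · ε`, `ε ∈ Wˣ`, `ε - 1 ∈ 𝔪_W`, for `Φ = ev_x h / ev_{x'} h`, `Φ₀ = ev_x h₀ / ev_{x'} h₀`. -/
theorem s26espc_Phi (hD : S26emLocData U) (x x' : s26eptPts f F)
    (hxx : s26eptSp f F W x = s26eptSp f F W x') {c : A}
    (hc : s26eptCentre f F W x ⤳ c)
    {h₀ : A.presheaf.stalk (s26eptCentre f F W x)}
    (hh₀ : S26emIsLocEq U (s26eptCentre f F W x) h₀)
    {h : A.presheaf.stalk c} (hh : S26emIsLocEq U c h)
    (hx : s26emCentre x.1 ⤳ s26eptCentre f F W x)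
    (hx' : s26emCentre x'.1 ⤳ s26eptCentre f F W x) :
    ∃ ε : Wˣ, (ε : W) - 1 ∈ IsLocalRing.maximalIdeal W ∧
      s26espfLoc x.1 (hx.trans hc) h / s26espfLoc x'.1 (hx'.trans hc) h =
        (s26espfLoc x.1 hx h₀ / s26espfLoc x'.1 hx' h₀) * algebraMap W F ε := by
  obtain ⟨u, -, hfac⟩ := s26espf_Phi_factor (F := F) hD hc hh₀ hh
  have hcen : s26eptCentre f F W x' ⤳ s26eptCentre f F W x :=
    specializes_of_eq (s26espc_centre_eq f x x' hxx).symm
  obtain ⟨ε, hε, he⟩ := s26espc_loc_unit_ratio f x x' hxx specializes_rfl hcen hx hx' u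
  refine ⟨ε, hε, ?_⟩
  rw [hfac x.1 x'.1 hx hx', he]

/-- the centre of `x` along `W` is a specialisation of `|x|`, in the `s26emCentre` form. -/
theorem s26espc_centre_specializes (x : s26eptPts f F) :
    s26emCentre x.1 ⤳ s26eptCentre f F W x :=
  s26eptCentre_specializes f F W x

/-- the same for `x'` with `sp_W x = sp_W x'`. -/
theorem s26espc_centre_specializes' (x x' : s26eptPts f F)
    (hxx : s26eptSp f F W x = s26eptSp f F W x') :
    s26emCentre x'.1 ⤳ s26eptCentre f F W x := by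
  have h := s26espc_centre_specializes (W := W) f x'
  rwa [← s26espc_centre_eq f x x' hxx] at h

end C2

section C13

variable {L : Type u} [Field L] [Algebra K L]
  {V : Type u} [CommRing V] [IsDomain V] [ValuationRing V] [Algebra V L] [IsFractionRing V L]
  [Algebra K V] [IsScalarTower K V L]
  {F : Type u} [Field F] [Algebra K F]
  {W : Type u} [CommRing W] [IsDomain W] [ValuationRing W] [Algebra W F] [IsFractionRing W F]
  [Algebra K W] [IsScalarTower K W F]
  [IsProper f] (G : RelativeGroupLaw K f)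
  [IsIntegral A] [IsLocallyNoetherian A] {U : A.Opens}

/-- **(C1) + (C3)**: for `x = ν · ι a`, `x' = ν · ι a'` with `sp_V a = sp_V a'`. -/
theorem s26espc_Phi_mul (hD : S26emLocData U) (ι : L →ₐ[K] F) (j : V →ₐ[K] W) [IsLocalHom j]
    (hj : ∀ x : V, algebraMap W F (j x) = ι (algebraMap V L x))
    (ν : s26eptPts f F) (a a' : s26eptPts f L)
    (hsp : s26eptSp f L V a = s26eptSp f L V a') {c : A}
    (hc : s26eptCentre f F W (G.mul _ ν (s26eptMap f ι a)) ⤳ c)
    {h₀ : A.presheaf.stalk (s26eptCentre f F W (G.mul _ ν (s26eptMap f ι a)))}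
    (hh₀ : S26emIsLocEq U (s26eptCentre f F W (G.mul _ ν (s26eptMap f ι a))) h₀)
    {h : A.presheaf.stalk c} (hh : S26emIsLocEq U c h)
    (hx : s26emCentre (G.mul _ ν (s26eptMap f ι a)).1 ⤳
      s26eptCentre f F W (G.mul _ ν (s26eptMap f ι a)))
    (hx' : s26emCentre (G.mul _ ν (s26eptMap f ι a')).1 ⤳
      s26eptCentre f F W (G.mul _ ν (s26eptMap f ι a))) :
    ∃ ε : Wˣ, (ε : W) - 1 ∈ IsLocalRing.maximalIdeal W ∧
      s26espfLoc (G.mul _ ν (s26eptMap f ι a)).1 (hx.trans hc) h /
          s26espfLoc (G.mul _ ν (s26eptMap f ι a')).1 (hx'.trans hc) h =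
        (s26espfLoc (G.mul _ ν (s26eptMap f ι a)).1 hx h₀ /
          s26espfLoc (G.mul _ ν (s26eptMap f ι a')).1 hx' h₀) * algebraMap W F ε :=
  s26espc_Phi f hD _ _ (s26espc_sp_mul_eq f G ι j hj ν a a' hsp) hc hh₀ hh hx hx'

end C13

end Fermat.Agent.S26

end
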