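/-
S26-E, piece E-SPEC (helper95): **FINAL** — no hypothesis left from the E-SPEC side.

Frame (as in E-RIG, `S26/ERigB.lean`, and TI-REDAT, `S26/ETiRedAt.lean`): `K ⊆ Γ`, `L ⊇ K`,
`F ⊇ Γ, L`;  `R : DEU.RedData L F k Fb` a reduction along the valuation subring `V' = R.A ⊇ K`
of `L`;  `h : S26erigRed R r con conk ιk` ANY reduction package;  the residue fields of the places
of `F/L` and `Fb/k` are the constants.  `f : A ⟶ Spec K` proper, `A` integral locally noetherian,
`G` a group law, `hD : S26emLocData U` (local equations of `A ∖ U`).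

* `s26espec_final_pair` : `sp_{V'} a = sp_{V'} a'` ⇒ `r_* ((ν + a)^* D − (ν + a')^* D) = div φ`;
* `s26espec_final_four` : the same for a difference of two such pairs;
* `s26espec_final_sq`   : `sp_{V'} z = 1` ⇒ `r_* Δ = div φ` for
  `Δ(P) = ord_P (s26eSq f G U (ν_F + b_F) y_F z_F O_P)`;
* `s26espec_final_sq'`  : the same with `sp_{V'} y = 1` (`G` commutative).
These are `hspec` of `S26erigRedAt` (E-RIG) / `s26etir_redAt` (TI-REDAT).

Pieces: `s26espec_abs_r` (abstract core), `s26esp_loc` (local theorem on generators, ESpecLoc),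
`s26espv_valSide` (valuation side, ESpecVal), `s26espk_keyA`, `s26espk_keyC` (helper60, ESpecKey),
`s26espc_keyB` (helper58, ESpecKeyB), (FIN) `s26espf_exists_divisor` (helper58, ESpecB2),
composite valuations (helper52, ESpecB1), (EVAL) `s26eredev_eval_value` (helper28, ERedEval).
-/
import Fermat.Agent.S26.ESpecSq
import Fermat.Agent.S26.ESpecKey
import Fermat.Agent.S26.ESpecKeyB

set_option autoImplicit false
set_option linter.style.haveILetI false
set_option linter.unusedVariables false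
set_option linter.unusedSectionVars false

noncomputable section

namespace Fermat.Agent.S26

open CategoryTheory CategoryTheory.Limits AlgebraicGeometry NeronModelInfra GoodReductionJacobian
open AlgebraicCurve Fermat.Agent.DEU

universe u

variable {K : Type u} [Field K] {A : Scheme.{u}} (f : A ⟶ Spec (CommRingCat.of K))
  [IsIntegral A] [IsLocallyNoetherian A] [IsProper f]
  (G : RelativeGroupLaw K f) {U : A.Opens} (hD : S26emLocData U)
  {Γ L F k Fb : Type u} [Field Γ] [Field L] [Field F] [Field k] [Field Fb]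
  [Algebra K Γ] [Algebra K L] [Algebra Γ F] [Algebra L F] [Algebra K F]
  [IsScalarTower K Γ F] [IsScalarTower K L F] [Algebra k Fb]
  (R : RedData L F k Fb) (hK : S26erOver K R.A) (r : Place L F → Place k Fb)
  {con : Place K Γ → Place L F} {conk : Place K Γ → Place k Fb} {ιk : Γ →+* Fb}
  (h : S26erigRed R r con conk ιk)
  (hresF : ∀ P : Place L F, Function.Surjective (algebraMap L P.ResidueField))
  (hresk : ∀ Q : Place k Fb, Function.Surjective (algebraMap k Q.ResidueField))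

include hD h hresF hresk in
/-- **E-SPEC**, one pair. -/
theorem s26espec_final_pair (ν : s26eptPts f Γ) (a a' : s26eptPts f L)
    (hsp : S26espSame f a a' R.A hK)
    (hU : s26eptPt f (s26espSum f G (IsScalarTower.toAlgHom K Γ F)
      (IsScalarTower.toAlgHom K L F) ν a) ∈ U)
    (hU' : s26eptPt f (s26espSum f G (IsScalarTower.toAlgHom K Γ F)
      (IsScalarTower.toAlgHom K L F) ν a') ∈ U)
    (D D' : Divisor L F)
    (hDx : ∀ P : Place L F, D P = P.ord (s26eGen f U (s26espSum f G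
      (IsScalarTower.toAlgHom K Γ F) (IsScalarTower.toAlgHom K L F) ν a) P.toValuationSubring))
    (hDx' : ∀ P : Place L F, D' P = P.ord (s26eGen f U (s26espSum f G
      (IsScalarTower.toAlgHom K Γ F) (IsScalarTower.toAlgHom K L F) ν a') P.toValuationSubring)) :
    ∃ φ : Fb, φ ≠ 0 ∧ ∀ Q : Place k Fb, Finsupp.mapDomain r (D - D') Q = Q.ord φ :=
  s26espec_pair' f G hD (s26espk_keyA f G) (s26espc_keyB f G) (s26espk_keyC f) R hK r h hresF
    hresk ν a a' hsp hU hU' D D' hDx hDx'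

include hD h hresF hresk in
/-- **E-SPEC**, four points. -/
theorem s26espec_final_four (ν : s26eptPts f Γ) (a₁ a₁' a₂ a₂' : s26eptPts f L)
    (hsp₁ : S26espSame f a₁ a₁' R.A hK) (hsp₂ : S26espSame f a₂ a₂' R.A hK)
    (x₁ x₁' x₂ x₂' : s26eptPts f F)
    (hx₁ : x₁ = s26espSum f G (IsScalarTower.toAlgHom K Γ F) (IsScalarTower.toAlgHom K L F) ν a₁)
    (hx₁' : x₁' = s26espSum f G (IsScalarTower.toAlgHom K Γ F)
      (IsScalarTower.toAlgHom K L F) ν a₁')
    (hx₂ : x₂ = s26espSum f G (IsScalarTower.toAlgHom K Γ F) (IsScalarTower.toAlgHom K L F) ν a₂)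
    (hx₂' : x₂' = s26espSum f G (IsScalarTower.toAlgHom K Γ F)
      (IsScalarTower.toAlgHom K L F) ν a₂')
    (hU₁ : s26eptPt f x₁ ∈ U) (hU₁' : s26eptPt f x₁' ∈ U)
    (hU₂ : s26eptPt f x₂ ∈ U) (hU₂' : s26eptPt f x₂' ∈ U)
    (Δ : Divisor L F)
    (hΔ : ∀ P : Place L F, Δ P =
      (P.ord (s26eGen f U x₁ P.toValuationSubring) -
        P.ord (s26eGen f U x₁' P.toValuationSubring)) -
      (P.ord (s26eGen f U x₂ P.toValuationSubring) -
        P.ord (s26eGen f U x₂' P.toValuationSubring))) :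
    ∃ φ : Fb, φ ≠ 0 ∧ ∀ Q : Place k Fb, Finsupp.mapDomain r Δ Q = Q.ord φ :=
  s26espec_four f G hD (s26espk_keyA f G) (s26espc_keyB f G) (s26espk_keyC f) R hK r h hresF
    hresk ν a₁ a₁' a₂ a₂' hsp₁ hsp₂ x₁ x₁' x₂ x₂' hx₁ hx₁' hx₂ hx₂' hU₁ hU₁' hU₂ hU₂' Δ hΔ

include hD h hresF hresk in
/-- **E-SPEC for the square** `Sq(ν_F + b_F; y_F, z_F)`, `sp_{V'} z = 1`. -/
theorem s26espec_final_sq (ν : s26eptPts f Γ) (b y z : s26eptPts f L)
    (hz : S26eSpOneV f G z R.A hK)
    (h1 : s26eptPt f (G.mul _ (G.mul _ (s26espSum f G (IsScalarTower.toAlgHom K Γ F)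
      (IsScalarTower.toAlgHom K L F) ν b) (s26eptMap f (IsScalarTower.toAlgHom K L F) y))
      (s26eptMap f (IsScalarTower.toAlgHom K L F) z)) ∈ U)
    (h2 : s26eptPt f (s26espSum f G (IsScalarTower.toAlgHom K Γ F)
      (IsScalarTower.toAlgHom K L F) ν b) ∈ U)
    (h3 : s26eptPt f (G.mul _ (s26espSum f G (IsScalarTower.toAlgHom K Γ F)
      (IsScalarTower.toAlgHom K L F) ν b) (s26eptMap f (IsScalarTower.toAlgHom K L F) y)) ∈ U)
    (h4 : s26eptPt f (G.mul _ (s26espSum f G (IsScalarTower.toAlgHom K Γ F)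
      (IsScalarTower.toAlgHom K L F) ν b) (s26eptMap f (IsScalarTower.toAlgHom K L F) z)) ∈ U)
    (Δ : Divisor L F)
    (hΔ : ∀ P : Place L F, Δ P = P.ord (s26eSq f G U
      (s26espSum f G (IsScalarTower.toAlgHom K Γ F) (IsScalarTower.toAlgHom K L F) ν b)
      (s26eptMap f (IsScalarTower.toAlgHom K L F) y)
      (s26eptMap f (IsScalarTower.toAlgHom K L F) z) P.toValuationSubring)) :
    ∃ φ : Fb, φ ≠ 0 ∧ ∀ Q : Place k Fb, Finsupp.mapDomain r Δ Q = Q.ord φ :=
  s26espec_sq f G hD (s26espk_keyA f G) (s26espc_keyB f G) (s26espk_keyC f) R hK r h hresF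
    hresk ν b y z hz h1 h2 h3 h4 Δ hΔ

include hD h hresF hresk in
/-- **E-SPEC for the square**, `sp_{V'} y = 1` (`G` commutative). -/
theorem s26espec_final_sq' (hcomm : G.IsCommutative) (ν : s26eptPts f Γ)
    (b y z : s26eptPts f L) (hy : S26eSpOneV f G y R.A hK)
    (h1 : s26eptPt f (G.mul _ (G.mul _ (s26espSum f G (IsScalarTower.toAlgHom K Γ F)
      (IsScalarTower.toAlgHom K L F) ν b) (s26eptMap f (IsScalarTower.toAlgHom K L F) y))
      (s26eptMap f (IsScalarTower.toAlgHom K L F) z)) ∈ U)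
    (h2 : s26eptPt f (s26espSum f G (IsScalarTower.toAlgHom K Γ F)
      (IsScalarTower.toAlgHom K L F) ν b) ∈ U)
    (h3 : s26eptPt f (G.mul _ (s26espSum f G (IsScalarTower.toAlgHom K Γ F)
      (IsScalarTower.toAlgHom K L F) ν b) (s26eptMap f (IsScalarTower.toAlgHom K L F) y)) ∈ U)
    (h4 : s26eptPt f (G.mul _ (s26espSum f G (IsScalarTower.toAlgHom K Γ F)
      (IsScalarTower.toAlgHom K L F) ν b) (s26eptMap f (IsScalarTower.toAlgHom K L F) z)) ∈ U)
    (Δ : Divisor L F)
    (hΔ : ∀ P : Place L F, Δ P = P.ord (s26eSq f G U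
      (s26espSum f G (IsScalarTower.toAlgHom K Γ F) (IsScalarTower.toAlgHom K L F) ν b)
      (s26eptMap f (IsScalarTower.toAlgHom K L F) y)
      (s26eptMap f (IsScalarTower.toAlgHom K L F) z) P.toValuationSubring)) :
    ∃ φ : Fb, φ ≠ 0 ∧ ∀ Q : Place k Fb, Finsupp.mapDomain r Δ Q = Q.ord φ :=
  s26espec_sq' f G hD (s26espk_keyA f G) (s26espc_keyB f G) (s26espk_keyC f) R hK r h hresF
    hresk hcomm ν b y z hy h1 h2 h3 h4 Δ hΔ

end Fermat.Agent.S26

end
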