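/-
S26-E, E-SPEC × TI-REDAT (helper95): the reduction package `S26erigRedAt` at ONE valuation
subring `V` of `L`, with (SPEC) DISCHARGED by `S26/ESpecFinal.lean`.

Frame = helper28's Gauss shape (`S26/ETiRedAtG.lean`, `s26etir_redAt_shape`) + the scheme data of
E-SPEC: `f : A ⟶ Spec K` proper, `A` integral locally noetherian, `G` a group law, `hD` local
equations of `A ∖ U`; `ν ∈ A(Γ)`, `b, y, z ∈ A(L)`; `Δ(P) = ord_P Sq(ν_F + b_F; y_F, z_F)(O_P)`.

* `s26espec_redAt_z` : `sp_V z = 1` ⇒ `S26erigRedAt (s26gspCon …) E₀ Δ V`    (= `hz` of (c));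
* `s26espec_redAt_y` : `sp_V y = 1` ⇒ the same (`G` commutative)              (= `hy` of (c)).
What is left as hypotheses: the Gauss reductions `R` (with `R.A = V`), `R₀`, (Q2), `E₀` (E-RED,
E-RR) — exactly the non-SPEC hypotheses of `s26etir_redAt_shape` — and the non-vanishing
`h1 … h4` of the four points (TI-NV8).
-/
import Fermat.Agent.S26.ETiRedAtG
import Fermat.Agent.S26.ESpecFinal

set_option autoImplicit false
set_option linter.unusedSectionVars false
set_option linter.unusedVariables false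
set_option linter.style.haveILetI false

noncomputable section

open AlgebraicCurve Module IntermediateField

namespace Fermat.Agent.S26

open CategoryTheory CategoryTheory.Limits AlgebraicGeometry NeronModelInfra GoodReductionJacobian
open Fermat.Agent.S24 Fermat.Agent.DEU Fermat.Agent.ES.R

universe u

variable {K : Type u} [Field K] {A : Scheme.{u}} (f : A ⟶ Spec (CommRingCat.of K))
  [IsIntegral A] [IsLocallyNoetherian A] [IsProper f]
  (G : RelativeGroupLaw K f) {U : A.Opens} (hD : S26emLocData U)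
  {Γ L F k Fb : Type u} [Field Γ] [Field L] [Field F] [Field k] [Field Fb]
  [Algebra K Γ] [Algebra K L] [Algebra K F] [Algebra Γ F] [Algebra L F]
  [IsScalarTower K Γ F] [IsScalarTower K L F]
  [Algebra K k] [Algebra K Fb] [Algebra Γ Fb] [Algebra k Fb]
  [IsScalarTower K Γ Fb] [IsScalarTower K k Fb]

include hD in
/-- **`hz` of (c)**: the reduction package at a valuation subring `V` with `sp_V z = 1`. -/
theorem s26espec_redAt_z [IsAlgClosed K] [IsAlgClosed L] [IsAlgClosed k]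
    (hld : Function.Injective (s26gspMu K Γ L F)) (hgen : S26gspGen K Γ L F)
    (hldk : Function.Injective (s26gspMu K Γ k Fb)) (hgenk : S26gspGen K Γ k Fb)
    (hall : ∀ P : Place K Γ, Function.Surjective (algebraMap K P.ResidueField))
    {x : Γ} (hx : Transcendental K x) [FiniteDimensional K⟮x⟯ Γ]
    (V : ValuationSubring L) (hV : S26erOver K V) (R : RedData L F k Fb) (hA : R.A = V)
    (hO : ∀ u : Γ, algebraMap Γ F u ∈ R.O)
    (hred : ∀ u : Γ, R.red ⟨algebraMap Γ F u, hO u⟩ = algebraMap Γ Fb u)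
    (hq2 : ∀ W : Submodule L F, Module.Finite L W → finrank L W ≤ finrank k ↥(R.redSpace W))
    (R₀ : RedData k Fb K Γ)
    (hO₀ : ∀ u : Γ, algebraMap Γ Fb u ∈ R₀.O)
    (hred₀ : ∀ u : Γ, R₀.red ⟨algebraMap Γ Fb u, hO₀ u⟩ = u)
    (hq2₀ : ∀ W : Submodule k Fb, Module.Finite k W →
      finrank k W ≤ finrank K ↥(R₀.redSpace W))
    (E₀ : Divisor K Γ) (hE₀ : 0 ≤ E₀) (hE₀dim : finrank K ↥(riemannRochSpace E₀) = 1)
    (ν : s26eptPts f Γ) (b y z : s26eptPts f L) (hz : S26eSpOneV f G z V hV)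
    (h1 : s26eptPt f (G.mul _ (G.mul _ (s26espSum f G (IsScalarTower.toAlgHom K Γ F)
      (IsScalarTower.toAlgHom K L F) ν b) (s26eptMap f (IsScalarTower.toAlgHom K L F) y))
      (s26eptMap f (IsScalarTower.toAlgHom K L F) z)) ∈ U)
    (h2 : s26eptPt f (s26espSum f G (IsScalarTower.toAlgHom K Γ F)
      (IsScalarTower.toAlgHom K L F) ν b) ∈ U)
    (h3 : s26eptPt f (G.mul _ (s26espSum f G (IsScalarTower.toAlgHom K Γ F)
      (IsScalarTower.toAlgHom K L F) ν b) (s26eptMap f (IsScalarTower.toAlgHom K L F) y)) ∈ U)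
    (h4 : s26eptPt f (G.mul _ (s26espSum f G (IsScalarTower.toAlgHom K Γ F)
      (IsScalarTower.toAlgHom K L F) ν b) (s26eptMap f (IsScalarTower.toAlgHom K L F) z)) ∈ U)
    (Δ : Divisor L F)
    (hΔ : ∀ P : Place L F, Δ P = P.ord (s26eSq f G U
      (s26espSum f G (IsScalarTower.toAlgHom K Γ F) (IsScalarTower.toAlgHom K L F) ν b)
      (s26eptMap f (IsScalarTower.toAlgHom K L F) y)
      (s26eptMap f (IsScalarTower.toAlgHom K L F) z) P.toValuationSubring)) :
    S26erigRedAt (s26gspCon hld hgen hall) E₀ Δ V := by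
  subst hA
  have halg : Algebra.IsAlgebraic K⟮x⟯ Γ := Algebra.IsAlgebraic.of_finite _ _
  refine s26etir_redAt_shape hld hgen hldk hgenk hall hx R.A R rfl hO hred hq2 R₀ hO₀ hred₀ hq2₀
    E₀ hE₀ hE₀dim Δ ?_
  intro r hr
  exact s26espec_final_sq f G hD R hV r hr
    (fun P => (s26erh_hres hld hgen hx halg P).2)
    (fun Q => (s26erh_hres hldk hgenk hx halg Q).2) ν b y z hz h1 h2 h3 h4 Δ hΔ

include hD in
/-- **`hy` of (c)**: the reduction package at a valuation subring `V` with `sp_V y = 1`. -/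
theorem s26espec_redAt_y [IsAlgClosed K] [IsAlgClosed L] [IsAlgClosed k]
    (hcomm : G.IsCommutative)
    (hld : Function.Injective (s26gspMu K Γ L F)) (hgen : S26gspGen K Γ L F)
    (hldk : Function.Injective (s26gspMu K Γ k Fb)) (hgenk : S26gspGen K Γ k Fb)
    (hall : ∀ P : Place K Γ, Function.Surjective (algebraMap K P.ResidueField))
    {x : Γ} (hx : Transcendental K x) [FiniteDimensional K⟮x⟯ Γ]
    (V : ValuationSubring L) (hV : S26erOver K V) (R : RedData L F k Fb) (hA : R.A = V)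
    (hO : ∀ u : Γ, algebraMap Γ F u ∈ R.O)
    (hred : ∀ u : Γ, R.red ⟨algebraMap Γ F u, hO u⟩ = algebraMap Γ Fb u)
    (hq2 : ∀ W : Submodule L F, Module.Finite L W → finrank L W ≤ finrank k ↥(R.redSpace W))
    (R₀ : RedData k Fb K Γ)
    (hO₀ : ∀ u : Γ, algebraMap Γ Fb u ∈ R₀.O)
    (hred₀ : ∀ u : Γ, R₀.red ⟨algebraMap Γ Fb u, hO₀ u⟩ = u)
    (hq2₀ : ∀ W : Submodule k Fb, Module.Finite k W →
      finrank k W ≤ finrank K ↥(R₀.redSpace W))
    (E₀ : Divisor K Γ) (hE₀ : 0 ≤ E₀) (hE₀dim : finrank K ↥(riemannRochSpace E₀) = 1)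
    (ν : s26eptPts f Γ) (b y z : s26eptPts f L) (hy : S26eSpOneV f G y V hV)
    (h1 : s26eptPt f (G.mul _ (G.mul _ (s26espSum f G (IsScalarTower.toAlgHom K Γ F)
      (IsScalarTower.toAlgHom K L F) ν b) (s26eptMap f (IsScalarTower.toAlgHom K L F) y))
      (s26eptMap f (IsScalarTower.toAlgHom K L F) z)) ∈ U)
    (h2 : s26eptPt f (s26espSum f G (IsScalarTower.toAlgHom K Γ F)
      (IsScalarTower.toAlgHom K L F) ν b) ∈ U)
    (h3 : s26eptPt f (G.mul _ (s26espSum f G (IsScalarTower.toAlgHom K Γ F)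
      (IsScalarTower.toAlgHom K L F) ν b) (s26eptMap f (IsScalarTower.toAlgHom K L F) y)) ∈ U)
    (h4 : s26eptPt f (G.mul _ (s26espSum f G (IsScalarTower.toAlgHom K Γ F)
      (IsScalarTower.toAlgHom K L F) ν b) (s26eptMap f (IsScalarTower.toAlgHom K L F) z)) ∈ U)
    (Δ : Divisor L F)
    (hΔ : ∀ P : Place L F, Δ P = P.ord (s26eSq f G U
      (s26espSum f G (IsScalarTower.toAlgHom K Γ F) (IsScalarTower.toAlgHom K L F) ν b)
      (s26eptMap f (IsScalarTower.toAlgHom K L F) y)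
      (s26eptMap f (IsScalarTower.toAlgHom K L F) z) P.toValuationSubring)) :
    S26erigRedAt (s26gspCon hld hgen hall) E₀ Δ V := by
  subst hA
  have halg : Algebra.IsAlgebraic K⟮x⟯ Γ := Algebra.IsAlgebraic.of_finite _ _
  refine s26etir_redAt_shape hld hgen hldk hgenk hall hx R.A R rfl hO hred hq2 R₀ hO₀ hred₀ hq2₀
    E₀ hE₀ hE₀dim Δ ?_
  intro r hr
  exact s26espec_final_sq' f G hD R hV r hr
    (fun P => (s26erh_hres hld hgen hx halg P).2)
    (fun Q => (s26erh_hres hldk hgenk hx halg Q).2) hcomm ν b y z hy h1 h2 h3 h4 Δ hΔ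

end Fermat.Agent.S26

end
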