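/-
S26-E, TShear by the TRANSCENDENCE-DEGREE route, step (G): the GENERICITY core (helper18).
Pure algebra (Mathlib + helper19's drop lemma `s26eg3t_drop` + helper98's
`s26eg3tr_isAlgebraic_of_basis`).

`K ⊆ Ω` fields, `M := AlgebraicIndependent.matroid K Ω` (closure = relative algebraic closure).

* `s26etg_mem_closure_iff`   : `x ∈ M.closure s ↔ IsAlgebraic (Algebra.adjoin K s) x`;
* `s26etg_closure_field`     : `M.closure s` is the carrier of an intermediate field;
* `s26etg_adjoin_subset`     : `Y ⊆ M.closure Y'` ⇒ `K(Y) ⊆ M.closure Y'`;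
* `s26etg_range_subset`      : `j(F) ⊆ M.closure (j ∘ t)` for a transcendence basis `t` of `F`;
* `s26etg_exists_indep`      : RANK COUNT: `(B₁, B₃)` independent (`2n` elements),
                               `B₁ ⊆ M.closure (S ∪ B₃)` ⇒ `S` contains `n` independent elements;
* `s26etg_pair_indep`        : `j₁ ⊗ j₃` injective ⇒ `(j₁ ∘ t, j₃ ∘ t)` algebraically independent;
* **`s26etg_injective`**     : `O ⊆ F` a domain, `F` of transcendence degree `n`, `e : O →ₐ[K] Ω`,
                               `j₁ ⊗ j₃ : F ⊗ F → Ω` injective, `j₁(F) ⊆ K(e(O), j₃(F))`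
                               ⇒ `e` is injective.
-/
import Fermat.Agent.S26.EG3Tr
import Fermat.Agent.S26.EG3Trdeg

set_option autoImplicit false
set_option linter.unusedSectionVars false
set_option linter.style.haveILetI false

namespace Fermat.Agent.S26

open scoped TensorProduct
open AlgebraicIndependent

universe u

section Closure

variable {K Ω : Type*} [Field K] [Field Ω] [Algebra K Ω]

theorem s26etg_mem_closure_iff (s : Set Ω) (x : Ω) :
    x ∈ (matroid K Ω).closure s ↔ IsAlgebraic (Algebra.adjoin K s) x := by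
  rw [matroid_closure_eq]
  exact Subalgebra.mem_algebraicClosure _ _

/-- the closure of the algebraic-independence matroid is the carrier of an intermediate field -/
theorem s26etg_closure_field (s : Set Ω) :
    ∃ C : IntermediateField K Ω, ∀ x, x ∈ C ↔ x ∈ (matroid K Ω).closure s := by
  refine ⟨Subalgebra.toIntermediateField
    ((Subalgebra.algebraicClosure (Algebra.adjoin K s) Ω).restrictScalars K) ?_, ?_⟩
  · intro x hx
    have hx' : IsAlgebraic (Algebra.adjoin K s) x :=
      (Subalgebra.mem_algebraicClosure _ _).mp hx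
    exact (Subalgebra.mem_algebraicClosure _ _).mpr hx'.inv
  · intro x
    rw [s26etg_mem_closure_iff]
    exact Subalgebra.mem_algebraicClosure _ _

theorem s26etg_adjoin_subset (Y Y' : Set Ω) (hY : Y ⊆ (matroid K Ω).closure Y') (x : Ω)
    (hx : x ∈ IntermediateField.adjoin K Y) : x ∈ (matroid K Ω).closure Y' := by
  obtain ⟨C, hC⟩ := s26etg_closure_field (K := K) Y'
  have h1 : IntermediateField.adjoin K Y ≤ C :=
    IntermediateField.adjoin_le_iff.mpr fun y hy => (hC y).mpr (hY hy)
  exact (hC x).mp (h1 hx)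

theorem s26etg_range_subset {F : Type*} [Field F] [Algebra K F] {κ : Type*} {t : κ → F}
    (ht : IsTranscendenceBasis K t) (j : F →ₐ[K] Ω) (y : F) :
    j y ∈ (matroid K Ω).closure (Set.range (j ∘ t)) := by
  rw [s26etg_mem_closure_iff]
  exact s26eg3tr_isAlgebraic_of_basis j ht (Algebra.adjoin K (Set.range (j ∘ t)))
    (fun i => Algebra.subset_adjoin ⟨i, rfl⟩) y

/-- **RANK COUNT.** -/
theorem s26etg_exists_indep {n : ℕ} (B₁ B₃ : Fin n → Ω)
    (hind : AlgebraicIndependent K (Sum.elim B₁ B₃)) (S : Set Ω)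
    (hB₁ : ∀ i, B₁ i ∈ (matroid K Ω).closure (S ∪ Set.range B₃)) :
    ∃ s : Fin n → Ω, (∀ i, s i ∈ S) ∧ AlgebraicIndependent K s := by
  set M := matroid K Ω with hM
  -- the independent set `I` of `2n` elements
  have hinj : Function.Injective (Sum.elim B₁ B₃) := hind.injective
  have hI : M.Indep (Set.range (Sum.elim B₁ B₃)) := matroid_indep_iff.mpr hind.to_subtype_range
  have hIcard : (Set.range (Sum.elim B₁ B₃)).encard = ((n + n : ℕ) : ℕ∞) := by
    rw [← Set.image_univ, hinj.injOn.encard_image, Set.encard_univ,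
      ENat.card_eq_coe_fintype_card]
    simp
  have hIsub : Set.range (Sum.elim B₁ B₃) ⊆ M.closure (S ∪ Set.range B₃) := by
    rintro _ ⟨i | i, rfl⟩
    · exact hB₁ i
    · exact M.mem_closure_of_mem (Or.inr ⟨i, rfl⟩)
  have h1 : ((n + n : ℕ) : ℕ∞) ≤ M.eRk S + (n : ℕ∞) := by
    calc ((n + n : ℕ) : ℕ∞) = (Set.range (Sum.elim B₁ B₃)).encard := hIcard.symm
      _ ≤ M.eRk (M.closure (S ∪ Set.range B₃)) := hI.encard_le_eRk_of_subset hIsub
      _ = M.eRk (S ∪ Set.range B₃) := M.eRk_closure_eq _
      _ ≤ M.eRk S + M.eRk (Set.range B₃) := M.eRk_union_le_eRk_add_eRk _ _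
      _ ≤ M.eRk S + (Set.range B₃).encard := by gcongr; exact M.eRk_le_encard _
      _ ≤ M.eRk S + (n : ℕ∞) := by
          gcongr
          rw [← Set.image_univ]
          refine (Set.encard_image_le _ _).trans ?_
          rw [Set.encard_univ, ENat.card_eq_coe_fintype_card]
          simp
  have h2 : (n : ℕ∞) ≤ M.eRk S := by
    have h3 : (n : ℕ∞) + (n : ℕ∞) ≤ M.eRk S + (n : ℕ∞) := by
      rw [← Nat.cast_add]
      exact h1
    exact (ENat.add_le_add_iff_right (ENat.natCast_ne_top n)).mp h3
  obtain ⟨J, hJ⟩ := M.exists_isBasis S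
  rw [← hJ.encard_eq_eRk] at h2
  obtain ⟨T, hTJ, hTcard⟩ := Set.exists_subset_encard_eq h2
  have hTfin : T.Finite := Set.finite_of_encard_eq_coe hTcard
  have hTind : AlgebraicIndependent K (Subtype.val : T → Ω) :=
    matroid_indep_iff.mp (hJ.indep.subset hTJ)
  haveI : Fintype T := hTfin.fintype
  have hcard : Fintype.card T = n := by
    have h4 : T.encard = (Fintype.card T : ℕ∞) := by
      rw [Set.encard_eq_coe_toFinset_card, Set.toFinset_card]
    rw [h4] at hTcard
    exact_mod_cast hTcard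
  let eqv : Fin n ≃ T := (Fintype.equivFinOfCardEq hcard).symm
  refine ⟨fun i => ((eqv i : T) : Ω), fun i => hJ.subset (hTJ (eqv i).2), ?_⟩
  exact hTind.comp eqv eqv.injective

end Closure

section Main

variable {K O F Ω : Type u} [Field K] [CommRing O] [IsDomain O] [Algebra K O]
  [Field F] [Algebra K F] [Field Ω] [Algebra K Ω]

omit [IsDomain O] in
/-- `j₁ ⊗ j₃` injective ⇒ `(j₁ ∘ t, j₃ ∘ t)` is algebraically independent. -/
theorem s26etg_pair_indep {κ : Type*} {t : κ → F} (ht : AlgebraicIndependent K t)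
    (j₁ j₃ : F →ₐ[K] Ω)
    (hind : Function.Injective (Algebra.TensorProduct.productMap j₁ j₃)) :
    AlgebraicIndependent K (Sum.elim (j₁ ∘ t) (j₃ ∘ t)) := by
  have h1 := (s26eg3t_algInd_tensor (K := K) ht ht).map' hind
  convert h1 using 1
  funext i
  rcases i with i | i <;> simp [s26eg3tFam]

/-- **GENERICITY core**: `e` is injective. -/
theorem s26etg_injective (incl : O →ₐ[K] F) (hincl : Function.Injective incl)
    {n : ℕ} (t : Fin n → F) (ht : IsTranscendenceBasis K t)
    (e : O →ₐ[K] Ω) (j₁ j₃ : F →ₐ[K] Ω)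
    (hind : Function.Injective (Algebra.TensorProduct.productMap j₁ j₃))
    (hrat : ∀ y, j₁ y ∈ IntermediateField.adjoin K (Set.range e ∪ Set.range j₃)) :
    Function.Injective e := by
  have h13 := s26etg_pair_indep ht.1 j₁ j₃ hind
  have hB₁ : ∀ i, (j₁ ∘ t) i ∈
      (matroid K Ω).closure (Set.range e ∪ Set.range (j₃ ∘ t)) := by
    intro i
    refine s26etg_adjoin_subset (Set.range e ∪ Set.range j₃) _ ?_ _ (hrat (t i))
    rintro y (hy | ⟨z, rfl⟩)
    · exact (matroid K Ω).mem_closure_of_mem (Or.inl hy)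
    · exact (matroid K Ω).closure_subset_closure Set.subset_union_right
        (s26etg_range_subset ht j₃ z)
  obtain ⟨s, hsS, hsind⟩ := s26etg_exists_indep (j₁ ∘ t) (j₃ ∘ t) h13 (Set.range e) hB₁
  choose a ha using hsS
  have hea : AlgebraicIndependent K (e ∘ a) := by
    have : e ∘ a = s := funext ha
    rw [this]
    exact hsind
  rw [injective_iff_map_eq_zero]
  intro b hb
  by_contra hb0
  have hdrop := (s26eg3t_drop a e hea hb0 hb).map' hincl
  have h1 := hdrop.lift_cardinalMk_le_trdeg
  have h2 := ht.lift_cardinalMk_eq_trdeg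
  rw [← h2] at h1
  have h3 : Cardinal.mk (Option (Fin n)) ≤ Cardinal.mk (Fin n) := Cardinal.lift_le.mp h1
  rw [Cardinal.mk_option, Cardinal.mk_fin] at h3
  have h5 : n + 1 ≤ n := by exact_mod_cast h3
  omega

end Main

end Fermat.Agent.S26
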