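/-
S26-E, (T-shear) by the TRANSCENDENCE-DEGREE route, step (5): INDEPENDENCE (helper98).
Pure algebra (Mathlib + `EG3Tr.lean` (helper19) only).

* `s26eti5Cl S`        : the elements of a field `Ω` algebraic over a `K`-subalgebra `S`, as an
                         intermediate field of `Ω / K`;
* `s26eti5_exchange`   : **exchange**: `x, z : ι → Ω` (`ι` finite), `x` algebraically independent
                         over `K`, every `x i` algebraic over `K[z]` ⇒ `z` is algebraically
                         independent over `K` (matroid count);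
* `s26eti5_algInd3`    : `j₁ ⊗ j₂ ⊗ j₃` injective ⇒ `(j₁ ∘ t, j₂ ∘ t, j₃ ∘ t)` is algebraically
                         independent for every algebraically independent `t`;
* **`s26eti5_indep3`** : `t` a finite transcendence basis of `F / K`, `j₁ ⊗ j₂ ⊗ j₃` injective,
                         `j₁ (F) ⊆ K (j′ F, j₃ F)` ⇒ `j′ ⊗ j₂ ⊗ j₃` is injective
                         (helper18's literal shape; `hrat` = his `s26etr_rational_pt'`);
* `s26eti5_indep3'`    : the same with `j₁ (F) ⊆ K (j′ F, j₂ F, j₃ F)`.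
-/
import Mathlib
import Fermat.Agent.S26.EG3Tr

set_option autoImplicit false
set_option linter.unusedSectionVars false
set_option linter.style.haveILetI false

namespace Fermat.Agent.S26

open TensorProduct

universe u

section Exchange

variable {K Ω : Type*} [Field K] [Field Ω] [Algebra K Ω]

/-- the elements of `Ω` algebraic over the `K`-subalgebra `S`, as an intermediate field -/
def s26eti5Cl (S : Subalgebra K Ω) : IntermediateField K Ω :=
  Subalgebra.toIntermediateField ((Subalgebra.algebraicClosure S Ω).restrictScalars K)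
    (fun x hx => by
      have h1 : IsAlgebraic S x := (Subalgebra.mem_algebraicClosure _ _).1 hx
      exact (Subalgebra.mem_algebraicClosure _ _).2 (IsAlgebraic.inv_iff.2 h1))

theorem s26eti5_mem_cl {S : Subalgebra K Ω} {x : Ω} :
    x ∈ s26eti5Cl S ↔ IsAlgebraic S x :=
  Subalgebra.mem_algebraicClosure _ _

/-- **exchange**: a finite family `z` over which an algebraically independent family `x` of the
same size is algebraic, is algebraically independent. -/
theorem s26eti5_exchange {ι : Type*} [Finite ι] (x z : ι → Ω)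
    (hx : AlgebraicIndependent K x)
    (hxz : ∀ i, IsAlgebraic (Algebra.adjoin K (Set.range z)) (x i)) :
    AlgebraicIndependent K z := by
  classical
  have hI : (AlgebraicIndependent.matroid K Ω).Indep (Set.range x) :=
    AlgebraicIndependent.matroid_indep_iff.2 hx.to_subtype_range
  have hsub : Set.range x ⊆ (AlgebraicIndependent.matroid K Ω).closure (Set.range z) := by
    rw [AlgebraicIndependent.matroid_closure_eq]
    rintro _ ⟨i, rfl⟩
    exact (Subalgebra.mem_algebraicClosure _ _).2 (hxz i)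
  have h1 : (Set.range x).encard ≤ (AlgebraicIndependent.matroid K Ω).eRk (Set.range z) := by
    have h := hI.encard_le_eRk_of_subset hsub
    rwa [Matroid.eRk_closure_eq] at h
  have h2 : ENat.card ι ≤ (Set.range x).encard := hx.injective.encard_range
  have h3 : (Set.range z).encard ≤ ENat.card ι := by
    rw [← Set.image_univ, ← Set.encard_univ ι]
    exact Set.encard_image_le z Set.univ
  have h4 : (AlgebraicIndependent.matroid K Ω).eRk (Set.range z) ≤ (Set.range z).encard :=
    (AlgebraicIndependent.matroid K Ω).eRk_le_encard _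
  have h5 : (AlgebraicIndependent.matroid K Ω).eRk (Set.range z) = (Set.range z).encard :=
    le_antisymm h4 (h3.trans (h2.trans h1))
  have h6 : (Set.range z).encard = ENat.card ι := le_antisymm h3 (h2.trans (h1.trans h4))
  have hZ : (AlgebraicIndependent.matroid K Ω).Indep (Set.range z) :=
    (Matroid.indep_iff_eRk_eq_encard_of_finite (Set.finite_range z)).2 h5
  have hinj : Function.Injective z := by
    have h7 : Set.InjOn z Set.univ :=
      Set.Finite.injOn_of_encard_image_eq Set.finite_univ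
        (by rw [Set.image_univ, h6, Set.encard_univ])
    exact Set.injOn_univ.1 h7
  exact (algebraicIndependent_subtype_range hinj).1 (AlgebraicIndependent.matroid_indep_iff.1 hZ)

end Exchange

section Three

open Algebra.TensorProduct

variable {K F Ω : Type u} [Field K] [Field F] [Algebra K F] [Field Ω] [Algebra K Ω]

/-- the family `(t ⊗ 1) ⊗ 1, (1 ⊗ t) ⊗ 1, (1 ⊗ 1) ⊗ t` of `(F ⊗ F) ⊗ F` -/
def s26eti5Fam {ι : Type*} (t : ι → F) : (ι ⊕ ι) ⊕ ι → (F ⊗[K] F) ⊗[K] F :=
  s26eg3tFam (K := K) (s26eg3tFam (K := K) t t) t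

/-- the family `(j₁ ∘ t, j₂ ∘ t, j₃ ∘ t)` of `Ω` -/
def s26eti5Img {ι : Type*} (t : ι → F) (j₁ j₂ j₃ : F →ₐ[K] Ω) : (ι ⊕ ι) ⊕ ι → Ω :=
  Sum.elim (Sum.elim (fun i => j₁ (t i)) (fun i => j₂ (t i))) (fun i => j₃ (t i))

theorem s26eti5_comp_fam {ι : Type*} (t : ι → F) (j₁ j₂ j₃ : F →ₐ[K] Ω) :
    (productMap (productMap j₁ j₂) j₃) ∘ s26eti5Fam (K := K) t = s26eti5Img t j₁ j₂ j₃ := by
  funext i
  rcases i with (i | i) | i
  · simp [s26eti5Fam, s26eti5Img, s26eg3tFam]
  · simp [s26eti5Fam, s26eti5Img, s26eg3tFam]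
  · simp [s26eti5Fam, s26eti5Img, s26eg3tFam]

/-- `j₁ ⊗ j₂ ⊗ j₃` injective ⇒ `(j₁ ∘ t, j₂ ∘ t, j₃ ∘ t)` algebraically independent -/
theorem s26eti5_algInd3 {ι : Type*} {t : ι → F} (ht : AlgebraicIndependent K t)
    (j₁ j₂ j₃ : F →ₐ[K] Ω)
    (hind : Function.Injective (productMap (productMap j₁ j₂) j₃)) :
    AlgebraicIndependent K (s26eti5Img t j₁ j₂ j₃) := by
  have h1 : AlgebraicIndependent K (s26eti5Fam (K := K) t) :=
    s26eg3t_algInd_tensor (s26eg3t_algInd_tensor ht ht) ht
  have h2 := h1.map' (f := productMap (productMap j₁ j₂) j₃) hind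
  rwa [s26eti5_comp_fam] at h2

/-- **(T-shear), step (5): independence**, general form: `j₁ (F) ⊆ K (j′ F, j₂ F, j₃ F)`. -/
theorem s26eti5_indep3' {n : ℕ} (t : Fin n → F) (ht : IsTranscendenceBasis K t)
    (j₁ j₂ j₃ j' : F →ₐ[K] Ω)
    (hind : Function.Injective (productMap (productMap j₁ j₂) j₃))
    (hrat : ∀ y, j₁ y ∈
      IntermediateField.adjoin K (Set.range j' ∪ Set.range j₂ ∪ Set.range j₃)) :
    Function.Injective (productMap (productMap j' j₂) j₃) := by
  -- the domains
  haveI hT : IsDomain ((F ⊗[K] F) ⊗[K] F) :=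
    Function.Injective.isDomain
      ((productMap (productMap j₁ j₂) j₃ : (F ⊗[K] F) ⊗[K] F →ₐ[K] Ω) :
        (F ⊗[K] F) ⊗[K] F →+* Ω) hind
  have hL : Function.Injective
      (includeLeft : F ⊗[K] F →ₐ[K] (F ⊗[K] F) ⊗[K] F) :=
    includeLeft_injective (algebraMap K F).injective
  haveI hFF : IsDomain (F ⊗[K] F) :=
    Function.Injective.isDomain
      ((includeLeft : F ⊗[K] F →ₐ[K] (F ⊗[K] F) ⊗[K] F) :
        F ⊗[K] F →+* (F ⊗[K] F) ⊗[K] F) hL
  -- algebraicity of `(F ⊗ F) ⊗ F` over `K[fam]`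
  haveI hA : Algebra.IsAlgebraic (Algebra.adjoin K (Set.range t)) F := ht.isAlgebraic
  haveI hA2 : Algebra.IsAlgebraic
      (Algebra.adjoin K (Set.range (s26eg3tFam (K := K) t t))) (F ⊗[K] F) :=
    s26eg3t_isAlgebraic_tensor t t
  haveI hA3 : Algebra.IsAlgebraic
      (Algebra.adjoin K (Set.range (s26eti5Fam (K := K) t))) ((F ⊗[K] F) ⊗[K] F) :=
    s26eg3t_isAlgebraic_tensor (s26eg3tFam (K := K) t t) t
  -- the exchange
  have hx : AlgebraicIndependent K (s26eti5Img t j₁ j₂ j₃) :=
    s26eti5_algInd3 ht.1 j₁ j₂ j₃ hind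
  have hmem : ∀ i, s26eti5Img t j' j₂ j₃ i ∈
      Algebra.adjoin K (Set.range (s26eti5Img t j' j₂ j₃)) :=
    fun i => Algebra.subset_adjoin ⟨i, rfl⟩
  have hjalg : ∀ (j : F →ₐ[K] Ω),
      (∀ i, j (t i) ∈ Algebra.adjoin K (Set.range (s26eti5Img t j' j₂ j₃))) →
      ∀ f : F, j f ∈ s26eti5Cl (Algebra.adjoin K (Set.range (s26eti5Img t j' j₂ j₃))) := by
    intro j hj f
    rw [s26eti5_mem_cl]
    -- transport of algebraicity along `j`
    have hf : IsAlgebraic (Algebra.adjoin K (Set.range t)) f := hA.isAlgebraic f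
    have key : ∀ a ∈ Algebra.adjoin K (Set.range t),
        j a ∈ Algebra.adjoin K (Set.range (s26eti5Img t j' j₂ j₃)) := by
      intro a ha
      induction ha using Algebra.adjoin_induction with
      | mem a ha =>
        obtain ⟨i, rfl⟩ := ha
        exact hj i
      | algebraMap k =>
        rw [AlgHom.commutes]
        exact Subalgebra.algebraMap_mem _ k
      | add a b _ _ ha hb =>
        rw [map_add]
        exact Subalgebra.add_mem _ ha hb
      | mul a b _ _ ha hb =>
        rw [map_mul]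
        exact Subalgebra.mul_mem _ ha hb
    let φ : Algebra.adjoin K (Set.range t) →ₐ[K]
        Algebra.adjoin K (Set.range (s26eti5Img t j' j₂ j₃)) :=
      (j.comp (Algebra.adjoin K (Set.range t)).val).codRestrict _ (fun c => key c c.2)
    have hφ : Function.Injective φ := fun a b h => by
      apply Subtype.ext
      apply j.toRingHom.injective
      exact congrArg Subtype.val h
    exact hf.ringHom_of_comp_eq φ.toRingHom j.toRingHom hφ (by ext c; rfl)
  have hcl : IntermediateField.adjoin K (Set.range j' ∪ Set.range j₂ ∪ Set.range j₃) ≤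
      s26eti5Cl (Algebra.adjoin K (Set.range (s26eti5Img t j' j₂ j₃))) := by
    rw [IntermediateField.adjoin_le_iff]
    rintro _ ((⟨f, rfl⟩ | ⟨f, rfl⟩) | ⟨f, rfl⟩)
    · exact hjalg j' (fun i => hmem (Sum.inl (Sum.inl i))) f
    · exact hjalg j₂ (fun i => hmem (Sum.inl (Sum.inr i))) f
    · exact hjalg j₃ (fun i => hmem (Sum.inr i)) f
  have hxz : ∀ i, IsAlgebraic (Algebra.adjoin K (Set.range (s26eti5Img t j' j₂ j₃)))
      (s26eti5Img t j₁ j₂ j₃ i) := by
    rintro ((i | i) | i)
    · exact s26eti5_mem_cl.1 (hcl (hrat (t i)))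
    · exact isAlgebraic_algebraMap
        (⟨_, hmem (Sum.inl (Sum.inr i))⟩ :
          Algebra.adjoin K (Set.range (s26eti5Img t j' j₂ j₃)))
    · exact isAlgebraic_algebraMap
        (⟨_, hmem (Sum.inr i)⟩ : Algebra.adjoin K (Set.range (s26eti5Img t j' j₂ j₃)))
  have hz : AlgebraicIndependent K (s26eti5Img t j' j₂ j₃) :=
    s26eti5_exchange _ _ hx hxz
  -- injectivity
  refine s26eg3t_injective (s26eti5Fam (K := K) t) (productMap (productMap j' j₂) j₃) ?_
  rw [s26eti5_comp_fam]
  exact hz

/-- **(T-shear), step (5): independence** (helper18's shape): `t` a finite transcendence basis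
of `F / K`, `(j₁, j₂, j₃)` independent, `j₁ (F) ⊆ K (j′ F, j₃ F)` ⇒ `(j′, j₂, j₃)` independent. -/
theorem s26eti5_indep3 {n : ℕ} (t : Fin n → F) (ht : IsTranscendenceBasis K t)
    (j₁ j₂ j₃ j' : F →ₐ[K] Ω)
    (hind : Function.Injective (productMap (productMap j₁ j₂) j₃))
    (hrat : ∀ y, j₁ y ∈ IntermediateField.adjoin K (Set.range j' ∪ Set.range j₃)) :
    Function.Injective (productMap (productMap j' j₂) j₃) := by
  refine s26eti5_indep3' t ht j₁ j₂ j₃ j' hind (fun y => ?_)
  refine IntermediateField.adjoin.mono K _ _ ?_ (hrat y)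
  rintro a (ha | ha)
  · exact Or.inl (Or.inl ha)
  · exact Or.inr ha

end Three

end Fermat.Agent.S26
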