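/-
S26-E, TI-GEN / TShear by the TRANSCENDENCE-DEGREE route, step (1): RATIONALITY (helper18).

`Ω` a field over `K`, `Ω′ ⊆ Ω` an intermediate field, `incl : Ω′ → Ω`.

* `s26etr_descend`  : a point `Q ∈ A(Ω)` whose evaluation `ev_Q : 𝒪_{A,|Q|} → Ω` has values in `Ω′`
                      comes from a point `Q′ ∈ A(Ω′)`;
* `s26etr_descend_pt` : `η_j` comes from `A(Ω′)` if `j(𝔉) ⊆ Ω′`;
* `s26etr_factor`   : if a GENERIC point `η_j ∈ A(Ω)` comes from `A(Ω′)`, then `j(𝔉) ⊆ Ω′`;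
* `s26etr_rational_left` / `_right` : `P′, Q′ ∈ A(Ω′)` with `P′ · η_j = Q′` (resp. `η_j · P′ = Q′`)
                      in `A(Ω)` ⇒ `j(𝔉) ⊆ Ω′`;
* **`s26etr_rational`** : `c₀ ∈ A(W′)`, `ι : W′ →ₐ[K] Ω`, `Q = ι c₀ · η_j`; if `ι(W′) ⊆ Ω′` and
                      `ev_Q(𝒪_{A,|Q|}) ⊆ Ω′` then `j(𝔉) ⊆ Ω′`  (`η_j = (ι c₀)⁻¹ · Q` is rational over
                      `Ω′`);  `s26etr_rational'` : the same for `Q = η_j · ι c₀`;
* `s26etr_rational_pt` / `_pt'` : the same with `Q = η_{j′}`, `j′(𝔉) ⊆ Ω′`.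
-/
import Fermat.Agent.S26.ETShear
import Fermat.Agent.S26.EG3TGen

set_option autoImplicit false
set_option linter.style.haveILetI false
set_option linter.unusedSectionVars false

noncomputable section

namespace Fermat.Agent.S26

open CategoryTheory CategoryTheory.Limits AlgebraicGeometry NeronModelInfra GoodReductionJacobian

universe u

variable {K : Type u} [Field K] {A : Scheme.{u}} (f : A ⟶ Spec (CommRingCat.of K))
  {Ω : Type u} [Field Ω] [Algebra K Ω]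

/-- the two generic points (PlanE, EG3TGen) coincide -/
theorem s26etr_eta_eq [IsIntegral A] : s26eg3tEta f = s26eEta f := rfl

/-- a point whose evaluation has values in the intermediate field `Ω′` comes from `A(Ω′)`. -/
theorem s26etr_descend (Ω' : IntermediateField K Ω) (Q : s26eptPts f Ω)
    (hev : ∀ a : A.presheaf.stalk (s26eptPt f Q), s26eptEv f Q a ∈ Ω') :
    ∃ Q' : s26eptPts f Ω', s26eptMap f Ω'.val Q' = Q := by
  let ev' : A.presheaf.stalk (s26eptPt f Q) →+* Ω' :=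
    (s26eptEv f Q).codRestrict Ω'.toSubfield.toSubring hev
  let Q₀ : Spec (CommRingCat.of Ω') ⟶ A :=
    Spec.map (CommRingCat.ofHom ev') ≫ A.fromSpecStalk (s26eptPt f Q)
  have hQ : s26eptSpec Ω'.val ≫ Q₀ = Q.1 := by
    rw [s26ept_eq_SpecMap_ev f Q]
    simp only [Q₀, s26eptSpec, ← Category.assoc, ← Spec.map_comp]
    rfl
  have hover : Q₀ ≫ f = s26eptStr K Ω' :=
    s26ept_over_of_injective f Ω'.val Subtype.val_injective Q₀ (by rw [hQ]; exact Q.2)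
  exact ⟨⟨Q₀, hover⟩, Subtype.ext hQ⟩

/-- `η_j` comes from `A(Ω′)` if `j(𝔉) ⊆ Ω′`. -/
theorem s26etr_descend_pt [IsIntegral A] (Ω' : IntermediateField K Ω) (j : s26F f →ₐ[K] Ω)
    (hj : ∀ y, j y ∈ Ω') :
    ∃ Q' : s26eptPts f Ω', s26eptMap f Ω'.val Q' = s26ePt f j := by
  refine ⟨s26ePt f (j.codRestrict Ω'.toSubalgebra hj), ?_⟩
  rw [s26ets_pt_comp]
  rfl

/-- if a GENERIC point `η_j ∈ A(Ω)` comes from `A(Ω′)`, then `j(𝔉) ⊆ Ω′`. -/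
theorem s26etr_factor [IsIntegral A] (Ω' : IntermediateField K Ω) (j : s26F f →ₐ[K] Ω)
    (R' : s26eptPts f Ω') (hR : s26eptMap f Ω'.val R' = s26ePt f j) (y : s26F f) : j y ∈ Ω' := by
  haveI : IsLocalHom ((Ω'.val : Ω' →ₐ[K] Ω) : Ω' →+* Ω) := by
    constructor
    intro a ha
    have ha0 : a ≠ 0 := by
      rintro rfl
      simp at ha
    exact isUnit_iff_ne_zero.mpr ha0
  have hpt : s26eptPt f R' = genericPoint A := by
    rw [← s26eptPt_map f Ω'.val R', hR]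
    exact s26eg3t_pt_map_eta f j
  obtain ⟨j'', hj''⟩ := s26eg3t_exists_of_generic f R' hpt
  have h1 : s26ePt f (Ω'.val.comp j'') = s26ePt f j := by
    rw [← s26ets_pt_comp, ← hR]
    congr 1
  have h2 : Ω'.val.comp j'' = j := s26ets_pt_injective f h1
  rw [← h2]
  exact (j'' y).2

variable (G : RelativeGroupLaw K f)

/-- `P′ · η_j = Q′` in `A(Ω)` with `P′, Q′ ∈ A(Ω′)` ⇒ `j(𝔉) ⊆ Ω′`. -/
theorem s26etr_rational_left [IsIntegral A] (Ω' : IntermediateField K Ω)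
    (P' Q' : s26eptPts f Ω') (j : s26F f →ₐ[K] Ω)
    (h : G.mul _ (s26eptMap f Ω'.val P') (s26ePt f j) = s26eptMap f Ω'.val Q') (y : s26F f) :
    j y ∈ Ω' := by
  refine s26etr_factor f Ω' j (G.mul _ (G.inv _ P') Q') ?_ y
  rw [s26eptMap_mul, s26eptMap_inv, ← h, ← G.mul_assoc, G.inv_mul_cancel, G.one_mul]

/-- `η_j · P′ = Q′` in `A(Ω)` with `P′, Q′ ∈ A(Ω′)` ⇒ `j(𝔉) ⊆ Ω′`. -/
theorem s26etr_rational_right [IsIntegral A] (Ω' : IntermediateField K Ω)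
    (P' Q' : s26eptPts f Ω') (j : s26F f →ₐ[K] Ω)
    (h : G.mul _ (s26ePt f j) (s26eptMap f Ω'.val P') = s26eptMap f Ω'.val Q') (y : s26F f) :
    j y ∈ Ω' := by
  letI := G.pointGroup (s26eptStr K Ω)
  refine s26etr_factor f Ω' j (G.mul _ Q' (G.inv _ P')) ?_ y
  rw [s26eptMap_mul, s26eptMap_inv, ← h]
  exact mul_inv_cancel_right (s26ePt f j) (s26eptMap f Ω'.val P')

section Rat

variable {W' : Type u} [CommRing W'] [Algebra K W']

/-- a point `ι c₀` comes from `A(Ω′)` if `ι(W′) ⊆ Ω′`. -/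
theorem s26etr_descend_map (Ω' : IntermediateField K Ω) (c₀ : s26eptPts f W') (ι : W' →ₐ[K] Ω)
    (hι : ∀ w, ι w ∈ Ω') :
    ∃ P' : s26eptPts f Ω', s26eptMap f Ω'.val P' = s26eptMap f ι c₀ := by
  refine ⟨s26eptMap f (ι.codRestrict Ω'.toSubalgebra hι) c₀, ?_⟩
  rw [← s26eptMap_comp]
  rfl

/-- **RATIONALITY**: `Q = ι c₀ · η_j`; if `Ω′ ⊇ ι(W′)` and `Ω′ ⊇ ev_Q(𝒪_{A,|Q|})` then
`Ω′ ⊇ j(𝔉)`. -/
theorem s26etr_rational [IsIntegral A] (Ω' : IntermediateField K Ω) (c₀ : s26eptPts f W')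
    (ι : W' →ₐ[K] Ω) (j : s26F f →ₐ[K] Ω) (hι : ∀ w, ι w ∈ Ω')
    (hev : ∀ a : A.presheaf.stalk (s26eptPt f (G.mul _ (s26eptMap f ι c₀) (s26ePt f j))),
      s26eptEv f (G.mul _ (s26eptMap f ι c₀) (s26ePt f j)) a ∈ Ω') (y : s26F f) : j y ∈ Ω' := by
  obtain ⟨P', hP'⟩ := s26etr_descend_map f Ω' c₀ ι hι
  obtain ⟨Q', hQ'⟩ := s26etr_descend f Ω' _ hev
  exact s26etr_rational_left f G Ω' P' Q' j (by rw [hP', hQ']) y

/-- **RATIONALITY**, other order: `Q = η_j · ι c₀`. -/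
theorem s26etr_rational' [IsIntegral A] (Ω' : IntermediateField K Ω) (c₀ : s26eptPts f W')
    (ι : W' →ₐ[K] Ω) (j : s26F f →ₐ[K] Ω) (hι : ∀ w, ι w ∈ Ω')
    (hev : ∀ a : A.presheaf.stalk (s26eptPt f (G.mul _ (s26ePt f j) (s26eptMap f ι c₀))),
      s26eptEv f (G.mul _ (s26ePt f j) (s26eptMap f ι c₀)) a ∈ Ω') (y : s26F f) : j y ∈ Ω' := by
  obtain ⟨P', hP'⟩ := s26etr_descend_map f Ω' c₀ ι hι
  obtain ⟨Q', hQ'⟩ := s26etr_descend f Ω' _ hev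
  exact s26etr_rational_right f G Ω' P' Q' j (by rw [hP', hQ']) y

/-- **RATIONALITY** when `ι c₀ · η_j = η_{j′}`: `Ω′ ⊇ ι(W′), j′(𝔉)` ⇒ `Ω′ ⊇ j(𝔉)`. -/
theorem s26etr_rational_pt [IsIntegral A] (Ω' : IntermediateField K Ω) (c₀ : s26eptPts f W')
    (ι : W' →ₐ[K] Ω) (j j' : s26F f →ₐ[K] Ω) (hι : ∀ w, ι w ∈ Ω') (hj' : ∀ y, j' y ∈ Ω')
    (h : s26ePt f j' = G.mul _ (s26eptMap f ι c₀) (s26ePt f j)) (y : s26F f) : j y ∈ Ω' := by
  obtain ⟨P', hP'⟩ := s26etr_descend_map f Ω' c₀ ι hι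
  obtain ⟨Q', hQ'⟩ := s26etr_descend_pt f Ω' j' hj'
  exact s26etr_rational_left f G Ω' P' Q' j (by rw [hP', hQ', h]) y

/-- **RATIONALITY** when `η_j · ι c₀ = η_{j′}`. -/
theorem s26etr_rational_pt' [IsIntegral A] (Ω' : IntermediateField K Ω) (c₀ : s26eptPts f W')
    (ι : W' →ₐ[K] Ω) (j j' : s26F f →ₐ[K] Ω) (hι : ∀ w, ι w ∈ Ω') (hj' : ∀ y, j' y ∈ Ω')
    (h : s26ePt f j' = G.mul _ (s26ePt f j) (s26eptMap f ι c₀)) (y : s26F f) : j y ∈ Ω' := by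
  obtain ⟨P', hP'⟩ := s26etr_descend_map f Ω' c₀ ι hι
  obtain ⟨Q', hQ'⟩ := s26etr_descend_pt f Ω' j' hj'
  exact s26etr_rational_right f G Ω' P' Q' j (by rw [hP', hQ', h]) y

end Rat

end Fermat.Agent.S26

end
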