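/-
S26-E, the (TI) hub (helper82): **FINAL** — `s26etifin_tifc : s26eti_StmtTIFc`.

(TI) over `F = s26etifOm K Γ L = Frac (Γ ⊗[K] L)`, `L` algebraically closed, from
* (c) `s26eticm_top` (helper97, S26/ETiCM.lean, on `s26etic_top`): the function `G₀` with the
  orders of the family `Sq(ν + b; y, z)` at the places of `F / L`, and the 8 points in `U`
  (`s26eticm_mem_U`: helper24's TI-NV8 with (NV) helper11 and (SP-STEP) helper84);
* (d) `s26evt_rel` (helper38, S26/EVertTop.lean): normalisation + (hNOR) + (hHOR) + (hLG) + (hSEC);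
* the model `s26etifOm` (helper33, S26/ETiFields.lean) with its swapped structure
  `s26etifSwapAlgebra`.
-/
import Fermat.Agent.S26.ETiPlanC
import Fermat.Agent.S26.EVertTop
import Fermat.Agent.S26.ETiCM
import Fermat.Agent.S26.ETiSecW0
import Fermat.Agent.S26.ERComp
import Fermat.Agent.S26.ERedHres

set_option autoImplicit false
set_option linter.style.haveILetI false
set_option linter.unusedVariables false
set_option linter.unusedSectionVars false

noncomputable section

namespace Fermat.Agent.S26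

open CategoryTheory CategoryTheory.Limits AlgebraicGeometry NeronModelInfra GoodReductionJacobian
open AlgebraicCurve IntermediateField
open scoped TensorProduct

universe u

section Curve

variable {K Γ : Type u} [Field K] [Field Γ] [Algebra K Γ]

/-- `hcomp` for a curve: every valuation subring `≠ ⊤` over `K` is a place. -/
theorem s26etifin_hcomp (hΓ : S26eIsCurve K Γ) (W : ValuationSubring Γ)
    (hK : ∀ a : K, algebraMap K Γ a ∈ W) (hne : W ≠ ⊤) :
    ∃ Q : Place K Γ, Q.toValuationSubring = W := by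
  obtain ⟨t, ht, hfin, -⟩ := hΓ
  haveI : FiniteDimensional K⟮t⟯ Γ := hfin
  exact s26ercomp_exists_place
    (fun s hs => Fermat.Agent.S24.pd_finiteDimensional_adjoin_of_transcendental t ht s hs)
    W hK hne

/-- `hresΓ` for a curve over an algebraically closed field. -/
theorem s26etifin_hres [IsAlgClosed K] (hΓ : S26eIsCurve K Γ) (Q : Place K Γ) (u : Γ)
    (hu : u ∈ Q.toValuationSubring) :
    ∃ c₀ : K, u - algebraMap K Γ c₀ ∈ Q.toValuationSubring.nonunits := by
  obtain ⟨t, ht, hfin, -⟩ := hΓ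
  haveI : FiniteDimensional K⟮t⟯ Γ := hfin
  obtain ⟨c₀, hc₀⟩ := (s26erh_hresK ht (Algebra.IsAlgebraic.of_finite _ _) Q).2
    (IsLocalRing.residue _ ⟨u, hu⟩)
  refine ⟨c₀, ?_⟩
  have h1 : IsLocalRing.residue ↥Q.toValuationSubring
      (⟨u, hu⟩ - algebraMap K ↥Q.toValuationSubring c₀) = 0 := by
    rw [map_sub, sub_eq_zero, ← hc₀]
    rfl
  have h2 := (IsLocalRing.residue_eq_zero_iff _).1 h1
  exact ValuationSubring.mem_nonunits_iff_exists_mem_maximalIdeal.2
    ⟨Q.toValuationSubring.sub_mem hu (Q.algebraMap_mem' c₀), h2⟩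

end Curve

/-- **(TI) over `F = Frac (Γ ⊗[K] L)`** in the concrete model: the FINAL assembly of (c) and (d). -/
theorem s26etifin_tifc : s26eti_StmtTIFc.{u} := by
  intro K _ _ A f G g hH _ _ _ U hAdm hD Γ _ _ hΓ ν γ₀ hν W _ _ b hb L _ _ _ ιW j₁ j₂ hinj
  -- (c) in the model, and the eight points
  obtain ⟨G₀, hG₀, hc⟩ :=
    s26eticm_top K f G g hH U hAdm hD Γ hΓ ν γ₀ hν W b hb L ιW j₁ j₂ hinj
  obtain ⟨⟨p1, p2, p3, p4⟩, ⟨b1, b2, b3, b4⟩⟩ :=
    s26eticm_mem_U K f G g hH U hAdm hD Γ ν γ₀ hν W b hb L ιW j₁ j₂ hinj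
  have eb : s26eptMap f ((s26etifR K Γ L).comp ιW) b =
      s26eptMap f (s26etifR K Γ L) (s26eptMap f ιW b) := s26eptMap_comp f ιW (s26etifR K Γ L) b
  have e1 : s26ePt f ((s26etifR K Γ L).comp j₁) =
      s26eptMap f (s26etifR K Γ L) (s26ePt f j₁) := (s26etta_pt_map f (s26etifR K Γ L) j₁).symm
  have e2 : s26ePt f ((s26etifR K Γ L).comp j₂) =
      s26eptMap f (s26etifR K Γ L) (s26ePt f j₂) := (s26etta_pt_map f (s26etifR K Γ L) j₂).symm
  rw [eb] at p1 p2 p3 p4 b1 b2 b3 b4 hc ⊢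
  rw [e1] at p1 p3 b1 b3 hc ⊢
  rw [e2] at p1 p4 b1 b4 hc ⊢
  -- the four constant points, in `A(L)`
  have hb' : s26eptPt f (s26eptMap f ιW b) ∈ U := by
    rw [s26etih_pt_map] at b2; exact b2
  have hby' : s26eptPt f (G.mul _ (s26eptMap f ιW b) (s26ePt f j₁)) ∈ U := by
    rw [← s26eptMap_mul, s26etih_pt_map] at b3; exact b3
  have hbz' : s26eptPt f (G.mul _ (s26eptMap f ιW b) (s26ePt f j₂)) ∈ U := by
    rw [← s26eptMap_mul, s26etih_pt_map] at b4; exact b4
  have hbyz' : s26eptPt f (G.mul _ (G.mul _ (s26eptMap f ιW b) (s26ePt f j₁))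
      (s26ePt f j₂)) ∈ U := by
    rw [← s26eptMap_mul, ← s26eptMap_mul, s26etih_pt_map] at b1; exact b1
  -- the curve
  have hΓ' := hΓ
  obtain ⟨t, ht, hfin, -⟩ := hΓ'
  haveI : FiniteDimensional K⟮t⟯ Γ := hfin
  have hld : Function.Injective (s26gspMu K Γ L (s26etifOm K Γ L)) :=
    s26etif_mu_injective (K := K) (Γ := Γ) (𝔎 := L)
  have hgen : S26gspGen K Γ L (s26etifOm K Γ L) := fun ω => s26etif_gen ω
  have hx : Transcendental L (algebraMap Γ (s26etifOm K Γ L) t) :=
    s26gspc_transcendental hld ht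
  haveI : FiniteDimensional L⟮algebraMap Γ (s26etifOm K Γ L) t⟯ (s26etifOm K Γ L) :=
    s26erh_finiteDimensional hgen t
  -- the place `γ₀`
  have hall : Function.Surjective (algebraMap K γ₀.ResidueField) := s26gspf_hall ht γ₀
  have hν' : s26eptMap f (s26gspRes γ₀ hall) (s26eptLift f Γ ↥γ₀.toValuationSubring ν) =
      G.one _ :=
    s26etis_spOne_of_sp f G γ₀.toValuationSubring (s26gspRes γ₀ hall) ν hν
  -- the swapped structure of the model
  letI := s26etifSwapAlgebra K Γ L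
  haveI := s26etif_swap_isFractionRing K Γ L
  haveI := s26etif_swap_towerK K Γ L
  exact s26evt_rel f hD G (s26etifR K Γ L)
    (fun l => by
      rw [s26etif_swap_algebraMap_tmul, map_one, mul_one]
      rfl)
    (fun l => rfl)
    (s26etifL K Γ L)
    (fun γ => by
      rw [s26etif_swap_algebraMap_tmul, map_one, one_mul]
      rfl)
    hΓ (s26etifin_hcomp hΓ) (s26etifin_hres hΓ)
    (algebraMap Γ (s26etifOm K Γ L) t) hx ν γ₀.toValuationSubring (s26gspRes γ₀ hall) hν'
    (s26eptMap f ιW b) (s26ePt f j₁) (s26ePt f j₂) ⟨p1, p2, p3, p4⟩ hb' hby' hbz' hbyz' hG₀ hc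

end Fermat.Agent.S26

end
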