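/-
S26-E, (TI): **FINAL** — `s26etifz_tifc : s26eti_StmtTIFc` (helper97).

The statement of translation invariance in the concrete model `F = s26etifOm K Γ L`
(S26/ETiPlanC.lean), from
* step (c) in the model, `s26eticm_top` + the eight points `s26eticm_mem_U` (S26/ETiCM.lean),
* step (d), `s26evt_rel` (helper38, S26/EVertTop.lean),
* the model hypotheses `s26etimo_*` (helper24, S26/ETiModel.lean).
-/
import Fermat.Agent.S26.ETiCM
import Fermat.Agent.S26.EVertTop
import Fermat.Agent.S26.ETiModel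

set_option autoImplicit false
set_option linter.style.haveILetI false
set_option linter.unusedVariables false
set_option linter.unusedSectionVars false

noncomputable section

namespace Fermat.Agent.S26

open CategoryTheory CategoryTheory.Limits AlgebraicGeometry NeronModelInfra GoodReductionJacobian
open AlgebraicCurve IntermediateField
open scoped TensorProduct

universe u

/-- **(TI) over `F = s26etifOm K Γ L`.** -/
theorem s26etifz_tifc : s26eti_StmtTIFc.{u} := by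
  intro K _ _ A f G g hH _ _ _ U hAdm hD Γ _ _ hΓ ν γ₀ hν W _ _ b hb L _ _ _ ιW j₁ j₂ hinj
  letI := s26etifSwapAlgebra K Γ L
  haveI := s26etif_swap_isFractionRing K Γ L
  haveI := s26etif_swap_towerK K Γ L
  obtain ⟨G₀, hG₀, hc⟩ :=
    s26eticm_top K f G g hH U hAdm hD Γ hΓ ν γ₀ hν W b hb L ιW j₁ j₂ hinj
  obtain ⟨⟨p1, p2, p3, p4⟩, ⟨b1, b2, b3, b4⟩⟩ :=
    s26eticm_mem_U K f G g hH U hAdm hD Γ ν γ₀ hν W b hb L ιW j₁ j₂ hinj
  have hcurve := hΓ
  obtain ⟨t, ht, hfin, -⟩ := hΓ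
  haveI : FiniteDimensional K⟮t⟯ Γ := hfin
  haveI := s26etimo_finite (K := K) (Γ := Γ) L t
  have eb : s26eptMap f ((s26etifR K Γ L).comp ιW) b =
      s26eptMap f (s26etifR K Γ L) (s26eptMap f ιW b) := s26eptMap_comp f ιW (s26etifR K Γ L) b
  have e1 : s26ePt f ((s26etifR K Γ L).comp j₁) =
      s26eptMap f (s26etifR K Γ L) (s26ePt f j₁) := (s26etta_pt_map f (s26etifR K Γ L) j₁).symm
  have e2 : s26ePt f ((s26etifR K Γ L).comp j₂) =
      s26eptMap f (s26etifR K Γ L) (s26ePt f j₂) := (s26etta_pt_map f (s26etifR K Γ L) j₂).symm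
  rw [eb] at p1 p2 p3 p4 b1 b2 b3 b4 hc ⊢
  rw [e1] at p1 p3 b1 b3 hc ⊢
  rw [e2] at p1 p4 b1 b4 hc ⊢
  have hb' : s26eptPt f (s26eptMap f ιW b) ∈ U := by
    rw [s26etih_pt_map] at b2; exact b2
  have hby' : s26eptPt f (G.mul _ (s26eptMap f ιW b) (s26ePt f j₁)) ∈ U := by
    rw [← s26eptMap_mul, s26etih_pt_map] at b3; exact b3
  have hbz' : s26eptPt f (G.mul _ (s26eptMap f ιW b) (s26ePt f j₂)) ∈ U := by
    rw [← s26eptMap_mul, s26etih_pt_map] at b4; exact b4
  have hbyz' : s26eptPt f (G.mul _ (G.mul _ (s26eptMap f ιW b) (s26ePt f j₁))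
      (s26ePt f j₂)) ∈ U := by
    rw [← s26eptMap_mul, ← s26eptMap_mul, s26etih_pt_map] at b1; exact b1
  exact s26evt_rel f hD G (s26etifR K Γ L) (s26etimo_hL K Γ L) (s26etimo_hιL K Γ L)
    (s26etifL K Γ L) (s26etimo_hΓ K Γ L) hcurve (s26etimo_hcomp hcurve)
    (s26etimo_hresΓ hcurve) (algebraMap Γ (s26etifOm K Γ L) t) (s26etimo_hx L ht) ν
    γ₀.toValuationSubring (s26etimoE hcurve γ₀) (s26etimo_hν f G hcurve ν γ₀ hν)
    (s26eptMap f ιW b) (s26ePt f j₁) (s26ePt f j₂) ⟨p1, p2, p3, p4⟩ hb' hby' hbz' hbyz' hG₀ hc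

end Fermat.Agent.S26

end
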