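/-
S26-E, TI hub leaf **TI-INST-F** (helper70, for helper82): (c) (`s26erig_main_ac`,
`s26erig_main_sym`) INSTANTIATED at `F = Frac (Γ ⊗[K] L)`, in THE shape of helper96
(`Algebra Γ F`, `Algebra L F`, `hld : Function.Injective (s26gspMu K Γ L F)`,
`hgen : S26gspGen K Γ L F`), with ALL curve hypotheses discharged.

THE `con` is `s26gspCon hld hgen hall` (helper96, `S26/ERRGaussPlace.lean`), `hall` any proof of
"every place of `Γ / K` has residue field `K`" (`s26etiF_hall`; proofs are irrelevant).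

Cited (already on main):
* `hxF`   = `s26gspc_transcendental hld hx`      (helper96, S26/ERRGaussAlg.lean)
* `halgF` = `s26gspc_isAlgebraic hgen halgΓ`      (helper96, S26/ERRGaussAlg.lean)
* `hΓL`   = `s26gspc_hΓL hld`                     (helper96, S26/ERRGaussCon.lean)
* `hcon`  = `s26gspc_hcon hld hgen hall`          (helper96, S26/ERRGaussCon.lean)
* `hpdF`  = `s26erh_hpd hld hgen hx`              (helper12, S26/ERedHres.lean; helper79 (RR-B))
* `ord`   = `s26gspc_ord_algebraMap`, `deg` = `s26gspc_degree`   (helper96).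

New here:
* `s26etiF_hall`     : the hypothesis `hall` (`K` algebraically closed, `Γ / K(x)` algebraic);
* `s26etiF_main_ac`  : `s26erig_main_ac` with `hxF`, `halgΓ`, `halgF`, `hpdF`, `hΓL`, `hcon` discharged;
* `s26etiF_main_sym` : `s26erig_main_sym` with the same hypotheses discharged;
* `s26etiF_ord_eq_zero_of_not_con`, `s26etiF_mapDomain_con`, `s26etiF_rr_con` : bookkeeping for
  the divisor `Δ + Con E₀`.
-/
import Fermat.Agent.S26.ERigV
import Fermat.Agent.S26.ERedHres

set_option autoImplicit false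
set_option linter.style.haveILetI false
set_option linter.unusedSectionVars false
set_option linter.unusedVariables false

noncomputable section

namespace Fermat.Agent.S26

open AlgebraicCurve TensorProduct IsLocalRing IntermediateField

section Hall

variable {K Γ : Type*} [Field K] [Field Γ] [Algebra K Γ]

/-- **`hall`**: over an algebraically closed constant field every place has residue field `K`. -/
theorem s26etiF_hall [IsAlgClosed K] (x : Γ) (hx : Transcendental K x)
    (halgΓ : Algebra.IsAlgebraic (IntermediateField.adjoin K {x}) Γ) (P : Place K Γ) :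
    Function.Surjective (algebraMap K P.ResidueField) :=
  (s26erh_hresK hx halgΓ P).2

/-- `halgΓ` from finiteness. -/
theorem s26etiF_halgΓ (x : Γ) [FiniteDimensional (IntermediateField.adjoin K {x}) Γ] :
    Algebra.IsAlgebraic (IntermediateField.adjoin K {x}) Γ :=
  Algebra.IsAlgebraic.of_finite _ _

end Hall

universe u v w

variable {K : Type v} {Γ : Type w} {L F : Type u} [Field K] [Field Γ] [Field L] [Field F]
  [Algebra K Γ] [Algebra K L] [Algebra Γ F] [Algebra L F] [Algebra K F]
  [IsScalarTower K Γ F] [IsScalarTower K L F]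

/-- **(c) at `F = Frac (Γ ⊗[K] L)`**, form `s26erig_main_ac`: only the field `M`, the divisors
and the reduction data are left as hypotheses. -/
theorem s26etiF_main_ac [IsAlgClosed K] [IsAlgClosed L]
    (hld : Function.Injective (s26gspMu K Γ L F)) (hgen : S26gspGen K Γ L F)
    (hall : ∀ P : Place K Γ, Function.Surjective (algebraMap K P.ResidueField))
    {R₀ M : Type*} [CommRing R₀] [IsLocalRing R₀] [Field M]
    (i : R₀ →+* M) (j : M →+* L)
    (hM : ∀ x : L, j.IsIntegralElem x → x ∈ j.range)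
    (hKR : ∀ a : K, ∃ r : R₀, j (i r) = algebraMap K L a)
    (x : Γ) (hx : Transcendental K x)
    [FiniteDimensional (IntermediateField.adjoin K {x}) Γ]
    (E₀ : Divisor K Γ) (Δ : Divisor L F)
    (hRR : ∃ f : F, f ≠ 0 ∧
      f ∈ riemannRochSpace (Δ + Finsupp.mapDomain (s26gspCon hld hgen hall) E₀))
    (hz : ∀ V : ValuationSubring L, (∀ r, j (i r) ∈ V) →
      (∀ r ∈ maximalIdeal R₀, j (i r) ∈ V.nonunits) →
        S26erigRedAt (s26gspCon hld hgen hall) E₀ Δ V)
    (hy : ∃ V : ValuationSubring L, (∀ m, j m ∈ V) ∧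
      S26erigRedAt (s26gspCon hld hgen hall) E₀ Δ V) :
    ∃ G : F, G ≠ 0 ∧ ∀ P : Place L F, P.ord G = Δ P :=
  s26erig_main_ac i j hM hKR x hx (s26etiF_halgΓ x) (s26gspc_transcendental hld hx)
    (s26gspc_isAlgebraic hgen (s26etiF_halgΓ x)) E₀ Δ (s26gspCon hld hgen hall)
    (s26erh_hpd hld hgen hx) (s26gspc_hΓL hld) (s26gspc_hcon hld hgen hall) hRR hz hy

/-- **(c) at `F = Frac (Γ ⊗[K] L)`**, symmetric form `s26erig_main_sym`. -/
theorem s26etiF_main_sym [IsAlgClosed K] [IsAlgClosed L]
    (hld : Function.Injective (s26gspMu K Γ L F)) (hgen : S26gspGen K Γ L F)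
    (hall : ∀ P : Place K Γ, Function.Surjective (algebraMap K P.ResidueField))
    {Rz Ry 𝔉 : Type*} [CommRing Rz] [IsLocalRing Rz] [CommRing Ry] [IsLocalRing Ry]
    [IsDomain Ry] [Field 𝔉] [Algebra K Ry] [Algebra K 𝔉]
    (ιz : Rz →+* 𝔉) (jz : 𝔉 →ₐ[K] L) (jy : Ry →ₐ[K] L)
    (hKz : ∀ a : K, ∃ r : Rz, ιz r = algebraMap K 𝔉 a)
    (hind : Function.Injective (Algebra.TensorProduct.productMap jz jy))
    (x : Γ) (hx : Transcendental K x)
    [FiniteDimensional (IntermediateField.adjoin K {x}) Γ]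
    (E₀ : Divisor K Γ) (Δ : Divisor L F)
    (hRR : ∃ f : F, f ≠ 0 ∧
      f ∈ riemannRochSpace (Δ + Finsupp.mapDomain (s26gspCon hld hgen hall) E₀))
    (hz : ∀ V : ValuationSubring L, (∀ r, jz (ιz r) ∈ V) →
      (∀ r ∈ maximalIdeal Rz, jz (ιz r) ∈ V.nonunits) →
        S26erigRedAt (s26gspCon hld hgen hall) E₀ Δ V)
    (hy : ∀ V : ValuationSubring L, (∀ r, jy r ∈ V) →
      (∀ r ∈ maximalIdeal Ry, jy r ∈ V.nonunits) →
        S26erigRedAt (s26gspCon hld hgen hall) E₀ Δ V) :
    ∃ G : F, G ≠ 0 ∧ ∀ P : Place L F, P.ord G = Δ P :=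
  s26erig_main_sym ιz jz jy hKz hind x hx (s26etiF_halgΓ x) (s26gspc_transcendental hld hx)
    (s26gspc_isAlgebraic hgen (s26etiF_halgΓ x)) E₀ Δ (s26gspCon hld hgen hall)
    (s26erh_hpd hld hgen hx) (s26gspc_hΓL hld) (s26gspc_hcon hld hgen hall) hRR hz hy

end Fermat.Agent.S26

end
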