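/-
S26-E, (TI) hub, leaf **MODEL INSTANCE** (helper24, asked by helper38 for helper82's ETiFin):
the model hypotheses of helper38's (d) TOP `s26evt_rel` (S26/EVertTop.lean) at helper33's
concrete field `F = s26etifOm K Γ L = Frac (Γ ⊗[K] L)`, with the SWAPPED algebra structure
`letI := s26etifSwapAlgebra K Γ L : Algebra (L ⊗[K] Γ) F`.

`K` algebraically closed, `Γ / K` a curve (`S26eIsCurve K Γ`), `L / K` any field.

* `s26etimo_hL`, `s26etimo_hΓ`, `s26etimo_hιL` : `ιL := s26etifR K Γ L`, `ιΓ := s26etifL K Γ L` are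
  the two inclusions (`hL`, `hΓ`, `hιL` of `s26evt_rel`);
  towers / fraction ring: `s26etif_swap_towerK`, `s26etif_swap_isFractionRing` (helper33).
* `s26etimo_hcomp`  : every valuation subring `W ≠ ⊤` of `Γ` over `K` is a place (`hcomp`);
* `s26etimo_hresΓ`  : every place of `Γ / K` has residue field `K` (`hresΓ`);
* `s26etimo_hx`, `s26etimo_finite` : `x = algebraMap Γ F t` is transcendental over `L` and
  `[F : L(x)] < ∞` (`x`, `hx`, `FiniteDimensional L⟮x⟯ F`);
* `s26etimoE γ₀`    : the `K`-point `e : O_{γ₀} →ₐ[K] K` of a place `γ₀` of `Γ / K` (`e`);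
  `s26etimoE_sub_mem` : `b − e b ∈ 𝔪_{γ₀}`;
* `s26etimo_hν`     : `e_* (lift ν) = 0` from `S26eSpOneAt f G ν γ₀` (`hν`; helper71's
  `s26etis_spOne`).
-/
import Fermat.Agent.S26.ETiFields
import Fermat.Agent.S26.ERRGaussFin
import Fermat.Agent.S26.ERR2a
import Fermat.Agent.S26.ETiSecW0
import Fermat.Agent.S24.Residue

set_option autoImplicit false
set_option linter.style.haveILetI false
set_option linter.unusedSectionVars false
set_option linter.unusedVariables false

noncomputable section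

namespace Fermat.Agent.S26

open CategoryTheory CategoryTheory.Limits AlgebraicGeometry NeronModelInfra GoodReductionJacobian
open AlgebraicCurve IntermediateField
open scoped TensorProduct

universe u

section Fields

variable (K Γ L : Type u) [Field K] [Field Γ] [Field L] [Algebra K Γ] [Algebra K L]
  [IsAlgClosed K]

/-- `hL` : `ιL = s26etifR` is the left inclusion of `L ⊗[K] Γ → F` (swapped structure) -/
theorem s26etimo_hL (l : L) :
    letI := s26etifSwapAlgebra K Γ L
    s26etifR K Γ L l = algebraMap (L ⊗[K] Γ) (s26etifOm K Γ L) (l ⊗ₜ[K] (1 : Γ)) := by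
  letI := s26etifSwapAlgebra K Γ L
  rw [s26etif_swap_algebraMap_tmul, map_one, mul_one]
  rfl

/-- `hΓ` : `ιΓ = s26etifL` is the right inclusion of `L ⊗[K] Γ → F` (swapped structure) -/
theorem s26etimo_hΓ (γ : Γ) :
    letI := s26etifSwapAlgebra K Γ L
    s26etifL K Γ L γ = algebraMap (L ⊗[K] Γ) (s26etifOm K Γ L) ((1 : L) ⊗ₜ[K] γ) := by
  letI := s26etifSwapAlgebra K Γ L
  rw [s26etif_swap_algebraMap_tmul, map_one, one_mul]
  rfl

/-- `hιL` -/
theorem s26etimo_hιL (l : L) : algebraMap L (s26etifOm K Γ L) l = s26etifR K Γ L l := rfl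

variable {K Γ}

/-- `hx` : a transcendental element of `Γ / K` is transcendental over `L` in `F` -/
theorem s26etimo_hx {t : Γ} (ht : Transcendental K t) :
    Transcendental L (algebraMap Γ (s26etifOm K Γ L) t) :=
  s26gspc_transcendental (K := K) (𝔠 := Γ) (𝔎 := L) (Ω := s26etifOm K Γ L)
    (s26etif_mu_injective (K := K) (Γ := Γ) (𝔎 := L)) ht

/-- `[F : L(x)] < ∞` -/
theorem s26etimo_finite (t : Γ) [FiniteDimensional (IntermediateField.adjoin K {t}) Γ] :
    FiniteDimensional (IntermediateField.adjoin L {algebraMap Γ (s26etifOm K Γ L) t})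
      (s26etifOm K Γ L) :=
  s26gspf_finiteDimensional (K := K) (𝔠 := Γ) (𝔎 := L) (Ω := s26etifOm K Γ L)
    (fun ω => s26etif_gen (K := K) (Γ := Γ) (𝔎 := L) ω) t

end Fields

section Curve

variable {K Γ : Type u} [Field K] [Field Γ] [Algebra K Γ]

/-- `hcomp` : the valuation subrings `≠ ⊤` of a curve over `K` are places -/
theorem s26etimo_hcomp (hcurve : S26eIsCurve K Γ) (W : ValuationSubring Γ)
    (hK : ∀ a : K, algebraMap K Γ a ∈ W) (hne : W ≠ ⊤) :
    ∃ Q : AlgebraicCurve.Place K Γ, Q.toValuationSubring = W := by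
  obtain ⟨t, ht, hfin, -⟩ := hcurve
  haveI : FiniteDimensional (IntermediateField.adjoin K {t}) Γ := hfin
  exact ⟨s26errPlaceOf W hK hne t ht, rfl⟩

variable [IsAlgClosed K]

/-- `hresΓ` : the places of a curve over an algebraically closed field have residue field `K` -/
theorem s26etimo_hresΓ (hcurve : S26eIsCurve K Γ) (Q : AlgebraicCurve.Place K Γ) (u : Γ)
    (hu : u ∈ Q.toValuationSubring) :
    ∃ c₀ : K, u - algebraMap K Γ c₀ ∈ Q.toValuationSubring.nonunits := by
  obtain ⟨t, ht, hfin, -⟩ := hcurve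
  haveI : FiniteDimensional (IntermediateField.adjoin K {t}) Γ := hfin
  exact Fermat.Agent.S24.exists_sub_mem_nonunits t ht (Algebra.IsAlgebraic.of_finite _ _) Q u hu

/-- the residue field of a place of a curve over an algebraically closed field is `K` -/
theorem s26etimo_bijective (hcurve : S26eIsCurve K Γ) (Q : AlgebraicCurve.Place K Γ) :
    Function.Bijective (algebraMap K Q.ResidueField) := by
  obtain ⟨t, ht, hfin, -⟩ := hcurve
  haveI : FiniteDimensional (IntermediateField.adjoin K {t}) Γ := hfin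
  exact Fermat.Agent.S24.algebraMap_residueField_bijective t ht
    (Algebra.IsAlgebraic.of_finite _ _) Q

/-- **`e`** : the `K`-point of a place `γ₀` of `Γ / K`. -/
def s26etimoE (hcurve : S26eIsCurve K Γ) (γ₀ : AlgebraicCurve.Place K Γ) :
    ↥γ₀.toValuationSubring →ₐ[K] K :=
  ((AlgEquiv.ofBijective (Algebra.ofId K γ₀.ResidueField)
      (s26etimo_bijective hcurve γ₀)).symm : γ₀.ResidueField →ₐ[K] K).comp
    (IsScalarTower.toAlgHom K ↥γ₀.toValuationSubring γ₀.ResidueField)

theorem s26etimoE_residue (hcurve : S26eIsCurve K Γ) (γ₀ : AlgebraicCurve.Place K Γ)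
    (b : ↥γ₀.toValuationSubring) :
    algebraMap K γ₀.ResidueField (s26etimoE hcurve γ₀ b) =
      IsLocalRing.residue ↥γ₀.toValuationSubring b := by
  unfold s26etimoE
  exact (AlgEquiv.ofBijective (Algebra.ofId K γ₀.ResidueField)
    (s26etimo_bijective hcurve γ₀)).apply_symm_apply _

/-- `b − e b ∈ 𝔪_{γ₀}` -/
theorem s26etimoE_sub_mem (hcurve : S26eIsCurve K Γ) (γ₀ : AlgebraicCurve.Place K Γ)
    (b : ↥γ₀.toValuationSubring) :
    b - algebraMap K ↥γ₀.toValuationSubring (s26etimoE hcurve γ₀ b) ∈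
      IsLocalRing.maximalIdeal ↥γ₀.toValuationSubring := by
  rw [← IsLocalRing.residue_eq_zero_iff, map_sub, sub_eq_zero, ← s26etimoE_residue hcurve γ₀ b]
  rfl

end Curve

section Point

variable {K : Type u} [Field K] [IsAlgClosed K] {A : Scheme.{u}}
  (f : A ⟶ Spec (CommRingCat.of K)) (G : RelativeGroupLaw K f) [IsProper f]
  {Γ : Type u} [Field Γ] [Algebra K Γ]

/-- **`hν`** : `e_* (lift ν) = 0` from `S26eSpOneAt f G ν γ₀`. -/
theorem s26etimo_hν (hcurve : S26eIsCurve K Γ) (ν : s26eptPts f Γ)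
    (γ₀ : AlgebraicCurve.Place K Γ) (hν : S26eSpOneAt f G ν γ₀) :
    s26eptMap f (s26etimoE hcurve γ₀) (s26eptLift f Γ ↥γ₀.toValuationSubring ν) = G.one _ :=
  s26etis_spOne f G γ₀.toValuationSubring γ₀.algebraMap_mem' (s26etimoE hcurve γ₀) ν hν

end Point

end Fermat.Agent.S26
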