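import Fermat.Agent.S26.ETiRedAt
import Fermat.Agent.S26.ERedInst
import Fermat.Agent.S26.ERedHres
import Fermat.Agent.S26.ETiFields
import Fermat.Agent.RED.ResField

/-!
# S26-E, leaf TI-REDAT, the CONCRETE GAUSS LAYER (helper72, double of helper28; file ETiRedAtH)

`S26erigRedAt con E₀ Δ V` (the hypotheses `hz` / `hy` of `s26erig_main_ac`, S26/ERig3.lean) at a
valuation subring `V ⊇ K` of `L`, for the **Gauss reduction** `s26eriData` (helper12 / helper93)
of the constant curve `F = Frac (Γ ⊗[K] L)` and `con = s26gspCon` (helper96):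
every hypothesis of helper28's abstract `s26etir_redAt` is discharged, except (SPEC).

* `s26etirg_redAt_abs` : the special fibre `(k, Fb, res)` is a parameter
  (`res : V →+* k` onto, `K`-linear, `k` algebraically closed, `Fb = Frac (Γ ⊗[K] k)` in THE shape
  `hldk`, `hgenk`);
* `s26etirgAlg`, `s26etirg_residue_algebraMap`, `s26etirg_isAlgClosed` : the frame of the special
  fibre `k = IsLocalRing.ResidueField V`;
* `s26etirg_redAt` : the same with `k = IsLocalRing.ResidueField V`, `res = IsLocalRing.residue V`,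
  `Fb = s26etifOm K Γ k` (helper33's model).
-/

set_option autoImplicit false
set_option linter.unusedSectionVars false
set_option linter.unusedVariables false
set_option linter.style.haveILetI false
set_option linter.style.longLine false

noncomputable section

namespace Fermat.Agent.S26

open AlgebraicCurve Module TensorProduct IntermediateField Fermat.Agent.DEU

/-! ### The special fibre as a parameter -/

section Abs

universe u v w

variable {K : Type v} {Γ : Type w} {L F k Fb : Type u}
  [Field K] [Field Γ] [Field L] [Field F] [Field k] [Field Fb]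
  [Algebra K Γ] [Algebra K L] [Algebra K F] [Algebra Γ F] [Algebra L F]
  [IsScalarTower K Γ F] [IsScalarTower K L F]
  [Algebra K k] [Algebra K Fb] [Algebra Γ Fb] [Algebra k Fb]
  [IsScalarTower K Γ Fb] [IsScalarTower K k Fb]

/-- **TI-REDAT, Gauss layer, abstract special fibre.**  `K`, `L`, `k` algebraically closed,
`Γ / K` a function field of one variable (`x` transcendental, `[Γ : K(x)] < ∞`),
`F = Frac (Γ ⊗[K] L)`, `Fb = Frac (Γ ⊗[K] k)` in helper96's shape, `V ⊇ K` a valuation subring of
`L` with residue map `res : V →+* k`.  Then `S26erigRedAt (s26gspCon …) E₀ Δ V`, given (SPEC) for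
the Gauss reduction `s26eriData`. -/
theorem s26etirg_redAt_abs [IsAlgClosed K] [IsAlgClosed L] [IsAlgClosed k]
    (hld : Function.Injective (s26gspMu K Γ L F)) (hgen : S26gspGen K Γ L F)
    (hldk : Function.Injective (s26gspMu K Γ k Fb)) (hgenk : S26gspGen K Γ k Fb)
    {x : Γ} (hx : Transcendental K x) [FiniteDimensional K⟮x⟯ Γ]
    (hall : ∀ P : Place K Γ, Function.Surjective (algebraMap K P.ResidueField))
    (V : ValuationSubring L) (hKV : ∀ c : K, algebraMap K L c ∈ V) (res : ↥V →+* k)
    (hresK : ∀ c : K, res ⟨algebraMap K L c, hKV c⟩ = algebraMap K k c)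
    (hres : Function.Surjective res)
    (γ : ℕ) (hγ : S26errfGenus K Γ (γ : ℤ)) (P₀ : Place K Γ)
    (E₀ : Divisor K Γ) (hE₀ : 0 ≤ E₀) (hE₀dim : finrank K ↥(riemannRochSpace E₀) = 1)
    (Δ : Divisor L F)
    (hspec : ∀ r : Place L F → Place k Fb,
      S26erigRed (s26eriData hld hgen hldk V hKV res hresK hres) r (s26gspCon hld hgen hall)
        (s26gspCon hldk hgenk hall) (algebraMap Γ Fb) →
      ∃ φ : Fb, φ ≠ 0 ∧ ∀ Q : Place k Fb, Finsupp.mapDomain r Δ Q = Q.ord φ) :
    S26erigRedAt (s26gspCon hld hgen hall) E₀ Δ V := by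
  have halg : Algebra.IsAlgebraic K⟮x⟯ Γ := Algebra.IsAlgebraic.of_finite _ _
  haveI : HasPrincipalDivisors K Γ := s26erh_hpdK hx
  obtain ⟨R₀, -, ⟨hO₀, hred₀⟩, hq2₀, -⟩ :=
    s26eri_exists_data0 (K := K) (Γ := Γ) (L := k) (F := Fb) hldk hgenk
  exact s26etir_redAt V (s26eriData hld hgen hldk V hKV res hresK hres) rfl (algebraMap Γ Fb)
    (s26eri_mem hld hgen hldk V hKV res hresK hres)
    (s26eri_red hld hgen hldk V hKV res hresK hres)
    (s26gspCon hld hgen hall) (s26eri_ord hld hgen hall) (s26eri_ex hld hgen hall)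
    (s26gspCon hldk hgenk hall) (s26eri_ord hldk hgenk hall) (s26eri_ex hldk hgenk hall)
    (fun v => s26erh_hresK hx halg v)
    (fun v => s26erh_hres hld hgen hx halg v)
    (fun v => s26erh_hres hldk hgenk hx halg v)
    (s26erh_hpd hld hgen hx) (s26erh_hpd hldk hgenk hx)
    (s26eri_ld hld) (s26eri_ld hldk)
    (s26eri_q2 hld hgen hldk V hKV res hresK hres)
    R₀ hO₀ hred₀ hq2₀ γ hγ P₀ E₀ hE₀ hE₀dim Δ hspec

end Abs

/-! ### The frame of the special fibre: `k = ResidueField V`, `Fb = Frac (Γ ⊗[K] k)` -/

section Frame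

universe u

variable (K : Type u) {L : Type u} [Field K] [Field L] [Algebra K L]

/-- the `K`-algebra structure of the residue field of a valuation subring `V ⊇ K` of `L` -/
@[reducible] def s26etirgAlg (V : ValuationSubring L) (hKV : ∀ c : K, algebraMap K L c ∈ V) :
    Algebra K (IsLocalRing.ResidueField ↥V) :=
  ((IsLocalRing.residue ↥V).comp ((algebraMap K L).codRestrict V hKV)).toAlgebra

/-- the residue map is `K`-linear -/
theorem s26etirg_residue_algebraMap (V : ValuationSubring L)
    (hKV : ∀ c : K, algebraMap K L c ∈ V) (c : K) :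
    letI := s26etirgAlg K V hKV
    IsLocalRing.residue ↥V ⟨algebraMap K L c, hKV c⟩ =
      algebraMap K (IsLocalRing.ResidueField ↥V) c := rfl

/-- the residue field of a valuation subring of an algebraically closed field is algebraically
closed (`RED.isAlgClosed_residueField`) -/
theorem s26etirg_isAlgClosed [IsAlgClosed L] (V : ValuationSubring L) :
    IsAlgClosed (IsLocalRing.ResidueField ↥V) :=
  Fermat.Agent.RED.isAlgClosed_residueField V

end Frame

/-! ### The concrete Gauss layer -/

section Conc

universe u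

variable {K Γ L F : Type u} [Field K] [Field Γ] [Field L] [Field F]
  [Algebra K Γ] [Algebra K L] [Algebra K F] [Algebra Γ F] [Algebra L F]
  [IsScalarTower K Γ F] [IsScalarTower K L F]

/-- **TI-REDAT, the concrete Gauss layer**: `k = ResidueField V`, `res = residue`,
`Fb = s26etifOm K Γ k = Frac (Γ ⊗[K] k)`. -/
theorem s26etirg_redAt [IsAlgClosed K] [IsAlgClosed L]
    (hld : Function.Injective (s26gspMu K Γ L F)) (hgen : S26gspGen K Γ L F)
    {x : Γ} (hx : Transcendental K x) [FiniteDimensional K⟮x⟯ Γ]
    (hall : ∀ P : Place K Γ, Function.Surjective (algebraMap K P.ResidueField))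
    (V : ValuationSubring L) (hKV : ∀ c : K, algebraMap K L c ∈ V)
    (γ : ℕ) (hγ : S26errfGenus K Γ (γ : ℤ)) (P₀ : Place K Γ)
    (E₀ : Divisor K Γ) (hE₀ : 0 ≤ E₀) (hE₀dim : finrank K ↥(riemannRochSpace E₀) = 1)
    (Δ : Divisor L F) :
    letI := s26etirgAlg K V hKV
    ∀ (hspec : ∀ r : Place L F → Place (IsLocalRing.ResidueField ↥V)
          (s26etifOm K Γ (IsLocalRing.ResidueField ↥V)),
        S26erigRed
          (s26eriData (k := IsLocalRing.ResidueField ↥V)
            (Fb := s26etifOm K Γ (IsLocalRing.ResidueField ↥V)) hld hgen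
            s26etif_mu_injective V hKV (IsLocalRing.residue ↥V)
            (s26etirg_residue_algebraMap K V hKV) IsLocalRing.residue_surjective)
          r (s26gspCon hld hgen hall)
          (s26gspCon (𝔎 := IsLocalRing.ResidueField ↥V)
            (Ω := s26etifOm K Γ (IsLocalRing.ResidueField ↥V)) s26etif_mu_injective
            s26etif_gen hall)
          (algebraMap Γ (s26etifOm K Γ (IsLocalRing.ResidueField ↥V))) →
        ∃ φ : s26etifOm K Γ (IsLocalRing.ResidueField ↥V), φ ≠ 0 ∧
          ∀ Q : Place (IsLocalRing.ResidueField ↥V)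
            (s26etifOm K Γ (IsLocalRing.ResidueField ↥V)),
            Finsupp.mapDomain r Δ Q = Q.ord φ),
      S26erigRedAt (s26gspCon hld hgen hall) E₀ Δ V := by
  letI := s26etirgAlg K V hKV
  haveI : IsAlgClosed (IsLocalRing.ResidueField ↥V) := s26etirg_isAlgClosed V
  intro hspec
  exact s26etirg_redAt_abs (k := IsLocalRing.ResidueField ↥V)
    (Fb := s26etifOm K Γ (IsLocalRing.ResidueField ↥V)) hld hgen s26etif_mu_injective
    s26etif_gen hx hall V hKV (IsLocalRing.residue ↥V) (s26etirg_residue_algebraMap K V hKV)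
    IsLocalRing.residue_surjective γ hγ P₀ E₀ hE₀ hE₀dim Δ hspec

end Conc

end Fermat.Agent.S26

end
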