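import Fermat.Agent.S26.ETiRedAtG
import Fermat.Agent.S26.ERedInst
import Fermat.Agent.S26.ERedFb
import Fermat.Agent.S26.ETiFields

/-!
# S26-E, leaf TI-REDAT, the CONCRETE layer (helper28): `S26erigRedAt (s26gspCon …) E₀ Δ V`
# for EVERY valuation subring `V ⊇ K` of `L`

`F/L` in helper96's shape (`hld`, `hgen`; e.g. helper33's model `F = s26etifOm K Γ L`), `K`, `L`
algebraically closed, `x ∈ Γ` transcendental over `K` with `[Γ : K(x)] < ∞`.  For a valuation
subring `V` of `L` containing `K`:

* `k := V / 𝔪_V` (algebraically closed, a `K`-algebra), `Fb := s26etifOm K Γ k = Frac (Γ ⊗[K] k)`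
  (helper33's model), `conk := s26gspCon …`, `ιk := algebraMap Γ Fb`;
* `R := s26eriData …` : the Gauss reduction along `V` (helper12, through helper93's adapter);
* `R₀` : the reduction `Fb/k ⇝ Γ/K` (helper12's instance 0, `s26eri_exists_data0`).

All hypotheses of `s26etir_redAt_shape` are discharged EXCEPT `E₀` and (SPEC).

Main result:
* **`s26etir_redAt_V`** : `S26erigRedAt (s26gspCon hld hgen hall) E₀ Δ V` from
  `hspec : ∀ k Fb R r conk ιk, R.A = V → S26erigRed R r con conk ιk → hresk → hpdk → ∃ φ ≠ 0, …`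
  (= helper95's `s26espec_final_*`, which hold for every such `R`, `r`).
-/

set_option autoImplicit false
set_option linter.unusedSectionVars false
set_option linter.unusedVariables false
set_option linter.style.haveILetI false

open AlgebraicCurve Module IntermediateField

namespace Fermat.Agent.S26

open Fermat.Agent.S24 Fermat.Agent.DEU Fermat.Agent.ES.R

section Concrete

universe u

variable {K Γ L F : Type u} [Field K] [Field Γ] [Field L] [Field F]
  [Algebra K Γ] [Algebra K L] [Algebra K F] [Algebra Γ F] [Algebra L F]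
  [IsScalarTower K Γ F] [IsScalarTower K L F]

/-- **TI-REDAT, concrete**: for EVERY valuation subring `V ⊇ K` of `L`, the package
`S26erigRedAt (s26gspCon hld hgen hall) E₀ Δ V`, from (SPEC) alone. -/
theorem s26etir_redAt_V [IsAlgClosed K] [IsAlgClosed L]
    (hld : Function.Injective (s26gspMu K Γ L F)) (hgen : S26gspGen K Γ L F)
    (hall : ∀ P : Place K Γ, Function.Surjective (algebraMap K P.ResidueField))
    {x : Γ} (hx : Transcendental K x) [FiniteDimensional K⟮x⟯ Γ]
    (V : ValuationSubring L) (hKV : ∀ c : K, algebraMap K L c ∈ V)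
    (E₀ : Divisor K Γ) (hE₀ : 0 ≤ E₀) (hE₀dim : finrank K ↥(riemannRochSpace E₀) = 1)
    (Δ : Divisor L F)
    (hspec : ∀ (k Fb : Type u) [Field k] [Field Fb] [Algebra k Fb] (R : RedData L F k Fb)
      (r : Place L F → Place k Fb) (conk : Place K Γ → Place k Fb) (ιk : Γ →+* Fb),
      R.A = V → S26erigRed R r (s26gspCon hld hgen hall) conk ιk →
      (∀ Q : Place k Fb, Function.Bijective (algebraMap k Q.ResidueField)) →
      HasPrincipalDivisors k Fb →
      ∃ φ : Fb, φ ≠ 0 ∧ ∀ Q : Place k Fb, Finsupp.mapDomain r Δ Q = Q.ord φ) :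
    S26erigRedAt (s26gspCon hld hgen hall) E₀ Δ V := by
  letI : Algebra K ↥V := s26erkAlgebra K V hKV
  haveI : IsScalarTower K ↥V L := s26erk_isScalarTower K V hKV
  haveI : IsAlgClosed (IsLocalRing.ResidueField ↥V) := s26erf_isAlgClosed V
  have halg : Algebra.IsAlgebraic K⟮x⟯ Γ := Algebra.IsAlgebraic.of_finite _ _
  have hldk : Function.Injective
      (s26gspMu K Γ (IsLocalRing.ResidueField ↥V) (s26etifOm K Γ (IsLocalRing.ResidueField ↥V))) :=
    s26etif_mu_injective
  have hgenk : S26gspGen K Γ (IsLocalRing.ResidueField ↥V)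
      (s26etifOm K Γ (IsLocalRing.ResidueField ↥V)) := s26etif_gen
  obtain ⟨R₀, -, ⟨hO₀, hred₀⟩, hq2₀, -⟩ := s26eri_exists_data0 hldk hgenk
  have hresK : ∀ c : K, (IsLocalRing.residue ↥V) ⟨algebraMap K L c, hKV c⟩ =
      algebraMap K (IsLocalRing.ResidueField ↥V) c := fun c => rfl
  have hres : Function.Surjective (IsLocalRing.residue ↥V) := IsLocalRing.residue_surjective
  exact s26etir_redAt_shape hld hgen hldk hgenk hall hx V
    (s26eriData hld hgen hldk V hKV (IsLocalRing.residue ↥V) hresK hres) rfl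
    (s26eri_mem hld hgen hldk V hKV (IsLocalRing.residue ↥V) hresK hres)
    (s26eri_red hld hgen hldk V hKV (IsLocalRing.residue ↥V) hresK hres)
    (s26eri_q2 hld hgen hldk V hKV (IsLocalRing.residue ↥V) hresK hres)
    R₀ hO₀ hred₀ hq2₀ E₀ hE₀ hE₀dim Δ
    (fun r h => hspec _ _ _ r _ _ rfl h (fun v => s26erh_hres hldk hgenk hx halg v)
      (s26erh_hpd hldk hgenk hx))

end Concrete

end Fermat.Agent.S26
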