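/-
S26-E-VERT (helper38): the ABSTRACT core of the vertical step (blueprint v1, §2 (d)).

Setting: `O` = the local ring of the relative curve `Γ ⊗_K R` (`R` a discrete valuation ring of the
parameter field `𝔎`) at a point `(γ, closed point)` of the special fibre; `t` = a uniformiser of
the place `γ` of `Γ`, so that `O ⧸ (t) ≅ R` is a discrete valuation ring; `π` = a uniformiser of `R`,
a prime element of `O` (the special fibre).

* `s26evert_ufd`        : a noetherian local domain `O` with `t ∈ 𝔪`, `t ≠ 0`, `(t)` prime and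
  `O ⧸ (t)` a principal ideal ring is a UFD (Nakayama trick `s26e2_prime_principal` + Kaplansky).
  No "regular ⇒ factorial", no completion.
* `S26evertUnitAt q x`  : `x ∈ Frac O` is a unit at the prime element `q`.
* `s26evert_unit_of_unitAt` : in a UFD, `x ≠ 0` which is a unit at EVERY prime element is a unit.
* `s26evert_eq_unit_mul_zpow` : in a UFD, `x ≠ 0` which is a unit at every prime element not
  associated to the prime `π` is `ε · π ^ n`, `ε ∈ Oˣ`, `n ∈ ℤ`  (the vertical multiplicity `n`).
* `s26evert_section`    : the multiplicity `n` is read off along a section `s : O → R`: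
  if `x = a / b` with `s a ≠ 0`, `s b ≠ 0` then `s a = s ε · (s π) ^ n · s b` (in `Frac R`).
* `s26evert_valuation`  : for every valuation subring `W ⊇ O` of `Frac O`: `x · π ^ (-n) ∈ Wˣ`.
-/
import Fermat.Agent.S26.ECodim2
import Mathlib.RingTheory.UniqueFactorizationDomain.Kaplansky
import Mathlib.RingTheory.UniqueFactorizationDomain.Multiplicity
import Mathlib.RingTheory.Localization.FractionRing
import Mathlib.RingTheory.Localization.NumDen
import Mathlib.RingTheory.Valuation.ValuationSubring

set_option autoImplicit false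
set_option linter.unusedSectionVars false

namespace Fermat.Agent.S26

open IsLocalRing

/-- **Factoriality in the relative-curve situation**: `O` noetherian local domain, `t ∈ 𝔪`
a nonzero prime element with `O ⧸ (t)` a principal ideal ring.  Then `O` is a UFD. -/
theorem s26evert_ufd {O : Type*} [CommRing O] [IsDomain O] [IsLocalRing O] [IsNoetherianRing O]
    (t : O) (ht : t ∈ maximalIdeal O) (ht0 : t ≠ 0) (htp : (Ideal.span {t}).IsPrime)
    [IsPrincipalIdealRing (O ⧸ Ideal.span {t})] : UniqueFactorizationMonoid O := by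
  rw [UniqueFactorizationMonoid.iff_exists_prime_mem_of_isPrime]
  intro I hI0 hIp
  by_cases htI : t ∈ I
  · exact ⟨t, htI, (Ideal.span_singleton_prime ht0).1 htp⟩
  · obtain ⟨f, hfI, hIf⟩ := s26e2_prime_principal t ht I htI
    have hf0 : f ≠ 0 := by
      rintro rfl
      apply hI0
      rw [hIf]
      simp
    refine ⟨f, hfI, (Ideal.span_singleton_prime hf0).1 ?_⟩
    rw [← hIf]
    exact hIp

section UnitAt

variable {O E : Type*} [CommRing O] [IsDomain O] [Field E] [Algebra O E] [IsFractionRing O E]

/-- `x ∈ Frac O` is a unit at the prime element `q`: `x = a / b` with `q ∤ a`, `q ∤ b`. -/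
def S26evertUnitAt (q : O) (x : E) : Prop :=
  ∃ a b : O, ¬ q ∣ a ∧ ¬ q ∣ b ∧ x * algebraMap O E b = algebraMap O E a

theorem s26evert_unitAt_mul {q : O} (hq : Prime q) {x y : E} (hx : S26evertUnitAt q x)
    (hy : S26evertUnitAt q y) : S26evertUnitAt q (x * y) := by
  obtain ⟨a, b, ha, hb, hab⟩ := hx
  obtain ⟨c, d, hc, hd, hcd⟩ := hy
  refine ⟨a * c, b * d, fun h => ?_, fun h => ?_, ?_⟩
  · rcases hq.dvd_or_dvd h with h | h
    · exact ha h
    · exact hc h
  · rcases hq.dvd_or_dvd h with h | h
    · exact hb h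
    · exact hd h
  · rw [map_mul, map_mul, ← hab, ← hcd]; ring

theorem s26evert_unitAt_inv {q : O} {x : E} (hx : S26evertUnitAt q x) :
    S26evertUnitAt q x⁻¹ := by
  obtain ⟨a, b, ha, hb, hab⟩ := hx
  have hb0 : algebraMap O E b ≠ 0 := by
    intro h
    apply hb
    have : b = 0 := (IsFractionRing.injective O E) (by simpa using h)
    rw [this]; exact dvd_zero q
  have ha0 : algebraMap O E a ≠ 0 := by
    intro h
    apply ha
    have : a = 0 := (IsFractionRing.injective O E) (by simpa using h)
    rw [this]; exact dvd_zero q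
  have hx0 : x ≠ 0 := by
    rintro rfl
    rw [zero_mul] at hab
    exact ha0 hab.symm
  refine ⟨b, a, hb, ha, ?_⟩
  rw [← hab]
  field_simp

theorem s26evert_unitAt_algebraMap {q : O} {a : O} (ha : ¬ q ∣ a) (hq : ¬ IsUnit q) :
    S26evertUnitAt (E := E) q (algebraMap O E a) :=
  ⟨a, 1, ha, fun h => hq (isUnit_of_dvd_one h), by simp⟩

theorem s26evert_unitAt_unit {q : O} (hq : ¬ IsUnit q) (ε : Oˣ) :
    S26evertUnitAt (E := E) q (algebraMap O E ε) :=
  s26evert_unitAt_algebraMap (fun h => hq (isUnit_of_dvd_unit h ε.isUnit)) hq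

end UnitAt

section UFD

variable {O E : Type*} [CommRing O] [IsDomain O] [UniqueFactorizationMonoid O]
  [Field E] [Algebra O E] [IsFractionRing O E]

/-- In a UFD an element `a ≠ 0` all of whose prime divisors are associated to the prime `π`
is a unit times a power of `π`. -/
theorem s26evert_eq_unit_mul_pow {π : O} (hπ : Prime π) {a : O} (ha : a ≠ 0)
    (h : ∀ q : O, Prime q → q ∣ a → Associated q π) : ∃ (ε : Oˣ) (m : ℕ), a = ε * π ^ m := by
  obtain ⟨m, a', hπa', rfl⟩ := WfDvdMonoid.max_power_factor ha hπ.irreducible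
  have ha'0 : a' ≠ 0 := right_ne_zero_of_mul ha
  have hu : IsUnit a' := by
    by_contra hnu
    obtain ⟨q, hq, hqa'⟩ := WfDvdMonoid.exists_irreducible_factor hnu ha'0
    have hqp : Prime q := UniqueFactorizationMonoid.irreducible_iff_prime.1 hq
    have hass := h q hqp (Dvd.dvd.mul_left hqa' _)
    exact hπa' (hass.symm.dvd.trans hqa')
  obtain ⟨ε, rfl⟩ := hu
  exact ⟨ε, m, mul_comm _ _⟩

/-- **The vertical multiplicity.**  In a UFD, `x ≠ 0` in the fraction field which is a unit at every
prime element not associated to the prime `π` is `ε · π ^ n` with `ε` a unit and `n ∈ ℤ`. -/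
theorem s26evert_eq_unit_mul_zpow {π : O} (hπ : Prime π) {x : E} (hx : x ≠ 0)
    (h : ∀ q : O, Prime q → ¬ Associated q π → S26evertUnitAt q x) :
    ∃ (ε : Oˣ) (n : ℤ), x = algebraMap O E ε * algebraMap O E π ^ n := by
  obtain ⟨a, ⟨b, hb⟩, hrel, hab⟩ := IsFractionRing.exists_reduced_fraction O x
  have hb0 : b ≠ 0 := nonZeroDivisors.ne_zero hb
  have hbE : algebraMap O E b ≠ 0 := by
    simpa using (IsFractionRing.injective O E).ne hb0
  have hxab : x * algebraMap O E b = algebraMap O E a := by
    rw [← hab, IsLocalization.mk'_spec]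
  have ha0 : a ≠ 0 := by
    rintro rfl
    rw [map_zero] at hxab
    exact (mul_ne_zero hx hbE) hxab
  have key : ∀ q : O, Prime q → ¬ Associated q π → ¬ q ∣ a ∧ ¬ q ∣ b := by
    intro q hq hqπ
    obtain ⟨c, d, hc, hd, hcd⟩ := h q hq hqπ
    have hdE : algebraMap O E d ≠ 0 := by
      intro h0
      apply hd
      have : d = 0 := (IsFractionRing.injective O E) (by simpa using h0)
      rw [this]; exact dvd_zero q
    have hadbc : a * d = b * c := by
      apply IsFractionRing.injective O E
      rw [map_mul, map_mul, ← hxab, ← hcd]; ring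
    constructor
    · intro hqa
      have hqbc : q ∣ b * c := hadbc ▸ Dvd.dvd.mul_right hqa d
      rcases hq.dvd_or_dvd hqbc with hqb | hqc
      · exact hq.not_isUnit (hrel hqa hqb)
      · exact hc hqc
    · intro hqb
      have hqad : q ∣ a * d := hadbc.symm ▸ Dvd.dvd.mul_right hqb c
      rcases hq.dvd_or_dvd hqad with hqa | hqd
      · exact hq.not_isUnit (hrel hqa hqb)
      · exact hd hqd
  obtain ⟨ε₁, i, rfl⟩ := s26evert_eq_unit_mul_pow hπ ha0
    (fun q hq hqa => by by_contra hn; exact (key q hq hn).1 hqa)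
  obtain ⟨ε₂, j, rfl⟩ := s26evert_eq_unit_mul_pow hπ hb0
    (fun q hq hqb => by by_contra hn; exact (key q hq hn).2 hqb)
  have hπE : algebraMap O E π ≠ 0 := by
    simpa using (IsFractionRing.injective O E).ne hπ.ne_zero
  have hε₂E : algebraMap O E (ε₂ : O) ≠ 0 := by
    simpa using (IsFractionRing.injective O E).ne ε₂.ne_zero
  refine ⟨ε₁ * ε₂⁻¹, (i : ℤ) - j, ?_⟩
  have h1 : x = algebraMap O E (ε₁ * π ^ i) / algebraMap O E (ε₂ * π ^ j) := by
    rw [eq_div_iff hbE, hxab]
  rw [h1, zpow_sub₀ hπE, zpow_natCast, zpow_natCast, Units.val_mul, map_mul, map_mul, map_mul,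
    map_pow, map_pow]
  have hinv : algebraMap O E ((ε₂⁻¹ : Oˣ) : O) = (algebraMap O E (ε₂ : O))⁻¹ := by
    apply eq_inv_of_mul_eq_one_left
    rw [← map_mul, ← Units.val_mul, inv_mul_cancel, Units.val_one, map_one]
  rw [hinv]
  field_simp

/-- In a UFD, `x ≠ 0` which is a unit at every prime element is (the image of) a unit. -/
theorem s26evert_unit_of_unitAt {x : E} (hx : x ≠ 0)
    (h : ∀ q : O, Prime q → S26evertUnitAt q x) : ∃ ε : Oˣ, x = algebraMap O E ε := by
  obtain ⟨a, ⟨b, hb⟩, hrel, hab⟩ := IsFractionRing.exists_reduced_fraction O x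
  have hb0 : b ≠ 0 := nonZeroDivisors.ne_zero hb
  have hbE : algebraMap O E b ≠ 0 := by
    simpa using (IsFractionRing.injective O E).ne hb0
  have hxab : x * algebraMap O E b = algebraMap O E a := by
    rw [← hab, IsLocalization.mk'_spec]
  have ha0 : a ≠ 0 := by
    rintro rfl
    rw [map_zero] at hxab
    exact (mul_ne_zero hx hbE) hxab
  have key : ∀ q : O, Prime q → ¬ q ∣ a ∧ ¬ q ∣ b := by
    intro q hq
    obtain ⟨c, d, hc, hd, hcd⟩ := h q hq
    have hadbc : a * d = b * c := by
      apply IsFractionRing.injective O E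
      rw [map_mul, map_mul, ← hxab, ← hcd]; ring
    constructor
    · intro hqa
      have hqbc : q ∣ b * c := hadbc ▸ Dvd.dvd.mul_right hqa d
      rcases hq.dvd_or_dvd hqbc with hqb | hqc
      · exact hq.not_isUnit (hrel hqa hqb)
      · exact hc hqc
    · intro hqb
      have hqad : q ∣ a * d := hadbc.symm ▸ Dvd.dvd.mul_right hqb c
      rcases hq.dvd_or_dvd hqad with hqa | hqd
      · exact hq.not_isUnit (hrel hqa hqb)
      · exact hd hqd
  have hua : IsUnit a := by
    by_contra hnu
    obtain ⟨q, hq, hqa⟩ := WfDvdMonoid.exists_irreducible_factor hnu ha0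
    exact (key q (UniqueFactorizationMonoid.irreducible_iff_prime.1 hq)).1 hqa
  have hub : IsUnit b := by
    by_contra hnu
    obtain ⟨q, hq, hqb⟩ := WfDvdMonoid.exists_irreducible_factor hnu hb0
    exact (key q (UniqueFactorizationMonoid.irreducible_iff_prime.1 hq)).2 hqb
  obtain ⟨ε₁, rfl⟩ := hua
  obtain ⟨ε₂, rfl⟩ := hub
  refine ⟨ε₁ * ε₂⁻¹, ?_⟩
  have hinv : algebraMap O E ((ε₂⁻¹ : Oˣ) : O) = (algebraMap O E (ε₂ : O))⁻¹ := by
    apply eq_inv_of_mul_eq_one_left
    rw [← map_mul, ← Units.val_mul, inv_mul_cancel, Units.val_one, map_one]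
  rw [Units.val_mul, map_mul, hinv, ← div_eq_mul_inv, eq_div_iff hbE, hxab]

/-- For every valuation subring `W` of `Frac O` containing `O`, a unit of `O` has valuation `1`. -/
theorem s26evert_valuation_unit (W : ValuationSubring E)
    (hW : ∀ a : O, algebraMap O E a ∈ W) (ε : Oˣ) : W.valuation (algebraMap O E ε) = 1 := by
  have h1 : W.valuation (algebraMap O E ε) ≤ 1 := (W.valuation_le_one_iff _).2 (hW _)
  have h2 : W.valuation (algebraMap O E ((ε⁻¹ : Oˣ) : O)) ≤ 1 := (W.valuation_le_one_iff _).2 (hW _)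
  have h3 : W.valuation (algebraMap O E ε) * W.valuation (algebraMap O E ((ε⁻¹ : Oˣ) : O)) = 1 := by
    rw [← map_mul, ← map_mul, ← Units.val_mul, mul_inv_cancel, Units.val_one, map_one, map_one]
  refine le_antisymm h1 ?_
  by_contra hlt
  rw [not_le] at hlt
  have : W.valuation (algebraMap O E ε) * W.valuation (algebraMap O E ((ε⁻¹ : Oˣ) : O)) < 1 := by
    calc _ ≤ W.valuation (algebraMap O E ε) * 1 := mul_le_mul_right h2 _
      _ = W.valuation (algebraMap O E ε) := mul_one _
      _ < 1 := hlt
  rw [h3] at this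
  exact lt_irrefl _ this

/-- **The vertical step, valuation form.**  `O` a UFD, `π` a prime element, `x ≠ 0` a unit at
every prime element not associated to `π`.  Then there is ONE `n ∈ ℤ` such that for every
valuation subring `W ⊇ O` of `Frac O`: `w(x) = w(π) ^ n`. -/
theorem s26evert_valuation {π : O} (hπ : Prime π) {x : E} (hx : x ≠ 0)
    (h : ∀ q : O, Prime q → ¬ Associated q π → S26evertUnitAt q x) :
    ∃ (ε : Oˣ) (n : ℤ), x = algebraMap O E ε * algebraMap O E π ^ n ∧
      ∀ W : ValuationSubring E, (∀ a : O, algebraMap O E a ∈ W) →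
        W.valuation x = W.valuation (algebraMap O E π) ^ n := by
  obtain ⟨ε, n, hxe⟩ := s26evert_eq_unit_mul_zpow hπ hx h
  refine ⟨ε, n, hxe, fun W hW => ?_⟩
  rw [hxe, map_mul, s26evert_valuation_unit W hW ε, one_mul, map_zpow₀]

end UFD

section Section

variable {O E R L : Type*} [CommRing O] [IsDomain O] [Field E] [Algebra O E] [IsFractionRing O E]
  [CommRing R] [IsDomain R] [Field L] [Algebra R L] [IsFractionRing R L]

/-- **Reading the vertical multiplicity along a section** `s : O → R` (evaluation at `γ₀`):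
if `x = ε π ^ n` and `x = a / b` with `s a ≠ 0 ≠ s b`, `s π ≠ 0`, then in `Frac R`
`s a / s b = s ε · (s π) ^ n`. -/
theorem s26evert_section (s : O →+* R) {π : O} (hsπ : s π ≠ 0) {x : E} (ε : Oˣ) (n : ℤ)
    (hx : x = algebraMap O E ε * algebraMap O E π ^ n) {a b : O} (hsb : s b ≠ 0)
    (hab : x * algebraMap O E b = algebraMap O E a) :
    algebraMap R L (s a) / algebraMap R L (s b) =
      algebraMap R L (s ε) * algebraMap R L (s π) ^ n := by
  have hπ0 : π ≠ 0 := fun h => hsπ (by rw [h, map_zero])
  have hπE : algebraMap O E π ≠ 0 := by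
    simpa using (IsFractionRing.injective O E).ne hπ0
  have hsπL : algebraMap R L (s π) ≠ 0 := by
    simpa using (IsFractionRing.injective R L).ne hsπ
  have hsbL : algebraMap R L (s b) ≠ 0 := by
    simpa using (IsFractionRing.injective R L).ne hsb
  rw [div_eq_iff hsbL]
  -- split according to the sign of `n`
  obtain ⟨m, rfl | rfl⟩ := Int.eq_nat_or_neg n
  · -- `a = ε π^m b`
    have h1 : a = ε * π ^ m * b := by
      apply IsFractionRing.injective O E
      rw [← hab, hx, zpow_natCast, map_mul, map_mul, map_pow]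
    rw [h1, zpow_natCast]
    simp only [map_mul, map_pow]
  · -- `a π^m = ε b`
    have h1 : a * π ^ m = ε * b := by
      apply IsFractionRing.injective O E
      rw [map_mul, ← hab, hx, zpow_neg, zpow_natCast, map_pow, map_mul]
      field_simp
    have h2 : algebraMap R L (s a) * algebraMap R L (s π) ^ m =
        algebraMap R L (s ε) * algebraMap R L (s b) := by
      rw [← map_pow, ← map_pow, ← map_mul, ← map_mul, ← map_mul, ← map_mul, h1]
    rw [zpow_neg, zpow_natCast]
    field_simp
    linear_combination h2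

end Section

end Fermat.Agent.S26
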