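/-
S26-E, piece E-VERT-content (helper57): CONTENT over an arbitrary valuation ring.  Mathlib only.

`R` a valuation ring (any rank, no noetherian hypothesis), `T` an `R`-algebra which is a domain and a
FREE `R`-module, with `𝔪_R T` prime (e.g. `T = R ⊗[K] B`, `K` algebraically closed, `B` a domain).

* `s26evc_exists_content` : `0 ≠ s ∈ T` is `ρ • s'` with `ρ ≠ 0` and `s' ∉ 𝔪_R T`  (content).
* `s26evc_isUnit_of_smul_eq` : contents are unique up to units.
* `s26evc_unit_decomp` : **(C3)**.  `𝔫 ⊇ 𝔪_R T` a prime of `T`, `H` in the fraction field with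
  `H = a / (ρ b)` and `H⁻¹ = a' / (ρ' b')`, `b, b' ∉ 𝔫`, `ρ, ρ' ∈ R ∖ 0` (i.e. `H` is a unit of
  `T_𝔫 [1/(R∖0)]`).  Then `H = (c/ρ) · (a₁/b)` with `c ∈ R ∖ 0` and `a₁ ∉ 𝔫`: a constant times a
  unit of `T_𝔫`.
* `s26evc_val_eq` : **(C4)**. hence `v(H) = v(c/ρ)` for every valuation subring `W` of the fraction
  field that contains `T` and in which the elements of `T ∖ 𝔫` are units.
-/
import Mathlib.RingTheory.Valuation.ValuationRing
import Mathlib.RingTheory.Valuation.ValuationSubring
import Mathlib.LinearAlgebra.FreeModule.Basic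
import Mathlib.RingTheory.Localization.FractionRing
import Mathlib.RingTheory.Ideal.Maps

set_option autoImplicit false

noncomputable section

namespace Fermat.Agent.S26

open IsLocalRing

section Content

variable {R : Type*} [CommRing R] [IsDomain R] [ValuationRing R]
variable {T : Type*} [CommRing T] [Algebra R T]

/-- In a valuation ring, a finite nonempty family has a member dividing all the others. -/
theorem s26evc_exists_dvd_all {ι : Type*} (s : Finset ι) (hs : s.Nonempty) (f : ι → R) :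
    ∃ i ∈ s, ∀ j ∈ s, f i ∣ f j := by
  classical
  induction hs using Finset.Nonempty.cons_induction with
  | singleton a => exact ⟨a, Finset.mem_singleton_self a, fun j hj => by
      rw [Finset.mem_singleton] at hj; subst hj; exact dvd_rfl⟩
  | cons a s ha _ ih =>
    obtain ⟨i, hi, hdiv⟩ := ih
    rcases ValuationRing.dvd_total (f a) (f i) with h | h
    · refine ⟨a, Finset.mem_cons_self a s, fun j hj => ?_⟩
      rcases Finset.mem_cons.mp hj with rfl | hj
      · exact dvd_rfl
      · exact h.trans (hdiv j hj)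
    · refine ⟨i, Finset.mem_cons.mpr (Or.inr hi), fun j hj => ?_⟩
      rcases Finset.mem_cons.mp hj with rfl | hj
      · exact h
      · exact hdiv j hj

/-- The coordinates of an element of `𝔪_R T` lie in `𝔪_R`. -/
theorem s26evc_repr_mem_of_mem_map {ι : Type*} (b : Module.Basis ι R T) {t : T}
    (ht : t ∈ Ideal.map (algebraMap R T) (maximalIdeal R)) (i : ι) :
    b.repr t i ∈ maximalIdeal R := by
  have ht' : t ∈ (maximalIdeal R • (⊤ : Submodule R T)) := by
    rw [Ideal.smul_top_eq_map]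
    exact ht
  refine Submodule.smul_induction_on ht' ?_ ?_
  · intro r hr x _
    rw [map_smul, Finsupp.smul_apply, smul_eq_mul]
    exact Ideal.mul_mem_right _ _ hr
  · intro x y hx hy
    rw [map_add, Finsupp.add_apply]
    exact Ideal.add_mem _ hx hy

variable [Module.Free R T]

/-- **Content.** A nonzero element of a free module over a valuation ring is `ρ • s'` with
`ρ ≠ 0` and `s'` primitive (`s' ∉ 𝔪_R T`). -/
theorem s26evc_exists_content {s : T} (hs : s ≠ 0) :
    ∃ (ρ : R) (s' : T), ρ ≠ 0 ∧ s = ρ • s' ∧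
      s' ∉ Ideal.map (algebraMap R T) (maximalIdeal R) := by
  classical
  let b := Module.Free.chooseBasis R T
  have hsupp : (b.repr s).support.Nonempty := by
    rw [Finsupp.support_nonempty_iff]
    intro h
    exact hs (b.repr.map_eq_zero_iff.mp h)
  obtain ⟨i, hi, hdiv⟩ := s26evc_exists_dvd_all (b.repr s).support hsupp (fun j => b.repr s j)
  have hρ : b.repr s i ≠ 0 := Finsupp.mem_support_iff.mp hi
  -- the quotients
  have hq : ∀ j, ∃ q : R, b.repr s j = b.repr s i * q := by
    intro j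
    by_cases hj : j ∈ (b.repr s).support
    · exact hdiv j hj
    · exact ⟨0, by rw [Finsupp.notMem_support_iff.mp hj, mul_zero]⟩
  choose q hq using hq
  have hqsupp : ∀ j, q j ≠ 0 → j ∈ (b.repr s).support := by
    intro j hj
    rw [Finsupp.mem_support_iff, hq j]
    exact mul_ne_zero hρ hj
  let c : _ →₀ R := Finsupp.onFinset (b.repr s).support q hqsupp
  refine ⟨b.repr s i, b.repr.symm c, hρ, ?_, ?_⟩
  · apply b.repr.injective
    rw [map_smul, LinearEquiv.apply_symm_apply]
    ext j
    rw [Finsupp.smul_apply, smul_eq_mul, Finsupp.onFinset_apply, ← hq j]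
  · intro hmem
    have h1 := s26evc_repr_mem_of_mem_map b hmem i
    rw [LinearEquiv.apply_symm_apply, Finsupp.onFinset_apply] at h1
    have hqi : q i = 1 := by
      have := hq i
      exact mul_left_cancel₀ hρ (by rw [mul_one]; exact this.symm)
    rw [hqi] at h1
    exact (Ideal.ne_top_iff_one _).mp (maximalIdeal.isMaximal R).ne_top h1

omit [Module.Free R T] in
/-- Contents are unique up to units: `x • t = y • t'` with `t, t'` primitive and `y ≠ 0` forces
`x = u * y` with `u` a unit. -/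
theorem s26evc_isUnit_of_smul_eq [Module.IsTorsionFree R T] {x y : R} {t t' : T} (hy : y ≠ 0)
    (ht : t ∉ Ideal.map (algebraMap R T) (maximalIdeal R))
    (ht' : t' ∉ Ideal.map (algebraMap R T) (maximalIdeal R))
    (h : x • t = y • t') : ∃ u : Rˣ, x = u * y := by
  have hmem : ∀ (z : R) (w : T), ¬ IsUnit z → z • w ∈ Ideal.map (algebraMap R T) (maximalIdeal R) := by
    intro z w hz
    rw [Algebra.smul_def]
    exact Ideal.mul_mem_right _ _ (Ideal.mem_map_of_mem _ ((mem_maximalIdeal z).mpr hz))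
  rcases ValuationRing.dvd_total x y with ⟨z, rfl⟩ | ⟨z, rfl⟩
  · -- y = x z
    have hx : x ≠ 0 := left_ne_zero_of_mul hy
    have h2 : t = z • t' := by
      rw [mul_smul] at h
      exact smul_right_injective T hx h
    have hz : IsUnit z := by
      by_contra hz
      exact ht (h2 ▸ hmem z t' hz)
    exact ⟨hz.unit⁻¹, by
      rw [mul_comm x z, ← mul_assoc]
      simp⟩
  · -- x = y z
    have h2 : z • t = t' := by
      rw [mul_smul] at h
      exact smul_right_injective T hy h
    have hz : IsUnit z := by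
      by_contra hz
      exact ht' (h2 ▸ hmem z t hz)
    exact ⟨hz.unit, by rw [mul_comm]; rfl⟩

/-- **(C3).**  `𝔫 ⊇ 𝔪_R T` a prime, `H = a/(ρ b)`, `H⁻¹ = a'/(ρ' b')` with `b, b' ∉ 𝔫` and
`ρ, ρ' ≠ 0`: then `H · (ρ b) = c • a₁` with `c ≠ 0` in `R` and `a₁ ∉ 𝔫`, i.e. `H` is a constant
of `Frac R` times a unit of `T_𝔫`. -/
theorem s26evc_unit_decomp
    (hprime : (Ideal.map (algebraMap R T) (maximalIdeal R)).IsPrime)
    (𝔫 : Ideal T) [𝔫.IsPrime] (h𝔫 : Ideal.map (algebraMap R T) (maximalIdeal R) ≤ 𝔫)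
    {L : Type*} [Field L] [Algebra T L] [IsFractionRing T L] (H : L)
    (a b a' b' : T) (ρ ρ' : R) (hb : b ∉ 𝔫) (hb' : b' ∉ 𝔫) (hρ : ρ ≠ 0) (hρ' : ρ' ≠ 0)
    (h1 : H * algebraMap T L (ρ • b) = algebraMap T L a)
    (h2 : algebraMap T L (ρ' • b') = H * algebraMap T L a') :
    ∃ (c : R) (a₁ : T), c ≠ 0 ∧ a₁ ∉ 𝔫 ∧ H * algebraMap T L (ρ • b) = algebraMap T L (c • a₁) := by
  have hinj : Function.Injective (algebraMap T L) := IsFractionRing.injective T L
  have : Module.IsTorsionFree R T := inferInstance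
  have hb0 : b ≠ 0 := fun h => hb (h ▸ 𝔫.zero_mem)
  have hb'0 : b' ≠ 0 := fun h => hb' (h ▸ 𝔫.zero_mem)
  have hρb : ρ • b ≠ 0 := smul_ne_zero hρ hb0
  have hρb' : ρ' • b' ≠ 0 := smul_ne_zero hρ' hb'0
  have hH : H ≠ 0 := by
    rintro rfl
    rw [zero_mul] at h2
    exact hρb' (hinj (by rw [h2, map_zero]))
  have ha : a ≠ 0 := by
    rintro rfl
    rw [map_zero] at h1
    rcases mul_eq_zero.mp h1 with h | h
    · exact hH h
    · exact hρb (hinj (by rw [h, map_zero]))
  have ha' : a' ≠ 0 := by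
    rintro rfl
    rw [map_zero, mul_zero] at h2
    exact hρb' (hinj (by rw [h2, map_zero]))
  -- the product relation in `T`
  have hprod : a * a' = (ρ * ρ') • (b * b') := by
    apply hinj
    have e : algebraMap T L ((ρ * ρ') • (b * b')) =
        algebraMap T L (ρ • b) * algebraMap T L (ρ' • b') := by
      rw [← map_mul]
      congr 1
      rw [smul_mul_smul_comm]
    rw [e, map_mul, ← h1, h2]
    ring
  obtain ⟨c, a₁, hc, rfl, ha₁⟩ := s26evc_exists_content (R := R) ha
  obtain ⟨c', a₁', hc', rfl, ha₁'⟩ := s26evc_exists_content (R := R) ha'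
  have hbb : b * b' ∉ 𝔫 := fun h => (Ideal.IsPrime.mem_or_mem inferInstance h).elim hb hb'
  have hbb' : b * b' ∉ Ideal.map (algebraMap R T) (maximalIdeal R) := fun h => hbb (h𝔫 h)
  have haa : a₁ * a₁' ∉ Ideal.map (algebraMap R T) (maximalIdeal R) :=
    fun h => (hprime.mem_or_mem h).elim ha₁ ha₁'
  have hprod' : (c * c') • (a₁ * a₁') = (ρ * ρ') • (b * b') := by
    rw [← hprod, smul_mul_smul_comm]
  obtain ⟨u, hu⟩ := s26evc_isUnit_of_smul_eq (mul_ne_zero hρ hρ') haa hbb' hprod'
  have hfin : (u : R) • (a₁ * a₁') = b * b' := by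
    have h3 : (ρ * ρ') • ((u : R) • (a₁ * a₁')) = (ρ * ρ') • (b * b') := by
      rw [← hprod', hu, smul_smul, mul_comm]
    exact smul_right_injective T (mul_ne_zero hρ hρ') h3
  refine ⟨c, a₁, hc, fun h => hbb ?_, h1⟩
  rw [← hfin, Algebra.smul_def]
  exact Ideal.mul_mem_left _ _ (Ideal.mul_mem_right _ _ h)

/-- **(C4).**  In the situation of `s26evc_unit_decomp`, every valuation subring `W` of the fraction
field that contains `T` and in which the elements of `T ∖ 𝔫` are units gives `H` the valuation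
of the constant `c / ρ`. -/
theorem s26evc_val_eq
    (hprime : (Ideal.map (algebraMap R T) (maximalIdeal R)).IsPrime)
    (𝔫 : Ideal T) [𝔫.IsPrime] (h𝔫 : Ideal.map (algebraMap R T) (maximalIdeal R) ≤ 𝔫)
    {L : Type*} [Field L] [Algebra T L] [IsFractionRing T L] (H : L)
    (a b a' b' : T) (ρ ρ' : R) (hb : b ∉ 𝔫) (hb' : b' ∉ 𝔫) (hρ : ρ ≠ 0) (hρ' : ρ' ≠ 0)
    (h1 : H * algebraMap T L (ρ • b) = algebraMap T L a)
    (h2 : algebraMap T L (ρ' • b') = H * algebraMap T L a') :
    ∃ c : R, c ≠ 0 ∧ ∀ W : ValuationSubring L,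
      (∀ t : T, t ∉ 𝔫 → W.valuation (algebraMap T L t) = 1) →
        W.valuation H * W.valuation (algebraMap T L (algebraMap R T ρ)) =
          W.valuation (algebraMap T L (algebraMap R T c)) := by
  obtain ⟨c, a₁, hc, ha₁, h⟩ :=
    s26evc_unit_decomp hprime 𝔫 h𝔫 H a b a' b' ρ ρ' hb hb' hρ hρ' h1 h2
  refine ⟨c, hc, fun W hW => ?_⟩
  have e := congrArg W.valuation h
  rw [map_mul, Algebra.smul_def, Algebra.smul_def, map_mul, map_mul, map_mul, map_mul, hW b hb,
    hW a₁ ha₁, mul_one, mul_one] at e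
  exact e

end Content

end Fermat.Agent.S26
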