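/-
S26-E-VERT (helper38): the INSTANCE `T = R ⊗[K] B` of the content/wiring lemmas.

`K` a field, `R` a valuation ring containing `K` (any rank), `B` a `K`-algebra (in the application
`B = W ∩ 𝔠`: a place `O_Q` of the curve, or the function field `𝔠` itself).
`T = R ⊗[K] B` is an `R`-algebra (left), free over `R` (Mathlib instance).

* `s26evi_M_eq_ker`  : `𝔪_R T = ker (T → (R ⧸ 𝔪_R) ⊗[K] B)`.
* `s26evi_M_isPrime` : `𝔪_R T` is prime as soon as `k_R ⊗[K] B` is a domain.
* `s26eviSec e`      : the section `id ⊗ e : R ⊗[K] B →ₐ[R] R` of a `K`-point `e : B →ₐ[K] K`;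
  `s26eviCentre e`   : the centre `(id ⊗ e)⁻¹(𝔪_R)` on the section; it is prime and contains `𝔪_R T`.
* `s26eviMap j`      : `id ⊗ j : R ⊗[K] B →ₐ[R] R ⊗[K] C` for `j : B →ₐ[K] C`; injective if `j` is;
  `s26evi_comap_M`   : `(id ⊗ j)⁻¹ (𝔪_R (R ⊗ C)) = 𝔪_R (R ⊗ B)` for injective `j`
  (primitive elements stay primitive).
-/
import Fermat.Agent.S26.EVertCont
import Mathlib.LinearAlgebra.TensorProduct.RightExactness
import Mathlib.RingTheory.TensorProduct.Free
import Mathlib.RingTheory.Flat.Basic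
import Mathlib.RingTheory.Ideal.Quotient.Operations

set_option autoImplicit false
set_option linter.unusedSectionVars false

namespace Fermat.Agent.S26

open IsLocalRing TensorProduct

variable (K R B : Type*) [Field K] [CommRing R] [IsDomain R] [ValuationRing R] [Algebra K R]
  [CommRing B] [Algebra K B]

/-- the reduction `T = R ⊗ B → k_R ⊗ B` -/
noncomputable def s26eviRed : R ⊗[K] B →ₐ[K] (R ⧸ maximalIdeal R) ⊗[K] B :=
  Algebra.TensorProduct.map (Ideal.Quotient.mkₐ K (maximalIdeal R)) (AlgHom.id K B)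

theorem s26evi_M_eq_ker :
    s26evcM R (R ⊗[K] B) = RingHom.ker (s26eviRed K R B) := by
  unfold s26eviRed s26evcM
  rw [Algebra.TensorProduct.rTensor_ker (Ideal.Quotient.mkₐ K (maximalIdeal R))
    (Ideal.Quotient.mkₐ_surjective K _)]
  have h : RingHom.ker (Ideal.Quotient.mkₐ K (maximalIdeal R)) = maximalIdeal R := by
    ext x
    rw [RingHom.mem_ker]
    exact Ideal.Quotient.eq_zero_iff_mem
  rw [h]
  rfl

/-- `𝔪_R T` is prime if `k_R ⊗[K] B` is a domain. -/
theorem s26evi_M_isPrime [IsDomain ((R ⧸ maximalIdeal R) ⊗[K] B)] :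
    (s26evcM R (R ⊗[K] B)).IsPrime := by
  rw [s26evi_M_eq_ker]
  exact RingHom.ker_isPrime _

variable {K R B}

/-- the section `id ⊗ e` of a `K`-point `e` of `B` -/
noncomputable def s26eviSec (e : B →ₐ[K] K) : R ⊗[K] B →ₐ[R] R :=
  (Algebra.TensorProduct.rid K R R).toAlgHom.comp
    (Algebra.TensorProduct.map (AlgHom.id R R) e)

@[simp] theorem s26eviSec_tmul (e : B →ₐ[K] K) (r : R) (b : B) :
    s26eviSec e (r ⊗ₜ[K] b) = e b • r := by
  simp [s26eviSec]

/-- the centre on the section -/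
noncomputable def s26eviCentre (e : B →ₐ[K] K) : Ideal (R ⊗[K] B) :=
  Ideal.comap (s26eviSec (R := R) e) (maximalIdeal R)

theorem s26eviCentre_isPrime (e : B →ₐ[K] K) : (s26eviCentre (R := R) e).IsPrime :=
  Ideal.comap_isPrime _ _

theorem s26evi_mem_centre_iff (e : B →ₐ[K] K) (x : R ⊗[K] B) :
    x ∈ s26eviCentre (R := R) e ↔ s26eviSec e x ∈ maximalIdeal R := Iff.rfl

theorem s26evi_M_le_centre (e : B →ₐ[K] K) :
    s26evcM R (R ⊗[K] B) ≤ s26eviCentre (R := R) e := by
  unfold s26evcM
  rw [Ideal.map_le_iff_le_comap]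
  intro r hr
  show s26eviSec e (algebraMap R (R ⊗[K] B) r) ∈ maximalIdeal R
  rw [AlgHom.commutes]
  exact hr

section Map

variable {C : Type*} [CommRing C] [Algebra K C]

/-- `id ⊗ j` -/
noncomputable def s26eviMap (j : B →ₐ[K] C) : R ⊗[K] B →ₐ[R] R ⊗[K] C :=
  Algebra.TensorProduct.map (AlgHom.id R R) j

@[simp] theorem s26eviMap_tmul (j : B →ₐ[K] C) (r : R) (b : B) :
    s26eviMap j (r ⊗ₜ[K] b) = r ⊗ₜ[K] j b := by
  simp [s26eviMap]

theorem s26eviMap_injective (j : B →ₐ[K] C) (hj : Function.Injective j) :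
    Function.Injective (s26eviMap (R := R) j) := by
  have h : (s26eviMap (R := R) j : R ⊗[K] B → R ⊗[K] C) =
      (LinearMap.lTensor R j.toLinearMap : R ⊗[K] B → R ⊗[K] C) := by
    funext x
    induction x using TensorProduct.induction_on with
    | zero => simp
    | tmul r b => simp
    | add x y hx hy => rw [map_add, map_add, hx, hy]
  rw [h]
  exact Module.Flat.lTensor_preserves_injective_linearMap _ hj

/-- the reduction commutes with `id ⊗ j` -/
theorem s26eviRed_map (j : B →ₐ[K] C) (x : R ⊗[K] B) :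
    s26eviRed K R C (s26eviMap j x) =
      Algebra.TensorProduct.map (AlgHom.id K (R ⧸ maximalIdeal R)) j (s26eviRed K R B x) := by
  induction x using TensorProduct.induction_on with
  | zero => simp
  | tmul r b => simp [s26eviRed]
  | add x y hx hy => rw [map_add, map_add, map_add, map_add, hx, hy]

/-- primitive elements stay primitive: `(id ⊗ j)⁻¹ (𝔪_R (R ⊗ C)) = 𝔪_R (R ⊗ B)` for injective `j`. -/
theorem s26evi_comap_M (j : B →ₐ[K] C) (hj : Function.Injective j) :
    Ideal.comap (s26eviMap (R := R) j) (s26evcM R (R ⊗[K] C)) = s26evcM R (R ⊗[K] B) := by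
  ext x
  rw [Ideal.mem_comap, s26evi_M_eq_ker, s26evi_M_eq_ker, RingHom.mem_ker, RingHom.mem_ker]
  have e := s26eviRed_map (R := R) j x
  change (s26eviRed K R C) (s26eviMap j x) = 0 ↔ (s26eviRed K R B) x = 0
  rw [e]
  have hinj : Function.Injective
      (Algebra.TensorProduct.map (AlgHom.id K (R ⧸ maximalIdeal R)) j) := by
    have h : (Algebra.TensorProduct.map (AlgHom.id K (R ⧸ maximalIdeal R)) j :
        (R ⧸ maximalIdeal R) ⊗[K] B → (R ⧸ maximalIdeal R) ⊗[K] C) =
        (LinearMap.lTensor (R ⧸ maximalIdeal R) j.toLinearMap :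
          (R ⧸ maximalIdeal R) ⊗[K] B → (R ⧸ maximalIdeal R) ⊗[K] C) := by
      funext y
      induction y using TensorProduct.induction_on with
      | zero => simp
      | tmul r b => simp
      | add x y hx hy => rw [map_add, map_add, hx, hy]
    rw [h]
    exact Module.Flat.lTensor_preserves_injective_linearMap _ hj
  constructor
  · intro h
    exact hinj (by rw [h, map_zero])
  · intro h
    rw [h, map_zero]

end Map

end Fermat.Agent.S26
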