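/-
S26-E, piece E-VERT (NOR) (helper25, for helper38's wiring): NORMALITY of the constant extension,
pure commutative algebra (Mathlib only).

* `s26evn_of_away`        : `A` a domain, `t ∈ A` a prime element, `A[1/t]` integrally closed
                            ⇒ `A` integrally closed.
* `s26evnMap`, `s26evnMap_injective`, `s26evn_isLocalization` (LOC): `K` a field, `𝔎` a `K`-algebra,
  `B → B'` the localization at `M ≤ B⁰`: `𝔎 ⊗[K] B'` is the localization of `𝔎 ⊗[K] B` at `1 ⊗ M`.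
* `s26evn_away_of_fraction` : `B` a discrete valuation ring, `t` irreducible: `Frac B = B[1/t]`.
* `s26evn_prime_tmul`     : `B` local with residue field `K`, maximal ideal `(t)`, `𝔎` a domain:
                            `1 ⊗ t` is a prime element of `𝔎 ⊗[K] B`.
* `s26evn_N2`             : **(N2)** `B` a discrete valuation ring with residue field `K`,
                            `𝔠 = Frac B`, `𝔎 ⊗[K] 𝔠` integrally closed ⇒ `𝔎 ⊗[K] B` integrally closed.
-/
import Mathlib.RingTheory.Polynomial.Eisenstein.Basic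
import Mathlib.RingTheory.Localization.Away.Basic
import Mathlib.RingTheory.Localization.BaseChange
import Mathlib.RingTheory.Localization.Integral
import Mathlib.RingTheory.Localization.LocalizationLocalization
import Mathlib.RingTheory.IntegralClosure.IntegrallyClosed
import Mathlib.RingTheory.DiscreteValuationRing.Basic
import Mathlib.RingTheory.Flat.Basic
import Mathlib.LinearAlgebra.TensorProduct.RightExactness

set_option autoImplicit false
set_option linter.style.haveILetI false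
set_option linter.unusedSectionVars false

noncomputable section

namespace Fermat.Agent.S26

open TensorProduct

section Away

/-- `A` a domain, `t` a prime element, `A[1/t]` integrally closed ⇒ `A` integrally closed. -/
theorem s26evn_of_away {A A' : Type*} [CommRing A] [IsDomain A] [CommRing A'] [Algebra A A']
    {t : A} (ht : Prime t) [IsLocalization.Away t A'] [IsIntegrallyClosed A'] :
    IsIntegrallyClosed A := by
  classical
  have hM : Submonoid.powers t ≤ nonZeroDivisors A :=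
    powers_le_nonZeroDivisors_of_noZeroDivisors ht.ne_zero
  haveI : IsDomain A' := IsLocalization.isDomain_of_le_nonZeroDivisors A' hM
  let F := FractionRing A
  have hu : ∀ y : Submonoid.powers t, IsUnit (algebraMap A F y) := fun y =>
    IsLocalization.map_units F (⟨y, hM y.2⟩ : nonZeroDivisors A)
  letI : Algebra A' F := (IsLocalization.lift (M := Submonoid.powers t) hu).toAlgebra
  haveI : IsScalarTower A A' F :=
    IsScalarTower.of_algebraMap_eq (fun x => (IsLocalization.lift_eq hu x).symm)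
  haveI : IsFractionRing A' F :=
    IsFractionRing.isFractionRing_of_isDomain_of_isLocalization (Submonoid.powers t) A' F
  have hinj : Function.Injective (algebraMap A F) := IsFractionRing.injective A F
  have hinj' : Function.Injective (algebraMap A' F) := IsFractionRing.injective A' F
  have htu : IsUnit (algebraMap A A' t) :=
    IsLocalization.map_units A' (⟨t, Submonoid.mem_powers t⟩ : Submonoid.powers t)
  refine (isIntegrallyClosed_iff F).mpr fun {x} hx => ?_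
  have hx' : IsIntegral A' x := hx.tower_top
  obtain ⟨y', hy'⟩ := (isIntegrallyClosed_iff F).mp inferInstance hx'
  have hex : ∃ n : ℕ, ∃ a : A, y' * algebraMap A A' (t ^ n) = algebraMap A A' a := by
    obtain ⟨⟨a, ⟨_, n, rfl⟩⟩, h⟩ := IsLocalization.surj (Submonoid.powers t) y'
    exact ⟨n, a, h⟩
  obtain ⟨a, ha⟩ := Nat.find_spec hex
  rcases Nat.eq_zero_or_pos (Nat.find hex) with h0 | hpos
  · refine ⟨a, ?_⟩
    rw [h0, pow_zero, map_one, mul_one] at ha
    rw [IsScalarTower.algebraMap_apply A A' F, ← ha, hy']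
  · exfalso
    obtain ⟨p, hp, hpx⟩ := hx
    have hz : algebraMap A F (t ^ Nat.find hex) * x = algebraMap A F a := by
      rw [IsScalarTower.algebraMap_apply A A' F, IsScalarTower.algebraMap_apply A A' F a, ← ha,
        ← hy', map_mul, mul_comm]
    have hdvd : t ^ Nat.find hex ∣ a ^ p.natDegree :=
      Polynomial.dvd_pow_natDegree_of_eval₂_eq_zero hinj hp _ _ x hpx hz
    have hta : t ∣ a :=
      ht.dvd_of_dvd_pow ((dvd_pow_self t hpos.ne').trans hdvd)
    obtain ⟨a₁, rfl⟩ := hta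
    refine Nat.find_min hex (Nat.sub_lt hpos Nat.one_pos) ⟨a₁, ?_⟩
    have hn : Nat.find hex = (Nat.find hex - 1) + 1 := (Nat.sub_add_cancel hpos).symm
    rw [hn, pow_succ, map_mul, map_mul, ← mul_assoc, mul_comm (algebraMap A A' t)] at ha
    exact htu.mul_left_injective ha

end Away

section Loc

variable {K : Type*} [Field K] (𝔎 : Type*) [CommRing 𝔎] [Algebra K 𝔎]
  (B B' : Type*) [CommRing B] [CommRing B'] [Algebra K B] [Algebra K B'] [Algebra B B']
  [IsScalarTower K B B']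

/-- the base change `𝔎 ⊗[K] B → 𝔎 ⊗[K] B'` -/
abbrev s26evnMap : 𝔎 ⊗[K] B →ₐ[𝔎] 𝔎 ⊗[K] B' :=
  Algebra.TensorProduct.map (AlgHom.id 𝔎 𝔎) (IsScalarTower.toAlgHom K B B')

theorem s26evnMap_tmul (k : 𝔎) (b : B) :
    s26evnMap 𝔎 B B' (k ⊗ₜ[K] b) = k ⊗ₜ[K] algebraMap B B' b := by
  simp [s26evnMap]

theorem s26evnMap_injective (h : Function.Injective (algebraMap B B')) :
    Function.Injective (s26evnMap (K := K) 𝔎 B B') := by
  have h1 : Function.Injective
      (LinearMap.lTensor 𝔎 (IsScalarTower.toAlgHom K B B').toLinearMap) :=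
    Module.Flat.lTensor_preserves_injective_linearMap _ h
  have h2 : ⇑(s26evnMap (K := K) 𝔎 B B') =
      ⇑(LinearMap.lTensor 𝔎 (IsScalarTower.toAlgHom K B B').toLinearMap) := by
    funext z
    induction z using TensorProduct.induction_on with
    | zero => simp
    | tmul k b => simp
    | add z₁ z₂ h₁ h₂ => rw [map_add, map_add, h₁, h₂]
  rw [h2]
  exact h1

/-- **(LOC)**: `𝔎 ⊗[K] M⁻¹B` is the localization of `𝔎 ⊗[K] B` at `1 ⊗ M`. -/
theorem s26evn_isLocalization (M : Submonoid B) [IsLocalization M B']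
    (hM : M ≤ nonZeroDivisors B) :
    letI : Algebra (𝔎 ⊗[K] B) (𝔎 ⊗[K] B') := (s26evnMap 𝔎 B B').toRingHom.toAlgebra
    IsLocalization (M.map (Algebra.TensorProduct.includeRight : B →ₐ[K] 𝔎 ⊗[K] B))
      (𝔎 ⊗[K] B') := by
  letI : Algebra (𝔎 ⊗[K] B) (𝔎 ⊗[K] B') := (s26evnMap 𝔎 B B').toRingHom.toAlgebra
  have halg : ∀ z, algebraMap (𝔎 ⊗[K] B) (𝔎 ⊗[K] B') z = s26evnMap 𝔎 B B' z := fun _ => rfl
  refine (isLocalization_iff _ _).mpr ⟨?_, ?_, ?_⟩
  · rintro ⟨_, m, hm, rfl⟩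
    have hu : IsUnit (algebraMap B B' m) := IsLocalization.map_units B' ⟨m, hm⟩
    have := hu.map (Algebra.TensorProduct.includeRight : B' →ₐ[K] 𝔎 ⊗[K] B')
    simpa [halg] using this
  · intro z
    induction z using TensorProduct.induction_on with
    | zero => exact ⟨⟨0, 1⟩, by simp⟩
    | tmul k b' =>
      obtain ⟨⟨b, m⟩, h⟩ := IsLocalization.surj M b'
      refine ⟨⟨k ⊗ₜ b, ⟨Algebra.TensorProduct.includeRight (m : B), (m : B), m.2, rfl⟩⟩, ?_⟩
      have h' : b' * algebraMap B B' (m : B) = algebraMap B B' b := h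
      show k ⊗ₜ[K] b' * s26evnMap 𝔎 B B' (1 ⊗ₜ[K] (m : B)) = s26evnMap 𝔎 B B' (k ⊗ₜ[K] b)
      rw [s26evnMap_tmul, s26evnMap_tmul, Algebra.TensorProduct.tmul_mul_tmul, mul_one, h']
    | add z₁ z₂ h₁ h₂ =>
      obtain ⟨⟨x₁, m₁⟩, h₁⟩ := h₁
      obtain ⟨⟨x₂, m₂⟩, h₂⟩ := h₂
      refine ⟨⟨x₁ * m₂ + x₂ * m₁, m₁ * m₂⟩, ?_⟩
      simp only [Submonoid.coe_mul, map_add, map_mul] at h₁ h₂ ⊢
      rw [← h₁, ← h₂]
      ring
  · intro x y hxy
    exact ⟨1, by rw [s26evnMap_injective 𝔎 B B' (IsLocalization.injective B' hM) hxy]⟩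

end Loc

section N2

variable {K : Type*} [Field K] (𝔎 : Type*) [CommRing 𝔎] [IsDomain 𝔎] [Algebra K 𝔎]
  (B : Type*) [CommRing B] [Algebra K B]

/-- `B/(t) = K` and `𝔎` a domain ⇒ `1 ⊗ t` generates a prime ideal of `𝔎 ⊗[K] B`. -/
theorem s26evn_span_tmul_isPrime {t : B} (hI : Ideal.span {t} ≠ ⊤)
    (hres : ∀ b : B, ∃ c : K, b - algebraMap K B c ∈ Ideal.span {t}) :
    (Ideal.span {(1 : 𝔎) ⊗ₜ[K] t}).IsPrime := by
  set I : Ideal B := Ideal.span {t} with hIdef
  haveI : Nontrivial (B ⧸ I) := Ideal.Quotient.nontrivial_iff.mpr hI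
  have hbij : Function.Bijective (algebraMap K (B ⧸ I)) := by
    refine ⟨(algebraMap K (B ⧸ I)).injective, fun x => ?_⟩
    obtain ⟨b, rfl⟩ := Ideal.Quotient.mk_surjective x
    obtain ⟨c, hc⟩ := hres b
    refine ⟨c, ?_⟩
    rw [IsScalarTower.algebraMap_apply K B (B ⧸ I), Ideal.Quotient.algebraMap_eq]
    exact ((Ideal.Quotient.eq).mpr hc).symm
  let e : K ≃ₐ[K] (B ⧸ I) := AlgEquiv.ofBijective (Algebra.ofId K (B ⧸ I)) hbij
  let e' : 𝔎 ⊗[K] (B ⧸ I) ≃ₐ[𝔎] 𝔎 :=
    (Algebra.TensorProduct.congr (AlgEquiv.refl : 𝔎 ≃ₐ[𝔎] 𝔎) e.symm).trans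
      (Algebra.TensorProduct.rid K 𝔎 𝔎)
  haveI : IsDomain (𝔎 ⊗[K] (B ⧸ I)) := e'.toRingEquiv.toMulEquiv.isDomain 𝔎
  let ψ : 𝔎 ⊗[K] B →ₐ[K] 𝔎 ⊗[K] (B ⧸ I) :=
    Algebra.TensorProduct.map (AlgHom.id K 𝔎) (Ideal.Quotient.mkₐ K I)
  have hker : RingHom.ker ψ = Ideal.span {(1 : 𝔎) ⊗ₜ[K] t} := by
    have h1 := Algebra.TensorProduct.lTensor_ker (A := 𝔎) (Ideal.Quotient.mkₐ K I)
      (Ideal.Quotient.mkₐ_surjective K I)
    have h2 : RingHom.ker (Ideal.Quotient.mkₐ K I) = I := Ideal.Quotient.mkₐ_ker K I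
    rw [show RingHom.ker ψ = _ from h1, h2, hIdef, Ideal.map_span, Set.image_singleton]
    rfl
  rw [← hker]
  exact RingHom.ker_isPrime ψ

/-- `B/(t) = K`, `t ≠ 0` and `𝔎` a domain ⇒ `1 ⊗ t` is a prime element of `𝔎 ⊗[K] B`. -/
theorem s26evn_prime_tmul {t : B} (ht0 : t ≠ 0) (hI : Ideal.span {t} ≠ ⊤)
    (hres : ∀ b : B, ∃ c : K, b - algebraMap K B c ∈ Ideal.span {t}) :
    Prime ((1 : 𝔎) ⊗ₜ[K] t) := by
  have hne : (1 : 𝔎) ⊗ₜ[K] t ≠ 0 := by
    have hinj : Function.Injective (Algebra.TensorProduct.includeRight : B →ₐ[K] 𝔎 ⊗[K] B) :=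
      Algebra.TensorProduct.includeRight_injective (algebraMap K 𝔎).injective
    intro h
    exact ht0 (hinj (by rw [map_zero]; exact h))
  exact (Ideal.span_singleton_prime hne).mp (s26evn_span_tmul_isPrime 𝔎 B hI hres)

variable (B' : Type*) [CommRing B'] [Algebra K B'] [Algebra B B'] [IsScalarTower K B B']

/-- **(N2), general form**: `B` a domain over the field `K`, `B/(t) = K`, `B' = B[1/t]`;
if `𝔎 ⊗[K] B'` is integrally closed, so is `𝔎 ⊗[K] B`. -/
theorem s26evn_N2_away [IsDomain B] {t : B} (ht0 : t ≠ 0) (hI : Ideal.span {t} ≠ ⊤)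
    (hres : ∀ b : B, ∃ c : K, b - algebraMap K B c ∈ Ideal.span {t})
    [IsLocalization.Away t B'] [IsDomain (𝔎 ⊗[K] B)] [IsIntegrallyClosed (𝔎 ⊗[K] B')] :
    IsIntegrallyClosed (𝔎 ⊗[K] B) := by
  letI : Algebra (𝔎 ⊗[K] B) (𝔎 ⊗[K] B') := (s26evnMap 𝔎 B B').toRingHom.toAlgebra
  have hM : Submonoid.powers t ≤ nonZeroDivisors B :=
    powers_le_nonZeroDivisors_of_noZeroDivisors ht0
  have hloc := s26evn_isLocalization (K := K) 𝔎 B B' (Submonoid.powers t) hM
  have hpow : (Submonoid.powers t).map (Algebra.TensorProduct.includeRight : B →ₐ[K] 𝔎 ⊗[K] B)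
      = Submonoid.powers ((1 : 𝔎) ⊗ₜ[K] t) := by
    rw [Submonoid.map_powers]
    rfl
  rw [hpow] at hloc
  haveI : IsLocalization.Away ((1 : 𝔎) ⊗ₜ[K] t) (𝔎 ⊗[K] B') := hloc
  exact s26evn_of_away (A' := 𝔎 ⊗[K] B') (s26evn_prime_tmul 𝔎 B ht0 hI hres)

end N2

section DVR

variable (B : Type*) [CommRing B] [IsDomain B] [IsDiscreteValuationRing B]
  (𝔠 : Type*) [Field 𝔠] [Algebra B 𝔠] [IsFractionRing B 𝔠]

/-- the fraction field of a discrete valuation ring is `B[1/t]`, `t` irreducible -/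
theorem s26evn_away_of_fraction {t : B} (ht : Irreducible t) : IsLocalization.Away t 𝔠 := by
  have hinj : Function.Injective (algebraMap B 𝔠) := IsFractionRing.injective B 𝔠
  refine (isLocalization_iff _ _).mpr ⟨?_, ?_, ?_⟩
  · rintro ⟨_, n, rfl⟩
    exact (IsUnit.mk0 _ ((map_ne_zero_iff _ hinj).mpr (pow_ne_zero n ht.ne_zero)))
  · intro z
    obtain ⟨⟨b, s⟩, h⟩ := IsLocalization.surj (nonZeroDivisors B) z
    have hs0 : (s : B) ≠ 0 := nonZeroDivisors.ne_zero s.2
    obtain ⟨n, u, hu⟩ := IsDiscreteValuationRing.eq_unit_mul_pow_irreducible hs0 ht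
    refine ⟨⟨b * ((u⁻¹ : Bˣ) : B), ⟨t ^ n, n, rfl⟩⟩, ?_⟩
    have h' : z * algebraMap B 𝔠 (s : B) = algebraMap B 𝔠 b := h
    show z * algebraMap B 𝔠 (t ^ n) = algebraMap B 𝔠 (b * ((u⁻¹ : Bˣ) : B))
    have hs : t ^ n = (s : B) * ((u⁻¹ : Bˣ) : B) := by
      rw [hu, mul_comm, ← mul_assoc, Units.inv_mul, one_mul]
    rw [hs, map_mul, ← mul_assoc, h', ← map_mul]
  · intro x y hxy
    exact ⟨1, by rw [hinj hxy]⟩

variable {K : Type*} [Field K] (𝔎 : Type*) [CommRing 𝔎] [IsDomain 𝔎] [Algebra K 𝔎]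
  [Algebra K B] [Algebra K 𝔠] [IsScalarTower K B 𝔠]

/-- **(N2)**: `B` a discrete valuation ring containing the field `K`, with residue field `K`,
`𝔠 = Frac B`.  If `𝔎 ⊗[K] 𝔠` is integrally closed, so is `𝔎 ⊗[K] B`. -/
theorem s26evn_N2
    (hres : ∀ b : B, ∃ c : K, b - algebraMap K B c ∈ IsLocalRing.maximalIdeal B)
    [IsDomain (𝔎 ⊗[K] B)] [IsIntegrallyClosed (𝔎 ⊗[K] 𝔠)] :
    IsIntegrallyClosed (𝔎 ⊗[K] B) := by
  obtain ⟨t, ht⟩ := IsDiscreteValuationRing.exists_irreducible B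
  have hmax : IsLocalRing.maximalIdeal B = Ideal.span {t} := ht.maximalIdeal_eq
  haveI : IsLocalization.Away t 𝔠 := s26evn_away_of_fraction B 𝔠 ht
  refine s26evn_N2_away 𝔎 B 𝔠 ht.ne_zero ?_ ?_
  · rw [← hmax]
    exact (IsLocalRing.maximalIdeal.isMaximal B).ne_top
  · intro b
    rw [← hmax]
    exact hres b

end DVR

end Fermat.Agent.S26
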