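/-
S26-E, piece E-VERT (NOR), part 2 (helper25, for helper38's wiring): **(N1)**, normality of the
constant extension of a separably generated field.

* `s26evn_N1_core` : `A₀` a `K`-algebra and a domain with fraction field `F₀`, `𝔎 ⊗[K] A₀` an
  integrally closed domain, `𝔠 / F₀` finite separable, `𝔎 ⊗[K] 𝔠` a domain
  ⇒ `𝔎 ⊗[K] 𝔠` is integrally closed.
* `s26evn_N1` : the case `A₀ = K[X]` (`F₀ = K(x)` any fraction field of `K[X]`).
* `s26evn_N1_of_algebraicIndependent` : the case `A₀ = K[s]`, `s ⊆ 𝔠` algebraically independent,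
  `F₀ = K(s)`.
* `s26evn_N1_perfect` : `K` perfect, `𝔠 / K` a finitely generated field extension (essentially
  of finite type), `𝔎 ⊗[K] 𝔠` a domain ⇒ `𝔎 ⊗[K] 𝔠` is integrally closed.

Proof: `𝔎 ⊗[K] F₀` is a localization of `𝔎 ⊗[K] A₀` (`s26evn_isLocalization`), hence an integrally
closed domain; `𝔎 ⊗[K] 𝔠 ≅ (F₀ ⊗[K] 𝔎) ⊗[F₀] 𝔠` is étale over it (base change of the étale
`F₀`-algebra `𝔠`); `s26a2n_etale` (helper91).  For `K` perfect: a separating transcendence basis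
exists (Mathlib, `exists_isTranscendenceBasis_and_isSeparable_of_perfectField`).
-/
import Fermat.Agent.S26.EVertNor
import Fermat.Agent.S26.A2Nor
import Mathlib.RingTheory.PolynomialAlgebra
import Mathlib.RingTheory.Etale.Field
import Mathlib.RingTheory.TensorProduct.MvPolynomial
import Mathlib.RingTheory.Polynomial.UniqueFactorization
import Mathlib.RingTheory.AlgebraicIndependent.Adjoin
import Mathlib.RingTheory.AlgebraicIndependent.TranscendenceBasis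
import Mathlib.FieldTheory.SeparablyGenerated
import Mathlib.FieldTheory.IntermediateField.Adjoin.Algebra

set_option autoImplicit false
set_option linter.style.haveILetI false
set_option linter.unusedSectionVars false

noncomputable section

namespace Fermat.Agent.S26

open TensorProduct Polynomial

/-- a finite separable field extension is étale -/
theorem s26evn_etale_of_isSeparable (F₀ : Type*) [Field F₀] (𝔠 : Type*) [Field 𝔠]
    [Algebra F₀ 𝔠] [FiniteDimensional F₀ 𝔠] [Algebra.IsSeparable F₀ 𝔠] : Algebra.Etale F₀ 𝔠 where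
  formallyEtale := Algebra.FormallyEtale.of_isSeparable F₀ 𝔠
  finitePresentation := Algebra.FinitePresentation.of_finiteType.mp inferInstance

/-- `𝔎 ⊗[K] Frac A₀` is an integrally closed domain if `𝔎 ⊗[K] A₀` is. -/
theorem s26evn_frac (K : Type*) [Field K] (𝔎 : Type*) [Field 𝔎] [Algebra K 𝔎]
    (A₀ : Type*) [CommRing A₀] [IsDomain A₀] [Algebra K A₀]
    (F₀ : Type*) [Field F₀] [Algebra K F₀] [Algebra A₀ F₀] [IsScalarTower K A₀ F₀]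
    [IsFractionRing A₀ F₀] [IsDomain (𝔎 ⊗[K] A₀)] [IsIntegrallyClosed (𝔎 ⊗[K] A₀)] :
    IsDomain (𝔎 ⊗[K] F₀) ∧ IsIntegrallyClosed (𝔎 ⊗[K] F₀) := by
  letI : Algebra (𝔎 ⊗[K] A₀) (𝔎 ⊗[K] F₀) := (s26evnMap 𝔎 A₀ F₀).toRingHom.toAlgebra
  haveI hloc := s26evn_isLocalization (K := K) 𝔎 A₀ F₀ (nonZeroDivisors A₀) le_rfl
  have hinj : Function.Injective
      (Algebra.TensorProduct.includeRight : A₀ →ₐ[K] 𝔎 ⊗[K] A₀) :=
    Algebra.TensorProduct.includeRight_injective (algebraMap K 𝔎).injective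
  have hM' : (nonZeroDivisors A₀).map
      (Algebra.TensorProduct.includeRight : A₀ →ₐ[K] 𝔎 ⊗[K] A₀) ≤
        nonZeroDivisors (𝔎 ⊗[K] A₀) := by
    rintro _ ⟨m, hm, rfl⟩
    refine mem_nonZeroDivisors_of_ne_zero fun h => ?_
    exact nonZeroDivisors.ne_zero hm (hinj (by rw [map_zero]; exact h))
  exact ⟨IsLocalization.isDomain_of_le_nonZeroDivisors _ hM',
    isIntegrallyClosed_of_isLocalization _ _ hM'⟩

/-- **(N1), core**: `A₀` a domain over `K` with fraction field `F₀`, `𝔎 ⊗[K] A₀` an integrally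
closed domain, `𝔠 / F₀` finite separable and `𝔎 ⊗[K] 𝔠` a domain
⇒ `𝔎 ⊗[K] 𝔠` is integrally closed. -/
theorem s26evn_N1_core (K : Type*) [Field K] (𝔎 : Type*) [Field 𝔎] [Algebra K 𝔎]
    (A₀ : Type*) [CommRing A₀] [IsDomain A₀] [Algebra K A₀]
    (F₀ : Type*) [Field F₀] [Algebra K F₀] [Algebra A₀ F₀] [IsScalarTower K A₀ F₀]
    [IsFractionRing A₀ F₀] [IsDomain (𝔎 ⊗[K] A₀)] [IsIntegrallyClosed (𝔎 ⊗[K] A₀)]
    (𝔠 : Type*) [Field 𝔠] [Algebra K 𝔠] [Algebra F₀ 𝔠] [IsScalarTower K F₀ 𝔠]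
    [FiniteDimensional F₀ 𝔠] [Algebra.IsSeparable F₀ 𝔠]
    [IsDomain (𝔎 ⊗[K] 𝔠)] : IsIntegrallyClosed (𝔎 ⊗[K] 𝔠) := by
  obtain ⟨hdom, hic⟩ := s26evn_frac K 𝔎 A₀ F₀
  have eP : (F₀ ⊗[K] 𝔎) ≃+* (𝔎 ⊗[K] F₀) := (Algebra.TensorProduct.comm K F₀ 𝔎).toRingEquiv
  haveI : IsDomain (F₀ ⊗[K] 𝔎) := eP.toMulEquiv.isDomain _
  haveI : IsIntegrallyClosed (F₀ ⊗[K] 𝔎) := IsIntegrallyClosed.of_equiv eP.symm
  haveI : Algebra.Etale F₀ 𝔠 := s26evn_etale_of_isSeparable F₀ 𝔠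
  let e : ((F₀ ⊗[K] 𝔎) ⊗[F₀] 𝔠) ≃+* (𝔎 ⊗[K] 𝔠) :=
    ((Algebra.TensorProduct.comm F₀ (F₀ ⊗[K] 𝔎) 𝔠).toRingEquiv.trans
      (Algebra.TensorProduct.cancelBaseChange K F₀ F₀ 𝔠 𝔎).toRingEquiv).trans
      (Algebra.TensorProduct.comm K 𝔠 𝔎).toRingEquiv
  haveI : IsDomain ((F₀ ⊗[K] 𝔎) ⊗[F₀] 𝔠) := e.toMulEquiv.isDomain _
  haveI : IsIntegrallyClosed ((F₀ ⊗[K] 𝔎) ⊗[F₀] 𝔠) :=
    s26a2n_etale (F₀ ⊗[K] 𝔎) ((F₀ ⊗[K] 𝔎) ⊗[F₀] 𝔠)
  exact IsIntegrallyClosed.of_equiv e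

section Poly

variable (K : Type*) [Field K] (𝔎 : Type*) [Field 𝔎] [Algebra K 𝔎]

theorem s26evn_poly_isDomain : IsDomain (𝔎 ⊗[K] K[X]) :=
  (polyEquivTensor K 𝔎).symm.toRingEquiv.toMulEquiv.isDomain 𝔎[X]

theorem s26evn_poly_isIntegrallyClosed : IsIntegrallyClosed (𝔎 ⊗[K] K[X]) :=
  IsIntegrallyClosed.of_equiv (polyEquivTensor K 𝔎).toRingEquiv

theorem s26evn_mvPoly_isDomain (σ : Type*) : IsDomain (𝔎 ⊗[K] MvPolynomial σ K) :=
  (MvPolynomial.scalarRTensorAlgEquiv (R := K) (N := 𝔎) (σ := σ)).toRingEquiv.toMulEquiv.isDomain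
    (MvPolynomial σ 𝔎)

theorem s26evn_mvPoly_isIntegrallyClosed (σ : Type*) :
    IsIntegrallyClosed (𝔎 ⊗[K] MvPolynomial σ K) :=
  IsIntegrallyClosed.of_equiv
    (MvPolynomial.scalarRTensorAlgEquiv (R := K) (N := 𝔎) (σ := σ)).symm.toRingEquiv

end Poly

/-- **(N1)**: `𝔠 / K(x)` finite separable and `𝔎 ⊗[K] 𝔠` a domain ⇒ `𝔎 ⊗[K] 𝔠` is integrally
closed. -/
theorem s26evn_N1 (K : Type*) [Field K] (𝔎 : Type*) [Field 𝔎] [Algebra K 𝔎]
    (F₀ : Type*) [Field F₀] [Algebra K F₀] [Algebra K[X] F₀] [IsScalarTower K K[X] F₀]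
    [IsFractionRing K[X] F₀]
    (𝔠 : Type*) [Field 𝔠] [Algebra K 𝔠] [Algebra F₀ 𝔠] [IsScalarTower K F₀ 𝔠]
    [FiniteDimensional F₀ 𝔠] [Algebra.IsSeparable F₀ 𝔠]
    [IsDomain (𝔎 ⊗[K] 𝔠)] : IsIntegrallyClosed (𝔎 ⊗[K] 𝔠) := by
  haveI := s26evn_poly_isDomain K 𝔎
  haveI := s26evn_poly_isIntegrallyClosed K 𝔎
  exact s26evn_N1_core K 𝔎 K[X] F₀ 𝔠

open scoped IntermediateField.algebraAdjoinAdjoin in
/-- **(N1)** for a separating algebraically independent family. -/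
theorem s26evn_N1_of_algebraicIndependent (K : Type*) [Field K] (𝔎 : Type*) [Field 𝔎]
    [Algebra K 𝔎] (𝔠 : Type*) [Field 𝔠] [Algebra K 𝔠] (s : Set 𝔠)
    (hs : AlgebraicIndependent K ((↑) : s → 𝔠))
    [FiniteDimensional (IntermediateField.adjoin K s) 𝔠]
    [Algebra.IsSeparable (IntermediateField.adjoin K s) 𝔠]
    [IsDomain (𝔎 ⊗[K] 𝔠)] : IsIntegrallyClosed (𝔎 ⊗[K] 𝔠) := by
  have hr : Set.range ((↑) : s → 𝔠) = s := Subtype.range_coe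
  let e₀ : MvPolynomial s K ≃ₐ[K] Algebra.adjoin K s :=
    hs.aevalEquiv.trans (Subalgebra.equivOfEq _ _ (by rw [hr]))
  let e₁ : 𝔎 ⊗[K] MvPolynomial s K ≃ₐ[K] 𝔎 ⊗[K] Algebra.adjoin K s :=
    Algebra.TensorProduct.congr AlgEquiv.refl e₀
  haveI := s26evn_mvPoly_isDomain K 𝔎 s
  haveI := s26evn_mvPoly_isIntegrallyClosed K 𝔎 s
  haveI : IsDomain (𝔎 ⊗[K] Algebra.adjoin K s) := e₁.symm.toRingEquiv.toMulEquiv.isDomain _
  haveI : IsIntegrallyClosed (𝔎 ⊗[K] Algebra.adjoin K s) :=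
    IsIntegrallyClosed.of_equiv e₁.toRingEquiv
  exact s26evn_N1_core K 𝔎 (Algebra.adjoin K s) (IntermediateField.adjoin K s) 𝔠

/-- **(N1) over a perfect field**: `K` perfect, `𝔠 / K` a finitely generated field extension,
`𝔎 ⊇ K` any field with `𝔎 ⊗[K] 𝔠` a domain ⇒ `𝔎 ⊗[K] 𝔠` is integrally closed. -/
theorem s26evn_N1_perfect (K : Type*) [Field K] [PerfectField K] (𝔎 : Type*) [Field 𝔎]
    [Algebra K 𝔎] (𝔠 : Type*) [Field 𝔠] [Algebra K 𝔠] [Algebra.EssFiniteType K 𝔠]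
    [IsDomain (𝔎 ⊗[K] 𝔠)] : IsIntegrallyClosed (𝔎 ⊗[K] 𝔠) := by
  obtain ⟨s, hs, hsep⟩ := exists_isTranscendenceBasis_and_isSeparable_of_perfectField K 𝔠
  haveI : Algebra.EssFiniteType (IntermediateField.adjoin K (s : Set 𝔠)) 𝔠 :=
    Algebra.EssFiniteType.of_comp K _ _
  haveI : FiniteDimensional (IntermediateField.adjoin K (s : Set 𝔠)) 𝔠 :=
    Algebra.finite_of_essFiniteType_of_isAlgebraic
  exact s26evn_N1_of_algebraicIndependent K 𝔎 𝔠 (s : Set 𝔠) hs.1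

end Fermat.Agent.S26
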