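/-
S26-E, piece E-VERT (NOR), part 3 (helper25, for helper38's wiring): the UNCONDITIONAL forms over
an algebraically closed field `K`.

* `s26evn_field_algClosed` : `𝔠 / K` a finitely generated field extension, `𝔎 ⊇ K` any field
  ⇒ `𝔎 ⊗[K] 𝔠` is an integrally closed domain.
* `s26evn_dvr_algClosed`   : moreover `B ⊂ 𝔠` a discrete valuation ring with `Frac B = 𝔠` and
  residue field `K` ⇒ `𝔎 ⊗[K] B` is an integrally closed domain.
-/
import Fermat.Agent.S26.EVertNorEt
import Fermat.Agent.S26.EG3Dom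

set_option autoImplicit false
set_option linter.style.haveILetI false
set_option linter.unusedSectionVars false

noncomputable section

namespace Fermat.Agent.S26

open TensorProduct

/-- `K` algebraically closed, `𝔠 / K` finitely generated, `𝔎 / K` any field extension:
`𝔎 ⊗[K] 𝔠` is an integrally closed domain. -/
theorem s26evn_field_algClosed (K : Type*) [Field K] [IsAlgClosed K] (𝔎 : Type*) [Field 𝔎]
    [Algebra K 𝔎] (𝔠 : Type*) [Field 𝔠] [Algebra K 𝔠] [Algebra.EssFiniteType K 𝔠] :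
    IsDomain (𝔎 ⊗[K] 𝔠) ∧ IsIntegrallyClosed (𝔎 ⊗[K] 𝔠) := by
  haveI : IsDomain (𝔎 ⊗[K] 𝔠) := s26eg3d_isDomain
  exact ⟨inferInstance, s26evn_N1_perfect K 𝔎 𝔠⟩

/-- `K` algebraically closed, `B` a discrete valuation ring over `K` with residue field `K` and
finitely generated fraction field `𝔠`, `𝔎 / K` any field extension:
`𝔎 ⊗[K] B` is an integrally closed domain. -/
theorem s26evn_dvr_algClosed (K : Type*) [Field K] [IsAlgClosed K] (𝔎 : Type*) [Field 𝔎]
    [Algebra K 𝔎] (B : Type*) [CommRing B] [IsDomain B] [IsDiscreteValuationRing B]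
    [Algebra K B] (𝔠 : Type*) [Field 𝔠] [Algebra K 𝔠] [Algebra B 𝔠] [IsScalarTower K B 𝔠]
    [IsFractionRing B 𝔠] [Algebra.EssFiniteType K 𝔠]
    (hres : ∀ b : B, ∃ c : K, b - algebraMap K B c ∈ IsLocalRing.maximalIdeal B) :
    IsDomain (𝔎 ⊗[K] B) ∧ IsIntegrallyClosed (𝔎 ⊗[K] B) := by
  haveI : IsDomain (𝔎 ⊗[K] B) := s26eg3d_isDomain
  haveI := (s26evn_field_algClosed K 𝔎 𝔠).1
  haveI := (s26evn_field_algClosed K 𝔎 𝔠).2
  exact ⟨inferInstance, s26evn_N2 B 𝔠 𝔎 hres⟩

end Fermat.Agent.S26
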