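/-
S26-E, piece E-VERT (NOR), part 4 (helper25): the forms of (NOR) in the language of `PlanE2`
(`S26eIsCurve`) and of the prelude's `AlgebraicCurve.Place`.

* `s26evn_curve`  : `K` algebraically closed, `Γ/K` a curve (`S26eIsCurve`), `L ⊇ K` a field
  ⇒ `L ⊗[K] Γ` is an integrally closed domain.
* `s26evn_curve'` : the same without `IsAlgClosed K`, given that `L ⊗[K] Γ` is a domain.
* `s26evn_place`  : moreover `Q` a place of `Γ/K` with residue field `K` (hypothesis in the shape
  (hresΓ) of `s26erig_main`) ⇒ `L ⊗[K] O_Q` is an integrally closed domain.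
-/
import Fermat.Agent.S26.EVertNorAC
import Fermat.Agent.S26.PlanE2

set_option autoImplicit false
set_option linter.style.haveILetI false
set_option linter.unusedSectionVars false

noncomputable section

namespace Fermat.Agent.S26

open TensorProduct

universe u

/-- (NOR) for a curve in the sense of `S26eIsCurve`, `L ⊗[K] Γ` a domain. -/
theorem s26evn_curve' (K : Type u) [Field K] (Γ : Type u) [Field Γ] [Algebra K Γ]
    (hΓ : S26eIsCurve K Γ) (L : Type*) [Field L] [Algebra K L] [IsDomain (L ⊗[K] Γ)] :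
    IsIntegrallyClosed (L ⊗[K] Γ) := by
  obtain ⟨t, ht, hfin, hsep⟩ := hΓ
  have hs : AlgebraicIndependent K ((↑) : ({t} : Set Γ) → Γ) :=
    (algebraicIndependent_singleton_iff (⟨t, rfl⟩ : ({t} : Set Γ))).mpr ht
  exact s26evn_N1_of_algebraicIndependent K L Γ {t} hs

/-- (NOR) for a curve over an algebraically closed field. -/
theorem s26evn_curve (K : Type u) [Field K] [IsAlgClosed K] (Γ : Type u) [Field Γ] [Algebra K Γ]
    (hΓ : S26eIsCurve K Γ) (L : Type*) [Field L] [Algebra K L] :
    IsDomain (L ⊗[K] Γ) ∧ IsIntegrallyClosed (L ⊗[K] Γ) := by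
  haveI : IsDomain (L ⊗[K] Γ) := s26eg3d_isDomain
  exact ⟨inferInstance, s26evn_curve' K Γ hΓ L⟩

/-- (NOR) for the local ring of a place with residue field `K`. -/
theorem s26evn_place (K : Type u) [Field K] [IsAlgClosed K] (Γ : Type u) [Field Γ] [Algebra K Γ]
    (hΓ : S26eIsCurve K Γ) (L : Type*) [Field L] [Algebra K L] (Q : AlgebraicCurve.Place K Γ)
    (hres : ∀ u ∈ Q.toValuationSubring, ∃ c₀ : K,
      u - algebraMap K Γ c₀ ∈ Q.toValuationSubring.nonunits) :
    IsDomain (L ⊗[K] Q.toValuationSubring) ∧ IsIntegrallyClosed (L ⊗[K] Q.toValuationSubring) := by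
  haveI : IsDomain (L ⊗[K] Q.toValuationSubring) := s26eg3d_isDomain
  haveI := (s26evn_curve K Γ hΓ L).1
  haveI := (s26evn_curve K Γ hΓ L).2
  refine ⟨inferInstance, s26evn_N2 (K := K) Q.toValuationSubring Γ L fun b => ?_⟩
  obtain ⟨c₀, hc₀⟩ := hres b b.2
  refine ⟨c₀, ?_⟩
  rw [IsLocalRing.mem_maximalIdeal, mem_nonunits_iff]
  intro hu
  have h1 : ((b - algebraMap K Q.toValuationSubring c₀ : Q.toValuationSubring) : Γ) ∈
      Q.toValuationSubring.nonunits := hc₀
  rw [ValuationSubring.mem_nonunits_iff_exists_mem_maximalIdeal] at h1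
  obtain ⟨ha, hm⟩ := h1
  exact (IsLocalRing.mem_maximalIdeal _).mp hm hu

end Fermat.Agent.S26
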