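/-
S26-E, piece E-VERT (NOR), part 5 (helper25): the hypothesis `hNOR` of helper38's `s26evm_main`
(S26/EVertMain.lean) in its LITERAL shape.

* `s26evn_valuationSubring` : `K` algebraically closed, `Γ/K` a curve (`S26eIsCurve`), `L ⊇ K` a
  field, `B` a valuation subring of `Γ` with ANY `K`-algebra structure compatible with that of `Γ`;
  if `B = ⊤` or `B` is a discrete valuation ring with residue field `K`, then `L ⊗[K] B` is an
  integrally closed domain.
* `s26evn_hNOR` : `hNOR` from `hcomp`, `hresΓ` (the shapes of `s26erig_main`, TI-CURVE).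
-/
import Fermat.Agent.S26.EVertNorPl

set_option autoImplicit false
set_option linter.style.haveILetI false
set_option linter.unusedSectionVars false

noncomputable section

namespace Fermat.Agent.S26

open TensorProduct

universe u

section

variable (K : Type u) [Field K] [IsAlgClosed K] (Γ : Type u) [Field Γ] [Algebra K Γ]
  (L : Type*) [Field L] [Algebra K L]

/-- the case `B = ⊤` -/
theorem s26evn_top (hΓ : S26eIsCurve K Γ) (B : ValuationSubring Γ) [Algebra K ↥B]
    [IsScalarTower K ↥B Γ] (hB : B = ⊤) : IsIntegrallyClosed (L ⊗[K] ↥B) := by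
  have hbij : Function.Bijective (IsScalarTower.toAlgHom K ↥B Γ) := by
    refine ⟨fun x y h => Subtype.ext h, fun x => ⟨⟨x, ?_⟩, rfl⟩⟩
    rw [hB]
    exact ValuationSubring.mem_top x
  let e : ↥B ≃ₐ[K] Γ := AlgEquiv.ofBijective (IsScalarTower.toAlgHom K ↥B Γ) hbij
  let e' : L ⊗[K] ↥B ≃ₐ[K] L ⊗[K] Γ := Algebra.TensorProduct.congr AlgEquiv.refl e
  haveI := (s26evn_curve K Γ hΓ L).2
  exact IsIntegrallyClosed.of_equiv e'.symm.toRingEquiv

/-- the case of a discrete valuation ring with residue field `K` -/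
theorem s26evn_dvr (hΓ : S26eIsCurve K Γ) (B : ValuationSubring Γ) [Algebra K ↥B]
    [IsScalarTower K ↥B Γ] [IsDiscreteValuationRing ↥B]
    (hres : ∀ u ∈ B, ∃ c₀ : K, u - algebraMap K Γ c₀ ∈ B.nonunits) :
    IsIntegrallyClosed (L ⊗[K] ↥B) := by
  haveI : IsDomain (L ⊗[K] ↥B) := s26eg3d_isDomain
  haveI := (s26evn_curve K Γ hΓ L).1
  haveI := (s26evn_curve K Γ hΓ L).2
  refine s26evn_N2 (K := K) ↥B Γ L fun b => ?_
  obtain ⟨c₀, hc₀⟩ := hres b b.2
  refine ⟨c₀, ?_⟩
  rw [IsLocalRing.mem_maximalIdeal, mem_nonunits_iff]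
  intro hu
  have h1 : ((b - algebraMap K ↥B c₀ : ↥B) : Γ) ∈ B.nonunits := by
    have h2 : ((b - algebraMap K ↥B c₀ : ↥B) : Γ) = (b : Γ) - algebraMap K Γ c₀ := by
      rw [IsScalarTower.algebraMap_apply K ↥B Γ c₀]
      rfl
    rw [h2]
    exact hc₀
  rw [ValuationSubring.mem_nonunits_iff_exists_mem_maximalIdeal] at h1
  obtain ⟨ha, hm⟩ := h1
  exact (IsLocalRing.mem_maximalIdeal _).mp hm hu

/-- **`hNOR`** of `s26evm_main`, literally. -/
theorem s26evn_hNOR (hΓ : S26eIsCurve K Γ)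
    (hcomp : ∀ W : ValuationSubring Γ, (∀ a : K, algebraMap K Γ a ∈ W) → W ≠ ⊤ →
      ∃ Q : AlgebraicCurve.Place K Γ, Q.toValuationSubring = W)
    (hresΓ : ∀ Q : AlgebraicCurve.Place K Γ, ∀ u ∈ Q.toValuationSubring, ∃ c₀ : K,
      u - algebraMap K Γ c₀ ∈ Q.toValuationSubring.nonunits) :
    ∀ (B : ValuationSubring Γ) [Algebra K ↥B] [IsScalarTower K ↥B Γ],
      IsIntegrallyClosed (L ⊗[K] ↥B) := by
  intro B _ _
  by_cases hB : B = ⊤
  · exact s26evn_top K Γ L hΓ B hB
  · have hK : ∀ a : K, algebraMap K Γ a ∈ B := fun a => by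
      rw [IsScalarTower.algebraMap_apply K ↥B Γ a]
      exact (algebraMap K ↥B a).2
    obtain ⟨Q, hQ⟩ := hcomp B hK hB
    haveI : IsDiscreteValuationRing ↥B := hQ ▸ (inferInstance :
      IsDiscreteValuationRing ↥Q.toValuationSubring)
    exact s26evn_dvr K Γ L hΓ B (hQ ▸ hresΓ Q)

end

end Fermat.Agent.S26
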