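/-
S26-E-VERT (helper38): the ABSTRACT WIRING of the vertical step (blueprint v1 §2 (d)), on top of
the content lemma `EVertCont.lean`.

`R` a valuation ring (any rank), `E` a field.  A *chart* is a free `R`-algebra domain `T` with
`𝔪_R T` prime and `Frac T = E`, with a prime `𝔫 ⊇ 𝔪_R T` (the centre).  In the application
`T = R ⊗_K B`, `B = W ∩ 𝔠` and `𝔫` = the centre of `W` on `T`.

* `S26evwHor 𝔫 H`  : "`H` is a unit of `T_𝔫[1/(R∖0)]`" = `H = a/(ρ b)`, `H⁻¹ = a'/(ρ' b')`,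
  `b, b' ∉ 𝔫`, `ρ, ρ' ≠ 0`  (no zero or pole along the horizontal places through the centre).
* `S26evwUnit 𝔫 H` : "`H` is a unit of `T_𝔫`" = `H = a/b`, `a, b ∉ 𝔫`.
* `s26evw_decomp`  : `S26evwHor 𝔫 H` ⇒ `H = (c/ρ)·ε`, `c, ρ ∈ R∖0`, `ε` a unit of `T_𝔫` (content).
* `s26evw_unit_of_section` : (SEC) if moreover `𝔫 = s⁻¹(𝔪_R)` for an `R`-algebra section
  `s : T → R` and the value of `H` along the section is a unit of `R`, then `H` is a unit of `T_𝔫`.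
* `s26evw_unit_of_gauss`   : (comparison) if `W_G` is a valuation subring of `E` in which the
  elements of `T ∖ 𝔫` are units and whose valuation on `R` "is that of `R`", and `v_G(H) = 1`,
  then `H` is a unit of `T_𝔫`.
* `s26evw_val_eq_one`      : a unit of `T_𝔫` has value `1` at every valuation subring of `E` in
  which the elements of `T ∖ 𝔫` are units.
* `s26evw_main`            : **(d), abstract**: two charts `(T₀, 𝔫₀)` (on the section) and `(T, 𝔫)`,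
  `G, D₀, D ∈ E`, `G/D₀` and `G/D` horizontal units, `G/D₀` a unit along the section,
  `v_G(D₀) = v_G(D)` ⇒ `G/D` is a unit of `T_𝔫`.
-/
import Fermat.Agent.S26.EVertCont

set_option autoImplicit false
set_option linter.unusedSectionVars false

namespace Fermat.Agent.S26

open IsLocalRing

section Defs

variable {R T E : Type*} [CommRing R] [CommRing T] [Algebra R T] [Field E] [Algebra T E]

/-- `H` is a unit of `T_𝔫[1/(R∖0)]`. -/
def S26evwHor (R : Type*) [CommRing R] {T E : Type*} [CommRing T] [Algebra R T] [Field E]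
    [Algebra T E] (𝔫 : Ideal T) (H : E) : Prop :=
  ∃ (a a' b b' : T) (ρ ρ' : R), ρ ≠ 0 ∧ ρ' ≠ 0 ∧ b ∉ 𝔫 ∧ b' ∉ 𝔫 ∧
    H * algebraMap T E (ρ • b) = algebraMap T E a ∧
    algebraMap T E a' * H = algebraMap T E (ρ' • b')

/-- `H` is a unit of `T_𝔫`. -/
def S26evwUnit {T E : Type*} [CommRing T] [Field E] [Algebra T E] (𝔫 : Ideal T) (H : E) : Prop :=
  ∃ a b : T, a ∉ 𝔫 ∧ b ∉ 𝔫 ∧ H * algebraMap T E b = algebraMap T E a

end Defs

section Main

variable {R T E : Type*} [CommRing R] [IsDomain R] [ValuationRing R] [CommRing T] [IsDomain T]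
  [Algebra R T] [Module.Free R T] [Field E] [Algebra T E] [IsFractionRing T E]

/-- a unit of `T_𝔫` has value `1` wherever the elements of `T ∖ 𝔫` are units -/
theorem s26evw_val_eq_one {𝔫 : Ideal T} {H : E} (h : S26evwUnit 𝔫 H) (W : ValuationSubring E)
    (hW : ∀ x : T, x ∉ 𝔫 → W.valuation (algebraMap T E x) = 1) : W.valuation H = 1 := by
  obtain ⟨a, b, ha, hb, hab⟩ := h
  have := congrArg W.valuation hab
  rwa [map_mul, hW b hb, hW a ha, mul_one] at this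

/-- **content decomposition** of a horizontal unit: `H · (ρ b) = c • a₁`, `a₁, b ∉ 𝔫`. -/
theorem s26evw_decomp (h𝔪 : (s26evcM R T).IsPrime) {𝔫 : Ideal T} (h𝔫p : 𝔫.IsPrime)
    (h𝔫 : s26evcM R T ≤ 𝔫) {H : E} (h : S26evwHor R 𝔫 H) :
    ∃ (c ρ : R) (a₁ b : T), c ≠ 0 ∧ ρ ≠ 0 ∧ a₁ ∉ 𝔫 ∧ b ∉ 𝔫 ∧
      H * algebraMap T E (ρ • b) = algebraMap T E (c • a₁) := by
  obtain ⟨a, a', b, b', ρ, ρ', hρ, hρ', hb, hb', hH, hH'⟩ := h
  obtain ⟨c, a₁, hc, ha₁, hca⟩ := s26evc_main_frac h𝔪 𝔫 h𝔫p h𝔫 hρ hρ' hb hb' hH hH'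
  exact ⟨c, ρ, a₁, b, hc, hρ, ha₁, hb, hca⟩

/-- if the constant `c/ρ` of the decomposition is a unit of `R`, `H` is a unit of `T_𝔫` -/
theorem s26evw_unit_of_assoc {𝔫 : Ideal T} (h𝔫p : 𝔫.IsPrime) {H : E} {c ρ : R} {a₁ b : T}
    (ha₁ : a₁ ∉ 𝔫) (hb : b ∉ 𝔫) (hH : H * algebraMap T E (ρ • b) = algebraMap T E (c • a₁))
    (u : Rˣ) (hu : c = u * ρ) (hρ : ρ ≠ 0) : S26evwUnit 𝔫 H := by
  have hb0 : b ≠ 0 := fun h0 => hb (h0 ▸ Ideal.zero_mem _)
  have hρT : algebraMap T E (algebraMap R T ρ) ≠ 0 := by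
    intro h0
    have h1 : algebraMap R T ρ = 0 := (IsFractionRing.injective T E) (by simpa using h0)
    have h2 : ρ • (1 : T) = 0 := by rw [Algebra.smul_def, mul_one, h1]
    rcases smul_eq_zero.1 h2 with h | h
    · exact hρ h
    · exact one_ne_zero h
  have huT : IsUnit (algebraMap R T u) := u.isUnit.map _
  refine ⟨algebraMap R T u * a₁, b, fun hm => ?_, hb, ?_⟩
  · rcases h𝔫p.mem_or_mem hm with h | h
    · exact h𝔫p.ne_top (Ideal.eq_top_of_isUnit_mem _ h huT)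
    · exact ha₁ h
  · rw [hu, Algebra.smul_def, Algebra.smul_def, map_mul, map_mul, map_mul] at hH
    rw [map_mul]
    have h3 : H * algebraMap T E b * algebraMap T E (algebraMap R T ρ) =
        algebraMap T E (algebraMap R T u) * algebraMap T E a₁ *
          algebraMap T E (algebraMap R T ρ) := by
      rw [map_mul] at hH
      linear_combination hH
    exact mul_right_cancel₀ hρT h3

/-- **(SEC)**: `s : T → R` an `R`-algebra section with `𝔫 = s⁻¹(𝔪_R)`; if the value of the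
horizontal unit `H` along the section is a unit of `R` (for one, hence every, representation
`H = x/y` with `s y ≠ 0`), then `H` is a unit of `T_𝔫`. -/
theorem s26evw_unit_of_section (h𝔪 : (s26evcM R T).IsPrime) {𝔫 : Ideal T} (h𝔫p : 𝔫.IsPrime)
    (h𝔫 : s26evcM R T ≤ 𝔫) (s : T →ₐ[R] R) (hs : ∀ x : T, x ∈ 𝔫 ↔ s x ∈ maximalIdeal R)
    {H : E} (h : S26evwHor R 𝔫 H)
    (hsec : ∀ x y : T, s y ≠ 0 → H * algebraMap T E y = algebraMap T E x →
      ∃ u : Rˣ, s x = u * s y) :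
    S26evwUnit 𝔫 H := by
  obtain ⟨c, ρ, a₁, b, hc, hρ, ha₁, hb, hH⟩ := s26evw_decomp h𝔪 h𝔫p h𝔫 h
  have hsa₁ : IsUnit (s a₁) := by
    by_contra hnu
    exact ha₁ ((hs a₁).2 ((mem_maximalIdeal _).2 hnu))
  have hsb : IsUnit (s b) := by
    by_contra hnu
    exact hb ((hs b).2 ((mem_maximalIdeal _).2 hnu))
  have hsρb : s (ρ • b) ≠ 0 := by
    rw [map_smul, smul_eq_mul]
    exact mul_ne_zero hρ hsb.ne_zero
  obtain ⟨u, hu⟩ := hsec (c • a₁) (ρ • b) hsρb hH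
  rw [map_smul, map_smul, smul_eq_mul, smul_eq_mul] at hu
  -- `c · s a₁ = u · ρ · s b`
  obtain ⟨v₁, hv₁⟩ := hsa₁
  obtain ⟨v₂, hv₂⟩ := hsb
  refine s26evw_unit_of_assoc h𝔫p ha₁ hb hH (u * v₂ * v₁⁻¹) ?_ hρ
  rw [← hv₁, ← hv₂] at hu
  have : c = u * (ρ * v₂) * ((v₁⁻¹ : Rˣ) : R) := by
    rw [← hu, mul_assoc, Units.mul_inv, mul_one]
  rw [this]
  push_cast
  ring

/-- **Gauss comparison**: `W_G` a valuation subring of `E` in which the elements of `T ∖ 𝔫` are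
units, and such that two nonzero elements of `R` with the same value at `W_G` differ by a unit of
`R`.  A horizontal unit `H` with `v_G(H) = 1` is a unit of `T_𝔫`. -/
theorem s26evw_unit_of_gauss (h𝔪 : (s26evcM R T).IsPrime) {𝔫 : Ideal T} (h𝔫p : 𝔫.IsPrime)
    (h𝔫 : s26evcM R T ≤ 𝔫) (WG : ValuationSubring E)
    (hWG : ∀ x : T, x ∉ 𝔫 → WG.valuation (algebraMap T E x) = 1)
    (hR : ∀ c ρ : R, c ≠ 0 → ρ ≠ 0 →
      WG.valuation (algebraMap T E (algebraMap R T c)) =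
        WG.valuation (algebraMap T E (algebraMap R T ρ)) → ∃ u : Rˣ, c = u * ρ)
    {H : E} (h : S26evwHor R 𝔫 H) (hH1 : WG.valuation H = 1) : S26evwUnit 𝔫 H := by
  obtain ⟨c, ρ, a₁, b, hc, hρ, ha₁, hb, hH⟩ := s26evw_decomp h𝔪 h𝔫p h𝔫 h
  have h1 := congrArg WG.valuation hH
  rw [map_mul, Algebra.smul_def, Algebra.smul_def, map_mul, map_mul, map_mul, map_mul, hH1,
    hWG b hb, hWG a₁ ha₁, mul_one, mul_one, one_mul] at h1
  obtain ⟨u, hu⟩ := hR c ρ hc hρ h1.symm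
  exact s26evw_unit_of_assoc h𝔫p ha₁ hb hH u hu hρ

end Main

section Two

variable {R T₀ T E : Type*} [CommRing R] [IsDomain R] [ValuationRing R]
  [CommRing T₀] [IsDomain T₀] [Algebra R T₀] [Module.Free R T₀]
  [CommRing T] [IsDomain T] [Algebra R T] [Module.Free R T]
  [Field E] [Algebra T₀ E] [IsFractionRing T₀ E] [Algebra T E] [IsFractionRing T E]

/-- **(d), abstract form.**  `(T₀, 𝔫₀)` a chart on the section `s`, `(T, 𝔫)` any chart, `W_G` a
common "Gauss" valuation subring.  If `G/D₀` and `G/D` are horizontal units, `G/D₀` is a unit along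
the section and `v_G(D₀) = v_G(D)`, then `G/D` is a unit of `T_𝔫`; in particular
`w(G) = w(D)` for every valuation subring `W` of `E` in which the elements of `T ∖ 𝔫` are units. -/
theorem s26evw_main
    (h𝔪₀ : (s26evcM R T₀).IsPrime) {𝔫₀ : Ideal T₀} (h𝔫₀p : 𝔫₀.IsPrime) (h𝔫₀ : s26evcM R T₀ ≤ 𝔫₀)
    (s : T₀ →ₐ[R] R) (hs : ∀ x : T₀, x ∈ 𝔫₀ ↔ s x ∈ maximalIdeal R)
    (h𝔪 : (s26evcM R T).IsPrime) {𝔫 : Ideal T} (h𝔫p : 𝔫.IsPrime) (h𝔫 : s26evcM R T ≤ 𝔫)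
    (WG : ValuationSubring E)
    (hWG₀ : ∀ x : T₀, x ∉ 𝔫₀ → WG.valuation (algebraMap T₀ E x) = 1)
    (hWG : ∀ x : T, x ∉ 𝔫 → WG.valuation (algebraMap T E x) = 1)
    (hR : ∀ c ρ : R, c ≠ 0 → ρ ≠ 0 →
      WG.valuation (algebraMap T E (algebraMap R T c)) =
        WG.valuation (algebraMap T E (algebraMap R T ρ)) → ∃ u : Rˣ, c = u * ρ)
    {G D₀ D : E} (hD : D ≠ 0)
    (hhor₀ : S26evwHor R 𝔫₀ (G / D₀)) (hhor : S26evwHor R 𝔫 (G / D))
    (hsec : ∀ x y : T₀, s y ≠ 0 → G / D₀ * algebraMap T₀ E y = algebraMap T₀ E x →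
      ∃ u : Rˣ, s x = u * s y)
    (hDD : WG.valuation D₀ = WG.valuation D) :
    S26evwUnit 𝔫 (G / D) ∧
      ∀ W : ValuationSubring E, (∀ x : T, x ∉ 𝔫 → W.valuation (algebraMap T E x) = 1) →
        W.valuation G = W.valuation D := by
  have h0 : S26evwUnit 𝔫₀ (G / D₀) := s26evw_unit_of_section h𝔪₀ h𝔫₀p h𝔫₀ s hs hhor₀ hsec
  have h1 : WG.valuation (G / D₀) = 1 := s26evw_val_eq_one h0 WG hWG₀
  have h2 : WG.valuation (G / D) = 1 := by
    rw [map_div₀, ← hDD, ← map_div₀]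
    exact h1
  have h3 : S26evwUnit 𝔫 (G / D) := s26evw_unit_of_gauss h𝔪 h𝔫p h𝔫 WG hWG hR hhor h2
  refine ⟨h3, fun W hW => ?_⟩
  have h4 := s26evw_val_eq_one h3 W hW
  rw [map_div₀] at h4
  have hD' : W.valuation D ≠ 0 := (Valuation.ne_zero_iff _).2 hD
  rwa [div_eq_one_iff_eq hD'] at h4

end Two

end Fermat.Agent.S26
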