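import Mathlib

/-!
# S26 / F1 (helper19), algebra: orders of vanishing along a flat unramified local map

`φ : R → S` a flat local homomorphism of Noetherian local domains, `S` a discrete valuation
ring, `𝔪_R S = 𝔪_S`.  Then `R` is a discrete valuation ring, uniformizers go to uniformizers,
and `ord_S (Φ x) = ord_R x` for `x ∈ Frac R` (`Φ : Frac R → Frac S` the induced map).

* `s26f1_dvd_of_map_dvd` : `φ b ∣ φ a → b ∣ a` (faithfully flat descent);
* `s26f1_isDVR` : `R` is a discrete valuation ring;
* `s26f1_irreducible_map` : `φ ϖ` is irreducible for `ϖ` irreducible;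
* `s26f1_ordFrac_map` : `Ring.ordFrac S (Φ x) = Ring.ordFrac R x`.
-/

set_option autoImplicit false
set_option linter.style.haveILetI false
set_option linter.unusedSectionVars false
set_option linter.overlappingInstances false

noncomputable section

namespace Fermat.Agent.S26

open IsLocalRing

section Alg

variable {R S : Type*} [CommRing R] [CommRing S] [IsDomain R] [IsDomain S]
  [IsLocalRing R] [IsLocalRing S]

/-- Faithfully flat descent of divisibility along a flat local homomorphism. -/
theorem s26f1_dvd_of_map_dvd (φ : R →+* S) (hφ : φ.Flat) [IsLocalHom φ] {a b : R}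
    (h : φ b ∣ φ a) : b ∣ a := by
  algebraize [φ]
  haveI : IsLocalHom (algebraMap R S) := ‹IsLocalHom φ›
  haveI : Module.FaithfullyFlat R S := Module.FaithfullyFlat.of_flat_of_isLocalHom
  have h1 := Ideal.comap_map_eq_self_of_faithfullyFlat (B := S) (Ideal.span {b})
  have ha : a ∈ Ideal.comap (algebraMap R S)
      (Ideal.map (algebraMap R S) (Ideal.span {b})) := by
    rw [Ideal.mem_comap, Ideal.map_span, Set.image_singleton, Ideal.mem_span_singleton]
    exact h
  rw [h1, Ideal.mem_span_singleton] at ha
  exact ha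

variable [IsNoetherianRing R] [IsDiscreteValuationRing S]

/-- `R` is a discrete valuation ring if `R → S` is flat local, `S` is one, and
`𝔪_R S = 𝔪_S`. -/
theorem s26f1_isDVR (φ : R →+* S) (hφ : φ.Flat) [IsLocalHom φ]
    (hm : (maximalIdeal R).map φ = maximalIdeal S) : IsDiscreteValuationRing R := by
  have hnf : ¬ IsField R := by
    intro hf
    have h0 : maximalIdeal R = ⊥ := isField_iff_maximalIdeal_eq.mp hf
    rw [h0, Ideal.map_bot] at hm
    exact IsDiscreteValuationRing.not_a_field S hm.symm
  have hv : ValuationRing R := by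
    rw [ValuationRing.iff_dvd_total]
    constructor
    intro a b
    rcases (ValuationRing.iff_dvd_total.mp (inferInstance : ValuationRing S)).total
      (φ a) (φ b) with h | h
    · exact Or.inl (s26f1_dvd_of_map_dvd φ hφ h)
    · exact Or.inr (s26f1_dvd_of_map_dvd φ hφ h)
  exact ((IsDiscreteValuationRing.TFAE R hnf).out 0 1).mpr hv

omit [IsNoetherianRing R] in
/-- Uniformizers go to uniformizers. -/
theorem s26f1_irreducible_map [IsDiscreteValuationRing R] (φ : R →+* S)
    (hm : (maximalIdeal R).map φ = maximalIdeal S) {ϖ : R} (hϖ : Irreducible ϖ) :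
    Irreducible (φ ϖ) := by
  rw [IsDiscreteValuationRing.irreducible_iff_uniformizer] at hϖ ⊢
  rw [← hm, hϖ, Ideal.map_span, Set.image_singleton]

variable {K L : Type*} [Field K] [Field L] [Algebra R K] [IsFractionRing R K]
  [Algebra S L] [IsFractionRing S L]

/-- The order of vanishing is preserved, on `R`. -/
theorem s26f1_ordFrac_map_int [IsDiscreteValuationRing R] (φ : R →+* S)
    (hm : (maximalIdeal R).map φ = maximalIdeal S) {r : R} (hr : r ≠ 0) :
    Ring.ordFrac S (algebraMap S L (φ r)) = Ring.ordFrac R (algebraMap R K r) := by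
  obtain ⟨ϖ, hϖ⟩ := IsDiscreteValuationRing.exists_irreducible R
  obtain ⟨n, u, rfl⟩ := IsDiscreteValuationRing.eq_unit_mul_pow_irreducible hr hϖ
  have hϖ' : Irreducible (φ ϖ) := s26f1_irreducible_map φ hm hϖ
  rw [map_mul, map_pow, map_mul, map_pow, map_mul, map_pow, map_mul, map_pow, map_mul, map_pow,
    Ring.ordFrac_irreducible hϖ, Ring.ordFrac_irreducible hϖ',
    Ring.ordFrac_of_isUnit u.isUnit, Ring.ordFrac_of_isUnit (u.isUnit.map φ)]

/-- **The order of vanishing is preserved**: `ord_S (Φ x) = ord_R x`. -/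
theorem s26f1_ordFrac_map [IsDiscreteValuationRing R] (φ : R →+* S)
    (hm : (maximalIdeal R).map φ = maximalIdeal S) (Φ : K →+* L)
    (hΦ : ∀ r, Φ (algebraMap R K r) = algebraMap S L (φ r)) (x : K) :
    Ring.ordFrac S (Φ x) = Ring.ordFrac R x := by
  obtain ⟨a, b, hb, rfl⟩ := IsFractionRing.div_surjective R x
  have hb0 : b ≠ 0 := nonZeroDivisors.ne_zero hb
  by_cases ha : a = 0
  · subst ha
    simp
  rw [map_div₀, map_div₀, map_div₀, hΦ, hΦ, s26f1_ordFrac_map_int (K := K) φ hm ha,
    s26f1_ordFrac_map_int (K := K) φ hm hb0]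

end Alg

end Fermat.Agent.S26
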