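import Mathlib

/-!
# S26, piece F3 (part 1): the commutative algebra behind (sep), (b3), (c2)

Setting: `R ⊆ S` domains, `S` finite (integral) over `R`, `F₀ = Frac R ⊆ F = Frac S`.
In the geometry `R = Γ(U)`, `S = Γ(ψ⁻¹U)` for a finite étale `ψ : A → A` and an affine open `U`,
`F₀ = ψ^* 𝔉`, `F = 𝔉`.

* `s26f3_finite`      : `S` finite over `R`  ⇒  `F` finite over `F₀`;
* `s26f3_separable`   : `S` finite and formally unramified over `R`  ⇒  `F / F₀` separable;
* `s26f3_span`        : `S` integral over `R`  ⇒  the image of `S` spans `F` over `F₀`;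
* `s26f3_denom`       : if `x ∈ F` lies in `S_q` for every prime `q` of `S` over the prime `w` of `R`,
                        then `x · u ∈ S` for some `u ∈ R ∖ w`   (no normality, no dimension theory);
* `s26f3_trace_mem`   : if moreover `R_w` is integrally closed, `Tr_{F/F₀} x ∈ R_w`.

Mathlib only.
-/

set_option autoImplicit false
set_option linter.unusedSectionVars false
set_option linter.style.haveILetI false

namespace Fermat.Agent.S26

open scoped nonZeroDivisors

section core

variable (R S F₀ F : Type*) [CommRing R] [CommRing S] [IsDomain R] [IsDomain S]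
  [Field F₀] [Field F] [Algebra R S] [Algebra R F₀] [IsFractionRing R F₀]
  [Algebra S F] [IsFractionRing S F] [Algebra F₀ F] [Algebra R F]
  [IsScalarTower R S F] [IsScalarTower R F₀ F]

include F₀ F in
/-- `R → S` is injective (both sit in `F`). -/
theorem s26f3_injective (_ : IsScalarTower R S F) (_ : IsScalarTower R F₀ F)
    (_ : IsFractionRing R F₀) : Function.Injective (algebraMap R S) := by
  have h : Function.Injective (algebraMap R F) := by
    rw [IsScalarTower.algebraMap_eq R F₀ F]
    exact (algebraMap F₀ F).injective.comp (IsFractionRing.injective R F₀)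
  rw [IsScalarTower.algebraMap_eq R S F] at h
  exact Function.Injective.of_comp h

include F₀ F in
theorem s26f3_faithful (_ : IsScalarTower R S F) (_ : IsScalarTower R F₀ F)
    (_ : IsFractionRing R F₀) : FaithfulSMul R S :=
  (faithfulSMul_iff_algebraMap_injective R S).mpr
    (s26f3_injective R S F₀ F inferInstance inferInstance inferInstance)

include F₀ in
/-- `F` is the localisation of `S` at the nonzero elements of `R`. -/
theorem s26f3_isLocalization [Algebra.IsIntegral R S] (_ : IsScalarTower R F₀ F)
    (_ : IsFractionRing R F₀) :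
    IsLocalization (Algebra.algebraMapSubmonoid S R⁰) F := by
  haveI := s26f3_faithful R S F₀ F inferInstance inferInstance inferInstance
  infer_instance

/-- **(sep), finiteness.** -/
theorem s26f3_finite [Module.Finite R S] : Module.Finite F₀ F := by
  haveI := s26f3_isLocalization R S F₀ F inferInstance inferInstance
  exact Module.Finite.of_isLocalization R S R⁰

/-- **(sep), separability.** -/
theorem s26f3_separable [Module.Finite R S] [Algebra.FormallyUnramified R S] :
    Algebra.IsSeparable F₀ F := by
  haveI := s26f3_finite R S F₀ F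
  haveI : Algebra.FormallyUnramified S F := Algebra.FormallyUnramified.of_isLocalization S⁰
  haveI : Algebra.FormallyUnramified R F := Algebra.FormallyUnramified.comp R S F
  haveI : Algebra.FormallyUnramified F₀ F := Algebra.FormallyUnramified.of_restrictScalars R F₀ F
  exact Algebra.FormallyUnramified.isSeparable F₀ F

include F₀ in
/-- Every element of `F` is `s / r` with `s ∈ S`, `0 ≠ r ∈ R`. -/
theorem s26f3_exists_denom [Algebra.IsIntegral R S] (_ : IsScalarTower R F₀ F)
    (_ : IsFractionRing R F₀) (x : F) :
    ∃ (s : S) (r : R), r ≠ 0 ∧ x * algebraMap R F r = algebraMap S F s := by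
  haveI := s26f3_isLocalization R S F₀ F inferInstance inferInstance
  obtain ⟨⟨s, ⟨t, r, hr, rfl⟩⟩, h⟩ :=
    IsLocalization.surj (Algebra.algebraMapSubmonoid S R⁰) x
  refine ⟨s, r, nonZeroDivisors.ne_zero hr, ?_⟩
  rw [IsScalarTower.algebraMap_apply R S F]
  exact h

/-- **(b3), core.**  The image of `S` spans `F` over `F₀`. -/
theorem s26f3_span [Algebra.IsIntegral R S] (x : F) :
    x ∈ Submodule.span F₀ (Set.range (algebraMap S F)) := by
  obtain ⟨s, r, hr, h⟩ := s26f3_exists_denom R S F₀ F inferInstance inferInstance x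
  have hr' : algebraMap R F₀ r ≠ 0 := by
    simpa using (IsFractionRing.injective R F₀).ne hr
  have hrF : algebraMap R F r ≠ 0 := by
    rw [IsScalarTower.algebraMap_apply R F₀ F]
    simpa using hr'
  have hx : x = (algebraMap R F₀ r)⁻¹ • algebraMap S F s := by
    rw [Algebra.smul_def, ← h, map_inv₀, ← IsScalarTower.algebraMap_apply R F₀ F]
    field_simp
  rw [hx]
  exact Submodule.smul_mem _ _ (Submodule.subset_span ⟨s, rfl⟩)

/-- **(c2), denominators.**  If `x` has no pole at any prime of `S` over `w`, then `x` has a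
denominator in `R ∖ w`. -/
theorem s26f3_denom {R S F : Type*} [CommRing R] [CommRing S] [Field F] [Algebra R S]
    [Algebra S F] [Algebra R F] [IsScalarTower R S F]
    [Algebra.IsIntegral R S] (w : Ideal R) [w.IsPrime] (x : F)
    (hx : ∀ q : Ideal S, q.IsPrime → q.comap (algebraMap R S) = w →
      ∃ s t : S, t ∉ q ∧ x * algebraMap S F t = algebraMap S F s) :
    ∃ (u : R) (s : S), u ∉ w ∧ x * algebraMap R F u = algebraMap S F s := by
  classical
  -- the ideal of denominators
  let I : Ideal S :=
    { carrier := {t | ∃ s : S, x * algebraMap S F t = algebraMap S F s}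
      add_mem' := by
        rintro a b ⟨sa, ha⟩ ⟨sb, hb⟩
        exact ⟨sa + sb, by rw [map_add, mul_add, ha, hb, map_add]⟩
      zero_mem' := ⟨0, by simp⟩
      smul_mem' := by
        rintro c a ⟨sa, ha⟩
        refine ⟨c * sa, ?_⟩
        rw [smul_eq_mul, map_mul, map_mul, ← ha]
        ring }
  by_contra hcon
  have hI : I.comap (algebraMap R S) ≤ w := by
    intro u hu
    by_contra huw
    obtain ⟨s, hs⟩ : ∃ s : S, x * algebraMap S F (algebraMap R S u) = algebraMap S F s := hu
    exact hcon ⟨u, s, huw, by rw [IsScalarTower.algebraMap_apply R S F]; exact hs⟩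
  obtain ⟨Q, hQI, hQp, hQw⟩ := Ideal.exists_ideal_over_prime_of_isIntegral w I hI
  obtain ⟨s, t, ht, hst⟩ := hx Q hQp hQw
  exact ht (hQI ⟨s, hst⟩)

/-- **(c2), core.**  If `R_w` is integrally closed (hypothesis `hw`, in elementary form) and `x`
has no pole at any prime of `S` over `w`, then `Tr_{F/F₀} x ∈ R_w`. -/
theorem s26f3_trace_mem [Module.Finite R S] (w : Ideal R) [w.IsPrime]
    (hw : ∀ y : F₀, IsIntegral R y →
      ∃ r u : R, u ∉ w ∧ y * algebraMap R F₀ u = algebraMap R F₀ r)
    (x : F)
    (hx : ∀ q : Ideal S, q.IsPrime → q.comap (algebraMap R S) = w →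
      ∃ s t : S, t ∉ q ∧ x * algebraMap S F t = algebraMap S F s) :
    ∃ r u : R, u ∉ w ∧ Algebra.trace F₀ F x * algebraMap R F₀ u = algebraMap R F₀ r := by
  haveI := s26f3_finite R S F₀ F
  obtain ⟨u, s, hu, hus⟩ := s26f3_denom (R := R) (S := S) (F := F) w x hx
  have hs : IsIntegral R (algebraMap S F s) := (Algebra.IsIntegral.isIntegral s).algebraMap
  have htr : IsIntegral R (Algebra.trace F₀ F (algebraMap S F s)) := Algebra.isIntegral_trace hs
  obtain ⟨r, u', hu', hr⟩ := hw _ htr
  refine ⟨r, u * u', w.primeCompl.mul_mem hu hu', ?_⟩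
  have h1 : Algebra.trace F₀ F (algebraMap S F s) = Algebra.trace F₀ F x * algebraMap R F₀ u := by
    rw [← hus, IsScalarTower.algebraMap_apply R F₀ F, mul_comm x, ← Algebra.smul_def,
      map_smul, smul_eq_mul, mul_comm]
  rw [map_mul, ← mul_assoc, ← h1, hr]

/-- `hw` of `s26f3_trace_mem` when `R` itself is integrally closed. -/
theorem s26f3_hw_of_isIntegrallyClosed [IsIntegrallyClosed R] (w : Ideal R) [w.IsPrime]
    (y : F₀) (hy : IsIntegral R y) :
    ∃ r u : R, u ∉ w ∧ y * algebraMap R F₀ u = algebraMap R F₀ r := by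
  obtain ⟨r, rfl⟩ := IsIntegrallyClosed.isIntegral_iff.mp hy
  exact ⟨r, 1, fun h => w.primeCompl.one_mem h, by simp⟩

end core

end Fermat.Agent.S26
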