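import Fermat.Agent.S26.F3Cover
import Fermat.Agent.S26.A2Final
import Fermat.Agent.S26.A4Stmt

/-!
# S26, piece F3: `s26_StmtCover`, unconditionally

`s26f3_stmtCover : s26_StmtCover` — from `s26f3_cover` (S26/F3Cover.lean), A2 (`s26a2_stmtA2`,
S26/A2Final.lean) and A4 (`s26a4_stmtEtale`, S26/A4Stmt.lean).
-/

set_option autoImplicit false

namespace Fermat.Agent.S26

universe u

/-- **F3**: `s26_StmtCover` ((b1), (b3), (c2) of the growth datum). -/
theorem s26f3_stmtCover : s26_StmtCover.{u} :=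
  s26f3_cover s26a2_stmtA2 s26a4_stmtEtale

end Fermat.Agent.S26
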