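import Fermat.Agent.S26.F3Phi
import Fermat.Agent.S26.F3Stalk
import Fermat.Agent.S26.F1
import Fermat.Agent.S26.F2

/-!
# S26, piece F3 (part 4): finite covers `ψ : A ⟶ A` and the spaces `L(U, m)`

Interface of `S26/PlanGeo.lean`: `f : A ⟶ Spec K`, `s26F f = K(A)`, `φ` a pull-back along `ψ`
(`s26IsPull f ψ φ`).

* `s26f3_finite_divisors_compl` : a nonempty open of a noetherian integral scheme misses only
                                  finitely many prime divisors;
* `s26f3_germ_mem_Lset`         : a section over `V` lies in `L(V, c)` for some `c`;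
* `s26f3_chart`                 : the chart `(Γ(W), Γ(ψ⁻¹W))` of `S26/F3Phi.lean`, `ψ` finite;
* `s26f3_sep`                   : `K(A) / φ K(A)` is finite, and separable if `ψ` is unramified;
* `s26f3_trace_stalk`           : if `x ∈ O_{A,z}` for all `z` over `w`, then the `y` with
                                  `φ y = Tr x` lies in `O_{A,w}`;
* `s26f3_c2_set`                : (c2) on the level of `s26Lset`;
* `s26f3_b3`                    : (b3).
-/

set_option autoImplicit false
set_option linter.style.haveILetI false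
set_option linter.unusedSectionVars false
set_option linter.overlappingInstances false

noncomputable section

namespace Fermat.Agent.S26

open AlgebraicGeometry CategoryTheory TopologicalSpace IsLocalRing

universe u

/-! ## Prime divisors outside an open set -/

section Top

variable {X : Scheme.{u}} [IsIntegral X]

theorem s26f3_genericPoint_mem (V : X.Opens) [Nonempty V] : genericPoint X ∈ V :=
  ((genericPoint_spec X).mem_open_set_iff V.isOpen).mpr (by simpa using ‹Nonempty V›)

/-- A nonempty open subset of a noetherian integral scheme misses only finitely many points of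
coheight one. -/
theorem s26f3_finite_divisors_compl [IsNoetherian X] (V : X.Opens) [Nonempty V] :
    {z : X | Order.coheight z = 1 ∧ z ∉ V}.Finite := by
  obtain ⟨S, hSf, hSc, hSi, hS⟩ :=
    NoetherianSpace.exists_finite_set_isClosed_irreducible (s := ((V : Set X)ᶜ))
      V.isOpen.isClosed_compl
  have hgen : ∀ t ∈ S, ∃ c : X, IsGenericPoint c t :=
    fun t ht => QuasiSober.sober (hSi t ht) (hSc t ht)
  choose! g hg using hgen
  refine (hSf.image g).subset ?_
  rintro z ⟨hz1, hzV⟩
  have hzZ : z ∈ ((V : Set X)ᶜ) := hzV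
  rw [hS] at hzZ
  obtain ⟨t, htS, hzt⟩ := hzZ
  refine ⟨t, htS, ?_⟩
  have hgt : closure {g t} = t := hg t htS
  have hcz : g t ⤳ z := by
    rw [specializes_iff_mem_closure, hgt]
    exact hzt
  by_contra hne
  have hlt1 : z < g t := by
    refine lt_of_le_not_ge hcz ?_
    intro h
    exact hne (hcz.antisymm h).eq
  have hη : genericPoint X ∈ V := s26f3_genericPoint_mem V
  have hgtZ : g t ∈ ((V : Set X)ᶜ) := by
    rw [hS]
    exact ⟨t, htS, (hg t htS).mem⟩
  have hlt2 : g t < genericPoint X := by
    refine lt_of_le_not_ge (genericPoint_specializes (g t)) ?_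
    intro h
    have h' : g t ⤳ genericPoint X := h
    have : genericPoint X ∈ ((V : Set X)ᶜ) :=
      h'.mem_closed V.isOpen.isClosed_compl hgtZ
    exact this hη
  have h1 := Order.coheight_add_one_le hlt1
  have h2 := Order.coheight_add_one_le hlt2
  rw [hz1] at h1
  have h3 : (1 : ℕ∞) ≤ Order.coheight (g t) := le_trans le_add_self h2
  have h4 : (1 : ℕ∞) + 1 ≤ 1 := le_trans (by gcongr) h1
  exact absurd h4 (by decide)

variable [IsLocallyNoetherian X]

/-- A section over `V` has no pole at the prime divisors in `V`. -/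
theorem s26f3_ord_germ_nonneg (V : X.Opens) [Nonempty V] (s : Γ(X, V)) (z : X) (hzV : z ∈ V) :
    0 ≤ Scheme.ord ((X.germToFunctionField V).hom s) z := by
  by_cases hz : Order.coheight z = 1
  swap
  · rw [Scheme.ord_eq_zero_of_coheight_neq_one hz]
  rcases eq_or_ne s 0 with rfl | hs
  · rw [map_zero]
    exact (congrFun (Scheme.ord_zero (X := X)) z).ge
  have hx : (X.germToFunctionField V).hom s ≠ 0 := by
    intro h0
    exact hs (Scheme.germToFunctionField_injective X V (h0.trans (map_zero _).symm))
  rw [Scheme.le_ord_iff hz hx]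
  haveI : Ring.KrullDimLE 1 (X.presheaf.stalk z) := krullDimLE_of_coheight_le hz.le
  have hg : (X.presheaf.germ V z hzV).hom s ≠ 0 := by
    intro h0
    exact hs (germ_injective_of_isIntegral X z hzV (h0.trans (map_zero _).symm))
  have := Ring.ordFrac_ge_one_of_ne_zero (R := X.presheaf.stalk z) (K := X.functionField) hg
  rw [Scheme.algebraMap_germ_eq_germToFunctionField X hzV s] at this
  exact this

end Top

/-! ## The interface of the captain -/

variable {K : Type u} [Field K] {A : Scheme.{u}} (f : A ⟶ Spec (CommRingCat.of K))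
  [IsIntegral A]

/-- **Bounded poles**: a section over `V` lies in `L(V, c)` for some `c`. -/
theorem s26f3_germ_mem_Lset [IsNoetherian A] (V : A.Opens) [Nonempty V] (s : Γ(A, V)) :
    ∃ c : ℕ, s26germ f V s ∈ s26Lset f V c := by
  classical
  have hfin := s26f3_finite_divisors_compl (X := A) V
  refine ⟨∑ z ∈ hfin.toFinset, (s26ord f (s26germ f V s) z).natAbs, ?_⟩
  intro z hz
  have h0 : z ∈ V → 0 ≤ s26ord f (s26germ f V s) z :=
    fun hzV => s26f3_ord_germ_nonneg V s z hzV
  refine ⟨h0, ?_⟩
  by_cases hzV : z ∈ V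
  · have := h0 hzV
    have h2 : (0 : ℤ) ≤ ((∑ z ∈ hfin.toFinset, (s26ord f (s26germ f V s) z).natAbs : ℕ) : ℤ) :=
      Int.natCast_nonneg _
    omega
  · have hmem : z ∈ hfin.toFinset := by
      rw [Set.Finite.mem_toFinset]
      exact ⟨hz, hzV⟩
    have h1 : (s26ord f (s26germ f V s) z).natAbs ≤
        ∑ z ∈ hfin.toFinset, (s26ord f (s26germ f V s) z).natAbs :=
      Finset.single_le_sum (f := fun z => (s26ord f (s26germ f V s) z).natAbs)
        (fun _ _ => Nat.zero_le _) hmem
    have h2 : ((s26ord f (s26germ f V s) z).natAbs : ℤ) ≤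
        ((∑ z ∈ hfin.toFinset, (s26ord f (s26germ f V s) z).natAbs : ℕ) : ℤ) := by
      exact_mod_cast h1
    omega

/-- **The chart** of a finite dominant `ψ` over an affine open `W`. -/
theorem s26f3_chart (ψ : A ⟶ A) [IsFinite ψ] (φ : s26F f →ₐ[K] s26F f)
    (hφ : s26IsPull f ψ φ) {W : A.Opens} (hW : IsAffineOpen W) [Nonempty W]
    [Nonempty (ψ ⁻¹ᵁ W)] :
    S26f3Chart φ (s26germ f W) (s26germ f (ψ ⁻¹ᵁ W)) (ψ.app W).hom := by
  have hV : IsAffineOpen (ψ ⁻¹ᵁ W) := IsAffineHom.isAffine_preimage W hW
  have frac : ∀ (V : A.Opens) (_ : IsAffineOpen V) [Nonempty V] (x : s26F f),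
      ∃ a b : Γ(A, V), b ≠ 0 ∧ x * s26germ f V b = s26germ f V a := by
    intro V hV' _ x
    haveI := functionField_isFractionRing_of_isAffineOpen A V hV'
    obtain ⟨⟨a, ⟨b, hb⟩⟩, h⟩ :=
      IsLocalization.surj (S := A.functionField) (nonZeroDivisors Γ(A, V)) x
    exact ⟨a, b, nonZeroDivisors.ne_zero hb, h⟩
  exact
    { injR := Scheme.germToFunctionField_injective A W
      injS := Scheme.germToFunctionField_injective A (ψ ⁻¹ᵁ W)
      fracR := frac W hW
      fracS := frac (ψ ⁻¹ᵁ W) hV
      comm := fun r => (hφ W inferInstance inferInstance r).symm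
      fin := ψ.finite_app W hW }

/-- **(sep)**: `K(A) / φ K(A)` is finite, for finite dominant `ψ`. -/
theorem s26f3_finite_field (ψ : A ⟶ A) [IsFinite ψ] [IsDominant ψ]
    (φ : s26F f →ₐ[K] s26F f) (hφ : s26IsPull f ψ φ) :
    Module.Finite φ.fieldRange (s26F f) := by
  obtain ⟨W, hW, hW1, hW2⟩ := s26f1_exists_affine ψ
  exact s26f3_phi_finite (s26f3_chart f ψ φ hφ hW)

/-- **(sep)**: `K(A) / φ K(A)` is separable, for finite dominant unramified `ψ`. -/
theorem s26f3_separable_field (ψ : A ⟶ A) [IsFinite ψ] [IsDominant ψ] [FormallyUnramified ψ]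
    (φ : s26F f →ₐ[K] s26F f) (hφ : s26IsPull f ψ φ) :
    Algebra.IsSeparable φ.fieldRange (s26F f) := by
  obtain ⟨W, hW, hW1, hW2⟩ := s26f1_exists_affine ψ
  have hV : IsAffineOpen (ψ ⁻¹ᵁ W) := IsAffineHom.isAffine_preimage W hW
  refine s26f3_phi_separable (s26f3_chart f ψ φ hφ hW) ?_
  rw [Scheme.Hom.app_eq_appLE]
  exact HasRingHomProperty.appLE (P := @FormallyUnramified) ψ inferInstance ⟨W, hW⟩
    ⟨ψ ⁻¹ᵁ W, hV⟩ _

end Fermat.Agent.S26
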