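import Fermat.Agent.S26.F3Core

/-!
# S26, piece F3 (part 2): the core in the shape of `S26Growth`

`F` a field over `K`, `Φ : F →ₐ[K] F` (in the geometry `Φ = ψ^*`, `ψ = [n^k]`), and a *chart*:
rings `R`, `S` with fraction field `F` (embeddings `iR`, `iS`; in the geometry `R = Γ(W)`,
`S = Γ(ψ⁻¹W)` for an affine open `W`), a finite ring map `ψ♯ : R → S` with `iS ∘ ψ♯ = Φ ∘ iR`.

* `s26f3_phi_finite`, `s26f3_phi_separable` : `F / Φ F` is finite, separable   (= (sep));
* `s26f3_phi_span` : the image of `S` spans `F` over `Φ F`                        (core of (b3));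
* `s26f3_phi_trace_exists` : `Tr_{F/ΦF} x = Φ y` for some `y`;
* `s26f3_phi_trace` : if `x` has no pole at the primes of `S` over `w` and `R_w` is integrally
  closed, then `y` has no pole at `w`                                             (core of (c2)).
-/

set_option autoImplicit false
set_option linter.unusedSectionVars false
set_option linter.style.haveILetI false

namespace Fermat.Agent.S26

open scoped nonZeroDivisors

/-- A ring with an injection into a field `F`, every element of which is a fraction, has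
fraction field `F`. -/
theorem s26f3_isFractionRing_of {R F : Type*} [CommRing R] [Field F] [Algebra R F]
    (hinj : Function.Injective (algebraMap R F))
    (hfrac : ∀ x : F, ∃ a b : R, b ≠ 0 ∧ x * algebraMap R F b = algebraMap R F a) :
    IsFractionRing R F := by
  haveI : IsDomain R := hinj.isDomain _
  refine (isLocalization_iff (M := R⁰) (S := F)).mpr ⟨?_, ?_, ?_⟩
  · rintro ⟨y, hy⟩
    refine IsUnit.mk0 _ ?_
    intro h
    exact nonZeroDivisors.ne_zero hy (hinj (by simpa using h))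
  · intro z
    obtain ⟨a, b, hb, h⟩ := hfrac z
    exact ⟨(a, ⟨b, mem_nonZeroDivisors_of_ne_zero hb⟩), h⟩
  · intro x y h
    exact ⟨1, by rw [hinj h]⟩

/-- The chart data. -/
structure S26f3Chart {K F R S : Type*} [Field K] [Field F] [Algebra K F] [CommRing R]
    [CommRing S] (Φ : F →ₐ[K] F) (iR : R →+* F) (iS : S →+* F) (ψ : R →+* S) : Prop where
  injR : Function.Injective iR
  injS : Function.Injective iS
  fracR : ∀ x : F, ∃ a b : R, b ≠ 0 ∧ x * iR b = iR a
  fracS : ∀ x : F, ∃ a b : S, b ≠ 0 ∧ x * iS b = iS a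
  comm : ∀ r, iS (ψ r) = Φ (iR r)
  fin : ψ.Finite

section phi

variable {K F R S : Type*} [Field K] [Field F] [Algebra K F] [CommRing R] [CommRing S]
  {Φ : F →ₐ[K] F} {iR : R →+* F} {iS : S →+* F} {ψ : R →+* S}

/-- `R → Φ F`, `r ↦ Φ (iR r)`. -/
noncomputable def s26f3ToRange (Φ : F →ₐ[K] F) (iR : R →+* F) : R →+* Φ.fieldRange :=
  (Φ.equivFieldRange : F →+* Φ.fieldRange).comp iR

theorem s26f3ToRange_coe (Φ : F →ₐ[K] F) (iR : R →+* F) (r : R) :
    ((s26f3ToRange Φ iR r : Φ.fieldRange) : F) = Φ (iR r) := rfl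

/-- The main transfer: all instances of the core, from a chart. -/
theorem s26f3_phi_core (h : S26f3Chart Φ iR iS ψ) :
    letI : Algebra R S := ψ.toAlgebra
    letI : Algebra S F := iS.toAlgebra
    letI : Algebra R F := (iS.comp ψ).toAlgebra
    letI : Algebra R Φ.fieldRange := (s26f3ToRange Φ iR).toAlgebra
    IsDomain R ∧ IsDomain S ∧ IsFractionRing R Φ.fieldRange ∧ IsFractionRing S F ∧
      IsScalarTower R S F ∧ IsScalarTower R Φ.fieldRange F ∧ Module.Finite R S := by
  letI : Algebra R S := ψ.toAlgebra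
  letI : Algebra S F := iS.toAlgebra
  letI : Algebra R F := (iS.comp ψ).toAlgebra
  letI : Algebra R Φ.fieldRange := (s26f3ToRange Φ iR).toAlgebra
  refine ⟨h.injR.isDomain _, h.injS.isDomain _, ?_, ?_, ?_, ?_, h.fin⟩
  · refine s26f3_isFractionRing_of ?_ ?_
    · intro a b hab
      have : Φ (iR a) = Φ (iR b) := congrArg Subtype.val hab
      exact h.injR (Φ.injective this)
    · rintro ⟨x, y, rfl⟩
      obtain ⟨a, b, hb, hab⟩ := h.fracR y
      refine ⟨a, b, hb, Subtype.ext ?_⟩
      change Φ y * Φ (iR b) = Φ (iR a)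
      rw [← map_mul, hab]
  · exact s26f3_isFractionRing_of h.injS h.fracS
  · exact IsScalarTower.of_algebraMap_eq (fun r => rfl)
  · exact IsScalarTower.of_algebraMap_eq (fun r => h.comm r)

/-- **(sep), finite.** -/
theorem s26f3_phi_finite (h : S26f3Chart Φ iR iS ψ) : Module.Finite Φ.fieldRange F := by
  letI : Algebra R S := ψ.toAlgebra
  letI : Algebra S F := iS.toAlgebra
  letI : Algebra R F := (iS.comp ψ).toAlgebra
  letI : Algebra R Φ.fieldRange := (s26f3ToRange Φ iR).toAlgebra
  obtain ⟨h1, h2, h3, h4, h5, h6, h7⟩ := s26f3_phi_core h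
  exact s26f3_finite R S Φ.fieldRange F

/-- **(sep), separable.** -/
theorem s26f3_phi_separable (h : S26f3Chart Φ iR iS ψ) (hu : ψ.FormallyUnramified) :
    Algebra.IsSeparable Φ.fieldRange F := by
  letI : Algebra R S := ψ.toAlgebra
  letI : Algebra S F := iS.toAlgebra
  letI : Algebra R F := (iS.comp ψ).toAlgebra
  letI : Algebra R Φ.fieldRange := (s26f3ToRange Φ iR).toAlgebra
  obtain ⟨h1, h2, h3, h4, h5, h6, h7⟩ := s26f3_phi_core h
  haveI : Algebra.FormallyUnramified R S := hu
  exact s26f3_separable R S Φ.fieldRange F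

/-- **(b3), core.** -/
theorem s26f3_phi_span (h : S26f3Chart Φ iR iS ψ) (x : F) :
    x ∈ Submodule.span Φ.fieldRange (Set.range iS) := by
  letI : Algebra R S := ψ.toAlgebra
  letI : Algebra S F := iS.toAlgebra
  letI : Algebra R F := (iS.comp ψ).toAlgebra
  letI : Algebra R Φ.fieldRange := (s26f3ToRange Φ iR).toAlgebra
  obtain ⟨h1, h2, h3, h4, h5, h6, h7⟩ := s26f3_phi_core h
  exact s26f3_span R S Φ.fieldRange F x

/-- The trace lies in `Φ F`. -/
theorem s26f3_phi_trace_exists (Φ : F →ₐ[K] F) (x : F) :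
    ∃ y : F, ((Algebra.trace Φ.fieldRange F x : Φ.fieldRange) : F) = Φ y := by
  obtain ⟨y, hy⟩ := (Algebra.trace Φ.fieldRange F x).2
  exact ⟨y, hy.symm⟩

/-- **(c2), core.**  `hw` says that `R_w` is integrally closed in `F`. -/
theorem s26f3_phi_trace (h : S26f3Chart Φ iR iS ψ) (w : Ideal R) [w.IsPrime]
    (hw : ∀ y : F, (∃ p : Polynomial R, p.Monic ∧ Polynomial.eval₂ iR y p = 0) →
      ∃ r u : R, u ∉ w ∧ y * iR u = iR r)
    (x : F)
    (hx : ∀ q : Ideal S, q.IsPrime → q.comap ψ = w →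
      ∃ s t : S, t ∉ q ∧ x * iS t = iS s)
    (y : F) (hy : ((Algebra.trace Φ.fieldRange F x : Φ.fieldRange) : F) = Φ y) :
    ∃ r u : R, u ∉ w ∧ y * iR u = iR r := by
  letI : Algebra R S := ψ.toAlgebra
  letI : Algebra S F := iS.toAlgebra
  letI : Algebra R F := (iS.comp ψ).toAlgebra
  letI : Algebra R Φ.fieldRange := (s26f3ToRange Φ iR).toAlgebra
  obtain ⟨h1, h2, h3, h4, h5, h6, h7⟩ := s26f3_phi_core h
  have hw' : ∀ y₀ : Φ.fieldRange, IsIntegral R y₀ →
      ∃ r u : R, u ∉ w ∧ y₀ * algebraMap R Φ.fieldRange u = algebraMap R Φ.fieldRange r := by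
    rintro ⟨_, y₁, rfl⟩ ⟨p, hp, hp0⟩
    have h0 : Polynomial.eval₂ iR y₁ p = 0 := by
      apply Φ.injective
      rw [map_zero]
      have h2 : Polynomial.eval₂ ((Φ : F →+* F).comp iR) (Φ y₁) p = 0 := by
        have := congrArg (Subtype.val : Φ.fieldRange → F) hp0
        rw [ZeroMemClass.coe_zero] at this
        rw [← this]
        change _ = (Φ.fieldRange.toSubfield.subtype) _
        rw [Polynomial.hom_eval₂]
        rfl
      rw [← h2]
      exact (Polynomial.hom_eval₂ p iR (Φ : F →+* F) y₁)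
    obtain ⟨r, u, hu, hru⟩ := hw y₁ ⟨p, hp, h0⟩
    refine ⟨r, u, hu, Subtype.ext ?_⟩
    change Φ y₁ * Φ (iR u) = Φ (iR r)
    rw [← map_mul, hru]
  obtain ⟨r, u, hu, hru⟩ := s26f3_trace_mem R S Φ.fieldRange F w hw' x hx
  refine ⟨r, u, hu, Φ.injective ?_⟩
  have := congrArg (Subtype.val : Φ.fieldRange → F) hru
  change Φ (y * iR u) = Φ (iR r)
  rw [map_mul, ← hy]
  exact this

end phi

end Fermat.Agent.S26
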