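/-
S26, G1 glue (helper87): the target of G1-up (`s26g1u_StmtUp`, helper63) gives the Prop used by
the captain's reductions (`s26g1lo_StmtUp`, `s26_StmtGrowth`).

* `s26g1glue_up`     : `s26g1u_StmtUp → s26g1lo_StmtUp`;
* `s26g1glue_growth` : `s26g1u_StmtUp → s26_StmtGrowth`.
-/
import Fermat.Agent.S26.G1LoInst
import Fermat.Agent.S26.G1UpPlan

set_option autoImplicit false

noncomputable section
namespace Fermat.Agent.S26
open CategoryTheory CategoryTheory.Limits AlgebraicGeometry NeronModelInfra GoodReductionJacobian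
universe u

/-- G1-up in the form of `G1UpPlan` gives G1-up in the form of `G1LoInst`. -/
theorem s26g1glue_up (h : s26g1u_StmtUp.{u}) : s26g1lo_StmtUp.{u} := by
  intro K _ A f G g H _ _ U hU
  obtain ⟨hfin, hup⟩ := h K f G g H
  have hne : Nonempty U := ⟨⟨s26zero f G, hU.2.1⟩⟩
  exact ⟨hfin, hup U hne hU.1⟩

/-- G1-up in the form of `G1UpPlan` gives `s26_StmtGrowth`. -/
theorem s26g1glue_growth (h : s26g1u_StmtUp.{u}) : s26_StmtGrowth.{u} :=
  s26g1lo_growth (s26g1glue_up h)

end Fermat.Agent.S26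
end
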