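import Fermat.Agent.S26.G1UpPlan
import Fermat.Agent.S26.Hartogs
import Fermat.Agent.S26.F3Geo
import Fermat.Agent.S26.F2
import Fermat.Agent.S26.A2Final

/-!
# S26, G1-up, geometric Hartogs (helper20; algebraic core `s26h_hartogs` by helper68)

* `s26g1h_exists_point`      : every prime of `Γ(V)`, `V` affine open, is the prime of a point;
* `s26g1h_coheight_eq_height`: `coheight z = height 𝔭_z`;
* `s26g1h_hartogs`           : `X` integral, locally noetherian, `W` affine open with `Γ(W)`
                               integrally closed, DVR stalks at the prime divisors: a rational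
                               function without poles at the prime divisors in `W` is a section
                               over `W`;
* `s26g1h_mul_pow_mem`       : the shape needed for the centres: if `σ ∈ Γ(W)` vanishes at the
                               prime divisors of `W` outside `U` and `x ∈ L(U, m)`, then
                               `x σ^m ∈ Γ(W)`;
* **`s26g1h_stmtHartogs : s26g1u_StmtHartogs`**.
-/

set_option autoImplicit false
set_option linter.style.haveILetI false
set_option linter.unusedSectionVars false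
set_option linter.overlappingInstances false

noncomputable section

namespace Fermat.Agent.S26

open AlgebraicGeometry CategoryTheory CategoryTheory.Limits TopologicalSpace IsLocalRing
  NeronModelInfra GoodReductionJacobian

universe u

section Gen

variable {X : Scheme.{u}}

/-- Every prime of `Γ(V)` is the prime of a point of the affine open `V`. -/
theorem s26g1h_exists_point {V : X.Opens} (hV : IsAffineOpen V) (p : Ideal Γ(X, V))
    (hp : p.IsPrime) :
    ∃ (z : X) (hz : z ∈ V), (hV.primeIdealOf ⟨z, hz⟩).asIdeal = p := by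
  let Q : ↥(Spec Γ(X, V)) := (⟨p, hp⟩ : PrimeSpectrum Γ(X, V))
  let z' : (V : X.Opens) := hV.isoSpec.inv Q
  have h1 : hV.primeIdealOf ⟨z'.1, z'.2⟩ = Q := by
    change hV.isoSpec.hom (hV.isoSpec.inv Q) = Q
    have := Scheme.Hom.comp_apply hV.isoSpec.inv hV.isoSpec.hom Q
    rw [← this, Iso.inv_hom_id]
    rfl
  exact ⟨z'.1, z'.2, by rw [h1]⟩

/-- `coheight z = height 𝔭_z`. -/
theorem s26g1h_coheight_eq_height {V : X.Opens} (hV : IsAffineOpen V) (z : X) (hz : z ∈ V) :
    Order.coheight z = (hV.primeIdealOf ⟨z, hz⟩).asIdeal.height := by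
  letI : Algebra Γ(X, V) (X.presheaf.stalk z) := (X.presheaf.germ V z hz).hom.toAlgebra
  haveI : IsLocalization.AtPrime (X.presheaf.stalk z) (hV.primeIdealOf ⟨z, hz⟩).asIdeal :=
    hV.isLocalization_stalk ⟨z, hz⟩
  have h1 := ringKrullDim_stalk_eq_coheight z
  rw [IsLocalization.AtPrime.ringKrullDim_eq_height (hV.primeIdealOf ⟨z, hz⟩).asIdeal
    (X.presheaf.stalk z)] at h1
  exact_mod_cast h1.symm

variable [IsIntegral X] [IsLocallyNoetherian X]

/-- **Geometric Hartogs.** -/
theorem s26g1h_hartogs {W : X.Opens} (hW : IsAffineOpen W) [Nonempty W]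
    [IsIntegrallyClosed Γ(X, W)]
    (hdvr : ∀ z : X, Order.coheight z = 1 → IsDiscreteValuationRing (X.presheaf.stalk z))
    (x : X.functionField)
    (hx : ∀ z : X, Order.coheight z = 1 → z ∈ W → 0 ≤ Scheme.ord x z) :
    ∃ r : Γ(X, W), (X.germToFunctionField W).hom r = x := by
  rcases eq_or_ne x 0 with rfl | hx0
  · exact ⟨0, map_zero _⟩
  haveI : IsNoetherianRing Γ(X, W) := IsLocallyNoetherian.component_noetherian ⟨W, hW⟩
  haveI := functionField_isFractionRing_of_isAffineOpen X W hW
  have key := s26h_hartogs (R := Γ(X, W)) (F := X.functionField) x (by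
    intro p hp hp1
    obtain ⟨z, hz, hzp⟩ := s26g1h_exists_point hW p hp
    have hz1 : Order.coheight z = 1 := by
      rw [s26g1h_coheight_eq_height hW z hz, hzp, hp1]
    haveI := hdvr z hz1
    have hmem := (s26f3_ord_nonneg_iff z hx0).mp (hx z hz1 hz)
    obtain ⟨s, t, ht, hst⟩ := (s26f3_mem_stalk_iff hW z hz x).mp hmem
    exact ⟨s, t, hzp ▸ ht, hst⟩)
  obtain ⟨r, hr⟩ := key
  exact ⟨r, hr⟩

end Gen

variable {K : Type u} [Field K] {A : Scheme.{u}} (f : A ⟶ Spec (CommRingCat.of K))
  [IsIntegral A] [IsLocallyNoetherian A]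

/-- the order of a power. -/
theorem s26g1h_ord_pow {t : s26F f} (ht : t ≠ 0) (n : ℕ) (z : A) :
    s26ord f (t ^ n) z = n * s26ord f t z := by
  induction n with
  | zero =>
    have := s26f2_ord_algebraMap f (one_ne_zero (α := K)) z
    rw [map_one] at this
    simp [this]
  | succ n ih =>
    rw [pow_succ, s26f2_ord_mul f (pow_ne_zero n ht) ht, ih]
    push_cast
    ring

/-- **The shape for the centres**: `W` affine with `Γ(W)` integrally closed, `σ ∈ Γ(W)`
vanishing at the prime divisors in `W ∖ U`; then `x σ^m ∈ Γ(W)` for `x ∈ L(U, m)`. -/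
theorem s26g1h_mul_pow_mem {W : A.Opens} (hW : IsAffineOpen W) [Nonempty W]
    [IsIntegrallyClosed Γ(A, W)]
    (hdvr : ∀ z : A, Order.coheight z = 1 → IsDiscreteValuationRing (A.presheaf.stalk z))
    (U : A.Opens) (σ : Γ(A, W)) (hσ0 : σ ≠ 0)
    (hσ : ∀ z : A, Order.coheight z = 1 → z ∈ W → z ∉ U → 1 ≤ s26ord f (s26germ f W σ) z)
    (m : ℕ) (x : s26F f) (hx : x ∈ s26Lset f U m) :
    ∃ r : Γ(A, W), s26germ f W r = x * (s26germ f W σ) ^ m := by
  rcases eq_or_ne x 0 with rfl | hx0
  · exact ⟨0, by rw [map_zero, zero_mul]⟩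
  have hσF : s26germ f W σ ≠ 0 := by
    intro h0
    exact hσ0 (Scheme.germToFunctionField_injective A W (h0.trans (map_zero _).symm))
  refine s26g1h_hartogs (X := A) hW hdvr (x * (s26germ f W σ) ^ m) ?_
  intro z hz hzW
  have h1 : s26ord f (x * (s26germ f W σ) ^ m) z =
      s26ord f x z + m * s26ord f (s26germ f W σ) z := by
    rw [s26f2_ord_mul f hx0 (pow_ne_zero m hσF), s26g1h_ord_pow f hσF]
  change 0 ≤ s26ord f (x * (s26germ f W σ) ^ m) z
  rw [h1]
  have h2 : 0 ≤ s26ord f (s26germ f W σ) z := s26f3_ord_germ_nonneg (X := A) W σ z hzW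
  obtain ⟨hxU, hxm⟩ := hx z hz
  by_cases hzU : z ∈ U
  · have := hxU hzU
    positivity
  · have h3 := hσ z hz hzW hzU
    have h4 : (m : ℤ) * 1 ≤ m * s26ord f (s26germ f W σ) z :=
      mul_le_mul_of_nonneg_left h3 (Int.natCast_nonneg m)
    omega

/-- **(G-a) Hartogs** (`s26g1u_StmtHartogs`). -/
theorem s26g1h_stmtHartogs : s26g1u_StmtHartogs.{u} := by
  intro K _ A f G g hyp _ _ U _ hU m x hx
  obtain ⟨_, -, -, hdvr⟩ := s26a2_stmtA2 K f G g hyp
  rw [s26f2_mem_L_iff f hdvr] at hx
  haveI : Smooth f := hyp.bundle.smooth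
  haveI := s26a2_isIntegrallyClosed_section f hU
  exact s26g1h_hartogs (X := A) hU hdvr x (fun z hz hzU => (hx z hz).1 hzU)

end Fermat.Agent.S26
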